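import Mathlib
import Fermat.Agent.T2.helper51_SN

/-!
# T7 (helper22): `p`-root closedness of the ring of reductions (abstract part)

Setting of `helper51_Ideal`: `R ⊆ B` a `k`-subalgebra containing the common kernel of finitely
many `k`-points `ev i : B →ₐ[k] k`.

* `mem_of_ev_const` : an element of `B` whose values are constant on the classes of points
  which `R` does not separate lies in `R`;
* `mem_of_pow_mem` : if `k` has characteristic `p`, then `x ^ (p ^ e) ∈ R → x ∈ R`;
* `mem_of_pow_mem_of_graphs` : the same in the setting of `helper51.ideal_step_of_graphs`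
  (two components glued along a Frobenius).
-/

set_option autoImplicit false

namespace Fermat.Agent.T7.helper22

open Fermat.Agent.T2.helper51

noncomputable section

variable {k B ι : Type*} [Field k] [CommRing B] [Algebra k B]

/-- an element whose values are constant on the classes of points not separated by `R` lies in
`R` (finite Stone-Weierstrass). -/
theorem mem_of_ev_const [Finite ι] (R : Subalgebra k B) (ev : ι → B →ₐ[k] k)
    (hIR : ∀ x, (∀ i, ev i x = 0) → x ∈ R) {x : B}
    (hx : ∀ i j, (∀ r ∈ R, ev i r = ev j r) → ev i x = ev j x) : x ∈ R := by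
  classical
  have : Fintype (Quotient (evSetoid R ev)) := Fintype.ofFinite _
  obtain ⟨r, hrR, hr1, hr0⟩ := exists_mem_evRep_eq R ev
  obtain ⟨y, hy⟩ : ∃ y : B, y = ∑ c, ev (Quotient.out c) x • r c := ⟨_, rfl⟩
  have hyR : y ∈ R := by
    rw [hy]
    exact Subalgebra.sum_mem _ fun c _ => R.smul_mem (hrR c) _
  have hyrep : ∀ c : Quotient (evSetoid R ev), ev (Quotient.out c) y = ev (Quotient.out c) x := by
    intro c
    rw [hy, map_sum, Finset.sum_eq_single c]
    · have h1 : ev (Quotient.out c) (r c) = 1 := by simpa using hr1 c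
      rw [map_smul, h1, smul_eq_mul, mul_one]
    · intro c' _ hc'
      have h0 : ev (Quotient.out c) (r c') = 0 := by simpa using hr0 c' c (Ne.symm hc')
      rw [map_smul, h0, smul_zero]
    · intro h
      exact absurd (Finset.mem_univ c) h
  have hdiff : ∀ i, ev i (x - y) = 0 := by
    intro i
    have h1 : ev (Quotient.out (s := evSetoid R ev) ⟦i⟧) y = ev i y := ev_out_eq R ev i hyR
    have h2 : ev (Quotient.out (s := evSetoid R ev) ⟦i⟧) x = ev i x := by
      apply hx
      intro r' hr'
      exact ev_out_eq R ev i hr'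
    rw [map_sub, ← h1, ← h2, hyrep, sub_self]
  have := R.add_mem (hIR _ hdiff) hyR
  simpa using this

/-- **`p`-root closedness**: if `k` has characteristic `p`, then `x ^ (p ^ e) ∈ R` implies
`x ∈ R`. -/
theorem mem_of_pow_mem [Finite ι] (R : Subalgebra k B) (ev : ι → B →ₐ[k] k)
    (hIR : ∀ x, (∀ i, ev i x = 0) → x ∈ R) (p : ℕ) [Fact p.Prime] [CharP k p] (e : ℕ)
    {x : B} (hx : x ^ (p ^ e) ∈ R) : x ∈ R := by
  refine mem_of_ev_const R ev hIR fun i j hij => ?_
  have h := hij _ hx
  rw [map_pow, map_pow] at h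
  exact iterateFrobenius_inj k p e (by simpa [iterateFrobenius_def] using h)

section Graphs

variable {B' : Type*} [CommRing B'] [Algebra k B'] [IsAlgClosed k]

/-- **`p`-root closedness for two components glued along a Frobenius**: in the setting of
`helper51.ideal_step_of_graphs`, with `k` of characteristic `p`. -/
theorem mem_of_pow_mem_of_graphs (Fr : B' → B') (ℓ : ℕ) (hℓ : 2 ≤ ℓ)
    (hpow : ∀ f, ∃ h, Fr (Fr f) = h ^ ℓ) [Module.Finite k (B' ⧸ frobIdeal Fr)]
    (R : Subalgebra k (B' × B')) (h1 : ∀ f, (f, Fr f) ∈ R) (h2 : ∀ f, (Fr f, f) ∈ R)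
    (p : ℕ) [Fact p.Prime] [CharP k p] (e : ℕ) {x : B' × B'} (hx : x ^ (p ^ e) ∈ R) :
    x ∈ R := by
  obtain ⟨ev, hfin, hev⟩ :=
    exists_points_of_isRadical (k := k) (frobIdeal Fr) (isRadical_frobIdeal k Fr ℓ hℓ hpow)
  have hker : ∀ x : B' × B', (∀ i, prodPoints ev i x = 0) ↔
      x ∈ Ideal.prod (frobIdeal Fr) (frobIdeal Fr) := by
    intro x
    rw [Ideal.mem_prod, ← hev, ← hev]
    constructor
    · intro h
      exact ⟨fun i => h (Sum.inl i), fun i => h (Sum.inr i)⟩
    · rintro ⟨ha, hb⟩ (i | i)
      · exact ha i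
      · exact hb i
  have hIR : ∀ x, (∀ i, prodPoints ev i x = 0) → x ∈ R := fun x hx =>
    prod_span_le Fr R h1 h2 x ((hker x).1 hx)
  exact mem_of_pow_mem R (prodPoints ev) hIR p e hx

end Graphs

end

end Fermat.Agent.T7.helper22
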