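import Mathlib
import Fermat.Agent.T2.helper22_IdealStep2
import Fermat.Agent.T2.helper72_Interface
import Fermat.Agent.T7.helper22_RootClosed

/-!
# T7 (helper22): leaf [T0-REP], the ideal step at `n = p ^ e`, `p` the residue characteristic

Setting of the tier-2 ideal step (`helper22_CoreDefs`): level `M`, `A : ValuationSubring Kb`,
`W` an involution of `FF M`; `k = kA A` of characteristic `p`.

* `idealStep2_mods` : the module form of `idealStep2` (`x₁ y₁ + x₂ y₂ = 1` with `x_i ∈ ã`,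
  `y_i ∈ b̃`);
* `Rt_root_closed` : `x ^ (p ^ e) ∈ Rt → x ∈ Rt`;
* `one_mem_aMod` : `1 ∈ ã` for `n = p ^ e`;
* `t0Rep_inv`, `t0Rep` : **[T0-REP]** for `u ≠ 0` with `p ^ e ∣ div u`, `u ≡ 1` at `w₁` and `w₂`,
  there is `G ≡ 1` (at `w₁` and `w₂`) such that `G ^ (p ^ e) * u⁻¹` (resp. `G ^ (p ^ e) * u`) is
  regular off the two cusps with integral pair of expansions of reduction `(1, 1)`
  (`Fermat.Agent.T2.IsA0One`).
-/

set_option autoImplicit false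
set_option linter.unusedSectionVars false

noncomputable section

namespace Fermat.Agent.T7.helper22

open HahnSeries IntermediateField AlgebraicCurve ModularCurve
open Fermat.Agent.S18.helper19 Fermat.Agent.P2.helper29 Fermat.Agent.P2.helper22
open Fermat.Agent.S24
open Fermat.Agent.P2
open Fermat.Agent.T2.helper22

variable {M : ℕ} [NeZero M] {A : ValuationSubring Kb} {W : FF M ≃ₐ[Kb] FF M}

/-- shortcut instance (the instance found by synthesis, which is slow to find) -/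
local instance algebraFFbT7 : Algebra (kA A) (FFb A M) := SubalgebraClass.toAlgebra (FFb A M)

/-- **the ideal step, module form**: `1 = x₁ y₁ + x₂ y₂` with `x_i ∈ ã`, `y_i ∈ b̃`. -/
theorem idealStep2_mods (hWW : ∀ f, W (W f) = f) (hSc : ScaleStatement M A)
    (hInt : Integrality2Statement M A W) (hReg : RegRed2Statement M A W)
    (hSat : Sat2Statement M A W) (hSN : SN2Statement M A W)
    (hSb : helper74.RiemannSetting (kA A) (FFb A M))
    (hsep : ∃ f : FF M, f ≠ 0 ∧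
      (f : LaurentSeries Kb).order ≠ ((W f : FF M) : LaurentSeries Kb).order)
    {n : ℕ} (hn : 0 < n) {u : FF M} (hu0 : u ≠ 0)
    (hdiv : ∀ P : Place Kb (FF M), (n : ℤ) ∣ P.ord u)
    (hu1 : IsRedOne A M (u : LaurentSeries Kb))
    (hu2 : IsRedOne A M ((W u : FF M) : LaurentSeries Kb)) :
    ∃ (Q Q' : FF M) (YQ YQ' : Fin 2 → LaurentSeries A),
      IsRep A W Q (YQ 0) (YQ 1) ∧ IsRep A W Q' (YQ' 0) (YQ' 1) ∧
      (∀ i, IsGood A M (YQ i)) ∧ (∀ i, IsGood A M (YQ' i)) ∧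
      ∃ x₁ ∈ aMod A W n u Q YQ, ∃ y₁ ∈ aMod A W n u⁻¹ Q' YQ',
      ∃ x₂ ∈ aMod A W n u Q YQ, ∃ y₂ ∈ aMod A W n u⁻¹ Q' YQ', x₁ * y₁ + x₂ * y₂ = 1 := by
  classical
  obtain ⟨⟨Pinf, hPinf⟩, ⟨Qinf, hQinf⟩⟩ := inftyStatement M A
  have hP2 : IsInfty2 W (W.symm • Pinf) := isInfty2_symm_smul W hPinf
  have hne : Pinf ≠ W.symm • Pinf := cusps_ne hPinf hP2 hsep
  have hS := riemannSetting_FF M
  obtain ⟨g, hg⟩ := helper74.riemannStatement M
  have hineq := hg.1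
  have : IsAlgClosed (kA A) := helper74.isAlgClosed_residueField A
  -- the divisor of `u`
  obtain ⟨D, hD, hDdeg⟩ := exists_div_quot hS hn hu0 hdiv
  have hu0' : u⁻¹ ≠ 0 := inv_ne_zero hu0
  have hD' : ∀ v : Place Kb (FF M), (n : ℤ) * (-D) v = v.ord u⁻¹ := by
    intro v
    rw [Finsupp.neg_apply, v.ord_inv, ← hD v]
    ring
  have hDdeg' : Divisor.degree (-D) = 0 := by rw [map_neg, hDdeg, neg_zero]
  have hu1' : IsRedOne A M ((u⁻¹ : FF M) : LaurentSeries Kb) := isRedOne_inv hu1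
  have hu2' : IsRedOne A M ((W u⁻¹ : FF M) : LaurentSeries Kb) := by
    rw [map_inv₀]
    exact isRedOne_inv hu2
  -- the multipliers
  obtain ⟨Q, YQ, hQ, hQg, hQm⟩ :=
    exists_multiplier2 hWW hSc hInt hReg hineq hSb hPinf hP2 hne hQinf D
  obtain ⟨Q', YQ', hQ', hQg', hQm'⟩ :=
    exists_multiplier2 hWW hSc hInt hReg hineq hSb hPinf hP2 hne hQinf (-D)
  -- the Frobenius structure
  obtain ⟨Fr, ℓ, hℓ, hpow, hfinJ, hg1, hg2⟩ := hSN
  have : Module.Finite (kA A) (Bt A M ⧸ Fermat.Agent.T2.helper51.frobIdeal Fr) := hfinJ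
  -- the count
  obtain ⟨N₁, hN₁⟩ := count_upper hWW hSc hInt hSat hg hPinf hP2 hne
  have hLfin : ∀ N : ℕ, FiniteDimensional (kA A) (LMod A M (N : ℤ)) := fun N =>
    finiteDimensional_LMod hSb hQinf N
  have hcount : ∀ᶠ N : ℕ in Filter.atTop,
      2 * Module.finrank (kA A) ↥(Subalgebra.toSubmodule (Rt A W) ⊓ LMod A M (N : ℤ)) ≤
        Module.finrank (kA A) ↥(aMod A W n u Q YQ ⊓ LMod A M (N : ℤ)) +
          Module.finrank (kA A) ↥(aMod A W n u⁻¹ Q' YQ' ⊓ LMod A M (N : ℤ)) := by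
    rw [Filter.eventually_atTop]
    refine ⟨N₁.toNat, fun N hN => ?_⟩
    have h1 := hN₁ N (by
      have := Int.self_le_toNat N₁
      have h2 : (N₁.toNat : ℤ) ≤ N := by exact_mod_cast hN
      linarith)
    have h2 := count_lower hWW hSc hInt hReg hineq hPinf hP2 hne hn hu0 hu1 hu2 hQ hQg hD
      hDdeg (fun P hP hP' => (hQm P hP hP').2) (N : ℤ) (hLfin N)
    have h3 := count_lower hWW hSc hInt hReg hineq hPinf hP2 hne hn hu0' hu1' hu2' hQ' hQg' hD'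
      hDdeg' (fun P hP hP' => (hQm' P hP hP').2) (N : ℤ) (hLfin N)
    have h4 : (2 * Module.finrank (kA A)
        ↥(Subalgebra.toSubmodule (Rt A W) ⊓ LMod A M (N : ℤ)) : ℤ) ≤
        (Module.finrank (kA A) ↥(aMod A W n u Q YQ ⊓ LMod A M (N : ℤ)) : ℤ) +
          (Module.finrank (kA A) ↥(aMod A W n u⁻¹ Q' YQ' ⊓ LMod A M (N : ℤ)) : ℤ) := by
      linarith
    exact_mod_cast h4
  obtain ⟨-, -, x₁, hx₁, y₁, hy₁, x₂, hx₂, y₂, hy₂, hsum⟩ :=
    Fermat.Agent.T2.helper51.ideal_step_of_graphs Fr ℓ hℓ hpow (Rt A W) hg1 hg2 n hn.ne'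
      (aMod A W n u Q YQ) (aMod A W n u⁻¹ Q' YQ')
      (fun x hx => aMod_pow_mem hWW hInt hn hu0 hu1 hu2 hQ hQg hx)
      (fun x hx => aMod_pow_mem hWW hInt hn hu0' hu1' hu2' hQ' hQg' hx)
      (fun x hx y hy => aMod_mul_mem hWW hInt hn hQ hQg hQ' hQg' hx hy)
      (fun N : ℕ => LMod A M (N : ℤ)) hLfin
      (fun N N' h => LMod_mono (by exact_mod_cast h)) exists_mem_LMod hcount
  exact ⟨Q, Q', YQ, YQ', hQ, hQ', hQg, hQg', x₁, hx₁, y₁, hy₁, x₂, hx₂, y₂, hy₂, hsum⟩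

/-- **`Rt` is `p`-root closed** in `Bt × Bt` (`p` the characteristic of the residue field). -/
theorem Rt_root_closed (hSN : SN2Statement M A W) (p : ℕ) [Fact p.Prime] [CharP (kA A) p]
    (e : ℕ) {x : Bt A M × Bt A M} (hx : x ^ (p ^ e) ∈ Rt A W) : x ∈ Rt A W := by
  have : IsAlgClosed (kA A) := helper74.isAlgClosed_residueField A
  obtain ⟨Fr, ℓ, hℓ, hpow, hfinJ, hg1, hg2⟩ := hSN
  have : Module.Finite (kA A) (Bt A M ⧸ Fermat.Agent.T2.helper51.frobIdeal Fr) := hfinJ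
  exact mem_of_pow_mem_of_graphs Fr ℓ hℓ hpow (Rt A W) hg1 hg2 p e hx

/-- the ideal condition is stable under multiplication by a function regular off the cusps -/
theorem inIdeal_mul_reg {n : ℕ} {u Q Z f : FF M} (hI : InIdeal W n u Q Z) (hf : IsReg2 W f) :
    InIdeal W n u Q (f * Z) := by
  by_cases h0 : f * Z = 0
  · exact Or.inl h0
  have hf0 : f ≠ 0 := left_ne_zero_of_mul h0
  have hZ0 : Z ≠ 0 := right_ne_zero_of_mul h0
  refine Or.inr fun P hP hP2 => ?_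
  have h1 := (hI.resolve_left hZ0) P hP hP2
  have h2 := hf P hP hP2
  rw [P.ord_mul hf0 hZ0]
  have hn : (0 : ℤ) ≤ n := Int.natCast_nonneg n
  calc P.ord u ≤ (n : ℤ) * (P.ord Z - P.ord Q) := h1
    _ ≤ (n : ℤ) * (P.ord f + P.ord Z - P.ord Q) := by gcongr; linarith

/-- `ã` is an `Rt`-module -/
theorem aMod_Rt_mul {n : ℕ} {u Q : FF M} {YQ : Fin 2 → LaurentSeries A}
    {r y : Bt A M × Bt A M} (hr : r ∈ Rt A W) (hy : y ∈ aMod A W n u Q YQ) :
    r * y ∈ aMod A W n u Q YQ := by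
  obtain ⟨Z, YZ, hI, hZ, e0, e1⟩ := hy
  obtain ⟨f, Y₁, Y₂, hf, hY, h1, h2⟩ := hr
  refine ⟨f * Z, ![Y₁ * YZ 0, Y₂ * YZ 1], inIdeal_mul_reg hI hf, hY.mul hZ, ?_, ?_⟩
  · change red A (Y₁ * YZ 0) = red A (YQ 0) *
      ((r.1 : LaurentSeries (kA A)) * (y.1 : LaurentSeries (kA A)))
    rw [map_mul, h1, e0]
    ring
  · change red A (Y₂ * YZ 1) = red A (YQ 1) *
      ((r.2 : LaurentSeries (kA A)) * (y.2 : LaurentSeries (kA A)))
    rw [map_mul, h2, e1]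
    ring

/-- **`1 ∈ ã`** at `n = p ^ e`, for a suitable multiplier `Q`. -/
theorem one_mem_aMod (hWW : ∀ f, W (W f) = f) (hSc : ScaleStatement M A)
    (hInt : Integrality2Statement M A W) (hReg : RegRed2Statement M A W)
    (hSat : Sat2Statement M A W) (hSN : SN2Statement M A W)
    (hSb : helper74.RiemannSetting (kA A) (FFb A M))
    (hsep : ∃ f : FF M, f ≠ 0 ∧
      (f : LaurentSeries Kb).order ≠ ((W f : FF M) : LaurentSeries Kb).order)
    (p : ℕ) [hp : Fact p.Prime] [CharP (kA A) p] (e : ℕ) {u : FF M} (hu0 : u ≠ 0)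
    (hdiv : ∀ P : Place Kb (FF M), ((p ^ e : ℕ) : ℤ) ∣ P.ord u)
    (hu1 : IsRedOne A M (u : LaurentSeries Kb))
    (hu2 : IsRedOne A M ((W u : FF M) : LaurentSeries Kb)) :
    ∃ (Q : FF M) (YQ : Fin 2 → LaurentSeries A),
      IsRep A W Q (YQ 0) (YQ 1) ∧ (∀ i, IsGood A M (YQ i)) ∧
      (1 : Bt A M × Bt A M) ∈ aMod A W (p ^ e) u Q YQ := by
  have hn : 0 < p ^ e := pow_pos hp.out.pos e
  obtain ⟨Q, Q', YQ, YQ', hQ, hQ', hQg, hQg', x₁, hx₁, y₁, hy₁, x₂, hx₂, y₂, hy₂, hsum⟩ :=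
    idealStep2_mods hWW hSc hInt hReg hSat hSN hSb hsep hn hu0 hdiv hu1 hu2
  have hu0' : u⁻¹ ≠ 0 := inv_ne_zero hu0
  have hu1' : IsRedOne A M ((u⁻¹ : FF M) : LaurentSeries Kb) := isRedOne_inv hu1
  have hu2' : IsRedOne A M ((W u⁻¹ : FF M) : LaurentSeries Kb) := by
    rw [map_inv₀]
    exact isRedOne_inv hu2
  have hy₁R : y₁ ∈ Rt A W :=
    Rt_root_closed hSN p e (aMod_pow_mem hWW hInt hn hu0' hu1' hu2' hQ' hQg' hy₁)
  have hy₂R : y₂ ∈ Rt A W :=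
    Rt_root_closed hSN p e (aMod_pow_mem hWW hInt hn hu0' hu1' hu2' hQ' hQg' hy₂)
  refine ⟨Q, YQ, hQ, hQg, ?_⟩
  rw [← hsum, mul_comm x₁, mul_comm x₂]
  exact Submodule.add_mem _ (aMod_Rt_mul hy₁R hx₁) (aMod_Rt_mul hy₂R hx₂)

/-- **[T0-REP], inverse form**: for `u ≡ 1` at `w₁`, `w₂` with `p ^ e ∣ div u` there is `G ≡ 1`
at `w₁`, `w₂` with `G ^ (p ^ e) * u⁻¹` regular off the two cusps, integral at both, of reduction
`(1, 1)`. -/
theorem t0Rep_inv (hWW : ∀ f, W (W f) = f) (hSc : ScaleStatement M A)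
    (hInt : Integrality2Statement M A W) (hReg : RegRed2Statement M A W)
    (hSat : Sat2Statement M A W) (hSN : SN2Statement M A W)
    (hSb : helper74.RiemannSetting (kA A) (FFb A M))
    (hsep : ∃ f : FF M, f ≠ 0 ∧
      (f : LaurentSeries Kb).order ≠ ((W f : FF M) : LaurentSeries Kb).order)
    (p : ℕ) [hp : Fact p.Prime] [CharP (kA A) p] (e : ℕ) {u : FF M} (hu0 : u ≠ 0)
    (hdiv : ∀ P : Place Kb (FF M), ((p ^ e : ℕ) : ℤ) ∣ P.ord u)
    (hu1 : IsRedOne A M (u : LaurentSeries Kb))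
    (hu2 : IsRedOne A M ((W u : FF M) : LaurentSeries Kb)) :
    ∃ G : FF M, G ≠ 0 ∧ IsRedOne A M (G : LaurentSeries Kb) ∧
      IsRedOne A M ((W G : FF M) : LaurentSeries Kb) ∧
      Fermat.Agent.T2.IsA0One M W A (G ^ (p ^ e) * u⁻¹) := by
  have hn : 0 < p ^ e := pow_pos hp.out.pos e
  obtain ⟨Q, YQ, hQ, hQg, Z, YZ, hI, hZ, e0, e1⟩ :=
    one_mem_aMod hWW hSc hInt hReg hSat hSN hSb hsep p e hu0 hdiv hu1 hu2
  have e0' : red A (YZ 0) = red A (YQ 0) := by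
    rw [e0]
    exact mul_one _
  have e1' : red A (YZ 1) = red A (YQ 1) := by
    rw [e1]
    exact mul_one _
  have hQ0 : Q ≠ 0 := ne_zero_of_isRep_good hQ (hQg 0)
  have hZg0 : IsGood A M (YZ 0) := by
    refine ⟨?_, ?_, ?_⟩
    · change incl A (YZ 0) ∈ FF M
      rw [hZ.1]
      exact Z.2
    · change red A (YZ 0) ∈ FFb A M
      rw [e0']
      exact (hQg 0).2.1
    · change red A (YZ 0) ≠ 0
      rw [e0']
      exact (hQg 0).2.2
  have hZg1 : IsGood A M (YZ 1) := by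
    refine ⟨?_, ?_, ?_⟩
    · change incl A (YZ 1) ∈ FF M
      rw [hZ.2]
      exact (W Z).2
    · change red A (YZ 1) ∈ FFb A M
      rw [e1']
      exact (hQg 1).2.1
    · change red A (YZ 1) ≠ 0
      rw [e1']
      exact (hQg 1).2.2
  have hZ0 : Z ≠ 0 := ne_zero_of_isRep_good hZ hZg0
  have hWQ0 : W Q ≠ 0 := by simpa using hQ0
  obtain ⟨Y₀, Y₁, hHrep, hr₀, hr₁⟩ := exists_rep_pow_div hWW hInt hn hu0 hu1 hu2 hQ hQg hI hZ
  have h0 : red A Y₀ = 1 := by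
    rw [e0'] at hr₀
    have : red A Y₀ * red A (YQ 0) ^ (p ^ e) = 1 * red A (YQ 0) ^ (p ^ e) := by
      rw [hr₀, one_mul]
    exact mul_right_cancel₀ (pow_ne_zero _ (hQg 0).2.2) this
  have h1 : red A Y₁ = 1 := by
    rw [e1'] at hr₁
    have : red A Y₁ * red A (YQ 1) ^ (p ^ e) = 1 * red A (YQ 1) ^ (p ^ e) := by
      rw [hr₁, one_mul]
    exact mul_right_cancel₀ (pow_ne_zero _ (hQg 1).2.2) this
  have hHreg := isReg2_pow_div hn hu0 hQ0 hI
  refine ⟨Z / Q, div_ne_zero hZ0 hQ0, ⟨YZ 0, YQ 0, hZg0, hQg 0, ?_, e0'⟩,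
    ⟨YZ 1, YQ 1, hZg1, hQg 1, ?_, e1'⟩, ⟨hHreg, Y₀, Y₁, hHrep.1, hHrep.2, h0, h1⟩⟩
  · rw [hZ.1, hQ.1]
    change (Z : LaurentSeries Kb) = ((Z : LaurentSeries Kb) / (Q : LaurentSeries Kb)) *
      (Q : LaurentSeries Kb)
    rw [div_mul_cancel₀ _ (coe_ne_zero' hQ0)]
  · rw [hZ.2, hQ.2, map_div₀]
    change ((W Z : FF M) : LaurentSeries Kb) =
      (((W Z : FF M) : LaurentSeries Kb) / ((W Q : FF M) : LaurentSeries Kb)) *
        ((W Q : FF M) : LaurentSeries Kb)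
    rw [div_mul_cancel₀ _ (coe_ne_zero' hWQ0)]

/-- **[T0-REP]**: for `u ≡ 1` at `w₁`, `w₂` with `p ^ e ∣ div u` there is `G ≡ 1` at `w₁`, `w₂`
with `G ^ (p ^ e) * u` regular off the two cusps, integral at both, of reduction `(1, 1)`:
the class of `u` has a representative in `A₀` with reduction `(1, 1)`. -/
theorem t0Rep (hWW : ∀ f, W (W f) = f) (hSc : ScaleStatement M A)
    (hInt : Integrality2Statement M A W) (hReg : RegRed2Statement M A W)
    (hSat : Sat2Statement M A W) (hSN : SN2Statement M A W)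
    (hSb : helper74.RiemannSetting (kA A) (FFb A M))
    (hsep : ∃ f : FF M, f ≠ 0 ∧
      (f : LaurentSeries Kb).order ≠ ((W f : FF M) : LaurentSeries Kb).order)
    (p : ℕ) [hp : Fact p.Prime] [CharP (kA A) p] (e : ℕ) {u : FF M} (hu0 : u ≠ 0)
    (hdiv : ∀ P : Place Kb (FF M), ((p ^ e : ℕ) : ℤ) ∣ P.ord u)
    (hu1 : IsRedOne A M (u : LaurentSeries Kb))
    (hu2 : IsRedOne A M ((W u : FF M) : LaurentSeries Kb)) :
    ∃ G : FF M, G ≠ 0 ∧ IsRedOne A M (G : LaurentSeries Kb) ∧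
      IsRedOne A M ((W G : FF M) : LaurentSeries Kb) ∧
      Fermat.Agent.T2.IsA0One M W A (G ^ (p ^ e) * u) := by
  have hu0' : u⁻¹ ≠ 0 := inv_ne_zero hu0
  have hu1' : IsRedOne A M ((u⁻¹ : FF M) : LaurentSeries Kb) := isRedOne_inv hu1
  have hu2' : IsRedOne A M ((W u⁻¹ : FF M) : LaurentSeries Kb) := by
    rw [map_inv₀]
    exact isRedOne_inv hu2
  have hdiv' : ∀ P : Place Kb (FF M), ((p ^ e : ℕ) : ℤ) ∣ P.ord u⁻¹ := fun P => by
    rw [P.ord_inv]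
    exact (dvd_neg).2 (hdiv P)
  obtain ⟨G, hG0, hG1, hG2, hH⟩ :=
    t0Rep_inv hWW hSc hInt hReg hSat hSN hSb hsep p e hu0' hdiv' hu1' hu2'
  rw [inv_inv] at hH
  exact ⟨G, hG0, hG1, hG2, hH⟩

end Fermat.Agent.T7.helper22
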