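import Mathlib
import Fermat.Agent.T7.helper22_T0Rep
import Fermat.Agent.T2.helper72_SNGood
import Fermat.Agent.T2.helper45_Integrality2
import Fermat.Agent.T2.helper87_RegRed2U
import Fermat.Agent.T2.helper96_Sat
import Fermat.Agent.T2.helper58_ScaleBad
import Fermat.Agent.T2.helper22_PairIdealInst
import Fermat.Agent.P2.helper95_FFlInst

/-!
# T7 (helper22): leaf [T0-REP] at a bad pair with `n = p ^ e`, `A | p`

Level `N * p`, `N` good (`4 ∣ N ∨ 9 ∣ N`), `p ∤ N`, `A` a valuation subring of `ℚ̄` over `p`,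
`W = helper36.atkinLehner N p`.  All inputs of the tier-2 ideal step are on main (T2), none of
them needs the exponent to be prime to `p`.

* `Rt_root_closed_bad` : the ring of pairs of reductions is `p`-root closed;
* `t0Rep_bad` : **[T0-REP]** every `u ≠ 0` with `p ^ e ∣ div u` and `u ≡ 1` at both Gauss
  valuations can be multiplied by a `p ^ e`-th power `G ^ (p ^ e)`, `G ≡ 1` at both, such that
  `G ^ (p ^ e) * u` is regular off the two cusps with integral expansions of reduction `(1, 1)`;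
* `t0Rep_inv_bad` : the same for `G ^ (p ^ e) * u⁻¹`.
-/

set_option autoImplicit false
set_option linter.unusedSectionVars false
set_option synthInstance.maxHeartbeats 400000

noncomputable section

namespace Fermat.Agent.T7.helper22

open HahnSeries IntermediateField AlgebraicCurve ModularCurve
open Fermat.Agent.S18.helper19 Fermat.Agent.P2.helper29 Fermat.Agent.P2.helper22
open Fermat.Agent.S24
open Fermat.Agent.P2
open Fermat.Agent.T2.helper22
open Fermat.Agent.T2.helper36

variable (N p : ℕ) [NeZero N] [NeZero p] (hp : p.Prime) (hpN : ¬ p ∣ N)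

/-- the ring of pairs of reductions at a bad pair is `p`-root closed -/
theorem Rt_root_closed_bad (hN : 4 ∣ N ∨ 9 ∣ N) (A : ValuationSubring Kb)
    (hA : A.LiesOverPrime p) (e : ℕ) {x : Bt A (N * p) × Bt A (N * p)}
    (hx : x ^ (p ^ e) ∈ Rt A (atkinLehner N p hp hpN)) :
    x ∈ Rt A (atkinLehner N p hp hpN) := by
  have : Fact p.Prime := ⟨hp⟩
  have : CharP (kA A) p := Fermat.Agent.P2.helper93.charP_residueField hp hA
  exact Rt_root_closed (Fermat.Agent.T2.helper72.sn2Statement_good hp hpN A hA hN) p e hx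

/-- **[T0-REP]** at a bad pair, inverse form. -/
theorem t0Rep_inv_bad (hN : 4 ∣ N ∨ 9 ∣ N) (A : ValuationSubring Kb)
    (hA : A.LiesOverPrime p) (e : ℕ) {u : FF (N * p)} (hu0 : u ≠ 0)
    (hdiv : ∀ P : Place Kb (FF (N * p)), ((p ^ e : ℕ) : ℤ) ∣ P.ord u)
    (hu1 : IsRedOne A (N * p) (u : LaurentSeries Kb))
    (hu2 : IsRedOne A (N * p) ((atkinLehner N p hp hpN u : FF (N * p)) : LaurentSeries Kb)) :
    ∃ G : FF (N * p), G ≠ 0 ∧ IsRedOne A (N * p) (G : LaurentSeries Kb) ∧
      IsRedOne A (N * p) ((atkinLehner N p hp hpN G : FF (N * p)) : LaurentSeries Kb) ∧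
      Fermat.Agent.T2.IsA0One (N * p) (atkinLehner N p hp hpN) A (G ^ (p ^ e) * u⁻¹) := by
  have : Fact p.Prime := ⟨hp⟩
  have : CharP (kA A) p := Fermat.Agent.P2.helper93.charP_residueField hp hA
  exact t0Rep_inv (atkinLehner_atkinLehner N p hp hpN)
    (Fermat.Agent.T2.helper58.scaleStatement_bad N p hp hpN A hA)
    (Fermat.Agent.T2.helper45.integrality2Statement N p hp hpN A)
    (Fermat.Agent.T2.helper87.regRed2_holds N p hp hpN A hA)
    (Fermat.Agent.T2.helper96.sat2 N p hp hpN A
      (Fermat.Agent.T2.helper72.surjRed_good hp hpN A hA hN))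
    (Fermat.Agent.T2.helper72.sn2Statement_good hp hpN A hA hN)
    (helper95.riemannSetting_FFb (N * p) A)
    (exists_sep_atkinLehner N p hp hpN) p e hu0 hdiv hu1 hu2

/-- **[T0-REP]** at a bad pair: the class of `u` has a representative regular off the two cusps
with integral expansions of reduction `(1, 1)`. -/
theorem t0Rep_bad (hN : 4 ∣ N ∨ 9 ∣ N) (A : ValuationSubring Kb)
    (hA : A.LiesOverPrime p) (e : ℕ) {u : FF (N * p)} (hu0 : u ≠ 0)
    (hdiv : ∀ P : Place Kb (FF (N * p)), ((p ^ e : ℕ) : ℤ) ∣ P.ord u)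
    (hu1 : IsRedOne A (N * p) (u : LaurentSeries Kb))
    (hu2 : IsRedOne A (N * p) ((atkinLehner N p hp hpN u : FF (N * p)) : LaurentSeries Kb)) :
    ∃ G : FF (N * p), G ≠ 0 ∧ IsRedOne A (N * p) (G : LaurentSeries Kb) ∧
      IsRedOne A (N * p) ((atkinLehner N p hp hpN G : FF (N * p)) : LaurentSeries Kb) ∧
      Fermat.Agent.T2.IsA0One (N * p) (atkinLehner N p hp hpN) A (G ^ (p ^ e) * u) := by
  have : Fact p.Prime := ⟨hp⟩
  have : CharP (kA A) p := Fermat.Agent.P2.helper93.charP_residueField hp hA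
  exact t0Rep (atkinLehner_atkinLehner N p hp hpN)
    (Fermat.Agent.T2.helper58.scaleStatement_bad N p hp hpN A hA)
    (Fermat.Agent.T2.helper45.integrality2Statement N p hp hpN A)
    (Fermat.Agent.T2.helper87.regRed2_holds N p hp hpN A hA)
    (Fermat.Agent.T2.helper96.sat2 N p hp hpN A
      (Fermat.Agent.T2.helper72.surjRed_good hp hpN A hA hN))
    (Fermat.Agent.T2.helper72.sn2Statement_good hp hpN A hA hN)
    (helper95.riemannSetting_FFb (N * p) A)
    (exists_sep_atkinLehner N p hp hpN) p e hu0 hdiv hu1 hu2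

end Fermat.Agent.T7.helper22
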