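import Mathlib
import Fermat.Agent.T7.helper22_T0RepInst

/-!
# T7 = S33, leaf [G1-ASM] (helper27, second prover): `T0InertOmegaStatement` from
[T0-REP] + [B3] + [B4]

Contracts VERBATIM from the blueprint `NOTES_helper96_T7_BLUEPRINT` (sections 1-3):

* `StronglySplit M W A p K`        : `K` is `IsA0One`, `p ∣ div K`, and both expansions of `K` are
                                     `p`-th powers of integral series of reduction `1`;
* `B3Statement M W A p IsNewQ`     : `IsA0One` + `p ∣ div` + new  ⟹  `StronglySplit`;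
* `B4Statement M W A p`            : `StronglySplit`  ⟹  `σ K * K ^ (p - a)` is a `p`-th power
                                     (`σ` in inertia acting on `μ_p` by `z ↦ z ^ a`, `0 < a < p`);
* `T0RepStatement M W A p`         : the output of [T0-REP] at `n = p` (on main at the bad pair:
                                     `t0RepStatement_bad`);
* `T0InertOmegaStatement M W A p IsNewQ` : (G1) in Kummer form.

Assembly: `t0InertOmega_of` (any `M`, `W`, `A`) and `t0InertOmega_bad` (bad pair `N * p`,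
`W = atkinLehner`).  The predicate `IsNewQ` is a parameter; the only property used is that it
is stable under multiplication by `p`-th powers (`hNew`).
-/

set_option autoImplicit false
set_option linter.unusedSectionVars false
set_option linter.unusedVariables false

noncomputable section

namespace Fermat.Agent.T7.helper27

open HahnSeries IntermediateField AlgebraicCurve ModularCurve
open Fermat.Agent.S18.helper19 Fermat.Agent.P2.helper29 Fermat.Agent.P2.helper93
open Fermat.Agent.T2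

/-! ### The contracts -/

/-- `K` is strongly split: `IsA0One`, `p ∣ div K`, and both expansions are `p`-th powers of
integral series of reduction `1`. -/
def StronglySplit (M : ℕ) (W : FF M ≃ₐ[Kb] FF M) (A : ValuationSubring Kb) (p : ℕ)
    (K : FF M) : Prop :=
  IsA0One M W A K ∧ (∀ P : Place Kb (FF M), (p : ℤ) ∣ P.ord K) ∧
    ∃ Z₁ Z₂ : LaurentSeries A, incl A Z₁ ^ p = (K : LaurentSeries Kb) ∧
      incl A Z₂ ^ p = ((W K : FF M) : LaurentSeries Kb) ∧ red A Z₁ = 1 ∧ red A Z₂ = 1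

/-- **[B3]** new classes of `T0_1` are strongly split. -/
def B3Statement (M : ℕ) (W : FF M ≃ₐ[Kb] FF M) (A : ValuationSubring Kb) (p : ℕ)
    (IsNewQ : FF M → Prop) : Prop :=
  ∀ K : FF M, IsA0One M W A K → (∀ P : Place Kb (FF M), (p : ℤ) ∣ P.ord K) → IsNewQ K →
    StronglySplit M W A p K

/-- **[B4]** inertia acts by the scalar `ω` on strongly split classes (Kummer form). -/
def B4Statement (M : ℕ) (W : FF M ≃ₐ[Kb] FF M) (A : ValuationSubring Kb) (p : ℕ) : Prop :=
  ∀ K : FF M, StronglySplit M W A p K →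
    ∀ σ ∈ A.inertiaSubgroupIn ℚ, ∀ a : ℕ, 0 < a → a < p →
      (∀ z : Kb, z ^ p = 1 → σ z = z ^ a) →
      ∃ v : FF M, galF M σ K * K ^ (p - a) = v ^ p

/-- **[T0-REP]** at `n = p`: a representative regular off the two cusps with reduction
`(1, 1)`. -/
def T0RepStatement (M : ℕ) (W : FF M ≃ₐ[Kb] FF M) (A : ValuationSubring Kb) (p : ℕ) : Prop :=
  ∀ u : FF M, u ≠ 0 → (∀ P : Place Kb (FF M), (p : ℤ) ∣ P.ord u) →
    IsRedOne A M (u : LaurentSeries Kb) → IsRedOne A M ((W u : FF M) : LaurentSeries Kb) →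
    ∃ G : FF M, G ≠ 0 ∧ IsA0One M W A (G ^ p * u)

/-- **(G1)** in Kummer form: inertia acts by `ω` on the new classes of `T0_1`. -/
def T0InertOmegaStatement (M : ℕ) (W : FF M ≃ₐ[Kb] FF M) (A : ValuationSubring Kb) (p : ℕ)
    (IsNewQ : FF M → Prop) : Prop :=
  ∀ u : FF M, u ≠ 0 → (∀ P : Place Kb (FF M), (p : ℤ) ∣ P.ord u) →
    IsRedOne A M (u : LaurentSeries Kb) → IsRedOne A M ((W u : FF M) : LaurentSeries Kb) →
    IsNewQ u →
    ∀ σ ∈ A.inertiaSubgroupIn ℚ, ∀ a : ℕ,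
      (∀ z : Kb, z ^ p = 1 → σ z = z ^ a) →
      ∃ (c : Kb) (v : FF M), galF M σ u = algebraMap Kb (FF M) c * v ^ p * u ^ a

/-! ### Elementary facts -/

/-- the exponent `a` of an automorphism on `μ_p` is prime to `p` -/
theorem mod_pos_of_pow_action {p : ℕ} (hp : p.Prime) (σ : Kb ≃ₐ[ℚ] Kb) (a : ℕ)
    (ha : ∀ z : Kb, z ^ p = 1 → σ z = z ^ a) : 0 < a % p := by
  rcases Nat.eq_zero_or_pos (a % p) with h0 | h0
  swap
  · exact h0
  exfalso
  have : NeZero p := ⟨hp.ne_zero⟩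
  obtain ⟨ζ, hζ⟩ := HasEnoughRootsOfUnity.exists_primitiveRoot Kb p
  have h1 := ha ζ hζ.pow_eq_one
  obtain ⟨m, hm⟩ : p ∣ a := Nat.dvd_of_mod_eq_zero h0
  rw [hm, pow_mul, hζ.pow_eq_one, one_pow] at h1
  have h2 : ζ = 1 := by
    have h3 : σ ζ = σ 1 := by rw [h1, map_one]
    exact σ.injective h3
  exact hζ.ne_one hp.one_lt h2

/-- on `μ_p` the exponent may be reduced modulo `p` -/
theorem pow_mod_of_pow_eq_one {p : ℕ} {z : Kb} (hz : z ^ p = 1) (a : ℕ) :
    z ^ (a % p) = z ^ a := by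
  conv_rhs => rw [← Nat.div_add_mod a p, _root_.pow_add, pow_mul, hz, one_pow, one_mul]

/-! ### The assembly -/

/-- **[G1-ASM]**: `T0InertOmegaStatement` from [T0-REP], [B3], [B4]. -/
theorem t0InertOmega_of {M : ℕ} {W : FF M ≃ₐ[Kb] FF M} {A : ValuationSubring Kb} {p : ℕ}
    (hp : p.Prime) {IsNewQ : FF M → Prop}
    (hNew : ∀ u G : FF M, G ≠ 0 → IsNewQ u → IsNewQ (G ^ p * u))
    (hT0 : T0RepStatement M W A p) (hB3 : B3Statement M W A p IsNewQ)
    (hB4 : B4Statement M W A p) : T0InertOmegaStatement M W A p IsNewQ := by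
  intro u hu0 hdiv hu1 hu2 hnew σ hσ a ha
  obtain ⟨G, hG0, hK⟩ := hT0 u hu0 hdiv hu1 hu2
  set K : FF M := G ^ p * u with hKdef
  have hK0 : K ≠ 0 := mul_ne_zero (pow_ne_zero _ hG0) hu0
  have hdivK : ∀ P : Place Kb (FF M), (p : ℤ) ∣ P.ord K := by
    intro P
    have hpow : P.ord (G ^ p) = (p : ℤ) * P.ord G := by
      have := P.ord_zpow G (p : ℤ)
      rwa [zpow_natCast] at this
    rw [hKdef, P.ord_mul (pow_ne_zero _ hG0) hu0, hpow]
    exact dvd_add (Dvd.intro _ rfl) (hdiv P)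
  have hSS := hB3 K hK hdivK (hNew u G hG0 hnew)
  have ha0 : 0 < a % p := mod_pos_of_pow_action hp σ a ha
  have halt : a % p < p := Nat.mod_lt _ hp.pos
  obtain ⟨v, hv⟩ := hB4 K hSS σ hσ (a % p) ha0 halt (fun z hz => by
    rw [ha z hz, pow_mod_of_pow_eq_one hz])
  -- the computation
  set s : FF M := galF M σ G with hs
  set t : FF M := galF M σ u with ht
  have hs0 : s ≠ 0 := (map_ne_zero (galF M σ)).mpr hG0
  have hσK : galF M σ K = s ^ p * t := by rw [hKdef, map_mul, map_pow]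
  rw [hσK] at hv
  have hKpow : K ^ (p - a % p) * K ^ (a % p) = K ^ p := pow_sub_mul_pow K halt.le
  have hupow : u ^ a = (u ^ (a / p)) ^ p * u ^ (a % p) := by
    rw [← pow_mul, ← _root_.pow_add, mul_comm (a / p) p, Nat.div_add_mod]
  have hu' : u ^ (a / p) ≠ 0 := pow_ne_zero _ hu0
  refine ⟨1, v * G ^ (a % p) * (K * s * u ^ (a / p))⁻¹, ?_⟩
  rw [map_one, one_mul, hupow]
  have hKa : K ^ (a % p) = (G ^ (a % p)) ^ p * u ^ (a % p) := by
    rw [hKdef, mul_pow, ← pow_mul, ← pow_mul, mul_comm p (a % p)]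
  have key : t * (K ^ p * s ^ p) = v ^ p * K ^ (a % p) := by
    rw [← hv, ← hKpow]; ring
  have hden : K ^ p * s ^ p ≠ 0 := mul_ne_zero (pow_ne_zero _ hK0) (pow_ne_zero _ hs0)
  have ht' : t = v ^ p * K ^ (a % p) * (K ^ p * s ^ p)⁻¹ := by
    rw [← key, mul_assoc, mul_inv_cancel₀ hden, mul_one]
  rw [ht', hKa]
  have hGa : G ^ (a % p) ≠ 0 := pow_ne_zero _ hG0
  clear_value K s t
  clear hKa key ht' hupow hKpow hv hσK hdivK hSS hK
  have hKp : K ^ p ≠ 0 := pow_ne_zero _ hK0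
  have hsp : s ^ p ≠ 0 := pow_ne_zero _ hs0
  have hup : (u ^ (a / p)) ^ p ≠ 0 := pow_ne_zero _ hu'
  rw [mul_pow, mul_pow, inv_pow, mul_pow, mul_pow, mul_inv, mul_inv, mul_inv]
  generalize K ^ p = X at hKp ⊢
  generalize s ^ p = Y at hsp ⊢
  generalize (u ^ (a / p)) ^ p = Z at hup ⊢
  generalize (G ^ (a % p)) ^ p = T
  generalize v ^ p = V
  generalize u ^ (a % p) = U
  have e1 : X⁻¹ * X = 1 := inv_mul_cancel₀ hKp
  have e3 : Z⁻¹ * Z = 1 := inv_mul_cancel₀ hup
  calc V * (T * U) * (X⁻¹ * Y⁻¹) = V * T * (X⁻¹ * Y⁻¹ * (Z⁻¹ * Z)) * U := by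
        rw [e3]; ring
    _ = V * T * (X⁻¹ * Y⁻¹ * Z⁻¹) * (Z * U) := by ring

/-! ### The bad pair -/

section Bad

open Fermat.Agent.T2.helper36

variable (N p : ℕ) [NeZero N] [NeZero p] (hp : p.Prime) (hpN : ¬ p ∣ N)

/-- **[T0-REP]** at the bad pair (helper22 `t0Rep_bad` with `e = 1`). -/
theorem t0RepStatement_bad (hN : 4 ∣ N ∨ 9 ∣ N) (A : ValuationSubring Kb)
    (hA : A.LiesOverPrime p) :
    T0RepStatement (N * p) (atkinLehner N p hp hpN) A p := by
  intro u hu0 hdiv hu1 hu2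
  have hdiv' : ∀ P : Place Kb (FF (N * p)), ((p ^ 1 : ℕ) : ℤ) ∣ P.ord u := by
    intro P
    rw [pow_one]
    exact hdiv P
  obtain ⟨G, hG0, -, -, hG⟩ :=
    Fermat.Agent.T7.helper22.t0Rep_bad N p hp hpN hN A hA 1 hu0 hdiv' hu1 hu2
  rw [pow_one] at hG
  exact ⟨G, hG0, hG⟩

/-- **(G1)** at the bad pair from [B3] and [B4]. -/
theorem t0InertOmega_bad (hN : 4 ∣ N ∨ 9 ∣ N) (A : ValuationSubring Kb)
    (hA : A.LiesOverPrime p) {IsNewQ : FF (N * p) → Prop}
    (hNew : ∀ u G : FF (N * p), G ≠ 0 → IsNewQ u → IsNewQ (G ^ p * u))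
    (hB3 : B3Statement (N * p) (atkinLehner N p hp hpN) A p IsNewQ)
    (hB4 : B4Statement (N * p) (atkinLehner N p hp hpN) A p) :
    T0InertOmegaStatement (N * p) (atkinLehner N p hp hpN) A p IsNewQ :=
  t0InertOmega_of hp hNew (t0RepStatement_bad N p hp hpN hN A hA) hB3 hB4

end Bad

end Fermat.Agent.T7.helper27

end
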