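/-
T7 (S33, at risk), helper43: **the degeneracy maps on `J₀` and their Kummer dictionary**.

Abstract part (`Pic0 K F`, any `K`-algebra homomorphism `ψ : F → F'` of function fields):
* `pushPic ψ : Pic0 K F' →+ Pic0 K F` (push-forward `ψ_*`), `pullPic φ : Pic0 K F →+ Pic0 K F'`
  (pull-back `φ^*`), `pushPic ψ ∘ pullPic φ = Pic0.correspondence φ ψ`;
* Kummer dictionary: `ψ_* x` is represented by `Norm_ψ h`, `φ^* x` by `φ h`;
* equivariance for intertwined semilinear automorphisms.

Modular part (level `N ℓ` over level `N`, `α, β` the two degeneracy maps of the Prelude):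
* `alphaPush, betaPush : J₀(N ℓ) →+ J₀(N)`, `alphaPull, betaPull : J₀(N) →+ J₀(N ℓ)`,
  all Galois-equivariant; `alphaPush ∘ betaPull = heckeOperatorAlong` (`= T_ℓ` for `ℓ ∤ N`);
* **[KUM-PUSH]** if `h` is a Kummer representative (any `n`, NO coprimality) of a class `x` of
  `J₀(N ℓ)` with `α_* x = 0` (resp. `β_* x = 0`), then `Norm_α h = c · v ^ n`
  (resp. `Norm_β h = c · v ^ n`) with `c ∈ ℚ̄ˣ`, `v ∈ F_Nˣ`; conversely (for `n ≠ 0`).
-/
import Mathlib
import Fermat.Agent.P3.helper94_Kummer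
import Fermat.Agent.P3.helper10_GalHecke
import Fermat.Agent.P3.helper58_HeckeInputs
import Fermat.Agent.S18.helper19_Wiring

set_option autoImplicit false
set_option linter.unusedSectionVars false
set_option linter.unusedVariables false
set_option linter.style.haveILetI false
set_option linter.style.longLine false

noncomputable section

open ModularCurve AlgebraicCurve IntermediateField

namespace Fermat.Agent.T7.helper43

open Fermat.Agent.S24 Fermat.Agent.P3.helper94

/-! ### Abstract push-forward and pull-back on `Pic0` -/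

section Abstract

variable {K F F' : Type*} [Field K] [Field F] [Field F'] [Algebra K F] [Algebra K F']

section Push

variable (ψ : F →ₐ[K] F') (hψ : ψ.toRingHom.IsIntegral) (hfin : FiniteAlong K ψ)
  (hN : NormFormulaAlong K ψ hfin)

/-- push-forward of degree-zero divisors along `ψ` -/
def degZeroPush :
    Divisor.degZero (K := K) (F := F') →+ Divisor.degZero (K := K) (F := F) :=
  ((Divisor.pushforwardAlong ψ hψ).domRestrict
    (Divisor.degZero (K := K) (F := F'))).codRestrict _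
    (fun D => Divisor.pushforwardAlong_mem_degZero ψ hψ D.2)

theorem coe_degZeroPush (D : Divisor.degZero (K := K) (F := F')) :
    (degZeroPush ψ hψ D : Divisor K F) = Divisor.pushforwardAlong ψ hψ (D : Divisor K F') :=
  rfl

/-- **push-forward `ψ_*` on `Pic0`** -/
def pushPic : Pic0 K F' →+ Pic0 K F :=
  QuotientAddGroup.map _ _ (degZeroPush ψ hψ) (by
    rintro ⟨D, hD0⟩ hD
    simp only [AddSubgroup.mem_addSubgroupOf] at hD ⊢
    exact Divisor.isPrincipal_pushforwardAlong ψ hψ hfin hN hD)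

theorem pushPic_mk (D : Divisor.degZero (K := K) (F := F')) :
    pushPic ψ hψ hfin hN (Pic0.mk D) = Pic0.mk (degZeroPush ψ hψ D) :=
  rfl

include hfin in
/-- the norm along `ψ` does not vanish on nonzero elements -/
theorem normAlong_ne_zero' {f : F'} (hf : f ≠ 0) : normAlong ψ f ≠ 0 := by
  letI := algebraAlong ψ
  haveI : Module.Finite F F' := hfin
  exact Algebra.norm_ne_zero_iff.mpr hf

include hfin hN in
/-- push-forward of divisors is the norm on functions -/
theorem pushforwardAlong_apply_eq_ord' {f : F'} (hf : f ≠ 0)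
    {D : Divisor K F'} (hD : ∀ w : Place K F', D w = w.ord f) (v : Place K F) :
    Divisor.pushforwardAlong ψ hψ D v = v.ord (normAlong ψ f) := by
  letI := algebraAlong ψ
  haveI := isScalarTower_along ψ
  haveI := isIntegral_along ψ hψ
  haveI : Module.Finite F F' := hfin
  exact hN f hf D hD v

/-- **Kummer dictionary for `ψ_*`**: `ψ_* x` is represented by `Norm_ψ h`. -/
theorem isKummerRep_pushPic {n : ℕ} {x : Pic0 K F'} {h : F'} (H : IsKummerRep n x h) :
    IsKummerRep n (pushPic ψ hψ hfin hN x) (normAlong ψ h) := by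
  obtain ⟨hh, D, rfl, hD⟩ := H
  refine ⟨normAlong_ne_zero' ψ hfin hh, degZeroPush ψ hψ D, rfl, fun v => ?_⟩
  have h1 : ∀ w : Place K F', ((n : ℤ) • (D : Divisor K F')) w = w.ord h := by
    intro w
    rw [← hD w]
    simp
  have h2 := pushforwardAlong_apply_eq_ord' ψ hψ hfin hN hh h1 v
  rw [map_zsmul] at h2
  rw [coe_degZeroPush, ← h2]
  simp

/-- **equivariance of `ψ_*`** for intertwined semilinear automorphisms -/
theorem pushPic_smul {g : SemilinearAut K F} {g' : SemilinearAut K F'}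
    (hg : SemilinearAut.IntertwinesAlong (ψ : F →+* F') g g') (x : Pic0 K F') :
    pushPic ψ hψ hfin hN (g' • x) = g • pushPic ψ hψ hfin hN x := by
  obtain ⟨D, rfl⟩ := Pic0.mk_surjective x
  rw [SemilinearAut.pic0_smul_mk, pushPic_mk, pushPic_mk, SemilinearAut.pic0_smul_mk]
  refine congrArg Pic0.mk (Subtype.ext ?_)
  rw [coe_degZeroPush, SemilinearAut.coe_degZeroSMulHom,
    SemilinearAut.coe_degZeroSMulHom, coe_degZeroPush]
  exact Fermat.Agent.P3.helper10.pushforwardAlong_smul ψ hψ hg _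

end Push

section Pull

variable [HasPrincipalDivisors K F']
variable (φ : F →ₐ[K] F') (hφ : φ.toRingHom.IsIntegral)
  (hFI : FundamentalIdentityAlong K φ hφ)

/-- pull-back of degree-zero divisors along `φ` -/
def degZeroPull :
    Divisor.degZero (K := K) (F := F) →+ Divisor.degZero (K := K) (F := F') :=
  ((Divisor.pullbackAlong φ hφ).domRestrict
    (Divisor.degZero (K := K) (F := F))).codRestrict _
    (fun D => Divisor.pullbackAlong_mem_degZero φ hφ hFI D.2)

theorem coe_degZeroPull (D : Divisor.degZero (K := K) (F := F)) :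
    (degZeroPull φ hφ hFI D : Divisor K F') = Divisor.pullbackAlong φ hφ (D : Divisor K F) :=
  rfl

/-- **pull-back `φ^*` on `Pic0`** -/
def pullPic : Pic0 K F →+ Pic0 K F' :=
  QuotientAddGroup.map _ _ (degZeroPull φ hφ hFI) (by
    rintro ⟨D, hD0⟩ hD
    simp only [AddSubgroup.mem_addSubgroupOf] at hD ⊢
    exact Divisor.isPrincipal_pullbackAlong φ hφ hD)

theorem pullPic_mk (D : Divisor.degZero (K := K) (F := F)) :
    pullPic φ hφ hFI (Pic0.mk D) = Pic0.mk (degZeroPull φ hφ hFI D) :=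
  rfl

/-- **Kummer dictionary for `φ^*`**: `φ^* x` is represented by `φ h`. -/
theorem isKummerRep_pullPic {n : ℕ} {x : Pic0 K F} {h : F} (H : IsKummerRep n x h) :
    IsKummerRep n (pullPic φ hφ hFI x) (φ h) := by
  obtain ⟨hh, D, rfl, hD⟩ := H
  have hφh : φ h ≠ 0 := by simpa using hh
  refine ⟨hφh, degZeroPull φ hφ hFI D, rfl, fun w => ?_⟩
  have h1 := pullbackAlong_apply_eq_ord φ hφ (f := h) (D := (n : ℤ) • (D : Divisor K F))
    (fun v => by rw [← hD v]; simp) w
  rw [map_zsmul] at h1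
  rw [coe_degZeroPull, ← h1]
  simp

/-- **equivariance of `φ^*`** for intertwined semilinear automorphisms -/
theorem pullPic_smul {g : SemilinearAut K F} {g' : SemilinearAut K F'}
    (hg : SemilinearAut.IntertwinesAlong (φ : F →+* F') g g') (x : Pic0 K F) :
    pullPic φ hφ hFI (g • x) = g' • pullPic φ hφ hFI x := by
  obtain ⟨D, rfl⟩ := Pic0.mk_surjective x
  rw [SemilinearAut.pic0_smul_mk, pullPic_mk, pullPic_mk, SemilinearAut.pic0_smul_mk]
  refine congrArg Pic0.mk (Subtype.ext ?_)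
  rw [coe_degZeroPull, SemilinearAut.coe_degZeroSMulHom,
    SemilinearAut.coe_degZeroSMulHom, coe_degZeroPull]
  exact Fermat.Agent.P3.helper10.pullbackAlong_smul φ hφ hg _

variable (ψ : F →ₐ[K] F') (hψ : ψ.toRingHom.IsIntegral) (hfin : FiniteAlong K ψ)
  (hN : NormFormulaAlong K ψ hfin)

/-- a correspondence is push-forward after pull-back -/
theorem pushPic_pullPic (x : Pic0 K F) :
    pushPic ψ hψ hfin hN (pullPic φ hφ hFI x) = Pic0.correspondence φ ψ hφ hψ hFI hfin hN x := by
  obtain ⟨D, rfl⟩ := Pic0.mk_surjective x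
  rfl

end Pull

end Abstract

/-! ### The modular case -/

section Modular

variable (N ℓ : ℕ) [NeZero N] [NeZero ℓ]

/-- the inputs with `(φ, ψ) = (β, α)` -/
theorem inputs_beta_alpha :
    ∃ (hα : (heckeAlphaBar Kbar N ℓ).toRingHom.IsIntegral)
      (hβ : (heckeBetaBar Kbar N ℓ).toRingHom.IsIntegral)
      (_ : HasPrincipalDivisors Kbar (modularFunctionFieldBar (N * ℓ)))
      (hfin : FiniteAlong Kbar (heckeAlphaBar Kbar N ℓ)),
      FundamentalIdentityAlong Kbar (heckeBetaBar Kbar N ℓ) hβ ∧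
        NormFormulaAlong Kbar (heckeAlphaBar Kbar N ℓ) hfin := by
  haveI : NeZero (N * ℓ) := ⟨Nat.mul_ne_zero (NeZero.ne N) (NeZero.ne ℓ)⟩
  haveI := helper77.an_finiteDimensional N
  haveI := helper77.an_finiteDimensional (N * ℓ)
  exact Fermat.Agent.P3.helper58.heckeInputs_of_ff (heckeBetaBar Kbar N ℓ)
    (heckeAlphaBar Kbar N ℓ) (xJ N) (helper77.an_transcendental N)
    (xJ (N * ℓ)) (helper77.an_transcendental (N * ℓ))

/-- the inputs with `(φ, ψ) = (α, β)` -/
theorem inputs_alpha_beta :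
    ∃ (hβ : (heckeBetaBar Kbar N ℓ).toRingHom.IsIntegral)
      (hα : (heckeAlphaBar Kbar N ℓ).toRingHom.IsIntegral)
      (_ : HasPrincipalDivisors Kbar (modularFunctionFieldBar (N * ℓ)))
      (hfin : FiniteAlong Kbar (heckeBetaBar Kbar N ℓ)),
      FundamentalIdentityAlong Kbar (heckeAlphaBar Kbar N ℓ) hα ∧
        NormFormulaAlong Kbar (heckeBetaBar Kbar N ℓ) hfin := by
  haveI : NeZero (N * ℓ) := ⟨Nat.mul_ne_zero (NeZero.ne N) (NeZero.ne ℓ)⟩
  haveI := helper77.an_finiteDimensional N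
  haveI := helper77.an_finiteDimensional (N * ℓ)
  exact Fermat.Agent.P3.helper58.heckeInputs_of_ff (heckeAlphaBar Kbar N ℓ)
    (heckeBetaBar Kbar N ℓ) (xJ N) (helper77.an_transcendental N)
    (xJ (N * ℓ)) (helper77.an_transcendental (N * ℓ))

theorem alpha_isIntegral : (heckeAlphaBar Kbar N ℓ).toRingHom.IsIntegral :=
  (inputs_beta_alpha N ℓ).choose

theorem beta_isIntegral : (heckeBetaBar Kbar N ℓ).toRingHom.IsIntegral :=
  (inputs_alpha_beta N ℓ).choose

theorem hasPrincipalDivisors_level :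
    HasPrincipalDivisors Kbar (modularFunctionFieldBar (N * ℓ)) :=
  (inputs_beta_alpha N ℓ).choose_spec.choose_spec.choose

theorem alpha_finiteAlong : FiniteAlong Kbar (heckeAlphaBar Kbar N ℓ) :=
  (inputs_beta_alpha N ℓ).choose_spec.choose_spec.choose_spec.choose

theorem beta_finiteAlong : FiniteAlong Kbar (heckeBetaBar Kbar N ℓ) :=
  (inputs_alpha_beta N ℓ).choose_spec.choose_spec.choose_spec.choose

theorem alpha_normFormula :
    NormFormulaAlong Kbar (heckeAlphaBar Kbar N ℓ) (alpha_finiteAlong N ℓ) :=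
  (inputs_beta_alpha N ℓ).choose_spec.choose_spec.choose_spec.choose_spec.2

theorem beta_normFormula :
    NormFormulaAlong Kbar (heckeBetaBar Kbar N ℓ) (beta_finiteAlong N ℓ) :=
  (inputs_alpha_beta N ℓ).choose_spec.choose_spec.choose_spec.choose_spec.2

theorem alpha_fundamentalIdentity :
    haveI := hasPrincipalDivisors_level N ℓ
    FundamentalIdentityAlong Kbar (heckeAlphaBar Kbar N ℓ) (alpha_isIntegral N ℓ) :=
  (inputs_alpha_beta N ℓ).choose_spec.choose_spec.choose_spec.choose_spec.1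

theorem beta_fundamentalIdentity :
    haveI := hasPrincipalDivisors_level N ℓ
    FundamentalIdentityAlong Kbar (heckeBetaBar Kbar N ℓ) (beta_isIntegral N ℓ) :=
  (inputs_beta_alpha N ℓ).choose_spec.choose_spec.choose_spec.choose_spec.1

/-- **`α_* : J₀(N ℓ) → J₀(N)`** -/
def alphaPush : JZero (N * ℓ) →+ JZero N :=
  pushPic (heckeAlphaBar Kbar N ℓ) (alpha_isIntegral N ℓ) (alpha_finiteAlong N ℓ)
    (alpha_normFormula N ℓ)

/-- **`β_* : J₀(N ℓ) → J₀(N)`** -/
def betaPush : JZero (N * ℓ) →+ JZero N :=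
  pushPic (heckeBetaBar Kbar N ℓ) (beta_isIntegral N ℓ) (beta_finiteAlong N ℓ)
    (beta_normFormula N ℓ)

/-- **`α^* : J₀(N) → J₀(N ℓ)`** -/
def alphaPull : JZero N →+ JZero (N * ℓ) :=
  haveI := hasPrincipalDivisors_level N ℓ
  pullPic (heckeAlphaBar Kbar N ℓ) (alpha_isIntegral N ℓ) (alpha_fundamentalIdentity N ℓ)

/-- **`β^* : J₀(N) → J₀(N ℓ)`** -/
def betaPull : JZero N →+ JZero (N * ℓ) :=
  haveI := hasPrincipalDivisors_level N ℓ
  pullPic (heckeBetaBar Kbar N ℓ) (beta_isIntegral N ℓ) (beta_fundamentalIdentity N ℓ)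

variable {N ℓ}

/-- `α_* x` is represented by `Norm_α h` -/
theorem isKummerRep_alphaPush {n : ℕ} {x : JZero (N * ℓ)} {h : modularFunctionFieldBar (N * ℓ)}
    (H : IsKummerRep n x h) :
    IsKummerRep n (alphaPush N ℓ x) (normAlong (heckeAlphaBar Kbar N ℓ) h) :=
  isKummerRep_pushPic _ _ _ _ H

/-- `β_* x` is represented by `Norm_β h` -/
theorem isKummerRep_betaPush {n : ℕ} {x : JZero (N * ℓ)} {h : modularFunctionFieldBar (N * ℓ)}
    (H : IsKummerRep n x h) :
    IsKummerRep n (betaPush N ℓ x) (normAlong (heckeBetaBar Kbar N ℓ) h) :=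
  isKummerRep_pushPic _ _ _ _ H

/-- `α^* x` is represented by `α h` -/
theorem isKummerRep_alphaPull {n : ℕ} {x : JZero N} {h : modularFunctionFieldBar N}
    (H : IsKummerRep n x h) :
    IsKummerRep n (alphaPull N ℓ x) (heckeAlphaBar Kbar N ℓ h) := by
  haveI := hasPrincipalDivisors_level N ℓ
  exact isKummerRep_pullPic _ _ _ H

/-- `β^* x` is represented by `β h` -/
theorem isKummerRep_betaPull {n : ℕ} {x : JZero N} {h : modularFunctionFieldBar N}
    (H : IsKummerRep n x h) :
    IsKummerRep n (betaPull N ℓ x) (heckeBetaBar Kbar N ℓ h) := by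
  haveI := hasPrincipalDivisors_level N ℓ
  exact isKummerRep_pullPic _ _ _ H

variable (N ℓ)

/-- the degeneracy maps commute with the Galois action -/
theorem alphaPush_galois_smul (σ : Kbar ≃ₐ[ℚ] Kbar) (x : JZero (N * ℓ)) :
    alphaPush N ℓ (σ • x) = σ • alphaPush N ℓ x := by
  rw [galois_smul_pic0_def, galois_smul_pic0_def]
  exact pushPic_smul _ _ _ _ (Fermat.Agent.P3.helper10.intertwines_heckeAlphaBar N ℓ σ) x

theorem betaPush_galois_smul (σ : Kbar ≃ₐ[ℚ] Kbar) (x : JZero (N * ℓ)) :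
    betaPush N ℓ (σ • x) = σ • betaPush N ℓ x := by
  rw [galois_smul_pic0_def, galois_smul_pic0_def]
  exact pushPic_smul _ _ _ _ (Fermat.Agent.P3.helper10.intertwines_heckeBetaBar N ℓ σ) x

theorem alphaPull_galois_smul (σ : Kbar ≃ₐ[ℚ] Kbar) (x : JZero N) :
    alphaPull N ℓ (σ • x) = σ • alphaPull N ℓ x := by
  haveI := hasPrincipalDivisors_level N ℓ
  rw [galois_smul_pic0_def, galois_smul_pic0_def]
  exact pullPic_smul _ _ _ (Fermat.Agent.P3.helper10.intertwines_heckeAlphaBar N ℓ σ) x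

theorem betaPull_galois_smul (σ : Kbar ≃ₐ[ℚ] Kbar) (x : JZero N) :
    betaPull N ℓ (σ • x) = σ • betaPull N ℓ x := by
  haveI := hasPrincipalDivisors_level N ℓ
  rw [galois_smul_pic0_def, galois_smul_pic0_def]
  exact pullPic_smul _ _ _ (Fermat.Agent.P3.helper10.intertwines_heckeBetaBar N ℓ σ) x

/-- **`T_ℓ = α_* ∘ β^*`** (the Prelude's total Hecke operator) -/
theorem alphaPush_betaPull (x : JZero N) :
    alphaPush N ℓ (betaPull N ℓ x) = heckeOperatorAlong Kbar N ℓ x := by
  haveI := hasPrincipalDivisors_level N ℓ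
  rw [heckeOperatorAlong_eq (alpha_isIntegral N ℓ) (beta_isIntegral N ℓ)
    (beta_fundamentalIdentity N ℓ) (alpha_finiteAlong N ℓ) (alpha_normFormula N ℓ)]
  exact pushPic_pullPic _ _ _ _ _ _ _ x

variable {N ℓ}

/-- a function of level `N` with trivial divisor is a nonzero constant -/
theorem exists_const_of_hasTrivialDiv {w : modularFunctionFieldBar N}
    (hw : HasTrivialDiv Kbar w) :
    ∃ c : Kbar, c ≠ 0 ∧ w = algebraMap Kbar (modularFunctionFieldBar N) c := by
  obtain ⟨c, rfl⟩ := Fermat.Agent.S18.helper19.const_of_ord_eq_zero N w hw.2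
  refine ⟨c, ?_, rfl⟩
  rintro rfl
  exact hw.1 (map_zero _)

/-- **[KUM-PUSH] (α)**: `α_* x = 0` forces `Norm_α h = c · v ^ n` (NO coprimality). -/
theorem normAlpha_eq_const_mul_pow_of_alphaPush {n : ℕ} {x : JZero (N * ℓ)}
    {h : modularFunctionFieldBar (N * ℓ)} (H : IsKummerRep n x h)
    (hx : alphaPush N ℓ x = 0) :
    ∃ (c : Kbar) (v : modularFunctionFieldBar N), c ≠ 0 ∧ v ≠ 0 ∧
      normAlong (heckeAlphaBar Kbar N ℓ) h
        = algebraMap Kbar (modularFunctionFieldBar N) c * v ^ n := by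
  have H1 := isKummerRep_alphaPush H
  rw [hx] at H1
  obtain ⟨u, w, hu, hw, e⟩ := H1.exists_eq_mul_pow
  obtain ⟨c, hc, rfl⟩ := exists_const_of_hasTrivialDiv hw
  exact ⟨c, u, hc, hu, e⟩

/-- **[KUM-PUSH] (β)**: `β_* x = 0` forces `Norm_β h = c · v ^ n` (NO coprimality). -/
theorem normBeta_eq_const_mul_pow_of_betaPush {n : ℕ} {x : JZero (N * ℓ)}
    {h : modularFunctionFieldBar (N * ℓ)} (H : IsKummerRep n x h)
    (hx : betaPush N ℓ x = 0) :
    ∃ (c : Kbar) (v : modularFunctionFieldBar N), c ≠ 0 ∧ v ≠ 0 ∧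
      normAlong (heckeBetaBar Kbar N ℓ) h
        = algebraMap Kbar (modularFunctionFieldBar N) c * v ^ n := by
  have H1 := isKummerRep_betaPush H
  rw [hx] at H1
  obtain ⟨u, w, hu, hw, e⟩ := H1.exists_eq_mul_pow
  obtain ⟨c, hc, rfl⟩ := exists_const_of_hasTrivialDiv hw
  exact ⟨c, u, hc, hu, e⟩

/-- converse of [KUM-PUSH] (α), `n ≠ 0` -/
theorem alphaPush_eq_zero_of_norm {n : ℕ} (hn : n ≠ 0) {x : JZero (N * ℓ)}
    {h : modularFunctionFieldBar (N * ℓ)} (H : IsKummerRep n x h) {c : Kbar}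
    {v : modularFunctionFieldBar N}
    (e : normAlong (heckeAlphaBar Kbar N ℓ) h
        = algebraMap Kbar (modularFunctionFieldBar N) c * v ^ n) :
    alphaPush N ℓ x = 0 :=
  (isKummerRep_alphaPush H).eq_zero_of_eq_const_mul_pow hn e

/-- converse of [KUM-PUSH] (β), `n ≠ 0` -/
theorem betaPush_eq_zero_of_norm {n : ℕ} (hn : n ≠ 0) {x : JZero (N * ℓ)}
    {h : modularFunctionFieldBar (N * ℓ)} (H : IsKummerRep n x h) {c : Kbar}
    {v : modularFunctionFieldBar N}
    (e : normAlong (heckeBetaBar Kbar N ℓ) h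
        = algebraMap Kbar (modularFunctionFieldBar N) c * v ^ n) :
    betaPush N ℓ x = 0 :=
  (isKummerRep_betaPush H).eq_zero_of_eq_const_mul_pow hn e

end Modular

end Fermat.Agent.T7.helper43

end
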