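/-
T7 (S33, at risk), helper43: **the norms along the two degeneracy maps in pair form**.

Level `N ℓ`, `ℓ ∤ N` prime, `α, β : F_N → F_{Nℓ}` the two degeneracy maps of the Prelude,
`W` the Atkin–Lehner automorphism of `F_{Nℓ}` (`T2.helper36.atkinLehner`), `ζ` a primitive
`ℓ`-th root of unity.  For EVERY `y ∈ F_{Nℓ}`:

* `normAlpha_pair` : `(N_α y)(q^ℓ) = y(q^ℓ) · ∏_{k<ℓ} (W y)(ζ^k q)`;
* `normBeta_pair`  : `(N_β y)(q^ℓ) = (W y)(q^ℓ) · ∏_{k<ℓ} y(ζ^k q)`;
* `normAlong_beta_eq` : `N_β y = N_α (W y)`.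

(`P2.helper93.es_norm` is the case `y = β h`.)  In the notation `NU(Y)(q^ℓ) = ∏_k Y(ζ^k q)`:
`N_α y = y · NU(W y)` and `N_β y = NU(y) · W y` as `q`-expansions at `∞`.
-/
import Mathlib
import Fermat.Agent.P2.helper93_ESNorm
import Fermat.Agent.T2.helper36_AtkinLehner
import Fermat.Agent.P3.helper94_Kummer

set_option autoImplicit false
set_option linter.unusedSectionVars false
set_option linter.unusedVariables false
set_option linter.style.haveILetI false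
set_option linter.style.longLine false

noncomputable section

open UpperHalfPlane ModularCurve AlgebraicCurve IntermediateField CongruenceSubgroup
open scoped MatrixGroups

namespace Fermat.Agent.T7.helper43

open Fermat.Agent.S24 Fermat.Agent.S24.helper37 Fermat.Agent.P2.helper93
open Fermat.Agent.P3.helper94 Fermat.Agent.T2.helper36

variable (N ℓ : ℕ) [NeZero N] [NeZero ℓ]

/-- the expansion of `W y` in the variable `t`, `t ^ N = q` -/
def wEmb (hℓ : ℓ.Prime) (hN : ¬ ℓ ∣ N) : FN (N * ℓ) →+* LaurentSeries ℂ :=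
  ((qExpand ℂ N).comp (helper17.toC.comp (algebraMap (FN (N * ℓ)) (LaurentSeries Kbar)))).comp
    ((atkinLehner N ℓ hℓ hN).toRingEquiv : FN (N * ℓ) →+* FN (N * ℓ))

theorem wEmb_apply (hℓ : ℓ.Prime) (hN : ¬ ℓ ∣ N) (y : FN (N * ℓ)) :
    wEmb N ℓ hℓ hN y =
      qExpand ℂ N (helper17.toC ((atkinLehner N ℓ hℓ hN y : FN (N * ℓ)) : LaurentSeries Kbar)) :=
  rfl

variable {N ℓ}

/-- a divisor of `N ℓ` is a divisor of `N` or `ℓ` times a divisor of `N` -/
theorem idx_cases (hℓ : ℓ.Prime) (i : Idx (N * ℓ)) :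
    (∃ j : Idx N, i = inclIdx N ℓ j) ∨ (∃ j : Idx N, i = mulIdx N ℓ j) := by
  have hd : i.1 ∣ N * ℓ := (Nat.mem_divisors.mp i.2).1
  by_cases h : ℓ ∣ i.1
  · obtain ⟨d', hd'⟩ := h
    right
    have h1 : d' ∣ N := by
      rw [hd', mul_comm N ℓ] at hd
      exact (Nat.mul_dvd_mul_iff_left hℓ.pos).mp hd
    exact ⟨⟨d', Nat.mem_divisors.mpr ⟨h1, NeZero.ne N⟩⟩, Subtype.ext hd'⟩
  · left
    have h1 : i.1 ∣ N :=
      (Nat.Coprime.symm ((Nat.Prime.coprime_iff_not_dvd hℓ).mpr h)).dvd_of_dvd_mul_right hd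
    exact ⟨⟨i.1, Nat.mem_divisors.mpr ⟨h1, NeZero.ne N⟩⟩, Subtype.ext rfl⟩

/-- **the embedding at the coset `g₀` is the expansion of `W y`** -/
theorem embG_g0_eq (hℓ : ℓ.Prime) (hN : ¬ ℓ ∣ N) {g₀ : SL(2, ℤ)} (hg₀ : g₀ ∈ Gamma0 N)
    (hg : ∀ (i : ℕ) (_ : i ∣ N) (hi0 : i ≠ 0) (τ : ℍ),
      haveI : NeZero (ℓ * i) := ⟨Nat.mul_ne_zero (NeZero.ne ℓ) hi0⟩
      haveI : NeZero i := ⟨hi0⟩
      jfunD (ℓ * i) (g₀⁻¹ • τ) = jfunD i (divH ℓ τ)) :
    embG (N * ℓ) g₀ = wEmb N ℓ hℓ hN := by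
  apply ringHom_ext_gen
  · intro c
    rw [embG_algebraMap, wEmb_apply]
    have h1 : atkinLehner N ℓ hℓ hN (algebraMap Kbar (FN (N * ℓ)) c)
        = algebraMap Kbar (FN (N * ℓ)) c := (atkinLehner N ℓ hℓ hN).commutes c
    rw [h1]
    show _ = qExpand ℂ (N) (helper17.toC (algebraMap Kbar (LaurentSeries Kbar) c))
    rw [toC_C, qExpand_C']
  · intro i
    rcases idx_cases hℓ i with ⟨j, rfl⟩ | ⟨j, rfl⟩
    · rw [← alpha_genFN, embG_alpha, embG_of_mem_Gamma0 N hg₀, embG_one_eq, wEmb_apply,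
        atkinLehner_heckeAlphaBar, coe_heckeBetaBar]
      show _ = qExpand ℂ N (coeffMap (iotaC : Kbar →+* ℂ)
        (qExpand Kbar ℓ ((genFN N j : FN N) : LaurentSeries Kbar)))
      rw [coeffMap_qExpand, qExpand_qExpand, qExpand_qExpand]
      exact qExpand_congr (by ring) _
    · rw [← beta_genFN, embG_beta N ℓ g₀ hg, embG_one_eq, wEmb_apply,
        atkinLehner_heckeBetaBar, coe_heckeAlphaBar]

variable (N ℓ)

theorem embFam_some_eq (hℓ : ℓ.Prime) (hN : ¬ ℓ ∣ N) {g₀ : SL(2, ℤ)} (hg₀ : g₀ ∈ Gamma0 N)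
    (hg : ∀ (i : ℕ) (_ : i ∣ N) (hi0 : i ≠ 0) (τ : ℍ),
      haveI : NeZero (ℓ * i) := ⟨Nat.mul_ne_zero (NeZero.ne ℓ) hi0⟩
      haveI : NeZero i := ⟨hi0⟩
      jfunD (ℓ * i) (g₀⁻¹ • τ) = jfunD i (divH ℓ τ)) (k : Fin ℓ) (y : FN (N * ℓ)) :
    embFam N ℓ g₀ (some k) y
      = qExpand ℂ N (rotL (xiC N ℓ ^ (k : ℕ))
          (helper17.toC ((atkinLehner N ℓ hℓ hN y : FN (N * ℓ)) : LaurentSeries Kbar))) := by
  show embG (N * ℓ) (ModularGroup.T ^ (k : ℕ) * g₀) y = _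
  rw [embG_T_pow_mul, embG_g0_eq hℓ hN hg₀ hg, wEmb_apply, rotL_qExpand, xiC, pow_right_comm]

/-- **Norm along `α` of an arbitrary element, complex coefficients.** -/
theorem normAlpha_pair_complex (hℓ : ℓ.Prime) (hN : ¬ ℓ ∣ N) (y : FN (N * ℓ)) :
    letI := algebraAlong (heckeAlphaBar Kbar N ℓ)
    qExpand ℂ ℓ (helper17.toC
        ((Algebra.norm (FN N) y : FN N) : LaurentSeries Kbar))
      = qExpand ℂ ℓ (helper17.toC (y : LaurentSeries Kbar)) *
          ∏ k ∈ Finset.range ℓ, rotL (xiC N ℓ ^ k)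
            (helper17.toC ((atkinLehner N ℓ hℓ hN y : FN (N * ℓ)) : LaurentSeries Kbar)) := by
  letI := algebraAlong (heckeAlphaBar Kbar N ℓ)
  have hfr := finrank_alpha N ℓ hℓ hN
  haveI fd : FiniteDimensional (FN N) (FN (N * ℓ)) :=
    Module.finite_of_finrank_pos (by rw [hfr]; omega)
  haveI : Algebra.IsSeparable (FN N) (FN (N * ℓ)) := inferInstance
  have hcop : Nat.Coprime N ℓ := ((Nat.Prime.coprime_iff_not_dvd hℓ).mpr hN).symm
  obtain ⟨g₀, hg₀mem, hg⟩ := exists_g0 N ℓ hcop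
  have key := norm_eq_prod_of_embeddings (F := FN N) (E := FN (N * ℓ))
    ((qExpand ℂ ℓ).comp (embG N 1)) (embFam N ℓ g₀) (embFam_injective hℓ.two_le hg)
    (fun i => RingHom.ext fun f => embFam_alpha hg₀mem i f)
    (by rw [Fintype.card_option, Fintype.card_fin, hfr]) y
  rw [Fintype.prod_option] at key
  simp_rw [embFam_some_eq N ℓ hℓ hN hg₀mem hg] at key
  have hnone : embFam N ℓ g₀ none y
      = qExpand ℂ (N * ℓ) (helper17.toC (y : LaurentSeries Kbar)) := embG_one_eq (N * ℓ) y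
  rw [hnone, Fin.prod_univ_eq_prod_range
    (fun k => qExpand ℂ N (rotL (xiC N ℓ ^ k)
      (helper17.toC ((atkinLehner N ℓ hℓ hN y : FN (N * ℓ)) : LaurentSeries Kbar)))) ℓ,
    RingHom.comp_apply, embG_one_eq, qExpand_qExpand, ← map_prod] at key
  apply qExpand_injective N
  rw [map_mul, qExpand_qExpand, qExpand_qExpand]
  refine Eq.trans (qExpand_congr (mul_comm _ _) _) (key.trans ?_)
  congr 1

/-- `normAlong` unfolded (no hypothesis on divisors needed) -/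
theorem normAlong_apply' {K F F' : Type*} [Field K] [Field F] [Field F'] [Algebra K F]
    [Algebra K F'] (ψ : F →ₐ[K] F') (f : F') :
    normAlong ψ f = (letI := algebraAlong ψ; Algebra.norm F f) := rfl

/-- **[NORM-α]** the norm along `α` of an arbitrary element of `F_{Nℓ}`, in `q`-series form:
`(N_α y)(q^ℓ) = y(q^ℓ) · ∏_{k<ℓ} (W y)(ζ^k q)`. -/
theorem normAlpha_pair (hℓ : ℓ.Prime) (hN : ¬ ℓ ∣ N) (ζ : Kbar) (hζ : IsPrimitiveRoot ζ ℓ)
    (y : modularFunctionFieldBar (N * ℓ)) :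
    qExpand Kbar ℓ ((normAlong (heckeAlphaBar Kbar N ℓ) y : modularFunctionFieldBar N) :
        LaurentSeries Kbar)
      = qExpand Kbar ℓ (y : LaurentSeries Kbar) *
          ∏ k ∈ Finset.range ℓ, twistL (ζ ^ k)
            ((atkinLehner N ℓ hℓ hN y : modularFunctionFieldBar (N * ℓ)) :
              LaurentSeries Kbar) := by
  rw [normAlong_apply' (heckeAlphaBar Kbar N ℓ) y]
  letI := algebraAlong (heckeAlphaBar Kbar N ℓ)
  apply helper17.toC_injective
  have hq : ∀ (n : ℕ) [NeZero n] (x : LaurentSeries Kbar),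
      helper17.toC (qExpand Kbar n x) = qExpand ℂ n (helper17.toC x) :=
    fun n _ x => coeffMap_qExpand _ n x
  rw [map_mul, map_prod, hq, hq]
  simp_rw [toC_twistL, map_pow]
  rw [prod_pow_primitiveRoot (hζ.map_of_injective (iotaC : Kbar →+* ℂ).injective)
    (isPrimitiveRoot_xiC N ℓ) (fun c => rotL c (helper17.toC
      ((atkinLehner N ℓ hℓ hN y : modularFunctionFieldBar (N * ℓ)) : LaurentSeries Kbar)))]
  exact normAlpha_pair_complex N ℓ hℓ hN y

/-- **`N_β = N_α ∘ W`** -/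
theorem normAlong_beta_eq (hℓ : ℓ.Prime) (hN : ¬ ℓ ∣ N) (y : modularFunctionFieldBar (N * ℓ)) :
    normAlong (heckeBetaBar Kbar N ℓ) y
      = normAlong (heckeAlphaBar Kbar N ℓ) (atkinLehner N ℓ hℓ hN y) := by
  have he : (@algebraMap (modularFunctionFieldBar N) (modularFunctionFieldBar (N * ℓ))
        _ _ (algebraAlong (heckeBetaBar Kbar N ℓ))).comp
        ((RingEquiv.refl (modularFunctionFieldBar N)) :
          modularFunctionFieldBar N →+* modularFunctionFieldBar N)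
      = ((atkinLehner N ℓ hℓ hN).toRingEquiv :
          modularFunctionFieldBar (N * ℓ) →+* modularFunctionFieldBar (N * ℓ)).comp
        (@algebraMap (modularFunctionFieldBar N) (modularFunctionFieldBar (N * ℓ))
          _ _ (algebraAlong (heckeAlphaBar Kbar N ℓ))) := by
    refine RingHom.ext fun x => ?_
    exact (atkinLehner_heckeAlphaBar N ℓ hℓ hN x).symm
  have key := @Algebra.norm_eq_of_equiv_equiv (modularFunctionFieldBar N)
    (modularFunctionFieldBar (N * ℓ)) (modularFunctionFieldBar N)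
    (modularFunctionFieldBar (N * ℓ)) _ _ _ _
    (algebraAlong (heckeAlphaBar Kbar N ℓ)) (algebraAlong (heckeBetaBar Kbar N ℓ))
    (RingEquiv.refl (modularFunctionFieldBar N)) (atkinLehner N ℓ hℓ hN).toRingEquiv he
    (atkinLehner N ℓ hℓ hN y)
  rw [normAlong_apply' (heckeBetaBar Kbar N ℓ) y,
    normAlong_apply' (heckeAlphaBar Kbar N ℓ) (atkinLehner N ℓ hℓ hN y)]
  have h2 : (atkinLehner N ℓ hℓ hN).toRingEquiv (atkinLehner N ℓ hℓ hN y) = y :=
    atkinLehner_atkinLehner N ℓ hℓ hN y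
  rw [h2] at key
  exact key.symm

/-- **[NORM-β]** the norm along `β` of an arbitrary element of `F_{Nℓ}`, in `q`-series form:
`(N_β y)(q^ℓ) = (W y)(q^ℓ) · ∏_{k<ℓ} y(ζ^k q)`. -/
theorem normBeta_pair (hℓ : ℓ.Prime) (hN : ¬ ℓ ∣ N) (ζ : Kbar) (hζ : IsPrimitiveRoot ζ ℓ)
    (y : modularFunctionFieldBar (N * ℓ)) :
    qExpand Kbar ℓ ((normAlong (heckeBetaBar Kbar N ℓ) y : modularFunctionFieldBar N) :
        LaurentSeries Kbar)
      = qExpand Kbar ℓ ((atkinLehner N ℓ hℓ hN y : modularFunctionFieldBar (N * ℓ)) :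
          LaurentSeries Kbar) *
          ∏ k ∈ Finset.range ℓ, twistL (ζ ^ k) (y : LaurentSeries Kbar) := by
  rw [normAlong_beta_eq N ℓ hℓ hN, normAlpha_pair N ℓ hℓ hN ζ hζ, atkinLehner_atkinLehner]

end Fermat.Agent.T7.helper43

end
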