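/-
T7 (S33, at risk), helper43: **[NEW-NORM] the two norm relations of a class in the kernel of
both degeneracy maps, in `q`-series form** (NO coprimality between `n` and `ℓ`).

Level `N ℓ`, `ℓ ∤ N` prime, `W` the Atkin–Lehner automorphism, `ζ` a primitive `ℓ`-th root of
unity.  If `h` is a Kummer representative (w.r.t. ANY `n`) of a class `x` of `J₀(N ℓ)`:

* `newNorm_alpha` : `α_* x = 0` ⟹ `h(q^ℓ) · ∏_{k<ℓ} (W h)(ζ^k q) = c · v(q^ℓ) ^ n`;
* `newNorm_beta`  : `β_* x = 0` ⟹ `(W h)(q^ℓ) · ∏_{k<ℓ} h(ζ^k q) = c · v(q^ℓ) ^ n`;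
* `betaPush_eq_alphaPush_atkinLehner` : `β_* x = α_* (W x)` on torsion classes;
* `eq_of_isKummerRep` : a class is determined by a Kummer representative (`n ≠ 0`).

with `c ∈ ℚ̄ˣ`, `v ∈ F_Nˣ`.
-/
import Mathlib
import Fermat.Agent.T7.helper43_NormPair
import Fermat.Agent.T7.helper43_DegMaps

set_option autoImplicit false
set_option linter.unusedSectionVars false
set_option linter.unusedVariables false
set_option linter.style.haveILetI false
set_option linter.style.longLine false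

noncomputable section

open ModularCurve AlgebraicCurve IntermediateField

namespace Fermat.Agent.T7.helper43

open Fermat.Agent.S24 Fermat.Agent.P2.helper93 Fermat.Agent.P3.helper94 Fermat.Agent.T2.helper36

/-- a class is determined by a Kummer representative (`n ≠ 0`) -/
theorem eq_of_isKummerRep {K F : Type*} [Field K] [Field F] [Algebra K F] {n : ℕ} (hn : n ≠ 0)
    {x y : Pic0 K F} {h : F} (H : IsKummerRep n x h) (H' : IsKummerRep n y h) : x = y := by
  have h1 := H.sub H'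
  rw [mul_inv_cancel₀ H.ne_zero] at h1
  have h2 : x - y = 0 := h1.eq_zero_of_eq_pow hn (one_pow n).symm
  exact sub_eq_zero.mp h2

variable (N ℓ : ℕ) [NeZero N] [NeZero ℓ]

/-- **`β_* = α_* ∘ W`** on torsion classes -/
theorem betaPush_eq_alphaPush_atkinLehner (hℓ : ℓ.Prime) (hN : ¬ ℓ ∣ N) {n : ℕ} (hn : n ≠ 0)
    {x : JZero (N * ℓ)} (hx : n • x = 0) :
    betaPush N ℓ x = alphaPush N ℓ (atkinLehner N ℓ hℓ hN • x) := by
  obtain ⟨h, H⟩ := exists_isKummerRep hx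
  have H1 := isKummerRep_betaPush H
  have H2 := isKummerRep_alphaPush (H.algEquiv_smul (atkinLehner N ℓ hℓ hN))
  rw [normAlong_beta_eq N ℓ hℓ hN] at H1
  exact eq_of_isKummerRep hn H1 H2

/-- **`α_* = β_* ∘ W`** on torsion classes -/
theorem alphaPush_eq_betaPush_atkinLehner (hℓ : ℓ.Prime) (hN : ¬ ℓ ∣ N) {n : ℕ} (hn : n ≠ 0)
    {x : JZero (N * ℓ)} (hx : n • x = 0) :
    alphaPush N ℓ x = betaPush N ℓ (atkinLehner N ℓ hℓ hN • x) := by
  obtain ⟨h, H⟩ := exists_isKummerRep hx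
  have H1 := isKummerRep_alphaPush H
  have H2 := isKummerRep_betaPush (H.algEquiv_smul (atkinLehner N ℓ hℓ hN))
  rw [normAlong_beta_eq N ℓ hℓ hN, atkinLehner_atkinLehner] at H2
  exact eq_of_isKummerRep hn H1 H2

/-- the `q`-expansion of `c · v ^ n` -/
theorem coe_const_mul_pow (c : Kbar) (v : modularFunctionFieldBar N) (n : ℕ) :
    qExpand Kbar ℓ (((algebraMap Kbar (modularFunctionFieldBar N) c * v ^ n :
        modularFunctionFieldBar N)) : LaurentSeries Kbar)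
      = algebraMap Kbar (LaurentSeries Kbar) c * (qExpand Kbar ℓ (v : LaurentSeries Kbar)) ^ n := by
  have h1 : (((algebraMap Kbar (modularFunctionFieldBar N) c * v ^ n :
        modularFunctionFieldBar N)) : LaurentSeries Kbar)
      = algebraMap Kbar (LaurentSeries Kbar) c * (v : LaurentSeries Kbar) ^ n := rfl
  rw [h1, map_mul, map_pow, ModularCurve.algebraMap_laurentSeries_eq_single]
  congr 1
  exact qExpand_C ℓ c

/-- **[NEW-NORM] (α)**: `α_* x = 0` ⟹ `h(q^ℓ) · ∏_{k<ℓ} (W h)(ζ^k q) = c · v(q^ℓ) ^ n`. -/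
theorem newNorm_alpha (hℓ : ℓ.Prime) (hN : ¬ ℓ ∣ N) (ζ : Kbar) (hζ : IsPrimitiveRoot ζ ℓ)
    {n : ℕ} {x : JZero (N * ℓ)} {h : modularFunctionFieldBar (N * ℓ)}
    (H : IsKummerRep n x h) (hx : alphaPush N ℓ x = 0) :
    ∃ (c : Kbar) (v : modularFunctionFieldBar N), c ≠ 0 ∧ v ≠ 0 ∧
      qExpand Kbar ℓ (h : LaurentSeries Kbar) *
          ∏ k ∈ Finset.range ℓ, twistL (ζ ^ k)
            ((atkinLehner N ℓ hℓ hN h : modularFunctionFieldBar (N * ℓ)) : LaurentSeries Kbar)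
        = algebraMap Kbar (LaurentSeries Kbar) c
            * (qExpand Kbar ℓ (v : LaurentSeries Kbar)) ^ n := by
  obtain ⟨c, v, hc, hv, e⟩ := normAlpha_eq_const_mul_pow_of_alphaPush H hx
  refine ⟨c, v, hc, hv, ?_⟩
  rw [← normAlpha_pair N ℓ hℓ hN ζ hζ h, e]
  exact coe_const_mul_pow N ℓ c v n

/-- **[NEW-NORM] (β)**: `β_* x = 0` ⟹ `(W h)(q^ℓ) · ∏_{k<ℓ} h(ζ^k q) = c · v(q^ℓ) ^ n`. -/
theorem newNorm_beta (hℓ : ℓ.Prime) (hN : ¬ ℓ ∣ N) (ζ : Kbar) (hζ : IsPrimitiveRoot ζ ℓ)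
    {n : ℕ} {x : JZero (N * ℓ)} {h : modularFunctionFieldBar (N * ℓ)}
    (H : IsKummerRep n x h) (hx : betaPush N ℓ x = 0) :
    ∃ (c : Kbar) (v : modularFunctionFieldBar N), c ≠ 0 ∧ v ≠ 0 ∧
      qExpand Kbar ℓ ((atkinLehner N ℓ hℓ hN h : modularFunctionFieldBar (N * ℓ)) :
            LaurentSeries Kbar) *
          ∏ k ∈ Finset.range ℓ, twistL (ζ ^ k) (h : LaurentSeries Kbar)
        = algebraMap Kbar (LaurentSeries Kbar) c
            * (qExpand Kbar ℓ (v : LaurentSeries Kbar)) ^ n := by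
  obtain ⟨c, v, hc, hv, e⟩ := normBeta_eq_const_mul_pow_of_betaPush H hx
  refine ⟨c, v, hc, hv, ?_⟩
  rw [← normBeta_pair N ℓ hℓ hN ζ hζ h, e]
  exact coe_const_mul_pow N ℓ c v n

/-- the kernel of both degeneracy maps (the `ℓ`-new classes) is stable under Galois -/
theorem alphaPush_galois_eq_zero {x : JZero (N * ℓ)} (hx : alphaPush N ℓ x = 0)
    (σ : Kbar ≃ₐ[ℚ] Kbar) : alphaPush N ℓ (σ • x) = 0 := by
  rw [alphaPush_galois_smul, hx]
  exact smul_zero (A := JZero N) σ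

theorem betaPush_galois_eq_zero {x : JZero (N * ℓ)} (hx : betaPush N ℓ x = 0)
    (σ : Kbar ≃ₐ[ℚ] Kbar) : betaPush N ℓ (σ • x) = 0 := by
  rw [betaPush_galois_smul, hx]
  exact smul_zero (A := JZero N) σ

end Fermat.Agent.T7.helper43

end
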