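import Mathlib
import Fermat.Agent.T7.helper27_G1Asm
import Fermat.Agent.T7.helper43_NewNorm

/-!
# T7 = S33 (helper27): the newness predicate `IsNewN` of the contracts [B3] / (G1)

For the level `N * p`, `p ∤ N` prime, `u ∈ F_{N p}`:

`IsNewN N p u` : `Norm_α u = c · v ^ p` and `Norm_β u = c' · v' ^ p` with `c, c' ∈ ℚ̄ˣ`,
`v, v' ∈ F_Nˣ` (the conclusions of `α_* x = 0` and `β_* x = 0` for the class `x` of `u`,
helper43 [KUM-PUSH]).

* `isNewN_of_push`       : a Kummer representative (`n = p`) of a class killed by `α_*` and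
                           `β_*` is new;
* `push_eq_zero_of_isNewN` : the converse;
* `isNewN_mul_pow`       : `IsNewN` is stable under multiplication by `p`-th powers
                           (= `hNew` of `helper27.t0InertOmega_of`);
* `IsNewN.qseries_alpha`, `IsNewN.qseries_beta` : the two relations in `q`-series form
  (`u(q^p) · ∏_{k<p} (W u)(ζ^k q) = c · v(q^p)^p`, and the same with `u`, `W u` exchanged);
* `t0InertOmega_new`     : (G1) at the bad pair for `IsNewQ := IsNewN N p` from [B3] + [B4].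
-/

set_option autoImplicit false
set_option linter.unusedSectionVars false
set_option linter.unusedVariables false
set_option linter.style.haveILetI false

noncomputable section

open ModularCurve AlgebraicCurve IntermediateField

namespace Fermat.Agent.T7.helper27

open Fermat.Agent.S24 Fermat.Agent.P2.helper93 Fermat.Agent.P3.helper94
open Fermat.Agent.T2.helper36 Fermat.Agent.T7.helper43
open Fermat.Agent.S18.helper19

variable (N p : ℕ) [NeZero N] [NeZero p]

/-- **newness** of a function of level `N p` (Kummer form, exponent `p`): both norms to the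
level `N` are constants times `p`-th powers. -/
def IsNewN (u : FF (N * p)) : Prop :=
  (∃ (c : Kb) (v : FF N), c ≠ 0 ∧ v ≠ 0 ∧
      normAlong (heckeAlphaBar Kb N p) u = algebraMap Kb (FF N) c * v ^ p) ∧
    ∃ (c : Kb) (v : FF N), c ≠ 0 ∧ v ≠ 0 ∧
      normAlong (heckeBetaBar Kb N p) u = algebraMap Kb (FF N) c * v ^ p

variable {N p}

/-- a Kummer representative of a class killed by both degeneracy maps is new -/
theorem isNewN_of_push {x : JZero (N * p)} {u : FF (N * p)} (H : IsKummerRep p x u)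
    (hα : alphaPush N p x = 0) (hβ : betaPush N p x = 0) : IsNewN N p u :=
  ⟨normAlpha_eq_const_mul_pow_of_alphaPush H hα, normBeta_eq_const_mul_pow_of_betaPush H hβ⟩

/-- conversely, the class of a new Kummer representative is killed by both degeneracy maps -/
theorem push_eq_zero_of_isNewN (hp : p ≠ 0) {x : JZero (N * p)} {u : FF (N * p)}
    (H : IsKummerRep p x u) (hu : IsNewN N p u) :
    alphaPush N p x = 0 ∧ betaPush N p x = 0 := by
  obtain ⟨⟨c, v, -, -, e⟩, ⟨c', v', -, -, e'⟩⟩ := hu
  exact ⟨alphaPush_eq_zero_of_norm hp H e, betaPush_eq_zero_of_norm hp H e'⟩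

/-- the norm along an embedding is multiplicative -/
theorem normAlong_mul_pow {K F F' : Type*} [Field K] [Field F] [Field F'] [Algebra K F]
    [Algebra K F'] (ψ : F →ₐ[K] F') (G u : F') (n : ℕ) :
    normAlong ψ (G ^ n * u) = normAlong ψ G ^ n * normAlong ψ u := by
  rw [normAlong_apply', normAlong_apply', normAlong_apply']
  letI := algebraAlong ψ
  rw [map_mul, map_pow]

/-- **`hNew`**: newness is stable under multiplication by `p`-th powers. -/
theorem isNewN_mul_pow (u G : FF (N * p)) (hG : G ≠ 0) (hu : IsNewN N p u) :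
    IsNewN N p (G ^ p * u) := by
  obtain ⟨⟨c, v, hc, hv, e⟩, ⟨c', v', hc', hv', e'⟩⟩ := hu
  refine ⟨⟨c, normAlong (heckeAlphaBar Kb N p) G * v, hc, ?_, ?_⟩,
    ⟨c', normAlong (heckeBetaBar Kb N p) G * v', hc', ?_, ?_⟩⟩
  · exact mul_ne_zero (normAlong_ne_zero' (heckeAlphaBar Kb N p) (alpha_finiteAlong N p) hG) hv
  · rw [normAlong_mul_pow, e, mul_pow]; ring
  · exact mul_ne_zero (normAlong_ne_zero' (heckeBetaBar Kb N p) (beta_finiteAlong N p) hG) hv'
  · rw [normAlong_mul_pow, e', mul_pow]; ring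

/-- the `α`-relation of a new function in `q`-series form -/
theorem IsNewN.qseries_alpha (hp : p.Prime) (hpN : ¬ p ∣ N) (ζ : Kb) (hζ : IsPrimitiveRoot ζ p)
    {u : FF (N * p)} (hu : IsNewN N p u) :
    ∃ (c : Kb) (v : FF N), c ≠ 0 ∧ v ≠ 0 ∧
      qExpand Kb p (u : LaurentSeries Kb) *
          ∏ k ∈ Finset.range p, twistL (ζ ^ k)
            ((atkinLehner N p hp hpN u : FF (N * p)) : LaurentSeries Kb)
        = algebraMap Kb (LaurentSeries Kb) c * (qExpand Kb p (v : LaurentSeries Kb)) ^ p := by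
  obtain ⟨c, v, hc, hv, e⟩ := hu.1
  refine ⟨c, v, hc, hv, ?_⟩
  rw [← normAlpha_pair N p hp hpN ζ hζ u, e]
  exact coe_const_mul_pow N p c v p

/-- the `β`-relation of a new function in `q`-series form -/
theorem IsNewN.qseries_beta (hp : p.Prime) (hpN : ¬ p ∣ N) (ζ : Kb) (hζ : IsPrimitiveRoot ζ p)
    {u : FF (N * p)} (hu : IsNewN N p u) :
    ∃ (c : Kb) (v : FF N), c ≠ 0 ∧ v ≠ 0 ∧
      qExpand Kb p ((atkinLehner N p hp hpN u : FF (N * p)) : LaurentSeries Kb) *
          ∏ k ∈ Finset.range p, twistL (ζ ^ k) (u : LaurentSeries Kb)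
        = algebraMap Kb (LaurentSeries Kb) c * (qExpand Kb p (v : LaurentSeries Kb)) ^ p := by
  obtain ⟨c, v, hc, hv, e⟩ := hu.2
  refine ⟨c, v, hc, hv, ?_⟩
  rw [← normBeta_pair N p hp hpN ζ hζ u, e]
  exact coe_const_mul_pow N p c v p

/-- **(G1)** at the bad pair for `IsNewQ := IsNewN N p`, from [B3] and [B4]. -/
theorem t0InertOmega_new (hp : p.Prime) (hpN : ¬ p ∣ N) (hN : 4 ∣ N ∨ 9 ∣ N)
    (A : ValuationSubring Kb) (hA : A.LiesOverPrime p)
    (hB3 : B3Statement (N * p) (atkinLehner N p hp hpN) A p (IsNewN N p))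
    (hB4 : B4Statement (N * p) (atkinLehner N p hp hpN) A p) :
    T0InertOmegaStatement (N * p) (atkinLehner N p hp hpN) A p (IsNewN N p) :=
  t0InertOmega_bad N p hp hpN hN A hA isNewN_mul_pow hB3 hB4

end Fermat.Agent.T7.helper27

end
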