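/-
T7 (S33, at risk), helper98: **[B3-ALG] part 1 - the twisted product `NU` on power series**.

`R` a commutative ring, `ζ : R`, `p : ℕ`.  For `h : R⟦X⟧` put
`tprod ζ p h = ∏_{k<p} h(ζ^k X)`  (so that `tprod ζ p h = NU(h)(X^p)` when `ζ` is a primitive
`p`-th root of unity: `NU` is the "norm of the Kummer cover `X ↦ X^p`").

* `tprod_mul`, `tprod_pow`, `tprod_one`, `rescale_tprod` (invariance under `X ↦ ζ X`);
* `sum_rescale_eq` : `∑_{k<p} F(ζ^k X) = p * F_p`, `F_p` the part of `F` in degrees divisible by `p`;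
* `tprod_one_add` (**depth raising**, (D1)) : `tprod (1 + a F) = 1 + (a p) G + a^2 Q`;
* `exists_expand_eq_of_rescale_eq` (descent) : a series invariant under `X ↦ ζ X` is a series
  in `X^p`;
* `rescale_eq_of_pow_eq` : a unit `w` with `w^p` invariant is invariant.
-/
import Mathlib

set_option autoImplicit false
set_option linter.unusedSectionVars false
set_option linter.unusedVariables false

noncomputable section

namespace Fermat.Agent.T7.helper98

open PowerSeries

variable {R : Type*} [CommRing R]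

/-- the twisted product `∏_{k<p} h(ζ^k X)` -/
def tprod (ζ : R) (p : ℕ) (h : R⟦X⟧) : R⟦X⟧ :=
  ∏ k ∈ Finset.range p, rescale (ζ ^ k) h

theorem tprod_one (ζ : R) (p : ℕ) : tprod ζ p (1 : R⟦X⟧) = 1 := by
  simp [tprod]

theorem tprod_mul (ζ : R) (p : ℕ) (x y : R⟦X⟧) :
    tprod ζ p (x * y) = tprod ζ p x * tprod ζ p y := by
  simp only [tprod, map_mul, Finset.prod_mul_distrib]

theorem tprod_pow (ζ : R) (p : ℕ) (x : R⟦X⟧) (n : ℕ) :
    tprod ζ p (x ^ n) = tprod ζ p x ^ n := by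
  simp only [tprod, map_pow, Finset.prod_pow]

theorem tprod_isUnit (ζ : R) (p : ℕ) {x : R⟦X⟧} (hx : IsUnit x) : IsUnit (tprod ζ p x) := by
  obtain ⟨y, hy⟩ := hx.exists_right_inv
  refine IsUnit.of_mul_eq_one (tprod ζ p y) ?_
  rw [← tprod_mul, hy, tprod_one]

/-- invariance of the twisted product under `X ↦ ζ X` -/
theorem rescale_tprod {ζ : R} {p : ℕ} (hζ : ζ ^ p = 1) (h : R⟦X⟧) :
    rescale ζ (tprod ζ p h) = tprod ζ p h := by
  unfold tprod
  rw [map_prod]
  have h1 : ∀ k : ℕ, rescale ζ (rescale (ζ ^ k) h) = rescale (ζ ^ (k + 1)) h := by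
    intro k
    rw [rescale_rescale, pow_succ]
  simp_rw [h1]
  rcases Nat.eq_zero_or_pos p with rfl | hp
  · simp
  · obtain ⟨m, rfl⟩ : ∃ m, p = m + 1 := ⟨p - 1, by omega⟩
    rw [Finset.prod_range_succ, Finset.prod_range_succ', hζ, pow_zero]

/-- `expand` is invariant under `X ↦ ζ X` -/
theorem rescale_expand {ζ : R} {p : ℕ} (hp : p ≠ 0) (hζ : ζ ^ p = 1) (h : R⟦X⟧) :
    rescale ζ (expand p hp h) = expand p hp h := by
  ext n
  rw [coeff_rescale, coeff_expand]
  split_ifs with hn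
  · obtain ⟨m, rfl⟩ := hn
    rw [pow_mul, hζ, one_pow, one_mul]
  · rw [mul_zero]

/-- the part of a series in degrees divisible by `p` -/
def ppart (p : ℕ) (F : R⟦X⟧) : R⟦X⟧ :=
  PowerSeries.mk fun n => if p ∣ n then coeff n F else 0

theorem coeff_ppart (p : ℕ) (F : R⟦X⟧) (n : ℕ) :
    coeff n (ppart p F) = if p ∣ n then coeff n F else 0 := coeff_mk _ _

/-- `∑_{k<p} F(ζ^k X) = p * (part of F in degrees divisible by p)` -/
theorem sum_rescale_eq [IsDomain R] {ζ : R} {p : ℕ} (hp : p.Prime) (hζ : IsPrimitiveRoot ζ p)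
    (F : R⟦X⟧) :
    ∑ k ∈ Finset.range p, rescale (ζ ^ k) F = C (p : R) * ppart p F := by
  ext n
  rw [map_sum, coeff_C_mul, coeff_ppart]
  simp_rw [coeff_rescale, ← pow_mul, mul_comm _ n, pow_mul]
  rw [← Finset.sum_mul]
  split_ifs with hn
  · obtain ⟨m, rfl⟩ := hn
    have h1 : ζ ^ (p * m) = 1 := by rw [pow_mul, hζ.pow_eq_one, one_pow]
    simp [h1]
  · have hcop : Nat.Coprime n p := ((Nat.Prime.coprime_iff_not_dvd hp).mpr hn).symm
    rw [(hζ.pow_of_coprime n hcop).geom_sum_eq_zero hp.one_lt, zero_mul, mul_zero]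

theorem rescale_C_eq (c a : R) : rescale c (C a : R⟦X⟧) = C a := by
  ext n
  rw [coeff_rescale, coeff_C]
  split_ifs with hn
  · rw [hn, pow_zero, one_mul]
  · rw [mul_zero]

/-- a product of `1 + a x_k` is `1 + a ∑ x_k + a^2 Q` -/
theorem prod_one_add_mul {S : Type*} [CommRing S] {ι : Type*} (s : Finset ι) (a : S)
    (x : ι → S) : ∃ Q : S, ∏ k ∈ s, (1 + a * x k) = 1 + a * ∑ k ∈ s, x k + a ^ 2 * Q := by
  classical
  induction s using Finset.induction_on with
  | empty => exact ⟨0, by simp⟩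
  | insert i s hi ih =>
    obtain ⟨Q, hQ⟩ := ih
    refine ⟨Q + x i * ∑ k ∈ s, x k + a * x i * Q, ?_⟩
    rw [Finset.prod_insert hi, Finset.sum_insert hi, hQ]
    ring

/-- **(D1) depth raising**: `NU(1 + a F) = 1 + (a p) G + a^2 Q`. -/
theorem tprod_one_add [IsDomain R] {ζ : R} {p : ℕ} (hp : p.Prime) (hζ : IsPrimitiveRoot ζ p)
    (a : R) (F : R⟦X⟧) :
    ∃ Q : R⟦X⟧, tprod ζ p (1 + C a * F) = 1 + C (a * (p : R)) * ppart p F + C (a ^ 2) * Q := by
  obtain ⟨Q, hQ⟩ := prod_one_add_mul (Finset.range p) (C a : R⟦X⟧)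
    (fun k => rescale (ζ ^ k) F)
  refine ⟨Q, ?_⟩
  have h1 : tprod ζ p (1 + C a * F)
      = ∏ k ∈ Finset.range p, (1 + C a * rescale (ζ ^ k) F) := by
    unfold tprod
    refine Finset.prod_congr rfl fun k _ => ?_
    rw [map_add, map_one, map_mul, rescale_C_eq]
  rw [h1, hQ, sum_rescale_eq hp hζ, map_mul, map_pow]
  ring

/-- **descent**: a series invariant under `X ↦ ζ X` is a series in `X ^ p`. -/
theorem expand_of_rescale_eq [IsDomain R] {ζ : R} {p : ℕ} (hp : p ≠ 0)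
    (hζ : IsPrimitiveRoot ζ p) (f : R⟦X⟧) (hf : rescale ζ f = f) :
    expand p hp (PowerSeries.mk fun m => coeff (p * m) f) = f := by
  ext n
  rw [coeff_expand]
  split_ifs with hn
  · obtain ⟨m, rfl⟩ := hn
    rw [coeff_mk, Nat.mul_div_cancel_left _ (Nat.pos_of_ne_zero hp)]
  · have h1 := congrArg (coeff n) hf
    rw [coeff_rescale] at h1
    have h2 : (ζ ^ n - 1) * coeff n f = 0 := by
      rw [sub_mul, h1, one_mul, sub_self]
    rcases mul_eq_zero.mp h2 with h3 | h3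
    · exact absurd ((hζ.pow_eq_one_iff_dvd n).mp (sub_eq_zero.mp h3)) hn
    · exact h3.symm

/-- a unit `w` whose `p`-th power is invariant under `X ↦ ζ X` is invariant. -/
theorem rescale_eq_of_pow_eq [IsDomain R] {ζ : R} {p : ℕ} (hp : p ≠ 0)
    (hζ : IsPrimitiveRoot ζ p) (w : R⟦X⟧) (hw : IsUnit w)
    (hwp : rescale ζ (w ^ p) = w ^ p) : rescale ζ w = w := by
  have : NeZero p := ⟨hp⟩
  obtain ⟨w', hw'⟩ := hw.exists_right_inv
  have hCinj : Function.Injective (C : R →+* R⟦X⟧) := PowerSeries.C_injective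
  have hζ' : IsPrimitiveRoot (C ζ : R⟦X⟧) p := hζ.map_of_injective hCinj
  have h1 : (rescale ζ w * w') ^ p = 1 := by
    rw [mul_pow, ← map_pow, hwp, ← mul_pow, hw', one_pow]
  obtain ⟨i, hi, hiξ⟩ := hζ'.eq_pow_of_pow_eq_one h1
  have h2 : constantCoeff (rescale ζ w * w') = 1 := by
    have h3 : constantCoeff (rescale ζ w) = constantCoeff w := by
      rw [← coeff_zero_eq_constantCoeff_apply, coeff_rescale, pow_zero, one_mul,
        coeff_zero_eq_constantCoeff_apply]
    rw [map_mul, h3, ← map_mul, hw', map_one]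
  have h4 : ζ ^ i = 1 := by
    rw [← hiξ, ← map_pow, constantCoeff_C] at h2
    exact h2
  have h5 : rescale ζ w * w' = 1 := by
    rw [← hiξ, ← map_pow, h4, map_one]
  calc rescale ζ w = rescale ζ w * (w * w') := by rw [hw', mul_one]
    _ = (rescale ζ w * w') * w := by ring
    _ = w := by rw [h5, one_mul]

end Fermat.Agent.T7.helper98

end
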