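/-
T7 (S33, at risk), helper98: **[B3-ALG] part 2 - the depth induction (D2)**.

`R` a domain, `ζ ∈ R` a primitive `p`-th root of unity (`p` prime), `π ∣ p` in `R`.
`E h = h(X^p)` (`PowerSeries.expand`), `P h = ∏_{k<p} h(ζ^k X)` (`tprod`).
For units `u₁ u₂` of `R⟦X⟧` with the two norm relations
  `E u₁ * P u₂ = w ^ p`,   `P u₁ * E u₂ = w' ^ p`
(the `q`-expansion form of "the norms of `K` along both degeneracy maps are `p`-th powers",
see `T7.helper43.normAlpha_pair / normBeta_pair`), if both `u_i` are `p`-th powers of units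
modulo `π`, then they are `p`-th powers of units modulo `π ^ n` for every `n ≥ 1`
(`isPowMod_of_norm_rel`).  No completion, no supremum of depths: one step raises the depth by one.
-/
import Mathlib
import Fermat.Agent.T7.helper98_B3Norm

set_option autoImplicit false
set_option linter.unusedSectionVars false
set_option linter.unusedVariables false

noncomputable section

namespace Fermat.Agent.T7.helper98

open PowerSeries

variable {R : Type*} [CommRing R]

/-- `u` is the `p`-th power of a unit modulo `a` (coefficientwise) -/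
def IsPowMod (p : ℕ) (a : R) (u : R⟦X⟧) : Prop :=
  ∃ V F : R⟦X⟧, IsUnit V ∧ u = V ^ p + C a * F

theorem isPowMod_of_dvd {p : ℕ} {a b : R} (hab : a ∣ b) {u : R⟦X⟧} (h : IsPowMod p b u) :
    IsPowMod p a u := by
  obtain ⟨V, F, hV, hu⟩ := h
  obtain ⟨c, rfl⟩ := hab
  exact ⟨V, C c * F, hV, by rw [hu, map_mul]; ring⟩

/-- a series congruent to `1` modulo `a` is a `p`-th power modulo `a` -/
theorem isPowMod_of_eq_one_add {p : ℕ} {a : R} {u F : R⟦X⟧} (h : u = 1 + C a * F) :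
    IsPowMod p a u :=
  ⟨1, F, isUnit_one, by rw [h, one_pow]⟩

theorem coeff_zero_unit_of_isUnit {x : R⟦X⟧} (hx : IsUnit x) : IsUnit (coeff 0 x) := by
  rw [coeff_zero_eq_constantCoeff_apply]
  exact PowerSeries.isUnit_iff_constantCoeff.mp hx

/-- the inverse of an invariant unit is invariant -/
theorem rescale_inv_eq {ζ : R} {T Ti : R⟦X⟧} (hT : rescale ζ T = T) (hTi : T * Ti = 1) :
    rescale ζ Ti = Ti := by
  have h1 : T * rescale ζ Ti = 1 := by
    conv_lhs => rw [← hT]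
    rw [← map_mul, hTi, map_one]
  calc rescale ζ Ti = (T * Ti) * rescale ζ Ti := by rw [hTi, one_mul]
    _ = Ti * (T * rescale ζ Ti) := by ring
    _ = Ti := by rw [h1, mul_one]

/-- **one step of the depth induction**: from `u₂ ≡ V₂ ^ p mod π ^ n` (`n ≥ 1`) and the norm
relation `E u₁ * P u₂ = w ^ p` to `u₁ ≡ V₁ ^ p mod π ^ (n + 1)`. -/
theorem isPowMod_step [IsDomain R] {p : ℕ} (hp : p.Prime) {ζ : R} (hζ : IsPrimitiveRoot ζ p)
    (π p' : R) (hπ : (p : R) = π * p') (u₁ u₂ w : R⟦X⟧) (hu₁ : IsUnit u₁) (hu₂ : IsUnit u₂)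
    (h1 : expand p hp.ne_zero u₁ * tprod ζ p u₂ = w ^ p)
    (n : ℕ) (hn : 1 ≤ n) (h₂ : IsPowMod p (π ^ n) u₂) : IsPowMod p (π ^ (n + 1)) u₁ := by
  have hp0 : p ≠ 0 := hp.ne_zero
  have hζp : ζ ^ p = 1 := hζ.pow_eq_one
  obtain ⟨V₂, F₂, hV₂, hu₂e⟩ := h₂
  obtain ⟨V₂i, hV₂i⟩ := hV₂.exists_right_inv
  -- `u₂ = V₂ ^ p * (1 + π ^ n F₂')`
  have hu₂' : u₂ = V₂ ^ p * (1 + C (π ^ n) * (F₂ * V₂i ^ p)) := by
    have h2 : V₂ ^ p * V₂i ^ p = 1 := by rw [← mul_pow, hV₂i, one_pow]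
    calc u₂ = V₂ ^ p + C (π ^ n) * F₂ := hu₂e
      _ = V₂ ^ p + C (π ^ n) * F₂ * (V₂ ^ p * V₂i ^ p) := by rw [h2, mul_one]
      _ = _ := by ring
  -- depth raising
  obtain ⟨Q, hQ⟩ := tprod_one_add hp hζ (π ^ n) (F₂ * V₂i ^ p)
  set G := ppart p (F₂ * V₂i ^ p) with hG
  set H : R⟦X⟧ := C p' * G + C (π ^ (n - 1)) * Q with hH
  have hQ' : tprod ζ p (1 + C (π ^ n) * (F₂ * V₂i ^ p)) = 1 + C (π ^ (n + 1)) * H := by
    rw [hQ, hH, hπ]
    have e1 : π ^ n * (π * p') = π ^ (n + 1) * p' := by ring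
    have e2 : (π ^ n) ^ 2 = π ^ (n + 1) * π ^ (n - 1) := by
      rw [← pow_mul, ← pow_add]
      congr 1
      omega
    rw [e1, e2, map_mul, map_mul]
    ring
  set T := tprod ζ p V₂ with hT
  have hPu₂ : tprod ζ p u₂ = T ^ p * (1 + C (π ^ (n + 1)) * H) := by
    conv_lhs => rw [hu₂']
    rw [tprod_mul, tprod_pow, hQ']
  have hTu : IsUnit T := tprod_isUnit ζ p hV₂
  obtain ⟨Ti, hTi⟩ := hTu.exists_right_inv
  have hTinv : rescale ζ T = T := rescale_tprod hζp V₂
  have hTiinv : rescale ζ Ti = Ti := rescale_inv_eq hTinv hTi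
  -- `w` is an invariant unit
  have hEu : IsUnit (expand p hp0 u₁) := hu₁.map (expand p hp0)
  have hwp : IsUnit (w ^ p) := by
    rw [← h1]
    exact hEu.mul (tprod_isUnit ζ p hu₂)
  have hw : IsUnit w := (isUnit_pow_iff hp0).mp hwp
  have hwinv : rescale ζ w = w := by
    apply rescale_eq_of_pow_eq hp0 hζ w hw
    rw [← h1, map_mul, rescale_expand hp0 hζp, rescale_tprod hζp]
  -- the deep factor is a unit
  have hDu : IsUnit (1 + C (π ^ (n + 1)) * H) := by
    have h3 : IsUnit (tprod ζ p u₂) := tprod_isUnit ζ p hu₂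
    rw [hPu₂] at h3
    exact isUnit_of_mul_isUnit_right h3
  obtain ⟨D, hD⟩ := hDu.exists_right_inv
  -- `s = w / T`
  set s := w * Ti with hs
  have hsinv : rescale ζ s = s := by rw [hs, map_mul, hwinv, hTiinv]
  have hsu : IsUnit s := hw.mul (IsUnit.of_mul_eq_one T (by rw [mul_comm]; exact hTi))
  have hE : expand p hp0 u₁ = s ^ p + C (π ^ (n + 1)) * (-(s ^ p * H * D)) := by
    have h4 : expand p hp0 u₁ * (T ^ p * (1 + C (π ^ (n + 1)) * H)) = w ^ p := by
      rw [← hPu₂]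
      exact h1
    have h5 : T ^ p * Ti ^ p = 1 := by rw [← mul_pow, hTi, one_pow]
    have h6 : expand p hp0 u₁ = s ^ p * D := by
      calc expand p hp0 u₁
          = expand p hp0 u₁ * ((T ^ p * Ti ^ p) * ((1 + C (π ^ (n + 1)) * H) * D)) := by
            rw [h5, hD, mul_one, mul_one]
        _ = (expand p hp0 u₁ * (T ^ p * (1 + C (π ^ (n + 1)) * H))) * (Ti ^ p * D) := by ring
        _ = s ^ p * D := by rw [h4, hs, mul_pow]; ring
    have h7 : D = 1 - C (π ^ (n + 1)) * (H * D) := by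
      have : (1 + C (π ^ (n + 1)) * H) * D = D + C (π ^ (n + 1)) * (H * D) := by ring
      rw [hD] at this
      rw [this]
      ring
    rw [h6]
    conv_lhs => rw [h7]
    ring
  -- descent
  set V₁ : R⟦X⟧ := PowerSeries.mk fun m => coeff (p * m) s with hV₁
  have hV₁e : expand p hp0 V₁ = s := expand_of_rescale_eq hp0 hζ s hsinv
  have hV₁u : IsUnit V₁ := by
    rw [PowerSeries.isUnit_iff_constantCoeff, ← coeff_zero_eq_constantCoeff_apply, hV₁,
      coeff_mk, mul_zero]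
    exact coeff_zero_unit_of_isUnit hsu
  refine ⟨V₁, PowerSeries.mk fun m => coeff (p * m) (-(s ^ p * H * D)), hV₁u, ?_⟩
  ext m
  have h8 := congrArg (coeff (p * m)) hE
  have h9 : coeff (p * m) (s ^ p) = coeff m (V₁ ^ p) := by
    rw [← hV₁e, ← map_pow, coeff_expand_mul]
  rw [coeff_expand_mul, map_add, h9, coeff_C_mul] at h8
  rw [h8, map_add, coeff_C_mul, coeff_mk]

/-- **(D2) the depth induction**: under the two norm relations, `u₁` and `u₂` are `p`-th powers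
of units modulo `π ^ n` for every `n ≥ 1` as soon as they are modulo `π`. -/
theorem isPowMod_of_norm_rel [IsDomain R] {p : ℕ} (hp : p.Prime) {ζ : R}
    (hζ : IsPrimitiveRoot ζ p) (π p' : R) (hπ : (p : R) = π * p') (u₁ u₂ w w' : R⟦X⟧)
    (hu₁ : IsUnit u₁) (hu₂ : IsUnit u₂)
    (h1 : expand p hp.ne_zero u₁ * tprod ζ p u₂ = w ^ p)
    (h2 : tprod ζ p u₁ * expand p hp.ne_zero u₂ = w' ^ p)
    (hb₁ : IsPowMod p π u₁) (hb₂ : IsPowMod p π u₂) (n : ℕ) (hn : 1 ≤ n) :
    IsPowMod p (π ^ n) u₁ ∧ IsPowMod p (π ^ n) u₂ := by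
  induction n, hn using Nat.le_induction with
  | base => rw [pow_one]; exact ⟨hb₁, hb₂⟩
  | succ n hn ih =>
    exact ⟨isPowMod_step hp hζ π p' hπ u₁ u₂ w hu₁ hu₂ h1 n hn ih.2,
      isPowMod_step hp hζ π p' hπ u₂ u₁ w' hu₂ hu₁ (by rw [mul_comm]; exact h2) n hn ih.1⟩

end Fermat.Agent.T7.helper98

end
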