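/-
T7 (S33, at risk), helper38: **[B3] base step + uniformizer** for the unit route
(target: `T7.helper98.exists_roots_of_norm_rel`).

Abstract part (Mathlib + `helper98.IsPowMod`):

* `exists_C_mul_of_map_eq_zero` : a power series whose reduction vanishes is `C π * F`
  (`π` generates the kernel of the reduction);
* `isPowMod_of_map_eq` : if `u` is a unit of `R⟦X⟧` and the reduction of `u * Z0 ^ p` is
  `X ^ (p * n')`, then `u` is a `p`-th power of a unit modulo `π`;
* `exists_unif_of_pid` : in a PID, a proper ideal containing the nonzero element `b` is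
  generated by some `π` with `b = π ^ e * c`, `e ≥ 1`, `c` outside the ideal.

Instance part (`R₀ = capSubring A K₀`, `A` a valuation subring of `ℚ̄` over `p`):

* `rhoCap` : the reduction `R₀ → k_A`;
* `exists_unif_capSubring` : `π p' : R₀`, `N ≥ 1`, `a : A` with `p = π * p'`,
  `π ^ N = p ^ 2 * a`, `ρ π = 0`, `ker ρ ⊆ (π)`;
* `isPowMod_base` : the unit part `u` of a function with integral expansion of reduction `1`
  (`H * X ^ (p n') = φ(u) * φ(Z0) ^ p`, output of DISC-UNIT) is a `p`-th power modulo `π`.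
-/
import Mathlib
import Fermat.Agent.P2.helper23_Disc
import Fermat.Agent.T7.helper98_B3Ind

set_option autoImplicit false
set_option linter.unusedSectionVars false
set_option linter.unusedVariables false
set_option linter.style.haveILetI false
set_option linter.style.longLine false

noncomputable section

namespace Fermat.Agent.T7.helper38

open PowerSeries

section Abstract

variable {R k : Type*} [CommRing R]

/-- a power series whose coefficientwise reduction vanishes is a multiple of `C π`, if `π`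
divides every element of the kernel of the reduction -/
theorem exists_C_mul_of_map_eq_zero [CommRing k] (ρ : R →+* k) (π : R)
    (hker : ∀ x : R, ρ x = 0 → π ∣ x) (G : R⟦X⟧) (hG : PowerSeries.map ρ G = 0) :
    ∃ F : R⟦X⟧, G = C π * F := by
  have h : ∀ n, π ∣ coeff n G := fun n => hker _ (by
    have h1 := congrArg (coeff n) hG
    rw [coeff_map] at h1
    simpa using h1)
  choose f hf using h
  refine ⟨PowerSeries.mk f, ?_⟩
  ext n
  rw [coeff_C_mul, coeff_mk, hf n]

/-- **base step**: if the reduction of `u * Z0 ^ p` is `X ^ (p * n')` (`u` a unit), then `u` is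
the `p`-th power of a unit modulo `π`. -/
theorem isPowMod_of_map_eq [Field k] (ρ : R →+* k) (π : R)
    (hker : ∀ x : R, ρ x = 0 → π ∣ x) (hunit : ∀ x : R, ρ x ≠ 0 → IsUnit x)
    {p : ℕ} (hp : p ≠ 0) (u Z0 : R⟦X⟧) (hu : IsUnit u) (n' : ℕ)
    (h : PowerSeries.map ρ (u * Z0 ^ p) = X ^ (p * n')) :
    Fermat.Agent.T7.helper98.IsPowMod p π u := by
  classical
  set ub : k⟦X⟧ := PowerSeries.map ρ u with hub
  set Zb : k⟦X⟧ := PowerSeries.map ρ Z0 with hZb
  have hubu : IsUnit ub := hu.map _
  have h' : ub * Zb ^ p = X ^ (p * n') := by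
    rw [hub, hZb, ← map_pow, ← map_mul]
    exact h
  -- the order of `Zb` is `n'`
  have hord : Zb.order = n' := by
    have h1 := congrArg PowerSeries.order h'
    rw [order_mul, order_pow, order_zero_of_unit hubu, zero_add, order_X_pow] at h1
    have hne : Zb.order ≠ ⊤ := by
      intro htop
      rw [htop] at h1
      have : (p • (⊤ : ℕ∞)) = ⊤ := by
        rw [nsmul_eq_mul]
        exact ENat.mul_top (by exact_mod_cast hp)
      rw [this] at h1
      exact (ENat.natCast_ne_top _) h1.symm
    obtain ⟨j, hj⟩ := ENat.ne_top_iff_exists.mp hne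
    rw [← hj] at h1 ⊢
    rw [nsmul_eq_mul] at h1
    have h2 : p * j = p * n' := by exact_mod_cast h1
    have h3 : j = n' := Nat.eq_of_mul_eq_mul_left (Nat.pos_of_ne_zero hp) h2
    rw [h3]
  -- the shifted series
  set z0 : R⟦X⟧ := PowerSeries.mk fun i => coeff (n' + i) Z0 with hz0
  have hZb' : Zb = X ^ n' * PowerSeries.map ρ z0 := by
    ext j
    rw [coeff_X_pow_mul']
    split_ifs with hj
    · rw [hZb, coeff_map, coeff_map, hz0, coeff_mk, Nat.add_sub_cancel' hj]
    · exact coeff_of_lt_order j (by rw [hord]; exact_mod_cast not_le.mp hj)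
  have h2 : PowerSeries.map ρ (u * z0 ^ p) = 1 := by
    have h3 : X ^ (p * n') * (ub * (PowerSeries.map ρ z0) ^ p) = X ^ (p * n') * 1 := by
      calc X ^ (p * n') * (ub * (PowerSeries.map ρ z0) ^ p)
          = ub * (X ^ n' * PowerSeries.map ρ z0) ^ p := by
            rw [mul_pow, ← pow_mul, mul_comm n' p]
            ring
        _ = ub * Zb ^ p := by rw [← hZb']
        _ = X ^ (p * n') * 1 := by rw [h', mul_one]
    have h4 := mul_left_cancel₀ (pow_ne_zero _ X_ne_zero) h3
    rw [map_mul, map_pow]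
    exact h4
  -- `z0` is a unit
  have hz0u : IsUnit z0 := by
    rw [PowerSeries.isUnit_iff_constantCoeff]
    apply hunit
    intro h0
    have h5 : constantCoeff (PowerSeries.map ρ (u * z0 ^ p)) = 0 := by
      rw [map_mul, map_pow, map_mul, map_pow]
      have : constantCoeff (PowerSeries.map ρ z0) = 0 := by
        rw [← coeff_zero_eq_constantCoeff_apply, coeff_map, coeff_zero_eq_constantCoeff_apply]
        exact h0
      rw [this, zero_pow hp, mul_zero]
    rw [h2] at h5
    simp at h5
  obtain ⟨F, hF⟩ := exists_C_mul_of_map_eq_zero ρ π hker (u * z0 ^ p - 1) (by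
    rw [map_sub, h2, map_one, sub_self])
  obtain ⟨V, hV⟩ := hz0u.exists_right_inv
  have hVu : IsUnit V := IsUnit.of_mul_eq_one z0 (by rw [mul_comm]; exact hV)
  refine ⟨V, V ^ p * F, hVu, ?_⟩
  have h6 : u * z0 ^ p = 1 + C π * F := by
    rw [← hF]
    ring
  have h7 : z0 ^ p * V ^ p = 1 := by rw [← mul_pow, hV, one_pow]
  calc u = u * (z0 ^ p * V ^ p) := by rw [h7, mul_one]
    _ = (u * z0 ^ p) * V ^ p := by ring
    _ = (1 + C π * F) * V ^ p := by rw [h6]
    _ = V ^ p + C π * (V ^ p * F) := by ring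

/-- in a PID, a proper ideal `I` containing a nonzero `b` is generated by some `π` with
`b = π ^ e * c`, `e ≥ 1`, `c ∉ I`. -/
theorem exists_unif_of_pid [IsDomain R] [IsPrincipalIdealRing R] (I : Ideal R) (hI : I ≠ ⊤)
    (b : R) (hb : b ≠ 0) (hbI : b ∈ I) :
    ∃ (π c : R) (e : ℕ), I = Ideal.span {π} ∧ 1 ≤ e ∧ b = π ^ e * c ∧ c ∉ I := by
  obtain ⟨π, hπ⟩ := (IsPrincipalIdealRing.principal I).principal
  have hIπ : I = Ideal.span {π} := hπ
  have hπu : ¬ IsUnit π := by
    intro hu
    apply hI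
    rw [hIπ]
    exact Ideal.span_singleton_eq_top.mpr hu
  have hdvd : π ∣ b := by
    rw [hIπ] at hbI
    exact Ideal.mem_span_singleton.mp hbI
  have hfin : FiniteMultiplicity π b := FiniteMultiplicity.of_not_isUnit hπu hb
  obtain ⟨c, hc, hnd⟩ := hfin.exists_eq_pow_mul_and_not_dvd
  refine ⟨π, c, multiplicity π b, hIπ, ?_, hc, ?_⟩
  · exact Nat.one_le_iff_ne_zero.mpr (fun h0 => (multiplicity_eq_zero.mp h0) hdvd)
  · intro hcI
    rw [hIπ] at hcI
    exact hnd (Ideal.mem_span_singleton.mp hcI)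

end Abstract

section Instance

open Fermat.Agent.P2.helper23 HahnSeries ModularCurve

variable (A : ValuationSubring Kb) (K₀ : IntermediateField ℚ Kb)

/-- the reduction `A ∩ K₀ → k_A` -/
def rhoCap : capSubring A K₀ →+* IsLocalRing.ResidueField A :=
  (IsLocalRing.residue A).comp (Subring.inclusion (capSubring_le A K₀))

theorem rhoCap_apply (x : capSubring A K₀) :
    rhoCap A K₀ x = IsLocalRing.residue A ⟨(x : Kb), (mem_capSubring.1 x.2).1⟩ := rfl

/-- an element of `A ∩ K₀` with nonzero reduction is a unit of `A ∩ K₀` -/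
theorem isUnit_of_rhoCap_ne_zero (x : capSubring A K₀) (hx : rhoCap A K₀ x ≠ 0) : IsUnit x := by
  refine Fermat.Agent.P2.helper56.isUnit_capSubring A K₀ x (fun hA => ?_)
  by_contra hnu
  apply hx
  rw [rhoCap_apply]
  exact (IsLocalRing.residue_eq_zero_iff _).mpr ((IsLocalRing.mem_maximalIdeal _).mpr hnu)

/-- **uniformizer** of `R₀ = A ∩ K₀` (`A` over `p`, `K₀` a number field): `π ∣ p` in `R₀`,
`p ^ 2 ∣ π ^ N` in `A`, and `π` generates the kernel of the reduction. -/
theorem exists_unif_capSubring [FiniteDimensional ℚ K₀] {p : ℕ} (hp : p.Prime)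
    (hA : A.LiesOverPrime p) :
    ∃ (π p' : capSubring A K₀) (N : ℕ) (a : A),
      ((p : ℕ) : capSubring A K₀) = π * p' ∧ 1 ≤ N ∧
      ((π : capSubring A K₀) : Kb) ^ N = (p : Kb) ^ 2 * (a : Kb) ∧
      rhoCap A K₀ π = 0 ∧ ∀ x : capSubring A K₀, rhoCap A K₀ x = 0 → π ∣ x := by
  haveI : IsPrincipalIdealRing (capSubring A K₀) :=
    Fermat.Agent.P2.helper89.isPrincipalIdealRing_capSubring A K₀
  have hb0 : ((p : ℕ) : capSubring A K₀) ≠ 0 := by
    intro h
    have h1 := congrArg (fun x : capSubring A K₀ => (x : Kb)) h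
    simp only [Subring.coe_natCast, Subring.coe_zero] at h1
    exact hp.ne_zero (by exact_mod_cast h1)
  have hbI : ((p : ℕ) : capSubring A K₀) ∈ RingHom.ker (rhoCap A K₀) := by
    rw [RingHom.mem_ker, rhoCap_apply, IsLocalRing.residue_eq_zero_iff,
      ← ValuationSubring.coe_mem_nonunits_iff]
    have hA' : ((p : ℕ) : Kb) ∈ A.nonunits := hA
    simpa using hA'
  obtain ⟨π, c, e, hI, he, hpe, hc⟩ := exists_unif_of_pid (RingHom.ker (rhoCap A K₀))
    (RingHom.ker_ne_top _) _ hb0 hbI
  have hcu : IsUnit c := isUnit_of_rhoCap_ne_zero A K₀ c (fun h => hc (RingHom.mem_ker.mpr h))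
  obtain ⟨d, hd⟩ := hcu.exists_right_inv
  have hpK : (p : Kb) = (π : Kb) ^ e * (c : Kb) := by
    have h1 := congrArg (fun x : capSubring A K₀ => (x : Kb)) hpe
    simpa using h1
  have hdK : (c : Kb) * (d : Kb) = 1 := by
    have h1 := congrArg (fun x : capSubring A K₀ => (x : Kb)) hd
    simpa using h1
  refine ⟨π, π ^ (e - 1) * c, 2 * e, ⟨(d : Kb) ^ 2, A.pow_mem (mem_capSubring.1 d.2).1 2⟩,
    ?_, by omega, ?_, ?_, ?_⟩
  · rw [hpe, ← mul_assoc, ← pow_succ', Nat.sub_add_cancel he]
  · show (π : Kb) ^ (2 * e) = (p : Kb) ^ 2 * (d : Kb) ^ 2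
    rw [hpK, mul_pow, mul_assoc, ← mul_pow, hdK, one_pow, mul_one, ← pow_mul, mul_comm e 2]
  · have : π ∈ RingHom.ker (rhoCap A K₀) := by
      rw [hI]
      exact Ideal.mem_span_singleton_self π
    exact RingHom.mem_ker.mp this
  · intro x hx
    have : x ∈ RingHom.ker (rhoCap A K₀) := RingHom.mem_ker.mpr hx
    rw [hI] at this
    exact Ideal.mem_span_singleton.mp this

/-- **base step at the cusp**: the unit part `u` of a function `H` with an integral expansion
of reduction `1` (`H * X ^ (p n') = φ(u) * φ(Z0) ^ p`, the output of DISC-UNIT) is the `p`-th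
power of a unit modulo `π`. -/
theorem isPowMod_base {p : ℕ} (hp : p ≠ 0) (π : capSubring A K₀)
    (hker : ∀ x : capSubring A K₀, rhoCap A K₀ x = 0 → π ∣ x)
    (H : LaurentSeries Kb) (Y : LaurentSeries A) (hY : coeffMap A.subtype Y = H)
    (hr : coeffMap (IsLocalRing.residue A) Y = 1) (n' : ℕ)
    (u : (PowerSeries (capSubring A K₀))ˣ) (Z0 : PowerSeries (capSubring A K₀))
    (e : H * (phi (capSubring A K₀) (PowerSeries.X ^ n')) ^ p
      = phi (capSubring A K₀) (u : PowerSeries (capSubring A K₀))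
          * (phi (capSubring A K₀) Z0) ^ p) :
    Fermat.Agent.T7.helper98.IsPowMod p π (u : PowerSeries (capSubring A K₀)) := by
  refine isPowMod_of_map_eq (rhoCap A K₀) π hker (isUnit_of_rhoCap_ne_zero A K₀) hp
    (u : PowerSeries (capSubring A K₀)) Z0 u.isUnit n' ?_
  ext n
  rw [PowerSeries.coeff_map, PowerSeries.coeff_X_pow]
  have e' : phi (capSubring A K₀) ((u : PowerSeries (capSubring A K₀)) * Z0 ^ p)
      = H * phi (capSubring A K₀) (PowerSeries.X ^ (n' * p)) := by
    calc phi (capSubring A K₀) ((u : PowerSeries (capSubring A K₀)) * Z0 ^ p)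
        = phi (capSubring A K₀) (u : PowerSeries (capSubring A K₀))
            * (phi (capSubring A K₀) Z0) ^ p := by rw [map_mul, map_pow]
      _ = H * (phi (capSubring A K₀) (PowerSeries.X ^ n')) ^ p := e.symm
      _ = H * phi (capSubring A K₀) (PowerSeries.X ^ (n' * p)) := by rw [← map_pow, ← pow_mul]
  have h1 : (((PowerSeries.coeff n ((u : PowerSeries (capSubring A K₀)) * Z0 ^ p) :
      capSubring A K₀)) : Kb) = ((Y.coeff ((n : ℤ) - ((n' * p : ℕ) : ℤ)) : A) : Kb) := by
    rw [← phi_coeff_natCast, e', Fermat.Agent.P2.helper56.coeff_mul_phi_X_pow, ← hY,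
      coeffMap_coeff]
    rfl
  have h2 : rhoCap A K₀ (PowerSeries.coeff n ((u : PowerSeries (capSubring A K₀)) * Z0 ^ p))
      = IsLocalRing.residue A (Y.coeff ((n : ℤ) - ((n' * p : ℕ) : ℤ))) := by
    rw [rhoCap_apply]
    congr 1
    exact Subtype.ext h1
  rw [h2]
  have h3 := congrArg (fun Z : LaurentSeries (IsLocalRing.ResidueField A) =>
    Z.coeff ((n : ℤ) - ((n' * p : ℕ) : ℤ))) hr
  simp only [coeffMap_coeff] at h3
  rw [h3, HahnSeries.coeff_one]
  have h4 : ((n : ℤ) - ((n' * p : ℕ) : ℤ) = 0) ↔ n = p * n' := by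
    push_cast
    constructor
    · intro h
      have : (n : ℤ) = (p : ℤ) * n' := by linarith
      exact_mod_cast this
    · intro h
      rw [h]
      push_cast
      ring
  by_cases hn : n = p * n'
  · rw [if_pos (h4.mpr hn), if_pos hn]
  · rw [if_neg (fun h => hn (h4.mp h)), if_neg hn]

end Instance

end Fermat.Agent.T7.helper38

end
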