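/-
T7 (S33, at risk), helper38: **[B3] (R) — the norm relations descend to the unit parts**.

`R₀ = capSubring A K₀` (a PID, so `R₀⟦X⟧` is a UFD), `φ = phi R₀ : R₀⟦X⟧ → ℚ̄((q))`.

* dictionary: `phi_expand` (`φ(G(X^p)) = (φ G)(q^p)`), `phi_rescale`, `phi_tprod`
  (`φ(∏_k G(ζ^k X)) = ∏_k twistL (ζ^k) (φ G)`);
* `exists_pow_eq_of_pow_eq_mul` : in a UFD, `x ^ p = u * y ^ p`, `y ≠ 0` ⟹ `u` is a `p`-th power;
* `exists_unit_rel` : if `K₁ X^(p n₁) = φ(u₁) φ(Z₁)^p`, `K₂ X^(p n₂) = φ(u₂) φ(Z₂)^p` and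
  `K₁(q^p) ∏_k K₂(ζ^k q) = c · v(q^p)^p` with `v` a ratio over `R₀` and `c = c' ^ p`, `c' ∈ K₀`,
  then `u₁(X^p) ∏_k u₂(ζ^k X) = w ^ p` with `w ∈ R₀⟦X⟧`.
-/
import Mathlib
import Fermat.Agent.T7.helper38_UnitBase
import Fermat.Agent.T7.helper98_B3Norm
import Fermat.Agent.P2.helper73_DiscRatio
import Fermat.Agent.T2.helper87_RegRed2

set_option autoImplicit false
set_option linter.unusedSectionVars false
set_option linter.unusedVariables false
set_option linter.style.haveILetI false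
set_option linter.style.longLine false

noncomputable section

namespace Fermat.Agent.T7.helper38

open HahnSeries ModularCurve
open Fermat.Agent.P2.helper23
open Fermat.Agent.P2.helper93 (twistL twistL_coeff)
open Fermat.Agent.T2.helper87 (twistHom twistHom_apply)

/-- in a UFD: `x ^ p = u * y ^ p` with `y ≠ 0` forces `u` to be a `p`-th power -/
theorem exists_pow_eq_of_pow_eq_mul {U : Type*} [CommRing U] [IsDomain U]
    [UniqueFactorizationMonoid U] {p : ℕ} (hp : p ≠ 0) {u x y : U} (hy : y ≠ 0)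
    (h : x ^ p = u * y ^ p) : ∃ w : U, w ^ p = u := by
  have h1 : y ^ p ∣ x ^ p := ⟨u, by rw [h, mul_comm]⟩
  obtain ⟨w, hw⟩ := (UniqueFactorizationMonoid.pow_dvd_pow_iff_dvd hp).mp h1
  refine ⟨w, ?_⟩
  have h2 : y ^ p * w ^ p = y ^ p * u := by
    rw [← mul_pow, ← hw, h, mul_comm]
  exact mul_left_cancel₀ (pow_ne_zero p hy) h2

section Dict

variable (R₀ : Subring Kb)

theorem phi_expand (p : ℕ) [NeZero p] (G : PowerSeries R₀) :
    phi R₀ (PowerSeries.expand p (NeZero.ne p) G) = qExpand Kb p (phi R₀ G) := by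
  have hm0 : (0 : ℤ) < p := by exact_mod_cast Nat.pos_of_ne_zero (NeZero.ne p)
  ext k
  rcases lt_or_ge k 0 with hk | hk
  · rw [phi_apply, ofPowerSeries_coeff_of_neg _ hk]
    by_cases hd : (p : ℤ) ∣ k
    · obtain ⟨j, rfl⟩ := hd
      rw [qExpand_coeff_mul]
      have hj : j < 0 := by
        by_contra hj
        rw [not_lt] at hj
        exact absurd (mul_nonneg hm0.le hj) (not_le.mpr hk)
      rw [phi_apply, ofPowerSeries_coeff_of_neg _ hj]
    · rw [qExpand_coeff_of_not_dvd _ _ hd]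
  · obtain ⟨n, rfl⟩ := Int.eq_ofNat_of_zero_le hk
    rw [phi_coeff_natCast, PowerSeries.coeff_expand]
    by_cases hd : p ∣ n
    · rw [if_pos hd]
      obtain ⟨j, rfl⟩ := hd
      rw [Nat.mul_div_cancel_left _ (Nat.pos_of_ne_zero (NeZero.ne p))]
      push_cast
      rw [qExpand_coeff_mul, phi_coeff_natCast]
    · rw [if_neg hd]
      have hd' : ¬ (p : ℤ) ∣ (n : ℤ) := by
        intro h
        exact hd (by exact_mod_cast h)
      rw [qExpand_coeff_of_not_dvd _ _ hd']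
      rfl

theorem phi_rescale (c : R₀) (G : PowerSeries R₀) :
    phi R₀ (PowerSeries.rescale c G) = twistL (c : Kb) (phi R₀ G) := by
  ext k
  rw [twistL_coeff]
  rcases lt_or_ge k 0 with hk | hk
  · rw [phi_apply, phi_apply, ofPowerSeries_coeff_of_neg _ hk,
      ofPowerSeries_coeff_of_neg _ hk, mul_zero]
  · obtain ⟨n, rfl⟩ := Int.eq_ofNat_of_zero_le hk
    rw [phi_coeff_natCast, phi_coeff_natCast, PowerSeries.coeff_rescale, zpow_natCast]
    rfl

theorem rescale_ne_zero' (c : R₀) (hc : c ≠ 0) {G : PowerSeries R₀} (hG : G ≠ 0) :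
    PowerSeries.rescale c G ≠ 0 := by
  intro h
  apply hG
  ext n
  have h1 := congrArg (PowerSeries.coeff n) h
  rw [PowerSeries.coeff_rescale, map_zero] at h1
  rcases mul_eq_zero.mp h1 with h2 | h2
  · exact absurd (eq_zero_of_pow_eq_zero h2) hc
  · rw [h2, map_zero]

theorem phi_tprod (ζ₀ : R₀) (p : ℕ) (G : PowerSeries R₀) :
    phi R₀ (Fermat.Agent.T7.helper98.tprod ζ₀ p G)
      = ∏ k ∈ Finset.range p, twistL ((ζ₀ : Kb) ^ k) (phi R₀ G) := by
  unfold Fermat.Agent.T7.helper98.tprod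
  rw [map_prod]
  refine Finset.prod_congr rfl fun k _ => ?_
  rw [phi_rescale]
  rfl

theorem phi_C (r : R₀) :
    phi R₀ (PowerSeries.C r) = algebraMap Kb (LaurentSeries Kb) (r : Kb) := by
  rw [phi_apply, PowerSeries.map_C, HahnSeries.ofPowerSeries_C,
    ModularCurve.algebraMap_laurentSeries_eq_single]
  rfl

end Dict

/-- the twisted product on Laurent series is multiplicative -/
theorem prod_twistL_mul {ζ : Kb} (hζ : ζ ≠ 0) (p : ℕ) (f g : LaurentSeries Kb) :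
    ∏ k ∈ Finset.range p, twistL (ζ ^ k) (f * g)
      = (∏ k ∈ Finset.range p, twistL (ζ ^ k) f) * ∏ k ∈ Finset.range p, twistL (ζ ^ k) g := by
  rw [← Finset.prod_mul_distrib]
  refine Finset.prod_congr rfl fun k _ => ?_
  rw [← twistHom_apply (ζ ^ k) (pow_ne_zero k hζ), map_mul]
  rfl

theorem prod_twistL_pow {ζ : Kb} (hζ : ζ ≠ 0) (p : ℕ) (f : LaurentSeries Kb) (n : ℕ) :
    ∏ k ∈ Finset.range p, twistL (ζ ^ k) (f ^ n)
      = (∏ k ∈ Finset.range p, twistL (ζ ^ k) f) ^ n := by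
  rw [← Finset.prod_pow]
  refine Finset.prod_congr rfl fun k _ => ?_
  rw [← twistHom_apply (ζ ^ k) (pow_ne_zero k hζ), map_pow]
  rfl

/-- the algebra behind `exists_unit_rel` -/
theorem unit_rel_alg {R : Type*} [CommRing R] (p : ℕ)
    (S Tt Cc A1 B1 X1 X2 U1 U2 Z1 Z2 EK TK Ev : R)
    (f₁ : EK * X1 ^ p = U1 * Z1 ^ p) (f₂ : TK * X2 ^ p = U2 * Z2 ^ p) (f₃ : Ev * B1 = A1)
    (rel : EK * TK = Cc * Ev ^ p) (hst : S ^ p = Cc * Tt ^ p) :
    (S * A1 * (X1 * X2)) ^ p = (U1 * U2) * (Tt * (Z1 * Z2) * B1) ^ p := by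
  have f₃' : A1 ^ p = Ev ^ p * B1 ^ p := by rw [← f₃, mul_pow]
  simp only [mul_pow]
  linear_combination (A1 ^ p * X1 ^ p * X2 ^ p) * hst + (Cc * Tt ^ p * X1 ^ p * X2 ^ p) * f₃'
    - (Tt ^ p * B1 ^ p * X1 ^ p * X2 ^ p) * rel + (TK * X2 ^ p * Tt ^ p * B1 ^ p) * f₁
    + (U1 * Z1 ^ p * Tt ^ p * B1 ^ p) * f₂

/-- **(R)** the norm relation descends to the unit parts. -/
theorem exists_unit_rel (R₀ : Subring Kb) [IsPrincipalIdealRing R₀] (p : ℕ) [NeZero p]
    (ζ₀ : R₀) (hζ₀ : (ζ₀ : Kb) ≠ 0)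
    (K₁ K₂ : LaurentSeries Kb) (n₁ n₂ : ℕ) (u₁ u₂ Z₁ Z₂ : PowerSeries R₀)
    (hZ₁ : Z₁ ≠ 0) (hZ₂ : Z₂ ≠ 0)
    (e₁ : K₁ * (phi R₀ (PowerSeries.X ^ n₁)) ^ p = phi R₀ u₁ * (phi R₀ Z₁) ^ p)
    (e₂ : K₂ * (phi R₀ (PowerSeries.X ^ n₂)) ^ p = phi R₀ u₂ * (phi R₀ Z₂) ^ p)
    (c : Kb) (v : LaurentSeries Kb) (hv : IsRatio R₀ v)
    (s t : R₀) (ht : t ≠ 0) (hst : (s : Kb) ^ p = c * (t : Kb) ^ p)
    (rel : qExpand Kb p K₁ * ∏ k ∈ Finset.range p, twistL ((ζ₀ : Kb) ^ k) K₂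
      = algebraMap Kb (LaurentSeries Kb) c * (qExpand Kb p v) ^ p) :
    ∃ w : PowerSeries R₀,
      PowerSeries.expand p (NeZero.ne p) u₁ * Fermat.Agent.T7.helper98.tprod ζ₀ p u₂ = w ^ p := by
  classical
  have hp : p ≠ 0 := NeZero.ne p
  obtain ⟨a, b, hb, hab⟩ := hv
  set E := qExpand Kb p with hE
  set T : LaurentSeries Kb → LaurentSeries Kb :=
    fun f => ∏ k ∈ Finset.range p, twistL ((ζ₀ : Kb) ^ k) f with hT
  have hTmul : ∀ f g, T (f * g) = T f * T g := fun f g => prod_twistL_mul hζ₀ p f g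
  have hTpow : ∀ f (n : ℕ), T (f ^ n) = T f ^ n := fun f n => prod_twistL_pow hζ₀ p f n
  have hTphi : ∀ G : PowerSeries R₀, T (phi R₀ G)
      = phi R₀ (Fermat.Agent.T7.helper98.tprod ζ₀ p G) := fun G => (phi_tprod R₀ ζ₀ p G).symm
  have hEphi : ∀ G : PowerSeries R₀, E (phi R₀ G)
      = phi R₀ (PowerSeries.expand p hp G) := fun G => (phi_expand R₀ p G).symm
  have hE2 : ∀ x y : LaurentSeries Kb, E (x * y ^ p) = E x * E y ^ p :=
    fun x y => by rw [map_mul, map_pow]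
  have hT2 : ∀ x y : LaurentSeries Kb, T (x * y ^ p) = T x * T y ^ p :=
    fun x y => by rw [hTmul, hTpow]
  -- the three transported identities
  have f₁ : E K₁ * (phi R₀ (PowerSeries.expand p hp (PowerSeries.X ^ n₁))) ^ p
      = phi R₀ (PowerSeries.expand p hp u₁) * (phi R₀ (PowerSeries.expand p hp Z₁)) ^ p := by
    have h := congrArg E e₁
    rw [hE2, hE2, hEphi, hEphi, hEphi] at h
    exact h
  have f₂ : T K₂ * (phi R₀ (Fermat.Agent.T7.helper98.tprod ζ₀ p (PowerSeries.X ^ n₂))) ^ p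
      = phi R₀ (Fermat.Agent.T7.helper98.tprod ζ₀ p u₂)
          * (phi R₀ (Fermat.Agent.T7.helper98.tprod ζ₀ p Z₂)) ^ p := by
    have h := congrArg T e₂
    rw [hT2, hT2, hTphi, hTphi, hTphi] at h
    exact h
  have f₃ : E v * phi R₀ (PowerSeries.expand p hp b) = phi R₀ (PowerSeries.expand p hp a) := by
    have h := congrArg E hab
    rw [map_mul, hEphi, hEphi] at h
    exact h
  -- nonvanishing
  have hne_expand : ∀ G : PowerSeries R₀, G ≠ 0 → PowerSeries.expand p hp G ≠ 0 := by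
    intro G hG h0
    have h1 := congrArg (phi R₀) h0
    rw [← hEphi, map_zero] at h1
    have h2 : phi R₀ G = 0 := by
      apply ModularCurve.qExpand_injective (R := Kb) p
      rw [map_zero]
      exact h1
    exact phi_ne_zero R₀ hG h2
  have hζ₀' : ζ₀ ≠ 0 := fun h => hζ₀ (by rw [h]; rfl)
  have hne_tprod : ∀ G : PowerSeries R₀, G ≠ 0 →
      Fermat.Agent.T7.helper98.tprod ζ₀ p G ≠ 0 := by
    intro G hG
    unfold Fermat.Agent.T7.helper98.tprod
    rw [Finset.prod_ne_zero_iff]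
    intro k _
    exact rescale_ne_zero' R₀ _ (pow_ne_zero k hζ₀') hG
  have hB0 : PowerSeries.expand p hp Z₁ * Fermat.Agent.T7.helper98.tprod ζ₀ p Z₂ ≠ 0 :=
    mul_ne_zero (hne_expand Z₁ hZ₁) (hne_tprod Z₂ hZ₂)
  have hb'0 : PowerSeries.expand p hp b ≠ 0 := hne_expand b hb
  have ht' : PowerSeries.C t ≠ (0 : PowerSeries R₀) := by
    intro h
    apply ht
    have := congrArg (PowerSeries.coeff 0) h
    simpa using this
  have hy : PowerSeries.C t
      * (PowerSeries.expand p hp Z₁ * Fermat.Agent.T7.helper98.tprod ζ₀ p Z₂)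
      * PowerSeries.expand p hp b ≠ 0 := mul_ne_zero (mul_ne_zero ht' hB0) hb'0
  -- the key identity
  have hst' : (algebraMap Kb (LaurentSeries Kb) (s : Kb)) ^ p
      = algebraMap Kb (LaurentSeries Kb) c * (algebraMap Kb (LaurentSeries Kb) (t : Kb)) ^ p := by
    rw [← map_pow, ← map_pow, ← map_mul, hst]
  suffices hsuff : ∃ w : PowerSeries R₀,
      w ^ p = PowerSeries.expand p hp u₁ * Fermat.Agent.T7.helper98.tprod ζ₀ p u₂ by
    obtain ⟨w, hw⟩ := hsuff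
    exact ⟨w, hw.symm⟩
  refine exists_pow_eq_of_pow_eq_mul (x := PowerSeries.C s * PowerSeries.expand p hp a
        * (PowerSeries.expand p hp (PowerSeries.X ^ n₁)
          * Fermat.Agent.T7.helper98.tprod ζ₀ p (PowerSeries.X ^ n₂))) hp hy ?_
  apply phi_injective R₀
  generalize PowerSeries.expand p hp ((PowerSeries.X : PowerSeries R₀) ^ n₁) = X1 at f₁ ⊢
  generalize Fermat.Agent.T7.helper98.tprod ζ₀ p ((PowerSeries.X : PowerSeries R₀) ^ n₂) = X2 at f₂ ⊢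
  generalize PowerSeries.expand p hp u₁ = U1 at f₁ ⊢
  generalize Fermat.Agent.T7.helper98.tprod ζ₀ p u₂ = U2 at f₂ ⊢
  generalize PowerSeries.expand p hp Z₁ = Z1' at f₁ ⊢
  generalize Fermat.Agent.T7.helper98.tprod ζ₀ p Z₂ = Z2' at f₂ ⊢
  generalize PowerSeries.expand p hp a = a' at f₃ ⊢
  generalize PowerSeries.expand p hp b = b' at f₃ ⊢
  rw [map_pow, map_mul, map_mul, map_mul, map_mul, map_mul, map_pow, map_mul, map_mul,
    map_mul, phi_C, phi_C]
  exact unit_rel_alg p _ _ _ _ _ _ _ _ _ _ _ _ _ _ f₁ f₂ f₃ rel hst'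

end Fermat.Agent.T7.helper38

end
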