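/-
T7 (S33, at risk), helper98: **[B3-ALG] part 3 - a deep unit has an integral formal root (D3)**.

`A` a valuation subring of an algebraically closed field `L` of characteristic `0`, `m ≠ 0`.
A unit `u` of `A⟦X⟧` all of whose coefficients in degrees `≥ 1` are divisible by `m ^ 2` in `A`
is an `m`-th power in `A⟦X⟧` (`exists_pow_eq_of_deep`).  (`m` may be `0` in the residue field:
this is the regime "depth `> p / (p - 1)`" where the `p`-th power map is linear to first order,
`(1 + p S) ^ p = 1 + p ^ 2 (S + ...)`.)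
-/
import Mathlib
import Fermat.Agent.P2.helper5_DiscRoots
import Fermat.Agent.P2.helper38_DiscUnitRoot
import Fermat.Agent.P2.helper41_DiscRootsExist

set_option autoImplicit false
set_option linter.unusedSectionVars false
set_option linter.unusedVariables false

noncomputable section

namespace Fermat.Agent.T7.helper98

open PowerSeries

variable {L : Type*} [Field L]

/-- a formal `m`-th root over the field -/
theorem exists_field_root [CharZero L] [IsAlgClosed L] (m : ℕ) (hm : m ≠ 0) (u : PowerSeries L)
    (hu : IsUnit u) : ∃ T : PowerSeries L, T ^ m = u := by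
  have hinj : Function.Injective (HahnSeries.ofPowerSeries ℤ L) :=
    HahnSeries.ofPowerSeries_injective
  have hH : HahnSeries.ofPowerSeries ℤ L u ≠ 0 := fun h =>
    hu.ne_zero (hinj (by rw [h, map_zero]))
  have hc : (HahnSeries.ofPowerSeries ℤ L u).coeff 0 ≠ 0 := by
    have := HahnSeries.ofPowerSeries_apply_coeff (Γ := ℤ) (R := L) u 0
    simp only [Nat.cast_zero] at this
    rw [this, PowerSeries.coeff_zero_eq_constantCoeff_apply]
    exact (PowerSeries.isUnit_iff_constantCoeff.mp hu).ne_zero
  have hord : (HahnSeries.ofPowerSeries ℤ L u).order = 0 := by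
    have hle : (HahnSeries.ofPowerSeries ℤ L u).order ≤ 0 :=
      HahnSeries.order_le_of_coeff_ne_zero hc
    have hge : 0 ≤ (HahnSeries.ofPowerSeries ℤ L u).order := by
      by_contra hneg
      rw [not_le] at hneg
      have h2 : (HahnSeries.ofPowerSeries ℤ L u).coeff (HahnSeries.ofPowerSeries ℤ L u).order
          ≠ 0 := HahnSeries.coeff_order_eq_zero.not.2 hH
      apply h2
      have h3 : (HahnSeries.ofPowerSeries ℤ L u).order ∉ Set.range ((↑) : ℕ → ℤ) := by
        rintro ⟨n, hn⟩
        have : (0 : ℤ) ≤ n := Int.natCast_nonneg n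
        omega
      rw [HahnSeries.ofPowerSeries_apply]
      exact HahnSeries.embDomain_of_notMem_range h3
    exact le_antisymm hle hge
  obtain ⟨Z, hZ⟩ := Fermat.Agent.P2.helper41.exists_pow_eq_laurent m hm
    (HahnSeries.ofPowerSeries ℤ L u) hH (by rw [hord]; exact dvd_zero _)
  obtain ⟨T, -, hT⟩ := Fermat.Agent.P2.helper38.exists_powerSeries_of_pow_eq m hm Z u hu hZ
  exact ⟨T, hT⟩

/-- an `m`-th root of a unit of a valuation ring is a unit of the valuation ring -/
theorem root_unit_mem (A : ValuationSubring L) (m : ℕ) (hm : m ≠ 0) (t c c' : L) (hc : c ∈ A)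
    (hc' : c' ∈ A) (hcc : c * c' = 1) (ht : t ^ m = c) : t ∈ A ∧ t⁻¹ ∈ A := by
  have htne : t ≠ 0 := by
    rintro rfl
    rw [zero_pow hm] at ht
    rw [← ht, zero_mul] at hcc
    exact zero_ne_one hcc
  have hsplit : t ^ m = t * t ^ (m - 1) := by
    rw [← pow_succ', Nat.sub_add_cancel (Nat.one_le_iff_ne_zero.2 hm)]
  have htA : t ∈ A := by
    rcases A.mem_or_inv_mem t with h | h
    · exact h
    · have h1 : t = t ^ m * (t⁻¹) ^ (m - 1) := by
        rw [hsplit, mul_assoc, ← mul_pow, mul_inv_cancel₀ htne, one_pow, mul_one]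
      rw [h1, ht]
      exact mul_mem hc (pow_mem h _)
  refine ⟨htA, ?_⟩
  have h1 : t⁻¹ = t ^ (m - 1) * c' := by
    have h2 : t * (t ^ (m - 1) * c') = 1 := by
      rw [← mul_assoc, ← hsplit, ht, hcc]
    exact (eq_inv_of_mul_eq_one_right h2).symm ▸ rfl
  rw [h1]
  exact mul_mem (pow_mem htA _) hc'

/-- **integrality of the root of a deep unit**: if `T ^ m = u` over the field, `u` integral with
unit constant coefficient and coefficients in degree `≥ 1` divisible by `m ^ 2`, then `T` has
integral coefficients. -/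
theorem coeff_mem_of_pow_eq_deep [CharZero L] (A : ValuationSubring L) (m : ℕ) (hm : m ≠ 0)
    (T : PowerSeries L) (u : PowerSeries A) (hu : IsUnit u)
    (hdeep : ∀ n, 0 < n → ∃ g : A, coeff n u = (m : A) ^ 2 * g)
    (hT : T ^ m = PowerSeries.map A.subtype u) : ∀ n, coeff n T ∈ A := by
  have hmL : (m : L) ≠ 0 := Nat.cast_ne_zero.mpr hm
  set t₀ : L := constantCoeff T with ht₀
  have hcu : IsUnit (constantCoeff u) := PowerSeries.isUnit_iff_constantCoeff.1 hu
  obtain ⟨c', hc'⟩ := hcu.exists_right_inv
  set c₀ : A := constantCoeff u with hc₀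
  have hc'L : (c₀ : L) * (c' : L) = 1 := by
    have := congrArg A.subtype hc'
    simpa using this
  have ht₀m : t₀ ^ m = (c₀ : L) := by
    have := congrArg PowerSeries.constantCoeff hT
    rw [map_pow] at this
    rw [ht₀, this, ← PowerSeries.coeff_zero_eq_constantCoeff_apply, PowerSeries.coeff_map,
      PowerSeries.coeff_zero_eq_constantCoeff_apply]
    rfl
  obtain ⟨ht₀A, ht₀inv⟩ := root_unit_mem A m hm t₀ c₀ c' c₀.2 c'.2 hc'L ht₀m
  have ht₀ne : t₀ ≠ 0 := by
    rintro h0
    rw [h0, zero_pow hm] at ht₀m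
    rw [← ht₀m, zero_mul] at hc'L
    exact zero_ne_one hc'L
  -- the strong induction
  have key : ∀ n, 0 < n → ∃ s : A, coeff n T = t₀ * (m : L) * (s : L) := by
    intro n
    induction n using Nat.strong_induction_on with
    | _ n ih =>
      intro hn
      classical
      -- the truncated series
      let S' : PowerSeries A := PowerSeries.mk fun i =>
        if hi : 0 < i ∧ i < n then Classical.choose (ih i hi.2 hi.1) else 0
      have hS'spec : ∀ i, 0 < i → i < n →
          coeff i T = t₀ * (m : L) * ((coeff i S' : A) : L) := by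
        intro i hi0 hin
        rw [coeff_mk, dif_pos ⟨hi0, hin⟩]
        exact Classical.choose_spec (ih i hin hi0)
      have hS'0 : coeff 0 S' = 0 := by
        rw [coeff_mk, dif_neg (by omega)]
      have hS'n : coeff n S' = 0 := by
        rw [coeff_mk, dif_neg (by omega)]
      set B : PowerSeries A := 1 + C (m : A) * S' with hB
      set A' : PowerSeries L := C t₀ * PowerSeries.map A.subtype B with hA'
      have hBcoeff : ∀ i, 0 < i → coeff i B = (m : A) * coeff i S' := by
        intro i hi
        rw [hB, map_add, coeff_one, if_neg (by omega), zero_add, coeff_C_mul]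
      have hB0 : coeff 0 B = 1 := by
        rw [hB, map_add, coeff_one, if_pos rfl, coeff_C_mul, hS'0, mul_zero, add_zero]
      have hagree : ∀ i, i < n → coeff i A' = coeff i T := by
        intro i hi
        rw [hA', coeff_C_mul, coeff_map]
        rcases Nat.eq_zero_or_pos i with rfl | hi0
        · rw [hB0, coeff_zero_eq_constantCoeff_apply]
          simp [ht₀]
        · rw [hBcoeff i hi0, hS'spec i hi0 hi]
          simp [mul_assoc]
      have hA'n : coeff n A' = 0 := by
        rw [hA', coeff_C_mul, coeff_map, hBcoeff n hn, hS'n, mul_zero]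
        simp
      have hA'0 : constantCoeff A' = t₀ := by
        rw [← coeff_zero_eq_constantCoeff_apply, hA', coeff_C_mul, coeff_map, hB0]
        simp
      have h1 := Fermat.Agent.P2.helper5.coeff_pow_of_agree T A' n hn hagree m
      rw [hA'n, sub_zero, hA'0, hT, coeff_map] at h1
      -- the expansion of `B ^ m`
      obtain ⟨k, hk⟩ := Polynomial.powAddExpansion (1 : PowerSeries A) (C (m : A) * S') m
      have hBm : coeff n (B ^ m) = (m : A) ^ 2 * coeff n (k * S' ^ 2) := by
        rw [hB, hk, one_pow, one_pow, mul_one, map_add, map_add, coeff_one, if_neg (by omega),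
          zero_add]
        have e1 : ((m : ℕ) : PowerSeries A) * (C (m : A) * S') = C ((m : A) ^ 2) * S' := by
          rw [pow_two, map_mul, ← map_natCast (C : A →+* PowerSeries A)]
          ring
        have e2 : k * (C (m : A) * S') ^ 2 = C ((m : A) ^ 2) * (k * S' ^ 2) := by
          rw [map_pow]
          ring
        rw [e1, e2, coeff_C_mul, coeff_C_mul, hS'n, mul_zero, zero_add]
      have hA'm : coeff n (A' ^ m) = (c₀ : L) * ((m : L) ^ 2 * ((coeff n (k * S' ^ 2) : A) : L)) := by
        have e3 : A' ^ m = C (c₀ : L) * PowerSeries.map A.subtype (B ^ m) := by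
          rw [hA', mul_pow, ← ht₀m, map_pow, map_pow]
        rw [e3, coeff_C_mul, coeff_map, hBm]
        simp
      obtain ⟨g, hg⟩ := hdeep n hn
      rw [hA'm, hg] at h1
      refine ⟨(g - c₀ * coeff n (k * S' ^ 2)) * c', ?_⟩
      have hsplit : t₀ ^ m = t₀ * t₀ ^ (m - 1) := by
        rw [← pow_succ', Nat.sub_add_cancel (Nat.one_le_iff_ne_zero.2 hm)]
      have h2 : (m : L) * t₀ ^ (m - 1) * coeff n T
          = (m : L) ^ 2 * ((g : L) - (c₀ : L) * ((coeff n (k * S' ^ 2) : A) : L)) := by
        have h3 : (A.subtype ((m : A) ^ 2 * g) : L) = (m : L) ^ 2 * (g : L) := by simp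
        rw [h3] at h1
        linear_combination -h1
      have hpne : (m : L) * t₀ ^ (m - 1) ≠ 0 := mul_ne_zero hmL (pow_ne_zero _ ht₀ne)
      apply mul_left_cancel₀ hpne
      rw [h2]
      push_cast
      have h4 : (m : L) * t₀ ^ (m - 1) * (t₀ * (m : L) *
            (((g : L) - (c₀ : L) * ((coeff n (k * S' ^ 2) : A) : L)) * (c' : L)))
          = (m : L) ^ 2 * ((g : L) - (c₀ : L) * ((coeff n (k * S' ^ 2) : A) : L))
            * ((t₀ * t₀ ^ (m - 1)) * (c' : L)) := by ring
      rw [h4, ← hsplit, ht₀m, hc'L, mul_one]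
  intro n
  rcases Nat.eq_zero_or_pos n with rfl | hn
  · rw [coeff_zero_eq_constantCoeff_apply]
    exact ht₀A
  · obtain ⟨s, hs⟩ := key n hn
    rw [hs]
    exact mul_mem (mul_mem ht₀A (natCast_mem A m)) s.2

/-- **(D3) a deep unit has an integral formal root.** -/
theorem exists_pow_eq_of_deep [CharZero L] [IsAlgClosed L] (A : ValuationSubring L) (m : ℕ)
    (hm : m ≠ 0) (u : PowerSeries A) (hu : IsUnit u)
    (hdeep : ∀ n, 0 < n → ∃ g : A, coeff n u = (m : A) ^ 2 * g) :
    ∃ Y : PowerSeries A, Y ^ m = u := by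
  have huL : IsUnit (PowerSeries.map A.subtype u) := hu.map _
  obtain ⟨T, hT⟩ := exists_field_root m hm (PowerSeries.map A.subtype u) huL
  have hint := coeff_mem_of_pow_eq_deep A m hm T u hu hdeep hT
  refine ⟨PowerSeries.mk fun n => ⟨coeff n T, hint n⟩, ?_⟩
  have hinj : Function.Injective (PowerSeries.map A.subtype) :=
    PowerSeries.map_injective A.subtype A.subtype_injective
  apply hinj
  rw [map_pow, ← hT]
  congr 1
  ext n
  rw [coeff_map, coeff_mk]
  rfl

end Fermat.Agent.T7.helper98

end
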