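/-
T7 (S33, at risk), helper98: **[B3-ALG] - "the norm relations kill the unit parts"**.

`A` a valuation subring of an algebraically closed field `L` of characteristic `0`,
`R₀ ≤ A` a subring, `ζ ∈ R₀` a primitive `p`-th root of unity, `π ∈ R₀` with `π ∣ p` in `R₀` and
`p ^ 2 ∣ π ^ N` in `A` for some `N ≥ 1`.  If `u₁ u₂` are units of `R₀⟦X⟧`, `p`-th powers of
units modulo `π` (e.g. `≡ 1 mod π`), and
  `u₁(X^p) * ∏_{k<p} u₂(ζ^k X) = w ^ p`,   `∏_{k<p} u₁(ζ^k X) * u₂(X^p) = w' ^ p`,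
then `u₁` and `u₂` are `p`-th powers in `A⟦X⟧` (`exists_roots_of_norm_rel`).

USE (T7 [B3], "new ∩ T0_1 ⟹ strongly split"): for `K ∈ F_{pN'}` regular off the cusps with
`p ∣ div K` and reduction `1` at both cusps, `P2.helper23.mult_claim` +
`P2.helper9.exists_unit_mul_pow_mul` (both need only `m ≠ 0`) give
`K = φ(u₁) L₁ ^ p`, `W K = φ(u₂) L₂ ^ p` with `u_i` units of `R₀⟦X⟧`; for a `p`-new class both
norms `N_α K = K · NU(W K)`, `N_β K = NU(K) · W K` (`T7.helper43`) are `p`-th powers, which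
gives the two relations; the conclusion says that `K` and `W K` have integral formal `p`-th roots.
-/
import Mathlib
import Fermat.Agent.T7.helper98_B3Ind
import Fermat.Agent.T7.helper98_B3Root

set_option autoImplicit false
set_option linter.unusedSectionVars false
set_option linter.unusedVariables false

noncomputable section

namespace Fermat.Agent.T7.helper98

open PowerSeries

/-- `IsPowMod` is preserved by ring homomorphisms -/
theorem IsPowMod.map {R S : Type*} [CommRing R] [CommRing S] (f : R →+* S) {p : ℕ} {a : R}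
    {u : R⟦X⟧} (h : IsPowMod p a u) : IsPowMod p (f a) (PowerSeries.map f u) := by
  obtain ⟨V, F, hV, hu⟩ := h
  refine ⟨PowerSeries.map f V, PowerSeries.map f F, hV.map _, ?_⟩
  rw [hu, map_add, map_pow, map_mul, PowerSeries.map_C]

/-- a unit which is a `p`-th power of a unit modulo `p ^ 2 * a` is a `p`-th power. -/
theorem exists_pow_eq_of_isPowMod {L : Type*} [Field L] [CharZero L] [IsAlgClosed L]
    (A : ValuationSubring L) (p : ℕ) (hp : p ≠ 0) (a : A) (u : PowerSeries A) (hu : IsUnit u)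
    (h : IsPowMod p ((p : A) ^ 2 * a) u) : ∃ Y : PowerSeries A, Y ^ p = u := by
  obtain ⟨V, F, hV, hue⟩ := h
  obtain ⟨Vi, hVi⟩ := hV.exists_right_inv
  have hViu : IsUnit Vi := IsUnit.of_mul_eq_one V (by rw [mul_comm]; exact hVi)
  have h2 : V ^ p * Vi ^ p = 1 := by rw [← mul_pow, hVi, one_pow]
  have hd : u * Vi ^ p = 1 + C ((p : A) ^ 2) * (C a * F * Vi ^ p) := by
    rw [hue, add_mul, h2, map_mul]
    ring
  have hdu : IsUnit (u * Vi ^ p) := hu.mul (hViu.pow p)
  obtain ⟨Y, hY⟩ := exists_pow_eq_of_deep A p hp (u * Vi ^ p) hdu (by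
    intro n hn
    refine ⟨coeff n (C a * F * Vi ^ p), ?_⟩
    rw [hd, map_add, coeff_one, if_neg (by omega), zero_add, coeff_C_mul])
  refine ⟨Y * V, ?_⟩
  rw [mul_pow, hY, mul_assoc, mul_comm (Vi ^ p), h2, mul_one]

/-- **[B3-ALG]** the two norm relations force the unit parts to be `p`-th powers. -/
theorem exists_roots_of_norm_rel {L : Type*} [Field L] [CharZero L] [IsAlgClosed L]
    (A : ValuationSubring L) (R₀ : Subring L) (hR : R₀ ≤ A.toSubring) {p : ℕ} (hp : p.Prime)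
    (ζ : R₀) (hζ : IsPrimitiveRoot ζ p) (π p' : R₀) (hπ : ((p : ℕ) : R₀) = π * p')
    (N : ℕ) (hN : 1 ≤ N) (a : A) (ha : (π : L) ^ N = (p : L) ^ 2 * (a : L))
    (u₁ u₂ w w' : PowerSeries R₀) (hu₁ : IsUnit u₁) (hu₂ : IsUnit u₂)
    (h1 : expand p hp.ne_zero u₁ * tprod ζ p u₂ = w ^ p)
    (h2 : tprod ζ p u₁ * expand p hp.ne_zero u₂ = w' ^ p)
    (hb₁ : IsPowMod p π u₁) (hb₂ : IsPowMod p π u₂) :
    (∃ Y : PowerSeries A, Y ^ p = PowerSeries.map (Subring.inclusion hR) u₁) ∧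
      (∃ Y : PowerSeries A, Y ^ p = PowerSeries.map (Subring.inclusion hR) u₂) := by
  obtain ⟨hN₁, hN₂⟩ := isPowMod_of_norm_rel hp hζ π p' hπ u₁ u₂ w w' hu₁ hu₂ h1 h2 hb₁ hb₂ N hN
  have hπA : (Subring.inclusion hR) (π ^ N) = ((p : ℕ) : A) ^ 2 * a := by
    apply Subtype.ext
    push_cast
    exact ha
  constructor
  · refine exists_pow_eq_of_isPowMod A p hp.ne_zero a _ (hu₁.map _) ?_
    rw [← hπA]
    exact hN₁.map _
  · refine exists_pow_eq_of_isPowMod A p hp.ne_zero a _ (hu₂.map _) ?_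
    rw [← hπA]
    exact hN₂.map _

end Fermat.Agent.T7.helper98

end
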