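/-
T7 (S33, at risk), helper38: **[B3-ASM] — `T0_1 ∩ NEW ⟹ StronglySplit`** at the bad pair.

`b3_bad : helper27.B3Statement (N * p) (atkinLehner N p hp hpN) A p (helper27.IsNewN N p)`
for every valuation subring `A` of `ℚ̄` over the prime `p ∤ N` (no hypothesis on `N`, `p = 2`
allowed).

Proof (unit route, no completion, no iteration on functions):
* (U) `disc_unit_pair_atkinLehner` : `K X^(p n₁) = φ(u₁) φ(Z₁)^p`, `(W K) X^(p n₂) = φ(u₂) φ(Z₂)^p`
  with `u_i` units of `R₀⟦X⟧`, `R₀ = A ∩ K₀`, `K₀` a number field containing `ζ_p`, `p`-th roots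
  of the two constants of the norm relations and the coefficients needed for the level-`N`
  functions `v₁, v₂`;
* (B) `exists_unif_capSubring`, `isPowMod_base` : uniformizer `π` of `R₀` and `u_i ≡ V_i^p mod π`;
* (R) `exists_unit_rel` : the two norm relations of `helper27.IsNewN` (= `helper43` NormPair)
  descend to `u₁(X^p) ∏_k u₂(ζ^k X) = w^p`, `∏_k u₁(ζ^k X) u₂(X^p) = w'^p` in `R₀⟦X⟧`;
* `helper98.exists_roots_of_norm_rel` : `u₁`, `u₂` are `p`-th powers in `A⟦X⟧`;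
* `exists_root_of_unit_root` : the integral formal roots of `K`, `W K`; their reduction is `1`
  because the residue characteristic is `p`.
-/
import Mathlib
import Fermat.Agent.T7.helper38_DiscUnit
import Fermat.Agent.T7.helper38_UnitBase
import Fermat.Agent.T7.helper38_B3Rel
import Fermat.Agent.T7.helper98_B3Alg
import Fermat.Agent.T7.helper27_NewQ

set_option autoImplicit false
set_option linter.unusedSectionVars false
set_option linter.unusedVariables false
set_option linter.style.haveILetI false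
set_option linter.style.longLine false

noncomputable section

namespace Fermat.Agent.T7.helper38

open HahnSeries ModularCurve
open Fermat.Agent.P2.helper23
open Fermat.Agent.P2.helper29 (incl red)
open Fermat.Agent.P2.helper93 (twistL)
open Fermat.Agent.T2.helper36 (atkinLehner)

/-- in characteristic `p`, a `p`-th root of `1` in a field of Laurent series is `1` -/
theorem laurent_eq_one_of_pow_eq_one {k : Type*} [Field k] (p : ℕ) [hp : Fact p.Prime]
    [CharP k p] (x : LaurentSeries k) (h : x ^ p = 1) : x = 1 := by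
  haveI : CharP (LaurentSeries k) p :=
    charP_of_injective_algebraMap (algebraMap k (LaurentSeries k)).injective p
  have h2 : (x - 1) ^ p = 0 := by
    rw [sub_pow_char, one_pow, h, sub_self]
  exact sub_eq_zero.mp ((pow_eq_zero_iff hp.out.ne_zero).mp h2)

/-- **the integral root of an expansion from the root of its unit part** -/
theorem exists_root_of_unit_root (A : ValuationSubring Kb) (K₀ : IntermediateField ℚ Kb)
    {p : ℕ} (hp : p.Prime) (hA : A.LiesOverPrime p)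
    (H : LaurentSeries Kb) (Y : LaurentSeries A) (hY : incl A Y = H) (hr : red A Y = 1)
    (n' : ℕ) (u Z0 : PowerSeries (capSubring A K₀))
    (e : H * (phi (capSubring A K₀) (PowerSeries.X ^ n')) ^ p
      = phi (capSubring A K₀) u * (phi (capSubring A K₀) Z0) ^ p)
    (Yu : PowerSeries A)
    (hYu : Yu ^ p = PowerSeries.map (Subring.inclusion (capSubring_le A K₀)) u) :
    ∃ Z : LaurentSeries A, incl A Z ^ p = H ∧ red A Z = 1 := by
  have hmapA : ∀ G : PowerSeries (capSubring A K₀),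
      PowerSeries.map A.subtype (PowerSeries.map (Subring.inclusion (capSubring_le A K₀)) G)
        = PowerSeries.map (capSubring A K₀).subtype G := by
    intro G
    ext n
    simp only [PowerSeries.coeff_map]
    rfl
  set Z : LaurentSeries A := HahnSeries.single (-(n' : ℤ)) 1 *
    HahnSeries.ofPowerSeries ℤ A
      (Yu * PowerSeries.map (Subring.inclusion (capSubring_le A K₀)) Z0) with hZ
  have hincl : incl A Z = HahnSeries.single (-(n' : ℤ)) (1 : Kb)
      * (HahnSeries.ofPowerSeries ℤ Kb (PowerSeries.map A.subtype Yu)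
        * phi (capSubring A K₀) Z0) := by
    rw [hZ, map_mul, coeffMap_single, coeffMap_ofPowerSeries, map_mul, hmapA, map_mul, map_one,
      phi_apply]
  have hYu' : (HahnSeries.ofPowerSeries ℤ Kb (PowerSeries.map A.subtype Yu)) ^ p
      = phi (capSubring A K₀) u := by
    rw [← map_pow, ← map_pow, hYu, hmapA, phi_apply]
  have hX : HahnSeries.single (-(n' : ℤ)) (1 : Kb) * phi (capSubring A K₀) (PowerSeries.X ^ n')
      = 1 := by
    rw [phi_X_pow, HahnSeries.single_mul_single, neg_add_cancel, mul_one,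
      HahnSeries.single_zero_one]
  have hpow : incl A Z ^ p = H := by
    rw [hincl, mul_pow, mul_pow, hYu', ← e]
    calc HahnSeries.single (-(n' : ℤ)) (1 : Kb) ^ p
          * (H * phi (capSubring A K₀) (PowerSeries.X ^ n') ^ p)
        = H * (HahnSeries.single (-(n' : ℤ)) (1 : Kb)
            * phi (capSubring A K₀) (PowerSeries.X ^ n')) ^ p := by
          rw [mul_pow]
          ring
      _ = H := by rw [hX, one_pow, mul_one]
  refine ⟨Z, hpow, ?_⟩
  have hZY : Z ^ p = Y := by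
    apply Fermat.Agent.P2.helper56.coeffMap_subtype_injective A
    rw [map_pow]
    exact hpow.trans hY.symm
  haveI : Fact p.Prime := ⟨hp⟩
  haveI : CharP (IsLocalRing.ResidueField A) p :=
    Fermat.Agent.P2.helper93.charP_residueField hp hA
  apply laurent_eq_one_of_pow_eq_one p
  rw [← map_pow, hZY, hr]

/-- a constant `c = c' ^ p` is `s ^ p / t ^ p` with `s, t ∈ A ∩ K₀`, `t ≠ 0` (`c' ∈ K₀`) -/
theorem exists_frac_of_root (A : ValuationSubring Kb) (K₀ : IntermediateField ℚ Kb) {p : ℕ}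
    (hp : p ≠ 0) {c c' : Kb} (hc : c' ^ p = c) (hc0 : c ≠ 0) (hcK : c' ∈ K₀) :
    ∃ s t : capSubring A K₀, t ≠ 0 ∧ (s : Kb) ^ p = c * (t : Kb) ^ p := by
  have hc'0 : c' ≠ 0 := by
    rintro rfl
    rw [zero_pow hp] at hc
    exact hc0 hc.symm
  rcases A.mem_or_inv_mem c' with h | h
  · refine ⟨⟨c', mem_capSubring.2 ⟨h, hcK⟩⟩, 1, one_ne_zero, ?_⟩
    show c' ^ p = c * (1 : Kb) ^ p
    rw [one_pow, mul_one, hc]
  · refine ⟨1, ⟨c'⁻¹, mem_capSubring.2 ⟨h, inv_mem hcK⟩⟩, ?_, ?_⟩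
    · intro h0
      have h1 := congrArg (fun x : capSubring A K₀ => (x : Kb)) h0
      exact inv_ne_zero hc'0 h1
    · show (1 : Kb) ^ p = c * (c'⁻¹) ^ p
      rw [one_pow, ← hc, ← mul_pow, mul_inv_cancel₀ hc'0, one_pow]

/-- **[B3]** at the bad pair: a function `K` of level `N p`, regular off the two cusps with
integral expansions of reduction `(1, 1)`, with `p ∣ div K`, whose norms to the level `N` along
both degeneracy maps are constants times `p`-th powers, is STRONGLY SPLIT: both expansions of `K`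
are `p`-th powers of `A`-integral series of reduction `1`. -/
theorem b3_bad (N p : ℕ) [NeZero N] [NeZero p] (hp : p.Prime) (hpN : ¬ p ∣ N)
    (A : ValuationSubring Kb) (hA : A.LiesOverPrime p) :
    Fermat.Agent.T7.helper27.B3Statement (N * p) (atkinLehner N p hp hpN) A p
      (Fermat.Agent.T7.helper27.IsNewN N p) := by
  classical
  intro K hK hdiv hnew
  refine ⟨hK, hdiv, ?_⟩
  obtain ⟨ζ, hζ⟩ := HasEnoughRootsOfUnity.exists_primitiveRoot Kb p
  obtain ⟨c₁, v₁, hc₁, hv₁, rel₁⟩ := hnew.qseries_alpha hp hpN ζ hζ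
  obtain ⟨c₂, v₂, hc₂, hv₂, rel₂⟩ := hnew.qseries_beta hp hpN ζ hζ
  obtain ⟨SU, hSU⟩ := disc_unit_pair_atkinLehner N p hp hpN A p hp.ne_zero K hK hdiv
  obtain ⟨S₁, hS₁⟩ := Fermat.Agent.P2.helper73.exists_finset_isRatio N A v₁ v₁.2
  obtain ⟨S₂, hS₂⟩ := Fermat.Agent.P2.helper73.exists_finset_isRatio N A v₂ v₂.2
  obtain ⟨c₁', hc₁'⟩ := IsAlgClosed.exists_pow_nat_eq c₁ hp.pos
  obtain ⟨c₂', hc₂'⟩ := IsAlgClosed.exists_pow_nat_eq c₂ hp.pos
  -- the number field
  set S : Finset Kb := SU ∪ S₁ ∪ S₂ ∪ {ζ, c₁', c₂'} with hS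
  set K₀ : IntermediateField ℚ Kb := IntermediateField.adjoin ℚ (S : Set Kb) with hK₀
  have hSK : (S : Set Kb) ⊆ K₀ := IntermediateField.subset_adjoin ℚ _
  haveI hfd : FiniteDimensional ℚ K₀ := finiteDimensional_adjoin_finset S
  haveI : IsPrincipalIdealRing (capSubring A K₀) :=
    Fermat.Agent.P2.helper89.isPrincipalIdealRing_capSubring A K₀
  have hSUK : (SU : Set Kb) ⊆ K₀ := fun x hx => hSK (by
    rw [hS]
    simp only [Finset.coe_union, Set.mem_union, Finset.mem_coe]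
    exact Or.inl (Or.inl (Or.inl hx)))
  have hS₁K : (S₁ : Set Kb) ⊆ K₀ := fun x hx => hSK (by
    rw [hS]
    simp only [Finset.coe_union, Set.mem_union, Finset.mem_coe]
    exact Or.inl (Or.inl (Or.inr hx)))
  have hS₂K : (S₂ : Set Kb) ⊆ K₀ := fun x hx => hSK (by
    rw [hS]
    simp only [Finset.coe_union, Set.mem_union, Finset.mem_coe]
    exact Or.inl (Or.inr hx))
  have hζK : ζ ∈ K₀ := hSK (by rw [hS]; simp)
  have hc₁K : c₁' ∈ K₀ := hSK (by rw [hS]; simp)
  have hc₂K : c₂' ∈ K₀ := hSK (by rw [hS]; simp)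
  -- the unit parts
  obtain ⟨n₁, n₂, u₁, u₂, Z₁, Z₂, hZ₁, hZ₂, e₁, e₂⟩ := hSU K₀ hfd hSUK
  obtain ⟨hreg, Y₁, Y₂, hY₁, hY₂, hr₁, hr₂⟩ := id hK
  -- uniformizer and base step
  obtain ⟨π, p', N', a, hπ, hN', ha, hρπ, hker⟩ := exists_unif_capSubring A K₀ hp hA
  have hb₁ := isPowMod_base A K₀ hp.ne_zero π hker _ Y₁ hY₁ hr₁ n₁ u₁ Z₁ e₁
  have hb₂ := isPowMod_base A K₀ hp.ne_zero π hker _ Y₂ hY₂ hr₂ n₂ u₂ Z₂ e₂
  -- the root of unity
  have hζA : ζ ∈ A :=
    Fermat.Agent.P2.helper31.mem_valuationSubring_of_pow_eq_one A hp.ne_zero hζ.pow_eq_one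
  set ζ₀ : capSubring A K₀ := ⟨ζ, mem_capSubring.2 ⟨hζA, hζK⟩⟩ with hζ₀def
  have hζ₀ : IsPrimitiveRoot ζ₀ p :=
    IsPrimitiveRoot.of_map_of_injective (f := (capSubring A K₀).subtype)
      hζ Subtype.val_injective
  have hζne : ((ζ₀ : capSubring A K₀) : Kb) ≠ 0 := hζ.ne_zero hp.ne_zero
  -- the relations on the unit parts
  obtain ⟨s₁, t₁, ht₁, hst₁⟩ := exists_frac_of_root A K₀ hp.ne_zero hc₁' hc₁ hc₁K
  obtain ⟨s₂, t₂, ht₂, hst₂⟩ := exists_frac_of_root A K₀ hp.ne_zero hc₂' hc₂ hc₂K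
  obtain ⟨w, hw⟩ := exists_unit_rel (capSubring A K₀) p ζ₀ hζne _ _ n₁ n₂
    (u₁ : PowerSeries (capSubring A K₀)) (u₂ : PowerSeries (capSubring A K₀)) Z₁ Z₂ hZ₁ hZ₂
    e₁ e₂ c₁ (v₁ : LaurentSeries Kb) (hS₁ K₀ hS₁K) s₁ t₁ ht₁ hst₁ rel₁
  obtain ⟨w', hw'⟩ := exists_unit_rel (capSubring A K₀) p ζ₀ hζne _ _ n₂ n₁
    (u₂ : PowerSeries (capSubring A K₀)) (u₁ : PowerSeries (capSubring A K₀)) Z₂ Z₁ hZ₂ hZ₁
    e₂ e₁ c₂ (v₂ : LaurentSeries Kb) (hS₂ K₀ hS₂K) s₂ t₂ ht₂ hst₂ rel₂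
  -- the unit parts are `p`-th powers
  obtain ⟨⟨Yu₁, hYu₁⟩, ⟨Yu₂, hYu₂⟩⟩ :=
    Fermat.Agent.T7.helper98.exists_roots_of_norm_rel A (capSubring A K₀) (capSubring_le A K₀)
      hp ζ₀ hζ₀ π p' hπ N' hN' a ha
      (u₁ : PowerSeries (capSubring A K₀)) (u₂ : PowerSeries (capSubring A K₀)) w w'
      u₁.isUnit u₂.isUnit hw (by rw [mul_comm]; exact hw') hb₁ hb₂
  -- the integral roots
  obtain ⟨T₁, hT₁, hT₁r⟩ := exists_root_of_unit_root A K₀ hp hA _ Y₁ hY₁ hr₁ n₁
    (u₁ : PowerSeries (capSubring A K₀)) Z₁ e₁ Yu₁ hYu₁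
  obtain ⟨T₂, hT₂, hT₂r⟩ := exists_root_of_unit_root A K₀ hp hA _ Y₂ hY₂ hr₂ n₂
    (u₂ : PowerSeries (capSubring A K₀)) Z₂ e₂ Yu₂ hYu₂
  exact ⟨T₁, T₂, hT₁, hT₂, hT₁r, hT₂r⟩

end Fermat.Agent.T7.helper38

end
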