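import Mathlib
import Fermat.Agent.P2.helper56_DiscCoeff
import Fermat.Agent.P2.helper89_DiscPID
import Fermat.Agent.P2.helper44_RootLaurent
import Fermat.Agent.T2.helper74_PivotFam

/-!
# T7 (helper22): leaf [ATT-NF], attained content by number-field discreteness

`Kb = ℚ̄`, `A` a valuation subring of `Kb`.  A nonzero integral family of Laurent series whose
coefficients lie in ONE number field `K₁ ⊆ Kb` has attained content, because `A ∩ K₁` is a
principal ideal ring (P2 `helper89.isPrincipalIdealRing_capSubring`).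

* `exists_smul_of_coeff_mem` : (C) `Y ≠ 0` integral with coefficients in `K₁`: `Y = g • Y'`,
  `red Y' ≠ 0`;
* `coeff_mem_of_pow_coeff_mem` : (R) if the coefficients of `Z ^ p` and the leading coefficient
  of `Z` lie in `K₀`, then all coefficients of `Z` lie in `K₀` (Galois descent);
* `exists_numberField_of_mem_FF` : (F) the coefficients of `f ∈ FF M` lie in a number field.
-/

set_option autoImplicit false
set_option linter.unusedSectionVars false

noncomputable section

namespace Fermat.Agent.T7.helper22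

open HahnSeries ModularCurve
open Fermat.Agent.P2.helper22 Fermat.Agent.P2.helper23 Fermat.Agent.P2.helper56
open Fermat.Agent.T2.helper74

variable {ι : Type*}

/-! ### (C) the content lemma over `A ∩ K₁` -/

/-- **(C)** a nonzero integral family with coefficients in a number field has attained content:
it is `g • Y'` with `Y'` integral of nonzero reduction. -/
theorem exists_smul_of_coeff_mem (A : ValuationSubring Kb) {k : Type*} [Field k] (π : A →+* k)
    (K₁ : IntermediateField ℚ Kb) [FiniteDimensional ℚ K₁]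
    (Y : ι → LaurentSeries A) (hY : Y ≠ 0)
    (hK : ∀ i j, (((Y i).coeff j : A) : Kb) ∈ K₁) :
    ∃ (g : A) (Y' : ι → LaurentSeries A), g ≠ 0 ∧ Y = g • Y' ∧ famMap π Y' ≠ 0 := by
  classical
  have hPID := Fermat.Agent.P2.helper89.isPrincipalIdealRing_capSubring A K₁
  -- the coefficients as elements of `A ∩ K₁`
  let co : ι → ℤ → capSubring A K₁ := fun i j =>
    ⟨(((Y i).coeff j : A) : Kb), mem_capSubring.2 ⟨((Y i).coeff j).2, hK i j⟩⟩
  let I : Ideal (capSubring A K₁) := Ideal.span (Set.range fun x : ι × ℤ => co x.1 x.2)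
  obtain ⟨g, hg⟩ : ∃ g, I = Ideal.span {g} := ⟨_, (Ideal.span_singleton_generator I).symm⟩
  -- a nonzero coefficient
  obtain ⟨i₀, j₀, h₀⟩ : ∃ i j, (Y i).coeff j ≠ 0 := by
    by_contra h
    push Not at h
    apply hY
    funext i
    refine HahnSeries.ext (funext fun j => ?_)
    rw [h i j]
    rfl
  have hcoI : ∀ i j, co i j ∈ I := fun i j => Ideal.subset_span ⟨(i, j), rfl⟩
  have hdvd : ∀ i j, ∃ r : capSubring A K₁, r * g = co i j := by
    intro i j
    have := hcoI i j
    rw [hg, Ideal.mem_span_singleton'] at this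
    exact this
  have hg0 : (g : Kb) ≠ 0 := by
    intro h
    obtain ⟨r, hr⟩ := hdvd i₀ j₀
    have h1 := congrArg (fun z : capSubring A K₁ => (z : Kb)) hr
    simp only [Subring.coe_mul, h, mul_zero] at h1
    apply h₀
    apply Subtype.ext
    exact h1.symm
  have hgA : (g : Kb) ∈ A := (mem_capSubring.1 g.2).1
  -- the quotient family
  have hquot : ∀ i, ∀ j, ((g : Kb)⁻¹ • coeffMap A.subtype (Y i)).coeff j ∈ A := by
    intro i j
    obtain ⟨r, hr⟩ := hdvd i j
    have h1 : (r : Kb) * (g : Kb) = (((Y i).coeff j : A) : Kb) :=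
      congrArg (fun z : capSubring A K₁ => (z : Kb)) hr
    rw [HahnSeries.coeff_smul, coeffMap_coeff, smul_eq_mul]
    have h2 : (g : Kb)⁻¹ * A.subtype ((Y i).coeff j) = (r : Kb) := by
      change (g : Kb)⁻¹ * (((Y i).coeff j : A) : Kb) = (r : Kb)
      rw [← h1, mul_comm (r : Kb), ← mul_assoc, inv_mul_cancel₀ hg0, one_mul]
    rw [h2]
    exact (mem_capSubring.1 r.2).1
  choose Y' hY' using fun i => exists_coeffMap_eq A _ (hquot i)
  have hYeq : Y = (⟨(g : Kb), hgA⟩ : A) • Y' := by
    apply famMap_subtype_injective A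
    rw [famMap_subtype_smul]
    funext i
    change coeffMap A.subtype (Y i) = (g : Kb) • coeffMap A.subtype (Y' i)
    rw [hY' i, smul_smul, mul_inv_cancel₀ hg0, one_smul]
  refine ⟨⟨(g : Kb), hgA⟩, Y', fun h => hg0 (congrArg Subtype.val h), hYeq, ?_⟩
  -- the reduction is not zero
  intro hred
  have hcoef : ∀ i j, π ((Y' i).coeff j) = 0 := by
    intro i j
    have := congrArg (fun z : ι → LaurentSeries k => (z i).coeff j) hred
    simpa [famMap] using this
  -- the ideal of the elements `x` with `x / g` in the kernel of the reduction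
  have key : ∀ x ∈ I, ∃ y : A, (x : Kb) = (g : Kb) * (y : Kb) ∧ π y = 0 := by
    intro x hx
    induction hx using Submodule.span_induction with
    | mem x hx =>
      obtain ⟨⟨i, j⟩, rfl⟩ := hx
      refine ⟨(Y' i).coeff j, ?_, hcoef i j⟩
      have h1 := congrArg (fun z : ι → LaurentSeries A => (((z i).coeff j : A) : Kb)) hYeq
      simp only [Pi.smul_apply, HahnSeries.coeff_smul, smul_eq_mul] at h1
      exact h1
    | zero => exact ⟨0, by simp, map_zero π⟩
    | add x y _ _ hx hy =>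
      obtain ⟨a, ha, ha0⟩ := hx
      obtain ⟨b, hb, hb0⟩ := hy
      refine ⟨a + b, ?_, by rw [map_add, ha0, hb0, add_zero]⟩
      change (x : Kb) + (y : Kb) = (g : Kb) * ((a : Kb) + (b : Kb))
      rw [ha, hb, mul_add]
    | smul c x _ hx =>
      obtain ⟨a, ha, ha0⟩ := hx
      refine ⟨⟨(c : Kb), (mem_capSubring.1 c.2).1⟩ * a, ?_, by rw [map_mul, ha0, mul_zero]⟩
      change (c : Kb) * (x : Kb) = (g : Kb) * ((c : Kb) * (a : Kb))
      rw [ha]
      ring
  have hgI : g ∈ I := by
    rw [hg]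
    exact Ideal.mem_span_singleton_self g
  obtain ⟨y, hy, hy0⟩ := key g hgI
  have hy1 : (y : Kb) = 1 := by
    have h1 : (g : Kb) * (y : Kb) = (g : Kb) * 1 := by rw [← hy, mul_one]
    exact mul_left_cancel₀ hg0 h1
  have hy1' : y = 1 := Subtype.ext hy1
  rw [hy1', map_one] at hy0
  exact one_ne_zero hy0

/-! ### (R) Galois descent for roots -/

theorem isGalois_Kb : IsGalois ℚ Kb := by
  have h1 : Algebra.IsAlgebraic ℚ Kb := AlgebraicClosure.isAlgebraic ℚ
  have h2 : IsAlgClosure ℚ Kb := (isAlgClosure_iff (k := ℚ) Kb).mpr ⟨inferInstance, inferInstance⟩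
  have h3 : Normal ℚ Kb := IsAlgClosure.normal ℚ Kb
  exact ⟨⟩

/-- a `p`-th root of unity in `Kb((q))` is a constant -/
theorem exists_const_of_pow_eq_one {p : ℕ} (hp : 0 < p) (ρ : LaurentSeries Kb) (h : ρ ^ p = 1) :
    ∃ ζ : Kb, ζ ^ p = 1 ∧ ρ = algebraMap Kb (LaurentSeries Kb) ζ := by
  classical
  have : NeZero p := ⟨hp.ne'⟩
  obtain ⟨ζ₀, hζ₀⟩ := HasEnoughRootsOfUnity.exists_primitiveRoot Kb p
  have hprod := Polynomial.X_pow_sub_one_eq_prod hp hζ₀
  have h1 := congrArg (Polynomial.aeval ρ) hprod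
  rw [map_sub, map_pow, Polynomial.aeval_X, map_one, h, sub_self, map_prod] at h1
  obtain ⟨ζ, hζmem, hζ⟩ := Finset.prod_eq_zero_iff.1 h1.symm
  rw [map_sub, Polynomial.aeval_X, Polynomial.aeval_C] at hζ
  exact ⟨ζ, (Polynomial.mem_nthRootsFinset hp 1).1 hζmem, sub_eq_zero.1 hζ⟩

/-- **(R)** if the coefficients of `Z ^ p` and the leading coefficient of `Z` lie in the subfield
`K₀`, then all coefficients of `Z` lie in `K₀`. -/
theorem coeff_mem_of_pow_coeff_mem {p : ℕ} (hp : 0 < p) (K₀ : IntermediateField ℚ Kb)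
    (Z : LaurentSeries Kb) (hZ : ∀ j, (Z ^ p).coeff j ∈ K₀) (hlead : Z.coeff Z.order ∈ K₀) :
    ∀ j, Z.coeff j ∈ K₀ := by
  intro j
  rcases eq_or_ne Z 0 with rfl | hZ0
  · simp
  have hgal : IsGalois ℚ Kb := isGalois_Kb
  rw [← InfiniteGalois.fixedField_fixingSubgroup K₀, IntermediateField.mem_fixedField_iff]
  intro σ hσ
  have hfix : ∀ x ∈ K₀, σ x = x := fun x hx => hσ ⟨x, hx⟩
  obtain ⟨Zσ, hZσdef⟩ : ∃ Zσ : LaurentSeries Kb, Zσ = coeffMap (σ : Kb →+* Kb) Z := ⟨_, rfl⟩
  have hpow : Zσ ^ p = Z ^ p := by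
    rw [hZσdef, ← map_pow]
    ext j
    rw [coeffMap_coeff]
    exact hfix _ (hZ j)
  have hρ : (Zσ / Z) ^ p = 1 := by rw [div_pow, hpow, div_self (pow_ne_zero _ hZ0)]
  obtain ⟨ζ, hζ, hζeq⟩ := exists_const_of_pow_eq_one hp _ hρ
  have hZσ : Zσ = algebraMap Kb (LaurentSeries Kb) ζ * Z := by
    rw [← hζeq, div_mul_cancel₀ _ hZ0]
  have hc : ∀ m, σ (Z.coeff m) = ζ * Z.coeff m := by
    intro m
    have h1 := congrArg (fun z : LaurentSeries Kb => z.coeff m) hZσ
    simp only [hZσdef, coeffMap_coeff] at h1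
    rw [Fermat.Agent.P2.helper44.coeff_algebraMap_mul] at h1
    exact h1
  have hz0 : Z.coeff Z.order ≠ 0 := fun h => hZ0 (HahnSeries.coeff_order_eq_zero.1 h)
  have hζ1 : ζ = 1 := by
    have h1 := hc Z.order
    rw [hfix _ hlead] at h1
    have h2 : (1 : Kb) * Z.coeff Z.order = ζ * Z.coeff Z.order := by rw [one_mul]; exact h1
    exact (mul_right_cancel₀ hz0 h2).symm
  have := hc j
  rw [hζ1, one_mul] at this
  exact this

/-! ### (F) the coefficients of a modular function lie in a number field -/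

theorem finiteDimensional_adjoin_finset' (S : Finset Kb) :
    FiniteDimensional ℚ (IntermediateField.adjoin ℚ (S : Set Kb)) :=
  IntermediateField.finiteDimensional_adjoin
    fun x _ => ((AlgebraicClosure.isAlgebraic ℚ).isAlgebraic x).isIntegral

/-- **(F)** the coefficients of `f ∈ FF M` lie in every subfield containing a suitable finite
set. -/
theorem exists_finset_coeff_mem (M : ℕ) [NeZero M] (A : ValuationSubring Kb)
    (f : LaurentSeries Kb) (hf : f ∈ FF M) :
    ∃ S : Finset Kb, ∀ K₀ : IntermediateField ℚ Kb, (S : Set Kb) ⊆ K₀ →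
      ∀ j, f.coeff j ∈ K₀ := by
  obtain ⟨S, hS⟩ := Fermat.Agent.P2.helper73.exists_finset_isRatio M A f hf
  exact ⟨S, fun K₀ hK₀ j =>
    coeff_mem_of_isRatio K₀ (fun x hx => (mem_capSubring.1 hx).2) (hS K₀ hK₀) j⟩

/-! ### Attained content of `W₀ - u` -/

/-- **[ATT-NF]** attained content of `W₀ - u` in all regimes: `W₀` an integral family of formal
`p`-th roots of modular functions of level `M`, `u` a family of modular functions of level `M`
with attained content.  This is the hypothesis `hatt` of the Frobenius regime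
(`helper82.exists_close_of_pow_mem_fam`) for `V` a space of families of expansions of modular
functions. -/
theorem contentAttained_sub_of_roots (M : ℕ) [NeZero M] (A : ValuationSubring Kb)
    {k : Type*} [Field k] (π : A →+* k) (hπ : ∀ x : A, π x ≠ 0 → IsUnit x) [Finite ι]
    {p : ℕ} (hp : 0 < p) (W₀ : ι → LaurentSeries A)
    (hW₀ : ∀ i, coeffMap A.subtype (W₀ i) ^ p ∈ FF M)
    (u : ι → LaurentSeries Kb) (hu : ∀ i, u i ∈ FF M)
    (hua : u ≠ 0 → ContentAttainedFam A π u)
    (hne : famMap A.subtype W₀ - u ≠ 0) :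
    ContentAttainedFam A π (famMap A.subtype W₀ - u) := by
  classical
  have : Fintype ι := Fintype.ofFinite ι
  -- the number field
  choose S₁ hS₁ using fun i => exists_finset_coeff_mem M A _ (hW₀ i)
  choose S₂ hS₂ using fun i => exists_finset_coeff_mem M A _ (hu i)
  obtain ⟨S, hSdef⟩ : ∃ S : Finset Kb, S = (Finset.univ.biUnion S₁ ∪ Finset.univ.biUnion S₂) ∪
      Finset.univ.image (fun i => (coeffMap A.subtype (W₀ i)).coeff
        (coeffMap A.subtype (W₀ i)).order) := ⟨_, rfl⟩
  obtain ⟨K₁, hK₁def⟩ : ∃ K₁ : IntermediateField ℚ Kb,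
      K₁ = IntermediateField.adjoin ℚ (S : Set Kb) := ⟨_, rfl⟩
  have hfd : FiniteDimensional ℚ K₁ := by
    rw [hK₁def]
    exact finiteDimensional_adjoin_finset' S
  have hSK : (S : Set Kb) ⊆ K₁ := by
    rw [hK₁def]
    exact IntermediateField.subset_adjoin ℚ _
  have hS₁K : ∀ i, (S₁ i : Set Kb) ⊆ K₁ := by
    intro i x hx
    apply hSK
    rw [hSdef]
    simp only [Finset.coe_union, Set.mem_union, Finset.mem_coe, Finset.mem_biUnion,
      Finset.mem_univ, true_and]
    exact Or.inl (Or.inl ⟨i, hx⟩)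
  have hS₂K : ∀ i, (S₂ i : Set Kb) ⊆ K₁ := by
    intro i x hx
    apply hSK
    rw [hSdef]
    simp only [Finset.coe_union, Set.mem_union, Finset.mem_coe, Finset.mem_biUnion,
      Finset.mem_univ, true_and]
    exact Or.inl (Or.inr ⟨i, hx⟩)
  have hleadK : ∀ i, (coeffMap A.subtype (W₀ i)).coeff (coeffMap A.subtype (W₀ i)).order ∈ K₁ := by
    intro i
    apply hSK
    rw [hSdef]
    simp only [Finset.coe_union, Set.mem_union, Finset.mem_coe, Finset.mem_image,
      Finset.mem_univ, true_and]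
    exact Or.inr ⟨i, rfl⟩
  have hWK : ∀ i j, (coeffMap A.subtype (W₀ i)).coeff j ∈ K₁ := fun i =>
    coeff_mem_of_pow_coeff_mem hp K₁ _ (hS₁ i K₁ (hS₁K i)) (hleadK i)
  have huK : ∀ i j, (u i).coeff j ∈ K₁ := fun i => hS₂ i K₁ (hS₂K i)
  -- the integral case
  have hint : ∀ U : ι → LaurentSeries A, famMap A.subtype U = u →
      ContentAttainedFam A π (famMap A.subtype W₀ - u) := by
    intro U hU
    have hYne : W₀ - U ≠ 0 := by
      intro h
      apply hne
      rw [← hU, ← famMap_sub, h]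
      funext i
      exact map_zero _
    obtain ⟨g, Y', hg0, hgY, hY'⟩ := exists_smul_of_coeff_mem A π K₁ (W₀ - U) hYne (by
      intro i j
      have h1 : ((((W₀ - U) i).coeff j : A) : Kb) =
          (coeffMap A.subtype (W₀ i)).coeff j - (u i).coeff j := by
        rw [← hU]
        simp [famMap]
      rw [h1]
      exact sub_mem (hWK i j) (huK i j))
    have hgK : (g : Kb) ≠ 0 := fun h => hg0 (Subtype.ext h)
    refine ⟨(g : Kb)⁻¹, inv_ne_zero hgK, Y', ?_, hY'⟩
    have h2 : famMap A.subtype W₀ - u = (g : Kb) • famMap A.subtype Y' := by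
      rw [← hU, ← famMap_sub, hgY, famMap_subtype_smul]
    rw [h2, smul_smul, inv_mul_cancel₀ hgK, one_smul]
  by_cases hu0 : u = 0
  · apply hint 0
    rw [hu0]
    funext i
    exact map_zero _
  obtain ⟨cu, hcu, Yu, hYu, hYur⟩ := hua hu0
  by_cases hcuA : cu⁻¹ ∈ A
  · apply hint ((⟨cu⁻¹, hcuA⟩ : A) • Yu)
    rw [famMap_subtype_smul, hYu]
    change cu⁻¹ • cu • u = u
    rw [smul_smul, inv_mul_cancel₀ hcu, one_smul]
  · -- `u` is not integral
    have hcuA' : cu ∈ A := (A.mem_or_inv_mem cu).resolve_right hcuA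
    have hcu0 : π (⟨cu, hcuA'⟩ : A) = 0 := by
      by_contra h
      obtain ⟨v, hv⟩ := hπ _ h
      apply hcuA
      have h1 : ((v⁻¹ : Aˣ) : A) * (⟨cu, hcuA'⟩ : A) = 1 := by
        rw [← hv]
        exact Units.inv_mul v
      have h2 : (((v⁻¹ : Aˣ) : A) : Kb) * cu = 1 := congrArg Subtype.val h1
      have h3 : cu⁻¹ = (((v⁻¹ : Aˣ) : A) : Kb) := (eq_inv_of_mul_eq_one_left h2).symm
      rw [h3]
      exact Subtype.property _
    refine ⟨cu, hcu, (⟨cu, hcuA'⟩ : A) • W₀ - Yu, ?_, ?_⟩
    · rw [famMap_sub, famMap_subtype_smul, hYu, smul_sub]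
    · rw [famMap_sub, famMap_smul, hcu0, zero_smul, zero_sub, neg_ne_zero]
      exact hYur

end Fermat.Agent.T7.helper22
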