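/-
T7 (S33), helper84: **the three regimes of the `p`-th power map** (Mathlib only).

For a prime `p`, `λ = ζ - 1` (`ζ` a root of `1 + X + ⋯ + X^(p-1)`), and `Y = v + π X`:

* `ppow_lambda_rel`       : `p * (1 + λ m) = - λ^(p-1)` (no inverse needed);
* `ppow_lambda_rel_unit`  : if `1 + λ m` is a unit (e.g. `λ` in the Jacobson radical),
                            `p = - λ^(p-1) + λ^p c`;
* `ppow_sigma_lambda`     : `ζ^a - 1 = a λ + λ^2 e`;
* `ppow_critical`         : `(v + λ X)^p - v^p = λ^p (X^p - v^(p-1) X) + λ^(p+1) E`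
                            (Artin-Schreier regime, depth `= v(λ)`);
* `ppow_frobenius`        : if `p = π^(p-1) τ` then `(v + π X)^p - v^p = π^p (X^p + τ E)`
                            (Frobenius regime, depth `< v(λ)`);
* `ppow_linear`           : if `π^(p-1) = p τ` then
                            `(v + π X)^p - v^p = p π (v^(p-1) X + π E₁ + τ E₂)`
                            (linear regime, depth `> v(λ)`);
* `ppow_twist`            : `(1 + λ X)^a = 1 + a λ X + λ^2 E` (for the monoid trick).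
-/
import Mathlib

set_option autoImplicit false

namespace Fermat.Agent.T7.helper84

open Finset

variable {R : Type*} [CommRing R]

/-- the binomial expansion of `(v + y)^p - v^p`, split into the linear term, the middle terms
(all divisible by `p * y^2`) and `y^p`. -/
theorem ppow_expand {p : ℕ} (hp : p.Prime) (v y : R) :
    ∃ E : R, (v + y) ^ p - v ^ p = (p : R) * v ^ (p - 1) * y + (p : R) * y ^ 2 * E + y ^ p := by
  classical
  have h2 : 2 ≤ p := hp.two_le
  -- every middle binomial coefficient is divisible by `p`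
  have hdiv : ∀ i ∈ Finset.Ico 2 p, ∃ c : ℕ, p.choose i = p * c := by
    intro i hi
    rw [Finset.mem_Ico] at hi
    exact hp.dvd_choose_self (by omega) hi.2
  choose! c hc using hdiv
  refine ⟨∑ i ∈ Finset.Ico 2 p, (c i : R) * v ^ (p - i) * y ^ (i - 2), ?_⟩
  have hsum : (v + y) ^ p = ∑ i ∈ Finset.range (p + 1), v ^ (p - i) * y ^ i * (p.choose i : R) := by
    rw [add_comm, add_pow]
    refine Finset.sum_congr rfl fun i _ => ?_
    ring
  have hsplit : Finset.range (p + 1) = insert 0 (insert 1 (insert p (Finset.Ico 2 p))) := by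
    ext i
    simp only [Finset.mem_range, Finset.mem_insert, Finset.mem_Ico]
    omega
  rw [hsum, hsplit]
  rw [Finset.sum_insert (by simp; omega), Finset.sum_insert (by simp; omega),
    Finset.sum_insert (by simp)]
  have hmid : ∑ i ∈ Finset.Ico 2 p, v ^ (p - i) * y ^ i * (p.choose i : R) =
      (p : R) * y ^ 2 * ∑ i ∈ Finset.Ico 2 p, (c i : R) * v ^ (p - i) * y ^ (i - 2) := by
    rw [Finset.mul_sum]
    refine Finset.sum_congr rfl fun i hi => ?_
    have hi' := Finset.mem_Ico.mp hi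
    rw [hc i hi]
    have : y ^ i = y ^ 2 * y ^ (i - 2) := by
      rw [← pow_add]
      congr 1
      omega
    rw [this]
    push_cast
    ring
  rw [hmid]
  simp only [Nat.sub_zero, pow_zero, mul_one, Nat.choose_zero_right, Nat.cast_one, pow_one,
    Nat.choose_one_right, Nat.sub_self, Nat.choose_self, one_mul]
  ring

/-- **Artin-Schreier regime** (critical depth). -/
theorem ppow_critical {p : ℕ} (hp : p.Prime) {l c : R}
    (hl : (p : R) = -l ^ (p - 1) + l ^ p * c) (v X : R) :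
    ∃ E : R, (v + l * X) ^ p - v ^ p = l ^ p * (X ^ p - v ^ (p - 1) * X) + l ^ (p + 1) * E := by
  obtain ⟨E0, hE0⟩ := ppow_expand hp v (l * X)
  have h1 : 1 ≤ p := hp.one_le
  have hpow : l ^ p = l ^ (p - 1) * l := by
    rw [← pow_succ]
    congr 1
    omega
  have h2 : 2 ≤ p := hp.two_le
  have hpow2 : l ^ p = l ^ (p - 2) * l ^ 2 := by
    rw [← pow_add]
    congr 1
    omega
  -- `p * l = - l^p + l^(p+1) c`
  have hpl : (p : R) * l = -l ^ p + l ^ (p + 1) * c := by
    rw [hl, pow_succ, hpow]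
    ring
  -- `p * l^2 = l^(p+1) (-1 + l c)`
  have hpl2 : (p : R) * l ^ 2 = l ^ (p + 1) * (-1 + l * c) := by
    have : (p : R) * l ^ 2 = (p : R) * l * l := by ring
    rw [this, hpl, pow_succ]
    ring
  refine ⟨c * v ^ (p - 1) * X + (-1 + l * c) * X ^ 2 * E0, ?_⟩
  rw [hE0, mul_pow]
  have e1 : (p : R) * v ^ (p - 1) * (l * X) = (p : R) * l * (v ^ (p - 1) * X) := by ring
  have e2 : (p : R) * (l ^ 2 * X ^ 2) * E0 = (p : R) * l ^ 2 * (X ^ 2 * E0) := by ring
  rw [e1, e2, hpl, hpl2]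
  ring

/-- **Frobenius regime** (depth below the critical one): `p = π^(p-1) τ`. -/
theorem ppow_frobenius {p : ℕ} (hp : p.Prime) {π τ : R} (hπ : (p : R) = π ^ (p - 1) * τ)
    (v X : R) : ∃ E : R, (v + π * X) ^ p - v ^ p = π ^ p * (X ^ p + τ * E) := by
  obtain ⟨E0, hE0⟩ := ppow_expand hp v (π * X)
  have h1 : 1 ≤ p := hp.one_le
  have hpow : π ^ p = π ^ (p - 1) * π := by
    rw [← pow_succ]
    congr 1
    omega
  refine ⟨v ^ (p - 1) * X + π * X ^ 2 * E0, ?_⟩
  rw [hE0, mul_pow, mul_pow, hπ, hpow]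
  ring

/-- **linear regime** (depth above the critical one): `π^(p-1) = p τ`. -/
theorem ppow_linear {p : ℕ} (hp : p.Prime) {π τ : R} (hπ : π ^ (p - 1) = (p : R) * τ)
    (v X : R) :
    ∃ E₁ E₂ : R, (v + π * X) ^ p - v ^ p =
      (p : R) * π * (v ^ (p - 1) * X + π * E₁ + τ * E₂) := by
  obtain ⟨E0, hE0⟩ := ppow_expand hp v (π * X)
  have h1 : 1 ≤ p := hp.one_le
  have hpow : π ^ p = π ^ (p - 1) * π := by
    rw [← pow_succ]
    congr 1
    omega
  refine ⟨X ^ 2 * E0, X ^ p, ?_⟩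
  rw [hE0, mul_pow, mul_pow, hpow, hπ]
  ring

/-- `p (1 + λ m) = - λ^(p-1)` for `λ = ζ - 1`, `ζ` a root of `1 + X + ⋯ + X^(p-1)`. -/
theorem ppow_lambda_rel {p : ℕ} (hp : p.Prime) {ζ : R}
    (hζ : ∑ i ∈ Finset.range p, ζ ^ i = 0) :
    ∃ m : R, (p : R) * (1 + (ζ - 1) * m) = -(ζ - 1) ^ (p - 1) := by
  classical
  set l : R := ζ - 1 with hl
  have hζl : ζ = 1 + l := by rw [hl]; ring
  obtain ⟨E0, hE0⟩ := ppow_expand hp (1 : R) l
  have h1 : 1 ≤ p := hp.one_le
  have hpow : l ^ p = l ^ (p - 1) * l := by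
    rw [← pow_succ]
    congr 1
    omega
  -- `(ζ - 1) * ∑ ζ^i = ζ^p - 1`
  have hgeom : (∑ i ∈ Finset.range p, ζ ^ i) * (ζ - 1) = ζ ^ p - 1 := geom_sum_mul ζ p
  rw [hζ, zero_mul] at hgeom
  -- so `(1 + l)^p - 1 = 0`; but we need the quotient by `l`: use the explicit geometric sum
  -- `∑_{i<p} (1+l)^i = p + p l E' + l^(p-1)` proved by a direct expansion
  have key : ∃ m : R, ∑ i ∈ Finset.range p, (1 + l) ^ i = (p : R) * (1 + l * m) + l ^ (p - 1) := by
    -- polynomial identity: `∑_{i<p} (1+X)^i = ∑_{j<p} C(p, j+1) X^j`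
    have hpoly : ∀ x : R, ∑ i ∈ Finset.range p, (1 + x) ^ i =
        ∑ j ∈ Finset.range p, (p.choose (j + 1) : R) * x ^ j := by
      intro x
      have hP : (∑ i ∈ Finset.range p, (1 + Polynomial.X : Polynomial ℤ) ^ i) =
          ∑ j ∈ Finset.range p, (p.choose (j + 1) : Polynomial ℤ) * Polynomial.X ^ j := by
        have hX : (Polynomial.X : Polynomial ℤ) ≠ 0 := Polynomial.X_ne_zero
        apply mul_right_cancel₀ hX
        have g1 : (∑ i ∈ Finset.range p, (1 + Polynomial.X : Polynomial ℤ) ^ i) * Polynomial.X =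
            (1 + Polynomial.X) ^ p - 1 := by
          have := geom_sum_mul (1 + Polynomial.X : Polynomial ℤ) p
          simpa using this
        rw [g1, add_comm (1 : Polynomial ℤ), add_pow, Finset.sum_range_succ', Finset.sum_mul]
        simp only [one_pow, mul_one, pow_zero, Nat.choose_zero_right, Nat.cast_one,
          add_sub_cancel_right]
        refine Finset.sum_congr rfl fun j _ => ?_
        rw [pow_succ]
        ring
      have := congrArg (Polynomial.eval₂ (Int.castRingHom R) x) hP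
      simpa [Polynomial.eval₂_finsetSum, Polynomial.eval₂_mul, Polynomial.eval₂_pow,
        Polynomial.eval₂_add] using this
    rw [hpoly l]
    have h2 : 2 ≤ p := hp.two_le
    have hdiv : ∀ j ∈ Finset.Ico 1 (p - 1), ∃ c : ℕ, p.choose (j + 1) = p * c := by
      intro j hj
      rw [Finset.mem_Ico] at hj
      exact hp.dvd_choose_self (by omega) (by omega)
    choose! c hc using hdiv
    refine ⟨∑ j ∈ Finset.Ico 1 (p - 1), (c j : R) * l ^ (j - 1), ?_⟩
    have hsplit : Finset.range p = insert 0 (insert (p - 1) (Finset.Ico 1 (p - 1))) := by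
      ext i
      simp only [Finset.mem_range, Finset.mem_insert, Finset.mem_Ico]
      omega
    rw [hsplit, Finset.sum_insert (by simp; omega), Finset.sum_insert (by simp)]
    have hmid : ∑ j ∈ Finset.Ico 1 (p - 1), (p.choose (j + 1) : R) * l ^ j =
        (p : R) * (l * ∑ j ∈ Finset.Ico 1 (p - 1), (c j : R) * l ^ (j - 1)) := by
      rw [Finset.mul_sum, Finset.mul_sum]
      refine Finset.sum_congr rfl fun j hj => ?_
      have hj' := Finset.mem_Ico.mp hj
      rw [hc j hj]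
      have : l ^ j = l * l ^ (j - 1) := by
        rw [← pow_succ']
        congr 1
        omega
      rw [this]
      push_cast
      ring
    rw [hmid]
    have hpp : p - 1 + 1 = p := by omega
    simp only [zero_add, Nat.choose_one_right, pow_zero, mul_one, hpp, Nat.choose_self,
      Nat.cast_one, one_mul]
    ring
  obtain ⟨m, hm⟩ := key
  refine ⟨m, ?_⟩
  have : ∑ i ∈ Finset.range p, (1 + l) ^ i = 0 := by rw [← hζl]; exact hζ
  rw [this] at hm
  linear_combination -hm

/-- if `1 + λ m` is a unit: `p = - λ^(p-1) + λ^p c`. -/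
theorem ppow_lambda_rel_unit {p : ℕ} (hp : p.Prime) {ζ : R}
    (hζ : ∑ i ∈ Finset.range p, ζ ^ i = 0)
    (hu : ∀ m : R, IsUnit (1 + (ζ - 1) * m)) :
    ∃ c : R, (p : R) = -(ζ - 1) ^ (p - 1) + (ζ - 1) ^ p * c := by
  obtain ⟨m, hm⟩ := ppow_lambda_rel hp hζ
  obtain ⟨u, hu'⟩ := hu m
  have h1 : 1 ≤ p := hp.one_le
  have hpow : (ζ - 1) ^ p = (ζ - 1) ^ (p - 1) * (ζ - 1) := by
    rw [← pow_succ]
    congr 1
    omega
  -- `u⁻¹ = 1 - (ζ - 1) m u⁻¹`
  have hinv : ((u⁻¹ : Rˣ) : R) = 1 - (ζ - 1) * m * ((u⁻¹ : Rˣ) : R) := by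
    have : ((u : Rˣ) : R) * ((u⁻¹ : Rˣ) : R) = 1 := by
      rw [← Units.val_mul, mul_inv_cancel, Units.val_one]
    rw [hu'] at this
    linear_combination this
  have hp' : (p : R) = -(ζ - 1) ^ (p - 1) * ((u⁻¹ : Rˣ) : R) := by
    have h2 : (p : R) * ((u : Rˣ) : R) = -(ζ - 1) ^ (p - 1) := by rw [hu']; exact hm
    have h3 : ((u : Rˣ) : R) * ((u⁻¹ : Rˣ) : R) = 1 := by
      rw [← Units.val_mul, mul_inv_cancel, Units.val_one]
    calc (p : R) = (p : R) * (((u : Rˣ) : R) * ((u⁻¹ : Rˣ) : R)) := by rw [h3, mul_one]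
      _ = (p : R) * ((u : Rˣ) : R) * ((u⁻¹ : Rˣ) : R) := by ring
      _ = -(ζ - 1) ^ (p - 1) * ((u⁻¹ : Rˣ) : R) := by rw [h2]
  refine ⟨m * ((u⁻¹ : Rˣ) : R), ?_⟩
  rw [hp', hpow]
  nth_rewrite 1 [hinv]
  ring

/-- `ζ^a - 1 = a λ + λ^2 e` for `λ = ζ - 1`. -/
theorem ppow_sigma_lambda (ζ : R) (a : ℕ) :
    ∃ e : R, ζ ^ a - 1 = (a : R) * (ζ - 1) + (ζ - 1) ^ 2 * e := by
  induction a with
  | zero => exact ⟨0, by simp⟩
  | succ a ih =>
    obtain ⟨e, he⟩ := ih
    refine ⟨e * ζ + a, ?_⟩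
    have : ζ ^ (a + 1) - 1 = (ζ ^ a - 1) * ζ + (ζ - 1) := by ring
    rw [this, he]
    push_cast
    ring

/-- `(1 + λ X)^a = 1 + a λ X + λ^2 E`. -/
theorem ppow_twist (l X : R) (a : ℕ) :
    ∃ E : R, (1 + l * X) ^ a = 1 + (a : R) * l * X + l ^ 2 * E := by
  induction a with
  | zero => exact ⟨0, by simp⟩
  | succ a ih =>
    obtain ⟨E, hE⟩ := ih
    refine ⟨E * (1 + l * X) + a * X ^ 2, ?_⟩
    rw [pow_succ, hE]
    push_cast
    ring

end Fermat.Agent.T7.helper84
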