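import Mathlib
import Fermat.Prelude.Def_ModularCurve_LaurentCoeff
import Fermat.Agent.P2.helper74_InjPivot

/-!
# T7 (S33, box (b4)), helper40: the pivot step at the residue characteristic

`P2.helper74.mem_of_pow_mem` is the pivot step of the injectivity argument for `m`-th roots with
`m` invertible in the residue field.  Here is the version for `m = p`, `p` a prime which may be
`0` in the residue field `k`:

if `ϖ ^ (p - 1) ∈ p * 𝔪` ("depth `> 1 / (p - 1)`"), the integral series `W₀` has reduction `1`, is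
`ϖ`-close to an integral element `v₁` of `V` (`W₀ - v₁ = ϖ • Y₁`), and `W₀ ^ p ∈ V'`, then
`W₀ ∈ V` (`mem_of_pow_mem_deep`).

The only change in the proof is the "key claim": for an integral `Z = v + c • W₀`, `c ∉ A`,
`a' = c⁻¹`:
* deep case `ϖ ∣ a'`: `W₀ ^ p - U' ^ p = (p * a') • (Θ₁ * Z)` with an integral `Θ₁` of
  reduction `1` (binomial formula for a prime exponent);
* shallow case `a' * s = ϖ`, `s` in the maximal ideal: `Z - s • Y₁` is an integral element of `V`
  with the same reduction as `Z`.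
-/

set_option autoImplicit false
set_option linter.unusedSectionVars false
set_option linter.unusedVariables false

namespace Fermat.Agent.T7.helper40

open ModularCurve HahnSeries
open Fermat.Agent.P2.helper74

variable {L : Type*} [Field L]

/-- the reduction of the binomial sum: if `red δ = 0` and `red U = 1`, the sum
`∑ k ∈ Ioo 0 p, δ ^ (k - 1) * U ^ (p - k - 1) * (p.choose k / p)` has reduction `1`. -/
theorem pd_red_binomSum {R S : Type*} [CommRing R] [CommRing S] (f : R →+* S) {p : ℕ}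
    (hp : p.Prime) (δ U : R) (hδ : f δ = 0) (hU : f U = 1) :
    f (∑ k ∈ Finset.Ioo 0 p, δ ^ (k - 1) * U ^ (p - k - 1) * ((p.choose k / p : ℕ) : R)) = 1 := by
  rw [map_sum]
  have h1 : (1 : ℕ) ∈ Finset.Ioo 0 p := Finset.mem_Ioo.mpr ⟨Nat.one_pos, hp.one_lt⟩
  rw [Finset.sum_eq_single_of_mem 1 h1]
  · rw [map_mul, map_mul, map_pow, map_pow, hU, one_pow, Nat.sub_self, pow_zero, one_mul,
      one_mul, Nat.choose_one_right, Nat.div_self hp.pos, Nat.cast_one, map_one]
  · intro k hk hk1
    obtain ⟨hk0, -⟩ := Finset.mem_Ioo.mp hk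
    have hk2 : k - 1 ≠ 0 := by omega
    rw [map_mul, map_mul, map_pow, hδ, zero_pow hk2, zero_mul, zero_mul]

/-- the binomial identity behind the deep case -/
theorem pd_pow_sub_pow {R : Type*} [CommRing R] {p : ℕ} (hp : p.Prime)
    (α τ σ ϖ Z U : R) (hα : ϖ * σ = α) (hϖ : ϖ ^ (p - 1) = (p : R) * τ) :
    (α * Z + U) ^ p - U ^ p
      = ((p : R) * α) * ((τ * σ ^ (p - 1) * Z ^ (p - 1)
          + U * ∑ k ∈ Finset.Ioo 0 p, (α * Z) ^ (k - 1) * U ^ (p - k - 1)
              * ((p.choose k / p : ℕ) : R)) * Z) := by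
  have key := add_pow_prime_eq hp (α * Z) U
  have hp1 : p = (p - 1) + 1 := (Nat.sub_add_cancel hp.pos).symm
  have h1 : (α * Z) ^ p = (α * Z) * ((p : R) * τ * σ ^ (p - 1) * Z ^ (p - 1)) := by
    conv_lhs => rw [hp1, pow_succ']
    congr 1
    rw [mul_pow, ← hα, mul_pow, hϖ]
  rw [key, h1]
  ring

/-- **The pivot step at `m = p`** (deep form). -/
theorem mem_of_pow_mem_deep (A : ValuationSubring L) {k : Type*} [Field k] (π : A →+* k)
    (hπ : ∀ x : A, π x ≠ 0 → IsUnit x) (hπs : Function.Surjective π)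
    (V V' : Submodule L (LaurentSeries L)) [FiniteDimensional L V] (n : ℤ) (hn : 0 ≤ n)
    (p : ℕ) (hp : p.Prime) (hpL : (p : L) ≠ 0)
    (ϖ t : A) (ht : π t = 0) (hϖ : ϖ ^ (p - 1) = (p : A) * t)
    (hVatt : ∀ u ∈ V, u ≠ 0 → ContentAttained A π u)
    (hVord : ∀ u ∈ V, ∀ j < -n, u.coeff j = 0)
    (hpow : ∀ u ∈ V, u ^ p ∈ V')
    (hred : ∀ Z : LaurentSeries A, coeffMap A.subtype Z ∈ V' →
      (∀ j < -n, (coeffMap π Z).coeff j = 0) →
      ∃ Z' : LaurentSeries A, coeffMap A.subtype Z' ∈ V ∧ coeffMap π Z' = coeffMap π Z)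
    (W₀ : LaurentSeries A) (hW₀ : (coeffMap A.subtype W₀) ^ p ∈ V')
    (hW₀red : coeffMap π W₀ = 1) (hW₀ord : ∀ j < -n, W₀.coeff j = 0)
    (v₁ Y₁ : LaurentSeries A) (hv₁ : coeffMap A.subtype v₁ ∈ V) (hY₁ : W₀ - v₁ = ϖ • Y₁)
    (hatt : ∀ u ∈ V, coeffMap A.subtype W₀ - u ≠ 0 →
      ContentAttained A π (coeffMap A.subtype W₀ - u)) :
    coeffMap A.subtype W₀ ∈ V := by
  classical
  by_contra hW
  set w₀ : LaurentSeries L := coeffMap A.subtype W₀ with hw₀
  -- the enlarged space
  set Vp : Submodule L (LaurentSeries L) := V ⊔ Submodule.span L {w₀} with hVp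
  have hVpfd : FiniteDimensional L Vp := by
    rw [hVp]
    infer_instance
  have hmemVp : ∀ x ∈ Vp, ∃ v ∈ V, ∃ c : L, x = v + c • w₀ := by
    intro x hx
    rw [hVp, Submodule.mem_sup] at hx
    obtain ⟨v, hv, y, hy, rfl⟩ := hx
    rw [Submodule.mem_span_singleton] at hy
    obtain ⟨c, rfl⟩ := hy
    exact ⟨v, hv, c, rfl⟩
  have hVpatt : ∀ u ∈ Vp, u ≠ 0 → ∃ c : L, c ≠ 0 ∧ ∃ Y : LaurentSeries A,
      coeffMap A.subtype Y = c • u ∧ coeffMap π Y ≠ 0 := by
    intro u hu hu0
    obtain ⟨v, hv, c, rfl⟩ := hmemVp u hu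
    rcases eq_or_ne c 0 with rfl | hc
    · rw [zero_smul, add_zero] at hu0 ⊢
      exact hVatt v hv hu0
    · have h1 : v + c • w₀ = c • (w₀ - (-(c⁻¹ • v))) := by
        rw [sub_neg_eq_add, smul_add, smul_smul, mul_inv_cancel₀ hc, one_smul, add_comm]
      rw [h1] at hu0 ⊢
      have h2 : w₀ - (-(c⁻¹ • v)) ≠ 0 := by
        intro h
        rw [h, smul_zero] at hu0
        exact hu0 rfl
      exact (hatt _ (V.neg_mem (V.smul_mem _ hv)) h2).smul hc
  have hVatt' : ∀ u ∈ V, u ≠ 0 → ∃ c : L, c ≠ 0 ∧ ∃ Y : LaurentSeries A,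
      coeffMap A.subtype Y = c • u ∧ coeffMap π Y ≠ 0 := hVatt
  obtain ⟨Y, hYV, -, hYgen, -⟩ := exists_integral_basis A π hπ V hVatt'
  obtain ⟨Yp, hYpV, -, -, hYpred⟩ := exists_integral_basis A π hπ Vp hVpatt
  have hli := linearIndependent_coeffMap_of_forall A π hπs Yp hYpred
  -- dimension of the enlarged space
  have hw₀0 : w₀ ≠ 0 := fun h => hW (h ▸ V.zero_mem)
  have hdim : Module.finrank L Vp = Module.finrank L V + 1 := by
    have h1 := Submodule.finrank_sup_add_finrank_inf_eq V (Submodule.span L {w₀})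
    have h2 : V ⊓ Submodule.span L {w₀} = ⊥ := by
      rw [eq_bot_iff]
      rintro x ⟨hxV, hxs⟩
      rw [SetLike.mem_coe, Submodule.mem_span_singleton] at hxs
      obtain ⟨c, rfl⟩ := hxs
      rw [Submodule.mem_bot]
      rcases eq_or_ne c 0 with rfl | hc
      · exact zero_smul _ _
      · exfalso
        apply hW
        have := V.smul_mem c⁻¹ hxV
        rwa [smul_smul, inv_mul_cancel₀ hc, one_smul] at this
    rw [h2, finrank_bot, add_zero, finrank_span_singleton hw₀0] at h1
    exact h1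
  -- the reduction of `V_A`
  set R : Submodule k (LaurentSeries k) :=
    Submodule.span k (Set.range fun i => coeffMap π (Y i)) with hR
  have hRfd : FiniteDimensional k R := FiniteDimensional.span_of_finite k (Set.finite_range _)
  have hRV : ∀ Z : LaurentSeries A, coeffMap A.subtype Z ∈ V → coeffMap π Z ∈ R := by
    intro Z hZ
    obtain ⟨a, rfl⟩ := hYgen Z hZ
    rw [map_sum]
    refine Submodule.sum_mem _ fun i _ => ?_
    rw [coeffMap_smul']
    exact Submodule.smul_mem _ _ (Submodule.subset_span ⟨i, rfl⟩)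
  -- `1` lies in the reduction
  have hone : (1 : LaurentSeries k) ∈ R := by
    obtain ⟨Z', hZ'V, hZ'⟩ := hred (W₀ ^ p) (by rw [map_pow]; exact hW₀) (by
      intro j hj
      rw [map_pow, hW₀red, one_pow, HahnSeries.coeff_one, if_neg]
      omega)
    have := hRV Z' hZ'V
    rwa [hZ', map_pow, hW₀red, one_pow] at this
  -- the key claim
  have hclaim : ∀ Z : LaurentSeries A, coeffMap A.subtype Z ∈ Vp → coeffMap π Z ∈ R := by
    intro Z hZ
    obtain ⟨v, hv, c, hx⟩ := hmemVp _ hZ
    by_cases hcA' : c ∈ A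
    · have h1 : coeffMap A.subtype (Z - (⟨c, hcA'⟩ : A) • W₀) = v := by
        rw [map_sub, coeffMap_subtype_smul, hx]
        show v + c • w₀ - c • w₀ = v
        abel
      have h2 := hRV (Z - (⟨c, hcA'⟩ : A) • W₀) (by rw [h1]; exact hv)
      rw [map_sub, coeffMap_smul', hW₀red] at h2
      have h3 := R.add_mem h2 (R.smul_mem (π ⟨c, hcA'⟩) hone)
      rwa [sub_add_cancel] at h3
    have hcA : c⁻¹ ∈ A := (A.mem_or_inv_mem c).resolve_left hcA'
    have hc0 : c ≠ 0 := by
      rintro rfl
      exact hcA' A.zero_mem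
    set a' : A := ⟨c⁻¹, hcA⟩ with ha'
    have ha'L : (a' : L) = c⁻¹ := rfl
    have hπa' : π a' = 0 := by
      by_contra h
      obtain ⟨w, hw⟩ := hπ a' h
      apply hcA'
      have h1 : ((w⁻¹ : Aˣ) : A) * a' = 1 := by rw [← hw]; exact Units.inv_mul w
      have h2 : (((w⁻¹ : Aˣ) : A) : L) * c⁻¹ = 1 := by
        have := congrArg (fun z : A => (z : L)) h1
        simpa using this
      have h3 : c = (((w⁻¹ : Aˣ) : A) : L) := by
        field_simp at h2
        exact h2.symm
      rw [h3]
      exact ((w⁻¹ : Aˣ) : A).2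
    have hZord : ∀ j < -n, Z.coeff j = 0 := by
      intro j hj
      have h1 : (coeffMap A.subtype Z).coeff j = 0 := by
        rw [hx, HahnSeries.coeff_add, HahnSeries.coeff_smul, hVord v hv j hj, hw₀,
          coeffMap_coeff, hW₀ord j hj]
        simp
      rw [coeffMap_coeff] at h1
      exact Subtype.ext h1
    by_cases hdiv : ∃ s : A, ϖ * s = a'
    · -- the deep case
      obtain ⟨s, hs⟩ := hdiv
      -- the integral element `U' = W₀ - a' Z` of `V`
      set U' : LaurentSeries A := W₀ - a' • Z with hU'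
      have hU'V : coeffMap A.subtype U' = -(c⁻¹ • v) := by
        rw [hU', map_sub, coeffMap_subtype_smul, hx]
        show w₀ - c⁻¹ • (v + c • w₀) = -(c⁻¹ • v)
        rw [smul_add, smul_smul, inv_mul_cancel₀ hc0, one_smul]
        abel
      have hU'mem : coeffMap A.subtype U' ∈ V := by
        rw [hU'V]
        exact V.neg_mem (V.smul_mem _ hv)
      have hU'red : coeffMap π U' = 1 := by
        rw [hU', map_sub, coeffMap_smul', hπa', zero_smul, sub_zero, hW₀red]
      -- the binomial sum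
      set S : LaurentSeries A := ∑ k ∈ Finset.Ioo 0 p,
        (HahnSeries.C a' * Z) ^ (k - 1) * U' ^ (p - k - 1) * ((p.choose k / p : ℕ) : LaurentSeries A)
        with hS
      have hδred : coeffMap π (HahnSeries.C a' * Z) = 0 := by
        rw [HahnSeries.C_mul_eq_smul, coeffMap_smul', hπa', zero_smul]
      have hSred : coeffMap π S = 1 := pd_red_binomSum (coeffMap π) hp _ _ hδred hU'red
      set Θ₁ : LaurentSeries A :=
        HahnSeries.C t * HahnSeries.C s ^ (p - 1) * Z ^ (p - 1) + U' * S with hΘ₁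
      have hΘ₁red : coeffMap π Θ₁ = 1 := by
        have h0 : coeffMap π (HahnSeries.C t * HahnSeries.C s ^ (p - 1) * Z ^ (p - 1)) = 0 := by
          rw [mul_assoc, HahnSeries.C_mul_eq_smul, coeffMap_smul', ht, zero_smul]
        rw [hΘ₁, map_add, h0, zero_add, map_mul, hU'red, hSred, one_mul]
      have hW₀eq : W₀ = HahnSeries.C a' * Z + U' := by
        rw [hU', HahnSeries.C_mul_eq_smul]
        abel
      have hCα : (HahnSeries.C ϖ : LaurentSeries A) * HahnSeries.C s = HahnSeries.C a' := by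
        rw [← map_mul, hs]
      have hCϖ : (HahnSeries.C ϖ : LaurentSeries A) ^ (p - 1)
          = (p : LaurentSeries A) * HahnSeries.C t := by
        rw [← map_pow, hϖ, map_mul, map_natCast]
      have hmain : W₀ ^ p - U' ^ p
          = ((p : LaurentSeries A) * HahnSeries.C a') * (Θ₁ * Z) := by
        conv_lhs => rw [hW₀eq]
        exact pd_pow_sub_pow hp _ _ _ _ Z U' hCα hCϖ
      have hpa : ((p : L) * c⁻¹) ≠ 0 := mul_ne_zero hpL (inv_ne_zero hc0)
      have hΘZ : coeffMap A.subtype (Θ₁ * Z) ∈ V' := by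
        have h1 : ((p : L) * c⁻¹) • coeffMap A.subtype (Θ₁ * Z)
            = w₀ ^ p - (coeffMap A.subtype U') ^ p := by
          have h2 := congrArg (coeffMap A.subtype) hmain
          rw [map_sub, map_pow, map_pow] at h2
          have h4 : ((p : LaurentSeries A) * HahnSeries.C a') * (Θ₁ * Z)
              = ((p : A) * a') • (Θ₁ * Z) := by
            rw [← map_natCast (HahnSeries.C (Γ := ℤ) (R := A)), ← map_mul,
              HahnSeries.C_mul_eq_smul]
          rw [h4, coeffMap_subtype_smul] at h2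
          rw [h2]
          congr 1
        have h3 : coeffMap A.subtype (Θ₁ * Z)
            = ((p : L) * c⁻¹)⁻¹ • (w₀ ^ p - (coeffMap A.subtype U') ^ p) := by
          rw [← h1, smul_smul, inv_mul_cancel₀ hpa, one_smul]
        rw [h3]
        exact V'.smul_mem _ (V'.sub_mem hW₀ (hpow _ hU'mem))
      obtain ⟨Z', hZ'V, hZ'⟩ := hred (Θ₁ * Z) hΘZ (by
        intro j hj
        rw [map_mul, hΘ₁red, one_mul, coeffMap_coeff, hZord j hj, map_zero])
      have h5 := hRV Z' hZ'V
      rwa [hZ', map_mul, hΘ₁red, one_mul] at h5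
    · -- the shallow case
      obtain ⟨s, hs | hs⟩ := ValuationRing.cond ϖ a'
      · exact absurd ⟨s, hs⟩ hdiv
      have hπs0 : π s = 0 := by
        by_contra h
        obtain ⟨w, hw⟩ := hπ s h
        apply hdiv
        refine ⟨((w⁻¹ : Aˣ) : A), ?_⟩
        rw [← hs, ← hw, mul_assoc, Units.mul_inv, mul_one]
      set Z₂ : LaurentSeries A := Z - s • Y₁ with hZ₂
      have hY₁L : w₀ - coeffMap A.subtype v₁ = (ϖ : L) • coeffMap A.subtype Y₁ := by
        have := congrArg (coeffMap A.subtype) hY₁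
        rwa [map_sub, coeffMap_subtype_smul] at this
      have hϖL : (ϖ : L) = c⁻¹ * (s : L) := by
        have := congrArg (fun z : A => (z : L)) hs
        simpa using this.symm
      have hZ₂V : coeffMap A.subtype Z₂ = v + c • coeffMap A.subtype v₁ := by
        have h1 : (s : L) • coeffMap A.subtype Y₁ = c • (w₀ - coeffMap A.subtype v₁) := by
          rw [hY₁L, hϖL, smul_smul, ← mul_assoc, mul_inv_cancel₀ hc0, one_mul]
        rw [hZ₂, map_sub, coeffMap_subtype_smul, hx, h1, smul_sub]
        abel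
      have hZ₂mem : coeffMap A.subtype Z₂ ∈ V := by
        rw [hZ₂V]
        exact V.add_mem hv (V.smul_mem _ hv₁)
      have h2 := hRV Z₂ hZ₂mem
      rwa [hZ₂, map_sub, coeffMap_smul', hπs0, zero_smul, sub_zero] at h2
  -- count
  have h1 : Module.finrank k (Submodule.span k (Set.range fun i => coeffMap π (Yp i)))
      = Module.finrank L Vp := by
    rw [finrank_span_eq_card hli, Fintype.card_fin]
  have h2 : Submodule.span k (Set.range fun i => coeffMap π (Yp i)) ≤ R := by
    rw [Submodule.span_le]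
    rintro _ ⟨i, rfl⟩
    exact hclaim (Yp i) (hYpV i)
  have h3 : Module.finrank k R ≤ Module.finrank L V := by
    have := finrank_span_le_card (R := k) (Set.range fun i => coeffMap π (Y i))
    rw [hR]
    refine this.trans ?_
    rw [Set.toFinset_range]
    exact (Finset.card_image_le).trans (by rw [Finset.card_univ, Fintype.card_fin])
  have h4 := Submodule.finrank_mono h2
  omega

end Fermat.Agent.T7.helper40
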