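import Mathlib
import Fermat.Prelude.Def_ModularCurve_LaurentCoeff
import Fermat.Agent.T2.helper74_PivotFam
import Fermat.Agent.T7.helper40_PivotDeep

/-!
# T7 (S33, leaf [P-ABS]), helper40: the pivot step at the residue characteristic, for families

The twin of `T2.helper74.mem_of_pow_mem_fam` / `contentAttained_sub_fam` /
`mem_of_pow_mem_fam_arch` at the exponent `m = p`, `p` a prime which may vanish in the residue
field `k` (only `(p : L) ≠ 0` is used):

if `ϖ ^ (p - 1) = p * t` with `t` in the maximal ideal, the integral family `W₀` has reduction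
`1`, is `ϖ`-close to an integral element `v₁` of `V` (`W₀ - v₁ = ϖ • Y₁`), and `W₀ ^ p ∈ V'`,
then `W₀ ∈ V`.

* `mem_of_pow_mem_fam_deep`       : the pivot step, attained content of `W₀ - u` as a hypothesis;
* `contentAttained_sub_fam_deep`  : attained content of `W₀ - u` from (ARCH) and attained content
                                    on `V`, `V'`;
* `mem_of_pow_mem_fam_deep_arch`  : the combination.
-/

set_option autoImplicit false
set_option linter.unusedSectionVars false
set_option linter.unusedVariables false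

namespace Fermat.Agent.T7.helper40

open ModularCurve HahnSeries
open Fermat.Agent.P2.helper22 Fermat.Agent.P2.helper74 Fermat.Agent.T2.helper74

variable {L : Type*} [Field L] {ι : Type*}

/-- the constant families, as a ring homomorphism -/
noncomputable def famC (R : Type*) [CommRing R] (ι : Type*) : R →+* (ι → LaurentSeries R) :=
  RingHom.pi fun _ => HahnSeries.C

theorem famC_mul_eq_smul {R : Type*} [CommRing R] (a : R) (X : ι → LaurentSeries R) :
    famC R ι a * X = a • X := by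
  funext i
  exact HahnSeries.C_mul_eq_smul

/-- `famMap` as a ring homomorphism -/
noncomputable def famHom {R S : Type*} [CommRing R] [CommRing S] (f : R →+* S) :
    (ι → LaurentSeries R) →+* (ι → LaurentSeries S) :=
  RingHom.pi fun i => (coeffMap f).comp (Pi.evalRingHom (fun _ => LaurentSeries R) i)

theorem famHom_apply {R S : Type*} [CommRing R] [CommRing S] (f : R →+* S)
    (X : ι → LaurentSeries R) : famHom f X = famMap f X := rfl

/-- the identity of the deep case, for families -/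
theorem pd_main_fam {R : Type*} [CommRing R] {p : ℕ} (hp : p.Prime)
    (a' s ϖ t : R) (hs : ϖ * s = a') (hϖ : ϖ ^ (p - 1) = (p : R) * t)
    (Z U : ι → LaurentSeries R) :
    (a' • Z + U) ^ p - U ^ p
      = ((p : R) * a') • ((t • (s ^ (p - 1) • Z ^ (p - 1))
          + U * ∑ k ∈ Finset.Ioo 0 p, (a' • Z) ^ (k - 1) * U ^ (p - k - 1)
              * ((p.choose k / p : ℕ) : ι → LaurentSeries R)) * Z) := by
  have h := pd_pow_sub_pow (R := ι → LaurentSeries R) hp (famC R ι a') (famC R ι t)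
    (famC R ι s) (famC R ι ϖ) Z U (by rw [← map_mul, hs])
    (by rw [← map_pow, hϖ, map_mul, map_natCast])
  rw [famC_mul_eq_smul] at h
  rw [h, ← map_natCast (famC R ι), ← map_mul, famC_mul_eq_smul, ← map_pow, mul_assoc (famC R ι t),
    famC_mul_eq_smul, famC_mul_eq_smul]

/-- **The pivot step at `m = p` for families** (deep form). -/
theorem mem_of_pow_mem_fam_deep (A : ValuationSubring L) {k : Type*} [Field k] (π : A →+* k)
    (hπ : ∀ x : A, π x ≠ 0 → IsUnit x) (hπs : Function.Surjective π)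
    (V V' : Submodule L (ι → LaurentSeries L)) [FiniteDimensional L V] (n : ι → ℤ)
    (hn : ∀ i, 0 ≤ n i) (p : ℕ) (hp : p.Prime) (hpL : (p : L) ≠ 0)
    (ϖ t : A) (ht : π t = 0) (hϖ : ϖ ^ (p - 1) = (p : A) * t)
    (hVatt : ∀ u ∈ V, u ≠ 0 → ContentAttainedFam A π u)
    (hVord : ∀ u ∈ V, ∀ i, ∀ j < -(n i), (u i).coeff j = 0)
    (hpow : ∀ u ∈ V, u ^ p ∈ V')
    (hred : ∀ Z : ι → LaurentSeries A, famMap A.subtype Z ∈ V' →
      (∀ i, ∀ j < -(n i), (famMap π Z i).coeff j = 0) →
      ∃ Z' : ι → LaurentSeries A, famMap A.subtype Z' ∈ V ∧ famMap π Z' = famMap π Z)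
    (W₀ : ι → LaurentSeries A) (hW₀ : (famMap A.subtype W₀) ^ p ∈ V')
    (hW₀red : famMap π W₀ = 1) (hW₀ord : ∀ i, ∀ j < -(n i), (W₀ i).coeff j = 0)
    (v₁ Y₁ : ι → LaurentSeries A) (hv₁ : famMap A.subtype v₁ ∈ V) (hY₁ : W₀ - v₁ = ϖ • Y₁)
    (hatt : ∀ u ∈ V, famMap A.subtype W₀ - u ≠ 0 →
      ContentAttainedFam A π (famMap A.subtype W₀ - u)) :
    famMap A.subtype W₀ ∈ V := by
  classical
  by_contra hW
  set w₀ : ι → LaurentSeries L := famMap A.subtype W₀ with hw₀
  -- the enlarged space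
  set Vp : Submodule L (ι → LaurentSeries L) := V ⊔ Submodule.span L {w₀} with hVp
  have hVpfd : FiniteDimensional L Vp := by
    rw [hVp]
    infer_instance
  have hmemVp : ∀ x ∈ Vp, ∃ v ∈ V, ∃ c : L, x = v + c • w₀ := by
    intro x hx
    rw [hVp, Submodule.mem_sup] at hx
    obtain ⟨v, hv, y, hy, rfl⟩ := hx
    rw [Submodule.mem_span_singleton] at hy
    obtain ⟨c, rfl⟩ := hy
    exact ⟨v, hv, c, rfl⟩
  have hVpatt : ∀ u ∈ Vp, u ≠ 0 → ∃ c : L, c ≠ 0 ∧ ∃ Y : ι → LaurentSeries A,
      famMap A.subtype Y = c • u ∧ famMap π Y ≠ 0 := by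
    intro u hu hu0
    obtain ⟨v, hv, c, rfl⟩ := hmemVp u hu
    rcases eq_or_ne c 0 with rfl | hc
    · rw [zero_smul, add_zero] at hu0 ⊢
      exact hVatt v hv hu0
    · have h1 : v + c • w₀ = c • (w₀ - (-(c⁻¹ • v))) := by
        rw [sub_neg_eq_add, smul_add, smul_smul, mul_inv_cancel₀ hc, one_smul, add_comm]
      rw [h1] at hu0 ⊢
      have h2 : w₀ - (-(c⁻¹ • v)) ≠ 0 := by
        intro h
        rw [h, smul_zero] at hu0
        exact hu0 rfl
      exact (hatt _ (V.neg_mem (V.smul_mem _ hv)) h2).smul hc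
  obtain ⟨Y, hYV, -, hYgen, -⟩ := exists_integral_basis_fam A π hπ V hVatt
  obtain ⟨Yp, hYpV, -, -, hYpred⟩ := exists_integral_basis_fam A π hπ Vp hVpatt
  have hli := linearIndependent_famMap_of_forall A π hπs Yp hYpred
  -- dimension of the enlarged space
  have hw₀0 : w₀ ≠ 0 := fun h => hW (h ▸ V.zero_mem)
  have hdim : Module.finrank L Vp = Module.finrank L V + 1 := by
    have h1 := Submodule.finrank_sup_add_finrank_inf_eq V (Submodule.span L {w₀})
    have h2 : V ⊓ Submodule.span L {w₀} = ⊥ := by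
      rw [eq_bot_iff]
      rintro x ⟨hxV, hxs⟩
      rw [SetLike.mem_coe, Submodule.mem_span_singleton] at hxs
      obtain ⟨c, rfl⟩ := hxs
      rw [Submodule.mem_bot]
      rcases eq_or_ne c 0 with rfl | hc
      · exact zero_smul _ _
      · exfalso
        apply hW
        have := V.smul_mem c⁻¹ hxV
        rwa [smul_smul, inv_mul_cancel₀ hc, one_smul] at this
    rw [h2, finrank_bot, add_zero, finrank_span_singleton hw₀0] at h1
    exact h1
  -- the reduction of `V_A`
  set R : Submodule k (ι → LaurentSeries k) :=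
    Submodule.span k (Set.range fun i => famMap π (Y i)) with hR
  have hRfd : FiniteDimensional k R := FiniteDimensional.span_of_finite k (Set.finite_range _)
  have hRV : ∀ Z : ι → LaurentSeries A, famMap A.subtype Z ∈ V → famMap π Z ∈ R := by
    intro Z hZ
    obtain ⟨a, rfl⟩ := hYgen Z hZ
    rw [famMap_sum]
    refine Submodule.sum_mem _ fun i _ => ?_
    exact Submodule.smul_mem _ _ (Submodule.subset_span ⟨i, rfl⟩)
  -- `1` lies in the reduction
  have hone : (1 : ι → LaurentSeries k) ∈ R := by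
    obtain ⟨Z', hZ'V, hZ'⟩ := hred (W₀ ^ p) (by rw [famMap_pow]; exact hW₀) (by
      intro i j hj
      rw [famMap_pow, hW₀red, one_pow]
      show (1 : LaurentSeries k).coeff j = 0
      rw [HahnSeries.coeff_one, if_neg]
      have := hn i
      omega)
    have := hRV Z' hZ'V
    rwa [hZ', famMap_pow, hW₀red, one_pow] at this
  -- the key claim
  have hclaim : ∀ Z : ι → LaurentSeries A, famMap A.subtype Z ∈ Vp → famMap π Z ∈ R := by
    intro Z hZ
    obtain ⟨v, hv, c, hx⟩ := hmemVp _ hZ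
    by_cases hcA' : c ∈ A
    · have h1 : famMap A.subtype (Z - (⟨c, hcA'⟩ : A) • W₀) = v := by
        rw [famMap_sub, famMap_subtype_smul, hx]
        show v + c • w₀ - c • w₀ = v
        abel
      have h2 := hRV (Z - (⟨c, hcA'⟩ : A) • W₀) (by rw [h1]; exact hv)
      rw [famMap_sub, famMap_smul, hW₀red] at h2
      have h3 := R.add_mem h2 (R.smul_mem (π ⟨c, hcA'⟩) hone)
      rwa [sub_add_cancel] at h3
    have hcA : c⁻¹ ∈ A := (A.mem_or_inv_mem c).resolve_left hcA'
    have hc0 : c ≠ 0 := by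
      rintro rfl
      exact hcA' A.zero_mem
    set a' : A := ⟨c⁻¹, hcA⟩ with ha'
    have ha'L : (a' : L) = c⁻¹ := rfl
    have hπa' : π a' = 0 := by
      by_contra h
      obtain ⟨w, hw⟩ := hπ a' h
      apply hcA'
      have h1 : ((w⁻¹ : Aˣ) : A) * a' = 1 := by rw [← hw]; exact Units.inv_mul w
      have h2 : (((w⁻¹ : Aˣ) : A) : L) * c⁻¹ = 1 := by
        have := congrArg (fun z : A => (z : L)) h1
        simpa using this
      have h3 : c = (((w⁻¹ : Aˣ) : A) : L) := by
        field_simp at h2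
        exact h2.symm
      rw [h3]
      exact ((w⁻¹ : Aˣ) : A).2
    have hZord : ∀ i, ∀ j < -(n i), (Z i).coeff j = 0 := by
      intro i j hj
      have h1 : (famMap A.subtype Z i).coeff j = 0 := by
        rw [hx]
        show (v i + c • w₀ i).coeff j = 0
        rw [HahnSeries.coeff_add, HahnSeries.coeff_smul, hVord v hv i j hj, hw₀,
          famMap_apply, coeffMap_coeff, hW₀ord i j hj]
        simp
      rw [famMap_apply, coeffMap_coeff] at h1
      exact Subtype.ext h1
    by_cases hdiv : ∃ s : A, ϖ * s = a'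
    · -- the deep case
      obtain ⟨s, hs⟩ := hdiv
      -- the integral element `U' = W₀ - a' Z` of `V`
      set U' : ι → LaurentSeries A := W₀ - a' • Z with hU'
      have hU'V : famMap A.subtype U' = -(c⁻¹ • v) := by
        rw [hU', famMap_sub, famMap_subtype_smul, hx]
        show w₀ - c⁻¹ • (v + c • w₀) = -(c⁻¹ • v)
        rw [smul_add, smul_smul, inv_mul_cancel₀ hc0, one_smul]
        abel
      have hU'mem : famMap A.subtype U' ∈ V := by
        rw [hU'V]
        exact V.neg_mem (V.smul_mem _ hv)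
      have hU'red : famMap π U' = 1 := by
        rw [hU', famMap_sub, famMap_smul, hπa', zero_smul, sub_zero, hW₀red]
      -- the binomial sum
      set S : ι → LaurentSeries A := ∑ k ∈ Finset.Ioo 0 p,
        (a' • Z) ^ (k - 1) * U' ^ (p - k - 1) * ((p.choose k / p : ℕ) : ι → LaurentSeries A)
        with hS
      have hδred : famHom π (a' • Z) = 0 := by
        rw [famHom_apply, famMap_smul, hπa', zero_smul]
      have hSred : famMap π S = 1 :=
        pd_red_binomSum (famHom π) hp _ _ hδred hU'red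
      set Θ₁ : ι → LaurentSeries A := t • (s ^ (p - 1) • Z ^ (p - 1)) + U' * S with hΘ₁
      have hΘ₁red : famMap π Θ₁ = 1 := by
        rw [hΘ₁, famMap_add, famMap_smul, ht, zero_smul, zero_add, famMap_mul, hU'red, hSred,
          one_mul]
      have hW₀eq : W₀ = a' • Z + U' := by
        rw [hU']
        abel
      have hmain : W₀ ^ p - U' ^ p = ((p : A) * a') • (Θ₁ * Z) := by
        conv_lhs => rw [hW₀eq]
        exact pd_main_fam hp a' s ϖ t hs hϖ Z U'
      have hpa : ((p : L) * c⁻¹) ≠ 0 := mul_ne_zero hpL (inv_ne_zero hc0)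
      have hΘZ : famMap A.subtype (Θ₁ * Z) ∈ V' := by
        have h1 : ((p : L) * c⁻¹) • famMap A.subtype (Θ₁ * Z)
            = w₀ ^ p - (famMap A.subtype U') ^ p := by
          have h2 := congrArg (famMap A.subtype) hmain
          rw [famMap_sub, famMap_pow, famMap_pow, famMap_subtype_smul] at h2
          rw [h2]
          congr 1
        have h3 : famMap A.subtype (Θ₁ * Z)
            = ((p : L) * c⁻¹)⁻¹ • (w₀ ^ p - (famMap A.subtype U') ^ p) := by
          rw [← h1, smul_smul, inv_mul_cancel₀ hpa, one_smul]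
        rw [h3]
        exact V'.smul_mem _ (V'.sub_mem hW₀ (hpow _ hU'mem))
      obtain ⟨Z', hZ'V, hZ'⟩ := hred (Θ₁ * Z) hΘZ (by
        intro i j hj
        rw [famMap_mul, hΘ₁red, one_mul, famMap_apply, coeffMap_coeff, hZord i j hj, map_zero])
      have h5 := hRV Z' hZ'V
      rwa [hZ', famMap_mul, hΘ₁red, one_mul] at h5
    · -- the shallow case
      obtain ⟨s, hs | hs⟩ := ValuationRing.cond ϖ a'
      · exact absurd ⟨s, hs⟩ hdiv
      have hπs0 : π s = 0 := by
        by_contra h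
        obtain ⟨w, hw⟩ := hπ s h
        apply hdiv
        refine ⟨((w⁻¹ : Aˣ) : A), ?_⟩
        rw [← hs, ← hw, mul_assoc, Units.mul_inv, mul_one]
      set Z₂ : ι → LaurentSeries A := Z - s • Y₁ with hZ₂
      have hY₁L : w₀ - famMap A.subtype v₁ = (ϖ : L) • famMap A.subtype Y₁ := by
        have := congrArg (famMap A.subtype) hY₁
        rwa [famMap_sub, famMap_subtype_smul] at this
      have hϖL : (ϖ : L) = c⁻¹ * (s : L) := by
        have := congrArg (fun z : A => (z : L)) hs
        simpa using this.symm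
      have hZ₂V : famMap A.subtype Z₂ = v + c • famMap A.subtype v₁ := by
        have h1 : (s : L) • famMap A.subtype Y₁ = c • (w₀ - famMap A.subtype v₁) := by
          rw [hY₁L, hϖL, smul_smul, ← mul_assoc, mul_inv_cancel₀ hc0, one_mul]
        rw [hZ₂, famMap_sub, famMap_subtype_smul, hx, h1, smul_sub]
        abel
      have hZ₂mem : famMap A.subtype Z₂ ∈ V := by
        rw [hZ₂V]
        exact V.add_mem hv (V.smul_mem _ hv₁)
      have h2 := hRV Z₂ hZ₂mem
      rwa [hZ₂, famMap_sub, famMap_smul, hπs0, zero_smul, sub_zero] at h2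
  -- count
  have h1 : Module.finrank k (Submodule.span k (Set.range fun i => famMap π (Yp i)))
      = Module.finrank L Vp := by
    rw [finrank_span_eq_card hli, Fintype.card_fin]
  have h2 : Submodule.span k (Set.range fun i => famMap π (Yp i)) ≤ R := by
    rw [Submodule.span_le]
    rintro _ ⟨i, rfl⟩
    exact hclaim (Yp i) (hYpV i)
  have h3 : Module.finrank k R ≤ Module.finrank L V := by
    have := finrank_span_le_card (R := k) (Set.range fun i => famMap π (Y i))
    rw [hR]
    refine this.trans ?_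
    rw [Set.toFinset_range]
    exact (Finset.card_image_le).trans (by rw [Finset.card_univ, Fintype.card_fin])
  have h4 := Submodule.finrank_mono h2
  omega

/-- the deep half of the attained content: if `W₀ - U = ϖ • δ₁` with `U` an integral element of
`V` of reduction `1`, then the Gauss norm of `W₀ - U` is attained. -/
theorem contentAttained_of_deep (A : ValuationSubring L) {k : Type*} [Field k] (π : A →+* k)
    (hπ : ∀ x : A, π x ≠ 0 → IsUnit x) (hArch : Arch A π)
    (p : ℕ) (hp : p.Prime) (hpL : (p : L) ≠ 0)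
    (ϖ t : A) (ht : π t = 0) (hϖ : ϖ ^ (p - 1) = (p : A) * t)
    (V V' : Submodule L (ι → LaurentSeries L))
    (hV'att : ∀ u ∈ V', u ≠ 0 → ContentAttainedFam A π u)
    (hpow : ∀ u ∈ V, u ^ p ∈ V')
    (W₀ : ι → LaurentSeries A) (hW₀ : (famMap A.subtype W₀) ^ p ∈ V')
    (hW₀red : famMap π W₀ = 1)
    (U δ₁ : ι → LaurentSeries A) (hU : famMap A.subtype U ∈ V) (hδ₁ : W₀ - U = ϖ • δ₁)
    (hne : W₀ - U ≠ 0) :
    ContentAttainedFam A π (famMap A.subtype (W₀ - U)) := by
  classical
  have hp1 : p - 1 ≠ 0 := by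
    have := hp.two_le
    omega
  have hπϖ : π ϖ = 0 := by
    have h1 : π ϖ ^ (p - 1) = 0 := by
      rw [← map_pow, hϖ, map_mul, ht, mul_zero]
    exact pow_eq_zero_iff hp1 |>.mp h1
  have hϖ0 : ϖ ≠ 0 := by
    rintro rfl
    apply hne
    rw [hδ₁]
    funext i
    refine HahnSeries.ext (funext fun j => ?_)
    show ((0 : A) • δ₁ i).coeff j = 0
    rw [HahnSeries.coeff_smul, smul_eq_mul, zero_mul]
  have hϖL : (ϖ : L) ≠ 0 := fun h => hϖ0 (Subtype.ext h)
  have hpA : (p : A) ≠ 0 := by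
    intro h
    apply hpL
    have := congrArg (fun z : A => (z : L)) h
    simpa using this
  obtain ⟨i₀, hi₀⟩ : ∃ i, δ₁ i ≠ 0 := by
    by_contra h
    push Not at h
    apply hne
    rw [hδ₁]
    funext i
    show ϖ • δ₁ i = 0
    rw [h i, smul_zero]
  have hUred : famMap π U = 1 := by
    have h1 := congrArg (famMap π) hδ₁
    rw [famMap_sub, famMap_smul, hπϖ, zero_smul, hW₀red, sub_eq_zero] at h1
    exact h1.symm
  -- the binomial sum
  set S : ι → LaurentSeries A := ∑ k ∈ Finset.Ioo 0 p,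
    (ϖ • δ₁) ^ (k - 1) * U ^ (p - k - 1) * ((p.choose k / p : ℕ) : ι → LaurentSeries A)
    with hS
  have hδred : famHom π (ϖ • δ₁) = 0 := by
    rw [famHom_apply, famMap_smul, hπϖ, zero_smul]
  have hSred : famMap π S = 1 := pd_red_binomSum (famHom π) hp _ _ hδred hUred
  set Θ₁ : ι → LaurentSeries A := t • ((1 : A) ^ (p - 1) • δ₁ ^ (p - 1)) + U * S with hΘ₁
  have hΘ₁red : famMap π Θ₁ = 1 := by
    rw [hΘ₁, famMap_add, famMap_smul, ht, zero_smul, zero_add, famMap_mul, hUred, hSred,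
      one_mul]
  have hΘ₁i : ∀ i, coeffMap π (Θ₁ i) ≠ 0 := by
    intro i
    have h1 : coeffMap π (Θ₁ i) = 1 := congrFun hΘ₁red i
    rw [h1]
    exact one_ne_zero
  have hW₀eq : W₀ = ϖ • δ₁ + U := by
    rw [← hδ₁]
    abel
  have hmain : W₀ ^ p - U ^ p = ((p : A) * ϖ) • (Θ₁ * δ₁) := by
    conv_lhs => rw [hW₀eq]
    exact pd_main_fam hp ϖ 1 ϖ t (mul_one ϖ) hϖ δ₁ U
  have hd : famMap A.subtype (W₀ ^ p - U ^ p) ∈ V' := by
    rw [famMap_sub, famMap_pow, famMap_pow]
    exact V'.sub_mem hW₀ (hpow _ hU)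
  have hΘδne : Θ₁ i₀ * δ₁ i₀ ≠ 0 := by
    apply mul_ne_zero _ hi₀
    intro h
    apply hΘ₁i i₀
    rw [h, map_zero]
  have hdne : famMap A.subtype (W₀ ^ p - U ^ p) ≠ 0 := by
    intro h0
    have h1 : W₀ ^ p - U ^ p = 0 := famMap_subtype_injective A (h0.trans (famMap_zero _).symm)
    rw [hmain] at h1
    have h2 := congrFun h1 i₀
    have h3 : ((p : A) * ϖ) • (Θ₁ i₀ * δ₁ i₀) = 0 := h2
    have h4 : HahnSeries.C ((p : A) * ϖ) * (Θ₁ i₀ * δ₁ i₀) = 0 := by
      rw [HahnSeries.C_mul_eq_smul]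
      exact h3
    rcases mul_eq_zero.mp h4 with h5 | h5
    · have h6 : (p : A) * ϖ = 0 := by
        have := congrArg (fun z : LaurentSeries A => z.coeff 0) h5
        simpa using this
      exact mul_ne_zero hpA hϖ0 h6
    · exact hΘδne h5
  obtain ⟨c', hc', P, hP, hPr⟩ := hV'att _ hd hdne
  set e' : L := c' * ((p : L) * (ϖ : L)) with he'
  have he'0 : e' ≠ 0 := mul_ne_zero hc' (mul_ne_zero hpL hϖL)
  have hPe' : famMap A.subtype P = e' • famMap A.subtype (Θ₁ * δ₁) := by
    rw [hP, hmain, famMap_subtype_smul, smul_smul, he']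
    congr 2
  have he'A : e'⁻¹ ∈ A := by
    by_contra h
    have he'A' : e' ∈ A := (A.mem_or_inv_mem e').resolve_right h
    have hπe' : π (⟨e', he'A'⟩ : A) = 0 := by
      by_contra hh
      obtain ⟨w, hw⟩ := hπ _ hh
      apply h
      have h1 : ((w⁻¹ : Aˣ) : A) * (⟨e', he'A'⟩ : A) = 1 := by
        rw [← hw]
        exact Units.inv_mul w
      have h2 : (((w⁻¹ : Aˣ) : A) : L) * e' = 1 := congrArg Subtype.val h1
      have h3 : e'⁻¹ = (((w⁻¹ : Aˣ) : A) : L) := (eq_inv_of_mul_eq_one_left h2).symm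
      rw [h3]
      exact Subtype.property _
    apply hPr
    have hPeq : P = (⟨e', he'A'⟩ : A) • (Θ₁ * δ₁) := by
      apply famMap_subtype_injective A
      rw [hPe', famMap_subtype_smul]
    rw [hPeq, famMap_smul, hπe', zero_smul]
  set e : A := ⟨e'⁻¹, he'A⟩ with he_def
  have he : e ≠ 0 := by
    intro h
    have h1 : (e : L) = 0 := by rw [h]; rfl
    exact inv_ne_zero he'0 h1
  have hPe : δ₁ * Θ₁ = e • P := by
    apply famMap_subtype_injective A
    rw [famMap_subtype_smul, hPe', smul_smul, mul_comm δ₁ Θ₁]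
    show _ = (e'⁻¹ * e') • _
    rw [inv_mul_cancel₀ he'0, one_smul]
  have hex : ∀ i, ∃ δ : LaurentSeries A, δ₁ i = e • δ := fun i =>
    exists_eq_smul_of_mul_eq hπ hArch (δ₁ i) (Θ₁ i) (P i) e he (hΘ₁i i) (congrFun hPe i)
  choose δ' hδ' using hex
  have hδ'eq : δ₁ = e • δ' := funext hδ'
  have hδP : δ' * Θ₁ = P := by
    funext i
    have h1 : HahnSeries.C e * (δ' i * Θ₁ i) = HahnSeries.C e * P i := by
      rw [← mul_assoc, HahnSeries.C_mul_eq_smul, ← hδ' i, HahnSeries.C_mul_eq_smul]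
      exact congrFun hPe i
    refine HahnSeries.ext (funext fun j => ?_)
    have h2 := congrArg (fun z : LaurentSeries A => z.coeff j) h1
    simp only [HahnSeries.C_mul_eq_smul, HahnSeries.coeff_smul, smul_eq_mul] at h2
    exact mul_left_cancel₀ he h2
  have hϖe : (ϖ : L) * e'⁻¹ ≠ 0 := mul_ne_zero hϖL (inv_ne_zero he'0)
  refine ⟨((ϖ : L) * e'⁻¹)⁻¹, inv_ne_zero hϖe, δ', ?_, ?_⟩
  · have h1 : famMap A.subtype (W₀ - U) = ((ϖ : L) * e'⁻¹) • famMap A.subtype δ' := by
      rw [hδ₁, hδ'eq, famMap_subtype_smul, famMap_subtype_smul, smul_smul]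
    rw [h1, smul_smul, inv_mul_cancel₀ hϖe, one_smul]
  · intro h0
    apply hPr
    rw [← hδP, famMap_mul, h0, zero_mul]

/-- **Attained content of `W₀ - u` at `m = p`.** -/
theorem contentAttained_sub_fam_deep (A : ValuationSubring L) {k : Type*} [Field k]
    (π : A →+* k) (hπ : ∀ x : A, π x ≠ 0 → IsUnit x) (hArch : Arch A π)
    (p : ℕ) (hp : p.Prime) (hpL : (p : L) ≠ 0)
    (ϖ t : A) (ht : π t = 0) (hϖ : ϖ ^ (p - 1) = (p : A) * t)
    (V V' : Submodule L (ι → LaurentSeries L))
    (hVatt : ∀ u ∈ V, u ≠ 0 → ContentAttainedFam A π u)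
    (hV'att : ∀ u ∈ V', u ≠ 0 → ContentAttainedFam A π u)
    (hpow : ∀ u ∈ V, u ^ p ∈ V')
    (W₀ : ι → LaurentSeries A) (hW₀ : (famMap A.subtype W₀) ^ p ∈ V')
    (hW₀red : famMap π W₀ = 1)
    (v₁ Y₁ : ι → LaurentSeries A) (hv₁ : famMap A.subtype v₁ ∈ V) (hY₁ : W₀ - v₁ = ϖ • Y₁) :
    ∀ u ∈ V, famMap A.subtype W₀ - u ≠ 0 →
      ContentAttainedFam A π (famMap A.subtype W₀ - u) := by
  classical
  intro u hu hne
  -- a component where `W₀ - u` does not vanish
  obtain ⟨i₀, hi₀⟩ : ∃ i, (famMap A.subtype W₀ - u) i ≠ 0 := by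
    by_contra h
    push Not at h
    exact hne (funext h)
  have hone : (1 : ι → LaurentSeries k) ≠ 0 := by
    intro h
    have := congrFun h i₀
    exact one_ne_zero this
  by_cases hu0 : u = 0
  · subst hu0
    refine ⟨1, one_ne_zero, W₀, ?_, ?_⟩
    · rw [one_smul, sub_zero]
    · rw [hW₀red]
      exact hone
  obtain ⟨cu, hcu, Yu, hYu, hYur⟩ := hVatt u hu hu0
  by_cases hcuA : cu⁻¹ ∈ A
  · -- `u` is integral
    set U : ι → LaurentSeries A := (⟨cu⁻¹, hcuA⟩ : A) • Yu with hU
    have hUu : famMap A.subtype U = u := by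
      rw [hU, famMap_subtype_smul, hYu]
      show cu⁻¹ • cu • u = u
      rw [smul_smul, inv_mul_cancel₀ hcu, one_smul]
    have hWU : famMap A.subtype W₀ - u = famMap A.subtype (W₀ - U) := by
      rw [famMap_sub, hUu]
    have hWUne : W₀ - U ≠ 0 := by
      intro h
      apply hne
      rw [hWU, h, famMap_zero]
    by_cases hr : famMap π (W₀ - U) = 0
    · -- the congruent case
      rw [hWU]
      have hUmem : famMap A.subtype U ∈ V := by rw [hUu]; exact hu
      -- the difference `D = U - v₁`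
      set D : ι → LaurentSeries A := U - v₁ with hD
      have hWD : W₀ - U = ϖ • Y₁ - D := by
        rw [hD, ← hY₁]
        abel
      by_cases hD0 : D = 0
      · refine contentAttained_of_deep A π hπ hArch p hp hpL ϖ t ht hϖ V V' hV'att hpow W₀ hW₀
          hW₀red U Y₁ hUmem ?_ hWUne
        rw [hWD, hD0, sub_zero]
      have hDV : famMap A.subtype D ∈ V := by
        rw [hD, famMap_sub]
        exact V.sub_mem hUmem hv₁
      have hDne : famMap A.subtype D ≠ 0 := by
        intro h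
        exact hD0 (famMap_subtype_injective A (h.trans (famMap_zero _).symm))
      obtain ⟨cD, hcD, Q, hQ, hQr⟩ := hVatt _ hDV hDne
      have hcDA : cD⁻¹ ∈ A := by
        by_contra h
        have hcDA' : cD ∈ A := (A.mem_or_inv_mem cD).resolve_right h
        have hπc : π (⟨cD, hcDA'⟩ : A) = 0 := by
          by_contra hh
          obtain ⟨w, hw⟩ := hπ _ hh
          apply h
          have h1 : ((w⁻¹ : Aˣ) : A) * (⟨cD, hcDA'⟩ : A) = 1 := by
            rw [← hw]
            exact Units.inv_mul w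
          have h2 : (((w⁻¹ : Aˣ) : A) : L) * cD = 1 := congrArg Subtype.val h1
          have h3 : cD⁻¹ = (((w⁻¹ : Aˣ) : A) : L) := (eq_inv_of_mul_eq_one_left h2).symm
          rw [h3]
          exact Subtype.property _
        apply hQr
        have hQeq : Q = (⟨cD, hcDA'⟩ : A) • D := by
          apply famMap_subtype_injective A
          rw [hQ, famMap_subtype_smul]
        rw [hQeq, famMap_smul, hπc, zero_smul]
      set e : A := ⟨cD⁻¹, hcDA⟩ with he_def
      have heL : (e : L) = cD⁻¹ := rfl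
      have hDe : D = e • Q := by
        apply famMap_subtype_injective A
        rw [famMap_subtype_smul, hQ, smul_smul, heL, inv_mul_cancel₀ hcD, one_smul]
      -- deep or shallow
      by_cases hdiv : ∃ s : A, ϖ * s = e
      · obtain ⟨s, hs⟩ := hdiv
        refine contentAttained_of_deep A π hπ hArch p hp hpL ϖ t ht hϖ V V' hV'att hpow W₀ hW₀
          hW₀red U (Y₁ - s • Q) hUmem ?_ hWUne
        rw [hWD, hDe, ← hs, smul_sub, smul_smul]
      · obtain ⟨s, hs | hs⟩ := ValuationRing.cond ϖ e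
        · exact absurd ⟨s, hs⟩ hdiv
        have hπs0 : π s = 0 := by
          by_contra h
          obtain ⟨w, hw⟩ := hπ s h
          apply hdiv
          refine ⟨((w⁻¹ : Aˣ) : A), ?_⟩
          rw [← hs, ← hw, mul_assoc, Units.mul_inv, mul_one]
        refine ⟨cD, hcD, s • Y₁ - Q, ?_, ?_⟩
        · have h1 : W₀ - U = e • (s • Y₁ - Q) := by
            rw [hWD, hDe, ← hs, smul_sub, smul_smul]
          rw [h1, famMap_subtype_smul, smul_smul, heL, mul_inv_cancel₀ hcD, one_smul]
        · rw [famMap_sub, famMap_smul, hπs0, zero_smul, zero_sub, neg_ne_zero]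
          exact hQr
    · refine ⟨1, one_ne_zero, W₀ - U, ?_, hr⟩
      rw [one_smul, famMap_sub, hUu]
  · -- `u` is not integral
    have hcuA' : cu ∈ A := (A.mem_or_inv_mem cu).resolve_right hcuA
    have hcu0 : π (⟨cu, hcuA'⟩ : A) = 0 := by
      by_contra h
      obtain ⟨v, hv⟩ := hπ _ h
      apply hcuA
      have h1 : ((v⁻¹ : Aˣ) : A) * (⟨cu, hcuA'⟩ : A) = 1 := by
        rw [← hv]
        exact Units.inv_mul v
      have h2 : (((v⁻¹ : Aˣ) : A) : L) * cu = 1 := congrArg Subtype.val h1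
      have h3 : cu⁻¹ = (((v⁻¹ : Aˣ) : A) : L) := (eq_inv_of_mul_eq_one_left h2).symm
      rw [h3]
      exact Subtype.property _
    refine ⟨cu, hcu, (⟨cu, hcuA'⟩ : A) • W₀ - Yu, ?_, ?_⟩
    · rw [famMap_sub, famMap_subtype_smul, hYu, smul_sub]
    · rw [famMap_sub, famMap_smul, hcu0, zero_smul, zero_sub, neg_ne_zero]
      exact hYur

/-- **The pivot step at `m = p` for families, with (ARCH).** -/
theorem mem_of_pow_mem_fam_deep_arch (A : ValuationSubring L) {k : Type*} [Field k]
    (π : A →+* k) (hπ : ∀ x : A, π x ≠ 0 → IsUnit x) (hπs : Function.Surjective π)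
    (hArch : Arch A π)
    (V V' : Submodule L (ι → LaurentSeries L)) [FiniteDimensional L V] (n : ι → ℤ)
    (hn : ∀ i, 0 ≤ n i) (p : ℕ) (hp : p.Prime) (hpL : (p : L) ≠ 0)
    (ϖ t : A) (ht : π t = 0) (hϖ : ϖ ^ (p - 1) = (p : A) * t)
    (hVatt : ∀ u ∈ V, u ≠ 0 → ContentAttainedFam A π u)
    (hV'att : ∀ u ∈ V', u ≠ 0 → ContentAttainedFam A π u)
    (hVord : ∀ u ∈ V, ∀ i, ∀ j < -(n i), (u i).coeff j = 0)
    (hpow : ∀ u ∈ V, u ^ p ∈ V')
    (hred : ∀ Z : ι → LaurentSeries A, famMap A.subtype Z ∈ V' →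
      (∀ i, ∀ j < -(n i), (famMap π Z i).coeff j = 0) →
      ∃ Z' : ι → LaurentSeries A, famMap A.subtype Z' ∈ V ∧ famMap π Z' = famMap π Z)
    (W₀ : ι → LaurentSeries A) (hW₀ : (famMap A.subtype W₀) ^ p ∈ V')
    (hW₀red : famMap π W₀ = 1) (hW₀ord : ∀ i, ∀ j < -(n i), (W₀ i).coeff j = 0)
    (v₁ Y₁ : ι → LaurentSeries A) (hv₁ : famMap A.subtype v₁ ∈ V) (hY₁ : W₀ - v₁ = ϖ • Y₁) :
    famMap A.subtype W₀ ∈ V :=
  mem_of_pow_mem_fam_deep A π hπ hπs V V' n hn p hp hpL ϖ t ht hϖ hVatt hVord hpow hred W₀ hW₀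
    hW₀red hW₀ord v₁ Y₁ hv₁ hY₁
    (contentAttained_sub_fam_deep A π hπ hArch p hp hpL ϖ t ht hϖ V V' hVatt hV'att hpow W₀ hW₀
      hW₀red v₁ Y₁ hv₁ hY₁)

end Fermat.Agent.T7.helper40
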