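import Mathlib
import Fermat.Agent.T7.helper40_PivotDeepFam

/-!
# T7 (S33, box B4), helper73: [CRIT-ZERO] - from the critical depth with vanishing residue to the
deep regime

In the monoid trick of B4 (`Y = σ Z * Z ^ (p - a)`, `v₁ = σ U * U ^ (p - a)`) one gets
`Y - v₁ = l • E₁` with `l = ζ_p - 1` (so `l ^ (p - 1) = p * τ`, `τ` a UNIT) and `red E₁ = 0`
coefficientwise.  The deep pivot `helper40.mem_of_pow_mem_fam_deep_arch` wants
`Y - v₁ = ϖ • Y₁` with `ϖ ^ (p - 1) = p * t` and `red t = 0`, i.e. a UNIFORM divisibility of `E₁` by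
an element of the maximal ideal.  This file provides it, with no field of definition:

* `exists_smul_of_crit_zero` : `E = e • E'` with `π e = 0`  (attained content of `E`, from the
  attained content on `V'` through `W₀ ^ p - U ^ p = (p l) • (Θ * E)`, `red Θ = 1`, and the
  content lemma `P2.helper74.exists_eq_smul_of_mul_eq`);
* `exists_deep_of_crit_zero` : the deep data `ϖ = l e`, `t = τ e ^ (p - 1)`;
* `mem_of_pow_mem_fam_crit_zero` : the pivot step in this form.
-/

set_option autoImplicit false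
set_option linter.unusedSectionVars false
set_option linter.unusedVariables false

namespace Fermat.Agent.T7.helper73

open ModularCurve HahnSeries
open Fermat.Agent.P2.helper22 Fermat.Agent.P2.helper74 Fermat.Agent.T2.helper74
open Fermat.Agent.T7.helper40

variable {L : Type*} [Field L] {ι : Type*}

/-- **[CRIT-ZERO], content form.** If `W₀ - U = l • E` with `l ^ (p - 1) = p * τ` (no condition on
`τ`) and `red E = 0`, then `E` is uniformly divisible by an element of the maximal ideal. -/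
theorem exists_smul_of_crit_zero (A : ValuationSubring L) {k : Type*} [Field k] (π : A →+* k)
    (hπ : ∀ x : A, π x ≠ 0 → IsUnit x) (hArch : Arch A π)
    (p : ℕ) (hp : p.Prime) (hpL : (p : L) ≠ 0)
    (l τ : A) (hl : l ^ (p - 1) = (p : A) * τ)
    (V V' : Submodule L (ι → LaurentSeries L))
    (hV'att : ∀ u ∈ V', u ≠ 0 → ContentAttainedFam A π u)
    (hpow : ∀ u ∈ V, u ^ p ∈ V')
    (W₀ : ι → LaurentSeries A) (hW₀ : (famMap A.subtype W₀) ^ p ∈ V')
    (hW₀red : famMap π W₀ = 1)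
    (U E : ι → LaurentSeries A) (hU : famMap A.subtype U ∈ V) (hE : W₀ - U = l • E)
    (hEred : famMap π E = 0) (hne : W₀ - U ≠ 0) :
    ∃ (e : A) (E' : ι → LaurentSeries A), π e = 0 ∧ E = e • E' := by
  classical
  have hp1 : p - 1 ≠ 0 := by
    have := hp.two_le
    omega
  have hl0 : l ≠ 0 := by
    rintro rfl
    apply hne
    rw [hE]
    funext i
    refine HahnSeries.ext (funext fun j => ?_)
    show ((0 : A) • E i).coeff j = 0
    rw [HahnSeries.coeff_smul, smul_eq_mul, zero_mul]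
  have hlL : (l : L) ≠ 0 := fun h => hl0 (Subtype.ext h)
  have hpA : (p : A) ≠ 0 := by
    intro h
    apply hpL
    have := congrArg (fun z : A => (z : L)) h
    simpa using this
  obtain ⟨i₀, hi₀⟩ : ∃ i, E i ≠ 0 := by
    by_contra h
    push Not at h
    apply hne
    rw [hE]
    funext i
    show l • E i = 0
    rw [h i, smul_zero]
  have hUred : famMap π U = 1 := by
    have h1 := congrArg (famMap π) hE
    rw [famMap_sub, famMap_smul, hEred, smul_zero, hW₀red, sub_eq_zero] at h1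
    exact h1.symm
  -- the binomial sum
  set S : ι → LaurentSeries A := ∑ k ∈ Finset.Ioo 0 p,
    (l • E) ^ (k - 1) * U ^ (p - k - 1) * ((p.choose k / p : ℕ) : ι → LaurentSeries A)
    with hS
  have hδred : famHom π (l • E) = 0 := by
    rw [famHom_apply, famMap_smul, hEred, smul_zero]
  have hSred : famMap π S = 1 := pd_red_binomSum (famHom π) hp _ _ hδred hUred
  set Θ₁ : ι → LaurentSeries A := τ • ((1 : A) ^ (p - 1) • E ^ (p - 1)) + U * S with hΘ₁
  have hΘ₁red : famMap π Θ₁ = 1 := by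
    rw [hΘ₁, famMap_add, famMap_smul, famMap_smul, famMap_pow, hEred, zero_pow hp1, smul_zero,
      smul_zero, zero_add, famMap_mul, hUred, hSred, one_mul]
  have hΘ₁i : ∀ i, coeffMap π (Θ₁ i) ≠ 0 := by
    intro i
    have h1 : coeffMap π (Θ₁ i) = 1 := congrFun hΘ₁red i
    rw [h1]
    exact one_ne_zero
  have hW₀eq : W₀ = l • E + U := by
    rw [← hE]
    abel
  have hmain : W₀ ^ p - U ^ p = ((p : A) * l) • (Θ₁ * E) := by
    conv_lhs => rw [hW₀eq]
    exact pd_main_fam hp l 1 l τ (mul_one l) hl E U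
  have hd : famMap A.subtype (W₀ ^ p - U ^ p) ∈ V' := by
    rw [famMap_sub, famMap_pow, famMap_pow]
    exact V'.sub_mem hW₀ (hpow _ hU)
  have hΘδne : Θ₁ i₀ * E i₀ ≠ 0 := by
    apply mul_ne_zero _ hi₀
    intro h
    apply hΘ₁i i₀
    rw [h, map_zero]
  have hdne : famMap A.subtype (W₀ ^ p - U ^ p) ≠ 0 := by
    intro h0
    have h1 : W₀ ^ p - U ^ p = 0 := famMap_subtype_injective A (h0.trans (famMap_zero _).symm)
    rw [hmain] at h1
    have h2 := congrFun h1 i₀
    have h3 : ((p : A) * l) • (Θ₁ i₀ * E i₀) = 0 := h2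
    have h4 : HahnSeries.C ((p : A) * l) * (Θ₁ i₀ * E i₀) = 0 := by
      rw [HahnSeries.C_mul_eq_smul]
      exact h3
    rcases mul_eq_zero.mp h4 with h5 | h5
    · have h6 : (p : A) * l = 0 := by
        have := congrArg (fun z : LaurentSeries A => z.coeff 0) h5
        simpa using this
      exact mul_ne_zero hpA hl0 h6
    · exact hΘδne h5
  obtain ⟨c', hc', P, hP, hPr⟩ := hV'att _ hd hdne
  set e' : L := c' * ((p : L) * (l : L)) with he'
  have he'0 : e' ≠ 0 := mul_ne_zero hc' (mul_ne_zero hpL hlL)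
  have hPe' : famMap A.subtype P = e' • famMap A.subtype (Θ₁ * E) := by
    rw [hP, hmain, famMap_subtype_smul, smul_smul, he']
    congr 2
  have he'A : e'⁻¹ ∈ A := by
    by_contra h
    have he'A' : e' ∈ A := (A.mem_or_inv_mem e').resolve_right h
    have hπe' : π (⟨e', he'A'⟩ : A) = 0 := by
      by_contra hh
      obtain ⟨w, hw⟩ := hπ _ hh
      apply h
      have h1 : ((w⁻¹ : Aˣ) : A) * (⟨e', he'A'⟩ : A) = 1 := by
        rw [← hw]
        exact Units.inv_mul w
      have h2 : (((w⁻¹ : Aˣ) : A) : L) * e' = 1 := congrArg Subtype.val h1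
      have h3 : e'⁻¹ = (((w⁻¹ : Aˣ) : A) : L) := (eq_inv_of_mul_eq_one_left h2).symm
      rw [h3]
      exact Subtype.property _
    apply hPr
    have hPeq : P = (⟨e', he'A'⟩ : A) • (Θ₁ * E) := by
      apply famMap_subtype_injective A
      rw [hPe', famMap_subtype_smul]
    rw [hPeq, famMap_smul, hπe', zero_smul]
  set e : A := ⟨e'⁻¹, he'A⟩ with he_def
  have he : e ≠ 0 := by
    intro h
    have h1 : (e : L) = 0 := by rw [h]; rfl
    exact inv_ne_zero he'0 h1
  have hPe : E * Θ₁ = e • P := by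
    apply famMap_subtype_injective A
    rw [famMap_subtype_smul, hPe', smul_smul, mul_comm E Θ₁]
    show _ = (e'⁻¹ * e') • _
    rw [inv_mul_cancel₀ he'0, one_smul]
  have hex : ∀ i, ∃ δ : LaurentSeries A, E i = e • δ := fun i =>
    exists_eq_smul_of_mul_eq hπ hArch (E i) (Θ₁ i) (P i) e he (hΘ₁i i) (congrFun hPe i)
  choose δ' hδ' using hex
  have hδ'eq : E = e • δ' := funext hδ'
  have hδP : δ' * Θ₁ = P := by
    funext i
    have h1 : HahnSeries.C e * (δ' i * Θ₁ i) = HahnSeries.C e * P i := by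
      rw [← mul_assoc, HahnSeries.C_mul_eq_smul, ← hδ' i, HahnSeries.C_mul_eq_smul]
      exact congrFun hPe i
    refine HahnSeries.ext (funext fun j => ?_)
    have h2 := congrArg (fun z : LaurentSeries A => z.coeff j) h1
    simp only [HahnSeries.C_mul_eq_smul, HahnSeries.coeff_smul, smul_eq_mul] at h2
    exact mul_left_cancel₀ he h2
  have hδ'red : famMap π δ' ≠ 0 := by
    intro h0
    apply hPr
    rw [← hδP, famMap_mul, h0, zero_mul]
  refine ⟨e, δ', ?_, hδ'eq⟩
  by_contra hπe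
  apply hδ'red
  have h1 : famMap π E = π e • famMap π δ' := by
    rw [hδ'eq, famMap_smul]
  rw [hEred] at h1
  funext i
  refine HahnSeries.ext (funext fun j => ?_)
  have h2 := congrArg (fun z : ι → LaurentSeries k => (z i).coeff j) h1
  simp only [Pi.zero_apply, HahnSeries.coeff_zero, Pi.smul_apply, HahnSeries.coeff_smul,
    smul_eq_mul] at h2
  rcases mul_eq_zero.mp h2.symm with h3 | h3
  · exact absurd h3 hπe
  · simpa using h3

/-- **[CRIT-ZERO], deep form**: the data `ϖ`, `t`, `Y₁` wanted by the deep pivot. -/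
theorem exists_deep_of_crit_zero (A : ValuationSubring L) {k : Type*} [Field k] (π : A →+* k)
    (hπ : ∀ x : A, π x ≠ 0 → IsUnit x) (hArch : Arch A π)
    (p : ℕ) (hp : p.Prime) (hpL : (p : L) ≠ 0)
    (l τ : A) (hl : l ^ (p - 1) = (p : A) * τ)
    (V V' : Submodule L (ι → LaurentSeries L))
    (hV'att : ∀ u ∈ V', u ≠ 0 → ContentAttainedFam A π u)
    (hpow : ∀ u ∈ V, u ^ p ∈ V')
    (W₀ : ι → LaurentSeries A) (hW₀ : (famMap A.subtype W₀) ^ p ∈ V')
    (hW₀red : famMap π W₀ = 1)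
    (U E : ι → LaurentSeries A) (hU : famMap A.subtype U ∈ V) (hE : W₀ - U = l • E)
    (hEred : famMap π E = 0) :
    ∃ (ϖ t : A) (Y₁ : ι → LaurentSeries A), π t = 0 ∧ ϖ ^ (p - 1) = (p : A) * t ∧
      W₀ - U = ϖ • Y₁ := by
  have hp1 : p - 1 ≠ 0 := by
    have := hp.two_le
    omega
  by_cases hne : W₀ - U = 0
  · refine ⟨0, 0, 0, map_zero π, ?_, ?_⟩
    · rw [zero_pow hp1, mul_zero]
    · rw [hne, smul_zero]
  obtain ⟨e, E', hπe, hEE'⟩ := exists_smul_of_crit_zero A π hπ hArch p hp hpL l τ hl V V' hV'att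
    hpow W₀ hW₀ hW₀red U E hU hE hEred hne
  refine ⟨l * e, τ * e ^ (p - 1), E', ?_, ?_, ?_⟩
  · rw [map_mul, map_pow, hπe, zero_pow hp1, mul_zero]
  · rw [mul_pow, hl]
    ring
  · rw [hE, hEE', smul_smul]

/-- **The pivot step at the critical depth with vanishing residue**: if `W₀ ^ p ∈ V'`,
`red W₀ = 1`, `W₀ - v₁ = l • E` with `v₁ ∈ V` integral, `l ^ (p - 1) = p * τ` and `red E = 0`,
then `W₀ ∈ V`. -/
theorem mem_of_pow_mem_fam_crit_zero (A : ValuationSubring L) {k : Type*} [Field k]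
    (π : A →+* k) (hπ : ∀ x : A, π x ≠ 0 → IsUnit x) (hπs : Function.Surjective π)
    (hArch : Arch A π)
    (V V' : Submodule L (ι → LaurentSeries L)) [FiniteDimensional L V] (n : ι → ℤ)
    (hn : ∀ i, 0 ≤ n i) (p : ℕ) (hp : p.Prime) (hpL : (p : L) ≠ 0)
    (l τ : A) (hl : l ^ (p - 1) = (p : A) * τ)
    (hVatt : ∀ u ∈ V, u ≠ 0 → ContentAttainedFam A π u)
    (hV'att : ∀ u ∈ V', u ≠ 0 → ContentAttainedFam A π u)
    (hVord : ∀ u ∈ V, ∀ i, ∀ j < -(n i), (u i).coeff j = 0)
    (hpow : ∀ u ∈ V, u ^ p ∈ V')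
    (hred : ∀ Z : ι → LaurentSeries A, famMap A.subtype Z ∈ V' →
      (∀ i, ∀ j < -(n i), (famMap π Z i).coeff j = 0) →
      ∃ Z' : ι → LaurentSeries A, famMap A.subtype Z' ∈ V ∧ famMap π Z' = famMap π Z)
    (W₀ : ι → LaurentSeries A) (hW₀ : (famMap A.subtype W₀) ^ p ∈ V')
    (hW₀red : famMap π W₀ = 1) (hW₀ord : ∀ i, ∀ j < -(n i), (W₀ i).coeff j = 0)
    (v₁ E : ι → LaurentSeries A) (hv₁ : famMap A.subtype v₁ ∈ V) (hE : W₀ - v₁ = l • E)
    (hEred : famMap π E = 0) :
    famMap A.subtype W₀ ∈ V := by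
  obtain ⟨ϖ, t, Y₁, ht, hϖ, hY₁⟩ := exists_deep_of_crit_zero A π hπ hArch p hp hpL l τ hl V V'
    hV'att hpow W₀ hW₀ hW₀red v₁ E hv₁ hE hEred
  exact mem_of_pow_mem_fam_deep_arch A π hπ hπs hArch V V' n hn p hp hpL ϖ t ht hϖ hVatt hV'att
    hVord hpow hred W₀ hW₀ hW₀red hW₀ord v₁ Y₁ hv₁ hY₁

end Fermat.Agent.T7.helper73
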