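/-
T7 (S33), leaf [WR-ABS] (helper82): **the Frobenius regime of the `p`-pivot**, abstract family
form (next to `T2.helper74.mem_of_pow_mem_fam`).

Setting: `A` a valuation subring of `L`, `π : A → k` the reduction, `V`, `V'` spaces of families
of Laurent series (`V` = pairs of expansions of `L(N(∞ + ∞₂))`, `V'` the same with `p N`),
`p` a prime (possibly `0` in `k`), `l τ : A` with `p = l ^ (p - 1) * τ` (`l = ζ_p - 1`).

`exists_close_of_pow_mem_fam` : if `W₀` is an integral family with reduction `1`, pole orders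
`≤ n` and `W₀ ^ p ∈ V'`, and the reductions are `p`-root closed (hypothesis `hFC`: an integral
family `Z` with pole orders `≤ n` whose reduction has `p`-th power in the reduction of `V'_A`
has its reduction in the reduction of `V_A`), then `W₀` is `l`-close to `V_A`:
`W₀ - U = l • Y` with `U` an integral element of `V` of reduction `1` and `Y` integral.

No Artin-Schreier invariant, no counting: below the critical depth `v(l)` there is no
obstruction.  Proof = the dimension count of `mem_of_pow_mem_fam` with the key claim proved by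
`(U' + a Z) ^ p - U' ^ p = a ^ p (Z ^ p + t E)`, `t` in the maximal ideal
(`helper84.ppow_frobenius`).
-/
import Mathlib
import Fermat.Agent.T2.helper74_PivotFam
import Fermat.Agent.T7.helper84_PPow

set_option autoImplicit false
set_option linter.unusedSectionVars false
set_option linter.unusedVariables false

noncomputable section

namespace Fermat.Agent.T7.helper82

open ModularCurve HahnSeries
open Fermat.Agent.P2.helper22 Fermat.Agent.P2.helper74 Fermat.Agent.T2.helper74

variable {L : Type*} [Field L] {ι : Type*}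

/-- the constant family `a` -/
def cst (A : ValuationSubring L) (a : A) : ι → LaurentSeries A := fun _ => HahnSeries.C a

theorem cst_mul (A : ValuationSubring L) (a : A) (X : ι → LaurentSeries A) :
    cst A a * X = a • X := by
  funext i
  show HahnSeries.C a * X i = a • X i
  exact HahnSeries.C_mul_eq_smul

theorem cst_mul_cst (A : ValuationSubring L) (a b : A) :
    (cst A a : ι → LaurentSeries A) * cst A b = cst A (a * b) := by
  funext i
  show (HahnSeries.C a : LaurentSeries A) * HahnSeries.C b = HahnSeries.C (a * b)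
  rw [map_mul]

theorem cst_one (A : ValuationSubring L) : (cst A 1 : ι → LaurentSeries A) = 1 := by
  funext i
  show (HahnSeries.C (1 : A) : LaurentSeries A) = 1
  rw [map_one]

theorem cst_pow (A : ValuationSubring L) (a : A) (m : ℕ) :
    (cst A a : ι → LaurentSeries A) ^ m = cst A (a ^ m) := by
  induction m with
  | zero => rw [pow_zero, pow_zero, cst_one]
  | succ m ih => rw [pow_succ, ih, cst_mul_cst, pow_succ]

theorem cst_natCast (A : ValuationSubring L) (m : ℕ) :
    (cst A (m : A) : ι → LaurentSeries A) = (m : ι → LaurentSeries A) := by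
  funext i
  show (HahnSeries.C ((m : ℕ) : A) : LaurentSeries A) = ((m : ℕ) : LaurentSeries A)
  rw [map_natCast]

theorem famMap_cst_of_eq_zero (A : ValuationSubring L) {k : Type*} [Field k] (π : A →+* k)
    (a : A) (ha : π a = 0) : famMap π (cst A a : ι → LaurentSeries A) = 0 := by
  funext i
  ext j
  show (coeffMap π (HahnSeries.C a : LaurentSeries A)).coeff j = 0
  rw [coeffMap_coeff, HahnSeries.C_apply, HahnSeries.coeff_single]
  split_ifs
  · exact ha
  · exact map_zero π

/-- **The Frobenius regime of the `p`-pivot, family form.** -/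
theorem exists_close_of_pow_mem_fam (A : ValuationSubring L) {k : Type*} [Field k]
    (π : A →+* k) (hπ : ∀ x : A, π x ≠ 0 → IsUnit x) (hπs : Function.Surjective π)
    (V V' : Submodule L (ι → LaurentSeries L)) [FiniteDimensional L V] (n : ι → ℤ)
    (p : ℕ) (hp : p.Prime) (l τ : A) (hl : (p : A) = l ^ (p - 1) * τ)
    (hVatt : ∀ u ∈ V, u ≠ 0 → ContentAttainedFam A π u)
    (hVord : ∀ u ∈ V, ∀ i, ∀ j < -(n i), (u i).coeff j = 0)
    (hpow : ∀ u ∈ V, u ^ p ∈ V')
    (hone : (1 : ι → LaurentSeries L) ∈ V)
    (hFC : ∀ Φ Z : ι → LaurentSeries A, famMap A.subtype Φ ∈ V' →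
      (∀ i, ∀ j < -(n i), (Z i).coeff j = 0) → famMap π Φ = famMap π Z ^ p →
      ∃ Z' : ι → LaurentSeries A, famMap A.subtype Z' ∈ V ∧ famMap π Z' = famMap π Z)
    (W₀ : ι → LaurentSeries A) (hW₀ : (famMap A.subtype W₀) ^ p ∈ V')
    (hW₀red : famMap π W₀ = 1) (hW₀ord : ∀ i, ∀ j < -(n i), (W₀ i).coeff j = 0)
    (hatt : ∀ u ∈ V, famMap A.subtype W₀ - u ≠ 0 →
      ContentAttainedFam A π (famMap A.subtype W₀ - u)) :
    ∃ U Y : ι → LaurentSeries A, famMap A.subtype U ∈ V ∧ famMap π U = 1 ∧ W₀ - U = l • Y := by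
  classical
  by_contra hcon
  set w₀ : ι → LaurentSeries L := famMap A.subtype W₀ with hw₀
  -- `W₀ ∉ V`
  have hW : w₀ ∉ V := by
    intro h
    exact hcon ⟨W₀, 0, h, hW₀red, by rw [sub_self, smul_zero]⟩
  -- the enlarged space
  set Vp : Submodule L (ι → LaurentSeries L) := V ⊔ Submodule.span L {w₀} with hVp
  have hVpfd : FiniteDimensional L Vp := by
    rw [hVp]
    infer_instance
  have hmemVp : ∀ x ∈ Vp, ∃ v ∈ V, ∃ c : L, x = v + c • w₀ := by
    intro x hx
    rw [hVp, Submodule.mem_sup] at hx
    obtain ⟨v, hv, y, hy, rfl⟩ := hx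
    rw [Submodule.mem_span_singleton] at hy
    obtain ⟨c, rfl⟩ := hy
    exact ⟨v, hv, c, rfl⟩
  have hVpatt : ∀ u ∈ Vp, u ≠ 0 → ∃ c : L, c ≠ 0 ∧ ∃ Y : ι → LaurentSeries A,
      famMap A.subtype Y = c • u ∧ famMap π Y ≠ 0 := by
    intro u hu hu0
    obtain ⟨v, hv, c, rfl⟩ := hmemVp u hu
    rcases eq_or_ne c 0 with rfl | hc
    · rw [zero_smul, add_zero] at hu0 ⊢
      exact hVatt v hv hu0
    · have h1 : v + c • w₀ = c • (w₀ - (-(c⁻¹ • v))) := by
        rw [sub_neg_eq_add, smul_add, smul_smul, mul_inv_cancel₀ hc, one_smul, add_comm]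
      rw [h1] at hu0 ⊢
      have h2 : w₀ - (-(c⁻¹ • v)) ≠ 0 := by
        intro h
        rw [h, smul_zero] at hu0
        exact hu0 rfl
      exact (hatt _ (V.neg_mem (V.smul_mem _ hv)) h2).smul hc
  obtain ⟨Y, hYV, -, hYgen, -⟩ := exists_integral_basis_fam A π hπ V hVatt
  obtain ⟨Yp, hYpV, -, -, hYpred⟩ := exists_integral_basis_fam A π hπ Vp hVpatt
  have hli := linearIndependent_famMap_of_forall A π hπs Yp hYpred
  -- dimension of the enlarged space
  have hw₀0 : w₀ ≠ 0 := fun h => hW (h ▸ V.zero_mem)
  have hdim : Module.finrank L Vp = Module.finrank L V + 1 := by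
    have h1 := Submodule.finrank_sup_add_finrank_inf_eq V (Submodule.span L {w₀})
    have h2 : V ⊓ Submodule.span L {w₀} = ⊥ := by
      rw [eq_bot_iff]
      rintro x ⟨hxV, hxs⟩
      rw [SetLike.mem_coe, Submodule.mem_span_singleton] at hxs
      obtain ⟨c, rfl⟩ := hxs
      rw [Submodule.mem_bot]
      rcases eq_or_ne c 0 with rfl | hc
      · exact zero_smul _ _
      · exfalso
        apply hW
        have := V.smul_mem c⁻¹ hxV
        rwa [smul_smul, inv_mul_cancel₀ hc, one_smul] at this
    rw [h2, finrank_bot, add_zero, finrank_span_singleton hw₀0] at h1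
    exact h1
  -- the reduction of `V_A`
  set R : Submodule k (ι → LaurentSeries k) :=
    Submodule.span k (Set.range fun i => famMap π (Y i)) with hR
  have hRfd : FiniteDimensional k R := FiniteDimensional.span_of_finite k (Set.finite_range _)
  have hRV : ∀ Z : ι → LaurentSeries A, famMap A.subtype Z ∈ V → famMap π Z ∈ R := by
    intro Z hZ
    obtain ⟨a, rfl⟩ := hYgen Z hZ
    rw [famMap_sum]
    refine Submodule.sum_mem _ fun i _ => ?_
    exact Submodule.smul_mem _ _ (Submodule.subset_span ⟨i, rfl⟩)
  -- `1` lies in the reduction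
  have hone' : (1 : ι → LaurentSeries k) ∈ R := by
    have h := hRV (1 : ι → LaurentSeries A) (by rw [famMap_one]; exact hone)
    rwa [famMap_one] at h
  -- the key claim
  have hclaim : ∀ Z : ι → LaurentSeries A, famMap A.subtype Z ∈ Vp → famMap π Z ∈ R := by
    intro Z hZ
    obtain ⟨v, hv, c, hx⟩ := hmemVp _ hZ
    by_cases hcA' : c ∈ A
    · have h1 : famMap A.subtype (Z - (⟨c, hcA'⟩ : A) • W₀) = v := by
        rw [famMap_sub, famMap_subtype_smul, hx]
        show v + c • w₀ - c • w₀ = v
        abel
      have h2 := hRV (Z - (⟨c, hcA'⟩ : A) • W₀) (by rw [h1]; exact hv)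
      rw [famMap_sub, famMap_smul, hW₀red] at h2
      have h3 := R.add_mem h2 (R.smul_mem (π ⟨c, hcA'⟩) hone')
      rwa [sub_add_cancel] at h3
    have hcA : c⁻¹ ∈ A := (A.mem_or_inv_mem c).resolve_left hcA'
    have hc0 : c ≠ 0 := by
      rintro rfl
      exact hcA' A.zero_mem
    set a' : A := ⟨c⁻¹, hcA⟩ with ha'
    have hπa' : π a' = 0 := by
      by_contra h
      obtain ⟨w, hw⟩ := hπ a' h
      apply hcA'
      have h1 : ((w⁻¹ : Aˣ) : A) * a' = 1 := by rw [← hw]; exact Units.inv_mul w
      have h2 : (((w⁻¹ : Aˣ) : A) : L) * c⁻¹ = 1 := by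
        have := congrArg (fun z : A => (z : L)) h1
        simpa using this
      have h3 : c = (((w⁻¹ : Aˣ) : A) : L) := by
        field_simp at h2
        exact h2.symm
      rw [h3]
      exact ((w⁻¹ : Aˣ) : A).2
    -- the integral element `U' = W₀ - a' Z` of `V`
    set U' : ι → LaurentSeries A := W₀ - a' • Z with hU'
    have hU'V : famMap A.subtype U' = -(c⁻¹ • v) := by
      rw [hU', famMap_sub, famMap_subtype_smul, hx]
      show w₀ - c⁻¹ • (v + c • w₀) = -(c⁻¹ • v)
      rw [smul_add, smul_smul, inv_mul_cancel₀ hc0, one_smul]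
      abel
    have hU'mem : famMap A.subtype U' ∈ V := by
      rw [hU'V]
      exact V.neg_mem (V.smul_mem _ hv)
    have hU'red : famMap π U' = 1 := by
      rw [hU', famMap_sub, famMap_smul, hπa', zero_smul, sub_zero, hW₀red]
    -- `a'` is shallower than `l`: `l = a' * s`, `s` in the maximal ideal
    have hndvd : ¬ l ∣ a' := by
      rintro ⟨b, hb⟩
      apply hcon
      refine ⟨U', b • Z, hU'mem, hU'red, ?_⟩
      rw [hU', sub_sub_cancel, smul_smul, ← hb]
    obtain ⟨s, hs⟩ : a' ∣ l := (ValuationRing.dvd_total a' l).resolve_right hndvd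
    have hπs0 : π s = 0 := by
      by_contra h
      obtain ⟨w, hw⟩ := hπ s h
      apply hndvd
      refine ⟨((w⁻¹ : Aˣ) : A), ?_⟩
      rw [hs, ← hw, mul_assoc, Units.mul_inv, mul_one]
    -- `p = a' ^ (p - 1) * t`, `t` in the maximal ideal
    set t : A := s ^ (p - 1) * τ with ht
    have hpa : (p : A) = a' ^ (p - 1) * t := by
      rw [hl, hs, mul_pow, ht, mul_assoc]
    have hπt : π t = 0 := by
      have hp1 : p - 1 ≠ 0 := by
        have := hp.two_le
        omega
      rw [ht, map_mul, map_pow, hπs0, zero_pow hp1, zero_mul]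
    -- the binomial identity in the ring of integral families
    have hpa' : ((p : ℕ) : ι → LaurentSeries A) = cst A a' ^ (p - 1) * cst A t := by
      rw [cst_pow, cst_mul_cst, ← hpa, cst_natCast]
    obtain ⟨E, hE⟩ := Fermat.Agent.T7.helper84.ppow_frobenius hp hpa' U' Z
    have hW₀U : U' + cst A a' * Z = W₀ := by
      rw [cst_mul, hU', sub_add_cancel]
    rw [hW₀U] at hE
    -- `Φ = Z ^ p + t E` is an integral element of `V'` with reduction `(red Z) ^ p`
    set Φ : ι → LaurentSeries A := Z ^ p + cst A t * E with hΦ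
    have hΦmul : a' ^ p • Φ = W₀ ^ p - U' ^ p := by
      rw [hE, cst_pow, cst_mul]
    have hΦV : famMap A.subtype Φ ∈ V' := by
      have h1 : famMap A.subtype Φ = c ^ p • (w₀ ^ p - (famMap A.subtype U') ^ p) := by
        have h2 := congrArg (famMap A.subtype) hΦmul
        rw [famMap_subtype_smul, famMap_sub, famMap_pow, famMap_pow] at h2
        rw [← hw₀] at h2
        rw [← h2, smul_smul]
        have h3 : c ^ p * ((a' ^ p : A) : L) = 1 := by
          have : ((a' ^ p : A) : L) = (c⁻¹) ^ p := by
            rw [ha']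
            rfl
          rw [this, ← mul_pow, mul_inv_cancel₀ hc0, one_pow]
        rw [h3, one_smul]
      rw [h1]
      exact V'.smul_mem _ (V'.sub_mem hW₀ (hpow _ hU'mem))
    have hΦred : famMap π Φ = famMap π Z ^ p := by
      rw [hΦ, famMap_add, famMap_pow, famMap_mul, famMap_cst_of_eq_zero A π t hπt, zero_mul,
        add_zero]
    have hZord : ∀ i, ∀ j < -(n i), (Z i).coeff j = 0 := by
      intro i j hj
      have h1 : (famMap A.subtype Z i).coeff j = 0 := by
        rw [hx]
        show (v i + c • w₀ i).coeff j = 0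
        rw [HahnSeries.coeff_add, HahnSeries.coeff_smul, hVord v hv i j hj, hw₀,
          famMap_apply, coeffMap_coeff, hW₀ord i j hj]
        simp
      rw [famMap_apply, coeffMap_coeff] at h1
      exact Subtype.ext h1
    obtain ⟨Z', hZ'V, hZ'⟩ := hFC Φ Z hΦV hZord hΦred
    have h5 := hRV Z' hZ'V
    rwa [hZ'] at h5
  -- count
  have h1 : Module.finrank k (Submodule.span k (Set.range fun i => famMap π (Yp i)))
      = Module.finrank L Vp := by
    rw [finrank_span_eq_card hli, Fintype.card_fin]
  have h2 : Submodule.span k (Set.range fun i => famMap π (Yp i)) ≤ R := by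
    rw [Submodule.span_le]
    rintro _ ⟨i, rfl⟩
    exact hclaim (Yp i) (hYpV i)
  have h3 : Module.finrank k R ≤ Module.finrank L V := by
    have := finrank_span_le_card (R := k) (Set.range fun i => famMap π (Y i))
    rw [hR]
    refine this.trans ?_
    rw [Set.toFinset_range]
    exact (Finset.card_image_le).trans (by rw [Finset.card_univ, Fintype.card_fin])
  have h4 := Submodule.finrank_mono h2
  omega

end Fermat.Agent.T7.helper82

end
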