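/-
T7 (S33), leaf [B4-INST] (helper88, second prover): **the instance hypotheses of the `p`-pivot
lemmas for the pair of cusps `∞`, `∞₂ = W ∞`**, exponent `p` = the residue characteristic.

Setting (T2): a level `M`, an involution `W` of `F_M`, `A` a valuation subring of `ℚ̄` over `p`;
`pairLin W f = (f, W f)`, `VN W N` = the pairs of expansions of the functions of
`L(N (∞ + ∞₂))` (`T2.helper74_Pivot2`).  We take `V = VN W N`, `V' = VN W (p * N)`.

* `PivotInst W A p N` : the bundle of the hypotheses `hVatt`, `hV'att`, `hVord`, `hpow`, `hone`,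
  `hred`, `hFC` of
    (L1)  `helper82.exists_close_of_pow_mem_fam`,
    (L2)  `helper40.mem_of_pow_mem_fam_deep_arch`,
    (L2') `helper73.mem_of_pow_mem_fam_crit_zero`
  at `V = VN W N`, `V' = VN W (p * N)`, `n = fun _ => N`.
* `pivotInst_of` : `∃ N₀, ∀ N ≥ N₀, PivotInst W A p N`, from the T2 inputs (pair normalisation,
  `Integrality2`, `RegRed2`, `SN2`, `Sat2`).  NO coprimality is used anywhere: the T2 instance
  lemmas are independent of the exponent.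
* `exists_close_pair`  : (L1) at the pair (output: a function `U` of `L(N (∞ + ∞₂))`).
* `pivot_pair_deep`    : (L2) at the pair.
* `pivot_pair_crit`    : (L2') at the pair.
* `VN_mono`, `pairLin_mem_VN`, `pairLin_mul_mem_VN` : monotonicity and products (for the
  assembly).
-/
import Mathlib
import Fermat.Agent.T2.helper74_Pivot2
import Fermat.Agent.T7.helper82_FrobRegime
import Fermat.Agent.T7.helper73_CritZero
import Fermat.Agent.T7.helper15_FCInst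

set_option autoImplicit false
set_option synthInstance.maxHeartbeats 400000
set_option linter.unusedSectionVars false
set_option linter.unusedVariables false
set_option linter.style.haveILetI false

noncomputable section

open HahnSeries IntermediateField AlgebraicCurve ModularCurve
open Fermat.Agent.S18.helper19 Fermat.Agent.P2.helper29
open Fermat.Agent.P2.helper22 Fermat.Agent.P2.helper74
open Fermat.Agent.T2.helper74

namespace Fermat.Agent.T7.helper88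

variable {M : ℕ} [NeZero M] (W : FF M ≃ₐ[Kb] FF M) (A : ValuationSubring Kb)

/-- **[B4-INST]** the bundle of the instance hypotheses of the `p`-pivot lemmas at
`V = VN W N`, `V' = VN W (p * N)`, `n = fun _ => N`. -/
structure PivotInst (p : ℕ) (N : ℤ) : Prop where
  nonneg : 0 ≤ N
  att : ∀ u ∈ VN W N, u ≠ 0 → ContentAttainedFam A (IsLocalRing.residue A) u
  att' : ∀ u ∈ VN W ((p : ℤ) * N), u ≠ 0 → ContentAttainedFam A (IsLocalRing.residue A) u
  ord : ∀ u ∈ VN W N, ∀ i : Fin 2, ∀ j < -N, (u i).coeff j = 0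
  pow : ∀ u ∈ VN W N, u ^ p ∈ VN W ((p : ℤ) * N)
  one : (1 : Fin 2 → LaurentSeries Kb) ∈ VN W N
  red : ∀ Z : Fin 2 → LaurentSeries A, famMap A.subtype Z ∈ VN W ((p : ℤ) * N) →
    (∀ i : Fin 2, ∀ j < -N, (famMap (IsLocalRing.residue A) Z i).coeff j = 0) →
    ∃ Z' : Fin 2 → LaurentSeries A, famMap A.subtype Z' ∈ VN W N ∧
      famMap (IsLocalRing.residue A) Z' = famMap (IsLocalRing.residue A) Z
  fc : ∀ Φ Z : Fin 2 → LaurentSeries A, famMap A.subtype Φ ∈ VN W ((p : ℤ) * N) →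
    (∀ i : Fin 2, ∀ j < -N, (Z i).coeff j = 0) →
    famMap (IsLocalRing.residue A) Φ = famMap (IsLocalRing.residue A) Z ^ p →
    ∃ Z' : Fin 2 → LaurentSeries A, famMap A.subtype Z' ∈ VN W N ∧
      famMap (IsLocalRing.residue A) Z' = famMap (IsLocalRing.residue A) Z

variable {W A}

/-! ### The space `VN W N` -/

/-- the pair of expansions of an element of `L(N (∞ + ∞₂))` -/
theorem pairLin_mem_VN {N : ℤ} {f : FF M} (hf : f ∈ riemannRochSpace (div2 W N)) :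
    pairLin W f ∈ VN W N :=
  Submodule.mem_map_of_mem hf

theorem one_mem_L2 (hWW : ∀ f, W (W f) = f) (hne : inftyBar M ≠ W • inftyBar M) {N : ℤ}
    (hN : 0 ≤ N) : (1 : FF M) ∈ riemannRochSpace (div2 W N) := by
  rw [mem_L2_iff W hWW hne]
  refine ⟨RegOff2.one W, fun k hk => ?_, fun k hk => ?_⟩
  · have hk' : k ≠ 0 := by omega
    show (1 : LaurentSeries Kb).coeff k = 0
    rw [HahnSeries.coeff_one, if_neg hk']
  · rw [map_one]
    have hk' : k ≠ 0 := by omega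
    show (1 : LaurentSeries Kb).coeff k = 0
    rw [HahnSeries.coeff_one, if_neg hk']

theorem pairLin_one : pairLin W (1 : FF M) = 1 := by
  rw [pairLin_eq_iff]
  refine ⟨rfl, ?_⟩
  rw [map_one]
  rfl

theorem one_mem_VN (hWW : ∀ f, W (W f) = f) (hne : inftyBar M ≠ W • inftyBar M) {N : ℤ}
    (hN : 0 ≤ N) : (1 : Fin 2 → LaurentSeries Kb) ∈ VN W N := by
  rw [← pairLin_one (W := W)]
  exact pairLin_mem_VN (one_mem_L2 hWW hne hN)

theorem L2_mono (hWW : ∀ f, W (W f) = f) (hne : inftyBar M ≠ W • inftyBar M) {N N' : ℤ}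
    (h : N ≤ N') {f : FF M} (hf : f ∈ riemannRochSpace (div2 W N)) :
    f ∈ riemannRochSpace (div2 W N') := by
  rw [mem_L2_iff W hWW hne] at hf ⊢
  exact ⟨hf.1, fun k hk => hf.2.1 k (by omega), fun k hk => hf.2.2 k (by omega)⟩

theorem VN_mono (hWW : ∀ f, W (W f) = f) (hne : inftyBar M ≠ W • inftyBar M) {N N' : ℤ}
    (h : N ≤ N') : VN W N ≤ VN W N' := by
  intro u hu
  obtain ⟨f, hf, rfl⟩ := Submodule.mem_map.mp hu
  exact pairLin_mem_VN (L2_mono hWW hne h hf)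

theorem pairLin_mul (f g : FF M) : pairLin W (f * g) = pairLin W f * pairLin W g := by
  rw [pairLin_eq_iff]
  refine ⟨rfl, ?_⟩
  rw [map_mul]
  rfl

theorem coeff_mul_eq_zero {x y : LaurentSeries Kb} {N N' : ℤ}
    (hx : ∀ k : ℤ, k < -N → x.coeff k = 0) (hy : ∀ k : ℤ, k < -N' → y.coeff k = 0)
    (k : ℤ) (hk : k < -(N + N')) : (x * y).coeff k = 0 := by
  rcases eq_or_ne x 0 with rfl | hx0
  · rw [zero_mul]
    rfl
  rcases eq_or_ne y 0 with rfl | hy0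
  · rw [mul_zero]
    rfl
  have h1 := (coeff_eq_zero_iff_le_order hx0).mp hx
  have h2 := (coeff_eq_zero_iff_le_order hy0).mp hy
  apply HahnSeries.coeff_eq_zero_of_lt_order
  rw [order_mul_field hx0 hy0]
  omega

theorem mul_mem_L2 (hWW : ∀ f, W (W f) = f) (hne : inftyBar M ≠ W • inftyBar M) {N N' : ℤ}
    {f g : FF M} (hf : f ∈ riemannRochSpace (div2 W N))
    (hg : g ∈ riemannRochSpace (div2 W N')) :
    f * g ∈ riemannRochSpace (div2 W (N + N')) := by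
  rw [mem_L2_iff W hWW hne] at hf hg ⊢
  refine ⟨RegOff2.mul W hf.1 hg.1, ?_, ?_⟩
  · intro k hk
    exact coeff_mul_eq_zero hf.2.1 hg.2.1 k hk
  · intro k hk
    rw [map_mul]
    exact coeff_mul_eq_zero hf.2.2 hg.2.2 k hk

theorem pairLin_mul_mem_VN (hWW : ∀ f, W (W f) = f) (hne : inftyBar M ≠ W • inftyBar M)
    {N N' : ℤ} {u v : Fin 2 → LaurentSeries Kb} (hu : u ∈ VN W N) (hv : v ∈ VN W N') :
    u * v ∈ VN W (N + N') := by
  obtain ⟨f, hf, rfl⟩ := Submodule.mem_map.mp hu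
  obtain ⟨g, hg, rfl⟩ := Submodule.mem_map.mp hv
  rw [← pairLin_mul]
  exact pairLin_mem_VN (mul_mem_L2 hWW hne hf hg)

/-! ### The instance hypotheses -/

theorem residue_ne_zero_isUnit (x : A) (hx : IsLocalRing.residue A x ≠ 0) : IsUnit x :=
  Fermat.Agent.P2.helper96.isUnit_of_residue_ne_zero x hx

/-- attained content on `VN W N` -/
theorem att_VN (hWW : ∀ f, W (W f) = f) (hne : inftyBar M ≠ W • inftyBar M)
    (hPN : PairNormStatement W A)
    (hInt : Fermat.Agent.T2.helper22.Integrality2Statement M A W) (N : ℤ) :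
    ∀ u ∈ VN W N, u ≠ 0 → ContentAttainedFam A (IsLocalRing.residue A) u := by
  intro u hu hu0
  obtain ⟨f, hf1, -, -, rfl⟩ := (mem_VN_iff W hWW hne N u).mp hu
  have hf0 : f ≠ 0 := by
    rintro rfl
    exact hu0 (map_zero _)
  exact contentAttained_pair hWW hPN hInt f hf0 hf1

/-- the pole bound on `VN W N` -/
theorem ord_VN (hWW : ∀ f, W (W f) = f) (hne : inftyBar M ≠ W • inftyBar M) (N : ℤ) :
    ∀ u ∈ VN W N, ∀ i : Fin 2, ∀ j < -N, (u i).coeff j = 0 := by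
  intro u hu i j hj
  obtain ⟨f, -, hf2, hf3, rfl⟩ := (mem_VN_iff W hWW hne N u).mp hu
  fin_cases i
  · exact hf2 j hj
  · exact hf3 j hj

/-- powers: `VN W N ^ n ⊆ VN W (n * N)` -/
theorem pow_VN (hWW : ∀ f, W (W f) = f) (hne : inftyBar M ≠ W • inftyBar M) (N : ℤ) (n : ℕ) :
    ∀ u ∈ VN W N, u ^ n ∈ VN W ((n : ℤ) * N) := by
  intro u hu
  obtain ⟨f, hf, rfl⟩ := Submodule.mem_map.mp hu
  rw [← pairLin_pow]
  exact Submodule.mem_map_of_mem (pow_mem_L2 W hWW hne N hf n)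

/-- an integral family of `VN W N'` is the pair of expansions of a function regular off the two
cusps -/
theorem exists_isRep_of_mem_VN (hWW : ∀ f, W (W f) = f) (hne : inftyBar M ≠ W • inftyBar M)
    {N' : ℤ} {Z : Fin 2 → LaurentSeries A} (hZ : famMap A.subtype Z ∈ VN W N') :
    ∃ F : FF M, Fermat.Agent.T2.helper22.IsReg2 W F ∧
      Fermat.Agent.T2.helper22.IsRep A W F (Z 0) (Z 1) := by
  obtain ⟨F, hF1, -, -, hF4⟩ := (mem_VN_iff W hWW hne N' _).mp hZ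
  rw [pairLin_eq_iff] at hF4
  exact ⟨F, isReg2_of_regOff2 hF1, hF4.1.symm, hF4.2.symm⟩

/-- the output of `Sat2Statement` as an integral family of `VN W N` -/
theorem exists_mem_VN_of_sat (hWW : ∀ f, W (W f) = f) (hne : inftyBar M ≠ W • inftyBar M)
    {N : ℤ}
    (hN₀ : ∀ (f : FF M) (Y₁ Y₂ : LaurentSeries A),
      Fermat.Agent.T2.helper22.IsReg2 W f → Fermat.Agent.T2.helper22.IsRep A W f Y₁ Y₂ →
      (∀ k : ℤ, k < -N → (red A Y₁).coeff k = 0) → (∀ k : ℤ, k < -N → (red A Y₂).coeff k = 0) →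
      ∃ (f' : FF M) (Z₁ Z₂ : LaurentSeries A), Fermat.Agent.T2.helper22.IsReg2 W f' ∧
        Fermat.Agent.T2.helper22.IsRep A W f' Z₁ Z₂ ∧
        (∀ k : ℤ, k < -N → Z₁.coeff k = 0) ∧ (∀ k : ℤ, k < -N → Z₂.coeff k = 0) ∧
        red A Z₁ = red A Y₁ ∧ red A Z₂ = red A Y₂)
    (F : FF M) (Y₁ Y₂ : LaurentSeries A) (hF : Fermat.Agent.T2.helper22.IsReg2 W F)
    (hY : Fermat.Agent.T2.helper22.IsRep A W F Y₁ Y₂) (X : Fin 2 → LaurentSeries A)
    (hX1 : red A Y₁ = red A (X 0)) (hX2 : red A Y₂ = red A (X 1))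
    (h1 : ∀ k : ℤ, k < -N → (red A (X 0)).coeff k = 0)
    (h2 : ∀ k : ℤ, k < -N → (red A (X 1)).coeff k = 0) :
    ∃ Z' : Fin 2 → LaurentSeries A, famMap A.subtype Z' ∈ VN W N ∧
      famMap (IsLocalRing.residue A) Z' = famMap (IsLocalRing.residue A) X := by
  obtain ⟨f', Z₁', Z₂', hf'1, hf'2, hf'3, hf'4, hf'5, hf'6⟩ := hN₀ F Y₁ Y₂ hF hY
    (by rw [hX1]; exact h1) (by rw [hX2]; exact h2)
  refine ⟨![Z₁', Z₂'], ?_, ?_⟩
  · rw [mem_VN_iff W hWW hne]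
    refine ⟨f', regOff2_of_isReg2 hf'1, ?_, ?_, ?_⟩
    · intro k hk
      rw [← hf'2.1]
      show (coeffMap A.subtype Z₁').coeff k = 0
      rw [coeffMap_coeff, hf'3 k hk, map_zero]
    · intro k hk
      rw [← hf'2.2]
      show (coeffMap A.subtype Z₂').coeff k = 0
      rw [coeffMap_coeff, hf'4 k hk, map_zero]
    · rw [pairLin_eq_iff]
      exact ⟨hf'2.1.symm, hf'2.2.symm⟩
  · funext i
    fin_cases i
    · exact hf'5.trans hX1
    · exact hf'6.trans hX2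

/-- **[B4-INST]** the instance hypotheses of the `p`-pivot lemmas hold at `V = VN W N`,
`V' = VN W (p * N)` for every large `N`.  The exponent `p` is the residue characteristic. -/
theorem pivotInst_of (hWW : ∀ f, W (W f) = f) (hne : inftyBar M ≠ W • inftyBar M)
    (p : ℕ) (hp : p.Prime) (hA : A.LiesOverPrime p)
    (hPN : PairNormStatement W A)
    (hInt : Fermat.Agent.T2.helper22.Integrality2Statement M A W)
    (hReg : Fermat.Agent.T2.helper22.RegRed2Statement M A W)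
    (hSN : Fermat.Agent.T2.helper22.SN2Statement M A W)
    (hSat : Fermat.Agent.T2.helper22.Sat2Statement M A W) :
    ∃ N₀ : ℤ, ∀ N : ℤ, N₀ ≤ N → PivotInst W A p N := by
  obtain ⟨N₀, hN₀⟩ := hSat
  haveI : Fact p.Prime := ⟨hp⟩
  haveI : CharP (kA A) p := Fermat.Agent.P2.helper93.charP_residueField hp hA
  refine ⟨max N₀ 0, fun N hN => ?_⟩
  have hN1 : N₀ ≤ N := le_trans (le_max_left _ _) hN
  have hN2 : 0 ≤ N := le_trans (le_max_right _ _) hN
  refine ⟨hN2, att_VN hWW hne hPN hInt N, att_VN hWW hne hPN hInt _, ord_VN hWW hne N,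
    pow_VN hWW hne N p, one_mem_VN hWW hne hN2, ?_, ?_⟩
  · -- `hred`
    intro Z hZ hZred
    obtain ⟨F, hF, hrep⟩ := exists_isRep_of_mem_VN hWW hne hZ
    exact exists_mem_VN_of_sat hWW hne (hN₀ N hN1) F (Z 0) (Z 1) hF hrep Z rfl rfl
      (hZred 0) (hZred 1)
  · -- `hFC`
    intro Φ Z hΦ hZord hΦZ
    obtain ⟨F, hF, hrep⟩ := exists_isRep_of_mem_VN hWW hne hΦ
    have e1 : red A (Φ 0) = red A (Z 0) ^ p ^ 1 := by
      rw [pow_one]
      exact congrFun hΦZ 0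
    have e2 : red A (Φ 1) = red A (Z 1) ^ p ^ 1 := by
      rw [pow_one]
      exact congrFun hΦZ 1
    obtain ⟨g, Z₁, Z₂, hg, hgrep, r1, r2⟩ :=
      Fermat.Agent.T7.helper15.exists_rep_of_red_eq_pow hWW hReg hSN p 1 hF hrep e1 e2
    refine exists_mem_VN_of_sat hWW hne (hN₀ N hN1) g Z₁ Z₂ hg hgrep Z r1 r2 ?_ ?_
    · intro k hk
      show (coeffMap (IsLocalRing.residue A) (Z 0)).coeff k = 0
      rw [coeffMap_coeff, hZord 0 k hk, map_zero]
    · intro k hk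
      show (coeffMap (IsLocalRing.residue A) (Z 1)).coeff k = 0
      rw [coeffMap_coeff, hZord 1 k hk, map_zero]

/-! ### The pivot lemmas at the pair -/

/-- the family `(Z₁, Z₂)` of formal `p`-th roots of the pair of expansions of `H`: its `p`-th
power lies in `VN W (p * N)` -/
theorem pow_pair_mem_VN (hWW : ∀ f, W (W f) = f) (hne : inftyBar M ≠ W • inftyBar M)
    (p : ℕ) {N : ℤ} (H : FF M) (hH : RegOff2 W H) (Z₁ Z₂ : LaurentSeries A)
    (h1 : incl A Z₁ ^ p = (H : LaurentSeries Kb))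
    (h2 : incl A Z₂ ^ p = ((W H : FF M) : LaurentSeries Kb))
    (hZ₁ : -N ≤ Z₁.order) (hZ₂ : -N ≤ Z₂.order) :
    (famMap A.subtype ![Z₁, Z₂]) ^ p ∈ VN W ((p : ℤ) * N) := by
  have e : (famMap A.subtype ![Z₁, Z₂]) ^ p = pairLin W H := by
    symm
    rw [pairLin_eq_iff]
    exact ⟨h1.symm, h2.symm⟩
  rw [e, mem_VN_iff W hWW hne]
  refine ⟨H, hH, ?_, ?_, rfl⟩
  · intro k hk
    rw [← h1]
    exact coeff_pow_eq_zero (fun k hk => coeff_incl_eq_zero A hZ₁ k hk) p k hk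
  · intro k hk
    rw [← h2]
    exact coeff_pow_eq_zero (fun k hk => coeff_incl_eq_zero A hZ₂ k hk) p k hk

theorem pair_red_eq_one (Z₁ Z₂ : LaurentSeries A) (hr1 : red A Z₁ = 1) (hr2 : red A Z₂ = 1) :
    famMap (IsLocalRing.residue A) ![Z₁, Z₂] = 1 := by
  funext i
  fin_cases i
  · exact hr1
  · exact hr2

theorem pair_ord (Z₁ Z₂ : LaurentSeries A) {N : ℤ} (hZ₁ : -N ≤ Z₁.order)
    (hZ₂ : -N ≤ Z₂.order) : ∀ i : Fin 2, ∀ j < -N, ((![Z₁, Z₂] : Fin 2 → LaurentSeries A) i).coeff j = 0 := by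
  intro i j hj
  fin_cases i
  · exact HahnSeries.coeff_eq_zero_of_lt_order (lt_of_lt_of_le hj hZ₁)
  · exact HahnSeries.coeff_eq_zero_of_lt_order (lt_of_lt_of_le hj hZ₂)

/-- an integral family of `VN W N`, as a function with its integral pair of expansions -/
theorem exists_L2_of_mem_VN {N : ℤ} {U : Fin 2 → LaurentSeries A}
    (hU : famMap A.subtype U ∈ VN W N) :
    ∃ f : FF M, f ∈ riemannRochSpace (div2 W N) ∧
      Fermat.Agent.T2.helper22.IsRep A W f (U 0) (U 1) := by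
  obtain ⟨f, hf, hfU⟩ := Submodule.mem_map.mp hU
  rw [pairLin_eq_iff] at hfU
  exact ⟨f, hf, hfU.1.symm, hfU.2.symm⟩

/-- the integral pair of expansions of an element of `L(N (∞ + ∞₂))`, as an integral family of
`VN W N` -/
theorem pair_mem_VN_of_isRep {N : ℤ} {f : FF M} (hf : f ∈ riemannRochSpace (div2 W N))
    {V₁ V₂ : LaurentSeries A} (hV : Fermat.Agent.T2.helper22.IsRep A W f V₁ V₂) :
    famMap A.subtype ![V₁, V₂] ∈ VN W N := by
  have e : famMap A.subtype ![V₁, V₂] = pairLin W f := by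
    symm
    rw [pairLin_eq_iff]
    exact ⟨hV.1.symm, hV.2.symm⟩
  rw [e]
  exact pairLin_mem_VN hf

theorem pair_sub_eq_smul (Y₁ Y₂ V₁ V₂ E₁ E₂ : LaurentSeries A) (c : A)
    (hE₁ : Y₁ - V₁ = c • E₁) (hE₂ : Y₂ - V₂ = c • E₂) :
    (![Y₁, Y₂] : Fin 2 → LaurentSeries A) - ![V₁, V₂] = c • ![E₁, E₂] := by
  funext i
  fin_cases i
  · exact hE₁
  · exact hE₂

/-- **(L1) at the pair**: the Frobenius regime.  The formal `p`-th roots `(Z₁, Z₂)` of the pair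
of expansions of `H` are `l`-close to the integral pair of expansions of a function `U` of
`L(N (∞ + ∞₂))` with reduction `(1, 1)`. -/
theorem exists_close_pair (hWW : ∀ f, W (W f) = f) (hne : inftyBar M ≠ W • inftyBar M)
    {p : ℕ} (hp : p.Prime) {N : ℤ} (hI : PivotInst W A p N)
    (l τ : A) (hl : (p : A) = l ^ (p - 1) * τ)
    (H : FF M) (hH : RegOff2 W H) (Z₁ Z₂ : LaurentSeries A)
    (h1 : incl A Z₁ ^ p = (H : LaurentSeries Kb))
    (h2 : incl A Z₂ ^ p = ((W H : FF M) : LaurentSeries Kb))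
    (hr1 : red A Z₁ = 1) (hr2 : red A Z₂ = 1)
    (hZ₁ : -N ≤ Z₁.order) (hZ₂ : -N ≤ Z₂.order)
    (hatt : ∀ u ∈ VN W N, famMap A.subtype ![Z₁, Z₂] - u ≠ 0 →
      ContentAttainedFam A (IsLocalRing.residue A) (famMap A.subtype ![Z₁, Z₂] - u)) :
    ∃ (U : FF M) (U₁ U₂ E₁ E₂ : LaurentSeries A), U ∈ riemannRochSpace (div2 W N) ∧
      Fermat.Agent.T2.helper22.IsRep A W U U₁ U₂ ∧ red A U₁ = 1 ∧ red A U₂ = 1 ∧
      Z₁ - U₁ = l • E₁ ∧ Z₂ - U₂ = l • E₂ := by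
  obtain ⟨U, Y, hUV, hUred, hUY⟩ :=
    Fermat.Agent.T7.helper82.exists_close_of_pow_mem_fam A (IsLocalRing.residue A)
      residue_ne_zero_isUnit IsLocalRing.residue_surjective (VN W N) (VN W ((p : ℤ) * N))
      (fun _ => N) p hp l τ hl hI.att hI.ord hI.pow hI.one hI.fc ![Z₁, Z₂]
      (pow_pair_mem_VN hWW hne p H hH Z₁ Z₂ h1 h2 hZ₁ hZ₂) (pair_red_eq_one Z₁ Z₂ hr1 hr2)
      (pair_ord Z₁ Z₂ hZ₁ hZ₂) hatt
  obtain ⟨f, hf, hrep⟩ := exists_L2_of_mem_VN hUV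
  exact ⟨f, U 0, U 1, Y 0, Y 1, hf, hrep, congrFun hUred 0, congrFun hUred 1,
    congrFun hUY 0, congrFun hUY 1⟩

/-- **(L2) at the pair**: the deep pivot.  If the formal `p`-th roots `(Y₁, Y₂)` (reduction
`(1, 1)`) of the pair of expansions of `H` are `ϖ`-close to the integral pair of expansions of
an element of `L(N (∞ + ∞₂))`, `ϖ ^ (p - 1) = p * t` with `t` in the maximal ideal, then
`(Y₁, Y₂)` is the pair of expansions of a function `v` (so `v ^ p = H`). -/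
theorem pivot_pair_deep (hWW : ∀ f, W (W f) = f) (hne : inftyBar M ≠ W • inftyBar M)
    {p : ℕ} (hp : p.Prime) (hA : A.LiesOverPrime p) {N : ℤ} (hI : PivotInst W A p N)
    (ϖ t : A) (ht : IsLocalRing.residue A t = 0) (hϖ : ϖ ^ (p - 1) = (p : A) * t)
    (H : FF M) (hH : RegOff2 W H) (Y₁ Y₂ : LaurentSeries A)
    (h1 : incl A Y₁ ^ p = (H : LaurentSeries Kb))
    (h2 : incl A Y₂ ^ p = ((W H : FF M) : LaurentSeries Kb))
    (hr1 : red A Y₁ = 1) (hr2 : red A Y₂ = 1)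
    (hY₁ : -N ≤ Y₁.order) (hY₂ : -N ≤ Y₂.order)
    (v₁ : FF M) (hv₁ : v₁ ∈ riemannRochSpace (div2 W N)) (V₁ V₂ E₁ E₂ : LaurentSeries A)
    (hV : Fermat.Agent.T2.helper22.IsRep A W v₁ V₁ V₂)
    (hE₁ : Y₁ - V₁ = ϖ • E₁) (hE₂ : Y₂ - V₂ = ϖ • E₂) :
    ∃ v : FF M, v ∈ riemannRochSpace (div2 W N) ∧ (v : LaurentSeries Kb) = incl A Y₁ ∧
      ((W v : FF M) : LaurentSeries Kb) = incl A Y₂ ∧ v ^ p = H := by
  have hkey := Fermat.Agent.T7.helper40.mem_of_pow_mem_fam_deep_arch A (IsLocalRing.residue A)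
    residue_ne_zero_isUnit IsLocalRing.residue_surjective
    (Fermat.Agent.P2.helper74.arch_algebraicClosure A p hp hA)
    (VN W N) (VN W ((p : ℤ) * N)) (fun _ => N) (fun _ => hI.nonneg) p hp
    (Nat.cast_ne_zero.mpr hp.ne_zero) ϖ t ht hϖ hI.att hI.att' hI.ord hI.pow hI.red ![Y₁, Y₂]
    (pow_pair_mem_VN hWW hne p H hH Y₁ Y₂ h1 h2 hY₁ hY₂) (pair_red_eq_one Y₁ Y₂ hr1 hr2)
    (pair_ord Y₁ Y₂ hY₁ hY₂) ![V₁, V₂] ![E₁, E₂] (pair_mem_VN_of_isRep hv₁ hV)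
    (pair_sub_eq_smul Y₁ Y₂ V₁ V₂ E₁ E₂ ϖ hE₁ hE₂)
  obtain ⟨v, hv, hrep⟩ := exists_L2_of_mem_VN hkey
  refine ⟨v, hv, hrep.1.symm, hrep.2.symm, ?_⟩
  apply Subtype.ext
  show ((v : LaurentSeries Kb)) ^ p = (H : LaurentSeries Kb)
  rw [← h1]
  exact congrArg (· ^ p) hrep.1.symm

/-- **(L2') at the pair**: the critical form with vanishing reduction (`helper73`).  If the
formal `p`-th roots `(Y₁, Y₂)` (reduction `(1, 1)`) of the pair of expansions of `H` satisfy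
`Y - V = l • E` with `(V₁, V₂)` the integral pair of expansions of an element of
`L(N (∞ + ∞₂))`, `l ^ (p - 1) = p * τ` and `red E = 0`, then `(Y₁, Y₂)` is the pair of expansions
of a function `v` (so `v ^ p = H`). -/
theorem pivot_pair_crit (hWW : ∀ f, W (W f) = f) (hne : inftyBar M ≠ W • inftyBar M)
    {p : ℕ} (hp : p.Prime) (hA : A.LiesOverPrime p) {N : ℤ} (hI : PivotInst W A p N)
    (l τ : A) (hl : l ^ (p - 1) = (p : A) * τ)
    (H : FF M) (hH : RegOff2 W H) (Y₁ Y₂ : LaurentSeries A)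
    (h1 : incl A Y₁ ^ p = (H : LaurentSeries Kb))
    (h2 : incl A Y₂ ^ p = ((W H : FF M) : LaurentSeries Kb))
    (hr1 : red A Y₁ = 1) (hr2 : red A Y₂ = 1)
    (hY₁ : -N ≤ Y₁.order) (hY₂ : -N ≤ Y₂.order)
    (v₁ : FF M) (hv₁ : v₁ ∈ riemannRochSpace (div2 W N)) (V₁ V₂ E₁ E₂ : LaurentSeries A)
    (hV : Fermat.Agent.T2.helper22.IsRep A W v₁ V₁ V₂)
    (hE₁ : Y₁ - V₁ = l • E₁) (hE₂ : Y₂ - V₂ = l • E₂)
    (hE₁r : red A E₁ = 0) (hE₂r : red A E₂ = 0) :
    ∃ v : FF M, v ∈ riemannRochSpace (div2 W N) ∧ (v : LaurentSeries Kb) = incl A Y₁ ∧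
      ((W v : FF M) : LaurentSeries Kb) = incl A Y₂ ∧ v ^ p = H := by
  have hEred : famMap (IsLocalRing.residue A) ![E₁, E₂] = 0 := by
    funext i
    fin_cases i
    · exact hE₁r
    · exact hE₂r
  have hkey := Fermat.Agent.T7.helper73.mem_of_pow_mem_fam_crit_zero A (IsLocalRing.residue A)
    residue_ne_zero_isUnit IsLocalRing.residue_surjective
    (Fermat.Agent.P2.helper74.arch_algebraicClosure A p hp hA)
    (VN W N) (VN W ((p : ℤ) * N)) (fun _ => N) (fun _ => hI.nonneg) p hp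
    (Nat.cast_ne_zero.mpr hp.ne_zero) l τ hl hI.att hI.att' hI.ord hI.pow hI.red ![Y₁, Y₂]
    (pow_pair_mem_VN hWW hne p H hH Y₁ Y₂ h1 h2 hY₁ hY₂) (pair_red_eq_one Y₁ Y₂ hr1 hr2)
    (pair_ord Y₁ Y₂ hY₁ hY₂) ![V₁, V₂] ![E₁, E₂] (pair_mem_VN_of_isRep hv₁ hV)
    (pair_sub_eq_smul Y₁ Y₂ V₁ V₂ E₁ E₂ l hE₁ hE₂) hEred
  obtain ⟨v, hv, hrep⟩ := exists_L2_of_mem_VN hkey
  refine ⟨v, hv, hrep.1.symm, hrep.2.symm, ?_⟩
  apply Subtype.ext
  show ((v : LaurentSeries Kb)) ^ p = (H : LaurentSeries Kb)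
  rw [← h1]
  exact congrArg (· ^ p) hrep.1.symm

/-! ### Forms without the pole bound `N` -/

/-- a function regular off the two cusps with an integral pair of expansions lies in
`L(N (∞ + ∞₂))` as soon as `N` bounds the pole orders of the pair -/
theorem mem_L2_of_isRep (hWW : ∀ f, W (W f) = f) (hne : inftyBar M ≠ W • inftyBar M)
    {f : FF M} (hf : RegOff2 W f) {V₁ V₂ : LaurentSeries A}
    (hV : Fermat.Agent.T2.helper22.IsRep A W f V₁ V₂) {N : ℤ}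
    (h1 : -N ≤ V₁.order) (h2 : -N ≤ V₂.order) : f ∈ riemannRochSpace (div2 W N) := by
  rw [mem_L2_iff W hWW hne]
  refine ⟨hf, fun k hk => ?_, fun k hk => ?_⟩
  · rw [← hV.1]
    exact coeff_incl_eq_zero A h1 k hk
  · rw [← hV.2]
    exact coeff_incl_eq_zero A h2 k hk

theorem regOff2_of_mem_L2 (hWW : ∀ f, W (W f) = f) (hne : inftyBar M ≠ W • inftyBar M)
    {N : ℤ} {f : FF M} (hf : f ∈ riemannRochSpace (div2 W N)) : RegOff2 W f :=
  ((mem_L2_iff W hWW hne N f).mp hf).1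

/-- **(L1) at the pair**, without the pole bound. -/
theorem exists_close_pair' (hWW : ∀ f, W (W f) = f) (hne : inftyBar M ≠ W • inftyBar M)
    {p : ℕ} (hp : p.Prime) (hI : ∃ N₀ : ℤ, ∀ N : ℤ, N₀ ≤ N → PivotInst W A p N)
    (l τ : A) (hl : (p : A) = l ^ (p - 1) * τ)
    (H : FF M) (hH : RegOff2 W H) (Z₁ Z₂ : LaurentSeries A)
    (h1 : incl A Z₁ ^ p = (H : LaurentSeries Kb))
    (h2 : incl A Z₂ ^ p = ((W H : FF M) : LaurentSeries Kb))
    (hr1 : red A Z₁ = 1) (hr2 : red A Z₂ = 1)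
    (hatt : ∀ u : FF M, RegOff2 W u → famMap A.subtype ![Z₁, Z₂] - pairLin W u ≠ 0 →
      ContentAttainedFam A (IsLocalRing.residue A) (famMap A.subtype ![Z₁, Z₂] - pairLin W u)) :
    ∃ (U : FF M) (U₁ U₂ E₁ E₂ : LaurentSeries A), RegOff2 W U ∧
      Fermat.Agent.T2.helper22.IsRep A W U U₁ U₂ ∧ red A U₁ = 1 ∧ red A U₂ = 1 ∧
      Z₁ - U₁ = l • E₁ ∧ Z₂ - U₂ = l • E₂ := by
  obtain ⟨N₀, hN₀⟩ := hI
  set N : ℤ := max N₀ (max (-(Z₁.order)) (-(Z₂.order))) with hN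
  have hN1 : N₀ ≤ N := le_max_left _ _
  have hN3 : -N ≤ Z₁.order := by
    have := le_trans (le_max_left (-(Z₁.order)) (-(Z₂.order))) (le_max_right N₀ _)
    rw [← hN] at this
    omega
  have hN4 : -N ≤ Z₂.order := by
    have := le_trans (le_max_right (-(Z₁.order)) (-(Z₂.order))) (le_max_right N₀ _)
    rw [← hN] at this
    omega
  obtain ⟨U, U₁, U₂, E₁, E₂, hU, hrep, r1, r2, e1, e2⟩ :=
    exists_close_pair hWW hne hp (hN₀ N hN1) l τ hl H hH Z₁ Z₂ h1 h2 hr1 hr2 hN3 hN4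
      (fun u hu hne' => by
        obtain ⟨f, hf, rfl⟩ := Submodule.mem_map.mp hu
        exact hatt f (regOff2_of_mem_L2 hWW hne hf) hne')
  exact ⟨U, U₁, U₂, E₁, E₂, regOff2_of_mem_L2 hWW hne hU, hrep, r1, r2, e1, e2⟩

/-- **(L2) at the pair**, without the pole bound. -/
theorem pivot_pair_deep' (hWW : ∀ f, W (W f) = f) (hne : inftyBar M ≠ W • inftyBar M)
    {p : ℕ} (hp : p.Prime) (hA : A.LiesOverPrime p)
    (hI : ∃ N₀ : ℤ, ∀ N : ℤ, N₀ ≤ N → PivotInst W A p N)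
    (ϖ t : A) (ht : IsLocalRing.residue A t = 0) (hϖ : ϖ ^ (p - 1) = (p : A) * t)
    (H : FF M) (hH : RegOff2 W H) (Y₁ Y₂ : LaurentSeries A)
    (h1 : incl A Y₁ ^ p = (H : LaurentSeries Kb))
    (h2 : incl A Y₂ ^ p = ((W H : FF M) : LaurentSeries Kb))
    (hr1 : red A Y₁ = 1) (hr2 : red A Y₂ = 1)
    (v₁ : FF M) (hv₁ : RegOff2 W v₁) (V₁ V₂ E₁ E₂ : LaurentSeries A)
    (hV : Fermat.Agent.T2.helper22.IsRep A W v₁ V₁ V₂)
    (hE₁ : Y₁ - V₁ = ϖ • E₁) (hE₂ : Y₂ - V₂ = ϖ • E₂) :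
    ∃ v : FF M, RegOff2 W v ∧ (v : LaurentSeries Kb) = incl A Y₁ ∧
      ((W v : FF M) : LaurentSeries Kb) = incl A Y₂ ∧ v ^ p = H := by
  obtain ⟨N₀, hN₀⟩ := hI
  set N : ℤ := max N₀ (max (max (-(Y₁.order)) (-(Y₂.order)))
    (max (-(V₁.order)) (-(V₂.order)))) with hN
  have hN1 : N₀ ≤ N := le_max_left _ _
  have hN2 : max (max (-(Y₁.order)) (-(Y₂.order))) (max (-(V₁.order)) (-(V₂.order))) ≤ N :=
    le_max_right _ _
  have hY₁ : -N ≤ Y₁.order := by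
    have := le_trans (le_trans (le_max_left (-(Y₁.order)) (-(Y₂.order))) (le_max_left _ _)) hN2
    omega
  have hY₂ : -N ≤ Y₂.order := by
    have := le_trans (le_trans (le_max_right (-(Y₁.order)) (-(Y₂.order))) (le_max_left _ _)) hN2
    omega
  have hV₁ : -N ≤ V₁.order := by
    have := le_trans (le_trans (le_max_left (-(V₁.order)) (-(V₂.order))) (le_max_right _ _)) hN2
    omega
  have hV₂ : -N ≤ V₂.order := by
    have := le_trans (le_trans (le_max_right (-(V₁.order)) (-(V₂.order))) (le_max_right _ _)) hN2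
    omega
  obtain ⟨v, hv, e1, e2, e3⟩ := pivot_pair_deep hWW hne hp hA (hN₀ N hN1) ϖ t ht hϖ H hH Y₁ Y₂
    h1 h2 hr1 hr2 hY₁ hY₂ v₁ (mem_L2_of_isRep hWW hne hv₁ hV hV₁ hV₂) V₁ V₂ E₁ E₂ hV hE₁ hE₂
  exact ⟨v, regOff2_of_mem_L2 hWW hne hv, e1, e2, e3⟩

/-- **(L2') at the pair**, without the pole bound. -/
theorem pivot_pair_crit' (hWW : ∀ f, W (W f) = f) (hne : inftyBar M ≠ W • inftyBar M)
    {p : ℕ} (hp : p.Prime) (hA : A.LiesOverPrime p)
    (hI : ∃ N₀ : ℤ, ∀ N : ℤ, N₀ ≤ N → PivotInst W A p N)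
    (l τ : A) (hl : l ^ (p - 1) = (p : A) * τ)
    (H : FF M) (hH : RegOff2 W H) (Y₁ Y₂ : LaurentSeries A)
    (h1 : incl A Y₁ ^ p = (H : LaurentSeries Kb))
    (h2 : incl A Y₂ ^ p = ((W H : FF M) : LaurentSeries Kb))
    (hr1 : red A Y₁ = 1) (hr2 : red A Y₂ = 1)
    (v₁ : FF M) (hv₁ : RegOff2 W v₁) (V₁ V₂ E₁ E₂ : LaurentSeries A)
    (hV : Fermat.Agent.T2.helper22.IsRep A W v₁ V₁ V₂)
    (hE₁ : Y₁ - V₁ = l • E₁) (hE₂ : Y₂ - V₂ = l • E₂)
    (hE₁r : red A E₁ = 0) (hE₂r : red A E₂ = 0) :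
    ∃ v : FF M, RegOff2 W v ∧ (v : LaurentSeries Kb) = incl A Y₁ ∧
      ((W v : FF M) : LaurentSeries Kb) = incl A Y₂ ∧ v ^ p = H := by
  obtain ⟨N₀, hN₀⟩ := hI
  set N : ℤ := max N₀ (max (max (-(Y₁.order)) (-(Y₂.order)))
    (max (-(V₁.order)) (-(V₂.order)))) with hN
  have hN1 : N₀ ≤ N := le_max_left _ _
  have hN2 : max (max (-(Y₁.order)) (-(Y₂.order))) (max (-(V₁.order)) (-(V₂.order))) ≤ N :=
    le_max_right _ _
  have hY₁ : -N ≤ Y₁.order := by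
    have := le_trans (le_trans (le_max_left (-(Y₁.order)) (-(Y₂.order))) (le_max_left _ _)) hN2
    omega
  have hY₂ : -N ≤ Y₂.order := by
    have := le_trans (le_trans (le_max_right (-(Y₁.order)) (-(Y₂.order))) (le_max_left _ _)) hN2
    omega
  have hV₁ : -N ≤ V₁.order := by
    have := le_trans (le_trans (le_max_left (-(V₁.order)) (-(V₂.order))) (le_max_right _ _)) hN2
    omega
  have hV₂ : -N ≤ V₂.order := by
    have := le_trans (le_trans (le_max_right (-(V₁.order)) (-(V₂.order))) (le_max_right _ _)) hN2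
    omega
  obtain ⟨v, hv, e1, e2, e3⟩ := pivot_pair_crit hWW hne hp hA (hN₀ N hN1) l τ hl H hH Y₁ Y₂
    h1 h2 hr1 hr2 hY₁ hY₂ v₁ (mem_L2_of_isRep hWW hne hv₁ hV hV₁ hV₂) V₁ V₂ E₁ E₂ hV hE₁ hE₂
    hE₁r hE₂r
  exact ⟨v, regOff2_of_mem_L2 hWW hne hv, e1, e2, e3⟩

end Fermat.Agent.T7.helper88

end
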