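/-
T7 (S33), leaf [B4-INST] (helper88, second prover): the instance hypotheses of the `p`-pivot
lemmas **at the bad pair**: level `N * p`, `N` good (`4 ∣ N ∨ 9 ∣ N`), `p ∤ N`, `A` a valuation
subring of `ℚ̄` over `p`, `W = helper36.atkinLehner N p`.  Unconditional: all the T2 inputs
(pair normalisation, `Integrality2`, `RegRed2`, `SN2`, `Sat2`) are on main.

* `pivotInst_bad`      : `∃ N₀, ∀ n ≥ N₀, PivotInst W A p n`;
* `exists_close_bad`   : (L1)  `helper82.exists_close_of_pow_mem_fam` at the bad pair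
                         (the attained content `hatt` of `Z - u` stays a hypothesis);
* `pivot_deep_bad`     : (L2)  `helper40.mem_of_pow_mem_fam_deep_arch` at the bad pair;
* `pivot_crit_bad`     : (L2') `helper73.mem_of_pow_mem_fam_crit_zero` at the bad pair.
-/
import Mathlib
import Fermat.Agent.T7.helper88_B4Inst
import Fermat.Agent.T2.helper74_RootEnd
import Fermat.Agent.T2.helper72_SNGood
import Fermat.Agent.T2.helper45_Integrality2
import Fermat.Agent.T2.helper87_RegRed2U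
import Fermat.Agent.T2.helper96_Sat

set_option autoImplicit false
set_option synthInstance.maxHeartbeats 400000
set_option linter.unusedSectionVars false
set_option linter.unusedVariables false
set_option linter.style.haveILetI false

noncomputable section

open HahnSeries IntermediateField AlgebraicCurve ModularCurve
open Fermat.Agent.S18.helper19 Fermat.Agent.P2.helper29
open Fermat.Agent.P2.helper22 Fermat.Agent.P2.helper74
open Fermat.Agent.T2.helper74 Fermat.Agent.T2.helper36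

namespace Fermat.Agent.T7.helper88

variable (N p : ℕ) [NeZero N] [NeZero p] (hp : p.Prime) (hpN : ¬ p ∣ N)

/-- **[B4-INST]** at the bad pair: the instance hypotheses of the `p`-pivot lemmas hold at
`V = VN W n`, `V' = VN W (p * n)` for every large `n`. -/
theorem pivotInst_bad (hN : 4 ∣ N ∨ 9 ∣ N) (A : ValuationSubring Kb)
    (hA : A.LiesOverPrime p) :
    ∃ N₀ : ℤ, ∀ n : ℤ, N₀ ≤ n → PivotInst (atkinLehner N p hp hpN) A p n :=
  pivotInst_of (atkinLehner_atkinLehner N p hp hpN) (inftyBar_ne_smul N p hp hpN) p hp hA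
    (pairNorm_bad N p hp hpN A hA)
    (Fermat.Agent.T2.helper45.integrality2Statement N p hp hpN A)
    (Fermat.Agent.T2.helper87.regRed2_holds N p hp hpN A hA)
    (Fermat.Agent.T2.helper72.sn2Statement_good hp hpN A hA hN)
    (Fermat.Agent.T2.helper96.sat2 N p hp hpN A
      (Fermat.Agent.T2.helper72.surjRed_good hp hpN A hA hN))

/-- **(L1) at the bad pair**: the Frobenius regime. -/
theorem exists_close_bad (hN : 4 ∣ N ∨ 9 ∣ N) (A : ValuationSubring Kb)
    (hA : A.LiesOverPrime p) (l τ : A) (hl : (p : A) = l ^ (p - 1) * τ)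
    (H : FF (N * p)) (hH : RegOff2 (atkinLehner N p hp hpN) H) (Z₁ Z₂ : LaurentSeries A)
    (h1 : incl A Z₁ ^ p = (H : LaurentSeries Kb))
    (h2 : incl A Z₂ ^ p = ((atkinLehner N p hp hpN H : FF (N * p)) : LaurentSeries Kb))
    (hr1 : red A Z₁ = 1) (hr2 : red A Z₂ = 1)
    (hatt : ∀ u : FF (N * p), RegOff2 (atkinLehner N p hp hpN) u →
      famMap A.subtype ![Z₁, Z₂] - pairLin (atkinLehner N p hp hpN) u ≠ 0 →
      ContentAttainedFam A (IsLocalRing.residue A)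
        (famMap A.subtype ![Z₁, Z₂] - pairLin (atkinLehner N p hp hpN) u)) :
    ∃ (U : FF (N * p)) (U₁ U₂ E₁ E₂ : LaurentSeries A), RegOff2 (atkinLehner N p hp hpN) U ∧
      Fermat.Agent.T2.helper22.IsRep A (atkinLehner N p hp hpN) U U₁ U₂ ∧
      red A U₁ = 1 ∧ red A U₂ = 1 ∧ Z₁ - U₁ = l • E₁ ∧ Z₂ - U₂ = l • E₂ :=
  exists_close_pair' (atkinLehner_atkinLehner N p hp hpN) (inftyBar_ne_smul N p hp hpN) hp
    (pivotInst_bad N p hp hpN hN A hA) l τ hl H hH Z₁ Z₂ h1 h2 hr1 hr2 hatt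

/-- **(L2) at the bad pair**: the deep pivot. -/
theorem pivot_deep_bad (hN : 4 ∣ N ∨ 9 ∣ N) (A : ValuationSubring Kb)
    (hA : A.LiesOverPrime p)
    (ϖ t : A) (ht : IsLocalRing.residue A t = 0) (hϖ : ϖ ^ (p - 1) = (p : A) * t)
    (H : FF (N * p)) (hH : RegOff2 (atkinLehner N p hp hpN) H) (Y₁ Y₂ : LaurentSeries A)
    (h1 : incl A Y₁ ^ p = (H : LaurentSeries Kb))
    (h2 : incl A Y₂ ^ p = ((atkinLehner N p hp hpN H : FF (N * p)) : LaurentSeries Kb))
    (hr1 : red A Y₁ = 1) (hr2 : red A Y₂ = 1)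
    (v₁ : FF (N * p)) (hv₁ : RegOff2 (atkinLehner N p hp hpN) v₁)
    (V₁ V₂ E₁ E₂ : LaurentSeries A)
    (hV : Fermat.Agent.T2.helper22.IsRep A (atkinLehner N p hp hpN) v₁ V₁ V₂)
    (hE₁ : Y₁ - V₁ = ϖ • E₁) (hE₂ : Y₂ - V₂ = ϖ • E₂) :
    ∃ v : FF (N * p), RegOff2 (atkinLehner N p hp hpN) v ∧
      (v : LaurentSeries Kb) = incl A Y₁ ∧
      ((atkinLehner N p hp hpN v : FF (N * p)) : LaurentSeries Kb) = incl A Y₂ ∧ v ^ p = H :=
  pivot_pair_deep' (atkinLehner_atkinLehner N p hp hpN) (inftyBar_ne_smul N p hp hpN) hp hA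
    (pivotInst_bad N p hp hpN hN A hA) ϖ t ht hϖ H hH Y₁ Y₂ h1 h2 hr1 hr2 v₁ hv₁ V₁ V₂ E₁ E₂ hV
    hE₁ hE₂

/-- **(L2') at the bad pair**: the critical form with vanishing reduction. -/
theorem pivot_crit_bad (hN : 4 ∣ N ∨ 9 ∣ N) (A : ValuationSubring Kb)
    (hA : A.LiesOverPrime p)
    (l τ : A) (hl : l ^ (p - 1) = (p : A) * τ)
    (H : FF (N * p)) (hH : RegOff2 (atkinLehner N p hp hpN) H) (Y₁ Y₂ : LaurentSeries A)
    (h1 : incl A Y₁ ^ p = (H : LaurentSeries Kb))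
    (h2 : incl A Y₂ ^ p = ((atkinLehner N p hp hpN H : FF (N * p)) : LaurentSeries Kb))
    (hr1 : red A Y₁ = 1) (hr2 : red A Y₂ = 1)
    (v₁ : FF (N * p)) (hv₁ : RegOff2 (atkinLehner N p hp hpN) v₁)
    (V₁ V₂ E₁ E₂ : LaurentSeries A)
    (hV : Fermat.Agent.T2.helper22.IsRep A (atkinLehner N p hp hpN) v₁ V₁ V₂)
    (hE₁ : Y₁ - V₁ = l • E₁) (hE₂ : Y₂ - V₂ = l • E₂)
    (hE₁r : red A E₁ = 0) (hE₂r : red A E₂ = 0) :
    ∃ v : FF (N * p), RegOff2 (atkinLehner N p hp hpN) v ∧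
      (v : LaurentSeries Kb) = incl A Y₁ ∧
      ((atkinLehner N p hp hpN v : FF (N * p)) : LaurentSeries Kb) = incl A Y₂ ∧ v ^ p = H :=
  pivot_pair_crit' (atkinLehner_atkinLehner N p hp hpN) (inftyBar_ne_smul N p hp hpN) hp hA
    (pivotInst_bad N p hp hpN hN A hA) l τ hl H hH Y₁ Y₂ h1 h2 hr1 hr2 v₁ hv₁ V₁ V₂ E₁ E₂ hV
    hE₁ hE₂ hE₁r hE₂r

end Fermat.Agent.T7.helper88

end
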