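import Mathlib
import Fermat.Agent.T2.helper74_PivotFam
import Fermat.Agent.T7.helper40_PivotDeepFam
import Fermat.Agent.T7.helper82_FrobRegime

/-!
# T7 (S33), leaf [B4-ASM], abstract core (helper96): the MONOID TRICK

Setting of `T2.helper74.mem_of_pow_mem_fam`: `A` a valuation subring of `L`, `π : A → k` the
reduction, families `ι → LaurentSeries _`.  `p` is a prime with `(p : k) = 0`, `l : A` is
critical (`p = l ^ (p - 1) τ`, `l ^ (p - 1) = p s`, e.g. `l = ζ_p - 1`), and `sA : A →+* A` is a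
ring endomorphism which is trivial on the residue field (an element of the inertia group) with
`sA l = l (a + l r)`.

* `twist_decomp`            : ring identity behind the trick: if `Z = U + l E` and
                              `Zs = Us + l (a + l r) Es`, then
                              `Zs Z ^ m - Us U ^ m = l E₁` with `E₁` explicit;
* `twist_red`               : `red E₁ = (m + a) red E` when `red U = red Us = 1`,
                              `red Es = red E`, `red l = 0`;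
* `contentAttained_of_crit` : twin of `helper40.contentAttained_of_deep` at the critical depth:
                              `W₀ - U = l • δ₁` with `red δ₁ = 0` (instead of `ϖ`-closeness with
                              `ϖ ^ (p - 1) ∈ p 𝔪`) gives attained content of `W₀ - U`;
* `exists_deep_of_crit`     : ... and hence `W₀ - U = ϖ • Y₁` with `ϖ ^ (p - 1) = p t`, `π t = 0`;
* `mem_of_twist`            : **the monoid trick**: if `Z` is an integral family with reduction
                              `1` and `Z ^ p ∈ V'` (root of a strongly split `K`), then the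
                              family `Y = sA(Z) Z ^ (p - a)` (root of `σ(K) K ^ (p - a)`) lies in
                              the space `V₂` of global functions.
-/

set_option autoImplicit false
set_option linter.unusedSectionVars false
set_option linter.unusedVariables false

noncomputable section

namespace Fermat.Agent.T7.helper96

open ModularCurve HahnSeries
open Fermat.Agent.P2.helper22 Fermat.Agent.P2.helper74 Fermat.Agent.T2.helper74
open Fermat.Agent.T7.helper40

variable {L : Type*} [Field L] {ι : Type*}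

/-- the explicit quotient `E₁` of the monoid trick -/
def twistE {R : Type*} [CommRing R] (l r : R) (a m : ℕ) (Z U E Us Es : R) : R :=
  Us * E * (∑ i ∈ Finset.range m, Z ^ i * U ^ (m - 1 - i))
    + ((a : R) + l * r) * Es * U ^ m
    + ((a : R) + l * r) * l * Es * E * (∑ i ∈ Finset.range m, Z ^ i * U ^ (m - 1 - i))

/-- **the ring identity of the monoid trick** -/
theorem twist_decomp {R : Type*} [CommRing R] (l r : R) (a m : ℕ) (Z U E Zs Us Es : R)
    (hZ : Z = U + l * E) (hZs : Zs = Us + l * ((a : R) + l * r) * Es) :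
    Zs * Z ^ m - Us * U ^ m = l * twistE l r a m Z U E Us Es := by
  have hgeom : (∑ i ∈ Finset.range m, Z ^ i * U ^ (m - 1 - i)) * (Z - U) = Z ^ m - U ^ m :=
    (Commute.all Z U).geom_sum₂_mul m
  have hZU : Z - U = l * E := by rw [hZ]; ring
  rw [hZU] at hgeom
  have hZm : Z ^ m = U ^ m + (∑ i ∈ Finset.range m, Z ^ i * U ^ (m - 1 - i)) * (l * E) := by
    rw [hgeom]; ring
  rw [twistE, hZs]
  generalize (∑ i ∈ Finset.range m, Z ^ i * U ^ (m - 1 - i)) = Q at hZm ⊢
  rw [hZm]
  ring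

/-- the reduction of `E₁` -/
theorem twist_red {R S : Type*} [CommRing R] [CommRing S] (φ : R →+* S) (l r : R) (a m : ℕ)
    (Z U E Us Es : R) (hZ : Z = U + l * E) (hl : φ l = 0) (hU : φ U = 1) (hUs : φ Us = 1)
    (hEs : φ Es = φ E) :
    φ (twistE l r a m Z U E Us Es) = ((m + a : ℕ) : S) * φ E := by
  have hZφ : φ Z = 1 := by rw [hZ, map_add, map_mul, hl, zero_mul, add_zero, hU]
  have hQ : φ (∑ i ∈ Finset.range m, Z ^ i * U ^ (m - 1 - i)) = (m : S) := by
    rw [map_sum]
    simp only [map_mul, map_pow, hZφ, hU, one_pow, mul_one]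
    simp
  simp only [twistE, map_add, map_mul, map_pow, map_natCast, hQ, hl, hU, hUs, hEs]
  push_cast
  ring

/-- **Attained content at the critical depth.** If `W₀ - U = l • δ₁` with `l ^ (p - 1) = p s`,
`π l = 0` and `red δ₁ = 0`, `U` an integral element of `V`, then the Gauss norm of `W₀ - U` is
attained (twin of `helper40.contentAttained_of_deep`). -/
theorem contentAttained_of_crit (A : ValuationSubring L) {k : Type*} [Field k] (π : A →+* k)
    (hπ : ∀ x : A, π x ≠ 0 → IsUnit x) (hArch : Arch A π)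
    (p : ℕ) (hp : p.Prime) (hpL : (p : L) ≠ 0)
    (l s : A) (hπl : π l = 0) (hls : l ^ (p - 1) = (p : A) * s)
    (V V' : Submodule L (ι → LaurentSeries L))
    (hV'att : ∀ u ∈ V', u ≠ 0 → ContentAttainedFam A π u)
    (hpow : ∀ u ∈ V, u ^ p ∈ V')
    (W₀ : ι → LaurentSeries A) (hW₀ : (famMap A.subtype W₀) ^ p ∈ V')
    (hW₀red : famMap π W₀ = 1)
    (U δ₁ : ι → LaurentSeries A) (hU : famMap A.subtype U ∈ V) (hδ₁ : W₀ - U = l • δ₁)
    (hδ₁red : famMap π δ₁ = 0) (hne : W₀ - U ≠ 0) :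
    ContentAttainedFam A π (famMap A.subtype (W₀ - U)) := by
  classical
  have hp1 : p - 1 ≠ 0 := by
    have := hp.two_le
    omega
  have hl0 : l ≠ 0 := by
    rintro rfl
    apply hne
    rw [hδ₁]
    funext i
    refine HahnSeries.ext (funext fun j => ?_)
    show ((0 : A) • δ₁ i).coeff j = 0
    rw [HahnSeries.coeff_smul, smul_eq_mul, zero_mul]
  have hlL : (l : L) ≠ 0 := fun h => hl0 (Subtype.ext h)
  have hpA : (p : A) ≠ 0 := by
    intro h
    apply hpL
    have := congrArg (fun z : A => (z : L)) h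
    simpa using this
  obtain ⟨i₀, hi₀⟩ : ∃ i, δ₁ i ≠ 0 := by
    by_contra h
    push Not at h
    apply hne
    rw [hδ₁]
    funext i
    show l • δ₁ i = 0
    rw [h i, smul_zero]
  have hUred : famMap π U = 1 := by
    have h1 := congrArg (famMap π) hδ₁
    rw [famMap_sub, famMap_smul, hπl, zero_smul, hW₀red, sub_eq_zero] at h1
    exact h1.symm
  -- the binomial sum
  set S : ι → LaurentSeries A := ∑ k ∈ Finset.Ioo 0 p,
    (l • δ₁) ^ (k - 1) * U ^ (p - k - 1) * ((p.choose k / p : ℕ) : ι → LaurentSeries A)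
    with hS
  have hδred : famHom π (l • δ₁) = 0 := by
    rw [famHom_apply, famMap_smul, hπl, zero_smul]
  have hSred : famMap π S = 1 := pd_red_binomSum (famHom π) hp _ _ hδred hUred
  set Θ₁ : ι → LaurentSeries A := s • ((1 : A) ^ (p - 1) • δ₁ ^ (p - 1)) + U * S with hΘ₁
  have hΘ₁red : famMap π Θ₁ = 1 := by
    rw [hΘ₁, famMap_add, famMap_smul, famMap_smul, famMap_pow, hδ₁red, zero_pow hp1, smul_zero,
      smul_zero, zero_add, famMap_mul, hUred, hSred, one_mul]
  have hΘ₁i : ∀ i, coeffMap π (Θ₁ i) ≠ 0 := by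
    intro i
    have h1 : coeffMap π (Θ₁ i) = 1 := congrFun hΘ₁red i
    rw [h1]
    exact one_ne_zero
  have hW₀eq : W₀ = l • δ₁ + U := by
    rw [← hδ₁]
    abel
  have hmain : W₀ ^ p - U ^ p = ((p : A) * l) • (Θ₁ * δ₁) := by
    conv_lhs => rw [hW₀eq]
    exact pd_main_fam hp l 1 l s (mul_one l) hls δ₁ U
  have hd : famMap A.subtype (W₀ ^ p - U ^ p) ∈ V' := by
    rw [famMap_sub, famMap_pow, famMap_pow]
    exact V'.sub_mem hW₀ (hpow _ hU)
  have hΘδne : Θ₁ i₀ * δ₁ i₀ ≠ 0 := by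
    apply mul_ne_zero _ hi₀
    intro h
    apply hΘ₁i i₀
    rw [h, map_zero]
  have hdne : famMap A.subtype (W₀ ^ p - U ^ p) ≠ 0 := by
    intro h0
    have h1 : W₀ ^ p - U ^ p = 0 := famMap_subtype_injective A (h0.trans (famMap_zero _).symm)
    rw [hmain] at h1
    have h2 := congrFun h1 i₀
    have h3 : ((p : A) * l) • (Θ₁ i₀ * δ₁ i₀) = 0 := h2
    have h4 : HahnSeries.C ((p : A) * l) * (Θ₁ i₀ * δ₁ i₀) = 0 := by
      rw [HahnSeries.C_mul_eq_smul]
      exact h3
    rcases mul_eq_zero.mp h4 with h5 | h5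
    · have h6 : (p : A) * l = 0 := by
        have := congrArg (fun z : LaurentSeries A => z.coeff 0) h5
        simpa using this
      exact mul_ne_zero hpA hl0 h6
    · exact hΘδne h5
  obtain ⟨c', hc', P, hP, hPr⟩ := hV'att _ hd hdne
  set e' : L := c' * ((p : L) * (l : L)) with he'
  have he'0 : e' ≠ 0 := mul_ne_zero hc' (mul_ne_zero hpL hlL)
  have hPe' : famMap A.subtype P = e' • famMap A.subtype (Θ₁ * δ₁) := by
    rw [hP, hmain, famMap_subtype_smul, smul_smul, he']
    congr 2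
  have he'A : e'⁻¹ ∈ A := by
    by_contra h
    have he'A' : e' ∈ A := (A.mem_or_inv_mem e').resolve_right h
    have hπe' : π (⟨e', he'A'⟩ : A) = 0 := by
      by_contra hh
      obtain ⟨w, hw⟩ := hπ _ hh
      apply h
      have h1 : ((w⁻¹ : Aˣ) : A) * (⟨e', he'A'⟩ : A) = 1 := by
        rw [← hw]
        exact Units.inv_mul w
      have h2 : (((w⁻¹ : Aˣ) : A) : L) * e' = 1 := congrArg Subtype.val h1
      have h3 : e'⁻¹ = (((w⁻¹ : Aˣ) : A) : L) := (eq_inv_of_mul_eq_one_left h2).symm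
      rw [h3]
      exact Subtype.property _
    apply hPr
    have hPeq : P = (⟨e', he'A'⟩ : A) • (Θ₁ * δ₁) := by
      apply famMap_subtype_injective A
      rw [hPe', famMap_subtype_smul]
    rw [hPeq, famMap_smul, hπe', zero_smul]
  set e : A := ⟨e'⁻¹, he'A⟩ with he_def
  have he : e ≠ 0 := by
    intro h
    have h1 : (e : L) = 0 := by rw [h]; rfl
    exact inv_ne_zero he'0 h1
  have hPe : δ₁ * Θ₁ = e • P := by
    apply famMap_subtype_injective A
    rw [famMap_subtype_smul, hPe', smul_smul, mul_comm δ₁ Θ₁]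
    show _ = (e'⁻¹ * e') • _
    rw [inv_mul_cancel₀ he'0, one_smul]
  have hex : ∀ i, ∃ δ : LaurentSeries A, δ₁ i = e • δ := fun i =>
    exists_eq_smul_of_mul_eq hπ hArch (δ₁ i) (Θ₁ i) (P i) e he (hΘ₁i i) (congrFun hPe i)
  choose δ' hδ' using hex
  have hδ'eq : δ₁ = e • δ' := funext hδ'
  have hδP : δ' * Θ₁ = P := by
    funext i
    have h1 : HahnSeries.C e * (δ' i * Θ₁ i) = HahnSeries.C e * P i := by
      rw [← mul_assoc, HahnSeries.C_mul_eq_smul, ← hδ' i, HahnSeries.C_mul_eq_smul]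
      exact congrFun hPe i
    refine HahnSeries.ext (funext fun j => ?_)
    have h2 := congrArg (fun z : LaurentSeries A => z.coeff j) h1
    simp only [HahnSeries.C_mul_eq_smul, HahnSeries.coeff_smul, smul_eq_mul] at h2
    exact mul_left_cancel₀ he h2
  have hle : (l : L) * e'⁻¹ ≠ 0 := mul_ne_zero hlL (inv_ne_zero he'0)
  refine ⟨((l : L) * e'⁻¹)⁻¹, inv_ne_zero hle, δ', ?_, ?_⟩
  · have h1 : famMap A.subtype (W₀ - U) = ((l : L) * e'⁻¹) • famMap A.subtype δ' := by
      rw [hδ₁, hδ'eq, famMap_subtype_smul, famMap_subtype_smul, smul_smul]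
    rw [h1, smul_smul, inv_mul_cancel₀ hle, one_smul]
  · intro h0
    apply hPr
    rw [← hδP, famMap_mul, h0, zero_mul]

/-- from critical closeness with vanishing reduction to deep closeness: if
`W₀ - U = l • δ₁ ≠ 0`, `red δ₁ = 0`, `l ^ (p - 1) = p s`, then `W₀ - U = ϖ • Y₁` with
`ϖ ^ (p - 1) = p t`, `π t = 0`. -/
theorem exists_deep_of_crit (A : ValuationSubring L) {k : Type*} [Field k] (π : A →+* k)
    (hπ : ∀ x : A, π x ≠ 0 → IsUnit x) (hArch : Arch A π)
    (p : ℕ) (hp : p.Prime) (hpL : (p : L) ≠ 0)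
    (l s : A) (hπl : π l = 0) (hls : l ^ (p - 1) = (p : A) * s)
    (V V' : Submodule L (ι → LaurentSeries L))
    (hV'att : ∀ u ∈ V', u ≠ 0 → ContentAttainedFam A π u)
    (hpow : ∀ u ∈ V, u ^ p ∈ V')
    (W₀ : ι → LaurentSeries A) (hW₀ : (famMap A.subtype W₀) ^ p ∈ V')
    (hW₀red : famMap π W₀ = 1)
    (U δ₁ : ι → LaurentSeries A) (hU : famMap A.subtype U ∈ V) (hδ₁ : W₀ - U = l • δ₁)
    (hδ₁red : famMap π δ₁ = 0) (hne : W₀ - U ≠ 0) :
    ∃ (ϖ t : A) (Y₁ : ι → LaurentSeries A), π t = 0 ∧ ϖ ^ (p - 1) = (p : A) * t ∧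
      W₀ - U = ϖ • Y₁ := by
  classical
  have hp1 : p - 1 ≠ 0 := by
    have := hp.two_le
    omega
  obtain ⟨c, hc, Y, hY, hYr⟩ := contentAttained_of_crit A π hπ hArch p hp hpL l s hπl hls V V'
    hV'att hpow W₀ hW₀ hW₀red U δ₁ hU hδ₁ hδ₁red hne
  -- `Y = (c l) • δ₁`, so `c l ∉ A`
  have hYe : famMap A.subtype Y = (c * (l : L)) • famMap A.subtype δ₁ := by
    rw [hY, hδ₁, famMap_subtype_smul, smul_smul]
  have heA' : c * (l : L) ∉ A := by
    intro h
    apply hYr
    have hYeq : Y = (⟨c * (l : L), h⟩ : A) • δ₁ := by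
      apply famMap_subtype_injective A
      rw [hYe, famMap_subtype_smul]
    rw [hYeq, famMap_smul, hδ₁red, smul_zero]
  have heA : (c * (l : L))⁻¹ ∈ A := (A.mem_or_inv_mem _).resolve_left heA'
  have he0 : c * (l : L) ≠ 0 := by
    intro h
    apply heA'
    rw [h]
    exact A.zero_mem
  set e : A := ⟨(c * (l : L))⁻¹, heA⟩ with he
  have hπe : π e = 0 := by
    by_contra hh
    obtain ⟨w, hw⟩ := hπ e hh
    apply heA'
    have h1 : ((w⁻¹ : Aˣ) : A) * e = 1 := by
      rw [← hw]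
      exact Units.inv_mul w
    have h2 : (((w⁻¹ : Aˣ) : A) : L) * (c * (l : L))⁻¹ = 1 := congrArg Subtype.val h1
    have h3 : c * (l : L) = (((w⁻¹ : Aˣ) : A) : L) := by
      have h4 := congrArg (fun z : L => z * (c * (l : L))) h2
      simp only [one_mul] at h4
      rw [mul_assoc, inv_mul_cancel₀ he0, mul_one] at h4
      exact h4.symm
    rw [h3]
    exact Subtype.property _
  have hδ₁eq : δ₁ = e • Y := by
    apply famMap_subtype_injective A
    rw [famMap_subtype_smul, hYe, smul_smul]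
    show _ = ((c * (l : L))⁻¹ * (c * (l : L))) • _
    rw [inv_mul_cancel₀ he0, one_smul]
  refine ⟨l * e, s * e ^ (p - 1), Y, ?_, ?_, ?_⟩
  · rw [map_mul, map_pow, hπe, zero_pow hp1, mul_zero]
  · rw [mul_pow, hls]
    ring
  · rw [hδ₁, hδ₁eq, smul_smul]

theorem famHom_famC_of_eq_zero {R S : Type*} [CommRing R] [CommRing S] (f : R →+* S) (a : R)
    (ha : f a = 0) : famHom (ι := ι) f (famC R ι a) = 0 := by
  funext i
  ext j
  show (coeffMap f (HahnSeries.C a : LaurentSeries R)).coeff j = 0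
  rw [coeffMap_coeff, HahnSeries.C_apply, HahnSeries.coeff_single]
  split_ifs
  · exact ha
  · exact map_zero f

theorem famMap_famMap_of_comp {R S : Type*} [CommRing R] [CommRing S] (f : R →+* S)
    (g : R →+* R) (hfg : ∀ x, f (g x) = f x) (X : ι → LaurentSeries R) :
    famMap f (famMap g X) = famMap f X := by
  funext i
  ext j
  show (coeffMap f (coeffMap g (X i))).coeff j = (coeffMap f (X i)).coeff j
  rw [coeffMap_coeff, coeffMap_coeff, coeffMap_coeff, hfg]

/-- **The monoid trick.**  `Z` an integral family with reduction `1` and `Z ^ p ∈ V'` (the pair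
of formal roots of a strongly split function), `sA` an endomorphism of `A` which is trivial on
the residue field with `sA l = l (a + l r)`.  Then the family `sA(Z) Z ^ (p - a)` lies in the
space `V₂`. -/
theorem mem_of_twist (A : ValuationSubring L) {k : Type*} [Field k] (π : A →+* k)
    (hπ : ∀ x : A, π x ≠ 0 → IsUnit x) (hπs : Function.Surjective π) (hArch : Arch A π)
    (p : ℕ) (hp : p.Prime) (hpL : (p : L) ≠ 0) (hpk : (p : k) = 0)
    (l τ s r : A) (hl : (p : A) = l ^ (p - 1) * τ) (hls : l ^ (p - 1) = (p : A) * s)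
    (hπl : π l = 0)
    (sA : A →+* A) (hsπ : ∀ x, π (sA x) = π x) (a : ℕ) (ha : a ≤ p)
    (hsl : sA l = l * ((a : A) + l * r))
    -- the spaces of the Frobenius regime
    (V V' : Submodule L (ι → LaurentSeries L)) [FiniteDimensional L V] (n : ι → ℤ)
    (hVatt : ∀ u ∈ V, u ≠ 0 → ContentAttainedFam A π u)
    (hVord : ∀ u ∈ V, ∀ i, ∀ j < -(n i), (u i).coeff j = 0)
    (hpow : ∀ u ∈ V, u ^ p ∈ V')
    (hone : (1 : ι → LaurentSeries L) ∈ V)
    (hFC : ∀ Φ Z : ι → LaurentSeries A, famMap A.subtype Φ ∈ V' →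
      (∀ i, ∀ j < -(n i), (Z i).coeff j = 0) → famMap π Φ = famMap π Z ^ p →
      ∃ Z' : ι → LaurentSeries A, famMap A.subtype Z' ∈ V ∧ famMap π Z' = famMap π Z)
    -- the spaces of the deep pivot
    (V₂ V₂' : Submodule L (ι → LaurentSeries L)) [FiniteDimensional L V₂] (n₂ : ι → ℤ)
    (hn₂ : ∀ i, 0 ≤ n₂ i)
    (hV₂att : ∀ u ∈ V₂, u ≠ 0 → ContentAttainedFam A π u)
    (hV₂'att : ∀ u ∈ V₂', u ≠ 0 → ContentAttainedFam A π u)
    (hV₂ord : ∀ u ∈ V₂, ∀ i, ∀ j < -(n₂ i), (u i).coeff j = 0)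
    (hpow₂ : ∀ u ∈ V₂, u ^ p ∈ V₂')
    (hred₂ : ∀ Z : ι → LaurentSeries A, famMap A.subtype Z ∈ V₂' →
      (∀ i, ∀ j < -(n₂ i), (famMap π Z i).coeff j = 0) →
      ∃ Z' : ι → LaurentSeries A, famMap A.subtype Z' ∈ V₂ ∧ famMap π Z' = famMap π Z)
    -- compatibilities
    (hσV : ∀ U : ι → LaurentSeries A, famMap A.subtype U ∈ V →
      famMap A.subtype (famMap sA U) ∈ V)
    (hmul : ∀ u v : ι → LaurentSeries L, u ∈ V → v ∈ V → u * v ^ (p - a) ∈ V₂)
    -- the root
    (Z : ι → LaurentSeries A) (hZ : (famMap A.subtype Z) ^ p ∈ V')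
    (hZred : famMap π Z = 1) (hZord : ∀ i, ∀ j < -(n i), (Z i).coeff j = 0)
    (hatt : ∀ u ∈ V, famMap A.subtype Z - u ≠ 0 →
      ContentAttainedFam A π (famMap A.subtype Z - u))
    (hY : (famMap A.subtype (famMap sA Z * Z ^ (p - a))) ^ p ∈ V₂')
    (hYord : ∀ i, ∀ j < -(n₂ i), ((famMap sA Z * Z ^ (p - a)) i).coeff j = 0) :
    famMap A.subtype (famMap sA Z * Z ^ (p - a)) ∈ V₂ := by
  classical
  -- critical form of `Z`
  obtain ⟨U, E, hU, hUred, hZU⟩ := Fermat.Agent.T7.helper82.exists_close_of_pow_mem_fam A π hπ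
    hπs V V' n p hp l τ hl hVatt hVord hpow hone hFC Z hZ hZred hZord hatt
  obtain ⟨m, hm⟩ : ∃ m : ℕ, m = p - a := ⟨_, rfl⟩
  rw [← hm] at hY hYord hmul ⊢
  have hma : m + a = p := by omega
  obtain ⟨lR, hlR⟩ : ∃ x : ι → LaurentSeries A, x = famC A ι l := ⟨_, rfl⟩
  obtain ⟨rR, hrR⟩ : ∃ x : ι → LaurentSeries A, x = famC A ι r := ⟨_, rfl⟩
  obtain ⟨sZ, hsZ⟩ : ∃ x : ι → LaurentSeries A, x = famMap sA Z := ⟨_, rfl⟩
  obtain ⟨sU, hsU⟩ : ∃ x : ι → LaurentSeries A, x = famMap sA U := ⟨_, rfl⟩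
  obtain ⟨sE, hsE⟩ : ∃ x : ι → LaurentSeries A, x = famMap sA E := ⟨_, rfl⟩
  rw [← hsZ] at hY hYord ⊢
  have hZ' : Z = U + lR * E := by
    rw [hlR, famC_mul_eq_smul, ← hZU]
    abel
  have hsZ' : sZ = sU + lR * ((a : ι → LaurentSeries A) + lR * rR) * sE := by
    have h1 := congrArg (famMap sA) hZU
    rw [famMap_sub, famMap_smul, hsl, ← hsZ, ← hsU, ← hsE] at h1
    have h2 : lR * ((a : ι → LaurentSeries A) + lR * rR) = famC A ι (l * ((a : A) + l * r)) := by
      rw [hlR, hrR, map_mul, map_add, map_mul, map_natCast]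
    rw [h2, famC_mul_eq_smul, ← h1]
    abel
  have hdec := twist_decomp lR rR a m Z U E sZ sU sE hZ' hsZ'
  obtain ⟨E₁, hE₁⟩ : ∃ x : ι → LaurentSeries A, x = twistE lR rR a m Z U E sU sE := ⟨_, rfl⟩
  rw [← hE₁] at hdec
  have hφl : famHom π lR = 0 := by
    rw [hlR]
    exact famHom_famC_of_eq_zero π l hπl
  have hsUred : famMap π sU = 1 := by
    rw [hsU, famMap_famMap_of_comp π sA hsπ, hUred]
  have hsEred : famMap π sE = famMap π E := by
    rw [hsE, famMap_famMap_of_comp π sA hsπ]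
  have hsZred : famMap π sZ = 1 := by
    rw [hsZ, famMap_famMap_of_comp π sA hsπ, hZred]
  have hpS : ((p : ℕ) : ι → LaurentSeries k) = 0 := by
    have h1 : famC k ι ((p : ℕ) : k) = ((p : ℕ) : ι → LaurentSeries k) := map_natCast _ p
    rw [← h1, hpk, map_zero]
  have hE₁red : famMap π E₁ = 0 := by
    have h1 := twist_red (famHom π) lR rR a m Z U E sU sE hZ' hφl hUred hsUred hsEred
    rw [← hE₁, famHom_apply, famHom_apply, hma, hpS, zero_mul] at h1
    exact h1
  -- the approximation `v₁ = sA(U) U ^ m`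
  have hv₁V : famMap A.subtype (sU * U ^ m) ∈ V₂ := by
    rw [famMap_mul, famMap_pow]
    exact hmul _ _ (by rw [hsU]; exact hσV U hU) hU
  have hYv : sZ * Z ^ m - sU * U ^ m = l • E₁ := by
    rw [hdec, hlR, famC_mul_eq_smul]
  have hYred : famMap π (sZ * Z ^ m) = 1 := by
    rw [famMap_mul, famMap_pow, hsZred, hZred, one_pow, one_mul]
  by_cases hne : sZ * Z ^ m - sU * U ^ m = 0
  · have h1 : sZ * Z ^ m = sU * U ^ m := sub_eq_zero.mp hne
    rw [h1]
    exact hv₁V
  obtain ⟨ϖ, t, Y₁, ht, hϖ, hY₁⟩ := exists_deep_of_crit A π hπ hArch p hp hpL l s hπl hls V₂ V₂'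
    hV₂'att hpow₂ (sZ * Z ^ m) hY hYred (sU * U ^ m) E₁ hv₁V hYv hE₁red hne
  exact mem_of_pow_mem_fam_deep_arch A π hπ hπs hArch V₂ V₂' n₂ hn₂ p hp hpL ϖ t ht hϖ hV₂att
    hV₂'att hV₂ord hpow₂ hred₂ (sZ * Z ^ m) hY hYred hYord (sU * U ^ m) Y₁ hv₁V hY₁

end Fermat.Agent.T7.helper96

end
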