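/-
T7 (S33), box [B4] (helper88, spare twin of [B4-ASM]): **`helper27.B4Statement` at the bad
pair**, i.e. inertia acts by the scalar `ω` on the strongly split classes (Kummer form).

Inputs, all on main:
* the monoid trick `helper96.mem_of_twist` (abstract family form);
* the instance hypotheses `PivotInst` (`helper88_B4Inst`, `helper88_B4InstBad`);
* the attained content `helper22.contentAttained_sub_of_roots` ([ATT-NF]);
* the Galois action on expansions (T2: `helper22.IsRep.gal`, `isInfty_of_gal`,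
  `isInfty2_of_gal`, `helper20.red_actA_of_mem_inertia`, `helper36.atkinLehner_arithmeticRingAut`);
* the cyclotomic algebra `helper84.ppow_lambda_rel`, `ppow_sigma_lambda`.

* `exists_cyclo_data` : `l = ζ_p - 1`, `τ`, `s`, `r` in `A` with `p = l ^ (p - 1) τ`,
                        `l ^ (p - 1) = p s`, `red l = 0`, `σ l = l (a + l r)`;
* `regOff2_galF`, `galF_mem_L2`, `gal_mem_VN` : the Galois action preserves `VN W N`;
* `b4_of`             : `B4Statement M W A p` from `PivotInst` (generic `M`, `W`);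
* `b4Statement_bad`   : the bad pair, unconditional;
* `s33B4`             : `helper72.S33B4Statement`-shaped statement (same binders).
-/
import Mathlib
import Fermat.Agent.T7.helper88_B4InstBad
import Fermat.Agent.T7.helper96_Twist
import Fermat.Agent.T7.helper22_AttNF
import Fermat.Agent.T7.helper27_G1Asm
import Fermat.Agent.T7.helper84_PPow
import Fermat.Agent.T2.helper22_PairIdeal
import Fermat.Agent.T2.helper20_Kum

set_option autoImplicit false
set_option synthInstance.maxHeartbeats 400000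
set_option linter.unusedSectionVars false
set_option linter.unusedVariables false
set_option linter.style.haveILetI false

noncomputable section

open HahnSeries IntermediateField AlgebraicCurve ModularCurve
open Fermat.Agent.S18.helper19 Fermat.Agent.P2.helper29
open Fermat.Agent.P2.helper22 Fermat.Agent.P2.helper74 Fermat.Agent.P2.helper93
open Fermat.Agent.T2.helper74 Fermat.Agent.T2.helper36

namespace Fermat.Agent.T7.helper88

/-! ### The cyclotomic data -/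

/-- `l = ζ_p - 1` and its relations in `A`, for `σ` in the decomposition group acting on `μ_p`
by `z ↦ z ^ a`. -/
theorem exists_cyclo_data (A : ValuationSubring Kb) {p : ℕ} (hp : p.Prime)
    (hA : A.LiesOverPrime p) (σ : Kb ≃ₐ[ℚ] Kb) (hσ : σ ∈ A.decompositionSubgroup ℚ) (a : ℕ)
    (ha : ∀ z : Kb, z ^ p = 1 → σ z = z ^ a) :
    ∃ l τ s r : A, (p : A) = l ^ (p - 1) * τ ∧ l ^ (p - 1) = (p : A) * s ∧
      IsLocalRing.residue A l = 0 ∧ decA σ hσ l = l * ((a : A) + l * r) := by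
  haveI : NeZero p := ⟨hp.ne_zero⟩
  obtain ⟨ζ, hζ⟩ := HasEnoughRootsOfUnity.exists_primitiveRoot Kb p
  have hζp : ζ ^ p = 1 := hζ.pow_eq_one
  have hζ1 : ζ ≠ 1 := hζ.ne_one hp.one_lt
  obtain ⟨z, hz⟩ : ∃ z : A, z = ((rootUnit A hp.ne_zero hζp : (↥A)ˣ) : ↥A) := ⟨_, rfl⟩
  have hzc : (z : Kb) = ζ := by rw [hz]; rfl
  have hzl : z - 1 ∈ IsLocalRing.maximalIdeal ↥A := by
    rw [hz]
    exact rootUnit_sub_one_mem hp hA hζp
  have hπl : IsLocalRing.residue A (z - 1) = 0 := (IsLocalRing.residue_eq_zero_iff _).mpr hzl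
  -- the cyclotomic relation
  have hsum : ∑ i ∈ Finset.range p, z ^ i = 0 := by
    apply Subtype.ext
    have h1 : ((∑ i ∈ Finset.range p, z ^ i : A) : Kb) = ∑ i ∈ Finset.range p, ζ ^ i := by
      rw [← hzc]
      push_cast
      rfl
    rw [h1]
    have h2 : (∑ i ∈ Finset.range p, ζ ^ i) * (ζ - 1) = 0 := by
      rw [geom_sum_mul, hζp, sub_self]
    rcases mul_eq_zero.mp h2 with h | h
    · exact h
    · exact absurd (sub_eq_zero.mp h) hζ1
  obtain ⟨m, hm⟩ := Fermat.Agent.T7.helper84.ppow_lambda_rel hp hsum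
  obtain ⟨e, he⟩ := Fermat.Agent.T7.helper84.ppow_sigma_lambda z a
  -- `1 + l m` is a unit
  have hu : IsUnit (1 + (z - 1) * m) := by
    apply Fermat.Agent.P2.helper96.isUnit_of_residue_ne_zero
    rw [map_add, map_mul, hπl, zero_mul, add_zero, map_one]
    exact one_ne_zero
  obtain ⟨u, hu'⟩ := hu
  have huinv : (1 + (z - 1) * m) * ((u⁻¹ : (↥A)ˣ) : ↥A) = 1 := by
    rw [← hu']
    exact Units.mul_inv u
  refine ⟨z - 1, -((u⁻¹ : (↥A)ˣ) : ↥A), -(1 + (z - 1) * m), e, ?_, ?_, hπl, ?_⟩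
  · calc (p : A) = (p : A) * ((1 + (z - 1) * m) * ((u⁻¹ : (↥A)ˣ) : ↥A)) := by
          rw [huinv, mul_one]
      _ = ((p : A) * (1 + (z - 1) * m)) * ((u⁻¹ : (↥A)ˣ) : ↥A) := by ring
      _ = (z - 1) ^ (p - 1) * -((u⁻¹ : (↥A)ˣ) : ↥A) := by rw [hm]; ring
  · linear_combination hm
  · have h1 : decA σ hσ (z - 1) = z ^ a - 1 := by
      apply Subtype.ext
      rw [coe_decA]
      show σ ((z : Kb) - 1) = (z : Kb) ^ a - 1
      rw [map_sub, map_one, hzc, ha ζ hζp]
    rw [h1, he]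
    ring

/-! ### The Galois action on `VN W N` -/

section Gal

variable {M : ℕ} [NeZero M] {W : FF M ≃ₐ[Kb] FF M} {A : ValuationSubring Kb}

/-- the Galois action preserves regularity off the two cusps -/
theorem regOff2_galF
    (hWgal : ∀ (σ : Kb ≃ₐ[ℚ] Kb) (x : FF M), W (galF M σ x) = galF M σ (W x))
    (σ : Kb ≃ₐ[ℚ] Kb) {f : FF M} (hf : RegOff2 W f) : RegOff2 W (galF M σ f) := by
  intro P hP hP2
  rw [Fermat.Agent.T2.helper22.ord_galF]
  exact hf _ (fun h' => hP (Fermat.Agent.T2.helper22.isInfty_of_gal σ h'))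
    (fun h' => hP2 (Fermat.Agent.T2.helper22.isInfty2_of_gal hWgal σ h'))

theorem coeff_galF_eq_zero (σ : Kb ≃ₐ[ℚ] Kb) {f : FF M} {k : ℤ}
    (h : (f : LaurentSeries Kb).coeff k = 0) :
    ((galF M σ f : FF M) : LaurentSeries Kb).coeff k = 0 := by
  rw [coe_galF, coeffMap_coeff, h, map_zero]

/-- the Galois action preserves `L(N (∞ + ∞₂))` -/
theorem galF_mem_L2 (hWW : ∀ f, W (W f) = f) (hne : inftyBar M ≠ W • inftyBar M)
    (hWgal : ∀ (σ : Kb ≃ₐ[ℚ] Kb) (x : FF M), W (galF M σ x) = galF M σ (W x))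
    (σ : Kb ≃ₐ[ℚ] Kb) {N : ℤ} {f : FF M} (hf : f ∈ riemannRochSpace (div2 W N)) :
    galF M σ f ∈ riemannRochSpace (div2 W N) := by
  rw [mem_L2_iff W hWW hne] at hf ⊢
  refine ⟨regOff2_galF hWgal σ hf.1, fun k hk => coeff_galF_eq_zero σ (hf.2.1 k hk),
    fun k hk => ?_⟩
  rw [hWgal]
  exact coeff_galF_eq_zero σ (hf.2.2 k hk)

theorem famMap_decA_pair (σ : Kb ≃ₐ[ℚ] Kb) (hσ : σ ∈ A.decompositionSubgroup ℚ)
    (U : Fin 2 → LaurentSeries A) :
    famMap (decA σ hσ) U = ![actA σ hσ (U 0), actA σ hσ (U 1)] := by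
  funext i
  fin_cases i
  · rfl
  · rfl

/-- the coefficientwise Galois action preserves the integral families of `VN W N` -/
theorem gal_mem_VN (hWW : ∀ f, W (W f) = f) (hne : inftyBar M ≠ W • inftyBar M)
    (hWgal : ∀ (σ : Kb ≃ₐ[ℚ] Kb) (x : FF M), W (galF M σ x) = galF M σ (W x))
    {σ : Kb ≃ₐ[ℚ] Kb} (hσ : σ ∈ A.decompositionSubgroup ℚ) {N : ℤ}
    (U : Fin 2 → LaurentSeries A) (hU : famMap A.subtype U ∈ VN W N) :
    famMap A.subtype (famMap (decA σ hσ) U) ∈ VN W N := by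
  obtain ⟨f, hf, hrep⟩ := exists_L2_of_mem_VN hU
  rw [famMap_decA_pair]
  exact pair_mem_VN_of_isRep (galF_mem_L2 hWW hne hWgal σ hf)
    (Fermat.Agent.T2.helper22.IsRep.gal hWgal hσ hrep)

theorem residue_decA_of_mem_inertia {σ : Kb ≃ₐ[ℚ] Kb} (hσ : σ ∈ A.inertiaSubgroupIn ℚ)
    (hσ' : σ ∈ A.decompositionSubgroup ℚ) (x : A) :
    IsLocalRing.residue A (decA σ hσ' x) = IsLocalRing.residue A x := by
  obtain ⟨hσ'', hid⟩ := decK_eq_id_of_mem_inertia hσ
  rw [residue_decA σ hσ' x, hid]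
  rfl

end Gal

/-! ### The assembly -/

section Asm

variable {M : ℕ} [NeZero M] {W : FF M ≃ₐ[Kb] FF M} {A : ValuationSubring Kb}

theorem regOff2_pow {f : FF M} (hf : RegOff2 W f) (m : ℕ) : RegOff2 W (f ^ m) := by
  induction m with
  | zero =>
    rw [pow_zero]
    exact RegOff2.one W
  | succ m ih =>
    rw [pow_succ]
    exact RegOff2.mul W ih hf

theorem coeff_incl (Z : LaurentSeries A) (j : ℤ) : (incl A Z).coeff j = ((Z.coeff j : A) : Kb) :=
  coeffMap_coeff _ _ _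

/-- the pole bound of the twisted series `σ(Z) Z ^ m` -/
theorem coeff_twist_eq_zero {σ : Kb ≃ₐ[ℚ] Kb} (hσ : σ ∈ A.decompositionSubgroup ℚ)
    (Z : LaurentSeries A) {N : ℤ} (hZ : -N ≤ Z.order) (m : ℕ) (k : ℤ)
    (hk : k < -(N + (m : ℤ) * N)) : (actA σ hσ Z * Z ^ m).coeff k = 0 := by
  have hZ' : ∀ j : ℤ, j < -N → (incl A Z).coeff j = 0 := fun j hj =>
    coeff_incl_eq_zero A hZ j hj
  have h1 : (incl A (actA σ hσ Z * Z ^ m)).coeff k = 0 := by
    rw [map_mul, map_pow,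
      show incl A (actA σ hσ Z) = coeffMap (σ : Kb →+* Kb) (incl A Z) from
        coeffMap_subtype_actA σ hσ Z]
    refine coeff_mul_eq_zero (fun j hj => ?_)
      (fun j hj => coeff_pow_eq_zero hZ' m j hj) k hk
    rw [coeffMap_coeff, hZ' j hj, map_zero]
  rw [coeff_incl] at h1
  exact Subtype.ext h1

theorem order_twist_ge {σ : Kb ≃ₐ[ℚ] Kb} (hσ : σ ∈ A.decompositionSubgroup ℚ)
    (Z : LaurentSeries A) {N : ℤ} (hN : 0 ≤ N) (hZ : -N ≤ Z.order) (m : ℕ) :
    -(N + (m : ℤ) * N) ≤ (actA σ hσ Z * Z ^ m).order := by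
  rcases eq_or_ne (actA σ hσ Z * Z ^ m) 0 with h0 | h0
  · rw [h0, HahnSeries.order_zero]
    have hm0 : (0 : ℤ) ≤ (m : ℤ) := Int.natCast_nonneg m
    nlinarith
  · rw [HahnSeries.le_order_iff_forall h0]
    exact fun j hj => coeff_twist_eq_zero hσ Z hZ m j hj

/-- **[B4]** inertia acts by the scalar `ω` on the strongly split classes, from the instance
hypotheses of the `p`-pivot (generic level and involution). -/
theorem b4_of (hWW : ∀ f, W (W f) = f) (hne : inftyBar M ≠ W • inftyBar M)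
    (hWgal : ∀ (σ : Kb ≃ₐ[ℚ] Kb) (x : FF M), W (galF M σ x) = galF M σ (W x))
    {p : ℕ} (hp : p.Prime) (hA : A.LiesOverPrime p)
    (hI : ∃ N₀ : ℤ, ∀ N : ℤ, N₀ ≤ N → PivotInst W A p N) :
    Fermat.Agent.T7.helper27.B4Statement M W A p := by
  rintro K ⟨hK, hdiv, Z₁, Z₂, h1, h2, hr1, hr2⟩ σ hσ a ha0 hap hζ
  obtain ⟨hσ', -⟩ := decK_eq_id_of_mem_inertia hσ
  obtain ⟨l, τ, s, r, hl, hls, hπl, hsl⟩ := exists_cyclo_data A hp hA σ hσ' a hζ
  obtain ⟨N₀, hN₀⟩ := hI
  have hKreg : RegOff2 W K := hK.1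
  -- the pole bounds
  obtain ⟨N, hN⟩ : ∃ N : ℤ, N = max N₀ (max (-(Z₁.order)) (-(Z₂.order))) := ⟨_, rfl⟩
  have hN1 : N₀ ≤ N := by rw [hN]; exact le_max_left _ _
  have hN3 : -N ≤ Z₁.order := by
    have := le_trans (le_max_left (-(Z₁.order)) (-(Z₂.order))) (le_max_right N₀ _)
    rw [← hN] at this
    omega
  have hN4 : -N ≤ Z₂.order := by
    have := le_trans (le_max_right (-(Z₁.order)) (-(Z₂.order))) (le_max_right N₀ _)
    rw [← hN] at this
    omega
  have hI1 := hN₀ N hN1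
  have hN0 : 0 ≤ N := hI1.nonneg
  obtain ⟨N₂, hN₂⟩ : ∃ N₂ : ℤ, N₂ = N + ((p - a : ℕ) : ℤ) * N := ⟨_, rfl⟩
  have hN₂N : N ≤ N₂ := by
    have hm0 : (0 : ℤ) ≤ ((p - a : ℕ) : ℤ) := Int.natCast_nonneg _
    rw [hN₂]
    nlinarith
  have hI2 := hN₀ N₂ (le_trans hN1 hN₂N)
  haveI : CharP (kA A) p := charP_residueField hp hA
  have hpk : ((p : ℕ) : kA A) = 0 := CharP.cast_eq_zero (kA A) p
  -- the twisted function and the twisted family
  obtain ⟨K', hK'⟩ : ∃ K' : FF M, K' = galF M σ K * K ^ (p - a) := ⟨_, rfl⟩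
  obtain ⟨Y₁, hY₁⟩ : ∃ Y₁ : LaurentSeries A, Y₁ = actA σ hσ' Z₁ * Z₁ ^ (p - a) := ⟨_, rfl⟩
  obtain ⟨Y₂, hY₂⟩ : ∃ Y₂ : LaurentSeries A, Y₂ = actA σ hσ' Z₂ * Z₂ ^ (p - a) := ⟨_, rfl⟩
  have hfam : famMap (decA σ hσ') ![Z₁, Z₂] * ![Z₁, Z₂] ^ (p - a) = ![Y₁, Y₂] := by
    funext i
    fin_cases i
    · exact hY₁.symm
    · exact hY₂.symm
  have hK'reg : RegOff2 W K' := by
    rw [hK']
    exact RegOff2.mul W (regOff2_galF hWgal σ hKreg) (regOff2_pow hKreg _)
  have hY1 : incl A Y₁ ^ p = (K' : LaurentSeries Kb) := by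
    have e1 : incl A (actA σ hσ' Z₁) = coeffMap (σ : Kb →+* Kb) (incl A Z₁) :=
      coeffMap_subtype_actA σ hσ' Z₁
    have e2 : (K' : LaurentSeries Kb) = coeffMap (σ : Kb →+* Kb) (K : LaurentSeries Kb) *
        (K : LaurentSeries Kb) ^ (p - a) := by
      rw [hK']
      rfl
    rw [e2, ← h1, map_pow, hY₁, map_mul, map_pow, e1]
    ring
  have hY2 : incl A Y₂ ^ p = ((W K' : FF M) : LaurentSeries Kb) := by
    have e1 : incl A (actA σ hσ' Z₂) = coeffMap (σ : Kb →+* Kb) (incl A Z₂) :=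
      coeffMap_subtype_actA σ hσ' Z₂
    have e2 : ((W K' : FF M) : LaurentSeries Kb) =
        coeffMap (σ : Kb →+* Kb) ((W K : FF M) : LaurentSeries Kb) *
        ((W K : FF M) : LaurentSeries Kb) ^ (p - a) := by
      rw [hK', map_mul, map_pow, hWgal]
      rfl
    rw [e2, ← h2, map_pow, hY₂, map_mul, map_pow, e1]
    ring
  have hY₁ord : -N₂ ≤ Y₁.order := by
    rw [hY₁, hN₂]
    exact order_twist_ge hσ' Z₁ hN0 hN3 _
  have hY₂ord : -N₂ ≤ Y₂.order := by
    rw [hY₂, hN₂]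
    exact order_twist_ge hσ' Z₂ hN0 hN4 _
  -- attained content
  have hatt : ∀ u ∈ VN W N, famMap A.subtype ![Z₁, Z₂] - u ≠ 0 →
      ContentAttainedFam A (IsLocalRing.residue A) (famMap A.subtype ![Z₁, Z₂] - u) := by
    intro u hu hne'
    refine Fermat.Agent.T7.helper22.contentAttained_sub_of_roots M A (IsLocalRing.residue A)
      residue_ne_zero_isUnit hp.pos ![Z₁, Z₂] ?_ u ?_ (hI1.att u hu) hne'
    · intro i
      fin_cases i
      · show incl A Z₁ ^ p ∈ FF M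
        rw [h1]
        exact K.2
      · show incl A Z₂ ^ p ∈ FF M
        rw [h2]
        exact (W K).2
    · intro i
      obtain ⟨f, hf, rfl⟩ := Submodule.mem_map.mp hu
      fin_cases i
      · exact f.2
      · exact (W f).2
  -- the monoid trick
  have key := Fermat.Agent.T7.helper96.mem_of_twist A (IsLocalRing.residue A)
    residue_ne_zero_isUnit IsLocalRing.residue_surjective
    (Fermat.Agent.P2.helper74.arch_algebraicClosure A p hp hA) p hp
    (Nat.cast_ne_zero.mpr hp.ne_zero) hpk l τ s r hl hls hπl (decA σ hσ')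
    (fun x => residue_decA_of_mem_inertia hσ hσ' x) a hap.le hsl
    (VN W N) (VN W ((p : ℤ) * N)) (fun _ => N) hI1.att hI1.ord hI1.pow hI1.one hI1.fc
    (VN W N₂) (VN W ((p : ℤ) * N₂)) (fun _ => N₂) (fun _ => hI2.nonneg) hI2.att hI2.att'
    hI2.ord hI2.pow hI2.red
    (fun U hU => gal_mem_VN hWW hne hWgal hσ' U hU)
    (fun u v hu hv => by
      rw [hN₂]
      exact pairLin_mul_mem_VN hWW hne hu (pow_VN hWW hne N (p - a) v hv))
    ![Z₁, Z₂] (pow_pair_mem_VN hWW hne p K hKreg Z₁ Z₂ h1 h2 hN3 hN4)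
    (pair_red_eq_one Z₁ Z₂ hr1 hr2) (pair_ord Z₁ Z₂ hN3 hN4) hatt
    (by
      rw [hfam]
      exact pow_pair_mem_VN hWW hne p K' hK'reg Y₁ Y₂ hY1 hY2 hY₁ord hY₂ord)
    (by
      rw [hfam]
      exact pair_ord Y₁ Y₂ hY₁ord hY₂ord)
  rw [hfam] at key
  obtain ⟨v, hv, hrep⟩ := exists_L2_of_mem_VN key
  refine ⟨v, ?_⟩
  rw [← hK']
  apply Subtype.ext
  show (K' : LaurentSeries Kb) = ((v : LaurentSeries Kb)) ^ p
  rw [← hY1]
  exact congrArg (· ^ p) hrep.1

end Asm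

/-! ### The bad pair -/

section Bad

variable (N p : ℕ) [NeZero N] [NeZero p] (hp : p.Prime) (hpN : ¬ p ∣ N)

/-- **[B4] at the bad pair**, unconditional: level `N * p`, `N` good, `p ∤ N`, `A` over `p`,
`W = atkinLehner N p`. -/
theorem b4Statement_bad (hN : 4 ∣ N ∨ 9 ∣ N) (A : ValuationSubring Kb)
    (hA : A.LiesOverPrime p) :
    Fermat.Agent.T7.helper27.B4Statement (N * p) (atkinLehner N p hp hpN) A p :=
  b4_of (atkinLehner_atkinLehner N p hp hpN) (inftyBar_ne_smul N p hp hpN)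
    (fun σ x => atkinLehner_arithmeticRingAut N p hp hpN σ x) hp hA
    (pivotInst_bad N p hp hpN hN A hA)

end Bad

/-- **Contract [B4] at every bad pair** (the shape of `helper72.S33B4Statement`, unfolded). -/
theorem s33B4 : ∀ (p : ℕ) (hp : p.Prime), p ≠ 2 → ∀ (N' : ℕ) [NeZero N'], 4 ∣ N' →
    ∀ (hpN : ¬ p ∣ N') (A : ValuationSubring (AlgebraicClosure ℚ)), A.LiesOverPrime p →
      haveI : NeZero p := ⟨hp.ne_zero⟩
      Fermat.Agent.T7.helper27.B4Statement (N' * p)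
        (Fermat.Agent.T2.helper36.atkinLehner N' p hp hpN) A p := by
  intro p hp _ N' _ h4 hpN A hA
  haveI : NeZero p := ⟨hp.ne_zero⟩
  exact b4Statement_bad N' p hp hpN (Or.inl h4) A hA

end Fermat.Agent.T7.helper88

end
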