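import Fermat.Agent.T7.helper72_B34Asm
import Fermat.Agent.T7.helper38_B3
import Fermat.Agent.T7.helper88_B4Asm

/-!
# T7 / S33 (helper72, assembler): the final wiring

* `s33B3Statement72` : the contract [B3] at every bad pair (`helper38.b3_bad`);
* `s33B4Statement72` : the contract [B4] at every bad pair (`helper88.s33B4`);
* `isOrdinaryAt_s33` : the frozen statement S33, unconditional.
-/

set_option autoImplicit false
set_option linter.unusedSectionVars false
set_option linter.style.longLine false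
set_option linter.unusedVariables false
set_option linter.style.haveILetI false

noncomputable section

namespace Fermat.Agent.T7.helper72

open Fermat.Agent.T7

/-- **[B3]** at every bad pair. -/
theorem s33B3Statement72 : S33B3Statement := by
  intro p hp _ N' _ h4 hpN A hA
  haveI : NeZero p := ⟨hp.ne_zero⟩
  exact helper38.b3_bad N' p hp hpN A hA

/-- **[B4]** at every bad pair. -/
theorem s33B4Statement72 : S33B4Statement := helper88.s33B4

variable {p : ℕ} {N : ℕ} [NeZero N] {S : Finset ℕ}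
  {𝒪 : Type} [CommRing 𝒪] [IsDomain 𝒪] [IsDiscreteValuationRing 𝒪]
  [IsAdicComplete (IsLocalRing.maximalIdeal 𝒪) 𝒪]
  {θ : CuspForm.heckeAlgebra N 2 (↑S : Set ℕ) →+* IsLocalRing.ResidueField 𝒪}
  {T : Type} [CommRing T] [IsLocalRing T] [IsNoetherianRing T]
  [IsAdicComplete (IsLocalRing.maximalIdeal T) T] [Algebra 𝒪 T] [IsLocalHom (algebraMap 𝒪 T)]
  [Module.Finite 𝒪 T] [Module.Free 𝒪 T]

/-- **S33**: a Hecke-Galois datum of level `N`, `p ∥ N`, `p` odd, is ordinary at `p` as soon as
its residual representation is. -/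
theorem isOrdinaryAt_s33
    [Finite (IsLocalRing.ResidueField 𝒪)] [CharZero 𝒪]
    (hp : p.Prime) (hp2 : p ≠ 2) (hp𝒪 : (p : 𝒪) ∈ IsLocalRing.maximalIdeal 𝒪)
    (hN : p ∣ N ∧ ¬ p ^ 2 ∣ N)
    (hNS : ∀ q : ℕ, q.Prime → q ∣ N → q ∈ S)
    (H : CuspForm.HeckeGaloisRepDatum N (↑S : Set ℕ) 𝒪 θ T)
    (hres : (GaloisRepAdic.ofResidualGaloisRep H.ρ.residual).IsOrdinaryAt p) :
    H.ρ.IsOrdinaryAt p :=
  isOrdinaryAt_of_b3_b4 s33B3Statement72 s33B4Statement72 hp hp2 hp𝒪 hN hNS H hres

end Fermat.Agent.T7.helper72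

end
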