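import Fermat.Agent.T2.helper20_Kum
import Fermat.Agent.T2.helper58_ScaleBad

/-!
# T7 / S33, leaf [RAM-T0] (helper2): the ramified part lies in the kernel of reduction

Setting of tier 2 (helper36 / helper72): `q` a prime, `q ∤ N`, level `N q`, `A` a valuation
subring of `ℚ̄` over `q`, `W = helper36.atkinLehner N q` the Atkin-Lehner involution, `w₁` the
Gauss valuation of the `q`-expansion at `∞` and `w₂ = w₁ ∘ W`.  The exponent `n ≠ 0` is
ARBITRARY, in particular `n = q ^ k` is allowed (the case needed for S33).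

* `IsT0 N q hq hqN A n y` : the class `y ∈ J₀(N q)` has a Kummer generator `u`
  (`n • D = div u`, `[D] = y`) with `u ≡ 1` for both Gauss valuations (`IsRedOne u`,
  `IsRedOne (W u)`): "`y` lies in the kernel of reduction at exponent `n`".
* `isT0_zero`, `IsT0.add`, `IsT0.neg`, `IsT0.sub`, `IsT0.nsmul` : `T0` is a subgroup
  (`t0 N q hq hqN A n`).
* `IsT0.nsmul_eq_zero` : the classes of `T0` at exponent `n` are killed by `n`.
* `ram_isT0` : **[RAM-T0]** for `σ` in the inertia group of `A` and `x` with `n • x = 0` the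
  class `σ • x - x` lies in `T0` at exponent `n`.  (First half of `helper20.kum_of`: only the
  scaling statement at level `N q` and helper96's separating function are used; no coprimality
  of `n` and `q`.)
* `ram_isT0_bad` : the same, unconditionally at a good level `N` (helper58's
  `scaleStatement_bad`).
* `ramSpan_le_t0` : the subgroup generated by all `σ • x - x` (`σ` in inertia, `n • x = 0`) lies
  in `t0`.
-/

set_option autoImplicit false
set_option linter.unusedSectionVars false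
set_option linter.style.longLine false

noncomputable section

open HahnSeries IntermediateField AlgebraicCurve ModularCurve

namespace Fermat.Agent.T7.helper2

open Fermat.Agent.S18.helper19 Fermat.Agent.P2.helper29 Fermat.Agent.P2.helper93
open Fermat.Agent.T2 Fermat.Agent.T2.helper20 Fermat.Agent.T2.helper36

variable (N q : ℕ) [NeZero N] [NeZero q] (hq : q.Prime) (hqN : ¬ q ∣ N)
  (A : ValuationSubring Kb)

/-- `y` lies in the kernel of reduction at exponent `n`: it has a Kummer generator `u`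
(`n • D = div u`, `[D] = y`) which is `≡ 1` for both Gauss valuations `w₁`, `w₂ = w₁ ∘ W`. -/
def IsT0 (n : ℕ) (y : JZero (N * q)) : Prop :=
  ∃ (D : Divisor.degZero (K := Kb) (F := FF (N * q))) (u : FF (N * q)),
    (Pic0.mk D : JZero (N * q)) = y ∧ IsRootDiv n (D : Divisor Kb (FF (N * q))) u ∧
      IsRedOne A (N * q) (u : LaurentSeries Kb) ∧
      IsRedOne A (N * q) ((atkinLehner N q hq hqN u : FF (N * q)) : LaurentSeries Kb)

variable {N q hq hqN A}

theorem isT0_zero (n : ℕ) : IsT0 N q hq hqN A n 0 := by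
  refine ⟨0, 1, rfl, ⟨one_ne_zero, fun P => ?_⟩, ?_, ?_⟩
  · rw [Place.ord_one]
    simp
  · exact redC_one_iff.mp (by simpa using redC_const (A := A) (M := N * q) 1)
  · rw [map_one]
    exact redC_one_iff.mp (by simpa using redC_const (A := A) (M := N * q) 1)

theorem IsT0.add {n : ℕ} {y z : JZero (N * q)} (hy : IsT0 N q hq hqN A n y)
    (hz : IsT0 N q hq hqN A n z) : IsT0 N q hq hqN A n (y + z) := by
  obtain ⟨D, u, rfl, H, r1, r2⟩ := hy
  obtain ⟨E, v, rfl, H', s1, s2⟩ := hz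
  refine ⟨D + E, u * v, rfl, ?_, ?_, ?_⟩
  · have := H.mul H'
    rwa [← AddSubgroup.coe_add] at this
  · have := (redC_one_iff.mpr r1).mul (redC_one_iff.mpr s1)
    rw [mul_one] at this
    exact redC_one_iff.mp this
  · rw [map_mul]
    have := (redC_one_iff.mpr r2).mul (redC_one_iff.mpr s2)
    rw [mul_one] at this
    exact redC_one_iff.mp this

theorem IsT0.neg {n : ℕ} {y : JZero (N * q)} (hy : IsT0 N q hq hqN A n y) :
    IsT0 N q hq hqN A n (-y) := by
  obtain ⟨D, u, rfl, H, r1, r2⟩ := hy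
  refine ⟨-D, u⁻¹, rfl, ?_, ?_, ?_⟩
  · have := H.inv
    rwa [← AddSubgroup.coe_neg] at this
  · have := (redC_one_iff.mpr r1).inv one_ne_zero
    rw [inv_one] at this
    exact redC_one_iff.mp this
  · rw [map_inv₀]
    have := (redC_one_iff.mpr r2).inv one_ne_zero
    rw [inv_one] at this
    exact redC_one_iff.mp this

theorem IsT0.sub {n : ℕ} {y z : JZero (N * q)} (hy : IsT0 N q hq hqN A n y)
    (hz : IsT0 N q hq hqN A n z) : IsT0 N q hq hqN A n (y - z) := by
  rw [sub_eq_add_neg]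
  exact hy.add hz.neg

variable (N q hq hqN A) in
/-- the kernel of reduction at exponent `n`, as a subgroup of `J₀(N q)` -/
def t0 (n : ℕ) : AddSubgroup (JZero (N * q)) where
  carrier := {y | IsT0 N q hq hqN A n y}
  zero_mem' := isT0_zero n
  add_mem' := fun hy hz => hy.add hz
  neg_mem' := fun hy => hy.neg

theorem mem_t0 {n : ℕ} {y : JZero (N * q)} : y ∈ t0 N q hq hqN A n ↔ IsT0 N q hq hqN A n y :=
  Iff.rfl

theorem IsT0.nsmul {n : ℕ} {y : JZero (N * q)} (hy : IsT0 N q hq hqN A n y) (m : ℕ) :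
    IsT0 N q hq hqN A n (m • y) :=
  (t0 N q hq hqN A n).nsmul_mem hy m

/-- the classes of `T0` at exponent `n` are killed by `n` -/
theorem IsT0.nsmul_eq_zero {n : ℕ} {y : JZero (N * q)} (hy : IsT0 N q hq hqN A n y) :
    n • y = 0 := by
  obtain ⟨D, u, rfl, H, -, -⟩ := hy
  have h1 : (n • (Pic0.mk D : JZero (N * q))) = Pic0.mk (n • D) := rfl
  rw [h1]
  refine kum_mk_eq_zero_of_ord H.1 (fun P => ?_)
  rw [← H.2 P, AddSubgroup.coe_nsmul, Finsupp.smul_apply, nsmul_eq_mul]

variable (N q hq hqN A)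

/-- **[RAM-T0]** (first half of `helper20.kum_of`): for `σ` in the inertia group of `A` and a
class `x` killed by `n ≠ 0`, the class `σ • x - x` has a Kummer generator which is `≡ 1` for
both Gauss valuations.  No coprimality of `n` and `q` is needed. -/
theorem ram_isT0 (n : ℕ) (hn : n ≠ 0)
    (hSC : ScaleStatement (N * q) A) (hSEP : SepStatement N q hq hqN A) :
    ∀ σ ∈ A.inertiaSubgroupIn ℚ, ∀ x : JZero (N * q), n • x = 0 →
      IsT0 N q hq hqN A n (σ • x - x) := by
  intro σ hσ x hx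
  obtain ⟨hσ', -⟩ := decK_eq_id_of_mem_inertia hσ
  obtain ⟨D, rfl⟩ := Pic0.mk_surjective x
  obtain ⟨h, H⟩ := kum_exists_root hx
  obtain ⟨D1, e1, H1⟩ := kum_galois (N * q) σ H
  have hh : h ≠ 0 := H.1
  have hσh : galF (N * q) σ h ≠ 0 := H1.1
  -- scaling of `h` and of `W h`
  obtain ⟨c₁, Y₁, Y₂, hc₁, g₁, g₂, E₁⟩ :=
    hSC (h : LaurentSeries Kb) h.2 (fun h0 => hh (Subtype.ext h0))
  have hWh : atkinLehner N q hq hqN h ≠ 0 := (map_ne_zero _).mpr hh
  obtain ⟨c₂, Z₁, Z₂, hc₂, k₁, k₂, E₂⟩ :=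
    hSC ((atkinLehner N q hq hqN h : FF (N * q)) : LaurentSeries Kb)
      (atkinLehner N q hq hqN h).2 (fun h0 => hWh (Subtype.ext h0))
  have R1 : RedC A (N * q) (galF (N * q) σ h / h) (σ c₁ / c₁) :=
    redC_gal_div hc₁ g₁ g₂ E₁ hσ
  have hWu : atkinLehner N q hq hqN (galF (N * q) σ h / h)
      = galF (N * q) σ (atkinLehner N q hq hqN h) / atkinLehner N q hq hqN h := by
    rw [map_div₀]
    congr 1
    exact atkinLehner_arithmeticRingAut N q hq hqN σ h
  have R2 : RedC A (N * q) (atkinLehner N q hq hqN (galF (N * q) σ h / h)) (σ c₂ / c₂) := by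
    rw [hWu]
    exact redC_gal_div hc₂ k₁ k₂ E₂ hσ
  -- the root `d` of `c₁ / c₂` and the unit `t = σ d / d`
  obtain ⟨d, hd⟩ := IsAlgClosed.exists_pow_nat_eq (c₁ / c₂) (Nat.pos_of_ne_zero hn)
  have hd0 : d ≠ 0 := by
    rintro rfl
    rw [zero_pow hn] at hd
    exact div_ne_zero hc₁ hc₂ hd.symm
  have hσd : σ d ≠ 0 := (map_ne_zero σ).mpr hd0
  have ht : σ d / d ∈ A := div_mem_of_mem_decomp hσ' d hd0
  have ht' : (σ d / d)⁻¹ ∈ A := by
    rw [inv_div]
    exact div_mem_of_mem_decomp' hσ' d hd0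
  have ht0 : σ d / d ≠ 0 := div_ne_zero hσd hd0
  have hσc₂ : σ c₂ ≠ 0 := (map_ne_zero σ).mpr hc₂
  have hz₂ : σ c₂ / c₂ ≠ 0 := div_ne_zero hσc₂ hc₂
  have hz : σ c₁ / c₁ = σ c₂ / c₂ * (σ d / d) ^ n := by
    have h1 : c₁ = c₂ * d ^ n := by
      rw [hd]
      field_simp
    rw [h1, map_mul, map_pow, div_pow]
    field_simp
  -- the separating function
  obtain ⟨e, he1, he0⟩ := hSEP
  have he1' : RedC A (N * q) e 1 := redC_one_iff.mpr he1
  have hGt : RedC A (N * q)
      (atkinLehner N q hq hqN e + algebraMap Kb (FF (N * q)) (σ d / d) * e) (σ d / d) := by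
    have h1 := (he1'.add_redZero he0 (σ d / d)⁻¹ ht').const_mul (σ d / d)
    rw [mul_one] at h1
    have e3 : algebraMap Kb (FF (N * q)) (σ d / d) *
        (e + algebraMap Kb (FF (N * q)) (σ d / d)⁻¹ * atkinLehner N q hq hqN e)
        = atkinLehner N q hq hqN e + algebraMap Kb (FF (N * q)) (σ d / d) * e := by
      rw [mul_add, ← mul_assoc, ← map_mul, mul_inv_cancel₀ ht0, map_one, one_mul, add_comm]
    rwa [e3] at h1
  have hWG : RedC A (N * q) (atkinLehner N q hq hqN
      (atkinLehner N q hq hqN e + algebraMap Kb (FF (N * q)) (σ d / d) * e)) 1 := by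
    have e4 : atkinLehner N q hq hqN
        (atkinLehner N q hq hqN e + algebraMap Kb (FF (N * q)) (σ d / d) * e)
        = e + algebraMap Kb (FF (N * q)) (σ d / d) * atkinLehner N q hq hqN e := by
      rw [map_add, map_mul, atkinLehner_atkinLehner, AlgEquiv.commutes]
    rw [e4]
    exact he1'.add_redZero he0 (σ d / d) ht
  generalize hGdef : atkinLehner N q hq hqN e + algebraMap Kb (FF (N * q)) (σ d / d) * e = G
    at hGt hWG
  have hG0 : G ≠ 0 := hGt.ne_zero ht0
  -- the normalised function `u'`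
  have hu0 : galF (N * q) σ h / h ≠ 0 := div_ne_zero hσh hh
  have Hu : IsRootDiv n ((D1 : Divisor Kb (FF (N * q))) - (D : Divisor Kb (FF (N * q))))
      (galF (N * q) σ h / h) := H1.div H
  generalize hudef : galF (N * q) σ h / h = u at R1 R2 hu0 Hu
  have hcz0 : (σ c₂ / c₂)⁻¹ ≠ 0 := inv_ne_zero hz₂
  have hcz : algebraMap Kb (FF (N * q)) (σ c₂ / c₂)⁻¹ ≠ 0 := (map_ne_zero _).mpr hcz0
  have hu'0 : algebraMap Kb (FF (N * q)) (σ c₂ / c₂)⁻¹ * u / G ^ n ≠ 0 :=
    div_ne_zero (mul_ne_zero hcz hu0) (pow_ne_zero _ hG0)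
  have Ru' : RedC A (N * q) (algebraMap Kb (FF (N * q)) (σ c₂ / c₂)⁻¹ * u / G ^ n) 1 := by
    refine ((R1.const_mul (σ c₂ / c₂)⁻¹).div (hGt.pow n) (pow_ne_zero _ ht0)).congr ?_
    rw [hz]
    field_simp
  have RWu' : RedC A (N * q) (atkinLehner N q hq hqN
      (algebraMap Kb (FF (N * q)) (σ c₂ / c₂)⁻¹ * u / G ^ n)) 1 := by
    have e5 : atkinLehner N q hq hqN
        (algebraMap Kb (FF (N * q)) (σ c₂ / c₂)⁻¹ * u / G ^ n)
        = algebraMap Kb (FF (N * q)) (σ c₂ / c₂)⁻¹ * atkinLehner N q hq hqN u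
          / (atkinLehner N q hq hqN G) ^ n := by
      rw [map_div₀, map_mul, map_pow, AlgEquiv.commutes]
    rw [e5]
    refine ((R2.const_mul (σ c₂ / c₂)⁻¹).div (hWG.pow n) (pow_ne_zero _ one_ne_zero)).congr
      ?_
    rw [one_pow, div_one, inv_mul_cancel₀ hz₂]
  -- the principal divisor of `G`
  obtain ⟨DG, hDG, hdeg⟩ := (hasPD (N * q)).exists_divisor G hG0
  let EG : Divisor.degZero (K := Kb) (F := FF (N * q)) := ⟨DG, hdeg⟩
  have hEG : (Pic0.mk EG : JZero (N * q)) = 0 :=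
    kum_mk_eq_zero_of_ord hG0 (fun P => hDG P)
  refine ⟨D1 - D - EG, algebraMap Kb (FF (N * q)) (σ c₂ / c₂)⁻¹ * u / G ^ n, ?_, ⟨hu'0, ?_⟩,
    redC_one_iff.mp Ru', redC_one_iff.mp RWu'⟩
  · have h1 : (Pic0.mk (D1 - D - EG) : JZero (N * q))
        = Pic0.mk D1 - Pic0.mk D - Pic0.mk EG := rfl
    rw [h1, hEG, sub_zero, e1]
  · intro P
    have o1 : P.ord (algebraMap Kb (FF (N * q)) (σ c₂ / c₂)⁻¹ * u / G ^ n)
        = P.ord u - (n : ℤ) * P.ord G := by
      rw [ord_div' P (mul_ne_zero hcz hu0) (pow_ne_zero _ hG0), ord_const_mul' P hcz0 hu0,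
        ord_pow' P G n]
    have o2 := Hu.2 P
    rw [Finsupp.sub_apply] at o2
    have e6 : ((D1 - D - EG : Divisor.degZero (K := Kb) (F := FF (N * q))) :
        Divisor Kb (FF (N * q))) P
        = (D1 : Divisor Kb (FF (N * q))) P - (D : Divisor Kb (FF (N * q))) P - DG P := by
      rw [AddSubgroup.coe_sub, AddSubgroup.coe_sub, Finsupp.sub_apply, Finsupp.sub_apply]
    rw [e6, o1, ← o2, hDG P]
    ring

/-- **[RAM-T0]** at a bad pair, unconditional: `q ∤ N`, `A` over `q`, any exponent `n ≠ 0`. -/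
theorem ram_isT0_bad (hA : A.LiesOverPrime q) (n : ℕ) (hn : n ≠ 0) :
    ∀ σ ∈ A.inertiaSubgroupIn ℚ, ∀ x : JZero (N * q), n • x = 0 →
      IsT0 N q hq hqN A n (σ • x - x) :=
  ram_isT0 N q hq hqN A n hn (Fermat.Agent.T2.helper58.scaleStatement_bad N q hq hqN A hA)
    (sepStatement N q hq hqN A hA)

/-- the ramified part of the `n`-torsion: the subgroup generated by the `σ • x - x`, `σ` in the
inertia group of `A`, `n • x = 0`. -/
def ramSpan (n : ℕ) : AddSubgroup (JZero (N * q)) :=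
  AddSubgroup.closure {y | ∃ σ ∈ A.inertiaSubgroupIn ℚ, ∃ x : JZero (N * q),
    n • x = 0 ∧ y = σ • x - x}

/-- **[RAM-T0]**, subgroup form. -/
theorem ramSpan_le_t0 (hA : A.LiesOverPrime q) (n : ℕ) (hn : n ≠ 0) :
    ramSpan N q A n ≤ t0 N q hq hqN A n := by
  refine (AddSubgroup.closure_le _).mpr ?_
  rintro y ⟨σ, hσ, x, hx, rfl⟩
  exact ram_isT0_bad N q hq hqN A hA n hn σ hσ x hx

end Fermat.Agent.T7.helper2

end
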