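import Mathlib

/-!
# T7 (S33), helper51: the calculus of "no unramified subquotient" (NUQ)

`X` an additive commutative group, `act : ι → X →+ X` a family of additive endomorphisms (in the
application: the elements of an inertia group).  For a subgroup `Z` of `X`

`NUQ act Z` : if `A ≤ Z` is stable under all `act i` and `x ∈ Z` satisfies
`act i x - x ∈ A` for all `i`, then `x ∈ A`.

Equivalently (`nuq_iff_forall_le`): `Z` has no nonzero subquotient `B / A` on which all `act i`
are the identity.  This is the shape of the statement FT-C of P1 (points of a Hopf order reducing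
to the identity).

* `NUQ.mono`, `NUQ.map` : subgroups and equivariant images;
* `NUQ.of_map`           : **extensions**;
* `NUQ.pi`               : finite powers;
* `NUQ.inf_tor_pow`      : from the `p`-torsion to the `p ^ k`-torsion;
* `NUQ.of_scalar`        : if the `act i` act on the `p`-torsion through scalars `c i` and one
                           `c i - 1` is prime to `p`, then NUQ holds on the `p`-torsion;
* `card_le_pow_of_nuq`   : **the count**: along a filtration of length `l` whose graded pieces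
                           have an invariant subgroup of index `≤ q` with trivial action on the
                           quotient, a NUQ subgroup has at most `q ^ l` elements;
* `le_card_quotient_of_nuq` : hence the coinvariants have at least `card X / q ^ l` elements.
-/

set_option autoImplicit false

namespace Fermat.Agent.T7.helper51

section Basic

variable {ι : Type*} {X : Type*} [AddCommGroup X]

/-- **No unramified subquotient**: every element of `Z` which is fixed by all `act i` modulo a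
stable subgroup `A ≤ Z` lies in `A`. -/
def NUQ (act : ι → X →+ X) (Z : AddSubgroup X) : Prop :=
  ∀ A : AddSubgroup X, A ≤ Z → (∀ i, ∀ a ∈ A, act i a ∈ A) →
    ∀ x ∈ Z, (∀ i, act i x - x ∈ A) → x ∈ A

variable {act : ι → X →+ X}

theorem NUQ.mono {Z Z' : AddSubgroup X} (h : Z' ≤ Z) (hZ : NUQ act Z) : NUQ act Z' :=
  fun A hA hst x hx hfix => hZ A (hA.trans h) hst x (h hx) hfix

theorem nuq_bot : NUQ act (⊥ : AddSubgroup X) := by
  intro A _ _ x hx _
  rw [AddSubgroup.mem_bot] at hx
  rw [hx]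
  exact A.zero_mem

/-- subquotient form of `NUQ` -/
theorem nuq_iff_forall_le {Z : AddSubgroup X} :
    NUQ act Z ↔ ∀ A B : AddSubgroup X, A ≤ B → B ≤ Z →
      (∀ i, ∀ x ∈ B, act i x - x ∈ A) → B ≤ A := by
  constructor
  · intro h A B hAB hBZ hfix x hx
    refine h A (hAB.trans hBZ) (fun i a ha => ?_) x (hBZ hx) (fun i => hfix i x hx)
    have h1 := hfix i a (hAB ha)
    have h2 : act i a = (act i a - a) + a := by abel
    rw [h2]
    exact A.add_mem h1 ha
  · intro h A hA hst x hx hfix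
    have hB : A ⊔ AddSubgroup.zmultiples x ≤ Z := by
      refine sup_le hA ?_
      rw [AddSubgroup.zmultiples_le]
      exact hx
    have key : A ⊔ AddSubgroup.zmultiples x ≤ A := by
      refine h A _ le_sup_left hB (fun i b hb => ?_)
      obtain ⟨a, ha, c, hc, rfl⟩ := AddSubgroup.mem_sup.1 hb
      obtain ⟨k, rfl⟩ := AddSubgroup.mem_zmultiples_iff.1 hc
      have h2 : act i (a + k • x) - (a + k • x) = (act i a - a) + k • (act i x - x) := by
        rw [map_add, map_zsmul, smul_sub]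
        abel
      rw [h2]
      exact A.add_mem (A.sub_mem (hst i a ha) ha) (A.zsmul_mem (hfix i) k)
    exact key (AddSubgroup.mem_sup_right (AddSubgroup.mem_zmultiples x))

/-- **Extensions**: if `f` is equivariant, maps `Z` into a NUQ subgroup and the kernel of `f`
on `Z` lies in a NUQ subgroup, then `Z` is NUQ. -/
theorem NUQ.of_map {X' : Type*} [AddCommGroup X'] {act' : ι → X' →+ X'} (f : X →+ X')
    (hf : ∀ i x, f (act i x) = act' i (f x)) {Z Z₁ : AddSubgroup X} {Z₂ : AddSubgroup X'}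
    (hZ₂ : NUQ act' Z₂) (hZ₁ : NUQ act Z₁) (himg : ∀ x ∈ Z, f x ∈ Z₂)
    (hker : ∀ x ∈ Z, f x = 0 → x ∈ Z₁) : NUQ act Z := by
  intro A hA hst x hx hfix
  -- the image of `x` lies in the image of `A`
  have h1 : f x ∈ A.map f := by
    refine hZ₂ (A.map f) ?_ ?_ (f x) (himg x hx) ?_
    · rintro _ ⟨a, ha, rfl⟩
      exact himg a (hA ha)
    · rintro i _ ⟨a, ha, rfl⟩
      rw [← hf]
      exact ⟨act i a, hst i a ha, rfl⟩
    · intro i
      rw [← hf, ← map_sub]
      exact ⟨_, hfix i, rfl⟩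
  obtain ⟨a, ha, hax⟩ := h1
  have hx₁Z : x - a ∈ Z := Z.sub_mem hx (hA ha)
  have hx₁0 : f (x - a) = 0 := by rw [map_sub, hax, sub_self]
  -- the kernel part
  have h2 : x - a ∈ A ⊓ f.ker := by
    refine hZ₁ (A ⊓ f.ker) ?_ ?_ (x - a) (hker _ hx₁Z hx₁0) ?_
    · rintro b ⟨hb, hb0⟩
      exact hker b (hA hb) (AddMonoidHom.mem_ker.1 hb0)
    · rintro i b ⟨hb, hb0⟩
      refine ⟨hst i b hb, ?_⟩
      have hb0' : f b = 0 := AddMonoidHom.mem_ker.1 hb0
      change act i b ∈ f.ker
      rw [AddMonoidHom.mem_ker, hf, hb0', map_zero]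
    · intro i
      refine ⟨?_, ?_⟩
      · have h3 : act i (x - a) - (x - a) = (act i x - x) - (act i a - a) := by
          rw [map_sub]
          abel
        rw [h3]
        exact A.sub_mem (hfix i) (A.sub_mem (hst i a ha) ha)
      · change act i (x - a) - (x - a) ∈ f.ker
        rw [AddMonoidHom.mem_ker, map_sub, hf, hx₁0, map_zero, sub_self]
  have h3 : x = (x - a) + a := by abel
  rw [h3]
  exact A.add_mem h2.1 ha

/-- **Images**: the image of a stable NUQ subgroup under an equivariant map is NUQ. -/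
theorem NUQ.map {X' : Type*} [AddCommGroup X'] {act' : ι → X' →+ X'} (f : X →+ X')
    (hf : ∀ i x, f (act i x) = act' i (f x)) {Z : AddSubgroup X}
    (hst : ∀ i, ∀ z ∈ Z, act i z ∈ Z) (hZ : NUQ act Z) : NUQ act' (Z.map f) := by
  intro A hA hstA x' hx' hfix
  obtain ⟨x, hx, rfl⟩ := hx'
  have h1 : x ∈ A.comap f ⊓ Z := by
    refine hZ (A.comap f ⊓ Z) inf_le_right ?_ x hx ?_
    · rintro i a ⟨ha, haZ⟩
      refine ⟨?_, hst i a haZ⟩
      change f (act i a) ∈ A
      rw [hf]
      exact hstA i _ ha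
    · intro i
      refine ⟨?_, Z.sub_mem (hst i x hx) hx⟩
      change f (act i x - x) ∈ A
      rw [map_sub, hf]
      exact hfix i
  exact h1.1

/-- NUQ passes to the preimage along an injective equivariant map. -/
theorem NUQ.comap_of_injective {X' : Type*} [AddCommGroup X'] {act' : ι → X' →+ X'}
    (f : X →+ X') (hf : ∀ i x, f (act i x) = act' i (f x)) (hinj : Function.Injective f)
    {Z' : AddSubgroup X'} (hZ : NUQ act' Z') : NUQ act (Z'.comap f) :=
  NUQ.of_map f hf hZ (nuq_bot (act := act)) (fun _ hx => hx) (fun x _ h0 => by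
    rw [AddSubgroup.mem_bot]
    exact hinj (by rw [h0, map_zero]))

end Basic

section Pi

variable {ι : Type*} {X : Type*} [AddCommGroup X] (act : ι → X →+ X)

/-- the componentwise action on a power -/
def piAct (κ : Type*) (i : ι) : (κ → X) →+ (κ → X) := (act i).compLeft κ

@[simp] theorem piAct_apply (κ : Type*) (i : ι) (x : κ → X) (j : κ) :
    piAct act κ i x j = act i (x j) := rfl

/-- the elements of `Z ^ κ` supported in `s` -/
def piSupp {κ : Type*} (Z : AddSubgroup X) (s : Set κ) : AddSubgroup (κ → X) where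
  carrier := {x | (∀ j, x j ∈ Z) ∧ ∀ j, j ∉ s → x j = 0}
  zero_mem' := ⟨fun _ => Z.zero_mem, fun _ _ => rfl⟩
  add_mem' := by
    rintro x y ⟨hx, hx0⟩ ⟨hy, hy0⟩
    refine ⟨fun j => Z.add_mem (hx j) (hy j), fun j hj => ?_⟩
    rw [Pi.add_apply, hx0 j hj, hy0 j hj, add_zero]
  neg_mem' := by
    rintro x ⟨hx, hx0⟩
    refine ⟨fun j => Z.neg_mem (hx j), fun j hj => ?_⟩
    rw [Pi.neg_apply, hx0 j hj, neg_zero]

theorem mem_piSupp {κ : Type*} {Z : AddSubgroup X} {s : Set κ} {x : κ → X} :
    x ∈ piSupp Z s ↔ (∀ j, x j ∈ Z) ∧ ∀ j, j ∉ s → x j = 0 := Iff.rfl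

variable {act}

/-- **Finite powers** (supported form). -/
theorem NUQ.piSupp {κ : Type*} {Z : AddSubgroup X} (hZ : NUQ act Z) (s : Finset κ) :
    NUQ (piAct act κ) (piSupp Z (s : Set κ)) := by
  classical
  induction s using Finset.induction_on with
  | empty =>
    refine NUQ.mono ?_ (nuq_bot (act := piAct act κ))
    intro x hx
    rw [AddSubgroup.mem_bot]
    funext j
    exact hx.2 j (by simp)
  | insert j₀ s hj₀ ih =>
    refine NUQ.of_map (act' := act) (Pi.evalAddMonoidHom (fun _ : κ => X) j₀) (fun i x => rfl)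
      hZ ih (fun x hx => hx.1 j₀) (fun x hx h0 => ?_)
    refine ⟨hx.1, fun j hj => ?_⟩
    by_cases hjj : j = j₀
    · rw [hjj]
      exact h0
    · refine hx.2 j ?_
      intro hmem
      rw [Finset.coe_insert, Set.mem_insert_iff] at hmem
      rcases hmem with h | h
      · exact hjj h
      · exact hj h

/-- **Finite powers**: if `Z` is NUQ then so is `Z ^ κ` for the componentwise action. -/
theorem NUQ.pi {κ : Type*} [Finite κ] {Z : AddSubgroup X} (hZ : NUQ act Z) :
    NUQ (piAct act κ) (AddSubgroup.pi Set.univ fun _ : κ => Z) := by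
  classical
  have : Fintype κ := Fintype.ofFinite κ
  refine NUQ.mono ?_ (hZ.piSupp (Finset.univ : Finset κ))
  intro x hx
  refine ⟨fun j => ?_, fun j hj => absurd (by simp) hj⟩
  exact (AddSubgroup.mem_pi _).1 hx j (Set.mem_univ j)

end Pi

section Torsion

variable {ι : Type*} {X : Type*} [AddCommGroup X] {act : ι → X →+ X}

/-- the `n`-torsion subgroup -/
def tor (X : Type*) [AddCommGroup X] (n : ℕ) : AddSubgroup X := (nsmulAddMonoidHom n : X →+ X).ker

theorem mem_tor {n : ℕ} {x : X} : x ∈ tor X n ↔ n • x = 0 := by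
  rw [tor, AddMonoidHom.mem_ker]
  rfl

/-- **From the `p`-torsion to the `p ^ k`-torsion.** -/
theorem NUQ.inf_tor_pow {p : ℕ} {Z : AddSubgroup X} (h1 : NUQ act (Z ⊓ tor X p)) (k : ℕ) :
    NUQ act (Z ⊓ tor X (p ^ k)) := by
  induction k with
  | zero =>
    refine NUQ.mono ?_ (nuq_bot (act := act))
    intro x hx0
    have hx := mem_tor.1 (AddSubgroup.mem_inf.1 hx0).2
    rw [pow_zero, one_smul] at hx
    rw [AddSubgroup.mem_bot]
    exact hx
  | succ k ih =>
    refine NUQ.of_map (act' := act) (nsmulAddMonoidHom (p ^ k) : X →+ X)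
      (fun i x => (map_nsmul (act i) (p ^ k) x).symm) h1 ih (fun x hx => ?_) (fun x hx h0 => ?_)
    · have hx' := AddSubgroup.mem_inf.1 hx
      refine AddSubgroup.mem_inf.2 ⟨Z.nsmul_mem hx'.1 _, ?_⟩
      have := mem_tor.1 hx'.2
      rw [mem_tor]
      change p • (p ^ k • x) = 0
      rw [smul_smul, ← pow_succ']
      exact this
    · exact AddSubgroup.mem_inf.2 ⟨(AddSubgroup.mem_inf.1 hx).1, mem_tor.2 h0⟩

/-- If `Z` is killed by `p ^ k` and its `p`-torsion is NUQ, then `Z` is NUQ. -/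
theorem NUQ.of_tor {p : ℕ} {Z : AddSubgroup X} (h1 : NUQ act (Z ⊓ tor X p)) (k : ℕ)
    (hk : ∀ x ∈ Z, p ^ k • x = 0) : NUQ act Z :=
  NUQ.mono (fun x hx => AddSubgroup.mem_inf.2 ⟨hx, mem_tor.2 (hk x hx)⟩) (h1.inf_tor_pow k)

/-- **Scalar action**: if the `act i` act on the `p`-torsion of `Z` through integers `c i` and
some `c i - 1` is prime to `p`, then the `p`-torsion of `Z` is NUQ. -/
theorem NUQ.of_scalar {p : ℕ} (hp : p.Prime) {Z : AddSubgroup X} (c : ι → ℤ)
    (hc : ∀ i, ∀ x ∈ Z, p • x = 0 → act i x = c i • x) (i₀ : ι)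
    (hi₀ : ¬ (p : ℤ) ∣ c i₀ - 1) : NUQ act (Z ⊓ tor X p) := by
  intro A _ _ x hx0 hfix
  have hx := AddSubgroup.mem_inf.1 hx0
  have hpx : p • x = 0 := mem_tor.1 hx.2
  have h1 : (c i₀ - 1) • x ∈ A := by
    have := hfix i₀
    rw [hc i₀ x hx.1 hpx] at this
    rwa [sub_smul, one_smul]
  have hcop : IsCoprime (c i₀ - 1) (p : ℤ) := by
    rw [isCoprime_comm]
    exact (Nat.prime_iff_prime_int.1 hp).coprime_iff_not_dvd.2 hi₀
  obtain ⟨u, v, huv⟩ := hcop
  have h2 : x = u • ((c i₀ - 1) • x) := by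
    have h3 : ((p : ℤ)) • x = 0 := by
      rw [natCast_zsmul]
      exact hpx
    calc x = (1 : ℤ) • x := (one_smul _ _).symm
      _ = (u * (c i₀ - 1) + v * (p : ℤ)) • x := by rw [huv]
      _ = u • ((c i₀ - 1) • x) + v • ((p : ℤ) • x) := by rw [add_smul, mul_smul, mul_smul]
      _ = u • ((c i₀ - 1) • x) := by rw [h3, smul_zero, add_zero]
  rw [h2]
  exact A.zsmul_mem h1 u

end Torsion

section Count

variable {ι : Type*} {X : Type*} [AddCommGroup X] {act : ι → X →+ X}

/-- one step of the count -/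
theorem card_inf_le_mul {X0 F' L : AddSubgroup X} [Finite X] (hFL : F' ≤ L) (q : ℕ)
    (hq : F'.relIndex L ≤ q) :
    Nat.card ↥(X0 ⊓ L) ≤ Nat.card ↥(X0 ⊓ F') * q := by
  have hle : X0 ⊓ F' ≤ X0 ⊓ L := inf_le_inf_left X0 hFL
  have h1 : Nat.card ↥(X0 ⊓ F') * (X0 ⊓ F').relIndex (X0 ⊓ L) = Nat.card ↥(X0 ⊓ L) := by
    have := AddSubgroup.card_mul_index ((X0 ⊓ F').addSubgroupOf (X0 ⊓ L))
    rw [Nat.card_congr (AddSubgroup.addSubgroupOfEquivOfLe hle).toEquiv] at this
    exact this
  have h2 : (X0 ⊓ F').relIndex (X0 ⊓ L) = F'.relIndex (X0 ⊓ L) := by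
    have h3 : X0 ⊓ F' = F' ⊓ (X0 ⊓ L) := by
      apply le_antisymm
      · exact le_inf inf_le_right hle
      · exact le_inf (inf_le_right.trans inf_le_left) inf_le_left
    rw [h3, AddSubgroup.inf_relIndex_right]
  have h4 : F'.relIndex L ≠ 0 := AddSubgroup.index_ne_zero_of_finite
  have h5 : F'.relIndex (X0 ⊓ L) ≤ F'.relIndex L :=
    AddSubgroup.relIndex_le_of_le_right inf_le_right h4
  rw [← h1, h2]
  exact Nat.mul_le_mul_left _ (h5.trans hq)

/-- **The count.**  `Fil 0 ≥ L 0 ≥ Fil 1 ≥ L 1 ≥ ...` with `[L j : Fil (j + 1)] ≤ q` and trivial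
action on `Fil j / L j` for `j < l`, and `Fil l = 0`.  A NUQ subgroup `X0 ≤ Fil 0` which contains
`act i x - x` for its elements has at most `q ^ l` elements. -/
theorem card_le_pow_of_nuq [Finite X] {X0 : AddSubgroup X} (hX0 : NUQ act X0)
    (hst : ∀ i, ∀ x ∈ X0, act i x - x ∈ X0) (Fil L : ℕ → AddSubgroup X) (l q : ℕ)
    (h0 : X0 ≤ Fil 0) (hl : Fil l = ⊥)
    (hFL : ∀ j, j < l → Fil (j + 1) ≤ L j) (hLF : ∀ j, j < l → L j ≤ Fil j)
    (hidx : ∀ j, j < l → (Fil (j + 1)).relIndex (L j) ≤ q)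
    (htriv : ∀ j, j < l → ∀ i, ∀ x ∈ Fil j, act i x - x ∈ L j) :
    Nat.card ↥X0 ≤ q ^ l := by
  have key : ∀ d j, d + j = l → Nat.card ↥(X0 ⊓ Fil j) ≤ q ^ d := by
    intro d
    induction d with
    | zero =>
      intro j hj
      rw [zero_add] at hj
      rw [hj, hl, inf_bot_eq, pow_zero]
      exact le_of_eq (by simp)
    | succ d ih =>
      intro j hj
      have hjl : j < l := by omega
      have h1 : X0 ⊓ Fil j ≤ X0 ⊓ L j := by
        intro x hx
        refine hX0 (X0 ⊓ L j) inf_le_left ?_ x hx.1 ?_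
        · rintro i a ⟨ha, haL⟩
          have h2 : act i a - a ∈ X0 ⊓ L j :=
            ⟨hst i a ha, htriv j hjl i a (hLF j hjl haL)⟩
          have h3 : act i a = (act i a - a) + a := by abel
          rw [h3]
          exact (X0 ⊓ L j).add_mem h2 ⟨ha, haL⟩
        · intro i
          exact ⟨hst i x hx.1, htriv j hjl i x hx.2⟩
      have h2 : Nat.card ↥(X0 ⊓ Fil j) ≤ Nat.card ↥(X0 ⊓ L j) :=
        AddSubgroup.card_le_of_le h1
      have h3 := card_inf_le_mul (X0 := X0) (hFL j hjl) q (hidx j hjl)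
      have h4 := ih (j + 1) (by omega)
      calc Nat.card ↥(X0 ⊓ Fil j) ≤ Nat.card ↥(X0 ⊓ L j) := h2
        _ ≤ Nat.card ↥(X0 ⊓ Fil (j + 1)) * q := h3
        _ ≤ q ^ d * q := Nat.mul_le_mul_right _ h4
        _ = q ^ (d + 1) := (pow_succ q d).symm
  have h := key l 0 (by omega)
  rwa [inf_eq_left.2 h0] at h

/-- the subgroup generated by the `act i x - x` -/
def aug (act : ι → X →+ X) : AddSubgroup X :=
  AddSubgroup.closure {y | ∃ i x, y = act i x - x}

theorem sub_mem_aug (i : ι) (x : X) : act i x - x ∈ aug act :=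
  AddSubgroup.subset_closure ⟨i, x, rfl⟩

/-- every additive map which is invariant under the `act i` kills `aug act` -/
theorem aug_le_ker {Q : Type*} [AddCommGroup Q] (f : X →+ Q) (hf : ∀ i x, f (act i x) = f x) :
    aug act ≤ f.ker := by
  rw [aug, AddSubgroup.closure_le]
  rintro _ ⟨i, x, rfl⟩
  change f (act i x - x) = 0
  rw [map_sub, hf, sub_self]

/-- **Coinvariants are big**: in the situation of `card_le_pow_of_nuq` for `X0 = aug act`,
the quotient `X / aug act` has at least `card X / q ^ l` elements. -/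
theorem le_card_quotient_of_nuq [Finite X] (hX0 : NUQ act (aug act))
    (Fil L : ℕ → AddSubgroup X) (l q : ℕ)
    (h0 : Fil 0 = ⊤) (hl : Fil l = ⊥)
    (hFL : ∀ j, j < l → Fil (j + 1) ≤ L j) (hLF : ∀ j, j < l → L j ≤ Fil j)
    (hidx : ∀ j, j < l → (Fil (j + 1)).relIndex (L j) ≤ q)
    (htriv : ∀ j, j < l → ∀ i, ∀ x ∈ Fil j, act i x - x ∈ L j) :
    Nat.card X ≤ Nat.card (X ⧸ aug act) * q ^ l := by
  have h1 : Nat.card ↥(aug act) ≤ q ^ l :=
    card_le_pow_of_nuq hX0 (fun i x _ => sub_mem_aug i x) Fil L l q (by rw [h0]; exact le_top)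
      hl hFL hLF hidx htriv
  have h2 : Nat.card (X ⧸ aug act) * Nat.card ↥(aug act) = Nat.card X := by
    rw [mul_comm]
    exact (AddSubgroup.card_eq_card_quotient_mul_card_addSubgroup (aug act)).symm ▸ (mul_comm _ _)
  rw [← h2]
  exact Nat.mul_le_mul_left _ h1

end Count

end Fermat.Agent.T7.helper51
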