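/-
T7 (S33, at risk), helper43: **[G-EXT] the old / new extension step for NUQ on `J₀(N ℓ)`**.

`I` any subgroup of `Gal(ℚ̄/ℚ)` (in the application: the inertia group of a place over `p`),
`jAct M I` its action on `J₀(M)` by additive maps, `inertSpan M I n` the subgroup generated by
the `s x - x` (`s ∈ I`, `n x = 0`), `newPart N ℓ = ker α_* ⊓ ker β_*`.

* `nuq_inertSpan_of_old_new` : NUQ of the inertia span at level `N` (old level) and NUQ of
  `inertSpan (N ℓ) ⊓ newPart` imply NUQ of the inertia span at level `N ℓ`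
  (`helper51.NUQ.of_map` twice, along the Galois-equivariant maps `α_*`, `β_*` of
  `helper43_DegMaps`);
* `nuq_jAct_iff` : the subquotient form (`∀ A ≤ B ≤ Z, (∀ s ∈ I, ∀ b ∈ B, s b - b ∈ A) → B ≤ A`),
  i.e. the shape of `helper25.NuqOn` / of the assembler's contract.
-/
import Mathlib
import Fermat.Agent.T7.helper43_DegMaps
import Fermat.Agent.T7.helper51_NUQ

set_option autoImplicit false
set_option linter.unusedSectionVars false
set_option linter.unusedVariables false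
set_option linter.style.haveILetI false
set_option linter.style.longLine false

noncomputable section

open ModularCurve AlgebraicCurve IntermediateField

namespace Fermat.Agent.T7.helper43

open Fermat.Agent.S24 Fermat.Agent.T7.helper51

/-- the action of the elements of a subgroup `I` of `Gal(ℚ̄/ℚ)` on `J₀(M)`, by additive maps -/
def jAct (M : ℕ) [NeZero M] (I : Subgroup (Kbar ≃ₐ[ℚ] Kbar)) : I → JZero M →+ JZero M :=
  fun s => DistribSMul.toAddMonoidHom (JZero M) (s : Kbar ≃ₐ[ℚ] Kbar)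

theorem jAct_apply (M : ℕ) [NeZero M] (I : Subgroup (Kbar ≃ₐ[ℚ] Kbar)) (s : I) (x : JZero M) :
    jAct M I s x = (s : Kbar ≃ₐ[ℚ] Kbar) • x := rfl

/-- the subgroup generated by the `s x - x`, `s ∈ I`, `n x = 0` -/
def inertSpan (M : ℕ) [NeZero M] (I : Subgroup (Kbar ≃ₐ[ℚ] Kbar)) (n : ℕ) :
    AddSubgroup (JZero M) :=
  AddSubgroup.closure {y | ∃ s ∈ I, ∃ x : JZero M, n • x = 0 ∧ y = s • x - x}

theorem sub_mem_inertSpan (M : ℕ) [NeZero M] {I : Subgroup (Kbar ≃ₐ[ℚ] Kbar)} {n : ℕ}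
    {s : Kbar ≃ₐ[ℚ] Kbar} (hs : s ∈ I) {x : JZero M} (hx : n • x = 0) :
    s • x - x ∈ inertSpan M I n :=
  AddSubgroup.subset_closure ⟨s, hs, x, hx, rfl⟩

/-- the inertia span is killed by `n` -/
theorem nsmul_eq_zero_of_mem_inertSpan (M : ℕ) [NeZero M] {I : Subgroup (Kbar ≃ₐ[ℚ] Kbar)}
    {n : ℕ} {y : JZero M} (hy : y ∈ inertSpan M I n) : n • y = 0 := by
  have h : inertSpan M I n ≤ (nsmulAddMonoidHom n : JZero M →+ JZero M).ker := by
    rw [inertSpan, AddSubgroup.closure_le]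
    rintro _ ⟨s, hs, x, hx, rfl⟩
    show n • (s • x - x) = 0
    have h1 : n • (s • x) = s • (n • x) :=
      (map_nsmul (DistribSMul.toAddMonoidHom (JZero M) s) n x).symm
    rw [nsmul_sub, h1, hx, sub_zero]
    exact smul_zero (A := JZero M) s
  exact h hy

/-- subquotient form of NUQ for `jAct` -/
theorem nuq_jAct_iff (M : ℕ) [NeZero M] (I : Subgroup (Kbar ≃ₐ[ℚ] Kbar))
    (Z : AddSubgroup (JZero M)) :
    NUQ (jAct M I) Z ↔ ∀ A B : AddSubgroup (JZero M), A ≤ B → B ≤ Z →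
      (∀ s ∈ I, ∀ b ∈ B, s • b - b ∈ A) → B ≤ A := by
  rw [nuq_iff_forall_le]
  constructor
  · intro h A B hAB hBZ hfix
    exact h A B hAB hBZ (fun i x hx => hfix i.1 i.2 x hx)
  · intro h A B hAB hBZ hfix
    exact h A B hAB hBZ (fun s hs x hx => hfix ⟨s, hs⟩ x hx)

variable (N ℓ : ℕ) [NeZero N] [NeZero ℓ]

/-- **the `ℓ`-new classes**: the kernel of both degeneracy maps -/
def newPart : AddSubgroup (JZero (N * ℓ)) := (alphaPush N ℓ).ker ⊓ (betaPush N ℓ).ker

theorem mem_newPart {x : JZero (N * ℓ)} :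
    x ∈ newPart N ℓ ↔ alphaPush N ℓ x = 0 ∧ betaPush N ℓ x = 0 := Iff.rfl

/-- the new part is Galois-stable -/
theorem smul_mem_newPart {x : JZero (N * ℓ)} (hx : x ∈ newPart N ℓ) (σ : Kbar ≃ₐ[ℚ] Kbar) :
    σ • x ∈ newPart N ℓ := by
  obtain ⟨h1, h2⟩ := (mem_newPart N ℓ).mp hx
  refine (mem_newPart N ℓ).mpr ⟨?_, ?_⟩
  · rw [alphaPush_galois_smul, h1]
    exact smul_zero (A := JZero N) σ
  · rw [betaPush_galois_smul, h2]
    exact smul_zero (A := JZero N) σ

variable (I : Subgroup (Kbar ≃ₐ[ℚ] Kbar)) (n : ℕ)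

/-- an equivariant additive map sends the inertia span into the inertia span -/
theorem map_mem_inertSpan {M M' : ℕ} [NeZero M] [NeZero M'] (f : JZero M →+ JZero M')
    (hf : ∀ (σ : Kbar ≃ₐ[ℚ] Kbar) (x : JZero M), f (σ • x) = σ • f x)
    {y : JZero M} (hy : y ∈ inertSpan M I n) : f y ∈ inertSpan M' I n := by
  have h : inertSpan M I n ≤ (inertSpan M' I n).comap f := by
    rw [inertSpan, AddSubgroup.closure_le]
    rintro _ ⟨s, hs, x, hx, rfl⟩
    show f (s • x - x) ∈ inertSpan M' I n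
    rw [map_sub, hf]
    exact sub_mem_inertSpan M' hs (by rw [← map_nsmul, hx, map_zero])
  exact h hy

/-- **[G-EXT]**: NUQ of the inertia span at level `N ℓ` from the old level `N` and from the
new part. -/
theorem nuq_inertSpan_of_old_new
    (hold : NUQ (jAct N I) (inertSpan N I n))
    (hnew : NUQ (jAct (N * ℓ) I) (inertSpan (N * ℓ) I n ⊓ newPart N ℓ)) :
    NUQ (jAct (N * ℓ) I) (inertSpan (N * ℓ) I n) := by
  -- first the kernel of `α_*`
  have h1 : NUQ (jAct (N * ℓ) I) (inertSpan (N * ℓ) I n ⊓ (alphaPush N ℓ).ker) := by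
    refine NUQ.of_map (act' := jAct N I) (betaPush N ℓ)
      (fun i x => betaPush_galois_smul N ℓ i.1 x) hold hnew (fun x hx => ?_) (fun x hx h0 => ?_)
    · exact map_mem_inertSpan I n (betaPush N ℓ) (betaPush_galois_smul N ℓ) hx.1
    · exact ⟨hx.1, hx.2, h0⟩
  refine NUQ.of_map (act' := jAct N I) (alphaPush N ℓ)
    (fun i x => alphaPush_galois_smul N ℓ i.1 x) hold h1 (fun x hx => ?_) (fun x hx h0 => ?_)
  · exact map_mem_inertSpan I n (alphaPush N ℓ) (alphaPush_galois_smul N ℓ) hx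
  · exact ⟨hx, h0⟩

/-- **[G-EXT]**, subquotient form (shape of the assembler's contract). -/
theorem nuqOn_inertSpan_of_old_new
    (hold : ∀ A B : AddSubgroup (JZero N), A ≤ B → B ≤ inertSpan N I n →
      (∀ s ∈ I, ∀ b ∈ B, s • b - b ∈ A) → B ≤ A)
    (hnew : ∀ A B : AddSubgroup (JZero (N * ℓ)), A ≤ B →
      B ≤ inertSpan (N * ℓ) I n ⊓ newPart N ℓ →
      (∀ s ∈ I, ∀ b ∈ B, s • b - b ∈ A) → B ≤ A) :
    ∀ A B : AddSubgroup (JZero (N * ℓ)), A ≤ B → B ≤ inertSpan (N * ℓ) I n →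
      (∀ s ∈ I, ∀ b ∈ B, s • b - b ∈ A) → B ≤ A :=
  (nuq_jAct_iff (N * ℓ) I _).mp
    (nuq_inertSpan_of_old_new N ℓ I n ((nuq_jAct_iff N I _).mpr hold)
      ((nuq_jAct_iff (N * ℓ) I _).mpr hnew))

end Fermat.Agent.T7.helper43

end
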