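/-
T7 = S33, leaf [ATT-NF] (helper82): ATTAINED CONTENT FROM DISCRETENESS ON NUMBER FIELDS.

The pivot lemmas of box B4 (`helper82.exists_close_of_pow_mem_fam` = (L1), the Frobenius regime)
need the hypothesis `hatt`: the Gauss norm of `W₀ - u` is attained, `W₀` the pair of formal
`p`-th roots, `u ∈ V`.  In T2 this came from the tame content lemma (`π (m) ≠ 0`), which fails at
`m = p`.  Here it is proved at the level of the instance, for every regime at once:

* all coefficients of `W₀ - u` lie in ONE finite extension `K₀` of `ℚ` (elements of `F_M`: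
  `coeffNF_FF`; formal roots: `CoeffNF.of_pow`, Galois descent; ring operations, constants,
  coefficientwise Galois action: `CoeffNF.*`, `CoeffsNF.*`);
* on `K₀` the valuation is discrete: `v (x) ^ E ∈ v (p) ^ ℤ` with `E = [K₀ : ℚ]!`
  (`exists_uniform_exponent`), so a bounded set of values has a maximum (`exists_max_val`);
* hence `contentAttained_of_coeffsNF`, `contentAttained_sub_of_coeffsNF` (= `hatt`),
  `exists_smul_of_red_zero` (a family with reduction `0` is `ϖ • E₂`, `ϖ` in the maximal ideal,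
  `red E₂ ≠ 0`: the `ϖ₁` of the monoid trick), and the instance `contentAttained_sub_pair`.
-/
import Mathlib
import Fermat.Agent.T2.helper74_PivotFam
import Fermat.Agent.T2.helper74_Pivot2
import Fermat.Agent.T7.helper82_FrobRegime

set_option autoImplicit false
set_option linter.unusedSectionVars false
set_option linter.unusedVariables false
set_option linter.style.haveILetI false

noncomputable section

namespace Fermat.Agent.T7.helper82

open ModularCurve HahnSeries
open Fermat.Agent.P2.helper22 Fermat.Agent.T2.helper74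

section Disc

variable {L : Type*} [Field L]

/-- among finitely many terms with sum zero, not all zero, two distinct terms have the same
(maximal) valuation -/
theorem exists_pair_val_eq {Γ : Type*} [LinearOrderedCommGroupWithZero Γ] (v : Valuation L Γ)
    {α : Type*} [DecidableEq α] (s : Finset α) (t : α → L) (hsum : ∑ i ∈ s, t i = 0)
    (hne : ∃ i ∈ s, t i ≠ 0) :
    ∃ i ∈ s, ∃ j ∈ s, i ≠ j ∧ t i ≠ 0 ∧ t j ≠ 0 ∧ v (t i) = v (t j) := by
  obtain ⟨i₁, hi₁, hti₁⟩ := hne
  obtain ⟨i₀, hi₀, hmax⟩ := Finset.exists_max_image s (fun i => v (t i)) ⟨i₁, hi₁⟩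
  have ht0 : t i₀ ≠ 0 := by
    intro h
    have h1 := hmax i₁ hi₁
    simp only [h, map_zero] at h1
    exact hti₁ ((v.zero_iff).mp (le_antisymm h1 zero_le))
  by_contra hcon
  push Not at hcon
  have hlt : ∀ j ∈ s.erase i₀, v (t j) < v (t i₀) := by
    intro j hj
    have hj' := Finset.mem_erase.mp hj
    refine lt_of_le_of_ne (hmax j hj'.2) ?_
    intro h
    by_cases htj : t j = 0
    · rw [htj, map_zero] at h
      exact ht0 ((v.zero_iff).mp h.symm)
    · exact hcon i₀ hi₀ j hj'.2 (Ne.symm hj'.1) ht0 htj h.symm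
  have h1 : v (∑ j ∈ s.erase i₀, t j) < v (t i₀) :=
    Valuation.map_sum_lt v ((v.ne_zero_iff).mpr ht0) hlt
  have h2 : ∑ j ∈ s.erase i₀, t j = - t i₀ := by
    rw [← Finset.add_sum_erase s t hi₀] at hsum
    exact eq_neg_of_add_eq_zero_right hsum
  rw [h2, Valuation.map_neg] at h1
  exact lt_irrefl _ h1

variable (A : ValuationSubring L) {p : ℕ}

theorem val_natCast_le_one (m : ℕ) : A.valuation (m : L) ≤ 1 := by
  have h : (m : L) = ((m : A) : L) := by push_cast; rfl
  rw [h]
  exact A.valuation_le_one _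

theorem val_intCast_le_one (m : ℤ) : A.valuation (m : L) ≤ 1 := by
  have h : (m : L) = ((m : A) : L) := by push_cast; rfl
  rw [h]
  exact A.valuation_le_one _

theorem val_p_lt_one (hA : (p : L) ∈ A.nonunits) : A.valuation (p : L) < 1 :=
  (A.mem_nonunits_iff).mp hA

theorem val_natCast_eq_one (hp : p.Prime) (hA : (p : L) ∈ A.nonunits) (m : ℕ) (hm : ¬ p ∣ m) :
    A.valuation (m : L) = 1 := by
  refine le_antisymm (val_natCast_le_one A m) ?_
  by_contra hlt
  rw [not_le] at hlt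
  have hcop : Nat.Coprime p m := (Nat.Prime.coprime_iff_not_dvd hp).mpr hm
  have hbez : (p : ℤ) * Nat.gcdA p m + (m : ℤ) * Nat.gcdB p m = 1 := by
    have := Nat.gcd_eq_gcd_ab p m
    rw [hcop.gcd_eq_one] at this
    exact_mod_cast this.symm
  have hbezL : (p : L) * ((Nat.gcdA p m : ℤ) : L) + (m : L) * ((Nat.gcdB p m : ℤ) : L) = 1 := by
    exact_mod_cast congrArg (fun z : ℤ => (z : L)) hbez
  have h1 : A.valuation ((p : L) * ((Nat.gcdA p m : ℤ) : L)) < 1 := by
    rw [map_mul]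
    calc A.valuation (p : L) * A.valuation ((Nat.gcdA p m : ℤ) : L)
        ≤ A.valuation (p : L) * 1 := by
          exact mul_le_mul_right (val_intCast_le_one A _) _
      _ < 1 := by rw [mul_one]; exact val_p_lt_one A hA
  have h2 : A.valuation ((m : L) * ((Nat.gcdB p m : ℤ) : L)) < 1 := by
    rw [map_mul]
    calc A.valuation (m : L) * A.valuation ((Nat.gcdB p m : ℤ) : L)
        ≤ A.valuation (m : L) * 1 := by
          exact mul_le_mul_right (val_intCast_le_one A _) _
      _ < 1 := by rw [mul_one]; exact hlt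
  have h3 := Valuation.map_add_lt A.valuation h1 h2
  rw [hbezL, map_one] at h3
  exact lt_irrefl _ h3

theorem val_p_ne_zero [CharZero L] (hp : p.Prime) : A.valuation (p : L) ≠ 0 :=
  (A.valuation.ne_zero_iff).mpr (Nat.cast_ne_zero.mpr hp.ne_zero)

/-- the valuation of a nonzero natural number is a power of the valuation of `p` -/
theorem val_natCast_eq_pow (hp : p.Prime) (hA : (p : L) ∈ A.nonunits) (m : ℕ) (hm : m ≠ 0) :
    ∃ e : ℕ, A.valuation (m : L) = A.valuation (p : L) ^ e := by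
  obtain ⟨e, m', hm', rfl⟩ := Nat.exists_eq_pow_mul_and_not_dvd hm p hp.ne_one
  refine ⟨e, ?_⟩
  push_cast
  rw [map_mul, map_pow, val_natCast_eq_one A hp hA m' hm', mul_one]

/-- the valuation of a nonzero rational number is an integral power of the valuation of `p` -/
theorem val_ratCast_eq_zpow [CharZero L] (hp : p.Prime) (hA : (p : L) ∈ A.nonunits) (r : ℚ)
    (hr : r ≠ 0) : ∃ k : ℤ, A.valuation (r : L) = A.valuation (p : L) ^ k := by
  have hnum : r.num.natAbs ≠ 0 := Int.natAbs_ne_zero.mpr (Rat.num_ne_zero.mpr hr)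
  obtain ⟨e₁, h₁⟩ := val_natCast_eq_pow A hp hA _ hnum
  obtain ⟨e₂, h₂⟩ := val_natCast_eq_pow A hp hA _ r.den_ne_zero
  refine ⟨(e₁ : ℤ) - e₂, ?_⟩
  have hv0 := val_p_ne_zero A hp (L := L)
  have hnumv : A.valuation ((r.num : ℤ) : L) = A.valuation ((r.num.natAbs : ℕ) : L) := by
    rcases Int.natAbs_eq r.num with h | h
    · conv_lhs => rw [h]
      simp
    · conv_lhs => rw [h]
      simp
  have hr' : (r : L) = (r.num : L) / (r.den : L) := by
    conv_lhs => rw [← Rat.num_div_den r]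
    push_cast
    rfl
  rw [hr', map_div₀, hnumv, h₁, h₂, zpow_sub₀ hv0, zpow_natCast, zpow_natCast]

section Alg

variable [Algebra ℚ L]

theorem val_algebraMap_eq_zpow (hp : p.Prime) (hA : (p : L) ∈ A.nonunits) (r : ℚ)
    (hr : r ≠ 0) : ∃ k : ℤ, A.valuation (algebraMap ℚ L r) = A.valuation (p : L) ^ k := by
  have hcz : CharZero L := algebraRat.charZero L
  rw [eq_ratCast]
  exact val_ratCast_eq_zpow A hp hA r hr

/-- for an algebraic `x ≠ 0`, some power `x ^ e`, `1 ≤ e ≤ deg x`, has the valuation of a power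
of `p` -/
theorem exists_pow_val_eq_zpow (hp : p.Prime) (hA : (p : L) ∈ A.nonunits) (x : L)
    (hx : IsIntegral ℚ x) (hx0 : x ≠ 0) :
    ∃ e : ℕ, 0 < e ∧ e ≤ (minpoly ℚ x).natDegree ∧
      ∃ k : ℤ, A.valuation x ^ e = A.valuation (p : L) ^ k := by
  classical
  have hcz : CharZero L := algebraRat.charZero L
  set f := minpoly ℚ x with hf
  have hsum : ∑ i ∈ Finset.range (f.natDegree + 1), f.coeff i • x ^ i = 0 := by
    rw [← Polynomial.aeval_eq_sum_range, hf, minpoly.aeval]
  have hlead : f.coeff f.natDegree • x ^ f.natDegree ≠ 0 := by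
    have h1 : f.coeff f.natDegree = 1 := (minpoly.monic hx).coeff_natDegree
    rw [h1, one_smul]
    exact pow_ne_zero _ hx0
  obtain ⟨i, hi, j, hj, hij, hti, htj, hv⟩ := exists_pair_val_eq A.valuation
    (Finset.range (f.natDegree + 1)) (fun i => f.coeff i • x ^ i) hsum
    ⟨f.natDegree, Finset.mem_range.mpr (Nat.lt_succ_self _), hlead⟩
  have hvx : A.valuation x ≠ 0 := (A.valuation.ne_zero_iff).mpr hx0
  have hvp : A.valuation (p : L) ≠ 0 := val_p_ne_zero A hp
  -- the symmetric statement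
  have key : ∀ i j : ℕ, i < j → j ≤ f.natDegree → f.coeff i • x ^ i ≠ 0 →
      f.coeff j • x ^ j ≠ 0 →
      A.valuation (f.coeff i • x ^ i) = A.valuation (f.coeff j • x ^ j) →
      ∃ e : ℕ, 0 < e ∧ e ≤ f.natDegree ∧
        ∃ k : ℤ, A.valuation x ^ e = A.valuation (p : L) ^ k := by
    intro i j hij hjd hti htj hv
    have hci : f.coeff i ≠ 0 := by
      intro h
      apply hti
      rw [h, zero_smul]
    have hcj : f.coeff j ≠ 0 := by
      intro h
      apply htj
      rw [h, zero_smul]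
    obtain ⟨ki, hki⟩ := val_algebraMap_eq_zpow A hp hA _ hci
    obtain ⟨kj, hkj⟩ := val_algebraMap_eq_zpow A hp hA _ hcj
    refine ⟨j - i, Nat.sub_pos_of_lt hij, le_trans (Nat.sub_le _ _) hjd, ki - kj, ?_⟩
    rw [Algebra.smul_def, Algebra.smul_def, map_mul, map_mul, map_pow, map_pow, hki, hkj] at hv
    have hj' : j = i + (j - i) := by omega
    rw [hj', _root_.pow_add] at hv
    have h1 : A.valuation (p : L) ^ ki =
        A.valuation (p : L) ^ kj * A.valuation x ^ (j - i) := by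
      have h2 : A.valuation (p : L) ^ ki * A.valuation x ^ i =
          (A.valuation (p : L) ^ kj * A.valuation x ^ (j - i)) * A.valuation x ^ i := by
        rw [hv, mul_assoc, mul_comm (A.valuation x ^ i)]
      exact mul_right_cancel₀ (pow_ne_zero _ hvx) h2
    rw [zpow_sub₀ hvp, h1]
    field_simp
  rcases lt_or_gt_of_ne hij with h | h
  · exact key i j h (Nat.lt_succ_iff.mp (Finset.mem_range.mp hj)) hti htj hv
  · exact key j i h (Nat.lt_succ_iff.mp (Finset.mem_range.mp hi)) htj hti hv.symm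

/-- **Discreteness on a number field**: a uniform exponent `E` with `v(x) ^ E ∈ v(p) ^ ℤ` for
all nonzero `x` of a finite extension `K₀` of `ℚ`. -/
theorem exists_uniform_exponent (hp : p.Prime) (hA : (p : L) ∈ A.nonunits)
    (K₀ : IntermediateField ℚ L) [h : FiniteDimensional ℚ K₀] :
    ∃ E : ℕ, 0 < E ∧ ∀ x ∈ K₀, x ≠ 0 →
      ∃ k : ℤ, A.valuation x ^ E = A.valuation (p : L) ^ k := by
  refine ⟨(Module.finrank ℚ K₀).factorial, Nat.factorial_pos _, ?_⟩
  intro x hx hx0
  have hint : IsIntegral ℚ x :=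
    (IntermediateField.isIntegral_iff (x := (⟨x, hx⟩ : K₀))).mp
      (@IsIntegral.of_finite ℚ K₀ _ _ (K₀.algebra') h ⟨x, hx⟩)
  obtain ⟨e, he0, hed, k, hk⟩ := exists_pow_val_eq_zpow A hp hA x hint hx0
  have hdeg : (minpoly ℚ x).natDegree ≤ Module.finrank ℚ K₀ := by
    have h1 := @minpoly.natDegree_le ℚ K₀ _ _ (K₀.algebra') h (⟨x, hx⟩ : K₀) inferInstance
    have h2 : @minpoly ℚ K₀ _ _ (K₀.algebra') (⟨x, hx⟩ : K₀) = minpoly ℚ x :=
      IntermediateField.minpoly_eq (⟨x, hx⟩ : K₀)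
    rw [h2] at h1
    exact h1
  obtain ⟨m, hm⟩ := Nat.dvd_factorial he0 (le_trans hed hdeg)
  refine ⟨k * m, ?_⟩
  rw [hm, pow_mul, hk, zpow_mul, zpow_natCast]

/-- **The maximum of the valuation is attained** on a bounded set of elements of a number
field. -/
theorem exists_max_val (hp : p.Prime) (hA : (p : L) ∈ A.nonunits)
    (K₀ : IntermediateField ℚ L) [FiniteDimensional ℚ K₀]
    (S : Set L) (hS : ∀ x ∈ S, x ∈ K₀) (hne : ∃ x ∈ S, x ≠ 0)
    (c : L) (hc : c ≠ 0) (hcint : IsIntegral ℚ c) (hb : ∀ x ∈ S, c * x ∈ A) :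
    ∃ x₀ ∈ S, x₀ ≠ 0 ∧ ∀ x ∈ S, x₀⁻¹ * x ∈ A := by
  have hcz : CharZero L := algebraRat.charZero L
  have : FiniteDimensional ℚ (IntermediateField.adjoin ℚ {c}) :=
    IntermediateField.adjoin.finiteDimensional hcint
  obtain ⟨E, hE0, hE⟩ := exists_uniform_exponent A hp hA (K₀ ⊔ IntermediateField.adjoin ℚ {c})
  have hvp0 : 0 < A.valuation (p : L) := zero_lt_iff.mpr (val_p_ne_zero A hp)
  have hvp1 : A.valuation (p : L) < 1 := val_p_lt_one A hA
  have hcK : c ∈ K₀ ⊔ IntermediateField.adjoin ℚ {c} :=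
    (le_sup_right : IntermediateField.adjoin ℚ {c} ≤ _)
      (IntermediateField.mem_adjoin_simple_self ℚ c)
  have hSK : ∀ x ∈ S, x ∈ K₀ ⊔ IntermediateField.adjoin ℚ {c} := fun x hx =>
    (le_sup_left : K₀ ≤ _) (hS x hx)
  obtain ⟨kc, hkc⟩ := hE c hcK hc
  -- the set of exponents
  have hbdd : ∃ b : ℤ, ∀ z : ℤ,
      (∃ x ∈ S, x ≠ 0 ∧ A.valuation x ^ E = A.valuation (p : L) ^ z) → b ≤ z := by
    refine ⟨-kc, ?_⟩
    rintro z ⟨x, hx, hx0, hxz⟩
    have h1 : A.valuation (c * x) ≤ 1 := (A.valuation_le_one_iff _).mpr (hb x hx)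
    have h2 : A.valuation (c * x) ^ E ≤ 1 := pow_le_one₀ zero_le h1
    rw [map_mul, mul_pow, hkc, hxz, ← zpow_add₀ (val_p_ne_zero A hp)] at h2
    have h3 := (zpow_le_one_iff_right_of_lt_one₀ hvp0 hvp1).mp h2
    omega
  have hinh : ∃ z : ℤ, ∃ x ∈ S, x ≠ 0 ∧ A.valuation x ^ E = A.valuation (p : L) ^ z := by
    obtain ⟨x, hx, hx0⟩ := hne
    obtain ⟨k, hk⟩ := hE x (hSK x hx) hx0
    exact ⟨k, x, hx, hx0, hk⟩
  obtain ⟨z₀, ⟨x₀, hx₀, hx₀0, hx₀z⟩, hmin⟩ := Int.exists_least_of_bdd hbdd hinh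
  refine ⟨x₀, hx₀, hx₀0, ?_⟩
  intro x hx
  rcases eq_or_ne x 0 with rfl | hx0
  · rw [mul_zero]
    exact A.zero_mem
  obtain ⟨k, hk⟩ := hE x (hSK x hx) hx0
  have hle : z₀ ≤ k := hmin k ⟨x, hx, hx0, hk⟩
  have h1 : A.valuation x ^ E ≤ A.valuation x₀ ^ E := by
    rw [hk, hx₀z]
    exact zpow_le_zpow_right_of_le_one₀ hvp0 hvp1.le hle
  have h2 : A.valuation x ≤ A.valuation x₀ :=
    (pow_le_pow_iff_left₀ zero_le zero_le hE0.ne').mp h1
  rw [← A.valuation_le_one_iff, map_mul, map_inv₀]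
  have hv0 : A.valuation x₀ ≠ 0 := (A.valuation.ne_zero_iff).mpr hx₀0
  calc (A.valuation x₀)⁻¹ * A.valuation x ≤ (A.valuation x₀)⁻¹ * A.valuation x₀ :=
        mul_le_mul_right h2 _
    _ = 1 := inv_mul_cancel₀ hv0

end Alg

end Disc

section Content

variable {L : Type*} [Field L] [Algebra ℚ L] {ι : Type*} (A : ValuationSubring L) {p : ℕ}

/-- a Laurent series with coefficients in `A` comes from `A((q))` -/
theorem exists_incl_eq (f : LaurentSeries L) (hf : ∀ n, f.coeff n ∈ A) :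
    ∃ Y : LaurentSeries A, coeffMap A.subtype Y = f := by
  have hsupp : Function.support (fun n => (⟨f.coeff n, hf n⟩ : A)) ⊆ f.support := by
    intro n hn
    rw [HahnSeries.mem_support]
    intro h0
    apply hn
    exact Subtype.ext h0
  refine ⟨⟨fun n => ⟨f.coeff n, hf n⟩, f.isPWO_support.mono hsupp⟩, ?_⟩
  ext n
  rw [coeffMap_coeff]
  rfl

theorem exists_famIncl_eq (X : ι → LaurentSeries L) (hX : ∀ i n, (X i).coeff n ∈ A) :
    ∃ Y : ι → LaurentSeries A, famMap A.subtype Y = X := by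
  choose Y hY using fun i => exists_incl_eq A (X i) (hX i)
  exact ⟨Y, funext hY⟩

/-- **Attained content from discreteness**: a nonzero bounded family of Laurent series with
coefficients in a number field has attained Gauss norm. -/
theorem contentAttained_of_coeffs_mem {k : Type*} [Field k] (π : A →+* k)
    (hp : p.Prime) (hA : (p : L) ∈ A.nonunits)
    (K₀ : IntermediateField ℚ L) [FiniteDimensional ℚ K₀]
    (X : ι → LaurentSeries L) (hX0 : X ≠ 0) (hXK : ∀ i j, (X i).coeff j ∈ K₀)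
    (c : L) (hc : c ≠ 0) (hcint : IsIntegral ℚ c) (hb : ∀ i j, c * (X i).coeff j ∈ A) :
    ContentAttainedFam A π X := by
  obtain ⟨x₀, ⟨i₀, j₀, rfl⟩, hx₀0, hmax⟩ := exists_max_val A hp hA K₀
    {x | ∃ i j, x = (X i).coeff j} (by rintro x ⟨i, j, rfl⟩; exact hXK i j)
    (by
      by_contra h
      push Not at h
      apply hX0
      funext i
      ext j
      exact h _ ⟨i, j, rfl⟩)
    c hc hcint (by rintro x ⟨i, j, rfl⟩; exact hb i j)
  obtain ⟨Y, hY⟩ := exists_famIncl_eq A (((X i₀).coeff j₀)⁻¹ • X) (fun i n => by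
    show ((((X i₀).coeff j₀)⁻¹ • X) i).coeff n ∈ A
    rw [Pi.smul_apply, HahnSeries.coeff_smul, smul_eq_mul]
    exact hmax _ ⟨i, n, rfl⟩)
  refine ⟨((X i₀).coeff j₀)⁻¹, inv_ne_zero hx₀0, Y, hY, ?_⟩
  intro h0
  have h1 : (famMap π Y i₀).coeff j₀ = 0 := by rw [h0]; rfl
  rw [famMap_apply, coeffMap_coeff] at h1
  have h2 : ((Y i₀).coeff j₀ : L) = 1 := by
    have h3 := congrArg (fun Z : ι → LaurentSeries L => (Z i₀).coeff j₀) hY
    simp only [famMap_apply, coeffMap_coeff, Pi.smul_apply, HahnSeries.coeff_smul,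
      smul_eq_mul] at h3
    rw [inv_mul_cancel₀ hx₀0] at h3
    exact h3
  have h4 : (Y i₀).coeff j₀ = 1 := Subtype.ext h2
  rw [h4, map_one] at h1
  exact one_ne_zero h1

end Content


section NF

variable {L : Type*} [Field L] [Algebra ℚ L] {ι : Type*}

/-- the Laurent series with coefficients in the intermediate field `K`, as a subfield -/
def coeffSubfield (K : IntermediateField ℚ L) : Subfield (LaurentSeries L) :=
  (coeffMap (algebraMap K L)).fieldRange

theorem mem_coeffSubfield_iff (K : IntermediateField ℚ L) (x : LaurentSeries L) :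
    x ∈ coeffSubfield K ↔ ∀ j, x.coeff j ∈ K := by
  constructor
  · rintro ⟨y, rfl⟩ j
    rw [coeffMap_coeff]
    exact (y.coeff j).2
  · intro h
    have hsupp : Function.support (fun n => (⟨x.coeff n, h n⟩ : K)) ⊆ x.support := by
      intro n hn
      rw [HahnSeries.mem_support]
      intro h0
      apply hn
      exact Subtype.ext h0
    refine ⟨⟨fun n => ⟨x.coeff n, h n⟩, x.isPWO_support.mono hsupp⟩, ?_⟩
    ext n
    rw [coeffMap_coeff]
    rfl

theorem coeffSubfield_mono {K K' : IntermediateField ℚ L} (h : K ≤ K') :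
    coeffSubfield K ≤ coeffSubfield K' := by
  intro x hx
  rw [mem_coeffSubfield_iff] at hx ⊢
  exact fun j => h (hx j)

/-- the coefficients of the series lie in one number field -/
def CoeffNF (x : LaurentSeries L) : Prop :=
  ∃ K₀ : IntermediateField ℚ L, FiniteDimensional ℚ K₀ ∧ ∀ j, x.coeff j ∈ K₀

/-- the coefficients of the family lie in one number field -/
def CoeffsNF (X : ι → LaurentSeries L) : Prop :=
  ∃ K₀ : IntermediateField ℚ L, FiniteDimensional ℚ K₀ ∧ ∀ i j, (X i).coeff j ∈ K₀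

theorem CoeffsNF.apply {X : ι → LaurentSeries L} (h : CoeffsNF X) (i : ι) : CoeffNF (X i) := by
  obtain ⟨K, hK, hX⟩ := h
  exact ⟨K, hK, hX i⟩

theorem coeffsNF_of_forall [Finite ι] {X : ι → LaurentSeries L} (h : ∀ i, CoeffNF (X i)) :
    CoeffsNF X := by
  classical
  haveI := Fintype.ofFinite ι
  choose K hK hX using h
  refine ⟨⨆ i, K i, ?_, fun i j => (le_iSup K i) (hX i j)⟩
  haveI := hK
  exact IntermediateField.finiteDimensional_iSup_of_finite

theorem coeffsNF_pair {x y : LaurentSeries L} (hx : CoeffNF x) (hy : CoeffNF y) :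
    CoeffsNF ![x, y] := by
  apply coeffsNF_of_forall
  intro i
  fin_cases i
  · exact hx
  · exact hy

/-! ### closure properties, single series -/

theorem coeffNF_zero : CoeffNF (0 : LaurentSeries L) :=
  ⟨⊥, inferInstance, fun j => by simp⟩

theorem coeffNF_one : CoeffNF (1 : LaurentSeries L) :=
  ⟨⊥, inferInstance, (mem_coeffSubfield_iff _ _).mp (one_mem _)⟩

theorem CoeffNF.binop {x y : LaurentSeries L} (hx : CoeffNF x) (hy : CoeffNF y)
    (f : LaurentSeries L → LaurentSeries L → LaurentSeries L)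
    (hf : ∀ (S : Subfield (LaurentSeries L)) (a b : LaurentSeries L), a ∈ S → b ∈ S →
      f a b ∈ S) : CoeffNF (f x y) := by
  obtain ⟨K₀, hK₀, h0⟩ := hx
  obtain ⟨K₁, hK₁, h1⟩ := hy
  haveI := hK₀
  haveI := hK₁
  refine ⟨K₀ ⊔ K₁, IntermediateField.finiteDimensional_sup K₀ K₁, ?_⟩
  rw [← mem_coeffSubfield_iff]
  exact hf _ _ _ (coeffSubfield_mono le_sup_left ((mem_coeffSubfield_iff _ _).mpr h0))
    (coeffSubfield_mono le_sup_right ((mem_coeffSubfield_iff _ _).mpr h1))

theorem CoeffNF.add {x y : LaurentSeries L} (hx : CoeffNF x) (hy : CoeffNF y) :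
    CoeffNF (x + y) :=
  hx.binop hy (· + ·) fun S a b ha hb => S.add_mem ha hb

theorem CoeffNF.sub {x y : LaurentSeries L} (hx : CoeffNF x) (hy : CoeffNF y) :
    CoeffNF (x - y) :=
  hx.binop hy (· - ·) fun S a b ha hb => S.sub_mem ha hb

theorem CoeffNF.mul {x y : LaurentSeries L} (hx : CoeffNF x) (hy : CoeffNF y) :
    CoeffNF (x * y) :=
  hx.binop hy (· * ·) fun S a b ha hb => S.mul_mem ha hb

theorem CoeffNF.div {x y : LaurentSeries L} (hx : CoeffNF x) (hy : CoeffNF y) :
    CoeffNF (x / y) :=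
  hx.binop hy (· / ·) fun S a b ha hb => S.div_mem ha hb

theorem CoeffNF.neg {x : LaurentSeries L} (hx : CoeffNF x) : CoeffNF (-x) := by
  have := coeffNF_zero.sub hx
  rwa [zero_sub] at this

theorem CoeffNF.inv {x : LaurentSeries L} (hx : CoeffNF x) : CoeffNF x⁻¹ := by
  have := coeffNF_one.div hx
  rwa [one_div] at this

theorem CoeffNF.pow {x : LaurentSeries L} (hx : CoeffNF x) (n : ℕ) : CoeffNF (x ^ n) := by
  induction n with
  | zero => rw [pow_zero]; exact coeffNF_one
  | succ n ih => rw [pow_succ]; exact ih.mul hx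

theorem coeffNF_C (c : L) (hc : IsIntegral ℚ c) : CoeffNF (HahnSeries.C c : LaurentSeries L) := by
  refine ⟨IntermediateField.adjoin ℚ {c}, IntermediateField.adjoin.finiteDimensional hc, ?_⟩
  intro j
  rw [HahnSeries.C_apply, HahnSeries.coeff_single]
  split_ifs
  · exact IntermediateField.mem_adjoin_simple_self ℚ c
  · exact zero_mem _

theorem CoeffNF.smul {x : LaurentSeries L} (hx : CoeffNF x) (c : L) (hc : IsIntegral ℚ c) :
    CoeffNF (c • x) := by
  rw [← HahnSeries.C_mul_eq_smul]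
  exact (coeffNF_C c hc).mul hx

theorem coeffNF_coeffEmb (x : LaurentSeries ℚ) : CoeffNF (coeffEmb L x) :=
  ⟨⊥, inferInstance, fun j => by
    rw [coeffEmb_coeff]
    exact IntermediateField.algebraMap_mem _ _⟩

theorem CoeffNF.map {x : LaurentSeries L} (hx : CoeffNF x) (σ : L ≃ₐ[ℚ] L) :
    CoeffNF (coeffMap (σ : L →+* L) x) := by
  obtain ⟨K₀, hK₀, h0⟩ := hx
  haveI := hK₀
  refine ⟨K₀.map σ.toAlgHom, IntermediateField.finiteDimensional_map σ.toAlgHom, ?_⟩
  intro j
  rw [coeffMap_coeff]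
  exact ⟨x.coeff j, h0 j, rfl⟩

/-! ### closure properties, families -/

theorem coeffsNF_zero : CoeffsNF (0 : ι → LaurentSeries L) :=
  ⟨⊥, inferInstance, fun i j => by simp⟩

theorem coeffsNF_one : CoeffsNF (1 : ι → LaurentSeries L) :=
  ⟨⊥, inferInstance, fun i => (mem_coeffSubfield_iff _ _).mp (one_mem _)⟩

theorem CoeffsNF.binop {X Y : ι → LaurentSeries L} (hx : CoeffsNF X) (hy : CoeffsNF Y)
    (f : LaurentSeries L → LaurentSeries L → LaurentSeries L)
    (hf : ∀ (S : Subfield (LaurentSeries L)) (a b : LaurentSeries L), a ∈ S → b ∈ S →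
      f a b ∈ S) : CoeffsNF (fun i => f (X i) (Y i)) := by
  obtain ⟨K₀, hK₀, h0⟩ := hx
  obtain ⟨K₁, hK₁, h1⟩ := hy
  haveI := hK₀
  haveI := hK₁
  refine ⟨K₀ ⊔ K₁, IntermediateField.finiteDimensional_sup K₀ K₁, fun i => ?_⟩
  rw [← mem_coeffSubfield_iff]
  exact hf _ _ _ (coeffSubfield_mono le_sup_left ((mem_coeffSubfield_iff _ _).mpr (h0 i)))
    (coeffSubfield_mono le_sup_right ((mem_coeffSubfield_iff _ _).mpr (h1 i)))

theorem CoeffsNF.add {X Y : ι → LaurentSeries L} (hx : CoeffsNF X) (hy : CoeffsNF Y) :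
    CoeffsNF (X + Y) :=
  hx.binop hy (· + ·) fun S a b ha hb => S.add_mem ha hb

theorem CoeffsNF.sub {X Y : ι → LaurentSeries L} (hx : CoeffsNF X) (hy : CoeffsNF Y) :
    CoeffsNF (X - Y) :=
  hx.binop hy (· - ·) fun S a b ha hb => S.sub_mem ha hb

theorem CoeffsNF.mul {X Y : ι → LaurentSeries L} (hx : CoeffsNF X) (hy : CoeffsNF Y) :
    CoeffsNF (X * Y) :=
  hx.binop hy (· * ·) fun S a b ha hb => S.mul_mem ha hb

theorem CoeffsNF.neg {X : ι → LaurentSeries L} (hx : CoeffsNF X) : CoeffsNF (-X) := by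
  have := (coeffsNF_zero (ι := ι) (L := L)).sub hx
  rwa [zero_sub] at this

theorem CoeffsNF.pow {X : ι → LaurentSeries L} (hx : CoeffsNF X) (n : ℕ) :
    CoeffsNF (X ^ n) := by
  induction n with
  | zero => rw [pow_zero]; exact coeffsNF_one
  | succ n ih => rw [pow_succ]; exact ih.mul hx

theorem CoeffsNF.smul {X : ι → LaurentSeries L} (hx : CoeffsNF X) (c : L)
    (hc : IsIntegral ℚ c) : CoeffsNF (c • X) := by
  obtain ⟨K₀, hK₀, h0⟩ := hx
  haveI := hK₀
  haveI : FiniteDimensional ℚ (IntermediateField.adjoin ℚ {c}) :=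
    IntermediateField.adjoin.finiteDimensional hc
  refine ⟨K₀ ⊔ IntermediateField.adjoin ℚ {c}, IntermediateField.finiteDimensional_sup _ _,
    fun i j => ?_⟩
  rw [Pi.smul_apply, HahnSeries.coeff_smul, smul_eq_mul]
  exact mul_mem ((le_sup_right : IntermediateField.adjoin ℚ {c} ≤ _)
    (IntermediateField.mem_adjoin_simple_self ℚ c)) ((le_sup_left : K₀ ≤ _) (h0 i j))

theorem CoeffsNF.of_smul {X : ι → LaurentSeries L} {c : L} (hc0 : c ≠ 0)
    (hc : IsIntegral ℚ c) (hx : CoeffsNF (c • X)) : CoeffsNF X := by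
  have h := hx.smul c⁻¹ hc.inv
  rwa [smul_smul, inv_mul_cancel₀ hc0, one_smul] at h

theorem CoeffsNF.map {X : ι → LaurentSeries L} (hx : CoeffsNF X) (σ : L ≃ₐ[ℚ] L) :
    CoeffsNF (famMap (σ : L →+* L) X) := by
  obtain ⟨K₀, hK₀, h0⟩ := hx
  haveI := hK₀
  refine ⟨K₀.map σ.toAlgHom, IntermediateField.finiteDimensional_map σ.toAlgHom, ?_⟩
  intro i j
  rw [famMap_apply, coeffMap_coeff]
  exact ⟨(X i).coeff j, h0 i j, rfl⟩

end NF


section Roots

variable {L : Type*} [Field L] [Algebra ℚ L] [IsAlgClosed L] [Algebra.IsAlgebraic ℚ L]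

/-- two `n`-th roots of the same Laurent series with the same coefficient at the order of the
first one are equal -/
theorem eq_of_pow_eq_of_coeff_eq (n : ℕ) (hn : n ≠ 0) (Z Z' : LaurentSeries L) (hZ : Z ≠ 0)
    (hpow : Z' ^ n = Z ^ n) (hc : Z'.coeff Z.order = Z.coeff Z.order) : Z' = Z := by
  have hcz : CharZero L := algebraRat.charZero L
  haveI : NeZero n := ⟨hn⟩
  haveI : NeZero (n : L) := ⟨Nat.cast_ne_zero.mpr hn⟩
  obtain ⟨ω, hω⟩ := HasEnoughRootsOfUnity.exists_primitiveRoot L n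
  have hω' : IsPrimitiveRoot (HahnSeries.C ω : LaurentSeries L) n :=
    hω.map_of_injective HahnSeries.C_injective
  have h1 : (Z' * Z⁻¹) ^ n = 1 := by
    rw [mul_pow, hpow, inv_pow, mul_inv_cancel₀ (pow_ne_zero n hZ)]
  obtain ⟨i, -, hi⟩ := hω'.eq_pow_of_pow_eq_one h1
  have h2 : Z' = HahnSeries.C (ω ^ i) * Z := by
    rw [map_pow, hi, mul_assoc, inv_mul_cancel₀ hZ, mul_one]
  have h3 : Z'.coeff Z.order = ω ^ i * Z.coeff Z.order := by
    rw [h2, HahnSeries.C_mul_eq_smul, HahnSeries.coeff_smul, smul_eq_mul]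
  rw [hc] at h3
  have h4 : ω ^ i = 1 := by
    have h5 : Z.coeff Z.order ≠ 0 := by
      rw [← HahnSeries.leadingCoeff_eq]
      exact HahnSeries.leadingCoeff_ne_zero.mpr hZ
    have h6 : (ω ^ i - 1) * Z.coeff Z.order = 0 := by
      rw [sub_mul, one_mul, ← h3, sub_self]
    rcases mul_eq_zero.mp h6 with h | h
    · exact sub_eq_zero.mp h
    · exact absurd h h5
  rw [h2, h4, map_one, one_mul]

/-- **Formal roots stay in a number field**: if `Z ^ n` has coefficients in a number field, so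
has `Z` (`n ≠ 0`; Galois descent). -/
theorem CoeffNF.of_pow {Z : LaurentSeries L} (n : ℕ) (hn : n ≠ 0) (h : CoeffNF (Z ^ n)) :
    CoeffNF Z := by
  rcases eq_or_ne Z 0 with rfl | hZ
  · exact coeffNF_zero
  obtain ⟨K₀, hK₀, h0⟩ := h
  haveI := hK₀
  have hz : IsIntegral ℚ (Z.coeff Z.order) :=
    (Algebra.IsAlgebraic.isAlgebraic (R := ℚ) (Z.coeff Z.order)).isIntegral
  haveI : FiniteDimensional ℚ (IntermediateField.adjoin ℚ {Z.coeff Z.order}) :=
    IntermediateField.adjoin.finiteDimensional hz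
  haveI : IsAlgClosure ℚ L := ⟨inferInstance, inferInstance⟩
  haveI : IsGalois ℚ L := IsAlgClosure.isGalois ℚ L
  refine ⟨K₀ ⊔ IntermediateField.adjoin ℚ {Z.coeff Z.order},
    IntermediateField.finiteDimensional_sup _ _, fun j => ?_⟩
  rw [← InfiniteGalois.fixedField_fixingSubgroup
    (K₀ ⊔ IntermediateField.adjoin ℚ {Z.coeff Z.order}), IntermediateField.mem_fixedField_iff]
  intro σ hσ
  rw [IntermediateField.mem_fixingSubgroup_iff] at hσ
  have hpow : (coeffMap (σ : L →+* L) Z) ^ n = Z ^ n := by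
    rw [← map_pow]
    ext j
    rw [coeffMap_coeff]
    exact hσ _ ((le_sup_left : K₀ ≤ _) (h0 j))
  have hc : (coeffMap (σ : L →+* L) Z).coeff Z.order = Z.coeff Z.order := by
    rw [coeffMap_coeff]
    exact hσ _ ((le_sup_right : IntermediateField.adjoin ℚ {Z.coeff Z.order} ≤ _)
      (IntermediateField.mem_adjoin_simple_self ℚ _))
  have := eq_of_pow_eq_of_coeff_eq n hn Z _ hZ hpow hc
  have h2 := congrArg (fun x : LaurentSeries L => x.coeff j) this
  simpa [coeffMap_coeff] using h2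

end Roots


section Attained

variable {L : Type*} [Field L] [Algebra ℚ L] [Algebra.IsAlgebraic ℚ L] {ι : Type*}
  (A : ValuationSubring L) {p : ℕ}

/-- **Attained content**: a nonzero bounded family with coefficients in a number field. -/
theorem contentAttained_of_coeffsNF {k : Type*} [Field k] (π : A →+* k)
    (hp : p.Prime) (hA : (p : L) ∈ A.nonunits)
    (X : ι → LaurentSeries L) (hX0 : X ≠ 0) (hX : CoeffsNF X)
    (c : L) (hc : c ≠ 0) (hb : ∀ i j, c * (X i).coeff j ∈ A) :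
    ContentAttainedFam A π X := by
  obtain ⟨K₀, hK₀, hXK⟩ := hX
  haveI := hK₀
  exact contentAttained_of_coeffs_mem A π hp hA K₀ X hX0 hXK c hc
    (Algebra.IsAlgebraic.isAlgebraic (R := ℚ) c).isIntegral hb

theorem famMap_subtype_injective : Function.Injective (famMap (ι := ι) A.subtype) := by
  intro X Y h
  funext i
  ext j
  have h1 := congrArg (fun Z : ι → LaurentSeries L => (Z i).coeff j) h
  simp only [famMap_apply, coeffMap_coeff] at h1
  exact h1

/-- **`hatt`**: the Gauss norm of `W₀ - u` is attained, for `W₀` integral with coefficients in a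
number field and `u` in a space `V` of families with coefficients in number fields and attained
content. -/
theorem contentAttained_sub_of_coeffsNF {k : Type*} [Field k] (π : A →+* k)
    (hp : p.Prime) (hA : (p : L) ∈ A.nonunits)
    (V : Submodule L (ι → LaurentSeries L))
    (hVatt : ∀ u ∈ V, u ≠ 0 → ContentAttainedFam A π u)
    (hVnf : ∀ u ∈ V, CoeffsNF u)
    (W₀ : ι → LaurentSeries A) (hW₀ : CoeffsNF (famMap A.subtype W₀)) :
    ∀ u ∈ V, famMap A.subtype W₀ - u ≠ 0 →
      ContentAttainedFam A π (famMap A.subtype W₀ - u) := by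
  intro u hu hne
  have hnf : CoeffsNF (famMap A.subtype W₀ - u) := hW₀.sub (hVnf u hu)
  have hW₀int : ∀ i j, ((famMap A.subtype W₀) i).coeff j ∈ A := fun i j => by
    rw [famMap_apply, coeffMap_coeff]
    exact Subtype.property _
  rcases eq_or_ne u 0 with rfl | hu0
  · refine contentAttained_of_coeffsNF A π hp hA _ hne hnf 1 one_ne_zero fun i j => ?_
    rw [one_mul, sub_zero]
    exact hW₀int i j
  obtain ⟨c, hc, Y, hY, -⟩ := hVatt u hu hu0
  have hYint : ∀ i j, c * (u i).coeff j ∈ A := fun i j => by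
    have h1 := congrArg (fun Z : ι → LaurentSeries L => (Z i).coeff j) hY
    simp only [famMap_apply, coeffMap_coeff, Pi.smul_apply, HahnSeries.coeff_smul,
      smul_eq_mul] at h1
    rw [← h1]
    exact Subtype.property _
  rcases A.mem_or_inv_mem c with hcA | hcA
  · refine contentAttained_of_coeffsNF A π hp hA _ hne hnf c hc fun i j => ?_
    rw [Pi.sub_apply, HahnSeries.coeff_sub, mul_sub]
    exact A.sub_mem (A.mul_mem _ _ hcA (hW₀int i j)) (hYint i j)
  · refine contentAttained_of_coeffsNF A π hp hA _ hne hnf 1 one_ne_zero fun i j => ?_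
    rw [one_mul, Pi.sub_apply, HahnSeries.coeff_sub]
    refine A.sub_mem (hW₀int i j) ?_
    have h2 : (u i).coeff j = c⁻¹ * (c * (u i).coeff j) := by
      rw [← mul_assoc, inv_mul_cancel₀ hc, one_mul]
    rw [h2]
    exact A.mul_mem _ _ hcA (hYint i j)

/-- **The `ϖ₁` of the monoid trick**: a nonzero integral family with coefficients in a number
field and reduction `0` is `ϖ • E₂`, with `ϖ ≠ 0` in the maximal ideal and `red E₂ ≠ 0`. -/
theorem exists_smul_of_red_zero {k : Type*} [Field k] (π : A →+* k)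
    (hp : p.Prime) (hA : (p : L) ∈ A.nonunits)
    (E : ι → LaurentSeries A) (hE0 : E ≠ 0) (hE : CoeffsNF (famMap A.subtype E))
    (hred : famMap π E = 0) :
    ∃ ϖ : A, ϖ ≠ 0 ∧ π ϖ = 0 ∧ ∃ E₂ : ι → LaurentSeries A, E = ϖ • E₂ ∧ famMap π E₂ ≠ 0 := by
  obtain ⟨K₀, hK₀, hEK⟩ := hE
  haveI := hK₀
  have hne : ∃ x ∈ {x : L | ∃ i j, x = (((E i).coeff j : A) : L)}, x ≠ 0 := by
    by_contra h
    push Not at h
    apply hE0
    funext i
    ext j
    simpa using h _ ⟨i, j, rfl⟩
  obtain ⟨x₀, ⟨i₀, j₀, rfl⟩, hx₀0, hmax⟩ := exists_max_val A hp hA K₀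
    {x : L | ∃ i j, x = (((E i).coeff j : A) : L)}
    (by
      rintro x ⟨i, j, rfl⟩
      have := hEK i j
      rwa [famMap_apply, coeffMap_coeff] at this)
    hne 1 one_ne_zero isIntegral_one
    (by
      rintro x ⟨i, j, rfl⟩
      rw [one_mul]
      exact Subtype.property _)
  set ϖ : A := (E i₀).coeff j₀ with hϖ
  have hϖ0 : ϖ ≠ 0 := fun h => hx₀0 (by rw [h]; rfl)
  obtain ⟨E₂, hE₂⟩ := exists_famIncl_eq A (((ϖ : A) : L)⁻¹ • famMap A.subtype E) (fun i n => by
    rw [Pi.smul_apply, HahnSeries.coeff_smul, smul_eq_mul, famMap_apply, coeffMap_coeff]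
    exact hmax _ ⟨i, n, rfl⟩)
  refine ⟨ϖ, hϖ0, ?_, E₂, ?_, ?_⟩
  · have h1 : (famMap π E i₀).coeff j₀ = 0 := by rw [hred]; rfl
    rwa [famMap_apply, coeffMap_coeff] at h1
  · apply famMap_subtype_injective A
    rw [famMap_subtype_smul, hE₂, smul_smul, mul_inv_cancel₀ hx₀0, one_smul]
  · intro h0
    have h1 : (famMap π E₂ i₀).coeff j₀ = 0 := by rw [h0]; rfl
    rw [famMap_apply, coeffMap_coeff] at h1
    have h2 : (((E₂ i₀).coeff j₀ : A) : L) = 1 := by
      have h3 := congrArg (fun Z : ι → LaurentSeries L => (Z i₀).coeff j₀) hE₂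
      simp only [famMap_apply, coeffMap_coeff, Pi.smul_apply, HahnSeries.coeff_smul,
        smul_eq_mul] at h3
      exact h3.trans (inv_mul_cancel₀ hx₀0)
    have h4 : (E₂ i₀).coeff j₀ = 1 := Subtype.ext h2
    rw [h4, map_one] at h1
    exact one_ne_zero h1

/-- **(L1) with `hatt` discharged**: `exists_close_of_pow_mem_fam` for families with
coefficients in number fields. -/
theorem exists_close_of_pow_mem_fam_nf {k : Type*} [Field k]
    (π : A →+* k) (hπ : ∀ x : A, π x ≠ 0 → IsUnit x) (hπs : Function.Surjective π)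
    (V V' : Submodule L (ι → LaurentSeries L)) [FiniteDimensional L V] (n : ι → ℤ)
    (hp : p.Prime) (hA : (p : L) ∈ A.nonunits) (l τ : A) (hl : (p : A) = l ^ (p - 1) * τ)
    (hVatt : ∀ u ∈ V, u ≠ 0 → ContentAttainedFam A π u)
    (hVnf : ∀ u ∈ V, CoeffsNF u)
    (hVord : ∀ u ∈ V, ∀ i, ∀ j < -(n i), (u i).coeff j = 0)
    (hpow : ∀ u ∈ V, u ^ p ∈ V')
    (hone : (1 : ι → LaurentSeries L) ∈ V)
    (hFC : ∀ Φ Z : ι → LaurentSeries A, famMap A.subtype Φ ∈ V' →
      (∀ i, ∀ j < -(n i), (Z i).coeff j = 0) → famMap π Φ = famMap π Z ^ p →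
      ∃ Z' : ι → LaurentSeries A, famMap A.subtype Z' ∈ V ∧ famMap π Z' = famMap π Z)
    (W₀ : ι → LaurentSeries A) (hW₀ : (famMap A.subtype W₀) ^ p ∈ V')
    (hW₀red : famMap π W₀ = 1) (hW₀ord : ∀ i, ∀ j < -(n i), (W₀ i).coeff j = 0)
    (hW₀nf : CoeffsNF (famMap A.subtype W₀)) :
    ∃ U Y : ι → LaurentSeries A, famMap A.subtype U ∈ V ∧ famMap π U = 1 ∧ W₀ - U = l • Y :=
  exists_close_of_pow_mem_fam A π hπ hπs V V' n p hp l τ hl hVatt hVord hpow hone hFC W₀ hW₀
    hW₀red hW₀ord (contentAttained_sub_of_coeffsNF A π hp hA V hVatt hVnf W₀ hW₀nf)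

end Attained

section Inst

open IntermediateField AlgebraicCurve
open Fermat.Agent.S18.helper19 Fermat.Agent.P2.helper29

/-- the elements of a base-changed function field have coefficients in a number field -/
theorem coeffNF_laurentBaseChange {L : Type*} [Field L] [Algebra ℚ L] [Algebra.IsAlgebraic ℚ L]
    (F₀ : IntermediateField ℚ (LaurentSeries ℚ)) {x : LaurentSeries L}
    (hx : x ∈ laurentBaseChange L F₀) : CoeffNF x := by
  rw [mem_laurentBaseChange_iff] at hx
  induction hx using Subfield.closure_induction with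
  | mem y hy =>
      rcases hy with ⟨a, rfl⟩ | ⟨z, hz, rfl⟩
      · rw [algebraMap_laurentSeries_eq_single]
        exact coeffNF_C a (Algebra.IsAlgebraic.isAlgebraic (R := ℚ) a).isIntegral
      · exact coeffNF_coeffEmb z
  | one => exact coeffNF_one
  | add x y _ _ hx hy => exact hx.add hy
  | neg x _ hx => exact hx.neg
  | inv x _ hx => exact hx.inv
  | mul x y _ _ hx hy => exact hx.mul hy

variable {M : ℕ}

theorem isAlgebraic_Kb : Algebra.IsAlgebraic ℚ Kb := AlgebraicClosure.isAlgebraic ℚ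

/-- the expansion of an element of `F_M` has coefficients in a number field -/
theorem coeffNF_FF (f : FF M) : CoeffNF (f : LaurentSeries Kb) :=
  haveI := isAlgebraic_Kb
  coeffNF_laurentBaseChange (modularFunctionFieldFull M) f.2

variable [NeZero M] (W : FF M ≃ₐ[Kb] FF M) (A : ValuationSubring Kb)

theorem coeffsNF_pairLin (f : FF M) : CoeffsNF (pairLin W f) := by
  apply coeffsNF_of_forall
  intro i
  fin_cases i
  · exact coeffNF_FF f
  · exact coeffNF_FF (W f)

theorem coeffsNF_of_mem_VN (N : ℤ) (u : Fin 2 → LaurentSeries Kb) (hu : u ∈ VN W N) :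
    CoeffsNF u := by
  obtain ⟨f, -, rfl⟩ := Submodule.mem_map.mp hu
  exact coeffsNF_pairLin W f

/-- the pair of formal `n`-th roots of the pair of expansions of `K` has coefficients in a number
field -/
theorem coeffsNF_roots (K : FF M) (n : ℕ) (hn : n ≠ 0) (Z₁ Z₂ : LaurentSeries A)
    (h1 : incl A Z₁ ^ n = (K : LaurentSeries Kb))
    (h2 : incl A Z₂ ^ n = ((W K : FF M) : LaurentSeries Kb)) :
    CoeffsNF (famMap A.subtype ![Z₁, Z₂]) := by
  haveI := isAlgebraic_Kb
  apply coeffsNF_of_forall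
  intro i
  fin_cases i
  · exact CoeffNF.of_pow (Z := incl A Z₁) n hn (h1 ▸ coeffNF_FF K)
  · exact CoeffNF.of_pow (Z := incl A Z₂) n hn (h2 ▸ coeffNF_FF (W K))

/-- **`hatt` at the pair of cusps**: for the pair `(Z₁, Z₂)` of integral formal `n`-th roots of
the pair of expansions of `K ∈ F_M` and `u ∈ VN W N`, the Gauss norm of `(Z₁, Z₂) - u` is
attained.  (`hVatt` is `T2.helper74.contentAttained_pair`.) -/
theorem contentAttained_sub_pair {p : ℕ} (hp : p.Prime) (hA : A.LiesOverPrime p) (N : ℤ)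
    (hVatt : ∀ u ∈ VN W N, u ≠ 0 → ContentAttainedFam A (IsLocalRing.residue A) u)
    (K : FF M) (n : ℕ) (hn : n ≠ 0) (Z₁ Z₂ : LaurentSeries A)
    (h1 : incl A Z₁ ^ n = (K : LaurentSeries Kb))
    (h2 : incl A Z₂ ^ n = ((W K : FF M) : LaurentSeries Kb)) :
    ∀ u ∈ VN W N, famMap A.subtype ![Z₁, Z₂] - u ≠ 0 →
      ContentAttainedFam A (IsLocalRing.residue A) (famMap A.subtype ![Z₁, Z₂] - u) :=
  haveI := isAlgebraic_Kb
  contentAttained_sub_of_coeffsNF A (IsLocalRing.residue A) hp hA (VN W N) hVatt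
    (coeffsNF_of_mem_VN W N) ![Z₁, Z₂] (coeffsNF_roots W A K n hn Z₁ Z₂ h1 h2)

end Inst

end Fermat.Agent.T7.helper82
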