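/-
T7 = S33, box (b4) (p-new eigensystems): PAPER NOTES of helper40 (06:55Z - 07:15Z), input for the
architects helper29 / helper81 / helper72 / helper47.  Comment-only file, no declarations.

SETTING (lead seed v12): N = p N', p odd, K = Qbar with place P | p, value v(p) = 1, w1, w2 the two
Gauss valuations of F = FF(p N') over P, cusps oo, oo2 = W oo.  B := functions regular off the two
cusps with w1, w2 >= 0 (the T2 vocabulary: IsReg2 / IsRep / RegRed2 / Sat2), Rbar := its reduction
(pairs of reductions at the two cusps).  T0 := classes x in J[p] having a representative
H in 1 + m B with p | div H (T2 "ideal step": the divisor sits in the two cusp discs).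
pi0 := a root of X^(p-1) = -p  (v(pi0) = 1/(p-1));  zeta_p = 1 + pi0 mod pi0^2;
sigma(pi0) = omega(sigma) pi0 for sigma in I_p, omega = Teichmueller lift of chibar = cyclotomic mod p.

====================================================================================================
(O1)  THE PIVOT LEMMA SURVIVES AT m = p  ("DISC fails" is NOT fatal for DEEP 1-units).
P2.helper74.mem_of_pow_mem uses hm : pi (m : A) != 0 only to divide by the reduction of the
geometric sum Theta = sum_{i<m} W0^i U'^(m-1-i).  For m = p replace hm by
   (i)   varpi in A with varpi^(p-1) in p * m_A          (depth > 1/(p-1)),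
   (ii)  v1 in V integral with  W0 - v1 in varpi * A((q))  (W0 is DEEP-close to V; e.g. v1 = 1),
   (iii) red W0 = 1  (as before).
PROOF of hclaim for Z = v + c w0 integral, c notin A, a' = 1/c, U' = W0 - a' Z in V_A, red U' = 1:
 DEEP case varpi | a':  delta = a' Z;  Theta = p U'^(p-1) + sum_{1<j<p} C(p,j) U'^(p-j) delta^(j-1)
   + delta^(p-1), and delta^(p-1) in varpi^(p-1) A((q)) in p m_A A((q)); so Theta = p Theta1 with
   red Theta1 = 1, Theta1 * Z = (c/p)(W0^p - U'^p) in V', and hred gives red Z in R.
 SHALLOW case a' | varpi, varpi = a' t, t in m_A:  Z = c (W0 - v1) + c (v1 - U'); the first term is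
   t * (integral), reduction 0; the second is an integral element of V; so red Z in R.
The counting end of the proof is unchanged.  CONSEQUENCE:
   ROOT-END(deep):  H in B regular off the cusps, p | div H, H = 1 mod p * varpi  ==>  H = c v^p.
(the formal p-th root is the binomial series, integral and = 1 mod varpi; iterate for p^k.)
I can write `mem_of_pow_mem_deep` (Mathlib + P2 pivot files only, ~250 lines) in about 90 min.

====================================================================================================
(O2)  DEPTH FILTRATION OF T0 AT n = p AND THE GLUING DATUM (this is (b4)).
For H = 1 + eta in 1 + m B put e = min(w1 eta, w2 eta) and etabar = red(eta / pi^e) in Rbar.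
 [D1] FROBENIUS STEP, e < p/(p-1):  (1 + pi^(e/p) b)^p = 1 + pi^e b^p mod deeper.  So if
      etabar = bbar^p with bbar in Rbar (bounded poles), H (1 + pi^(e/p) b)^(-p) has larger depth and
      the same class.  Needs FROB-SAT: (f1^p, f2^p) in Rbar ==> (f1, f2) in Rbar  (true for a nodal
      special fibre: Frobenius is injective on the residue field, so the values at the nodes agree).
 [D2] THRESHOLD e = p/(p-1):  (1 + pi0 b)^p = 1 + pi0^p (b^p - b) mod deeper  (p pi0 = - pi0^p).
      So H = 1 + pi0^p eta' can be improved iff etabar' in wp(Rbar), wp = Artin-Schreier.
      If etabar'_i = wp(omega_i) on each component (w_i split), omega_i is regular where etabar' is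
      and  c_x := omega_1(x) - omega_2(x)  lies in F_p  at every node x:  THE GLUING DATUM
      c(x) in F_p^SS / F_p.  It is additive in the class.
 [D3] e > p/(p-1)  ==>  class = 0   by ROOT-END(deep) = (O1).
 [D4] (lead b3) p-new classes in ker c1 are split at w1 and w2, hence never stuck in [D1] and
      etabar' in wp(kappa_1) x wp(kappa_2) in [D2].
 [D5] c is INJECTIVE on the split classes ([D2] + [D3]) and
      c(sigma x) = chibar(sigma) c(x)  for sigma in I_p   (sigma(pi0^p) = omega(sigma)^p pi0^p, sigma
      acts trivially on Rbar).  Hence  sigma x = chibar(sigma) x  on the split classes of order p: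
      this is the third alternative of the lead's (b4), at level p.
 [D6] END (FT-C pattern of helper47, uses hres): if psi is p-new and c1 = 0 on V_psi, then a copy
      Rb of rhobar inside J[p]^new consists of split classes, so I_p acts on Rb through chibar;
      but rhobar is ordinary: it has a nonzero unramified quotient and chibar != 1 on I_p (p odd).
      Contradiction.  With |X0[p] cap gr_j| <= |Lbar| one gets card(ker c1 on V/p^k) <= |O/p^k|,
      i.e. the unramified quotient of V_psi is nonzero.  ONLY LEVEL p IS NEEDED in (b4).

WHY THE NAIVE ATTEMPTS FAIL (checked on the Tate curve G_m / q^Z, x = zeta in mu_p):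
 * a split class never has a representative 1 + eps with eps deep and NO zeros in the
   supersingular annuli unless its gluing datum is trivial: on an annulus, a = u * R0^p with
   kappa = prod (-t(P))^(mult) = zeta_x mod deep; deep at both ends forces about (depth) points
   in the annulus (Liouville-type bound depth <= const * degree).
 * isotropy of the split classes for the Weil pairing IS true and has a local proof (discs and
   annuli, each local factor is an n-th root of unity = 1 mod deep), but it needs the analytic
   factorisation on annuli; the route (O1) + (O2) avoids annuli altogether: everything happens in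
   B and Rbar, the nodes enter only through FROB-SAT and the values omega_i(x).

WHAT MUST BE CHECKED AGAINST MAIN (T2 / T3 owners):
 (1) the T2 ideal step (representative H in 1 + m B for T0 classes) for n = p = q;
 (2) a usable description of Rbar at level p N' with the true nodes (T3 has the supersingular ideal
     J = nu * Bt and GLUE at level N q q; is the two-component analogue on main?);
 (3) FROB-SAT and its Artin-Schreier variant  wp(f) in Rbar, f in normalisation ==> f(x1) - f(x2)
     in F_p at the nodes.
SIZE (my estimate): (O1) 300 lines; [D1]-[D3] 3-5k lines on top of T2 Sat2 / RegRed2; [D4] = lead b3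
(norms with purely inseparable residue extension raise depth), 3-5k; [D5]-[D6] 2k; plus box (a)
and the glue.  Serial depth about 6.  HIGH RISK, but every step is B / Rbar algebra.
-/
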