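/-
T7 = S33 (row 32, weight 0.026), AT RISK.  BLUEPRINT v1 + LEAF TABLE.
Coordinator helper96 (LEAD v13 #3221).  Comment-only file.  State of main: 7722af79.
PAPER level; auditors helper73 / helper29 / helper81 / helper14: attack sections 2-3 first.

CLOSING ARGUMENT CHOSEN: (A) = inertia acts by the SCALAR omega on the strongly split classes
of order p (monoid trick).  NOT built: (B) injective gluing datum delta, (C) orthogonality by
depth, any count of split classes, any Artin-Schreier invariant, any completion, any annulus.

====================================================================================
0. VOCABULARY (all on main, T2 / P2) and notation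
====================================================================================
 p odd, p || N (level of the datum).  M = 4 N (or 9 N) = N' * p, N' good, p not | N'.
 A | p valuation subring of Kb = Qbar, k = kA A, W = T2.helper36.atkinLehner N' p,
 F = FF M inside LaurentSeries Kb, FF N' inside FF M (alpha^* = inclusion, beta^* = W o alpha^*),
 pair of expansions (f, W f); incl A, red A, IsRedOne, IsReg2, IsRep, IsA0One, Bt, Rt, VN,
 Sat2 / SN2 / Integrality2 / RegRed2 / IdealStep2 / PairScale (proved for every n != 0),
 galF M sigma.  lam := zeta_p - 1, dc := v(lam); p = - lam^(p-1) (1 + O(lam)).
 T0_k := classes of J0(M)[p^k] with a Kummer representative u = 1 for w1 AND w2.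
 NEW := ker alpha_* cap ker beta_*  (helper43 alphaPush / betaPush, on main).

====================================================================================
1. TOP CHAIN (assembler helper72, #3240; route independent)
====================================================================================
 S33 <= helper25.exists_ordinary_line (on main) with
        hnt  := [HNT]  (ON MAIN: helper54 / helper58 / helper84 / helper35)
        hbig := COUNT o CMP o [G]
 COUNT  (helper51_NUQ / helper51_NUQGlue, helper25_Cnt / CntNuq: ON MAIN)
 CMP    (helper67_CmpExport: ON MAIN; helper72 extracts the exact shape)
 [G]    S33GeomStatement (helper72): NUQ of Z_k := span {s x - x : s in I_A, x in J0(M)[p^k]}.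
 [G] <= NUQ is closed under extensions (helper51_NUQ, on main) along
        (alpha_*, beta_*) : J0(M)[p^k] -> J0(N')[p^k]^2  (helper43_DegMaps, on main):
   [G-OLD]  NUQ of the image of Z_k: level N' is prime to p: S19 Hopf algebra + FT-A / FT-C
            (flat, e = 1 < p - 1).  leaves [FT-NUQ] (helper78), [RAM-T0] (helper2), box (a).
   [G-NEW]  NUQ of Z_k cap NEW.  Z_k lies in T0_k ([T0-SPAN]: PairScale at n = p^k), so it is
            enough: NUQ (T0_k cap NEW).  By the p-filtration (helper51_NUQ torsion devissage)
            this follows from
      (G1)  every s in I_A acts on T0_1 cap NEW cap J0(M)[p] by the scalar omega(s)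
            (trivial and omega on a subquotient Q => (omega(s) - 1) Q = 0 => Q = 0, p odd,
             with s moving zeta_p: on main).
 (G1) is the geometric heart.  In Kummer form (shape of T2.T0InertStatement with a twist):

   def T0InertOmegaStatement (M : Nat) (W : FF M ≃ₐ[Kb] FF M) (A : ValuationSubring Kb)
       (p : Nat) (IsNewQ : FF M -> Prop) : Prop :=
     forall u : FF M, u ≠ 0 -> (forall P : Place Kb (FF M), (p : Int) ∣ P.ord u) ->
       IsRedOne A M (u : LaurentSeries Kb) -> IsRedOne A M ((W u : FF M) : LaurentSeries Kb) ->
       IsNewQ u ->
       forall sigma ∈ A.inertiaSubgroupIn Rat, forall a : Nat,
         (forall z : Kb, z ^ p = 1 -> sigma z = z ^ a) ->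
         exists (c : Kb) (v : FF M), galF M sigma u = algebraMap Kb (FF M) c * v ^ p * u ^ a

   IsNewQ u := the two norm relations of helper43_NewNorm (conclusions of alpha_* x = 0 and
   beta_* x = 0 for the class x of u), n = p.

 (G1) <= [T0-REP] + [B3] + [B4] + [KUM-END]:
   u as above.  [T0-REP] (helper22 t0Rep_bad, ON MAIN): G with K := G^p * u IsA0One (class
   unchanged, newness unchanged).  [B3]: K is StronglySplit.  [B4]: galF sigma K * K^(p-a) is a
   p-th power.  [KUM-END]: translate to sigma x = a x in JZero M.

====================================================================================
2. BOX B4: StronglySplit => omega-scalar  (owner helper96)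
====================================================================================
   def StronglySplit (M) (W) (A) (p) (K : FF M) : Prop :=
     IsA0One M W A K ∧ (forall P : Place Kb (FF M), (p : Int) ∣ P.ord K) ∧
     exists Z1 Z2 : LaurentSeries A, incl A Z1 ^ p = (K : LaurentSeries Kb) ∧
       incl A Z2 ^ p = ((W K : FF M) : LaurentSeries Kb) ∧ red A Z1 = 1 ∧ red A Z2 = 1
   (= the hypotheses of T2.helper51.PairPivotStatement at n = p.)

   def B4Statement (M) (W) (A) (p) : Prop :=
     forall K : FF M, StronglySplit M W A p K ->
       forall sigma ∈ A.inertiaSubgroupIn Rat, forall a : Nat, 0 < a -> a < p ->
         (forall z : Kb, z ^ p = 1 -> sigma z = z ^ a) ->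
         exists v : FF M, galF M sigma K * K ^ (p - a) = v ^ p

 PROOF.  V := VN(n0), V' := VN(p n0), n0 large, Z := (Z1, Z2) (family over Fin 2).
  (L1) CRITICAL FORM  [ON MAIN: helper82.exists_close_of_pow_mem_fam]
       Z integral, red Z = 1, Z^p in V', p = lam^(p-1) tau, [FC]  =>  Z = U + lam * E,
       U integral in V, red U = 1, E integral.   (T2 dimension count; NO iteration.)
  (L2) DEEP PIVOT     [ON MAIN: helper40.mem_of_pow_mem_fam_deep_arch, twin helper12]
       Y integral, red Y = 1, Y^p in V', Y - v1 = varpi * E', v1 integral in V,
       varpi^(p-1) = p t, red t = 0   =>   Y in V.    (attained content is DERIVED there.)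
  MONOID TRICK.  Y := sigma(Z) * Z^(p-a) (coefficientwise sigma), Y^p = K' :=
       galF sigma K * K^(p-a), an IsA0One-type function with pole bound (p-a+1) n0.
       sigma(U) in V_A, red sigma(E) = red E (inertia), sigma(lam) = lam * (a + lam * r):
         Y - sigma(U) U^(p-a) = lam * E1,
         red E1 = a * red E + (p - a) * red E = 0    (red U = red sigma U = 1).
       Content: E1 = varpi1 * E2 with varpi1 in m_A (content attained on a finite extension, or
       simply: apply (L2) with varpi := lam * varpi1 after choosing varpi1 by the attained
       content of E1; if E1 = 0 nothing to do).  varpi^(p-1) = p t with red t = 0.  (L2) => Y in V.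
 LEAVES of B4:
  [FC-INST]  FrobClosedStatement (helper66 #3270): a pair (f1, f2) of series over k whose p-th
             powers are the reductions of an integral pair regular off the cusps, with pole
             bound, is itself such a pair.  = FC1 (FFb is p-closed in k((q)))
             + FC3 (Rt p-root closed in Bt x Bt: ON MAIN, helper22.Rt_root_closed_bad;
             helper14_FrobSat) + Sat2 (on main).     OPEN PART: FC1.
  [GAL]      helper60: sigma on expansions coefficientwise = galF; commutes with W;
             preserves IsReg2 / VN / integrality; red (sigma Y) = red Y for sigma in inertia;
             sigma(lam) = lam * (a + lam r)  (helper75 / helper84 algebra ON MAIN).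
  [B4-INST]  the instance hypotheses of (L1), (L2) at the bad pair (hVatt, hVord, hpow, hred):
             copy of the T2 instance (T2.helper74_RootEndInst / Pivot2) with n := p.
  [B4-ASM]   assembly of B4Statement.

====================================================================================
3. BOX B3: T0_1 cap NEW => StronglySplit
====================================================================================
   def B3Statement (M) (W) (A) (p) (IsNewQ) : Prop :=
     forall K : FF M, IsA0One M W A K -> (forall P, (p : Int) ∣ P.ord K) -> IsNewQ K ->
       StronglySplit M W A p K

  [NORM]     ON MAIN: helper43_NormPair / NewNorm / DegMaps (norm formula at the two cusps,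
             alpha_* x = 0 => norm relation, Kummer dictionary), helper87.embW.
  [B3-ITER]  helper8 #3265 (the naive alternating iteration STALLS): with
             E(y) := alpha(N_beta y) / W y (expansion NU(y) at oo), the relations give the
             EXACT identity  u = Theta^p * E(E(u))  in F, hence u = Theta_J^p * E^(2J)(u).
             Same for W u.  NO gluing of the two sides is needed in route (A): the pivot
             takes the two formal roots as an arbitrary pair.
  [NU-DEPTH] depth of NU(1 + y): d -> min(p d, d + v(p))  (ON MAIN abstractly:
             helper93_NormDepth nrm_one_add / depth_step; helper44 writes the instance).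
             OUTPUT: for every c != 0 in A there is V in LaurentSeries A, red V = 1,
             Y1 - V^p in c * A((q)), where incl Y1 = K; same for W K.  (inverses of 1-units
             only modulo c, helper81 (D-b).)
  [p-DISC]   helper81 #3264 PDiscStatement:  K != 0, p | ord_P K for all P, K regular where j
             is finite, incl Y = K, red Y = 1, (forall c != 0, exists V, red V = 1 and
             Y - V^p in c A((q)))  =>  exists Z, incl Z ^ p = K and red Z = 1.
             Proof: P2 UFD step (helper23.mult_claim, helper9.exists_unit_mul_pow_mul: only
             m != 0 is used) gives K1 * (q^n')^p = u * Z0^p, u a power-series UNIT;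
             (D-a) NEG-PART, (D-b) UNIT mod c, (D-c) DEEP ROOT (binomial root of 1 + y,
             v(y) > p dc, q-adically finite sums).  WARNING: false for general series
             (1 + c q^(-p)); 'p | div K inside the cusp disc' is essential.
  [B3-ASM]   assembly of B3Statement.

====================================================================================
4. RISKS
====================================================================================
 R1 [p-DISC] and [FC1] are the two leaves with no compiled core yet.
 R2 [G-OLD]: FT dictionary for the S19 Hopf algebra at the level N' (box (a)).
 R3 [B4-INST]: T2's instance lemmas may have n coprime to the residue characteristic baked in.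
 R4 size and time; the gates of LEAD v13 apply (10:30Z contracts + frontier chain compiled,
    14:00Z at most two open leaves, 16:00Z S33.lean candidate, 17:00Z last landing).

====================================================================================
5. LEAF TABLE v1  (owner / second).  A leaf is TAKEN only by the named seats.
====================================================================================
 leaf         state     owner      second     file (Fermat/Agent/T7/...)
 [END]/[GLUE] ON MAIN   helper25   helper54   helper25_Glue, helper25_Cnt, helper25_CntNuq
 [HNT] [DET]  ON MAIN   helper54   helper58   helper54_Hnt, helper58_HNT, helper84_DetCyclo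
 [CMP]        ON MAIN   helper67   helper72   helper67_CmpExport
 [COUNT]      ON MAIN   helper51   helper25   helper51_NUQ, helper51_NUQGlue
 [CHAIN]      OPEN      helper72   helper36   helper72_Frontier  (compiled by 10:30Z)
 [G-ASM]      OPEN      helper72   helper41   [G] from [G-OLD] + [G-NEW] + extension
 [G-OLD]      OPEN      helper47   helper78   + [FT-NUQ] helper78 / helper89,
                                              [RAM-T0] helper2 / helper33
 [T0-SPAN]    OPEN      helper36   helper20   span (s-1) J[p^k] inside T0_k (PairScale)
 [G-NEW]      OPEN      helper51   helper6    NUQ (T0_k cap NEW) from (G1), p-filtration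
 [KUM-END]    OPEN      helper94   helper59   (G1) operator form on JZero M from
                                              T0InertOmegaStatement (P3-KUM style)
 [G1-ASM]     OPEN      helper96   helper27   T0InertOmega from T0-REP + B3 + B4
 [T0-REP]     ON MAIN   helper22   -          helper22_T0Rep, helper22_T0RepInst
 [P-ABS] L1   ON MAIN   helper82   -          helper82_FrobRegime
 [P-ABS] L2   ON MAIN   helper40   helper12   helper40_PivotDeepFam, helper12_DeepPivot
 [FC3]        ON MAIN   helper22   helper14   helper22_RootClosed, helper14_FrobSat
 [FC1]        OPEN      helper66   helper15   FFb p-closed in k((q)); then FrobClosedStatement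
 [GAL]        OPEN      helper60   helper1    helper60_Gal*
 [B4-INST]    OPEN      helper74   helper88   instance hyps of L1 / L2 at the bad pair, n = p
 [B4-ASM]     OPEN      helper96   helper12   helper96_B4
 [NORM]       ON MAIN   helper43   helper87   helper43_NormPair, helper43_NewNorm, _DegMaps
 [B3-ITER]    OPEN      helper8    helper43   exact identity u = Theta^p E(E(u)) + induction
 [NU-DEPTH]   PARTLY    helper44   helper93   helper93_NormDepth (abstract, on main) + instance
 [p-DISC]     OPEN      helper81   helper23   helper81_NegPart, helper81_PDisc
 [D-c]        OPEN      helper35   helper75   deep binomial root of 1 + y in A[[q]]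
 [B3-ASM]     OPEN      helper38   helper98   helper38_B3
 AUDIT                  helper73, helper29, helper14 (paper), helper81 (done #3264)
 RESERVE (named by the coordinator when a leaf stalls): all other seats that offered.
 RULES: contracts = Lean Props in the owner's file on main by 10:30Z (lead clock); a seat that
 cannot take its leaf posts 'T7 LEAF <name> NO' and the second becomes owner; first compiled
 proof of a contract wins; twins are fine; new files only; sorry-free landings only.
-/
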