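import Mathlib
import Fermat.Agent.T2.helper74_PivotFam

/-!
# T7 (S33), helper12: the DEEP pivot step at `m = p` for finite families of expansions

Twin of `Fermat.Agent.T2.helper74.mem_of_pow_mem_fam` / `mem_of_pow_mem_fam_arch` in which the
exponent `m = p` is a prime that may vanish in the residue field.  The hypothesis
`π (m : A) ≠ 0` is replaced by a DEPTH hypothesis: there is `ϖ ∈ A` with `ϖ ^ (p - 1) = p * t`,
`t` in the maximal ideal (depth `> v(p) / (p - 1)`), and an integral `v₁ ∈ V` with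
`W₀ - v₁ ∈ ϖ A((q))` (for instance `v₁ = 1` when `W₀ ≡ 1 mod ϖ`).

* `add_pow_prime_expand` : `(x + d) ^ p = x ^ p + p d x ^ (p - 1) + p d² s + d ^ p`.
* `deep_factor`          : `(X + a' • Z) ^ p - X ^ p = (p a') • (Θ₁ * Z)` with
                           `Θ₁ = X ^ (p - 1) + a' • S + t • T` when `ϖ ∣ a'`.
* `mem_of_pow_mem_fam_deep`      : the deep pivot step.
* `contentAttained_sub_fam_deep` : attained content of `W₀ - u`, deep form (with (ARCH)).
* `mem_of_pow_mem_fam_deep_arch` : the deep pivot step with (ARCH).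
-/

set_option autoImplicit false

noncomputable section

namespace Fermat.Agent.T7.helper12

open ModularCurve HahnSeries
open Fermat.Agent.P2.helper22 Fermat.Agent.P2.helper74 Fermat.Agent.T2.helper74

/-- binomial expansion of `(x + d) ^ p` up to `p d²`. -/
theorem add_pow_prime_expand {R : Type*} [CommRing R] {p : ℕ} (hp : p.Prime) (x d : R) :
    ∃ s : R, (x + d) ^ p = x ^ p + (p : R) * d * x ^ (p - 1) + (p : R) * d ^ 2 * s + d ^ p := by
  obtain ⟨q, rfl⟩ : ∃ q, p = q + 2 := ⟨p - 2, by have := hp.two_le; omega⟩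
  have hdiv : ∀ m : ℕ, m < q → ∃ c : ℕ, (q + 2).choose (m + 1) = (q + 2) * c := by
    intro m hm
    exact hp.dvd_choose_self (by omega) (by omega)
  choose! c hc using hdiv
  refine ⟨∑ m ∈ Finset.range q, x ^ (m + 1) * d ^ (q - 1 - m) * (c m : R), ?_⟩
  rw [add_pow, Finset.sum_range_succ, Finset.sum_range_succ, Finset.sum_range_succ']
  have hmid : ∑ m ∈ Finset.range q,
      x ^ (m + 1) * d ^ (q + 2 - (m + 1)) * ((q + 2).choose (m + 1) : R)
      = ((q + 2 : ℕ) : R) * d ^ 2 *
        ∑ m ∈ Finset.range q, x ^ (m + 1) * d ^ (q - 1 - m) * (c m : R) := by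
    rw [Finset.mul_sum]
    refine Finset.sum_congr rfl fun m hm => ?_
    have hm' : m < q := Finset.mem_range.mp hm
    rw [hc m hm']
    have h1 : q + 2 - (m + 1) = 2 + (q - 1 - m) := by omega
    rw [h1, _root_.pow_add]
    push_cast
    ring
  rw [hmid]
  have h2 : (q + 2).choose (q + 1) = q + 2 := by
    rw [show q + 2 = (q + 1) + 1 by ring, Nat.choose_succ_self_right]
  have h3 : q + 2 - (q + 1) = 1 := by omega
  have h4 : q + 2 - 1 = q + 1 := by omega
  simp only [h2, h3, h4, Nat.sub_self, pow_zero, Nat.choose_self, Nat.choose_zero_right,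
    pow_one, Nat.sub_zero, Nat.cast_one, mul_one, one_mul]
  push_cast
  ring

/-- **The deep factorisation.** In a commutative ring, if `a' = ϖ b` and
`ϖ ^ (p - 1) = p t`, then `(X + a' Z) ^ p - X ^ p = (p a') (Θ₁ Z)` with
`Θ₁ = X ^ (p - 1) + a' S + t T`. -/
theorem deep_factor {R : Type*} [CommRing R] {p : ℕ}
    (hp : p.Prime) (a' ϖ b t : R) (ha' : a' = ϖ * b) (hϖ : ϖ ^ (p - 1) = (p : R) * t)
    (X Z : R) :
    ∃ Θ₁ S T : R, (X + a' * Z) ^ p - X ^ p = ((p : R) * a') * (Θ₁ * Z) ∧
      Θ₁ = X ^ (p - 1) + a' * S + t * T := by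
  obtain ⟨s, hs⟩ := add_pow_prime_expand hp X (a' * Z)
  refine ⟨X ^ (p - 1) + a' * (Z * s) + t * (b ^ (p - 1) * Z ^ (p - 1)), Z * s,
    b ^ (p - 1) * Z ^ (p - 1), ?_, rfl⟩
  have hpp : p = (p - 1) + 1 := by have := hp.one_lt; omega
  have h1 : (a' * Z) ^ p = ((p : R) * a') * ((t * (b ^ (p - 1) * Z ^ (p - 1))) * Z) := by
    have h2 : a' ^ p = (p : R) * a' * (t * b ^ (p - 1)) := by
      conv_lhs => rw [hpp, pow_succ]
      rw [ha', mul_pow, hϖ]
      ring
    have h3 : Z ^ p = Z ^ (p - 1) * Z := by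
      conv_lhs => rw [hpp, pow_succ]
    rw [mul_pow, h2, h3]
    ring
  rw [hs, h1]
  ring

variable {L : Type*} [Field L] {ι : Type*}

/-- the constant family -/
def cst {A : Type*} [CommRing A] (a : A) : ι → LaurentSeries A := fun _ => HahnSeries.C a

theorem cst_mul_eq_smul {A : Type*} [CommRing A] (a : A) (X : ι → LaurentSeries A) :
    cst a * X = a • X := by
  funext i
  exact HahnSeries.C_mul_eq_smul

theorem cst_mul {A : Type*} [CommRing A] (a b : A) :
    (cst (a * b) : ι → LaurentSeries A) = cst a * cst b := by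
  funext i
  exact map_mul _ a b

theorem cst_pow {A : Type*} [CommRing A] (a : A) (m : ℕ) :
    (cst (a ^ m) : ι → LaurentSeries A) = cst a ^ m := by
  funext i
  exact map_pow _ a m

theorem cst_natCast {A : Type*} [CommRing A] (m : ℕ) :
    (cst (m : A) : ι → LaurentSeries A) = (m : ι → LaurentSeries A) := by
  funext i
  exact map_natCast _ m

/-- the deep factorisation for families, in scalar form -/
theorem deep_factor_fam {A : Type*} [CommRing A] {p : ℕ}
    (hp : p.Prime) (a' ϖ b t : A) (ha' : a' = ϖ * b) (hϖ : ϖ ^ (p - 1) = (p : A) * t)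
    (X Z : ι → LaurentSeries A) :
    ∃ Θ₁ S T : ι → LaurentSeries A, (X + a' • Z) ^ p - X ^ p = ((p : A) * a') • (Θ₁ * Z) ∧
      Θ₁ = X ^ (p - 1) + a' • S + t • T := by
  obtain ⟨Θ₁, S, T, h1, h2⟩ := deep_factor (R := ι → LaurentSeries A) hp (cst a') (cst ϖ) (cst b)
    (cst t) (by rw [ha', cst_mul]) (by rw [← cst_pow, hϖ, cst_mul, cst_natCast]) X Z
  refine ⟨Θ₁, S, T, ?_, ?_⟩
  · rw [← cst_mul_eq_smul, ← cst_mul_eq_smul, cst_mul, cst_natCast]
    exact h1
  · rw [← cst_mul_eq_smul, ← cst_mul_eq_smul]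
    exact h2



/-- **The deep pivot step for families** (exponent `p`, possibly `p = 0` in `k`). -/
theorem mem_of_pow_mem_fam_deep (A : ValuationSubring L) {k : Type*} [Field k] (π : A →+* k)
    (hπ : ∀ x : A, π x ≠ 0 → IsUnit x) (hπs : Function.Surjective π)
    (V V' : Submodule L (ι → LaurentSeries L)) [FiniteDimensional L V] (n : ι → ℤ)
    (hn : ∀ i, 0 ≤ n i) (p : ℕ) (hp : p.Prime) (hpL : (p : L) ≠ 0)
    (ϖ t : A) (hϖ : ϖ ^ (p - 1) = (p : A) * t) (ht : π t = 0)
    (hVatt : ∀ u ∈ V, u ≠ 0 → ContentAttainedFam A π u)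
    (hVord : ∀ u ∈ V, ∀ i, ∀ j < -(n i), (u i).coeff j = 0)
    (hpow : ∀ u ∈ V, u ^ p ∈ V')
    (hred : ∀ Z : ι → LaurentSeries A, famMap A.subtype Z ∈ V' →
      (∀ i, ∀ j < -(n i), (famMap π Z i).coeff j = 0) →
      ∃ Z' : ι → LaurentSeries A, famMap A.subtype Z' ∈ V ∧ famMap π Z' = famMap π Z)
    (W₀ : ι → LaurentSeries A) (hW₀ : (famMap A.subtype W₀) ^ p ∈ V')
    (hW₀red : famMap π W₀ = 1) (hW₀ord : ∀ i, ∀ j < -(n i), (W₀ i).coeff j = 0)
    (v₁ E : ι → LaurentSeries A) (hv₁ : famMap A.subtype v₁ ∈ V) (hE : W₀ - v₁ = ϖ • E)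
    (hatt : ∀ u ∈ V, famMap A.subtype W₀ - u ≠ 0 →
      ContentAttainedFam A π (famMap A.subtype W₀ - u)) :
    famMap A.subtype W₀ ∈ V := by
  classical
  by_contra hW
  set w₀ : ι → LaurentSeries L := famMap A.subtype W₀ with hw₀
  -- the enlarged space
  set Vp : Submodule L (ι → LaurentSeries L) := V ⊔ Submodule.span L {w₀} with hVp
  have hVpfd : FiniteDimensional L Vp := by
    rw [hVp]
    infer_instance
  have hmemVp : ∀ x ∈ Vp, ∃ v ∈ V, ∃ c : L, x = v + c • w₀ := by
    intro x hx
    rw [hVp, Submodule.mem_sup] at hx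
    obtain ⟨v, hv, y, hy, rfl⟩ := hx
    rw [Submodule.mem_span_singleton] at hy
    obtain ⟨c, rfl⟩ := hy
    exact ⟨v, hv, c, rfl⟩
  have hVpatt : ∀ u ∈ Vp, u ≠ 0 → ∃ c : L, c ≠ 0 ∧ ∃ Y : ι → LaurentSeries A,
      famMap A.subtype Y = c • u ∧ famMap π Y ≠ 0 := by
    intro u hu hu0
    obtain ⟨v, hv, c, rfl⟩ := hmemVp u hu
    rcases eq_or_ne c 0 with rfl | hc
    · rw [zero_smul, add_zero] at hu0 ⊢
      exact hVatt v hv hu0
    · have h1 : v + c • w₀ = c • (w₀ - (-(c⁻¹ • v))) := by
        rw [sub_neg_eq_add, smul_add, smul_smul, mul_inv_cancel₀ hc, one_smul, add_comm]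
      rw [h1] at hu0 ⊢
      have h2 : w₀ - (-(c⁻¹ • v)) ≠ 0 := by
        intro h
        rw [h, smul_zero] at hu0
        exact hu0 rfl
      exact (hatt _ (V.neg_mem (V.smul_mem _ hv)) h2).smul hc
  obtain ⟨Y, hYV, -, hYgen, -⟩ := exists_integral_basis_fam A π hπ V hVatt
  obtain ⟨Yp, hYpV, -, -, hYpred⟩ := exists_integral_basis_fam A π hπ Vp hVpatt
  have hli := linearIndependent_famMap_of_forall A π hπs Yp hYpred
  -- dimension of the enlarged space
  have hw₀0 : w₀ ≠ 0 := fun h => hW (h ▸ V.zero_mem)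
  have hdim : Module.finrank L Vp = Module.finrank L V + 1 := by
    have h1 := Submodule.finrank_sup_add_finrank_inf_eq V (Submodule.span L {w₀})
    have h2 : V ⊓ Submodule.span L {w₀} = ⊥ := by
      rw [eq_bot_iff]
      rintro x ⟨hxV, hxs⟩
      rw [SetLike.mem_coe, Submodule.mem_span_singleton] at hxs
      obtain ⟨c, rfl⟩ := hxs
      rw [Submodule.mem_bot]
      rcases eq_or_ne c 0 with rfl | hc
      · exact zero_smul _ _
      · exfalso
        apply hW
        have := V.smul_mem c⁻¹ hxV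
        rwa [smul_smul, inv_mul_cancel₀ hc, one_smul] at this
    rw [h2, finrank_bot, add_zero, finrank_span_singleton hw₀0] at h1
    exact h1
  -- the reduction of `V_A`
  set R : Submodule k (ι → LaurentSeries k) :=
    Submodule.span k (Set.range fun i => famMap π (Y i)) with hR
  have hRfd : FiniteDimensional k R := FiniteDimensional.span_of_finite k (Set.finite_range _)
  have hRV : ∀ Z : ι → LaurentSeries A, famMap A.subtype Z ∈ V → famMap π Z ∈ R := by
    intro Z hZ
    obtain ⟨a, rfl⟩ := hYgen Z hZ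
    rw [famMap_sum]
    refine Submodule.sum_mem _ fun i _ => ?_
    exact Submodule.smul_mem _ _ (Submodule.subset_span ⟨i, rfl⟩)
  -- `1` lies in the reduction
  have hone : (1 : ι → LaurentSeries k) ∈ R := by
    obtain ⟨Z', hZ'V, hZ'⟩ := hred (W₀ ^ p) (by rw [famMap_pow]; exact hW₀) (by
      intro i j hj
      rw [famMap_pow, hW₀red, one_pow]
      show (1 : LaurentSeries k).coeff j = 0
      rw [HahnSeries.coeff_one, if_neg]
      have := hn i
      omega)
    have := hRV Z' hZ'V
    rwa [hZ', famMap_pow, hW₀red, one_pow] at this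
  -- the key claim
  have hclaim : ∀ Z : ι → LaurentSeries A, famMap A.subtype Z ∈ Vp → famMap π Z ∈ R := by
    intro Z hZ
    obtain ⟨v, hv, c, hx⟩ := hmemVp _ hZ
    by_cases hcA' : c ∈ A
    · have h1 : famMap A.subtype (Z - (⟨c, hcA'⟩ : A) • W₀) = v := by
        rw [famMap_sub, famMap_subtype_smul, hx]
        show v + c • w₀ - c • w₀ = v
        abel
      have h2 := hRV (Z - (⟨c, hcA'⟩ : A) • W₀) (by rw [h1]; exact hv)
      rw [famMap_sub, famMap_smul, hW₀red] at h2
      have h3 := R.add_mem h2 (R.smul_mem (π ⟨c, hcA'⟩) hone)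
      rwa [sub_add_cancel] at h3
    have hcA : c⁻¹ ∈ A := (A.mem_or_inv_mem c).resolve_left hcA'
    have hc0 : c ≠ 0 := by
      rintro rfl
      exact hcA' A.zero_mem
    set a' : A := ⟨c⁻¹, hcA⟩ with ha'
    have ha'L : (a' : L) = c⁻¹ := rfl
    have hπa' : π a' = 0 := by
      by_contra h
      obtain ⟨w, hw⟩ := hπ a' h
      apply hcA'
      have h1 : ((w⁻¹ : Aˣ) : A) * a' = 1 := by rw [← hw]; exact Units.inv_mul w
      have h2 : (((w⁻¹ : Aˣ) : A) : L) * c⁻¹ = 1 := by
        have := congrArg (fun z : A => (z : L)) h1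
        simpa using this
      have h3 : c = (((w⁻¹ : Aˣ) : A) : L) := by
        field_simp at h2
        exact h2.symm
      rw [h3]
      exact ((w⁻¹ : Aˣ) : A).2
    have hZord : ∀ i, ∀ j < -(n i), (Z i).coeff j = 0 := by
      intro i j hj
      have h1 : (famMap A.subtype Z i).coeff j = 0 := by
        rw [hx]
        show (v i + c • w₀ i).coeff j = 0
        rw [HahnSeries.coeff_add, HahnSeries.coeff_smul, hVord v hv i j hj, hw₀,
          famMap_apply, coeffMap_coeff, hW₀ord i j hj]
        simp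
      rw [famMap_apply, coeffMap_coeff] at h1
      exact Subtype.ext h1
    by_cases hdeep : ϖ ∣ a'
    · -- DEEP case: `ϖ ∣ a'`
      obtain ⟨b, hb⟩ := hdeep
      -- the integral element `U' = W₀ - a' Z` of `V`
      set U' : ι → LaurentSeries A := W₀ - a' • Z with hU'
      have hU'V : famMap A.subtype U' = -(c⁻¹ • v) := by
        rw [hU', famMap_sub, famMap_subtype_smul, hx]
        show w₀ - c⁻¹ • (v + c • w₀) = -(c⁻¹ • v)
        rw [smul_add, smul_smul, inv_mul_cancel₀ hc0, one_smul]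
        abel
      have hU'mem : famMap A.subtype U' ∈ V := by
        rw [hU'V]
        exact V.neg_mem (V.smul_mem _ hv)
      have hU'red : famMap π U' = 1 := by
        rw [hU', famMap_sub, famMap_smul, hπa', zero_smul, sub_zero, hW₀red]
      obtain ⟨Θ₁, S, T, hfac0, hΘ₁0⟩ := deep_factor_fam hp a' ϖ b t hb hϖ U' Z
      have hUW : U' + a' • Z = W₀ := by rw [hU']; abel
      have hfac : W₀ ^ p - U' ^ p = ((p : A) * a') • (Θ₁ * Z) := by
        rw [← hUW]
        exact hfac0
      have hΘ₁ : Θ₁ = U' ^ (p - 1) + a' • S + t • T := hΘ₁0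
      have hΘred : famMap π Θ₁ = 1 := by
        rw [hΘ₁, famMap_add, famMap_add, famMap_pow, hU'red, one_pow, famMap_smul, famMap_smul,
          hπa', ht, zero_smul, zero_smul, add_zero, add_zero]
      have hpa : ((p : L) * c⁻¹) ≠ 0 := mul_ne_zero hpL (inv_ne_zero hc0)
      have hΘZ : famMap A.subtype (Θ₁ * Z) ∈ V' := by
        have h2 := congrArg (famMap A.subtype) hfac
        rw [famMap_sub, famMap_pow, famMap_pow, famMap_subtype_smul] at h2
        have h3 : (((p : A) * a' : A) : L) = (p : L) * c⁻¹ := by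
          push_cast
          rw [ha'L]
        rw [h3] at h2
        have h4 : famMap A.subtype (Θ₁ * Z)
            = ((p : L) * c⁻¹)⁻¹ • (w₀ ^ p - (famMap A.subtype U') ^ p) := by
          rw [hw₀, h2, smul_smul, inv_mul_cancel₀ hpa, one_smul]
        rw [h4]
        exact V'.smul_mem _ (V'.sub_mem hW₀ (hpow _ hU'mem))
      obtain ⟨Z', hZ'V, hZ'⟩ := hred (Θ₁ * Z) hΘZ (by
        intro i j hj
        rw [famMap_mul, hΘred, one_mul, famMap_apply, coeffMap_coeff, hZord i j hj, map_zero])
      have h5 := hRV Z' hZ'V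
      rwa [hZ', famMap_mul, hΘred, one_mul] at h5
    · -- SHALLOW case: `ϖ = a' t'` with `t'` in the maximal ideal
      obtain ⟨t', ht'⟩ := (ValuationRing.dvd_total ϖ a').resolve_left hdeep
      have hπt' : π t' = 0 := by
        by_contra h
        obtain ⟨w, hw⟩ := hπ t' h
        apply hdeep
        refine ⟨((w⁻¹ : Aˣ) : A), ?_⟩
        rw [ht', ← hw, mul_assoc, Units.mul_inv, mul_one]
      have hcϖ : c * (ϖ : L) = (t' : L) := by
        have h1 : (ϖ : L) = (a' : L) * (t' : L) := by
          rw [ht']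
          push_cast
          rfl
        rw [h1, ha'L, ← mul_assoc, mul_inv_cancel₀ hc0, one_mul]
      have hWv : w₀ = famMap A.subtype v₁ + (ϖ : L) • famMap A.subtype E := by
        have h1 := congrArg (famMap A.subtype) hE
        rw [famMap_sub, famMap_subtype_smul] at h1
        rw [hw₀, ← h1]
        abel
      have h1 : famMap A.subtype (Z - t' • E) = v + c • famMap A.subtype v₁ := by
        rw [famMap_sub, famMap_subtype_smul, hx, hWv, smul_add, smul_smul, hcϖ]
        abel
      have h2 := hRV (Z - t' • E) (by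
        rw [h1]
        exact V.add_mem hv (V.smul_mem _ hv₁))
      rwa [famMap_sub, famMap_smul, hπt', zero_smul, sub_zero] at h2
  -- count
  have h1 : Module.finrank k (Submodule.span k (Set.range fun i => famMap π (Yp i)))
      = Module.finrank L Vp := by
    rw [finrank_span_eq_card hli, Fintype.card_fin]
  have h2 : Submodule.span k (Set.range fun i => famMap π (Yp i)) ≤ R := by
    rw [Submodule.span_le]
    rintro _ ⟨i, rfl⟩
    exact hclaim (Yp i) (hYpV i)
  have h3 : Module.finrank k R ≤ Module.finrank L V := by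
    have := finrank_span_le_card (R := k) (Set.range fun i => famMap π (Y i))
    rw [hR]
    refine this.trans ?_
    rw [Set.toFinset_range]
    exact (Finset.card_image_le).trans (by rw [Finset.card_univ, Fintype.card_fin])
  have h4 := Submodule.finrank_mono h2
  omega

/-- `π ϖ = 0` for a deep element. -/
theorem map_deep_eq_zero {A : Type*} [CommRing A] {k : Type*} [Field k] (π : A →+* k) {p : ℕ}
    (hp : p.Prime) (ϖ t : A) (hϖ : ϖ ^ (p - 1) = (p : A) * t) (ht : π t = 0) : π ϖ = 0 := by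
  have h3 : π ϖ ^ (p - 1) = 0 := by
    rw [← map_pow, hϖ, map_mul, ht, mul_zero]
  exact (pow_eq_zero_iff (by have := hp.one_lt; omega)).mp h3

/-- **Attained content of `W₀ - u`, deep form.** Over a valuation ring with (ARCH), if the Gauss
norm is attained on `V` and on `V'`, `u ^ p ∈ V'` for `u ∈ V`, `W₀ ^ p ∈ V'`, `W₀` reduces to
`1` and `W₀` is `ϖ`-close to an integral element of `V`, then the Gauss norm is attained on
every nonzero `W₀ - u`, `u ∈ V`. -/
theorem contentAttained_sub_fam_deep (A : ValuationSubring L) {k : Type*} [Field k]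
    (π : A →+* k) (hπ : ∀ x : A, π x ≠ 0 → IsUnit x) (hArch : Arch A π)
    (p : ℕ) (hp : p.Prime) (hpL : (p : L) ≠ 0)
    (ϖ t : A) (hϖ : ϖ ^ (p - 1) = (p : A) * t) (ht : π t = 0)
    (V V' : Submodule L (ι → LaurentSeries L))
    (hVatt : ∀ u ∈ V, u ≠ 0 → ContentAttainedFam A π u)
    (hV'att : ∀ u ∈ V', u ≠ 0 → ContentAttainedFam A π u)
    (hpow : ∀ u ∈ V, u ^ p ∈ V')
    (W₀ : ι → LaurentSeries A) (hW₀ : (famMap A.subtype W₀) ^ p ∈ V')
    (hW₀red : famMap π W₀ = 1)
    (v₁ E : ι → LaurentSeries A) (hv₁ : famMap A.subtype v₁ ∈ V) (hE : W₀ - v₁ = ϖ • E) :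
    ∀ u ∈ V, famMap A.subtype W₀ - u ≠ 0 →
      ContentAttainedFam A π (famMap A.subtype W₀ - u) := by
  classical
  intro u hu hne
  have hπϖ : π ϖ = 0 := map_deep_eq_zero π hp ϖ t hϖ ht
  -- a component where `W₀ - u` does not vanish
  obtain ⟨i₀, hi₀⟩ : ∃ i, (famMap A.subtype W₀ - u) i ≠ 0 := by
    by_contra h
    push Not at h
    exact hne (funext h)
  have hone : (1 : ι → LaurentSeries k) ≠ 0 := by
    intro h
    have := congrFun h i₀
    exact one_ne_zero this
  by_cases hu0 : u = 0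
  · subst hu0
    refine ⟨1, one_ne_zero, W₀, ?_, ?_⟩
    · rw [one_smul, sub_zero]
    · rw [hW₀red]
      exact hone
  obtain ⟨cu, hcu, Yu, hYu, hYur⟩ := hVatt u hu hu0
  by_cases hcuA : cu⁻¹ ∈ A
  · -- `u` is integral
    set U : ι → LaurentSeries A := (⟨cu⁻¹, hcuA⟩ : A) • Yu with hU
    have hUu : famMap A.subtype U = u := by
      rw [hU, famMap_subtype_smul, hYu]
      show cu⁻¹ • cu • u = u
      rw [smul_smul, inv_mul_cancel₀ hcu, one_smul]
    have hWU : famMap A.subtype W₀ - u = famMap A.subtype (W₀ - U) := by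
      rw [famMap_sub, hUu]
    by_cases hr : famMap π (W₀ - U) = 0
    · -- the congruent case
      have hUred : famMap π U = 1 := by
        have h1 := hr
        rw [famMap_sub, hW₀red, sub_eq_zero] at h1
        exact h1.symm
      by_cases hdeep : ∃ δ₁ : ι → LaurentSeries A, W₀ - U = ϖ • δ₁
      · -- DEEP: `W₀ - U ∈ ϖ A((q))`
        obtain ⟨δ₁, hδ₁⟩ := hdeep
        obtain ⟨Θ₁, S, T, hfac, hΘ₁⟩ :=
          deep_factor_fam hp ϖ ϖ 1 t (by rw [mul_one]) hϖ U δ₁
        have hUW : U + ϖ • δ₁ = W₀ := by rw [← hδ₁]; abel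
        rw [hUW] at hfac
        have hΘred : famMap π Θ₁ = 1 := by
          rw [hΘ₁, famMap_add, famMap_add, famMap_pow, hUred, one_pow, famMap_smul, famMap_smul,
            hπϖ, ht, zero_smul, zero_smul, add_zero, add_zero]
        have hΘi : ∀ i, coeffMap π (Θ₁ i) ≠ 0 := by
          intro i
          have h1 : coeffMap π (Θ₁ i) = 1 := congrFun hΘred i
          rw [h1]
          exact one_ne_zero
        -- `(W₀ - U) * Θ₁ = p⁻¹ (W₀ ^ p - U ^ p)`
        have hfac2 : W₀ ^ p - U ^ p = (p : A) • ((W₀ - U) * Θ₁) := by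
          rw [hfac, hδ₁]
          simp only [← cst_mul_eq_smul, cst_mul]
          ring
        have hd : famMap A.subtype ((W₀ - U) * Θ₁) ∈ V' := by
          have h2 := congrArg (famMap A.subtype) hfac2
          rw [famMap_sub, famMap_pow, famMap_pow, hUu, famMap_subtype_smul] at h2
          have h3 : (((p : A) : A) : L) = (p : L) := by push_cast; rfl
          rw [h3] at h2
          have h4 : famMap A.subtype ((W₀ - U) * Θ₁)
              = (p : L)⁻¹ • ((famMap A.subtype W₀) ^ p - u ^ p) := by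
            rw [h2, smul_smul, inv_mul_cancel₀ hpL, one_smul]
          rw [h4]
          exact V'.smul_mem _ (V'.sub_mem hW₀ (hpow u hu))
        have hdne : famMap A.subtype ((W₀ - U) * Θ₁) ≠ 0 := by
          intro h0
          have h1 := congrFun h0 i₀
          rw [famMap_mul] at h1
          have h2 : (famMap A.subtype (W₀ - U)) i₀ * (famMap A.subtype Θ₁) i₀ = 0 := h1
          rcases mul_eq_zero.mp h2 with h3 | h3
          · apply hi₀
            rw [hWU]
            exact h3
          · apply hΘi i₀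
            have h4 : Θ₁ i₀ = 0 :=
              coeffMap_subtype_injective A (h3.trans (map_zero _).symm)
            rw [h4, map_zero]
        obtain ⟨c', hc', P, hP, hPr⟩ := hV'att _ hd hdne
        have hc'A : c'⁻¹ ∈ A := by
          by_contra h
          have hc'A' : c' ∈ A := (A.mem_or_inv_mem c').resolve_right h
          apply hPr
          have hPeq : P = (⟨c', hc'A'⟩ : A) • ((W₀ - U) * Θ₁) := by
            apply famMap_subtype_injective A
            rw [hP, famMap_subtype_smul]
          rw [hPeq, famMap_smul, famMap_mul, hr, zero_mul, smul_zero]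
        set e : A := ⟨c'⁻¹, hc'A⟩ with he_def
        have he : e ≠ 0 := by
          intro h
          have h1 : (e : L) = 0 := by rw [h]; rfl
          exact inv_ne_zero hc' h1
        have hPe : (W₀ - U) * Θ₁ = e • P := by
          apply famMap_subtype_injective A
          rw [famMap_subtype_smul, hP, smul_smul]
          show _ = (c'⁻¹ * c') • _
          rw [inv_mul_cancel₀ hc', one_smul]
        have hex : ∀ i, ∃ δ : LaurentSeries A, (W₀ - U) i = e • δ := fun i =>
          exists_eq_smul_of_mul_eq hπ hArch ((W₀ - U) i) (Θ₁ i) (P i) e he (hΘi i)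
            (congrFun hPe i)
        choose δ' hδ' using hex
        have hδ'eq : W₀ - U = e • δ' := funext hδ'
        have hδP : δ' * Θ₁ = P := by
          funext i
          have h1 : HahnSeries.C e * (δ' i * Θ₁ i) = HahnSeries.C e * P i := by
            rw [← mul_assoc, HahnSeries.C_mul_eq_smul, ← hδ' i, HahnSeries.C_mul_eq_smul]
            exact congrFun hPe i
          refine HahnSeries.ext (funext fun j => ?_)
          have h2 := congrArg (fun z : LaurentSeries A => z.coeff j) h1
          simp only [HahnSeries.C_mul_eq_smul, HahnSeries.coeff_smul, smul_eq_mul] at h2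
          exact mul_left_cancel₀ he h2
        refine ⟨c', hc', δ', ?_, ?_⟩
        · have h1 : famMap A.subtype (W₀ - U) = (e : L) • famMap A.subtype δ' := by
            rw [hδ'eq, famMap_subtype_smul]
          rw [hWU, h1, smul_smul]
          show _ = (c' * c'⁻¹) • _
          rw [mul_inv_cancel₀ hc', one_smul]
        · intro h0
          apply hPr
          rw [← hδP, famMap_mul, h0, zero_mul]
      · -- NOT DEEP: `U - v₁ ∈ V` dominates
        have hDv : famMap A.subtype (U - v₁) ∈ V := by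
          rw [famMap_sub, hUu]
          exact V.sub_mem hu hv₁
        have hDv0 : famMap A.subtype (U - v₁) ≠ 0 := by
          intro h0
          apply hdeep
          have h1 : U - v₁ = 0 := famMap_subtype_injective A (by rw [h0, famMap_zero])
          refine ⟨E, ?_⟩
          rw [← hE, sub_eq_zero.mp h1]
        obtain ⟨c₁, hc₁, Y₁, hY₁, hY₁r⟩ := hVatt _ hDv hDv0
        have hb : ∃ b₁ : A, (b₁ : L) = c₁ * (ϖ : L) ∧ π b₁ = 0 := by
          by_contra hcon
          have hne0 : c₁ * (ϖ : L) ≠ 0 := by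
            intro h0
            exact hcon ⟨0, by rw [h0]; rfl, map_zero _⟩
          have hginv : (c₁ * (ϖ : L))⁻¹ ∈ A := by
            by_contra hg
            have hin : c₁ * (ϖ : L) ∈ A := (A.mem_or_inv_mem _).resolve_right hg
            by_cases hz : π ⟨c₁ * (ϖ : L), hin⟩ = 0
            · exact hcon ⟨⟨_, hin⟩, rfl, hz⟩
            · obtain ⟨w, hw⟩ := hπ _ hz
              apply hg
              have h1 : (⟨c₁ * (ϖ : L), hin⟩ : A) * ((w⁻¹ : Aˣ) : A) = 1 := by
                rw [← hw]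
                exact Units.mul_inv w
              have h2 : c₁ * (ϖ : L) * (((w⁻¹ : Aˣ) : A) : L) = 1 := congrArg Subtype.val h1
              have h3 : (c₁ * (ϖ : L))⁻¹ = (((w⁻¹ : Aˣ) : A) : L) :=
                (eq_inv_of_mul_eq_one_right h2).symm ▸ rfl
              rw [h3]
              exact Subtype.property _
          apply hdeep
          set g : A := ⟨(c₁ * (ϖ : L))⁻¹, hginv⟩ with hg
          refine ⟨E - g • Y₁, ?_⟩
          have h1 : U - v₁ = ϖ • (g • Y₁) := by
            apply famMap_subtype_injective A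
            rw [famMap_subtype_smul, famMap_subtype_smul, hY₁, smul_smul, smul_smul]
            have h2 : (ϖ : L) * (g : L) * c₁ = 1 := by
              show (ϖ : L) * (c₁ * (ϖ : L))⁻¹ * c₁ = 1
              have hϖ0 : (ϖ : L) ≠ 0 := right_ne_zero_of_mul hne0
              field_simp
            rw [h2, one_smul]
          have h3 : W₀ - U = (W₀ - v₁) - (U - v₁) := by abel
          rw [h3, hE, h1, smul_sub]
        obtain ⟨b₁, hb₁, hπb₁⟩ := hb
        refine ⟨c₁, hc₁, b₁ • E - Y₁, ?_, ?_⟩
        · have hWv : famMap A.subtype W₀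
              = famMap A.subtype v₁ + (ϖ : L) • famMap A.subtype E := by
            have h1 := congrArg (famMap A.subtype) hE
            rw [famMap_sub, famMap_subtype_smul] at h1
            rw [← h1]
            abel
          have hUv : famMap A.subtype (U - v₁) = u - famMap A.subtype v₁ := by
            rw [famMap_sub, hUu]
          rw [famMap_sub, famMap_subtype_smul, hY₁, hb₁, hUv, hWv]
          simp only [smul_sub, smul_add, smul_smul]
          abel
        · rw [famMap_sub, famMap_smul, hπb₁, zero_smul, zero_sub, neg_ne_zero]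
          exact hY₁r
    · refine ⟨1, one_ne_zero, W₀ - U, ?_, hr⟩
      rw [one_smul, famMap_sub, hUu]
  · -- `u` is not integral
    have hcuA' : cu ∈ A := (A.mem_or_inv_mem cu).resolve_right hcuA
    have hcu0 : π (⟨cu, hcuA'⟩ : A) = 0 := by
      by_contra h
      obtain ⟨v, hv⟩ := hπ _ h
      apply hcuA
      have h1 : ((v⁻¹ : Aˣ) : A) * (⟨cu, hcuA'⟩ : A) = 1 := by
        rw [← hv]
        exact Units.inv_mul v
      have h2 : (((v⁻¹ : Aˣ) : A) : L) * cu = 1 := congrArg Subtype.val h1
      have h3 : cu⁻¹ = (((v⁻¹ : Aˣ) : A) : L) := (eq_inv_of_mul_eq_one_left h2).symm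
      rw [h3]
      exact Subtype.property _
    refine ⟨cu, hcu, (⟨cu, hcuA'⟩ : A) • W₀ - Yu, ?_, ?_⟩
    · rw [famMap_sub, famMap_subtype_smul, hYu, smul_sub]
    · rw [famMap_sub, famMap_smul, hcu0, zero_smul, zero_sub, neg_ne_zero]
      exact hYur

/-- **The deep pivot step for families, with (ARCH).** -/
theorem mem_of_pow_mem_fam_deep_arch (A : ValuationSubring L) {k : Type*} [Field k]
    (π : A →+* k) (hπ : ∀ x : A, π x ≠ 0 → IsUnit x) (hπs : Function.Surjective π)
    (hArch : Arch A π)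
    (V V' : Submodule L (ι → LaurentSeries L)) [FiniteDimensional L V] (n : ι → ℤ)
    (hn : ∀ i, 0 ≤ n i) (p : ℕ) (hp : p.Prime) (hpL : (p : L) ≠ 0)
    (ϖ t : A) (hϖ : ϖ ^ (p - 1) = (p : A) * t) (ht : π t = 0)
    (hVatt : ∀ u ∈ V, u ≠ 0 → ContentAttainedFam A π u)
    (hV'att : ∀ u ∈ V', u ≠ 0 → ContentAttainedFam A π u)
    (hVord : ∀ u ∈ V, ∀ i, ∀ j < -(n i), (u i).coeff j = 0)
    (hpow : ∀ u ∈ V, u ^ p ∈ V')
    (hred : ∀ Z : ι → LaurentSeries A, famMap A.subtype Z ∈ V' →
      (∀ i, ∀ j < -(n i), (famMap π Z i).coeff j = 0) →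
      ∃ Z' : ι → LaurentSeries A, famMap A.subtype Z' ∈ V ∧ famMap π Z' = famMap π Z)
    (W₀ : ι → LaurentSeries A) (hW₀ : (famMap A.subtype W₀) ^ p ∈ V')
    (hW₀red : famMap π W₀ = 1) (hW₀ord : ∀ i, ∀ j < -(n i), (W₀ i).coeff j = 0)
    (v₁ E : ι → LaurentSeries A) (hv₁ : famMap A.subtype v₁ ∈ V) (hE : W₀ - v₁ = ϖ • E) :
    famMap A.subtype W₀ ∈ V :=
  mem_of_pow_mem_fam_deep A π hπ hπs V V' n hn p hp hpL ϖ t hϖ ht hVatt hVord hpow hred W₀ hW₀
    hW₀red hW₀ord v₁ E hv₁ hE
    (contentAttained_sub_fam_deep A π hπ hArch p hp hpL ϖ t hϖ ht V V' hVatt hV'att hpow W₀ hW₀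
      hW₀red v₁ E hv₁ hE)

end Fermat.Agent.T7.helper12

end
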