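/-
T7 (S33, box (b)), [FROB-SAT] (helper14): abstract `p`-root closedness of the reduction ring of a
two-component fibre glued along Frobenius.  Mathlib + `T2.helper51_SN` only.

Setting (as in `T2.helper51_SN`): `B'` a commutative `k`-algebra of characteristic `p`,
`Fr : B' → B'` (in the application the `k`-linear Frobenius `f(q) ↦ f(q ^ p)` of the special fibre),
`R ⊆ B' × B'` a `k`-subalgebra containing the two graphs `(f, Fr f)` and `(Fr f, f)`,
`J = frobIdeal Fr` the ideal generated by the `Fr (Fr f) - f`.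

* `sndIdeal`, `fstIdeal`          : the conductor-type ideals `{y | (0, y) ∈ R}`, `{x | (x, 0) ∈ R}`.
* `frobIdeal_le_sndIdeal`, `frobIdeal_le_fstIdeal`.
* `isRadical_of_frobIdeal_le`     : if every `Fr (Fr f)` is an `ℓ`-th power (`ℓ ≥ 2`) and `B' ⧸ J` is
  finite dimensional, then EVERY ideal containing `J` is radical.
* `frobSat`      : `(f₁ ^ p, f₂ ^ p) ∈ R ⟹ (f₁, f₂) ∈ R`.
* `frobSat_pow`  : the same for `p ^ j`-th powers.
No description of the nodes (supersingular points) is used.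
-/
import Mathlib
import Fermat.Agent.T2.helper51_SN

set_option autoImplicit false

namespace Fermat.Agent.T7.helper14

open Fermat.Agent.T2.helper51

noncomputable section

variable {k B' : Type*} [Field k] [CommRing B'] [Algebra k B']

/-- the ideal `{y | (0, y) ∈ R}` of `B'` (an ideal because `R` contains the transposed graph) -/
def sndIdeal (Fr : B' → B') (R : Subalgebra k (B' × B')) (h2 : ∀ f, (Fr f, f) ∈ R) :
    Ideal B' where
  carrier := {y | ((0 : B'), y) ∈ R}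
  zero_mem' := by
    change ((0 : B'), (0 : B')) ∈ R
    exact R.zero_mem
  add_mem' := by
    intro a b ha hb
    have := R.add_mem ha hb
    simpa using this
  smul_mem' := by
    intro c y hy
    have := R.mul_mem (h2 c) hy
    simpa using this

/-- the ideal `{x | (x, 0) ∈ R}` of `B'` (an ideal because `R` contains the graph) -/
def fstIdeal (Fr : B' → B') (R : Subalgebra k (B' × B')) (h1 : ∀ f, (f, Fr f) ∈ R) :
    Ideal B' where
  carrier := {x | (x, (0 : B')) ∈ R}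
  zero_mem' := by
    change ((0 : B'), (0 : B')) ∈ R
    exact R.zero_mem
  add_mem' := by
    intro a b ha hb
    have := R.add_mem ha hb
    simpa using this
  smul_mem' := by
    intro c x hx
    have := R.mul_mem (h1 c) hx
    simpa using this

theorem mem_sndIdeal {Fr : B' → B'} {R : Subalgebra k (B' × B')} {h2 : ∀ f, (Fr f, f) ∈ R}
    {y : B'} : y ∈ sndIdeal Fr R h2 ↔ ((0 : B'), y) ∈ R := Iff.rfl

theorem mem_fstIdeal {Fr : B' → B'} {R : Subalgebra k (B' × B')} {h1 : ∀ f, (f, Fr f) ∈ R}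
    {x : B'} : x ∈ fstIdeal Fr R h1 ↔ (x, (0 : B')) ∈ R := Iff.rfl

theorem frobIdeal_le_sndIdeal (Fr : B' → B') (R : Subalgebra k (B' × B'))
    (h1 : ∀ f, (f, Fr f) ∈ R) (h2 : ∀ f, (Fr f, f) ∈ R) :
    frobIdeal Fr ≤ sndIdeal Fr R h2 :=
  fun _ hx => zero_prod_mem Fr R h1 h2 hx

theorem frobIdeal_le_fstIdeal (Fr : B' → B') (R : Subalgebra k (B' × B'))
    (h1 : ∀ f, (f, Fr f) ∈ R) (h2 : ∀ f, (Fr f, f) ∈ R) :
    frobIdeal Fr ≤ fstIdeal Fr R h1 :=
  fun _ hx => prod_zero_mem Fr R h1 h2 hx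

/-- if every `Fr (Fr f)` is an `ℓ`-th power, `ℓ ≥ 2`, and `B' ⧸ J` is finite dimensional, then
every ideal containing `J = frobIdeal Fr` is radical. -/
theorem isRadical_of_frobIdeal_le (k : Type*) {B' : Type*} [Field k] [CommRing B'] [Algebra k B']
    (Fr : B' → B') (ℓ : ℕ) (hℓ : 2 ≤ ℓ) (hpow : ∀ f, ∃ h, Fr (Fr f) = h ^ ℓ)
    [Module.Finite k (B' ⧸ frobIdeal Fr)] (I : Ideal B') (hI : frobIdeal Fr ≤ I) :
    I.IsRadical := by
  have hsurj : Function.Surjective (Ideal.Quotient.factor hI) :=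
    Ideal.Quotient.factor_surjective hI
  have hArt0 : IsArtinianRing (B' ⧸ frobIdeal Fr) := IsArtinianRing.of_finite k _
  have hArt : IsArtinianRing (B' ⧸ I) := hsurj.isArtinianRing
  rw [Ideal.isRadical_iff_quotient_reduced]
  refine isReduced_of_forall_exists_pow ℓ hℓ fun a => ?_
  obtain ⟨f, rfl⟩ := Ideal.Quotient.mk_surjective a
  obtain ⟨h, hh⟩ := hpow f
  refine ⟨Ideal.Quotient.mk _ h, ?_⟩
  rw [← map_pow, ← hh, eq_comm, Ideal.Quotient.eq]
  exact hI (sub_mem_frobIdeal Fr f)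

section Sat

variable (p : ℕ) [Fact p.Prime] [CharP B' p]

/-- **[FROB-SAT]**: the reduction ring `R` is closed under `p`-th roots taken in `B' × B'`,
provided the ideal `{y | (0, y) ∈ R}` is radical and `Fr` commutes with `p`-th powers. -/
theorem frobSat_of_isRadical (Fr : B' → B') (R : Subalgebra k (B' × B'))
    (h1 : ∀ f, (f, Fr f) ∈ R) (h2 : ∀ f, (Fr f, f) ∈ R)
    (hFr : ∀ f, Fr (f ^ p) = Fr f ^ p) (hrad : (sndIdeal Fr R h2).IsRadical)
    {f₁ f₂ : B'} (h : (f₁ ^ p, f₂ ^ p) ∈ R) : (f₁, f₂) ∈ R := by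
  have e1 : (f₁ ^ p, Fr f₁ ^ p) ∈ R := by
    have := h1 (f₁ ^ p)
    rwa [hFr] at this
  have e2 : ((0 : B'), (f₂ - Fr f₁) ^ p) ∈ R := by
    have := R.sub_mem h e1
    rw [sub_pow_char f₂ (Fr f₁)]
    simpa using this
  have e3 : f₂ - Fr f₁ ∈ sndIdeal Fr R h2 := hrad ⟨p, e2⟩
  have e4 : ((0 : B'), f₂ - Fr f₁) ∈ R := e3
  have := R.add_mem (h1 f₁) e4
  simpa using this

/-- **[FROB-SAT]**, in the setting of `T2.helper51_SN`: if every `Fr (Fr f)` is an `ℓ`-th power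
(`ℓ ≥ 2`) and `B' ⧸ J` is finite dimensional, then `(f₁ ^ p, f₂ ^ p) ∈ R ⟹ (f₁, f₂) ∈ R`. -/
theorem frobSat (Fr : B' → B') (ℓ : ℕ) (hℓ : 2 ≤ ℓ) (hpow : ∀ f, ∃ h, Fr (Fr f) = h ^ ℓ)
    [Module.Finite k (B' ⧸ frobIdeal Fr)]
    (R : Subalgebra k (B' × B')) (h1 : ∀ f, (f, Fr f) ∈ R) (h2 : ∀ f, (Fr f, f) ∈ R)
    (hFr : ∀ f, Fr (f ^ p) = Fr f ^ p)
    {f₁ f₂ : B'} (h : (f₁ ^ p, f₂ ^ p) ∈ R) : (f₁, f₂) ∈ R :=
  frobSat_of_isRadical p Fr R h1 h2 hFr
    (isRadical_of_frobIdeal_le k Fr ℓ hℓ hpow _ (frobIdeal_le_sndIdeal Fr R h1 h2)) h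

/-- **[FROB-SAT]** for `p ^ j`-th powers. -/
theorem frobSat_pow (Fr : B' → B') (ℓ : ℕ) (hℓ : 2 ≤ ℓ) (hpow : ∀ f, ∃ h, Fr (Fr f) = h ^ ℓ)
    [Module.Finite k (B' ⧸ frobIdeal Fr)]
    (R : Subalgebra k (B' × B')) (h1 : ∀ f, (f, Fr f) ∈ R) (h2 : ∀ f, (Fr f, f) ∈ R)
    (hFr : ∀ f, Fr (f ^ p) = Fr f ^ p) (j : ℕ)
    {f₁ f₂ : B'} (h : (f₁ ^ p ^ j, f₂ ^ p ^ j) ∈ R) : (f₁, f₂) ∈ R := by
  induction j generalizing f₁ f₂ with
  | zero => simpa using h
  | succ j ih =>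
    apply ih
    apply frobSat p Fr ℓ hℓ hpow R h1 h2 hFr
    rw [← pow_mul, ← pow_mul, ← pow_succ]
    exact h

/-- the mirror statement is automatic: the hypotheses are symmetric in the two components.
A pair whose `p`-th power is the reduction of a function and whose first component is `0`
has second component in the conductor ideal. -/
theorem snd_mem_of_pow (Fr : B' → B') (ℓ : ℕ) (hℓ : 2 ≤ ℓ) (hpow : ∀ f, ∃ h, Fr (Fr f) = h ^ ℓ)
    [Module.Finite k (B' ⧸ frobIdeal Fr)]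
    (R : Subalgebra k (B' × B')) (h1 : ∀ f, (f, Fr f) ∈ R) (h2 : ∀ f, (Fr f, f) ∈ R)
    {y : B'} (n : ℕ) (h : ((0 : B'), y ^ n) ∈ R) : ((0 : B'), y) ∈ R := by
  have hrad := isRadical_of_frobIdeal_le k Fr ℓ hℓ hpow _ (frobIdeal_le_sndIdeal Fr R h1 h2)
  exact hrad ⟨n, h⟩

end Sat

end

end Fermat.Agent.T7.helper14
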