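/-
T7 (S33, box (b)), [FC3-INST] (helper14): the instance of `helper14.frobSat_pow` at the bad pair.

Level `N * p`, `p` a prime not dividing `N`, `A` a place of `ℚ̄` over `p` (the residue
characteristic IS the prime `p`), `W = helper36.atkinLehner N p hp hpN`.  `Bt A (N * p)` = the
functions of the special fibre regular off infinity, `Rt A W` = the ring of pairs of reductions of
the functions regular off the two cusps with integral pair of expansions (T2 vocabulary,
`helper22_CoreDefs`).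

* `rt_frobSat_of`   : `y ∈ Bt × Bt`, `y ^ (p ^ j) ∈ Rt  ⟹  y ∈ Rt`   (from `SurjRedStatement N A`
                      and `RegAlphaStatement`).
* `rt_frobSat_good` : the same, unconditional at a good level `N` (`4 ∣ N ∨ 9 ∣ N`).
* `frobClosed_of_mem_Bt`, `frobClosed_good_of_mem_Bt` : the series form (the conclusion of
  `helper66.FrobClosedStatement` for series which are known to lie in `Bt`).
* `zero_snd_mem_Rt_of_pow_good` : `(0, y ^ n) ∈ Rt ⟹ (0, y) ∈ Rt` for EVERY exponent `n`.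
-/
import Mathlib
import Fermat.Agent.T7.helper14_FrobSat
import Fermat.Agent.T2.helper72_SNGood

set_option autoImplicit false
set_option synthInstance.maxHeartbeats 400000

noncomputable section

open HahnSeries IntermediateField AlgebraicCurve ModularCurve
open Fermat.Agent.S18.helper19 Fermat.Agent.P2.helper29 Fermat.Agent.P2
open Fermat.Agent.T2.helper36 Fermat.Agent.T2.helper96 Fermat.Agent.T2.helper72
open Fermat.Agent.T2

namespace Fermat.Agent.T7.helper14

variable (N p : ℕ) [NeZero N] [NeZero p] (hp : p.Prime) (hpN : ¬ p ∣ N)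
variable (A : ValuationSubring Kb) (hA : A.LiesOverPrime p)

include hA in
/-- **[FC3-INST]**: `Rt` is closed under `p ^ j`-th roots taken in `Bt × Bt`. -/
theorem rt_frobSat_of (hSurj : SurjRedStatement N A)
    (hReg : RegAlphaStatement N p (atkinLehner N p hp hpN)) (j : ℕ)
    {y : helper22.Bt A (N * p) × helper22.Bt A (N * p)}
    (h : y ^ p ^ j ∈ helper22.Rt A (atkinLehner N p hp hpN)) :
    y ∈ helper22.Rt A (atkinLehner N p hp hpN) := by
  have : Fact p.Prime := ⟨hp⟩
  have : CharP (kA A) p := helper93.charP_residueField hp hA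
  have : IsAlgClosed (kA A) := helper95.isAlgClosed_residueField A
  have hchar : CharP (helper22.Bt A (N * p)) p :=
    charP_of_injective_algebraMap (algebraMap (kA A) (helper22.Bt A (N * p))).injective p
  obtain ⟨g₀, hR⟩ := helper95.riemannBar (N * p) A
  obtain ⟨Pinf, hP⟩ := (inftyStatement (N * p) A).2
  have hWW : ∀ f, atkinLehner N p hp hpN (atkinLehner N p hp hpN f) = f :=
    atkinLehner_atkinLehner N p hp hpN
  have hfin : Module.Finite (kA A)
      (helper22.Bt A (N * p) ⧸ helper51.frobIdeal (B' := helper22.Bt A (N * p))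
        (frReg (kA A) p (N * p))) :=
    finite_quotient_frobIdeal (kA A) p (N * p) (helper95.riemannSetting_FFb (N * p) A) hR hP
  have h1 : ∀ f : helper22.Bt A (N * p),
      (f, frReg (kA A) p (N * p) f) ∈ helper22.Rt A (atkinLehner N p hp hpN) := by
    intro f
    obtain ⟨n, hn⟩ := f.2
    obtain ⟨g, Y₁, Y₂, hg, hrep, e1, e2⟩ := exists_rep_graph N p hp hpN A hA hSurj hReg hn
    exact ⟨g, Y₁, Y₂, hg, hrep, e1, e2⟩
  have h2 : ∀ f : helper22.Bt A (N * p),
      (frReg (kA A) p (N * p) f, f) ∈ helper22.Rt A (atkinLehner N p hp hpN) := by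
    intro f
    obtain ⟨n, hn⟩ := f.2
    obtain ⟨g, Y₁, Y₂, hg, hrep, e1, e2⟩ := exists_rep_graph N p hp hpN A hA hSurj hReg hn
    exact ⟨atkinLehner N p hp hpN g, Y₂, Y₁, hg.map hWW, hrep.swap hWW, e2, e1⟩
  have hy : (y.1 ^ p ^ j, y.2 ^ p ^ j) ∈ helper22.Rt A (atkinLehner N p hp hpN) := h
  exact @frobSat_pow (kA A) (helper22.Bt A (N * p)) _ _ _ p _ hchar
    (frReg (kA A) p (N * p)) p hp.two_le
    (frReg_frReg_eq_pow (kA A) p (N * p)) hfin (helper22.Rt A (atkinLehner N p hp hpN)) h1 h2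
    (fun f => map_pow (frReg (kA A) p (N * p)) f p) j y.1 y.2 hy

include hA in
/-- **[FC3-INST]**, unconditional at a good level. -/
theorem rt_frobSat_good (hN : 4 ∣ N ∨ 9 ∣ N) (j : ℕ)
    {y : helper22.Bt A (N * p) × helper22.Bt A (N * p)}
    (h : y ^ p ^ j ∈ helper22.Rt A (atkinLehner N p hp hpN)) :
    y ∈ helper22.Rt A (atkinLehner N p hp hpN) :=
  rt_frobSat_of N p hp hpN A hA (surjRed_good hp hpN A hA hN) (regAlphaStatement N p hp hpN) j h

include hA in
/-- **[FC3-INST]**, series form: two series of `Bt` whose `p ^ j`-th powers are the reductions of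
an integral pair of expansions of a function regular off the two cusps are themselves such. -/
theorem frobClosed_of_mem_Bt (hSurj : SurjRedStatement N A)
    (hReg : RegAlphaStatement N p (atkinLehner N p hp hpN)) (j : ℕ)
    {y₁ y₂ : LaurentSeries (kA A)} (hy₁ : y₁ ∈ helper22.Bt A (N * p))
    (hy₂ : y₂ ∈ helper22.Bt A (N * p))
    (h : ∃ (f : FF (N * p)) (Y₁ Y₂ : LaurentSeries A),
      helper22.IsReg2 (atkinLehner N p hp hpN) f ∧
      helper22.IsRep A (atkinLehner N p hp hpN) f Y₁ Y₂ ∧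
      red A Y₁ = y₁ ^ p ^ j ∧ red A Y₂ = y₂ ^ p ^ j) :
    ∃ (g : FF (N * p)) (Z₁ Z₂ : LaurentSeries A),
      helper22.IsReg2 (atkinLehner N p hp hpN) g ∧
      helper22.IsRep A (atkinLehner N p hp hpN) g Z₁ Z₂ ∧
      red A Z₁ = y₁ ∧ red A Z₂ = y₂ := by
  obtain ⟨f, Y₁, Y₂, hf, hrep, e1, e2⟩ := h
  have hmem : ((⟨y₁, hy₁⟩, ⟨y₂, hy₂⟩) : helper22.Bt A (N * p) × helper22.Bt A (N * p)) ^ p ^ j
      ∈ helper22.Rt A (atkinLehner N p hp hpN) :=
    ⟨f, Y₁, Y₂, hf, hrep, e1, e2⟩
  exact rt_frobSat_of N p hp hpN A hA hSurj hReg j hmem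

include hA in
/-- the series form, unconditional at a good level. -/
theorem frobClosed_good_of_mem_Bt (hN : 4 ∣ N ∨ 9 ∣ N) (j : ℕ)
    {y₁ y₂ : LaurentSeries (kA A)} (hy₁ : y₁ ∈ helper22.Bt A (N * p))
    (hy₂ : y₂ ∈ helper22.Bt A (N * p))
    (h : ∃ (f : FF (N * p)) (Y₁ Y₂ : LaurentSeries A),
      helper22.IsReg2 (atkinLehner N p hp hpN) f ∧
      helper22.IsRep A (atkinLehner N p hp hpN) f Y₁ Y₂ ∧
      red A Y₁ = y₁ ^ p ^ j ∧ red A Y₂ = y₂ ^ p ^ j) :
    ∃ (g : FF (N * p)) (Z₁ Z₂ : LaurentSeries A),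
      helper22.IsReg2 (atkinLehner N p hp hpN) g ∧
      helper22.IsRep A (atkinLehner N p hp hpN) g Z₁ Z₂ ∧
      red A Z₁ = y₁ ∧ red A Z₂ = y₂ :=
  frobClosed_of_mem_Bt N p hp hpN A hA (surjRed_good hp hpN A hA hN)
    (regAlphaStatement N p hp hpN) j hy₁ hy₂ h

include hA in
/-- the conductor ideal `{y | (0, y) ∈ Rt}` of `Bt` is radical (every exponent `n`). -/
theorem zero_snd_mem_Rt_of_pow_good (hN : 4 ∣ N ∨ 9 ∣ N) (n : ℕ)
    {y : helper22.Bt A (N * p)}
    (h : ((0 : helper22.Bt A (N * p)), y ^ n) ∈ helper22.Rt A (atkinLehner N p hp hpN)) :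
    ((0 : helper22.Bt A (N * p)), y) ∈ helper22.Rt A (atkinLehner N p hp hpN) := by
  have : Fact p.Prime := ⟨hp⟩
  have : CharP (kA A) p := helper93.charP_residueField hp hA
  have : IsAlgClosed (kA A) := helper95.isAlgClosed_residueField A
  have hSurj := surjRed_good hp hpN A hA hN
  have hReg := regAlphaStatement N p hp hpN
  obtain ⟨g₀, hR⟩ := helper95.riemannBar (N * p) A
  obtain ⟨Pinf, hP⟩ := (inftyStatement (N * p) A).2
  have hWW : ∀ f, atkinLehner N p hp hpN (atkinLehner N p hp hpN f) = f :=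
    atkinLehner_atkinLehner N p hp hpN
  have hfin : Module.Finite (kA A)
      (helper22.Bt A (N * p) ⧸ helper51.frobIdeal (B' := helper22.Bt A (N * p))
        (frReg (kA A) p (N * p))) :=
    finite_quotient_frobIdeal (kA A) p (N * p) (helper95.riemannSetting_FFb (N * p) A) hR hP
  have h1 : ∀ f : helper22.Bt A (N * p),
      (f, frReg (kA A) p (N * p) f) ∈ helper22.Rt A (atkinLehner N p hp hpN) := by
    intro f
    obtain ⟨n, hn⟩ := f.2
    obtain ⟨g, Y₁, Y₂, hg, hrep, e1, e2⟩ := exists_rep_graph N p hp hpN A hA hSurj hReg hn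
    exact ⟨g, Y₁, Y₂, hg, hrep, e1, e2⟩
  have h2 : ∀ f : helper22.Bt A (N * p),
      (frReg (kA A) p (N * p) f, f) ∈ helper22.Rt A (atkinLehner N p hp hpN) := by
    intro f
    obtain ⟨n, hn⟩ := f.2
    obtain ⟨g, Y₁, Y₂, hg, hrep, e1, e2⟩ := exists_rep_graph N p hp hpN A hA hSurj hReg hn
    exact ⟨atkinLehner N p hp hpN g, Y₂, Y₁, hg.map hWW, hrep.swap hWW, e2, e1⟩
  exact @snd_mem_of_pow (kA A) (helper22.Bt A (N * p)) _ _ _
    (frReg (kA A) p (N * p)) p hp.two_le
    (frReg_frReg_eq_pow (kA A) p (N * p)) hfin (helper22.Rt A (atkinLehner N p hp hpN)) h1 h2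
    y n h

end Fermat.Agent.T7.helper14

end
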