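/-
T7 (S33, box (b)), [KEY-ALG] (helper14): the two algebraic identities of the depth filtration at
level `p`, in an arbitrary commutative ring `B` with an ideal `𝔪` (in the application `B` = the
functions regular off the two cusps and integral for both Gauss valuations, `𝔪 = m_A • B`).
Mathlib only.

* `frob_step`    : [D1] FROBENIUS STEP.  If `H = 1 + π₁ ^ p * η`, `η - b ^ p ∈ 𝔪`, `p` odd and
  `p * π₁ = π₁ ^ p * t` with `t ∈ 𝔪` (depth of `π₁` below `1 / (p - 1)`), then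
  `H * (1 - π₁ * b) ^ p = 1 + π₁ ^ p * c` with `c ∈ 𝔪`: multiplying by a `p`-th power of an element
  of `B` raises the depth.  (A PRODUCT: no inverse is taken, so regularity off the cusps is kept.)
* `key_identity` : [KEY] INERTIA.  If `H = 1 + ϖ * η` with `ϖ ∈ 𝔪` (in the application
  `ϖ = π₀ ^ p`, `π₀ ^ (p - 1) = - p`), `σ ϖ = ω * ϖ`, `ω - a ∈ 𝔪`, `σ η - η ∈ 𝔪`, `p ∈ 𝔪`, then
  `σ H * H ^ (p - a) = 1 + ϖ * c` with `c ∈ 𝔪`.  With the deep root end this gives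
  `σ x = a x` for the class `x` of `H` in `J[p]`: inertia acts through the cyclotomic character
  mod `p`; no gluing datum, no Artin-Schreier analysis.
-/
import Mathlib

set_option autoImplicit false

namespace Fermat.Agent.T7.helper14

variable {B : Type*} [CommRing B]

/-- `(1 + x) ^ m = 1 + m x + x² d`. -/
theorem exists_one_add_pow_eq (x : B) (m : ℕ) :
    ∃ d : B, (1 + x) ^ m = 1 + (m : B) * x + x ^ 2 * d := by
  induction m with
  | zero => exact ⟨0, by simp⟩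
  | succ m ih =>
    obtain ⟨d, hd⟩ := ih
    refine ⟨d + (m : B) + x * d, ?_⟩
    rw [pow_succ, hd]
    push_cast
    ring

/-- for an odd prime `p`: `(1 - x) ^ p = 1 - x ^ p + p x d`. -/
theorem exists_one_sub_pow_prime_eq {p : ℕ} (hp : p.Prime) (hodd : p ≠ 2) (x : B) :
    ∃ d : B, (1 - x) ^ p = 1 - x ^ p + (p : B) * x * d := by
  obtain ⟨r, hr⟩ := exists_add_pow_prime_eq hp (1 : B) (-x)
  have hoddp : Odd p := hp.odd_of_ne_two hodd
  refine ⟨-r, ?_⟩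
  have e : (1 - x) ^ p = (1 + -x) ^ p := by rw [sub_eq_add_neg]
  rw [e, hr, hoddp.neg_pow, one_pow]
  ring

/-- **[D1] Frobenius step**: below the threshold depth, a leading term which is a `p`-th power
modulo `𝔪` is removed by multiplying with the `p`-th power of `1 - π₁ b`. -/
theorem frob_step {p : ℕ} (hp : p.Prime) (hodd : p ≠ 2) (𝔪 : Ideal B) (π₁ t η b : B)
    (hπ : π₁ ∈ 𝔪) (ht : t ∈ 𝔪) (hpt : (p : B) * π₁ = π₁ ^ p * t) (hη : η - b ^ p ∈ 𝔪) :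
    ∃ c ∈ 𝔪, (1 + π₁ ^ p * η) * (1 - π₁ * b) ^ p = 1 + π₁ ^ p * c := by
  obtain ⟨d, hd⟩ := exists_one_sub_pow_prime_eq hp hodd (π₁ * b)
  have hp1 : 1 ≤ p := hp.one_lt.le
  have hπp : π₁ ^ p ∈ 𝔪 := by
    obtain ⟨j, rfl⟩ : ∃ j, p = j + 1 := ⟨p - 1, by omega⟩
    rw [pow_succ]
    exact 𝔪.mul_mem_left _ hπ
  refine ⟨(η - b ^ p) + t * b * d + π₁ ^ p * (η * (t * b * d - b ^ p)), ?_, ?_⟩
  · refine 𝔪.add_mem (𝔪.add_mem hη ?_) (𝔪.mul_mem_right _ hπp)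
    exact 𝔪.mul_mem_right _ (𝔪.mul_mem_right _ ht)
  · rw [hd, mul_pow]
    have e : (p : B) * (π₁ * b) * d = π₁ ^ p * (t * b * d) := by
      rw [← mul_assoc, hpt]
      ring
    rw [e]
    ring

/-- **[KEY] inertia acts through the cyclotomic character mod `p`** (algebraic identity). -/
theorem key_identity (𝔪 : Ideal B) (σ : B →+* B) (ϖ ω η : B) (p a : ℕ) (ha : a ≤ p)
    (hϖ : ϖ ∈ 𝔪) (hp : (p : B) ∈ 𝔪) (hσϖ : σ ϖ = ω * ϖ) (hω : ω - (a : B) ∈ 𝔪)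
    (hη : σ η - η ∈ 𝔪) :
    ∃ c ∈ 𝔪, σ (1 + ϖ * η) * (1 + ϖ * η) ^ (p - a) = 1 + ϖ * c := by
  obtain ⟨d, hd⟩ := exists_one_add_pow_eq (ϖ * η) (p - a)
  have hcast : ((p - a : ℕ) : B) = (p : B) - (a : B) := by
    rw [Nat.cast_sub ha]
  refine ⟨ω * (σ η - η) + (ω - (a : B)) * η + (p : B) * η +
      ϖ * (η ^ 2 * d + ω * σ η * (((p : B) - (a : B)) * η + ϖ * η ^ 2 * d)), ?_, ?_⟩
  · refine 𝔪.add_mem (𝔪.add_mem (𝔪.add_mem ?_ ?_) ?_) ?_
    · exact 𝔪.mul_mem_left _ hη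
    · exact 𝔪.mul_mem_right _ hω
    · exact 𝔪.mul_mem_right _ hp
    · exact 𝔪.mul_mem_right _ hϖ
  · rw [hd, hcast, map_add, map_one, map_mul, hσϖ]
    ring

/-- the same identity with the conclusion in the form used by the deep root end:
`σ H * H ^ (p - a) - 1 ∈ ϖ • 𝔪`. -/
theorem key_identity_mem (𝔪 : Ideal B) (σ : B →+* B) (ϖ ω η : B) (p a : ℕ) (ha : a ≤ p)
    (hϖ : ϖ ∈ 𝔪) (hp : (p : B) ∈ 𝔪) (hσϖ : σ ϖ = ω * ϖ) (hω : ω - (a : B) ∈ 𝔪)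
    (hη : σ η - η ∈ 𝔪) :
    σ (1 + ϖ * η) * (1 + ϖ * η) ^ (p - a) - 1 ∈ Ideal.span {ϖ} * 𝔪 := by
  obtain ⟨c, hc, e⟩ := key_identity 𝔪 σ ϖ ω η p a ha hϖ hp hσϖ hω hη
  rw [e, add_sub_cancel_left]
  exact Ideal.mul_mem_mul (Ideal.subset_span rfl) hc

end Fermat.Agent.T7.helper14
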