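/-
T7 (S33, box (b)), leaf [FC-INST], abstract part (helper15, second prover).  Mathlib only.

`k` a perfect field of characteristic `p`, `K / k` a field with a separating element `y`
(`K / k(y)` separable algebraic), e.g. a function field of one variable.

* `adjoin_powField_eq_top` : `K = K^p(y)`;
* `finrank_powField`       : `[K : K^p] = p` as soon as `K` has an element which is not a `p`-th
                             power;
* `mem_of_pow_mem_of_isSeparable` : **`p`-closedness**: if `K ⊆ L` and some element of `K` is not
  a `p`-th power in `L`, then `X ∈ L`, `X ^ p ∈ K` imply `X ∈ K`;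
* `mem_of_pow_pow_mem_of_isSeparable` : the same for `p ^ m`-th powers.

In the application `L = k((q))`, `K` = the function field of the special fibre and the element
is `j = 1/q + ...`, whose `q`-order `-1` is prime to `p`.
-/
import Mathlib

set_option autoImplicit false
set_option linter.style.haveILetI false

namespace Fermat.Agent.T7.helper15

open IntermediateField Polynomial

section Abstract

/-- the subfield of `p`-th powers -/
abbrev powField (K : Type*) [Field K] (p : ℕ) [Fact p.Prime] [CharP K p] : Subfield K :=
  (frobenius K p).fieldRange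

theorem mem_powField {K : Type*} [Field K] {p : ℕ} [Fact p.Prime] [CharP K p] {x : K} :
    x ∈ powField K p ↔ ∃ z : K, z ^ p = x := by
  rw [powField, RingHom.mem_fieldRange]
  simp [frobenius_def]

variable {k K : Type*} [Field k] [Field K] [Algebra k K] (p : ℕ) [hp : Fact p.Prime]
  [CharP k p] [PerfectRing k p]

/-- **`K = K^p(y)`** for a separating element `y` of `K / k`, `k` perfect. -/
theorem adjoin_powField_eq_top [CharP K p] (y : K) [Algebra.IsSeparable k⟮y⟯ K] :
    IntermediateField.adjoin (powField K p) {y} = ⊤ := by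
  classical
  set M : IntermediateField (powField K p) K := IntermediateField.adjoin (powField K p) {y}
    with hM
  have hpowM : ∀ z : K, z ^ p ∈ M := fun z =>
    M.algebraMap_mem ⟨z ^ p, mem_powField.2 ⟨z, rfl⟩⟩
  -- constants
  have hk : ∀ c : k, algebraMap k K c ∈ M.toSubfield := by
    intro c
    obtain ⟨c', hc'⟩ := surjective_frobenius k p c
    have : algebraMap k K c = (algebraMap k K c') ^ p := by
      rw [← map_pow, ← frobenius_def, hc']
    rw [this]
    exact hpowM _
  let N' : IntermediateField k K := M.toSubfield.toIntermediateField hk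
  have hyM : y ∈ M := IntermediateField.mem_adjoin_simple_self _ y
  have hle : k⟮y⟯ ≤ N' := by
    rw [IntermediateField.adjoin_simple_le_iff]
    exact hyM
  have hky : ∀ c : k⟮y⟯, algebraMap k⟮y⟯ K c ∈ M.toSubfield := fun c => hle c.2
  let N'' : IntermediateField k⟮y⟯ K := M.toSubfield.toIntermediateField hky
  have : ExpChar k⟮y⟯ p := by
    have : CharP k⟮y⟯ p := charP_of_injective_algebraMap (algebraMap k k⟮y⟯).injective p
    exact ExpChar.prime hp.out
  have h1 := IntermediateField.adjoin_eq_adjoin_pow_expChar_of_isSeparable' k⟮y⟯ K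
    (Set.univ : Set K) p
  have h2 : IntermediateField.adjoin k⟮y⟯ ((· ^ p) '' (Set.univ : Set K)) ≤ N'' := by
    rw [IntermediateField.adjoin_le_iff]
    rintro _ ⟨z, -, rfl⟩
    exact hpowM z
  rw [eq_top_iff]
  intro x _
  have hx : x ∈ IntermediateField.adjoin k⟮y⟯ (Set.univ : Set K) := by
    rw [IntermediateField.adjoin_univ]; trivial
  rw [h1] at hx
  exact h2 hx

/-- **`[K : K^p] = p`** for a field with a separating element over a perfect field, if some
element of `K` is not a `p`-th power. -/
theorem finrank_powField [CharP K p] (y : K) [Algebra.IsSeparable k⟮y⟯ K]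
    (hj : ∃ j : K, ∀ z : K, z ^ p ≠ j) : Module.finrank (powField K p) K = p := by
  classical
  have htop := adjoin_powField_eq_top (k := k) p y
  -- `y` is not a `p`-th power
  have hy : y ∉ powField K p := by
    intro hyp
    have hbot : IntermediateField.adjoin (powField K p) {y} = ⊥ := by
      rw [IntermediateField.adjoin_simple_eq_bot_iff, IntermediateField.mem_bot]
      exact ⟨⟨y, hyp⟩, rfl⟩
    obtain ⟨j, hj⟩ := hj
    have hjm : j ∈ (⊥ : IntermediateField (powField K p) K) := by
      rw [← hbot, htop]; trivial
    rw [IntermediateField.mem_bot] at hjm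
    obtain ⟨c, hc⟩ := hjm
    obtain ⟨z, hz⟩ := mem_powField.1 c.2
    exact hj z (by rw [hz]; exact hc)
  have hyp : y ^ p ∈ powField K p := mem_powField.2 ⟨y, rfl⟩
  have hirr : Irreducible (X ^ p - C (⟨y ^ p, hyp⟩ : powField K p)) := by
    apply X_pow_sub_C_irreducible_of_prime hp.out
    intro b hb
    apply hy
    have h1 : (b : K) ^ p = y ^ p := by
      have := congrArg (fun t : powField K p => (t : K)) hb
      simpa using this
    have h2 : (b : K) = y := frobenius_inj K p h1
    rw [← h2]
    exact b.2
  have hmonic : (X ^ p - C (⟨y ^ p, hyp⟩ : powField K p)).Monic :=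
    monic_X_pow_sub_C _ hp.out.ne_zero
  have haeval : aeval y (X ^ p - C (⟨y ^ p, hyp⟩ : powField K p)) = 0 := by
    rw [map_sub, map_pow, aeval_X, aeval_C]
    exact sub_self _
  have hmin := minpoly.eq_of_irreducible_of_monic hirr haeval hmonic
  have hint : IsIntegral (powField K p) y := ⟨_, hmonic, haeval⟩
  have h1 := IntermediateField.adjoin.finrank hint
  rw [← hmin, natDegree_X_pow_sub_C] at h1
  rw [← IntermediateField.finrank_top', ← htop]
  exact h1

/-- **`p`-closedness.**  `K ⊆ L` a subfield with a separating element over the perfect field `k`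
of characteristic `p`, containing an element which is not a `p`-th power in `L`.  Then every
`X ∈ L` with `X ^ p ∈ K` lies in `K`. -/
theorem mem_of_pow_mem_of_isSeparable {L : Type*} [Field L] [Algebra k L]
    (K : IntermediateField k L) (y : K) [Algebra.IsSeparable k⟮y⟯ K]
    (hj : ∃ j : K, ∀ Z : L, Z ^ p ≠ (j : L)) {X : L} (hX : X ^ p ∈ K) : X ∈ K := by
  classical
  haveI : CharP K p := charP_of_injective_algebraMap (algebraMap k K).injective p
  haveI : CharP L p := charP_of_injective_algebraMap (algebraMap k L).injective p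
  obtain ⟨j, hj⟩ := hj
  have hj' : ∃ j : K, ∀ z : K, z ^ p ≠ j := ⟨j, fun z hz => hj (z : L) (by
    rw [← hz]; rfl)⟩
  have hfin := finrank_powField (k := k) p y hj'
  -- the intermediate field `K ∩ L^p`
  have hc : ∀ c : powField K p, algebraMap (powField K p) K c ∈
      (powField L p).comap (algebraMap K L) := by
    intro c
    obtain ⟨z, hz⟩ := mem_powField.1 c.2
    rw [Subfield.mem_comap]
    refine mem_powField.2 ⟨(z : L), ?_⟩
    have : algebraMap (powField K p) K c = z ^ p := hz.symm
    rw [this, map_pow]
    rfl
  let K₀ : IntermediateField (powField K p) K :=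
    ((powField L p).comap (algebraMap K L)).toIntermediateField hc
  have hmemK₀ : ∀ x : K, x ∈ K₀ ↔ ∃ Z : L, Z ^ p = (x : L) := by
    intro x
    change x ∈ (powField L p).comap (algebraMap K L) ↔ _
    rw [Subfield.mem_comap, mem_powField]
    rfl
  have hne : K₀ ≠ ⊤ := by
    intro h
    have hjm : j ∈ K₀ := by rw [h]; trivial
    obtain ⟨Z, hZ⟩ := (hmemK₀ j).1 hjm
    exact hj Z hZ
  have htower := Module.finrank_mul_finrank (powField K p) K₀ K
  rw [hfin] at htower
  have h1 : Module.finrank K₀ K ≠ 1 := fun h =>
    hne (IntermediateField.finrank_eq_one_iff_eq_top.1 h)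
  have h2 : Module.finrank (powField K p) K₀ = 1 := by
    have hdvd : Module.finrank K₀ K ∣ p := ⟨_, by rw [mul_comm]; exact htower.symm⟩
    rcases (Nat.dvd_prime hp.out).1 hdvd with h | h
    · exact absurd h h1
    · rw [h] at htower
      have hp0 : 0 < p := hp.out.pos
      exact Nat.eq_of_mul_eq_mul_right hp0 (by rw [one_mul]; exact htower)
  have hbot : K₀ = ⊥ := IntermediateField.finrank_eq_one_iff.1 h2
  have hf : (⟨X ^ p, hX⟩ : K) ∈ K₀ := (hmemK₀ _).2 ⟨X, rfl⟩
  rw [hbot, IntermediateField.mem_bot] at hf
  obtain ⟨c, hc'⟩ := hf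
  obtain ⟨z, hz⟩ := mem_powField.1 c.2
  have h3 : (z : L) ^ p = X ^ p := by
    have h4 : z ^ p = (⟨X ^ p, hX⟩ : K) := by rw [hz]; exact hc'
    have := congrArg (fun t : K => (t : L)) h4
    simpa using this
  have h5 : (z : L) = X := frobenius_inj L p h3
  rw [← h5]
  exact z.2

/-- `p`-closedness for `p ^ m`-th powers. -/
theorem mem_of_pow_pow_mem_of_isSeparable {L : Type*} [Field L] [Algebra k L]
    (K : IntermediateField k L) (y : K) [Algebra.IsSeparable k⟮y⟯ K]
    (hj : ∃ j : K, ∀ Z : L, Z ^ p ≠ (j : L)) (m : ℕ) {X : L} (hX : X ^ p ^ m ∈ K) : X ∈ K := by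
  induction m generalizing X with
  | zero => simpa using hX
  | succ m ih =>
    apply ih
    apply mem_of_pow_mem_of_isSeparable p K y hj
    rw [← pow_mul, ← pow_succ]
    exact hX

end Abstract

end Fermat.Agent.T7.helper15
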