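/-
T7 (S33, box (b)), leaf [FC-INST] (helper15, second prover): `p`-root closedness at the bad pair.

`A` a valuation subring of `ℚ̄` with residue field `k = kA A` of characteristic `p`, `M` a level,
`W` an involution of `F_M`.

* `mem_of_pow_mem_of_points`, `mem_of_pow_mem_of_graphs` : abstract form (vocabulary of
  `T2.helper51_Ideal`, `T2.helper51_SN`): a subalgebra `R ⊆ B` containing the common kernel of
  finitely many `k`-points is closed under `p`-th roots taken in `B`.  NO compatibility of the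
  Frobenius `Fr` with `p`-th powers is needed.
* `mem_FFb_of_pow_mem` : **the special fibre field is `p`-closed in `k((q))`**:
  `X ^ p ∈ FFb A M → X ∈ FFb A M`.
* `mem_Bt_of_pow_mem`  : **`Bt` is `p`-root closed in `k((q))`**.
* `mem_Rt_of_pow_mem`  : **`Rt` is `p`-root closed in `Bt × Bt`**, from `SN2Statement` alone.
* `mem_Rt_of_series_pow_mem` : the combined form used by the `p`-pivot (Frobenius regime): a
  pair of series of `k((q))` whose `p`-th powers form an element of `Rt` is an element of `Rt`.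
All statements also for `p ^ m`-th powers.
-/
import Mathlib
import Fermat.Agent.T2.helper22_CoreDefs
import Fermat.Agent.T2.helper51_SN
import Fermat.Agent.P2.helper95_FFlInst
import Fermat.Agent.T7.helper15_PClosed

set_option autoImplicit false
set_option linter.unusedSectionVars false
set_option linter.style.haveILetI false

noncomputable section

namespace Fermat.Agent.T7.helper15

open HahnSeries IntermediateField AlgebraicCurve ModularCurve
open Fermat.Agent.S18.helper19 Fermat.Agent.P2.helper29 Fermat.Agent.P2.helper22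
open Fermat.Agent.T2.helper22 Fermat.Agent.T2.helper51

/-! ### Abstract form -/

section Points

variable {k B ι : Type*} [Field k] [CommRing B] [Algebra k B] [Finite ι]

/-- a subalgebra containing the common kernel of finitely many `k`-points is closed under
`p`-th roots (`p` = the characteristic). -/
theorem mem_of_pow_mem_of_points (R : Subalgebra k B) (ev : ι → B →ₐ[k] k)
    (hIR : ∀ x, (∀ i, ev i x = 0) → x ∈ R) (p : ℕ) [hp : Fact p.Prime] [CharP k p] {x : B}
    (hx : x ^ p ∈ R) : x ∈ R := by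
  classical
  rcases subsingleton_or_nontrivial B with hB | hB
  · rw [Subsingleton.elim x 0]
    exact R.zero_mem
  haveI : CharP B p := charP_of_injective_algebraMap (algebraMap k B).injective p
  have : Fintype (Quotient (evSetoid R ev)) := Fintype.ofFinite _
  obtain ⟨r, hrR, hr1, hr0⟩ := exists_mem_evRep_eq R ev
  -- the element of `R` with the same values as `x` at the representatives
  obtain ⟨s, hs⟩ : ∃ s : B, s = ∑ c : Quotient (evSetoid R ev),
      algebraMap k B (ev c.out x) * r c := ⟨_, rfl⟩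
  have hsR : s ∈ R := by
    rw [hs]
    exact Subalgebra.sum_mem _ fun c _ => R.mul_mem (R.algebraMap_mem _) (hrR c)
  have hval : evRep R ev (x - s) = 0 := by
    funext c'
    rw [evRep_apply, map_sub, hs, map_sum, Pi.zero_apply]
    rw [Finset.sum_eq_single c']
    · have h1 : ev c'.out (r c') = 1 := by simpa using hr1 c'
      rw [map_mul, AlgHom.commutes, h1]
      simp
    · intro c _ hc
      have h0 : ev c'.out (r c) = 0 := by simpa using hr0 c c' hc.symm
      rw [map_mul, h0, mul_zero]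
    · intro h
      exact absurd (Finset.mem_univ _) h
  have hpow : (x - s) ^ p ∈ R := by
    rw [sub_pow_char]
    exact R.sub_mem hx (R.pow_mem hsR p)
  have h0 := ev_eq_zero_of_evRep_eq_zero R ev hp.out.ne_zero hpow hval
  have := R.add_mem (hIR _ h0) hsR
  simpa using this

/-- the same for `p ^ m`-th roots -/
theorem mem_of_pow_pow_mem_of_points (R : Subalgebra k B) (ev : ι → B →ₐ[k] k)
    (hIR : ∀ x, (∀ i, ev i x = 0) → x ∈ R) (p : ℕ) [hp : Fact p.Prime] [CharP k p] (m : ℕ)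
    {x : B} (hx : x ^ p ^ m ∈ R) : x ∈ R := by
  induction m generalizing x with
  | zero => simpa using hx
  | succ m ih =>
    apply ih
    apply mem_of_pow_mem_of_points R ev hIR p
    rw [← pow_mul, ← pow_succ]
    exact hx

end Points

section Graphs

variable {k B' : Type*} [Field k] [CommRing B'] [Algebra k B'] [IsAlgClosed k]

/-- **[FROB-SAT] without any hypothesis on `Fr`**: in the setting of `T2.helper51_SN` the ring
`R ⊆ B' × B'` is closed under `p ^ m`-th roots. -/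
theorem mem_of_pow_mem_of_graphs (Fr : B' → B') (ℓ : ℕ) (hℓ : 2 ≤ ℓ)
    (hpow : ∀ f, ∃ h, Fr (Fr f) = h ^ ℓ) [Module.Finite k (B' ⧸ frobIdeal Fr)]
    (R : Subalgebra k (B' × B')) (h1 : ∀ f, (f, Fr f) ∈ R) (h2 : ∀ f, (Fr f, f) ∈ R)
    (p : ℕ) [hp : Fact p.Prime] [CharP k p] (m : ℕ) {x : B' × B'} (hx : x ^ p ^ m ∈ R) :
    x ∈ R := by
  obtain ⟨ev, hfin, hev⟩ :=
    exists_points_of_isRadical (k := k) (frobIdeal Fr) (isRadical_frobIdeal k Fr ℓ hℓ hpow)
  have hker : ∀ x : B' × B', (∀ i, prodPoints ev i x = 0) ↔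
      x ∈ Ideal.prod (frobIdeal Fr) (frobIdeal Fr) := by
    intro x
    rw [Ideal.mem_prod, ← hev, ← hev]
    constructor
    · intro h
      exact ⟨fun i => h (Sum.inl i), fun i => h (Sum.inr i)⟩
    · rintro ⟨ha, hb⟩ (i | i)
      · exact ha i
      · exact hb i
  have hIR : ∀ x, (∀ i, prodPoints ev i x = 0) → x ∈ R := fun x hx =>
    prod_span_le Fr R h1 h2 x ((hker x).1 hx)
  exact mem_of_pow_pow_mem_of_points R (prodPoints ev) hIR p m hx

end Graphs

/-! ### The special fibre -/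

variable {M : ℕ} [NeZero M] {A : ValuationSubring Kb}

/-- `j` is not a `p`-th power in `k((q))`: its order is `-1`. -/
theorem pow_ne_jqModC (k : Type*) [Field k] (p : ℕ) (hp : 2 ≤ p) (Z : LaurentSeries k) :
    Z ^ p ≠ jqModC k := by
  intro h
  have hord := Fermat.Agent.P2.helper29.order_jqModC k
  rw [← h] at hord
  have hZ : Z ≠ 0 := by
    rintro rfl
    rw [zero_pow (by omega)] at h
    exact jqModC_ne_zero_of_nontrivial k h.symm
  have h2 : (Z ^ p).order = p • Z.order := HahnSeries.order_pow Z p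
  rw [h2, nsmul_eq_mul] at hord
  have h3 : (p : ℤ) ∣ -1 := ⟨Z.order, hord.symm⟩
  have h4 : (p : ℤ) ∣ 1 := (Int.dvd_neg).1 h3
  have h5 := Int.le_of_dvd one_pos h4
  omega

/-- **the special fibre field is `p`-closed in `k((q))`** (`p` = the residue characteristic). -/
theorem mem_FFb_of_pow_pow_mem (A : ValuationSubring Kb) (M : ℕ) [NeZero M] (p : ℕ)
    [hp : Fact p.Prime] [CharP (kA A) p] (m : ℕ) {X : LaurentSeries (kA A)}
    (hX : X ^ p ^ m ∈ FFb A M) : X ∈ FFb A M := by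
  haveI : IsAlgClosed (kA A) := Fermat.Agent.P2.helper95.isAlgClosed_residueField A
  obtain ⟨y, -, -, hsep⟩ := Fermat.Agent.P2.helper95.exists_separating_FFb M A
  exact mem_of_pow_pow_mem_of_isSeparable p (FFb A M) y
    ⟨jBar A M, fun Z => pow_ne_jqModC (kA A) p hp.out.two_le Z⟩ m hX

theorem mem_FFb_of_pow_mem (A : ValuationSubring Kb) (M : ℕ) [NeZero M] (p : ℕ)
    [hp : Fact p.Prime] [CharP (kA A) p] {X : LaurentSeries (kA A)}
    (hX : X ^ p ∈ FFb A M) : X ∈ FFb A M :=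
  mem_FFb_of_pow_pow_mem A M p 1 (by simpa using hX)

/-- `L(n ∞)` of the special fibre is closed under `n'`-th roots taken in the field (any
`n' > 0`), up to the pole bound. -/
theorem inL_of_pow {n' : ℕ} (hn' : 0 < n') {n : ℤ} {X : LaurentSeries (kA A)}
    (hX : X ∈ FFb A M) (h : InL (FFb A M) n (X ^ n')) : ∃ n₁ : ℤ, InL (FFb A M) n₁ X := by
  obtain ⟨hmem, hreg, -⟩ := h
  refine ⟨-X.order, hX, fun P hP => ?_, fun k hk => ?_⟩
  · have h1 := hreg P hP
    have e : (⟨X ^ n', hmem⟩ : FFb A M) = (⟨X, hX⟩ : FFb A M) ^ n' := rfl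
    rw [e, ord_npow] at h1
    have hn'' : (0 : ℤ) < n' := by exact_mod_cast hn'
    by_contra hlt
    push Not at hlt
    nlinarith
  · apply HahnSeries.coeff_eq_zero_of_lt_order
    simpa using hk

/-- **`Bt` is `p`-root closed in `k((q))`.** -/
theorem mem_Bt_of_pow_pow_mem (A : ValuationSubring Kb) (M : ℕ) [NeZero M] (p : ℕ)
    [hp : Fact p.Prime] [CharP (kA A) p] (m : ℕ) {X : LaurentSeries (kA A)}
    (hX : X ^ p ^ m ∈ Bt A M) : X ∈ Bt A M := by
  obtain ⟨n, hn⟩ := mem_Bt.1 hX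
  have hF : X ∈ FFb A M := mem_FFb_of_pow_pow_mem A M p m hn.1
  exact mem_Bt.2 (inL_of_pow (pow_pos hp.out.pos m) hF hn)

theorem mem_Bt_of_pow_mem (A : ValuationSubring Kb) (M : ℕ) [NeZero M] (p : ℕ)
    [hp : Fact p.Prime] [CharP (kA A) p] {X : LaurentSeries (kA A)}
    (hX : X ^ p ∈ Bt A M) : X ∈ Bt A M :=
  mem_Bt_of_pow_pow_mem A M p 1 (by simpa using hX)

/-- **`Rt` is `p`-root closed in `Bt × Bt`** (from `SN2Statement` alone). -/
theorem mem_Rt_of_pow_pow_mem {W : FF M ≃ₐ[Kb] FF M} (hSN : SN2Statement M A W) (p : ℕ)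
    [hp : Fact p.Prime] [CharP (kA A) p] (m : ℕ) {y : Bt A M × Bt A M}
    (hy : y ^ p ^ m ∈ Rt A W) : y ∈ Rt A W := by
  haveI : IsAlgClosed (kA A) := Fermat.Agent.P2.helper95.isAlgClosed_residueField A
  obtain ⟨Fr, ℓ, hℓ, hpow, hfinJ, hg1, hg2⟩ := hSN
  have : Module.Finite (kA A) (Bt A M ⧸ frobIdeal Fr) := hfinJ
  exact mem_of_pow_mem_of_graphs Fr ℓ hℓ hpow (Rt A W) hg1 hg2 p m hy

theorem mem_Rt_of_pow_mem {W : FF M ≃ₐ[Kb] FF M} (hSN : SN2Statement M A W) (p : ℕ)
    [hp : Fact p.Prime] [CharP (kA A) p] {y : Bt A M × Bt A M}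
    (hy : y ^ p ∈ Rt A W) : y ∈ Rt A W :=
  mem_Rt_of_pow_pow_mem hSN p 1 (by simpa using hy)

/-- **[FC-INST], combined form**: a pair `(X₁, X₂)` of series of `k((q))` whose `p ^ m`-th
powers are the two components of an element of `Rt` is itself (the pair of components of) an
element of `Rt`. -/
theorem mem_Rt_of_series_pow_mem {W : FF M ≃ₐ[Kb] FF M} (hSN : SN2Statement M A W) (p : ℕ)
    [hp : Fact p.Prime] [CharP (kA A) p] (m : ℕ) {X₁ X₂ : LaurentSeries (kA A)}
    (h : ∃ z ∈ Rt A W, (z.1 : LaurentSeries (kA A)) = X₁ ^ p ^ m ∧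
      (z.2 : LaurentSeries (kA A)) = X₂ ^ p ^ m) :
    ∃ y ∈ Rt A W, (y.1 : LaurentSeries (kA A)) = X₁ ∧ (y.2 : LaurentSeries (kA A)) = X₂ := by
  obtain ⟨z, hz, h1, h2⟩ := h
  have hX₁ : X₁ ∈ Bt A M := mem_Bt_of_pow_pow_mem A M p m (by rw [← h1]; exact z.1.2)
  have hX₂ : X₂ ∈ Bt A M := mem_Bt_of_pow_pow_mem A M p m (by rw [← h2]; exact z.2.2)
  refine ⟨(⟨X₁, hX₁⟩, ⟨X₂, hX₂⟩), ?_, rfl, rfl⟩
  apply mem_Rt_of_pow_pow_mem hSN p m
  have e : ((⟨X₁, hX₁⟩, ⟨X₂, hX₂⟩) : Bt A M × Bt A M) ^ p ^ m = z := by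
    refine Prod.ext (Subtype.ext ?_) (Subtype.ext ?_)
    · change X₁ ^ p ^ m = _
      exact h1.symm
    · change X₂ ^ p ^ m = _
      exact h2.symm
  rw [e]
  exact hz

/-- **[FC-INST], function form** (the shape consumed by the Frobenius regime of the `p`-pivot):
if the reductions of the pair of expansions of a function `f`, regular off the two cusps, are
`p ^ m`-th powers `X₁ ^ p ^ m`, `X₂ ^ p ^ m` of series of `k((q))`, then `(X₁, X₂)` is the pair
of reductions of a function `g` regular off the two cusps with integral pair of expansions. -/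
theorem exists_rep_of_red_eq_pow {W : FF M ≃ₐ[Kb] FF M} (hWW : ∀ f, W (W f) = f)
    (hReg : RegRed2Statement M A W) (hSN : SN2Statement M A W) (p : ℕ)
    [hp : Fact p.Prime] [CharP (kA A) p] (m : ℕ) {f : FF M} {Y₁ Y₂ : LaurentSeries A}
    (hf : IsReg2 W f) (hY : IsRep A W f Y₁ Y₂) {X₁ X₂ : LaurentSeries (kA A)}
    (h1 : red A Y₁ = X₁ ^ p ^ m) (h2 : red A Y₂ = X₂ ^ p ^ m) :
    ∃ (g : FF M) (Z₁ Z₂ : LaurentSeries A), IsReg2 W g ∧ IsRep A W g Z₁ Z₂ ∧
      red A Z₁ = X₁ ∧ red A Z₂ = X₂ := by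
  have hB1 : red A Y₁ ∈ Bt A M := mem_Bt.2 (hReg f Y₁ Y₂ hf hY)
  have hB2 : red A Y₂ ∈ Bt A M := mem_Bt.2 (hReg (W f) Y₂ Y₁ (hf.map hWW) (hY.swap hWW))
  have hz : ((⟨red A Y₁, hB1⟩, ⟨red A Y₂, hB2⟩) : Bt A M × Bt A M) ∈ Rt A W :=
    mem_Rt.2 ⟨f, Y₁, Y₂, hf, hY, rfl, rfl⟩
  obtain ⟨y, hy, e1, e2⟩ := mem_Rt_of_series_pow_mem hSN p m (X₁ := X₁) (X₂ := X₂)
    ⟨_, hz, h1, h2⟩
  obtain ⟨g, Z₁, Z₂, hg, hZ, r1, r2⟩ := mem_Rt.1 hy
  exact ⟨g, Z₁, Z₂, hg, hZ, r1.trans e1, r2.trans e2⟩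

end Fermat.Agent.T7.helper15

end
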