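/-
T7 (S33, box (b)), leaf [FC-INST] (helper15, second prover): the instance at the bad pair and the
hypothesis `hFC` of the Frobenius regime of the `p`-pivot.

* `frobClosed_of`  : the contract of finding #3270 (`FrobClosedStatement`, unfolded) from
  `RegRed2Statement` + `SN2Statement`;
* `hFC_of`         : the hypothesis `hFC` of `T7.helper82.exists_close_of_pow_mem_fam` for
  `V = VN W N`, `V' = VN W (p * N)` (any `V'` of the shape `VN W N'` in fact), for all large `N`;
* `frobClosed_bad`, `hFC_bad` : the instances at level `N * p`, `N` good, `p ∤ N`, `A | p`,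
  `W = atkinLehner N p` — UNCONDITIONAL.
-/
import Mathlib
import Fermat.Agent.T7.helper15_FCInst
import Fermat.Agent.T2.helper74_Pivot2
import Fermat.Agent.T2.helper72_SNGood
import Fermat.Agent.T2.helper87_RegRed2U
import Fermat.Agent.T2.helper96_Sat
import Fermat.Agent.P2.helper93_ESRed

set_option autoImplicit false
set_option linter.unusedSectionVars false
set_option linter.style.haveILetI false
set_option synthInstance.maxHeartbeats 400000

noncomputable section

namespace Fermat.Agent.T7.helper15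

open HahnSeries IntermediateField AlgebraicCurve ModularCurve
open Fermat.Agent.S18.helper19 Fermat.Agent.P2.helper29 Fermat.Agent.P2.helper22
open Fermat.Agent.T2.helper22 Fermat.Agent.T2.helper74 Fermat.Agent.T2.helper36

section General

variable {M : ℕ} [NeZero M] {A : ValuationSubring Kb} {W : FF M ≃ₐ[Kb] FF M}

/-- **[FC-INST]**, contract shape of finding #3270 (`FrobClosedStatement M A W p`, unfolded):
arbitrary pairs of series over `k` whose `p`-th powers are the reductions of an integral pair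
regular off the cusps are themselves such reductions. -/
theorem frobClosed_of (hWW : ∀ f, W (W f) = f) (hReg : RegRed2Statement M A W)
    (hSN : SN2Statement M A W) (p : ℕ) [hp : Fact p.Prime] [CharP (kA A) p] :
    ∀ y₁ y₂ : LaurentSeries (kA A),
      (∃ (f : FF M) (Y₁ Y₂ : LaurentSeries A), IsReg2 W f ∧ IsRep A W f Y₁ Y₂ ∧
        red A Y₁ = y₁ ^ p ∧ red A Y₂ = y₂ ^ p) →
      ∃ (g : FF M) (Z₁ Z₂ : LaurentSeries A), IsReg2 W g ∧ IsRep A W g Z₁ Z₂ ∧
        red A Z₁ = y₁ ∧ red A Z₂ = y₂ := by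
  rintro y₁ y₂ ⟨f, Y₁, Y₂, hf, hY, h1, h2⟩
  exact exists_rep_of_red_eq_pow hWW hReg hSN p 1 hf hY (by simpa using h1) (by simpa using h2)

/-- **the hypothesis `hFC` of the Frobenius regime** (`T7.helper82.exists_close_of_pow_mem_fam`)
for the pair of cusps: for all large `N` and every `N'`, an integral pair `Z` with pole orders
`≤ N` whose reduction has `p ^ m`-th power in the reduction of `VN W N'` has its reduction in
the reduction of `VN W N`. -/
theorem hFC_of (hWW : ∀ f, W (W f) = f) (hne : inftyBar M ≠ W • inftyBar M)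
    (hReg : RegRed2Statement M A W) (hSat : Sat2Statement M A W) (hSN : SN2Statement M A W)
    (p : ℕ) [hp : Fact p.Prime] [CharP (kA A) p] (m : ℕ) :
    ∃ N₀ : ℤ, ∀ N : ℤ, N₀ ≤ N → ∀ N' : ℤ, ∀ Φ Z : Fin 2 → LaurentSeries A,
      famMap A.subtype Φ ∈ VN W N' → (∀ i, ∀ j < -N, (Z i).coeff j = 0) →
      famMap (IsLocalRing.residue A) Φ = famMap (IsLocalRing.residue A) Z ^ p ^ m →
      ∃ Z' : Fin 2 → LaurentSeries A, famMap A.subtype Z' ∈ VN W N ∧
        famMap (IsLocalRing.residue A) Z' = famMap (IsLocalRing.residue A) Z := by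
  obtain ⟨N₀, hN₀⟩ := hSat
  refine ⟨N₀, fun N hN N' Φ Z hΦ hZ hred => ?_⟩
  obtain ⟨F, hF1, -, -, hF4⟩ := (mem_VN_iff W hWW hne N' _).mp hΦ
  rw [pairLin_eq_iff] at hF4
  have hrep : IsRep A W F (Φ 0) (Φ 1) := ⟨hF4.1.symm, hF4.2.symm⟩
  have h0 : red A (Φ 0) = red A (Z 0) ^ p ^ m := congrFun hred 0
  have h1 : red A (Φ 1) = red A (Z 1) ^ p ^ m := congrFun hred 1
  obtain ⟨g, Z₁, Z₂, hg, hgrep, r1, r2⟩ :=
    exists_rep_of_red_eq_pow hWW hReg hSN p m (isReg2_of_regOff2 hF1) hrep h0 h1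
  have hc : ∀ i : Fin 2, ∀ k : ℤ, k < -N → (red A (Z i)).coeff k = 0 := by
    intro i k hk
    show (coeffMap (IsLocalRing.residue A) (Z i)).coeff k = 0
    rw [coeffMap_coeff, hZ i k hk, map_zero]
  obtain ⟨f', Z₁', Z₂', hf'1, hf'2, hf'3, hf'4, hf'5, hf'6⟩ := hN₀ N hN g Z₁ Z₂ hg hgrep
    (by rw [r1]; exact hc 0) (by rw [r2]; exact hc 1)
  refine ⟨![Z₁', Z₂'], ?_, ?_⟩
  · rw [mem_VN_iff W hWW hne]
    refine ⟨f', regOff2_of_isReg2 hf'1, ?_, ?_, ?_⟩
    · intro k hk
      rw [← hf'2.1]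
      show (coeffMap A.subtype Z₁').coeff k = 0
      rw [coeffMap_coeff, hf'3 k hk, map_zero]
    · intro k hk
      rw [← hf'2.2]
      show (coeffMap A.subtype Z₂').coeff k = 0
      rw [coeffMap_coeff, hf'4 k hk, map_zero]
    · rw [pairLin_eq_iff]
      exact ⟨hf'2.1.symm, hf'2.2.symm⟩
  · funext i
    fin_cases i
    · exact hf'5.trans r1
    · exact hf'6.trans r2

end General

section Bad

variable (N p : ℕ) [NeZero N] [NeZero p] (hp : p.Prime) (hpN : ¬ p ∣ N)

/-- **[FC-INST] at the bad pair, UNCONDITIONAL** (contract of finding #3270, unfolded). -/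
theorem frobClosed_bad (hN : 4 ∣ N ∨ 9 ∣ N) (A : ValuationSubring Kb)
    (hA : A.LiesOverPrime p) :
    ∀ y₁ y₂ : LaurentSeries (kA A),
      (∃ (f : FF (N * p)) (Y₁ Y₂ : LaurentSeries A), IsReg2 (atkinLehner N p hp hpN) f ∧
        IsRep A (atkinLehner N p hp hpN) f Y₁ Y₂ ∧ red A Y₁ = y₁ ^ p ∧ red A Y₂ = y₂ ^ p) →
      ∃ (g : FF (N * p)) (Z₁ Z₂ : LaurentSeries A), IsReg2 (atkinLehner N p hp hpN) g ∧
        IsRep A (atkinLehner N p hp hpN) g Z₁ Z₂ ∧ red A Z₁ = y₁ ∧ red A Z₂ = y₂ := by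
  have : Fact p.Prime := ⟨hp⟩
  have : CharP (kA A) p := Fermat.Agent.P2.helper93.charP_residueField hp hA
  exact frobClosed_of (atkinLehner_atkinLehner N p hp hpN)
    (Fermat.Agent.T2.helper87.regRed2_holds N p hp hpN A hA)
    (Fermat.Agent.T2.helper72.sn2Statement_good hp hpN A hA hN) p

/-- **the hypothesis `hFC` of the Frobenius regime at the bad pair, UNCONDITIONAL.** -/
theorem hFC_bad (hN : 4 ∣ N ∨ 9 ∣ N) (A : ValuationSubring Kb) (hA : A.LiesOverPrime p)
    (m : ℕ) :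
    ∃ N₀ : ℤ, ∀ N₁ : ℤ, N₀ ≤ N₁ → ∀ N' : ℤ, ∀ Φ Z : Fin 2 → LaurentSeries A,
      famMap A.subtype Φ ∈ VN (atkinLehner N p hp hpN) N' →
      (∀ i, ∀ j < -N₁, (Z i).coeff j = 0) →
      famMap (IsLocalRing.residue A) Φ = famMap (IsLocalRing.residue A) Z ^ p ^ m →
      ∃ Z' : Fin 2 → LaurentSeries A, famMap A.subtype Z' ∈ VN (atkinLehner N p hp hpN) N₁ ∧
        famMap (IsLocalRing.residue A) Z' = famMap (IsLocalRing.residue A) Z := by
  have : Fact p.Prime := ⟨hp⟩
  have : CharP (kA A) p := Fermat.Agent.P2.helper93.charP_residueField hp hA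
  exact hFC_of (atkinLehner_atkinLehner N p hp hpN)
    (Fermat.Agent.T2.helper74.inftyBar_ne_smul N p hp hpN)
    (Fermat.Agent.T2.helper87.regRed2_holds N p hp hpN A hA)
    (Fermat.Agent.T2.helper96.sat2 N p hp hpN A
      (Fermat.Agent.T2.helper72.surjRed_good hp hpN A hA hN))
    (Fermat.Agent.T2.helper72.sn2Statement_good hp hpN A hA hN) p m

end Bad

end Fermat.Agent.T7.helper15

end
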