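import Fermat.Agent.T7.helper2_RamT0
import Fermat.Agent.T7.helper27_G1Asm

/-!
# T7 / S33, leaf [KUM-END] (helper20, twin): (G1) in OPERATOR form on `J₀(N p)`

Kummer dictionary (P2 `helper93_CoreWire`): a class `x = [D]` killed by `n` has a Kummer
generator `u` (`n • D = div u`); `σ • x` has the generator `galF σ u`.

* `smul_eq_nsmul_of_kummer` : **generic end** (any level `M`, any `n ≠ 0`): if
  `galF σ u = c · v ^ n · u ^ a`, then `σ • x = a • x`.
* `IsNewT0 N p hp hpN A IsNewQ y` : the class `y` has a Kummer generator `u` at exponent `p`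
  which is `≡ 1` for both Gauss valuations AND satisfies `IsNewQ u`.
* `IsNewT0.isT0` : such a class lies in `helper2.t0 … p`.
* `kumEnd` : **[KUM-END]** from `helper27.T0InertOmegaStatement`: every `σ` in the inertia group
  of `A` acting on `μ_p` by `z ↦ z ^ a` acts on the classes `IsNewT0` by the scalar `a`.
* `kumEnd_of_forall` : the same when EVERY Kummer generator with reduction `(1,1)` of a class of
  a subgroup `Z ≤ t0` is new (the shape consumed by `helper51.NUQ.of_scalar`).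
* `kumEnd_bad` : at the bad pair from [B3], [B4] (`helper27.t0InertOmega_bad`).
-/

set_option autoImplicit false
set_option linter.unusedSectionVars false
set_option linter.unusedVariables false
set_option linter.style.longLine false

noncomputable section

open HahnSeries IntermediateField AlgebraicCurve ModularCurve

namespace Fermat.Agent.T7.helper20

open Fermat.Agent.S18.helper19 Fermat.Agent.P2.helper29 Fermat.Agent.P2.helper93
open Fermat.Agent.T2 Fermat.Agent.T2.helper20 Fermat.Agent.T2.helper36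

/-! ### The generic end -/

section Generic

variable {M : ℕ}

/-- **Generic Kummer end**: if the Kummer generator `u` of `x = [D]` (exponent `n ≠ 0`)
satisfies `galF σ u = c · v ^ n · u ^ a`, then `σ • x = a • x`. -/
theorem smul_eq_nsmul_of_kummer (σ : Kb ≃ₐ[ℚ] Kb) {n : ℕ} (hn : n ≠ 0)
    {D : Divisor.degZero (K := Kb) (F := FF M)} {u : FF M}
    (H : IsRootDiv n (D : Divisor Kb (FF M)) u) (a : ℕ) (c : Kb) (v : FF M)
    (huv : galF M σ u = algebraMap Kb (FF M) c * v ^ n * u ^ a) :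
    σ • (Pic0.mk D : JZero M) = a • (Pic0.mk D : JZero M) := by
  obtain ⟨D1, e1, H1⟩ := kum_galois (M := M) σ H
  have hu0 : u ≠ 0 := H.1
  have hσu0 : galF M σ u ≠ 0 := H1.1
  have hc0 : c ≠ 0 := by
    rintro rfl
    rw [map_zero, zero_mul, zero_mul] at huv
    exact hσu0 huv
  have hv0 : v ≠ 0 := by
    rintro rfl
    rw [zero_pow hn, mul_zero, zero_mul] at huv
    exact hσu0 huv
  have key : Pic0.mk (D1 - a • D : Divisor.degZero (K := Kb) (F := FF M)) = 0 := by
    refine kum_mk_eq_zero_of_ord hv0 (fun P => ?_)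
    have o1 := congrArg P.ord huv
    rw [P.ord_mul (mul_ne_zero ((map_ne_zero _).mpr hc0) (pow_ne_zero _ hv0))
      (pow_ne_zero _ hu0), ord_const_mul' P hc0 (pow_ne_zero _ hv0), ord_pow', ord_pow',
      ← H1.2 P, ← H.2 P] at o1
    have hn' : ((n : ℕ) : ℤ) ≠ 0 := Nat.cast_ne_zero.mpr hn
    have e6 : ((D1 - a • D : Divisor.degZero (K := Kb) (F := FF M)) : Divisor Kb (FF M)) P
        = (D1 : Divisor Kb (FF M)) P - (a : ℤ) * (D : Divisor Kb (FF M)) P := by
      rw [AddSubgroup.coe_sub, AddSubgroup.coe_nsmul, Finsupp.sub_apply, Finsupp.smul_apply,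
        nsmul_eq_mul]
    rw [e6]
    apply mul_left_cancel₀ hn'
    linear_combination o1
  rw [e1]
  have key' : (Pic0.mk D1 : JZero M) - a • (Pic0.mk D : JZero M) = 0 := key
  exact sub_eq_zero.mp key'

end Generic

/-! ### The bad pair -/

section Bad

variable (N p : ℕ) [NeZero N] [NeZero p] (hp : p.Prime) (hpN : ¬ p ∣ N)
  (A : ValuationSubring Kb) (IsNewQ : FF (N * p) → Prop)

/-- `y` is a NEW class of the kernel of reduction at exponent `p`: it has a Kummer generator
`u` (`p • D = div u`, `[D] = y`) with `u ≡ 1` for both Gauss valuations and `IsNewQ u`. -/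
def IsNewT0 (y : JZero (N * p)) : Prop :=
  ∃ (D : Divisor.degZero (K := Kb) (F := FF (N * p))) (u : FF (N * p)),
    (Pic0.mk D : JZero (N * p)) = y ∧ IsRootDiv p (D : Divisor Kb (FF (N * p))) u ∧
      IsRedOne A (N * p) (u : LaurentSeries Kb) ∧
      IsRedOne A (N * p) ((atkinLehner N p hp hpN u : FF (N * p)) : LaurentSeries Kb) ∧
      IsNewQ u

variable {N p hp hpN A IsNewQ}

theorem IsNewT0.isT0 {y : JZero (N * p)} (hy : IsNewT0 N p hp hpN A IsNewQ y) :
    Fermat.Agent.T7.helper2.IsT0 N p hp hpN A p y := by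
  obtain ⟨D, u, e, H, r1, r2, -⟩ := hy
  exact ⟨D, u, e, H, r1, r2⟩

theorem IsNewT0.nsmul_eq_zero {y : JZero (N * p)} (hy : IsNewT0 N p hp hpN A IsNewQ y) :
    p • y = 0 :=
  hy.isT0.nsmul_eq_zero

/-- **[KUM-END]**: (G1) in operator form.  If `T0InertOmegaStatement` holds, every `σ` in the
inertia group of `A` with `σ z = z ^ a` on `μ_p` acts on the new classes of the kernel of
reduction (exponent `p`) by the scalar `a`. -/
theorem kumEnd
    (hG1 : Fermat.Agent.T7.helper27.T0InertOmegaStatement (N * p) (atkinLehner N p hp hpN) A p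
      IsNewQ)
    {σ : Kb ≃ₐ[ℚ] Kb} (hσ : σ ∈ A.inertiaSubgroupIn ℚ) (a : ℕ)
    (ha : ∀ z : Kb, z ^ p = 1 → σ z = z ^ a)
    {y : JZero (N * p)} (hy : IsNewT0 N p hp hpN A IsNewQ y) : σ • y = a • y := by
  obtain ⟨D, u, rfl, H, r1, r2, hnew⟩ := hy
  have hdiv : ∀ P : Place Kb (FF (N * p)), (p : ℤ) ∣ P.ord u := fun P =>
    ⟨(D : Divisor Kb (FF (N * p))) P, (H.2 P).symm⟩
  obtain ⟨c, v, hcv⟩ := hG1 u H.1 hdiv r1 r2 hnew σ hσ a ha
  exact smul_eq_nsmul_of_kummer σ hp.ne_zero H a c v hcv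

/-- **[KUM-END]**, subgroup form: if every Kummer generator with reduction `(1,1)` of every
class of `Z` is new, the inertia acts on `Z` by the scalar `a` (`Z` is then killed by `p`). -/
theorem kumEnd_of_forall
    (hG1 : Fermat.Agent.T7.helper27.T0InertOmegaStatement (N * p) (atkinLehner N p hp hpN) A p
      IsNewQ)
    (Z : AddSubgroup (JZero (N * p)))
    (hZ0 : ∀ y ∈ Z, Fermat.Agent.T7.helper2.IsT0 N p hp hpN A p y)
    (hZnew : ∀ y ∈ Z, ∀ (D : Divisor.degZero (K := Kb) (F := FF (N * p))) (u : FF (N * p)),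
      (Pic0.mk D : JZero (N * p)) = y → IsRootDiv p (D : Divisor Kb (FF (N * p))) u → IsNewQ u)
    {σ : Kb ≃ₐ[ℚ] Kb} (hσ : σ ∈ A.inertiaSubgroupIn ℚ) (a : ℕ)
    (ha : ∀ z : Kb, z ^ p = 1 → σ z = z ^ a) :
    ∀ y ∈ Z, σ • y = a • y := by
  intro y hy
  obtain ⟨D, u, e, H, r1, r2⟩ := hZ0 y hy
  exact kumEnd hG1 hσ a ha ⟨D, u, e, H, r1, r2, hZnew y hy D u e H⟩

/-- **[KUM-END]** at the bad pair from [B3] and [B4]. -/
theorem kumEnd_bad (hN : 4 ∣ N ∨ 9 ∣ N) (hA : A.LiesOverPrime p)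
    (hNew : ∀ u G : FF (N * p), G ≠ 0 → IsNewQ u → IsNewQ (G ^ p * u))
    (hB3 : Fermat.Agent.T7.helper27.B3Statement (N * p) (atkinLehner N p hp hpN) A p IsNewQ)
    (hB4 : Fermat.Agent.T7.helper27.B4Statement (N * p) (atkinLehner N p hp hpN) A p)
    {σ : Kb ≃ₐ[ℚ] Kb} (hσ : σ ∈ A.inertiaSubgroupIn ℚ) (a : ℕ)
    (ha : ∀ z : Kb, z ^ p = 1 → σ z = z ^ a)
    {y : JZero (N * p)} (hy : IsNewT0 N p hp hpN A IsNewQ y) : σ • y = a • y :=
  kumEnd (Fermat.Agent.T7.helper27.t0InertOmega_bad N p hp hpN hN A hA hNew hB3 hB4) hσ a ha hy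

end Bad

end Fermat.Agent.T7.helper20

end
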