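import Mathlib
import Fermat.Agent.T7.helper22_AttNF
import Fermat.Agent.T7.helper88_B4InstBad

/-!
# T7 (helper22): leaf [ATT], the hypothesis `hatt` of (L1) at the pair, and (L1) unconditional

* `hatt_pair` : for `Z₁, Z₂` integral formal `p`-th roots of the two expansions of `H ∈ FF M`
  and `u ∈ FF M` regular off the two cusps: the content of `(Z₁, Z₂) - pairLin W u` is attained
  (shape of `hatt` in `helper88.exists_close_pair'` / `exists_close_bad`);
* `hatt_bad` : the same at the bad pair, unconditional;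
* `exists_close_bad_att` : (L1) at the bad pair with `hatt` discharged.
-/

set_option autoImplicit false
set_option synthInstance.maxHeartbeats 400000
set_option linter.unusedSectionVars false
set_option linter.unusedVariables false

noncomputable section

open HahnSeries IntermediateField AlgebraicCurve ModularCurve
open Fermat.Agent.S18.helper19 Fermat.Agent.P2.helper29
open Fermat.Agent.P2.helper22 Fermat.Agent.P2.helper74
open Fermat.Agent.T2.helper74 Fermat.Agent.T2.helper36

namespace Fermat.Agent.T7.helper22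

section Pair

variable {M : ℕ} [NeZero M] {W : FF M ≃ₐ[Kb] FF M} {A : ValuationSubring Kb}

/-- **[ATT]** the hypothesis `hatt` of the Frobenius regime at the pair. -/
theorem hatt_pair (hWW : ∀ f, W (W f) = f) (hPN : PairNormStatement W A)
    (hInt : Fermat.Agent.T2.helper22.Integrality2Statement M A W) {p : ℕ} (hp : 0 < p)
    (H : FF M) (Z₁ Z₂ : LaurentSeries A)
    (h1 : incl A Z₁ ^ p = (H : LaurentSeries Kb))
    (h2 : incl A Z₂ ^ p = ((W H : FF M) : LaurentSeries Kb)) :
    ∀ u : FF M, RegOff2 W u → famMap A.subtype ![Z₁, Z₂] - pairLin W u ≠ 0 →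
      ContentAttainedFam A (IsLocalRing.residue A)
        (famMap A.subtype ![Z₁, Z₂] - pairLin W u) := by
  intro u hu hne
  refine contentAttained_sub_of_roots M A (IsLocalRing.residue A)
    (fun x hx => by
      by_contra h
      exact hx ((IsLocalRing.residue_eq_zero_iff x).2 ((IsLocalRing.mem_maximalIdeal x).2 h)))
    hp ![Z₁, Z₂] ?_ (pairLin W u) ?_ ?_ hne
  · intro i
    fin_cases i
    · change incl A Z₁ ^ p ∈ FF M
      rw [h1]
      exact H.2
    · change incl A Z₂ ^ p ∈ FF M
      rw [h2]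
      exact (W H).2
  · intro i
    fin_cases i
    · exact u.2
    · exact (W u).2
  · intro hu0
    have hune : u ≠ 0 := by
      rintro rfl
      exact hu0 (map_zero _)
    exact contentAttained_pair hWW hPN hInt u hune hu

end Pair

section Bad

variable (N p : ℕ) [NeZero N] [NeZero p] (hp : p.Prime) (hpN : ¬ p ∣ N)

/-- **[ATT]** at the bad pair, unconditional. -/
theorem hatt_bad (A : ValuationSubring Kb) (hA : A.LiesOverPrime p)
    (H : FF (N * p)) (Z₁ Z₂ : LaurentSeries A)
    (h1 : incl A Z₁ ^ p = (H : LaurentSeries Kb))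
    (h2 : incl A Z₂ ^ p = ((atkinLehner N p hp hpN H : FF (N * p)) : LaurentSeries Kb)) :
    ∀ u : FF (N * p), RegOff2 (atkinLehner N p hp hpN) u →
      famMap A.subtype ![Z₁, Z₂] - pairLin (atkinLehner N p hp hpN) u ≠ 0 →
      ContentAttainedFam A (IsLocalRing.residue A)
        (famMap A.subtype ![Z₁, Z₂] - pairLin (atkinLehner N p hp hpN) u) :=
  hatt_pair (atkinLehner_atkinLehner N p hp hpN) (pairNorm_bad N p hp hpN A hA)
    (Fermat.Agent.T2.helper45.integrality2Statement N p hp hpN A) hp.pos H Z₁ Z₂ h1 h2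

/-- **(L1) at the bad pair, unconditional**: the pair of integral formal `p`-th roots of
reduction `(1, 1)` of a function regular off the two cusps is `l`-close to the pair of
expansions of a function regular off the two cusps (`p = l ^ (p - 1) * τ`). -/
theorem exists_close_bad_att (hN : 4 ∣ N ∨ 9 ∣ N) (A : ValuationSubring Kb)
    (hA : A.LiesOverPrime p) (l τ : A) (hl : (p : A) = l ^ (p - 1) * τ)
    (H : FF (N * p)) (hH : RegOff2 (atkinLehner N p hp hpN) H) (Z₁ Z₂ : LaurentSeries A)
    (h1 : incl A Z₁ ^ p = (H : LaurentSeries Kb))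
    (h2 : incl A Z₂ ^ p = ((atkinLehner N p hp hpN H : FF (N * p)) : LaurentSeries Kb))
    (hr1 : red A Z₁ = 1) (hr2 : red A Z₂ = 1) :
    ∃ (U : FF (N * p)) (U₁ U₂ E₁ E₂ : LaurentSeries A), RegOff2 (atkinLehner N p hp hpN) U ∧
      Fermat.Agent.T2.helper22.IsRep A (atkinLehner N p hp hpN) U U₁ U₂ ∧
      red A U₁ = 1 ∧ red A U₂ = 1 ∧ Z₁ - U₁ = l • E₁ ∧ Z₂ - U₂ = l • E₂ :=
  Fermat.Agent.T7.helper88.exists_close_bad N p hp hpN hN A hA l τ hl H hH Z₁ Z₂ h1 h2 hr1 hr2
    (hatt_bad N p hp hpN A hA H Z₁ Z₂ h1 h2)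

end Bad

end Fermat.Agent.T7.helper22
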