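import Mathlib
import Fermat.Agent.T2.helper74_RootEndInst
import Fermat.Agent.T2.helper22_PairIdealInst
import Fermat.Agent.T2.helper20_Kum
import Fermat.Agent.T2.helper72_Asm34
import Fermat.Agent.T7.helper15_FCInst
import Fermat.Agent.T7.helper27_G1Asm
import Fermat.Agent.T7.helper84_PPow
import Fermat.Agent.T7.helper96_Twist

/-!
# T7 (S33), leaf [B4-ASM] (helper96): `B4Statement` from the monoid trick

`b4_of` : `helper27.B4Statement M W A p` (inertia acts by the scalar `ω` on the strongly split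
classes, Kummer form) for an involution `W` commuting with Galois, from the T2 inputs at the
pair `(M, A)` (`PairNormStatement`, `Integrality2Statement`, `RegRed2Statement`,
`Sat2Statement`, `SN2Statement`) and ONE open hypothesis

* `AttStatement M W A p` : attained content of `(Z₁, Z₂) - u`, `u ∈ VN W N`, for the pair of
  integral formal `p`-th roots of a strongly split function (leaf [ATT]).

`b4_bad` : the instance at the bad pair `(N * p, atkinLehner N p)`, `4 ∣ N ∨ 9 ∣ N`.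

Proof = `helper96.mem_of_twist` (abstract monoid trick) for the families over `Fin 2`,
`V = VN W N₀`, `V' = VN W (p N₀)`, `V₂ = VN W ((p - a + 1) N₀)`, `V₂' = VN W (p (p - a + 1) N₀)`.
-/

set_option autoImplicit false
set_option linter.unusedSectionVars false
set_option linter.unusedVariables false
set_option linter.style.haveILetI false
set_option synthInstance.maxHeartbeats 400000

noncomputable section

namespace Fermat.Agent.T7.helper96

open HahnSeries IntermediateField AlgebraicCurve ModularCurve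
open Fermat.Agent.S18.helper19 Fermat.Agent.P2.helper29 Fermat.Agent.P2.helper93
open Fermat.Agent.P2.helper22 Fermat.Agent.P2.helper74
open Fermat.Agent.T2 Fermat.Agent.T2.helper74

/-- **[ATT]** attained content of `(Z₁, Z₂) - u` for the pair of integral formal `p`-th roots of
a function `K` which is regular off the two cusps with reduction `(1, 1)`. -/
def AttStatement (M : ℕ) [NeZero M] (W : FF M ≃ₐ[Kb] FF M) (A : ValuationSubring Kb) (p : ℕ) :
    Prop :=
  ∀ (N : ℤ) (K : FF M) (Z₁ Z₂ : LaurentSeries A), IsA0One M W A K →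
    incl A Z₁ ^ p = (K : LaurentSeries Kb) →
    incl A Z₂ ^ p = ((W K : FF M) : LaurentSeries Kb) → red A Z₁ = 1 → red A Z₂ = 1 →
    ∀ u ∈ VN W N, famMap A.subtype ![Z₁, Z₂] - u ≠ 0 →
      ContentAttainedFam A (IsLocalRing.residue A) (famMap A.subtype ![Z₁, Z₂] - u)

section Generic

variable {M : ℕ} [NeZero M] (W : FF M ≃ₐ[Kb] FF M) (A : ValuationSubring Kb)

theorem coeff_mul_eq_zero_of_bounds {x y : LaurentSeries Kb} {N N' : ℤ}
    (hx : ∀ k : ℤ, k < -N → x.coeff k = 0) (hy : ∀ k : ℤ, k < -N' → y.coeff k = 0)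
    (k : ℤ) (hk : k < -(N + N')) : (x * y).coeff k = 0 := by
  rcases eq_or_ne x 0 with rfl | hx0
  · rw [zero_mul]; rfl
  rcases eq_or_ne y 0 with rfl | hy0
  · rw [mul_zero]; rfl
  have h1 := (coeff_eq_zero_iff_le_order hx0).mp hx
  have h2 := (coeff_eq_zero_iff_le_order hy0).mp hy
  apply HahnSeries.coeff_eq_zero_of_lt_order
  rw [order_mul_field hx0 hy0]
  omega

theorem pairLin_mul (f g : FF M) : pairLin W (f * g) = pairLin W f * pairLin W g := by
  rw [pairLin_eq_iff]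
  refine ⟨?_, ?_⟩
  · rw [Pi.mul_apply, pairLin_zero', pairLin_zero']
    rfl
  · rw [Pi.mul_apply, pairLin_one', pairLin_one', map_mul]
    rfl

theorem pairLin_one : pairLin W (1 : FF M) = 1 := by
  rw [pairLin_eq_iff]
  refine ⟨rfl, ?_⟩
  rw [map_one]
  rfl

variable (hWW : ∀ f, W (W f) = f) (hne : inftyBar M ≠ W • inftyBar M)

include hWW hne in
theorem one_mem_VN {N : ℤ} (hN : 0 ≤ N) : (1 : Fin 2 → LaurentSeries Kb) ∈ VN W N := by
  rw [mem_VN_iff W hWW hne]
  refine ⟨1, RegOff2.one W, fun k hk => ?_, fun k hk => ?_, pairLin_one W⟩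
  · have hk' : k ≠ 0 := by omega
    show (1 : LaurentSeries Kb).coeff k = 0
    rw [HahnSeries.coeff_one, if_neg hk']
  · have hk' : k ≠ 0 := by omega
    rw [map_one]
    show (1 : LaurentSeries Kb).coeff k = 0
    rw [HahnSeries.coeff_one, if_neg hk']

include hWW hne in
theorem att_VN (hPN : PairNormStatement W A)
    (hInt : Fermat.Agent.T2.helper22.Integrality2Statement M A W) (N : ℤ) :
    ∀ u ∈ VN W N, u ≠ 0 → ContentAttainedFam A (IsLocalRing.residue A) u := by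
  intro u hu hu0
  obtain ⟨f, hf1, -, -, rfl⟩ := (mem_VN_iff W hWW hne N u).mp hu
  have hf0 : f ≠ 0 := by
    rintro rfl
    exact hu0 (map_zero _)
  exact contentAttained_pair hWW hPN hInt f hf0 hf1

include hWW hne in
theorem ord_VN (N : ℤ) :
    ∀ u ∈ VN W N, ∀ i : Fin 2, ∀ j < -N, (u i).coeff j = 0 := by
  intro u hu i j hj
  obtain ⟨f, -, hf2, hf3, rfl⟩ := (mem_VN_iff W hWW hne N u).mp hu
  fin_cases i
  · exact hf2 j hj
  · exact hf3 j hj

include hWW hne in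
theorem pow_VN (N : ℤ) (n : ℕ) : ∀ u ∈ VN W N, u ^ n ∈ VN W (n * N) := by
  intro u hu
  obtain ⟨f, hf, rfl⟩ := Submodule.mem_map.mp hu
  rw [← pairLin_pow]
  exact Submodule.mem_map_of_mem (pow_mem_L2 W hWW hne N hf n)

include hWW hne in
theorem mul_VN (N N' : ℤ) {u v : Fin 2 → LaurentSeries Kb} (hu : u ∈ VN W N)
    (hv : v ∈ VN W N') : u * v ∈ VN W (N + N') := by
  obtain ⟨f, hf1, hf2, hf3, rfl⟩ := (mem_VN_iff W hWW hne N u).mp hu
  obtain ⟨g, hg1, hg2, hg3, rfl⟩ := (mem_VN_iff W hWW hne N' v).mp hv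
  rw [mem_VN_iff W hWW hne]
  refine ⟨f * g, hf1.mul W hg1, ?_, ?_, pairLin_mul W f g⟩
  · intro k hk
    exact coeff_mul_eq_zero_of_bounds hf2 hg2 k hk
  · intro k hk
    rw [map_mul]
    exact coeff_mul_eq_zero_of_bounds hf3 hg3 k hk

include hWW hne in
/-- reductions of integral elements of `VN W N₁` with pole orders `≤ N₂` lift to `VN W N₂`. -/
theorem red_VN (hSat : Fermat.Agent.T2.helper22.Sat2Statement M A W) :
    ∃ N₀ : ℤ, ∀ N₁ N₂ : ℤ, N₀ ≤ N₂ → ∀ Z : Fin 2 → LaurentSeries A,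
      famMap A.subtype Z ∈ VN W N₁ →
      (∀ i, ∀ j < -N₂, (famMap (IsLocalRing.residue A) Z i).coeff j = 0) →
      ∃ Z' : Fin 2 → LaurentSeries A, famMap A.subtype Z' ∈ VN W N₂ ∧
        famMap (IsLocalRing.residue A) Z' = famMap (IsLocalRing.residue A) Z := by
  obtain ⟨N₀, hN₀⟩ := hSat
  refine ⟨N₀, fun N₁ N₂ hN Z hZ hZred => ?_⟩
  obtain ⟨F, hF1, -, -, hF4⟩ := (mem_VN_iff W hWW hne N₁ _).mp hZ
  rw [pairLin_eq_iff] at hF4
  obtain ⟨f', Z₁', Z₂', hf'1, hf'2, hf'3, hf'4, hf'5, hf'6⟩ := hN₀ N₂ hN F (Z 0) (Z 1)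
    (isReg2_of_regOff2 hF1) ⟨hF4.1.symm, hF4.2.symm⟩ (hZred 0) (hZred 1)
  refine ⟨![Z₁', Z₂'], ?_, ?_⟩
  · rw [mem_VN_iff W hWW hne]
    refine ⟨f', regOff2_of_isReg2 hf'1, ?_, ?_, ?_⟩
    · intro k hk
      rw [← hf'2.1]
      show (coeffMap A.subtype Z₁').coeff k = 0
      rw [coeffMap_coeff, hf'3 k hk, map_zero]
    · intro k hk
      rw [← hf'2.2]
      show (coeffMap A.subtype Z₂').coeff k = 0
      rw [coeffMap_coeff, hf'4 k hk, map_zero]
    · rw [pairLin_eq_iff]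
      exact ⟨hf'2.1.symm, hf'2.2.symm⟩
  · funext i
    fin_cases i
    · exact hf'5
    · exact hf'6

include hWW hne in
/-- **(FC)** in family form, from the function form of [FC-INST] and `Sat2Statement`. -/
theorem fc_VN (p : ℕ) [Fact p.Prime] [CharP (kA A) p]
    (hReg : Fermat.Agent.T2.helper22.RegRed2Statement M A W)
    (hSat : Fermat.Agent.T2.helper22.Sat2Statement M A W)
    (hSN : Fermat.Agent.T2.helper22.SN2Statement M A W) :
    ∃ N₀ : ℤ, ∀ N N' : ℤ, N₀ ≤ N → ∀ Φ Z : Fin 2 → LaurentSeries A,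
      famMap A.subtype Φ ∈ VN W N' → (∀ i, ∀ j < -N, (Z i).coeff j = 0) →
      famMap (IsLocalRing.residue A) Φ = famMap (IsLocalRing.residue A) Z ^ p →
      ∃ Z' : Fin 2 → LaurentSeries A, famMap A.subtype Z' ∈ VN W N ∧
        famMap (IsLocalRing.residue A) Z' = famMap (IsLocalRing.residue A) Z := by
  obtain ⟨N₀, hN₀⟩ := hSat
  refine ⟨N₀, fun N N' hN Φ Z hΦ hZord hΦZ => ?_⟩
  obtain ⟨F, hF1, -, -, hF4⟩ := (mem_VN_iff W hWW hne N' _).mp hΦ
  rw [pairLin_eq_iff] at hF4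
  have hrep : Fermat.Agent.T2.helper22.IsRep A W F (Φ 0) (Φ 1) := ⟨hF4.1.symm, hF4.2.symm⟩
  have e0 : red A (Φ 0) = red A (Z 0) ^ p ^ 1 := by
    rw [pow_one]
    exact congrFun hΦZ 0
  have e1 : red A (Φ 1) = red A (Z 1) ^ p ^ 1 := by
    rw [pow_one]
    exact congrFun hΦZ 1
  obtain ⟨g, Y₁, Y₂, hg, hY, r1, r2⟩ := Fermat.Agent.T7.helper15.exists_rep_of_red_eq_pow hWW
    hReg hSN p 1 (isReg2_of_regOff2 hF1) hrep e0 e1
  have b1 : ∀ k : ℤ, k < -N → (red A Y₁).coeff k = 0 := by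
    intro k hk
    rw [r1]
    show (coeffMap (IsLocalRing.residue A) (Z 0)).coeff k = 0
    rw [coeffMap_coeff, hZord 0 k hk, map_zero]
  have b2 : ∀ k : ℤ, k < -N → (red A Y₂).coeff k = 0 := by
    intro k hk
    rw [r2]
    show (coeffMap (IsLocalRing.residue A) (Z 1)).coeff k = 0
    rw [coeffMap_coeff, hZord 1 k hk, map_zero]
  obtain ⟨f', Z₁', Z₂', hf'1, hf'2, hf'3, hf'4, hf'5, hf'6⟩ := hN₀ N hN g Y₁ Y₂ hg hY b1 b2
  refine ⟨![Z₁', Z₂'], ?_, ?_⟩
  · rw [mem_VN_iff W hWW hne]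
    refine ⟨f', regOff2_of_isReg2 hf'1, ?_, ?_, ?_⟩
    · intro k hk
      rw [← hf'2.1]
      show (coeffMap A.subtype Z₁').coeff k = 0
      rw [coeffMap_coeff, hf'3 k hk, map_zero]
    · intro k hk
      rw [← hf'2.2]
      show (coeffMap A.subtype Z₂').coeff k = 0
      rw [coeffMap_coeff, hf'4 k hk, map_zero]
    · rw [pairLin_eq_iff]
      exact ⟨hf'2.1.symm, hf'2.2.symm⟩
  · funext i
    fin_cases i
    · exact hf'5.trans r1
    · exact hf'6.trans r2

theorem regOff2_galF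
    (hWgal : ∀ (σ : Kb ≃ₐ[ℚ] Kb) (x : FF M), W (galF M σ x) = galF M σ (W x))
    (σ : Kb ≃ₐ[ℚ] Kb) {f : FF M} (hf : RegOff2 W f) : RegOff2 W (galF M σ f) := by
  intro P hP hP2
  rw [Fermat.Agent.T2.helper22.ord_galF]
  exact hf _ (fun h' => hP (Fermat.Agent.T2.helper22.isInfty_of_gal σ h'))
    (fun h' => hP2 (Fermat.Agent.T2.helper22.isInfty2_of_gal hWgal σ h'))

include hWW hne in
/-- `VN W N` is stable under the coefficientwise action of the decomposition group. -/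
theorem gal_VN
    (hWgal : ∀ (σ : Kb ≃ₐ[ℚ] Kb) (x : FF M), W (galF M σ x) = galF M σ (W x))
    {σ : Kb ≃ₐ[ℚ] Kb} (hσ : σ ∈ A.decompositionSubgroup ℚ) (N : ℤ)
    (U : Fin 2 → LaurentSeries A) (hU : famMap A.subtype U ∈ VN W N) :
    famMap A.subtype (famMap (decA σ hσ) U) ∈ VN W N := by
  obtain ⟨f, hf1, hf2, hf3, hf4⟩ := (mem_VN_iff W hWW hne N _).mp hU
  rw [pairLin_eq_iff] at hf4
  rw [mem_VN_iff W hWW hne]
  have e0 : ((galF M σ f : FF M) : LaurentSeries Kb) =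
      coeffMap A.subtype (actA σ hσ (U 0)) := by
    rw [coeffMap_subtype_actA, coe_galF, hf4.1]
    rfl
  have e1 : ((W (galF M σ f) : FF M) : LaurentSeries Kb) =
      coeffMap A.subtype (actA σ hσ (U 1)) := by
    rw [hWgal, coeffMap_subtype_actA, coe_galF, hf4.2]
    rfl
  refine ⟨galF M σ f, regOff2_galF W hWgal σ hf1, ?_, ?_, ?_⟩
  · intro k hk
    rw [coe_galF, coeffMap_coeff, hf2 k hk, map_zero]
  · intro k hk
    rw [hWgal, coe_galF, coeffMap_coeff, hf3 k hk, map_zero]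
  · rw [pairLin_eq_iff]
    exact ⟨e0, e1⟩

theorem mem_of_pow_eq_one {z : Kb} {n : ℕ} (hn : 0 < n) (hz : z ^ n = 1) : z ∈ A := by
  rcases A.mem_or_inv_mem z with h | h
  · exact h
  · have h1 : z = z⁻¹ ^ (n - 1) := by
      have hz0 : z ≠ 0 := by
        rintro rfl
        rw [zero_pow hn.ne'] at hz
        exact zero_ne_one hz
      have h2 : z ^ (n - 1) * z = 1 := by
        rw [← pow_succ]
        have : n - 1 + 1 = n := by omega
        rw [this, hz]
      rw [inv_pow]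
      exact (eq_inv_of_mul_eq_one_right h2)
    rw [h1]
    exact A.pow_mem h _

theorem coeff_actA_eq_zero {σ : Kb ≃ₐ[ℚ] Kb} (hσ : σ ∈ A.decompositionSubgroup ℚ)
    {Z : LaurentSeries A} {N : ℤ} (hZ : -N ≤ Z.order) (k : ℤ) (hk : k < -N) :
    (incl A (actA σ hσ Z)).coeff k = 0 := by
  show (coeffMap A.subtype (coeffMap (decA σ hσ) Z)).coeff k = 0
  rw [coeffMap_coeff, coeffMap_coeff,
    HahnSeries.coeff_eq_zero_of_lt_order (lt_of_lt_of_le hk hZ), map_zero, map_zero]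

set_option maxHeartbeats 1600000 in
include hWW hne in
/-- **[B4]** from the monoid trick; the only open input is `AttStatement`. -/
theorem b4_of
    (hWgal : ∀ (σ : Kb ≃ₐ[ℚ] Kb) (x : FF M), W (galF M σ x) = galF M σ (W x))
    (p : ℕ) (hp : p.Prime) (hA : A.LiesOverPrime p)
    (hPN : PairNormStatement W A)
    (hInt : Fermat.Agent.T2.helper22.Integrality2Statement M A W)
    (hReg : Fermat.Agent.T2.helper22.RegRed2Statement M A W)
    (hSat : Fermat.Agent.T2.helper22.Sat2Statement M A W)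
    (hSN : Fermat.Agent.T2.helper22.SN2Statement M A W)
    (hAtt : AttStatement M W A p) :
    Fermat.Agent.T7.helper27.B4Statement M W A p := by
  classical
  intro K hK σ hσ a ha0 hap hζa
  obtain ⟨hK1, hKdiv, Z₁, Z₂, h1, h2, hr1, hr2⟩ := hK
  haveI : Fact p.Prime := ⟨hp⟩
  haveI : NeZero p := ⟨hp.ne_zero⟩
  haveI : CharP (kA A) p := Fermat.Agent.P2.helper93.charP_residueField hp hA
  have hπ : ∀ x : A, IsLocalRing.residue A x ≠ 0 → IsUnit x :=
    fun x hx => Fermat.Agent.P2.helper96.isUnit_of_residue_ne_zero x hx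
  have hArch := Fermat.Agent.P2.helper74.arch_algebraicClosure A p hp hA
  have hpk : ((p : ℕ) : kA A) = 0 := CharP.cast_eq_zero (kA A) p
  have hpL : ((p : ℕ) : Kb) ≠ 0 := Nat.cast_ne_zero.mpr hp.ne_zero
  have hp1 : p - 1 ≠ 0 := by
    have := hp.two_le
    omega
  -- the decomposition group
  obtain ⟨hσ', hid⟩ := decK_eq_id_of_mem_inertia hσ
  have hsπ : ∀ x : A, IsLocalRing.residue A (decA σ hσ' x) = IsLocalRing.residue A x := by
    intro x
    rw [residue_decA, hid]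
    rfl
  -- the root of unity
  obtain ⟨ζ, hζ⟩ : ∃ ζ : Kb, IsPrimitiveRoot ζ p :=
    HasEnoughRootsOfUnity.exists_primitiveRoot Kb p
  have hζA : ζ ∈ A := mem_of_pow_eq_one A hp.pos hζ.pow_eq_one
  obtain ⟨ζA, hζAdef⟩ : ∃ x : A, x = ⟨ζ, hζA⟩ := ⟨_, rfl⟩
  have hζAc : (ζA : Kb) = ζ := by rw [hζAdef]
  have hsum : ∑ i ∈ Finset.range p, ζA ^ i = 0 := by
    apply Subtype.ext
    have h3 : ((∑ i ∈ Finset.range p, ζA ^ i : A) : Kb) = ∑ i ∈ Finset.range p, ζ ^ i := by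
      rw [← hζAc]
      push_cast
      rfl
    rw [h3]
    exact hζ.geom_sum_eq_zero hp.one_lt
  obtain ⟨m, hm⟩ := Fermat.Agent.T7.helper84.ppow_lambda_rel hp hsum
  obtain ⟨l, hldef⟩ : ∃ x : A, x = ζA - 1 := ⟨_, rfl⟩
  rw [← hldef] at hm
  have hπp : IsLocalRing.residue A ((p : ℕ) : A) = 0 := by
    rw [map_natCast]
    exact hpk
  have hπl : IsLocalRing.residue A l = 0 := by
    have h3 := congrArg (IsLocalRing.residue A) hm
    rw [map_mul, hπp, zero_mul, map_neg, map_pow] at h3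
    have h4 : IsLocalRing.residue A l ^ (p - 1) = 0 := neg_eq_zero.mp h3.symm
    exact (pow_eq_zero_iff hp1).mp h4
  have hu : IsUnit (1 + l * m) := hπ _ (by
    rw [map_add, map_mul, hπl, zero_mul, add_zero, map_one]
    exact one_ne_zero)
  obtain ⟨u, hu'⟩ := hu
  have huinv : ((u⁻¹ : Aˣ) : A) * (1 + l * m) = 1 := by
    rw [← hu']
    exact Units.inv_mul u
  have hl : ((p : ℕ) : A) = l ^ (p - 1) * (-((u⁻¹ : Aˣ) : A)) := by
    have h3 : l ^ (p - 1) = -(((p : ℕ) : A) * (1 + l * m)) := by rw [hm, neg_neg]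
    rw [h3]
    linear_combination (-(p : A)) * huinv
  have hls : l ^ (p - 1) = ((p : ℕ) : A) * (-(1 + l * m)) := by
    rw [mul_neg, hm, neg_neg]
  -- the action on `l`
  have hσζ : decA σ hσ' ζA = ζA ^ a := by
    apply Subtype.ext
    rw [coe_decA, hζAc]
    push_cast
    rw [hζAc]
    exact hζa ζ hζ.pow_eq_one
  obtain ⟨e, he⟩ := Fermat.Agent.T7.helper84.ppow_sigma_lambda ζA a
  rw [← hldef] at he
  have hsl : decA σ hσ' l = l * ((a : A) + l * e) := by
    rw [hldef, map_sub, map_one, hσζ, he, ← hldef]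
    ring
  -- the pole bound
  obtain ⟨N₀r, hN₀r⟩ := red_VN W A hWW hne hSat
  obtain ⟨N₀f, hN₀f⟩ := fc_VN W A hWW hne p hReg hSat hSN
  obtain ⟨N, hNdef⟩ : ∃ N : ℤ, N = max (max (max N₀r N₀f) 0)
    (max (-(Z₁.order)) (-(Z₂.order))) := ⟨_, rfl⟩
  have hN1 : N₀r ≤ N := by
    rw [hNdef]
    exact le_trans (le_trans (le_max_left _ _) (le_max_left _ _)) (le_max_left _ _)
  have hN1' : N₀f ≤ N := by
    rw [hNdef]
    exact le_trans (le_trans (le_max_right _ _) (le_max_left _ _)) (le_max_left _ _)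
  have hN2 : 0 ≤ N := by
    rw [hNdef]
    exact le_trans (le_max_right _ _) (le_max_left _ _)
  have hN3 : -N ≤ Z₁.order := by
    have := le_trans (le_max_left (-(Z₁.order)) (-(Z₂.order)))
      (le_max_right (max (max N₀r N₀f) 0) _)
    rw [← hNdef] at this
    omega
  have hN4 : -N ≤ Z₂.order := by
    have := le_trans (le_max_right (-(Z₁.order)) (-(Z₂.order)))
      (le_max_right (max (max N₀r N₀f) 0) _)
    rw [← hNdef] at this
    omega
  obtain ⟨N₂, hN₂def⟩ : ∃ N₂ : ℤ, N₂ = N + ((p - a : ℕ) : ℤ) * N := ⟨_, rfl⟩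
  have hN₂N : N ≤ N₂ := by
    rw [hN₂def]
    have : (0 : ℤ) ≤ ((p - a : ℕ) : ℤ) * N := mul_nonneg (Int.natCast_nonneg _) hN2
    omega
  have hN₂0 : 0 ≤ N₂ := le_trans hN2 hN₂N
  -- bounds for the series
  have b1 : ∀ k : ℤ, k < -N → (incl A Z₁).coeff k = 0 :=
    fun k hk => coeff_incl_eq_zero A hN3 k hk
  have b2 : ∀ k : ℤ, k < -N → (incl A Z₂).coeff k = 0 :=
    fun k hk => coeff_incl_eq_zero A hN4 k hk
  have c1 : ∀ k : ℤ, k < -N₂ →
      (incl A (actA σ hσ' Z₁) * incl A Z₁ ^ (p - a)).coeff k = 0 := by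
    intro k hk
    rw [hN₂def] at hk
    exact coeff_mul_eq_zero_of_bounds (fun k hk => coeff_actA_eq_zero A hσ' hN3 k hk)
      (fun k hk => coeff_pow_eq_zero b1 (p - a) k hk) k hk
  have c2 : ∀ k : ℤ, k < -N₂ →
      (incl A (actA σ hσ' Z₂) * incl A Z₂ ^ (p - a)).coeff k = 0 := by
    intro k hk
    rw [hN₂def] at hk
    exact coeff_mul_eq_zero_of_bounds (fun k hk => coeff_actA_eq_zero A hσ' hN4 k hk)
      (fun k hk => coeff_pow_eq_zero b2 (p - a) k hk) k hk
  -- the twisted function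
  have hKreg : RegOff2 W K := hK1.1
  have hYreg : RegOff2 W (galF M σ K * K ^ (p - a)) := by
    refine (regOff2_galF W hWgal σ hKreg).mul W ?_
    exact regOff2_of_isReg2 ((isReg2_of_regOff2 hKreg).pow (p - a))
  have eY1 : ((galF M σ K * K ^ (p - a) : FF M) : LaurentSeries Kb) =
      (incl A (actA σ hσ' Z₁) * incl A Z₁ ^ (p - a)) ^ p := by
    have e3 : ((galF M σ K : FF M) : LaurentSeries Kb) = incl A (actA σ hσ' Z₁) ^ p := by
      rw [coe_galF, ← h1, map_pow]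
      congr 1
    have e4 : ((galF M σ K * K ^ (p - a) : FF M) : LaurentSeries Kb) =
        ((galF M σ K : FF M) : LaurentSeries Kb) * (K : LaurentSeries Kb) ^ (p - a) := rfl
    rw [e4, e3, ← h1, mul_pow, ← pow_mul, ← pow_mul, mul_comm p (p - a)]
  have eY2 : ((W (galF M σ K * K ^ (p - a)) : FF M) : LaurentSeries Kb) =
      (incl A (actA σ hσ' Z₂) * incl A Z₂ ^ (p - a)) ^ p := by
    have e3 : ((galF M σ (W K) : FF M) : LaurentSeries Kb) = incl A (actA σ hσ' Z₂) ^ p := by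
      rw [coe_galF, ← h2, map_pow]
      congr 1
    have e4 : ((W (galF M σ K * K ^ (p - a)) : FF M) : LaurentSeries Kb) =
        ((galF M σ (W K) : FF M) : LaurentSeries Kb) *
          ((W K : FF M) : LaurentSeries Kb) ^ (p - a) := by
      rw [map_mul, map_pow, hWgal]
      rfl
    rw [e4, e3, ← h2, mul_pow, ← pow_mul, ← pow_mul, mul_comm p (p - a)]
  -- the family
  have hfam0 : famMap A.subtype (famMap (decA σ hσ') ![Z₁, Z₂] * ![Z₁, Z₂] ^ (p - a)) 0 =
      incl A (actA σ hσ' Z₁) * incl A Z₁ ^ (p - a) := by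
    show coeffMap A.subtype (coeffMap (decA σ hσ') Z₁ * Z₁ ^ (p - a)) = _
    rw [map_mul, map_pow]
    rfl
  have hfam1 : famMap A.subtype (famMap (decA σ hσ') ![Z₁, Z₂] * ![Z₁, Z₂] ^ (p - a)) 1 =
      incl A (actA σ hσ' Z₂) * incl A Z₂ ^ (p - a) := by
    show coeffMap A.subtype (coeffMap (decA σ hσ') Z₂ * Z₂ ^ (p - a)) = _
    rw [map_mul, map_pow]
    rfl
  have hZV' : (famMap A.subtype ![Z₁, Z₂]) ^ p ∈ VN W ((p : ℕ) * N) := by
    have e : (famMap A.subtype ![Z₁, Z₂]) ^ p = pairLin W K := by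
      symm
      rw [pairLin_eq_iff]
      exact ⟨h1.symm, h2.symm⟩
    rw [e, mem_VN_iff W hWW hne]
    refine ⟨K, hKreg, ?_, ?_, rfl⟩
    · intro k hk
      rw [← h1]
      exact coeff_pow_eq_zero b1 p k hk
    · intro k hk
      rw [← h2]
      exact coeff_pow_eq_zero b2 p k hk
  have hZred : famMap (IsLocalRing.residue A) ![Z₁, Z₂] = 1 := by
    funext i
    fin_cases i
    · exact hr1
    · exact hr2
  have hZord : ∀ i : Fin 2, ∀ j < -N, ((![Z₁, Z₂] : Fin 2 → LaurentSeries A) i).coeff j = 0 := by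
    intro i j hj
    fin_cases i
    · exact HahnSeries.coeff_eq_zero_of_lt_order (lt_of_lt_of_le hj hN3)
    · exact HahnSeries.coeff_eq_zero_of_lt_order (lt_of_lt_of_le hj hN4)
  have hYV' : (famMap A.subtype (famMap (decA σ hσ') ![Z₁, Z₂] * ![Z₁, Z₂] ^ (p - a))) ^ p ∈
      VN W ((p : ℕ) * N₂) := by
    have e : (famMap A.subtype (famMap (decA σ hσ') ![Z₁, Z₂] * ![Z₁, Z₂] ^ (p - a))) ^ p
        = pairLin W (galF M σ K * K ^ (p - a)) := by
      symm
      rw [pairLin_eq_iff]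
      refine ⟨?_, ?_⟩
      · rw [Pi.pow_apply, hfam0]
        exact eY1
      · rw [Pi.pow_apply, hfam1]
        exact eY2
    rw [e, mem_VN_iff W hWW hne]
    refine ⟨_, hYreg, ?_, ?_, rfl⟩
    · intro k hk
      rw [eY1]
      exact coeff_pow_eq_zero c1 p k hk
    · intro k hk
      rw [eY2]
      exact coeff_pow_eq_zero c2 p k hk
  have hYord : ∀ i : Fin 2, ∀ j < -N₂,
      ((famMap (decA σ hσ') ![Z₁, Z₂] * ![Z₁, Z₂] ^ (p - a)) i).coeff j = 0 := by
    intro i j hj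
    have hinj : ∀ x : A, (x : Kb) = 0 → x = 0 := fun x hx => Subtype.ext hx
    apply hinj
    have e5 : (((famMap (decA σ hσ') ![Z₁, Z₂] * ![Z₁, Z₂] ^ (p - a)) i).coeff j : Kb) =
        (famMap A.subtype (famMap (decA σ hσ') ![Z₁, Z₂] * ![Z₁, Z₂] ^ (p - a)) i).coeff j :=
      rfl
    rw [e5]
    fin_cases i
    · show (famMap A.subtype (famMap (decA σ hσ') ![Z₁, Z₂] * ![Z₁, Z₂] ^ (p - a)) 0).coeff j
        = 0
      rw [hfam0]
      exact c1 j hj
    · show (famMap A.subtype (famMap (decA σ hσ') ![Z₁, Z₂] * ![Z₁, Z₂] ^ (p - a)) 1).coeff j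
        = 0
      rw [hfam1]
      exact c2 j hj
  have hmul : ∀ u v : Fin 2 → LaurentSeries Kb, u ∈ VN W N → v ∈ VN W N →
      u * v ^ (p - a) ∈ VN W N₂ := by
    intro u v hu hv
    rw [hN₂def]
    exact mul_VN W hWW hne N _ hu (pow_VN W hWW hne N (p - a) v hv)
  have hFC : ∀ Φ Z : Fin 2 → LaurentSeries A, famMap A.subtype Φ ∈ VN W ((p : ℕ) * N) →
      (∀ i, ∀ j < -N, (Z i).coeff j = 0) →
      famMap (IsLocalRing.residue A) Φ = famMap (IsLocalRing.residue A) Z ^ p →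
      ∃ Z' : Fin 2 → LaurentSeries A, famMap A.subtype Z' ∈ VN W N ∧
        famMap (IsLocalRing.residue A) Z' = famMap (IsLocalRing.residue A) Z :=
    fun Φ Z hΦ hZord hΦZ => hN₀f N _ hN1' Φ Z hΦ hZord hΦZ
  have hred₂ : ∀ Z : Fin 2 → LaurentSeries A, famMap A.subtype Z ∈ VN W ((p : ℕ) * N₂) →
      (∀ i, ∀ j < -N₂, (famMap (IsLocalRing.residue A) Z i).coeff j = 0) →
      ∃ Z' : Fin 2 → LaurentSeries A, famMap A.subtype Z' ∈ VN W N₂ ∧
        famMap (IsLocalRing.residue A) Z' = famMap (IsLocalRing.residue A) Z :=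
    fun Z hZ hZred => hN₀r _ N₂ (le_trans hN1 hN₂N) Z hZ hZred
  have hσV : ∀ U : Fin 2 → LaurentSeries A, famMap A.subtype U ∈ VN W N →
      famMap A.subtype (famMap (decA σ hσ') U) ∈ VN W N :=
    fun U hU => gal_VN W A hWW hne hWgal hσ' N U hU
  have hkey : famMap A.subtype (famMap (decA σ hσ') ![Z₁, Z₂] * ![Z₁, Z₂] ^ (p - a)) ∈
      VN W N₂ :=
    mem_of_twist A (IsLocalRing.residue A) hπ IsLocalRing.residue_surjective hArch
      p hp hpL hpk l (-((u⁻¹ : Aˣ) : A)) (-(1 + l * m)) e hl hls hπl (decA σ hσ') hsπ a hap.le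
      hsl (VN W N) (VN W ((p : ℕ) * N)) (fun _ => N)
      (att_VN W A hWW hne hPN hInt N) (ord_VN W hWW hne N) (pow_VN W hWW hne N p)
      (one_mem_VN W hWW hne hN2) hFC
      (VN W N₂) (VN W ((p : ℕ) * N₂)) (fun _ => N₂) (fun _ => hN₂0)
      (att_VN W A hWW hne hPN hInt N₂) (att_VN W A hWW hne hPN hInt _)
      (ord_VN W hWW hne N₂) (pow_VN W hWW hne N₂ p) hred₂ hσV hmul
      ![Z₁, Z₂] hZV' hZred hZord (hAtt N K Z₁ Z₂ hK1 h1 h2 hr1 hr2) hYV' hYord
  obtain ⟨v, -, -, -, hv⟩ := (mem_VN_iff W hWW hne N₂ _).mp hkey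
  rw [pairLin_eq_iff] at hv
  refine ⟨v, ?_⟩
  apply Subtype.ext
  show ((galF M σ K * K ^ (p - a) : FF M) : LaurentSeries Kb) = (v : LaurentSeries Kb) ^ p
  rw [eY1, hv.1, hfam0]

end Generic

section Bad

open Fermat.Agent.T2.helper36

variable (N p : ℕ) [NeZero N] [NeZero p] (hp : p.Prime) (hpN : ¬ p ∣ N)

/-- **[B4]** at the bad pair `(N * p, atkinLehner N p)`, `A` over `p`, from `AttStatement`. -/
theorem b4_bad (hN : 4 ∣ N ∨ 9 ∣ N) (A : ValuationSubring Kb) (hA : A.LiesOverPrime p)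
    (hAtt : AttStatement (N * p) (atkinLehner N p hp hpN) A p) :
    Fermat.Agent.T7.helper27.B4Statement (N * p) (atkinLehner N p hp hpN) A p :=
  b4_of (atkinLehner N p hp hpN) A (atkinLehner_atkinLehner N p hp hpN)
    (inftyBar_ne_smul N p hp hpN)
    (fun σ x => atkinLehner_arithmeticRingAut N p hp hpN σ x) p hp hA
    (pairNorm_bad N p hp hpN A hA) (integrality2_bad N p hp hpN A)
    (Fermat.Agent.T2.helper87.regRed2_holds N p hp hpN A hA)
    (Fermat.Agent.T2.helper72.sat2_good hp hpN A hA hN)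
    (Fermat.Agent.T2.helper72.sn2Statement_good hp hpN A hA hN) hAtt

/-- **(G1)** at the bad pair from [B3] and [ATT]. -/
theorem t0InertOmega_bad_of_att (hN : 4 ∣ N ∨ 9 ∣ N) (A : ValuationSubring Kb)
    (hA : A.LiesOverPrime p) {IsNewQ : FF (N * p) → Prop}
    (hNew : ∀ u G : FF (N * p), G ≠ 0 → IsNewQ u → IsNewQ (G ^ p * u))
    (hB3 : Fermat.Agent.T7.helper27.B3Statement (N * p) (atkinLehner N p hp hpN) A p IsNewQ)
    (hAtt : AttStatement (N * p) (atkinLehner N p hp hpN) A p) :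
    Fermat.Agent.T7.helper27.T0InertOmegaStatement (N * p) (atkinLehner N p hp hpN) A p
      IsNewQ :=
  Fermat.Agent.T7.helper27.t0InertOmega_bad N p hp hpN hN A hA hNew hB3
    (b4_bad N p hp hpN hN A hA hAtt)

end Bad

end Fermat.Agent.T7.helper96

end
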