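import Mathlib
import Fermat.Agent.T7.helper22_AttInst
import Fermat.Agent.T7.helper96_B4

/-!
# T7 (helper22): leaf [ATT] in the coordinator's contract, and [B4] unconditional

* `attStatement` : `helper96.AttStatement M W A p` for every involution `W` with pair
  normalisation and `Integrality2` (any `p > 0`);
* `attStatement_bad` : `helper96.AttStatement (N * p) (atkinLehner N p hp hpN) A p`, VERBATIM the
  contract of the coordinator, unconditional;
* `b4Statement_bad` : **[B4]** `helper27.B4Statement (N * p) (atkinLehner N p hp hpN) A p`,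
  unconditional (`helper96.b4_bad` with [ATT] discharged);
* `t0InertOmega_bad_of_b3` : (G1) at the bad pair from [B3] alone.
-/

set_option autoImplicit false
set_option synthInstance.maxHeartbeats 400000
set_option linter.unusedSectionVars false
set_option linter.unusedVariables false

noncomputable section

open HahnSeries IntermediateField AlgebraicCurve ModularCurve
open Fermat.Agent.S18.helper19 Fermat.Agent.P2.helper29
open Fermat.Agent.P2.helper22 Fermat.Agent.P2.helper74
open Fermat.Agent.T2.helper74 Fermat.Agent.T2.helper36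

namespace Fermat.Agent.T7.helper22

/-- **[ATT]** in the coordinator's contract, generic form. -/
theorem attStatement {M : ℕ} [NeZero M] {W : FF M ≃ₐ[Kb] FF M} {A : ValuationSubring Kb}
    (hWW : ∀ f, W (W f) = f) (hne : inftyBar M ≠ W • inftyBar M)
    (hPN : PairNormStatement W A)
    (hInt : Fermat.Agent.T2.helper22.Integrality2Statement M A W) {p : ℕ} (hp : 0 < p) :
    Fermat.Agent.T7.helper96.AttStatement M W A p := by
  intro N K Z₁ Z₂ _ h1 h2 _ _ u hu hne'
  obtain ⟨f, hf, rfl⟩ := Submodule.mem_map.mp hu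
  exact hatt_pair hWW hPN hInt hp K Z₁ Z₂ h1 h2 f
    (Fermat.Agent.T7.helper88.regOff2_of_mem_L2 hWW hne hf) hne'

/-- **[ATT]** at the bad pair: the coordinator's contract, verbatim, unconditional. -/
theorem attStatement_bad (N p : ℕ) [NeZero N] [NeZero p] (hp : p.Prime) (hpN : ¬ p ∣ N)
    (A : ValuationSubring Kb) (hA : A.LiesOverPrime p) :
    Fermat.Agent.T7.helper96.AttStatement (N * p) (atkinLehner N p hp hpN) A p :=
  attStatement (atkinLehner_atkinLehner N p hp hpN) (inftyBar_ne_smul N p hp hpN)
    (pairNorm_bad N p hp hpN A hA)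
    (Fermat.Agent.T2.helper45.integrality2Statement N p hp hpN A) hp.pos

/-- **[B4]** at the bad pair, unconditional. -/
theorem b4Statement_bad (N p : ℕ) [NeZero N] [NeZero p] (hp : p.Prime) (hpN : ¬ p ∣ N)
    (hN : 4 ∣ N ∨ 9 ∣ N) (A : ValuationSubring Kb) (hA : A.LiesOverPrime p) :
    Fermat.Agent.T7.helper27.B4Statement (N * p) (atkinLehner N p hp hpN) A p :=
  Fermat.Agent.T7.helper96.b4_bad N p hp hpN hN A hA (attStatement_bad N p hp hpN A hA)

/-- **(G1)** at the bad pair from [B3] alone. -/
theorem t0InertOmega_bad_of_b3 (N p : ℕ) [NeZero N] [NeZero p] (hp : p.Prime) (hpN : ¬ p ∣ N)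
    (hN : 4 ∣ N ∨ 9 ∣ N) (A : ValuationSubring Kb) (hA : A.LiesOverPrime p)
    {IsNewQ : FF (N * p) → Prop}
    (hNew : ∀ u G : FF (N * p), G ≠ 0 → IsNewQ u → IsNewQ (G ^ p * u))
    (hB3 : Fermat.Agent.T7.helper27.B3Statement (N * p) (atkinLehner N p hp hpN) A p IsNewQ) :
    Fermat.Agent.T7.helper27.T0InertOmegaStatement (N * p) (atkinLehner N p hp hpN) A p
      IsNewQ :=
  Fermat.Agent.T7.helper96.t0InertOmega_bad_of_att N p hp hpN hN A hA hNew hB3
    (attStatement_bad N p hp hpN A hA)

end Fermat.Agent.T7.helper22
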