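import Fermat.Agent.T7.helper72_G1Asm
import Fermat.Agent.T7.helper20_KumEnd
import Fermat.Agent.T7.helper27_NewQ

/-!
# T7 / S33 (helper72, assembler): the frontier chain, fourth layer

`S33B3Statement`, `S33B4Statement` : the contracts [B3] and [B4] of the blueprint
(`helper27.B3Statement` for `IsNewQ := helper27.IsNewN`, `helper27.B4Statement`) at every bad
pair `(N', p)`, `p` odd, `4 ∣ N'`, `p ∤ N'`, `A` over `p`.

* `g1_of_omega`  : (G1) in Kummer form (`helper27.T0InertOmegaStatement`) ⇒ (G1) in operator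
  form (`S33G1Statement`), by [KUM-END] `helper20.kumEnd`;
* `g1_of_b3_b4`  : [B3] + [B4] ⇒ (G1), by `helper27.t0InertOmega_new`;
* `isOrdinaryAt_of_b3_b4` : [B3] + [B4] ⇒ the frozen statement S33.
-/

set_option autoImplicit false
set_option linter.unusedSectionVars false
set_option linter.style.longLine false
set_option linter.unusedVariables false
set_option linter.style.haveILetI false

noncomputable section

namespace Fermat.Agent.T7.helper72

open Fermat.Agent.T7 Fermat.Agent.P3 Function ModularCurve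

/-- **(G1), Kummer form**, at every bad pair. -/
def S33OmegaStatement : Prop :=
  ∀ (p : ℕ) (hp : p.Prime), p ≠ 2 → ∀ (N' : ℕ) [NeZero N'], 4 ∣ N' → ∀ (hpN : ¬ p ∣ N')
    (A : ValuationSubring (AlgebraicClosure ℚ)), A.LiesOverPrime p →
      haveI : NeZero p := ⟨hp.ne_zero⟩
      helper27.T0InertOmegaStatement (N' * p) (Fermat.Agent.T2.helper36.atkinLehner N' p hp hpN)
        A p (helper27.IsNewN N' p)

/-- **Contract [B3]**, at every bad pair. -/
def S33B3Statement : Prop :=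
  ∀ (p : ℕ) (hp : p.Prime), p ≠ 2 → ∀ (N' : ℕ) [NeZero N'], 4 ∣ N' → ∀ (hpN : ¬ p ∣ N')
    (A : ValuationSubring (AlgebraicClosure ℚ)), A.LiesOverPrime p →
      haveI : NeZero p := ⟨hp.ne_zero⟩
      helper27.B3Statement (N' * p) (Fermat.Agent.T2.helper36.atkinLehner N' p hp hpN)
        A p (helper27.IsNewN N' p)

/-- **Contract [B4]**, at every bad pair. -/
def S33B4Statement : Prop :=
  ∀ (p : ℕ) (hp : p.Prime), p ≠ 2 → ∀ (N' : ℕ) [NeZero N'], 4 ∣ N' → ∀ (hpN : ¬ p ∣ N')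
    (A : ValuationSubring (AlgebraicClosure ℚ)), A.LiesOverPrime p →
      haveI : NeZero p := ⟨hp.ne_zero⟩
      helper27.B4Statement (N' * p) (Fermat.Agent.T2.helper36.atkinLehner N' p hp hpN) A p

/-- **[KUM-END]**: (G1) in Kummer form ⇒ (G1) in operator form. -/
theorem g1_of_omega (h : S33OmegaStatement) : S33G1Statement := by
  intro p hp hp2 N' _ h4 hpN A hA
  haveI : NeZero p := ⟨hp.ne_zero⟩
  intro x hx hnew s hs a ha
  obtain ⟨D, u, e, H, r1, r2⟩ := hx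
  obtain ⟨hα, hβ⟩ := (helper43.mem_newPart N' p).mp hnew
  have hK : Fermat.Agent.P3.helper94.IsKummerRep p x u := ⟨H.1, D, e, H.2⟩
  have hN : helper27.IsNewN N' p u := helper27.isNewN_of_push hK hα hβ
  exact helper20.kumEnd (h p hp hp2 N' h4 hpN A hA) hs a ha ⟨D, u, e, H, r1, r2, hN⟩

/-- [B3] + [B4] ⇒ (G1) in Kummer form. -/
theorem omega_of_b3_b4 (h3 : S33B3Statement) (hb4 : S33B4Statement) : S33OmegaStatement := by
  intro p hp hp2 N' _ h4 hpN A hA
  haveI : NeZero p := ⟨hp.ne_zero⟩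
  exact helper27.t0InertOmega_new hp hpN (Or.inl h4) A hA (h3 p hp hp2 N' h4 hpN A hA)
    (hb4 p hp hp2 N' h4 hpN A hA)

/-- [B3] + [B4] ⇒ (G1). -/
theorem g1_of_b3_b4 (h3 : S33B3Statement) (hb4 : S33B4Statement) : S33G1Statement :=
  g1_of_omega (omega_of_b3_b4 h3 hb4)

variable {p : ℕ} {N : ℕ} [NeZero N] {S : Finset ℕ}
  {𝒪 : Type} [CommRing 𝒪] [IsDomain 𝒪] [IsDiscreteValuationRing 𝒪]
  [IsAdicComplete (IsLocalRing.maximalIdeal 𝒪) 𝒪]
  {θ : CuspForm.heckeAlgebra N 2 (↑S : Set ℕ) →+* IsLocalRing.ResidueField 𝒪}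
  {T : Type} [CommRing T] [IsLocalRing T] [IsNoetherianRing T]
  [IsAdicComplete (IsLocalRing.maximalIdeal T) T] [Algebra 𝒪 T] [IsLocalHom (algebraMap 𝒪 T)]
  [Module.Finite 𝒪 T] [Module.Free 𝒪 T]

/-- **S33 from the contracts [B3] and [B4].** -/
theorem isOrdinaryAt_of_b3_b4 (h3 : S33B3Statement) (hb4 : S33B4Statement)
    [Finite (IsLocalRing.ResidueField 𝒪)] [CharZero 𝒪]
    (hp : p.Prime) (hp2 : p ≠ 2) (hp𝒪 : (p : 𝒪) ∈ IsLocalRing.maximalIdeal 𝒪)
    (hN : p ∣ N ∧ ¬ p ^ 2 ∣ N)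
    (hNS : ∀ q : ℕ, q.Prime → q ∣ N → q ∈ S)
    (H : CuspForm.HeckeGaloisRepDatum N (↑S : Set ℕ) 𝒪 θ T)
    (hres : (GaloisRepAdic.ofResidualGaloisRep H.ρ.residual).IsOrdinaryAt p) :
    H.ρ.IsOrdinaryAt p :=
  isOrdinaryAt_of_g1 (g1_of_b3_b4 h3 hb4) hp hp2 hp𝒪 hN hNS H hres

end Fermat.Agent.T7.helper72

end
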