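import Fermat.Agent.T7.helper22_AttB4
import Fermat.Agent.T7.helper72_B34Asm

/-!
# T7 / S33 (helper22): the contract [B4] of the frontier chain is closed

* `s33B4Statement` : `helper72.S33B4Statement` ([B4] at every bad pair), unconditional;
* `isOrdinaryAt_of_b3` : the frozen statement S33 from the contract [B3] alone
  (`helper72.S33B3Statement`).
-/

set_option autoImplicit false
set_option linter.unusedSectionVars false
set_option linter.style.longLine false
set_option linter.unusedVariables false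
set_option linter.style.haveILetI false

noncomputable section

namespace Fermat.Agent.T7.helper22

open Fermat.Agent.T7 Fermat.Agent.P3 Function ModularCurve

/-- **Contract [B4]** at every bad pair. -/
theorem s33B4Statement : Fermat.Agent.T7.helper72.S33B4Statement := by
  intro p hp hp2 N' _ h4 hpN A hA
  haveI : NeZero p := ⟨hp.ne_zero⟩
  exact b4Statement_bad N' p hp hpN (Or.inl h4) A hA

variable {p : ℕ} {N : ℕ} [NeZero N] {S : Finset ℕ}
  {𝒪 : Type} [CommRing 𝒪] [IsDomain 𝒪] [IsDiscreteValuationRing 𝒪]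
  [IsAdicComplete (IsLocalRing.maximalIdeal 𝒪) 𝒪]
  {θ : CuspForm.heckeAlgebra N 2 (↑S : Set ℕ) →+* IsLocalRing.ResidueField 𝒪}
  {T : Type} [CommRing T] [IsLocalRing T] [IsNoetherianRing T]
  [IsAdicComplete (IsLocalRing.maximalIdeal T) T] [Algebra 𝒪 T] [IsLocalHom (algebraMap 𝒪 T)]
  [Module.Finite 𝒪 T] [Module.Free 𝒪 T]

/-- **S33 from the contract [B3] alone.** -/
theorem isOrdinaryAt_of_b3 (h3 : Fermat.Agent.T7.helper72.S33B3Statement)
    [Finite (IsLocalRing.ResidueField 𝒪)] [CharZero 𝒪]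
    (hp : p.Prime) (hp2 : p ≠ 2) (hp𝒪 : (p : 𝒪) ∈ IsLocalRing.maximalIdeal 𝒪)
    (hN : p ∣ N ∧ ¬ p ^ 2 ∣ N)
    (hNS : ∀ q : ℕ, q.Prime → q ∣ N → q ∈ S)
    (H : CuspForm.HeckeGaloisRepDatum N (↑S : Set ℕ) 𝒪 θ T)
    (hres : (GaloisRepAdic.ofResidualGaloisRep H.ρ.residual).IsOrdinaryAt p) :
    H.ρ.IsOrdinaryAt p :=
  Fermat.Agent.T7.helper72.isOrdinaryAt_of_b3_b4 h3 s33B4Statement hp hp2 hp𝒪 hN hNS H hres

end Fermat.Agent.T7.helper22
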