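import Mathlib
import Fermat.Agent.T2.helper74_Pivot2
import Fermat.Agent.T2.helper22_PairIdeal
import Fermat.Agent.T2.helper36_AtkinLehner

/-!
# T7 [GAL] (helper23, spare twin): the inertia group on pairs of integral expansions

The `σ`-hypotheses of `T7.helper96.mem_of_twist` (monoid trick) for the pair spaces
`VN W n` of `T2.helper74`.  `M` a level, `W` an involution of `F_M` commuting with the
coefficientwise Galois action `galF`, `A` a valuation subring of `ℚ̄`.

* `exists_one_add_pow`     : `(1 + l) ^ a = 1 + l * (a + l * r)` in any commutative ring;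
* `exists_decA_sub_one`    : `σ ζ = ζ ^ a`  ⟹  `sA (ζ - 1) = (ζ - 1) * (a + (ζ - 1) * r)`  (`hsl`);
* `residue_decA_of_inertia`: `σ` in inertia ⟹ `sA` is trivial on the residue field  (`hsπ`);
* `isReg2_galF`, `mem_VN_galF`, `famMap_decA_mem_VN` : `σ` preserves `VN W n`  (`hσV`);
* `mul_mem_VN`, `pow_mem_VN`                          : products in `VN`  (`hpow`, `hmul`);
* `twist_pow_mem_VN`       : `Z ^ p ∈ VN W n'` ⟹ `(σ Z · Z ^ m) ^ p ∈ VN W (n' + m n')`  (`hY`);
* `coeff_twist_eq_zero`    : pole bound of `σ Z · Z ^ m`  (`hYord`);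
* `incl_decA_eq_galF`      : `incl (σ Y) = galF σ f` when `incl Y = f`;
* the instance `W = atkinLehner N p`: `hWgal_atkinLehner`, `famMap_decA_mem_VN_bad`, ...
-/

set_option autoImplicit false
set_option linter.unusedSectionVars false
set_option linter.unusedVariables false

noncomputable section

open HahnSeries IntermediateField AlgebraicCurve ModularCurve
open Fermat.Agent.S18.helper19 Fermat.Agent.P2.helper29 Fermat.Agent.P2.helper22
open Fermat.Agent.P2.helper93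
open Fermat.Agent.T2.helper74

namespace Fermat.Agent.T7.helper23

/-! ### Algebra -/

/-- `(1 + l) ^ a = 1 + l * (a + l * r)` -/
theorem exists_one_add_pow {R : Type*} [CommRing R] (l : R) (a : ℕ) :
    ∃ r : R, (1 + l) ^ a = 1 + l * ((a : R) + l * r) := by
  induction a with
  | zero => exact ⟨0, by simp⟩
  | succ a ih =>
    obtain ⟨r, hr⟩ := ih
    refine ⟨r + a + l * r, ?_⟩
    rw [pow_succ, hr]
    push_cast
    ring

/-- `ζ ^ a - 1 = (ζ - 1) * (a + (ζ - 1) * r)` -/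
theorem exists_pow_sub_one {R : Type*} [CommRing R] (ζ : R) (a : ℕ) :
    ∃ r : R, ζ ^ a - 1 = (ζ - 1) * ((a : R) + (ζ - 1) * r) := by
  obtain ⟨r, hr⟩ := exists_one_add_pow (ζ - 1) a
  refine ⟨r, ?_⟩
  have e : 1 + (ζ - 1) = ζ := by ring
  rw [e] at hr
  rw [hr]
  ring

/-! ### The endomorphism of `A` -/

section DecA

variable {A : ValuationSubring Kb}

/-- **`hsl`**: if `σ ζ = ζ ^ a` then `sA (ζ - 1) = (ζ - 1) * (a + (ζ - 1) * r)`. -/
theorem exists_decA_sub_one (σ : Kb ≃ₐ[ℚ] Kb) (hσ : σ ∈ A.decompositionSubgroup ℚ) (ζ : A)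
    (a : ℕ) (hζ : σ (ζ : Kb) = (ζ : Kb) ^ a) :
    ∃ r : A, decA σ hσ (ζ - 1) = (ζ - 1) * ((a : A) + (ζ - 1) * r) := by
  obtain ⟨r, hr⟩ := exists_pow_sub_one ζ a
  refine ⟨r, ?_⟩
  rw [← hr, map_sub, map_one]
  congr 1
  apply Subtype.ext
  rw [coe_decA, hζ]
  rfl

/-- **`hsπ`**: an element of the inertia group is trivial on the residue field. -/
theorem residue_decA_of_inertia {σ : Kb ≃ₐ[ℚ] Kb} (h : σ ∈ A.inertiaSubgroupIn ℚ)
    (hσ : σ ∈ A.decompositionSubgroup ℚ) (x : A) :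
    IsLocalRing.residue A (decA σ hσ x) = IsLocalRing.residue A x := by
  obtain ⟨hσ', e⟩ := decK_eq_id_of_mem_inertia h
  rw [residue_decA σ hσ x]
  have : decK σ hσ = decK σ hσ' := rfl
  rw [this, e]
  rfl

theorem mem_decomposition_of_inertia {σ : Kb ≃ₐ[ℚ] Kb} (h : σ ∈ A.inertiaSubgroupIn ℚ) :
    σ ∈ A.decompositionSubgroup ℚ :=
  (decK_eq_id_of_mem_inertia h).1

/-- the coefficientwise action and the inclusion -/
theorem famMap_subtype_decA {ι : Type*} (σ : Kb ≃ₐ[ℚ] Kb) (hσ : σ ∈ A.decompositionSubgroup ℚ)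
    (U : ι → LaurentSeries A) :
    famMap A.subtype (famMap (decA σ hσ) U)
      = fun i => coeffMap (σ : Kb →+* Kb) (famMap A.subtype U i) := by
  funext i
  exact coeffMap_subtype_actA σ hσ (U i)

end DecA

/-! ### Galois and the pair spaces -/

section Pair

variable {M : ℕ} [NeZero M] (W : FF M ≃ₐ[Kb] FF M)
variable (hWW : ∀ f, W (W f) = f) (hne : inftyBar M ≠ W • inftyBar M)
variable (hWgal : ∀ (σ : Kb ≃ₐ[ℚ] Kb) (x : FF M), W (galF M σ x) = galF M σ (W x))

include hWgal in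
/-- `galF` preserves regularity off the two cusps -/
theorem isReg2_galF (σ : Kb ≃ₐ[ℚ] Kb) {f : FF M} (hf : Fermat.Agent.T2.helper22.IsReg2 W f) :
    Fermat.Agent.T2.helper22.IsReg2 W (galF M σ f) := by
  intro P hP hP2
  rw [Fermat.Agent.T2.helper22.ord_galF]
  exact hf _ (fun h => hP (Fermat.Agent.T2.helper22.isInfty_of_gal σ h))
    (fun h => hP2 (Fermat.Agent.T2.helper22.isInfty2_of_gal hWgal σ h))

include hWW hne hWgal in
/-- **`hσV`**, over `ℚ̄`: the coefficientwise Galois action preserves `VN W n`. -/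
theorem mem_VN_galF (σ : Kb ≃ₐ[ℚ] Kb) (n : ℤ) {u : Fin 2 → LaurentSeries Kb}
    (hu : u ∈ VN W n) : (fun i => coeffMap (σ : Kb →+* Kb) (u i)) ∈ VN W n := by
  rw [mem_VN_iff W hWW hne] at hu ⊢
  obtain ⟨f, h1, h2, h3, rfl⟩ := hu
  refine ⟨galF M σ f, regOff2_of_isReg2 (isReg2_galF W hWgal σ (isReg2_of_regOff2 h1)),
    ?_, ?_, ?_⟩
  · intro k hk
    rw [coe_galF, coeffMap_coeff, h2 k hk, map_zero]
  · intro k hk
    rw [hWgal, coe_galF, coeffMap_coeff, h3 k hk, map_zero]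
  · rw [pairLin_eq_iff]
    refine ⟨rfl, ?_⟩
    rw [hWgal]
    rfl

include hWW hne hWgal in
/-- **`hσV`**: the endomorphism `sA` of `A` induced by `σ` preserves `VN W n`. -/
theorem famMap_decA_mem_VN {A : ValuationSubring Kb} (σ : Kb ≃ₐ[ℚ] Kb)
    (hσ : σ ∈ A.decompositionSubgroup ℚ) (n : ℤ) (U : Fin 2 → LaurentSeries A)
    (hU : famMap A.subtype U ∈ VN W n) :
    famMap A.subtype (famMap (decA σ hσ) U) ∈ VN W n := by
  rw [famMap_subtype_decA]
  exact mem_VN_galF W hWW hne hWgal σ n hU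

/-- the pair of expansions is multiplicative -/
theorem pairLin_mul (f g : FF M) : pairLin W (f * g) = pairLin W f * pairLin W g := by
  rw [pairLin_eq_iff]
  refine ⟨?_, ?_⟩
  · rw [Pi.mul_apply, pairLin_zero', pairLin_zero']
    rfl
  · rw [Pi.mul_apply, pairLin_one', pairLin_one', map_mul]
    rfl

include hWW hne in
/-- products in `L(n (∞ + ∞₂))` -/
theorem mul_mem_L2 {n n' : ℤ} {f g : FF M} (hf : f ∈ riemannRochSpace (div2 W n))
    (hg : g ∈ riemannRochSpace (div2 W n')) :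
    f * g ∈ riemannRochSpace (div2 W (n + n')) := by
  rcases eq_or_ne f 0 with rfl | hf0
  · rw [zero_mul]
    exact zero_mem _
  rcases eq_or_ne g 0 with rfl | hg0
  · rw [mul_zero]
    exact zero_mem _
  rw [Fermat.Agent.P2.helper74.mem_L_iff' hf0] at hf
  rw [Fermat.Agent.P2.helper74.mem_L_iff' hg0] at hg
  rw [Fermat.Agent.P2.helper74.mem_L_iff' (mul_ne_zero hf0 hg0)]
  intro v
  have h1 := hf v
  have h2 := hg v
  have h3 : div2 W (n + n') v = div2 W n v + div2 W n' v := by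
    by_cases hv1 : v = inftyBar M
    · subst hv1
      rw [div2_apply_infty W hne, div2_apply_infty W hne, div2_apply_infty W hne]
    · by_cases hv2 : v = W • inftyBar M
      · subst hv2
        rw [div2_apply_infty2 W hne, div2_apply_infty2 W hne, div2_apply_infty2 W hne]
      · rw [div2_apply_of_ne W _ hv1 hv2, div2_apply_of_ne W _ hv1 hv2,
          div2_apply_of_ne W _ hv1 hv2, add_zero]
  rw [v.ord_mul hf0 hg0, h3]
  omega

include hWW hne in
/-- **products in `VN`** -/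
theorem mul_mem_VN {n n' : ℤ} {u v : Fin 2 → LaurentSeries Kb} (hu : u ∈ VN W n)
    (hv : v ∈ VN W n') : u * v ∈ VN W (n + n') := by
  unfold VN at hu hv ⊢
  rw [Submodule.mem_map] at hu hv ⊢
  obtain ⟨f, hf, rfl⟩ := hu
  obtain ⟨g, hg, rfl⟩ := hv
  exact ⟨f * g, mul_mem_L2 W hWW hne hf hg, pairLin_mul W f g⟩

include hWW hne in
/-- `1 ∈ VN W 0` -/
theorem one_mem_VN_zero : (1 : Fin 2 → LaurentSeries Kb) ∈ VN W 0 := by
  rw [mem_VN_iff W hWW hne]
  refine ⟨1, RegOff2.one W, fun k hk => ?_, fun k hk => ?_, ?_⟩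
  · have hk' : k ≠ 0 := by omega
    show (1 : LaurentSeries Kb).coeff k = 0
    rw [HahnSeries.coeff_one, if_neg hk']
  · rw [map_one]
    have hk' : k ≠ 0 := by omega
    show (1 : LaurentSeries Kb).coeff k = 0
    rw [HahnSeries.coeff_one, if_neg hk']
  · rw [pairLin_eq_iff]
    refine ⟨rfl, ?_⟩
    rw [map_one]
    rfl

include hWW hne in
/-- **powers in `VN`** (`hpow`) -/
theorem pow_mem_VN {n : ℤ} {u : Fin 2 → LaurentSeries Kb} (hu : u ∈ VN W n) (m : ℕ) :
    u ^ m ∈ VN W (m * n) := by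
  induction m with
  | zero =>
    rw [pow_zero, Nat.cast_zero, zero_mul]
    exact one_mem_VN_zero W hWW hne
  | succ m ih =>
    rw [pow_succ]
    have h := mul_mem_VN W hWW hne ih hu
    have e : (m : ℤ) * n + n = ((m + 1 : ℕ) : ℤ) * n := by
      push_cast
      ring
    rwa [e] at h

include hWW hne in
/-- **`hmul`**: `u, v ∈ VN W n` ⟹ `u * v ^ m ∈ VN W (n + m n)`. -/
theorem mul_pow_mem_VN {n n' : ℤ} {u v : Fin 2 → LaurentSeries Kb} (hu : u ∈ VN W n)
    (hv : v ∈ VN W n') (m : ℕ) : u * v ^ m ∈ VN W (n + m * n') :=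
  mul_mem_VN W hWW hne hu (pow_mem_VN W hWW hne hv m)

include hWW hne hWgal in
/-- **`hY`**: if `Z ^ p ∈ VN W n'` then `(σ Z · Z ^ m) ^ p ∈ VN W (n' + m n')`. -/
theorem twist_pow_mem_VN {A : ValuationSubring Kb} (σ : Kb ≃ₐ[ℚ] Kb)
    (hσ : σ ∈ A.decompositionSubgroup ℚ) (p m : ℕ) (n' : ℤ) (Z : Fin 2 → LaurentSeries A)
    (hZ : (famMap A.subtype Z) ^ p ∈ VN W n') :
    (famMap A.subtype (famMap (decA σ hσ) Z * Z ^ m)) ^ p ∈ VN W (n' + m * n') := by
  have h1 : famMap A.subtype (famMap (decA σ hσ) (Z ^ p)) ∈ VN W n' := by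
    apply famMap_decA_mem_VN W hWW hne hWgal σ hσ n'
    rw [famMap_pow]
    exact hZ
  have h2 := mul_pow_mem_VN W hWW hne h1 hZ m
  have e : (famMap A.subtype (famMap (decA σ hσ) Z * Z ^ m)) ^ p
      = famMap A.subtype (famMap (decA σ hσ) (Z ^ p)) * (famMap A.subtype Z ^ p) ^ m := by
    rw [famMap_mul, famMap_pow, famMap_pow, famMap_pow, mul_pow, ← pow_mul, ← pow_mul,
      mul_comm m p]
  rw [e]
  exact h2

end Pair

/-! ### Pole bounds -/

section Pole

variable {R : Type*} [CommRing R]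

/-- pole bound of a product -/
theorem coeff_mul_eq_zero_of_lt {X Y : LaurentSeries R} {n n' : ℤ}
    (hX : ∀ j < -n, X.coeff j = 0) (hY : ∀ j < -n', Y.coeff j = 0) :
    ∀ j < -(n + n'), (X * Y).coeff j = 0 := by
  intro j hj
  rw [HahnSeries.coeff_mul]
  apply Finset.sum_eq_zero
  rintro ⟨a, b⟩ hab
  rw [Finset.mem_antidiagonal] at hab
  obtain ⟨ha, hb, hab⟩ := hab
  simp only [HahnSeries.mem_support] at ha hb hab
  by_cases h1 : a < -n
  · exact absurd (hX a h1) ha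
  · have h2 : b < -n' := by omega
    exact absurd (hY b h2) hb

/-- pole bound of a power -/
theorem coeff_pow_eq_zero_of_lt {X : LaurentSeries R} {n : ℤ}
    (hX : ∀ j < -n, X.coeff j = 0) (m : ℕ) : ∀ j < -(m * n), (X ^ m).coeff j = 0 := by
  induction m with
  | zero =>
    intro j hj
    rw [pow_zero, HahnSeries.coeff_one, if_neg]
    rw [Nat.cast_zero, zero_mul] at hj
    omega
  | succ m ih =>
    intro j hj
    rw [pow_succ]
    apply coeff_mul_eq_zero_of_lt ih hX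
    have e : ((m + 1 : ℕ) : ℤ) * n = (m : ℤ) * n + n := by
      push_cast
      ring
    rw [e] at hj
    exact hj

/-- pole bound of a coefficientwise image -/
theorem coeff_coeffMap_eq_zero_of_lt {S : Type*} [CommRing S] (f : R →+* S)
    {X : LaurentSeries R} {n : ℤ} (hX : ∀ j < -n, X.coeff j = 0) :
    ∀ j < -n, (coeffMap f X).coeff j = 0 := by
  intro j hj
  rw [coeffMap_coeff, hX j hj, map_zero]

/-- **`hYord`**: pole bound of `s Z · Z ^ m`. -/
theorem coeff_twist_eq_zero {ι : Type*} (s : R →+* R) (Z : ι → LaurentSeries R) (n : ι → ℤ)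
    (hZ : ∀ i, ∀ j < -(n i), (Z i).coeff j = 0) (m : ℕ) :
    ∀ i, ∀ j < -(n i + m * n i), ((famMap s Z * Z ^ m) i).coeff j = 0 := by
  intro i
  rw [Pi.mul_apply, Pi.pow_apply, famMap_apply]
  exact coeff_mul_eq_zero_of_lt (coeff_coeffMap_eq_zero_of_lt s (hZ i))
    (coeff_pow_eq_zero_of_lt (hZ i) m)

end Pole

/-! ### The expansion of `galF σ f` -/

section Incl

variable {M : ℕ} [NeZero M] {A : ValuationSubring Kb}

/-- `incl (σ Y) = galF σ f` when `incl Y = f` -/
theorem incl_decA_eq_galF (σ : Kb ≃ₐ[ℚ] Kb) (hσ : σ ∈ A.decompositionSubgroup ℚ) (f : FF M)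
    (Y : LaurentSeries A) (hY : incl A Y = (f : LaurentSeries Kb)) :
    incl A (coeffMap (decA σ hσ) Y) = ((galF M σ f : FF M) : LaurentSeries Kb) := by
  change coeffMap A.subtype (actA σ hσ Y) = _
  rw [coeffMap_subtype_actA]
  change coeffMap (σ : Kb →+* Kb) (incl A Y) = _
  rw [hY]
  rfl

/-- `red (σ Y) = red Y` for `σ` in the inertia group -/
theorem red_decA_of_inertia {σ : Kb ≃ₐ[ℚ] Kb} (h : σ ∈ A.inertiaSubgroupIn ℚ)
    (hσ : σ ∈ A.decompositionSubgroup ℚ) (Y : LaurentSeries A) :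
    red A (coeffMap (decA σ hσ) Y) = red A Y := by
  ext j
  change (coeffMap (IsLocalRing.residue A) (coeffMap (decA σ hσ) Y)).coeff j
    = (coeffMap (IsLocalRing.residue A) Y).coeff j
  rw [coeffMap_coeff, coeffMap_coeff, coeffMap_coeff]
  exact residue_decA_of_inertia h hσ _

end Incl

/-! ### The instance `W = atkinLehner N p` -/

section Bad

open Fermat.Agent.T2.helper36

variable (N p : ℕ) [NeZero N] [NeZero p] (hp : p.Prime) (hpN : ¬ p ∣ N)

/-- the Atkin-Lehner involution commutes with `galF` -/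
theorem hWgal_atkinLehner (σ : Kb ≃ₐ[ℚ] Kb) (x : FF (N * p)) :
    atkinLehner N p hp hpN (galF (N * p) σ x) = galF (N * p) σ (atkinLehner N p hp hpN x) :=
  atkinLehner_arithmeticRingAut N p hp hpN σ x

/-- **`hσV`** at the bad pair -/
theorem famMap_decA_mem_VN_bad {A : ValuationSubring Kb} (σ : Kb ≃ₐ[ℚ] Kb)
    (hσ : σ ∈ A.decompositionSubgroup ℚ) (n : ℤ) (U : Fin 2 → LaurentSeries A)
    (hU : famMap A.subtype U ∈ VN (atkinLehner N p hp hpN) n) :
    famMap A.subtype (famMap (decA σ hσ) U) ∈ VN (atkinLehner N p hp hpN) n :=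
  famMap_decA_mem_VN (atkinLehner N p hp hpN) (atkinLehner_atkinLehner N p hp hpN)
    (inftyBar_ne_smul N p hp hpN) (hWgal_atkinLehner N p hp hpN) σ hσ n U hU

/-- **`hmul`** at the bad pair -/
theorem mul_pow_mem_VN_bad {n n' : ℤ} {u v : Fin 2 → LaurentSeries Kb}
    (hu : u ∈ VN (atkinLehner N p hp hpN) n) (hv : v ∈ VN (atkinLehner N p hp hpN) n')
    (m : ℕ) : u * v ^ m ∈ VN (atkinLehner N p hp hpN) (n + m * n') :=
  mul_pow_mem_VN (atkinLehner N p hp hpN) (atkinLehner_atkinLehner N p hp hpN)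
    (inftyBar_ne_smul N p hp hpN) hu hv m

/-- **`hpow`** at the bad pair -/
theorem pow_mem_VN_bad {n : ℤ} {u : Fin 2 → LaurentSeries Kb}
    (hu : u ∈ VN (atkinLehner N p hp hpN) n) (m : ℕ) :
    u ^ m ∈ VN (atkinLehner N p hp hpN) (m * n) :=
  pow_mem_VN (atkinLehner N p hp hpN) (atkinLehner_atkinLehner N p hp hpN)
    (inftyBar_ne_smul N p hp hpN) hu m

/-- **`hY`** at the bad pair -/
theorem twist_pow_mem_VN_bad {A : ValuationSubring Kb} (σ : Kb ≃ₐ[ℚ] Kb)
    (hσ : σ ∈ A.decompositionSubgroup ℚ) (q m : ℕ) (n' : ℤ) (Z : Fin 2 → LaurentSeries A)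
    (hZ : (famMap A.subtype Z) ^ q ∈ VN (atkinLehner N p hp hpN) n') :
    (famMap A.subtype (famMap (decA σ hσ) Z * Z ^ m)) ^ q
      ∈ VN (atkinLehner N p hp hpN) (n' + m * n') :=
  twist_pow_mem_VN (atkinLehner N p hp hpN) (atkinLehner_atkinLehner N p hp hpN)
    (inftyBar_ne_smul N p hp hpN) (hWgal_atkinLehner N p hp hpN) σ hσ q m n' Z hZ

end Bad

end Fermat.Agent.T7.helper23

end
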