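/-
T7 (S33), leaf [B4-INST] (helper74, owner): the instance hypotheses of the `p`-pivot
(`helper82.exists_close_of_pow_mem_fam`, `helper40.mem_of_pow_mem_fam_deep_arch`,
`helper96.mem_of_twist`) for the PAIR of cusps `∞`, `∞₂ = W ∞`.

Setting of `T2.helper74_Pivot2`: a level `M`, an involution `W` of `F_M`, `A` a valuation
subring of `ℚ̄`; `V = VN W N` = pairs of expansions of the functions of `L(N (∞ + ∞₂))`.
Nothing here depends on the exponent being prime to the residue characteristic.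

* `b4_att`   : attained content on `VN W N`                         (`hVatt`, `hV₂att`, ...);
* `b4_ord`   : pole bound on `VN W N`                               (`hVord`);
* `b4_pow`   : `u ∈ VN W N → u ^ m ∈ VN W (m N)`                    (`hpow`);
* `b4_one`   : `1 ∈ VN W N` for `0 ≤ N`                             (`hone`);
* `b4_mul`   : `u, v ∈ VN W N → u * v ^ m ∈ VN W ((m + 1) N)`       (`hmul`);
* `b4_red`   : the reduction statement of the deep pivot from `Sat2` (`hred`, `hred₂`);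
* `b4_FC`    : Frobenius closedness in family form from `RegRed2` + `SN2` + `Sat2` (`hFC`);
* `b4_root_mem`, `b4_root_ord` : the pair of formal roots (`hZ`, `hZord`, `hY`, `hYord`).
-/
import Mathlib
import Fermat.Agent.T2.helper74_RootEndBad
import Fermat.Agent.T2.helper22_Good
import Fermat.Agent.T2.helper87_RegRed2U
import Fermat.Agent.T7.helper15_FCInst
import Fermat.Agent.T7.helper96_Twist

set_option autoImplicit false
set_option synthInstance.maxHeartbeats 400000
set_option linter.unusedSectionVars false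
set_option linter.unusedVariables false
set_option linter.style.haveILetI false
set_option linter.style.longLine false

noncomputable section

open HahnSeries IntermediateField AlgebraicCurve ModularCurve
open Fermat.Agent.S18.helper19 Fermat.Agent.P2.helper29
open Fermat.Agent.P2.helper22 Fermat.Agent.P2.helper74
open Fermat.Agent.T2.helper74

namespace Fermat.Agent.T7.helper74

section Generic

variable {M : ℕ} [NeZero M] (W : FF M ≃ₐ[Kb] FF M) (A : ValuationSubring Kb)

/-- `hVatt` : the Gauss norm is attained on `VN W N` -/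
theorem b4_att (hWW : ∀ f, W (W f) = f) (hne : inftyBar M ≠ W • inftyBar M)
    (hPN : PairNormStatement W A)
    (hInt : Fermat.Agent.T2.helper22.Integrality2Statement M A W) (N : ℤ) :
    ∀ u ∈ VN W N, u ≠ 0 → ContentAttainedFam A (IsLocalRing.residue A) u := by
  intro u hu hu0
  obtain ⟨f, hf1, -, -, rfl⟩ := (mem_VN_iff W hWW hne N u).mp hu
  have hf0 : f ≠ 0 := by
    rintro rfl
    exact hu0 (map_zero _)
  exact contentAttained_pair hWW hPN hInt f hf0 hf1

/-- `hVord` : the pole bound on `VN W N` -/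
theorem b4_ord (hWW : ∀ f, W (W f) = f) (hne : inftyBar M ≠ W • inftyBar M) (N : ℤ) :
    ∀ u ∈ VN W N, ∀ i : Fin 2, ∀ j < -N, (u i).coeff j = 0 := by
  intro u hu i j hj
  obtain ⟨f, -, hf2, hf3, rfl⟩ := (mem_VN_iff W hWW hne N u).mp hu
  fin_cases i
  · exact hf2 j hj
  · exact hf3 j hj

/-- `hpow` : powers -/
theorem b4_pow (hWW : ∀ f, W (W f) = f) (hne : inftyBar M ≠ W • inftyBar M) (N : ℤ) (m : ℕ) :
    ∀ u ∈ VN W N, u ^ m ∈ VN W (m * N) := by
  intro u hu
  obtain ⟨f, hf, rfl⟩ := Submodule.mem_map.mp hu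
  rw [← pairLin_pow]
  exact Submodule.mem_map_of_mem (pow_mem_L2 W hWW hne N hf m)

/-- `hone` : the constant family `1` -/
theorem b4_one (hWW : ∀ f, W (W f) = f) (hne : inftyBar M ≠ W • inftyBar M) (N : ℤ)
    (hN : 0 ≤ N) : (1 : Fin 2 → LaurentSeries Kb) ∈ VN W N := by
  have h := b4_pow W hWW hne N 0 0 (zero_mem _)
  rw [pow_zero] at h
  have hle : VN W ((0 : ℕ) * N) ≤ VN W N := by
    intro u hu
    obtain ⟨f, h1, h2, h3, rfl⟩ := (mem_VN_iff W hWW hne _ u).mp hu
    refine (mem_VN_iff W hWW hne N _).mpr ⟨f, h1, fun k hk => h2 k ?_, fun k hk => h3 k ?_, rfl⟩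
    · push_cast
      omega
    · push_cast
      omega
  exact hle h


/-! ### Products -/

theorem coeff_mul_eq_zero_of {x y : LaurentSeries Kb} {a b : ℤ}
    (hx : ∀ k : ℤ, k < -a → x.coeff k = 0) (hy : ∀ k : ℤ, k < -b → y.coeff k = 0)
    (k : ℤ) (hk : k < -(a + b)) : (x * y).coeff k = 0 := by
  rcases eq_or_ne x 0 with rfl | hx0
  · rw [zero_mul]
    rfl
  rcases eq_or_ne y 0 with rfl | hy0
  · rw [mul_zero]
    rfl
  have h1 := (coeff_eq_zero_iff_le_order hx0).mp hx
  have h2 := (coeff_eq_zero_iff_le_order hy0).mp hy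
  apply HahnSeries.coeff_eq_zero_of_lt_order
  rw [order_mul_field hx0 hy0]
  omega

theorem pairLin_mul (f g : FF M) : pairLin W (f * g) = pairLin W f * pairLin W g := by
  rw [pairLin_eq_iff]
  refine ⟨?_, ?_⟩
  · rw [Pi.mul_apply, pairLin_zero', pairLin_zero']
    rfl
  · rw [Pi.mul_apply, pairLin_one', pairLin_one', map_mul]
    rfl

theorem regOff2_pow {f : FF M} (hf : RegOff2 W f) (m : ℕ) : RegOff2 W (f ^ m) := by
  induction m with
  | zero => rw [pow_zero]; exact RegOff2.one W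
  | succ k ih => rw [pow_succ]; exact RegOff2.mul W ih hf

/-- `hmul` : `u, v ∈ VN W N → u * v ^ m ∈ VN W ((m + 1) N)` -/
theorem b4_mul (hWW : ∀ f, W (W f) = f) (hne : inftyBar M ≠ W • inftyBar M) (N : ℤ) (m : ℕ) :
    ∀ u v : Fin 2 → LaurentSeries Kb, u ∈ VN W N → v ∈ VN W N →
      u * v ^ m ∈ VN W (((m + 1 : ℕ) : ℤ) * N) := by
  intro u v hu hv
  obtain ⟨f, hf1, hf2, hf3, rfl⟩ := (mem_VN_iff W hWW hne N u).mp hu
  obtain ⟨g, hg1, hg2, hg3, rfl⟩ := (mem_VN_iff W hWW hne N v).mp hv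
  rw [← pairLin_pow, ← pairLin_mul]
  refine (mem_VN_iff W hWW hne _ _).mpr ⟨f * g ^ m, RegOff2.mul W hf1 (regOff2_pow W hg1 m),
    ?_, ?_, rfl⟩
  · intro k hk
    have e : ((f * g ^ m : FF M) : LaurentSeries Kb)
        = (f : LaurentSeries Kb) * (g : LaurentSeries Kb) ^ m := rfl
    rw [e]
    refine coeff_mul_eq_zero_of hf2 (coeff_pow_eq_zero hg2 m) k ?_
    push_cast at hk
    linarith
  · intro k hk
    have e : ((W (f * g ^ m) : FF M) : LaurentSeries Kb)
        = ((W f : FF M) : LaurentSeries Kb) * ((W g : FF M) : LaurentSeries Kb) ^ m := by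
      rw [map_mul, map_pow]
      rfl
    rw [e]
    refine coeff_mul_eq_zero_of hf3 (coeff_pow_eq_zero hg3 m) k ?_
    push_cast at hk
    linarith

/-! ### The reduction statements -/

/-- `hred` : the reduction statement of the pivot, from `Sat2`: for `N ≥ N₀` every integral
element of ANY `VN W N'` whose reduction has pole orders `≤ N` has the reduction of an
integral element of `VN W N`. -/
theorem b4_red (hWW : ∀ f, W (W f) = f) (hne : inftyBar M ≠ W • inftyBar M)
    (hSat : Fermat.Agent.T2.helper22.Sat2Statement M A W) :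
    ∃ N₀ : ℤ, ∀ N : ℤ, N₀ ≤ N → ∀ N' : ℤ, ∀ Z : Fin 2 → LaurentSeries A,
      famMap A.subtype Z ∈ VN W N' →
      (∀ i, ∀ j < -N, (famMap (IsLocalRing.residue A) Z i).coeff j = 0) →
      ∃ Z' : Fin 2 → LaurentSeries A, famMap A.subtype Z' ∈ VN W N ∧
        famMap (IsLocalRing.residue A) Z' = famMap (IsLocalRing.residue A) Z := by
  obtain ⟨N₀, hN₀⟩ := hSat
  refine ⟨N₀, fun N hN1 N' Z hZ hZred => ?_⟩
  obtain ⟨F, hF1, -, -, hF4⟩ := (mem_VN_iff W hWW hne N' _).mp hZ
  rw [pairLin_eq_iff] at hF4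
  obtain ⟨f', Z₁', Z₂', hf'1, hf'2, hf'3, hf'4, hf'5, hf'6⟩ := hN₀ N hN1 F (Z 0) (Z 1)
    (isReg2_of_regOff2 hF1) ⟨hF4.1.symm, hF4.2.symm⟩ (hZred 0) (hZred 1)
  refine ⟨![Z₁', Z₂'], ?_, ?_⟩
  · rw [mem_VN_iff W hWW hne]
    refine ⟨f', regOff2_of_isReg2 hf'1, ?_, ?_, ?_⟩
    · intro k hk
      rw [← hf'2.1]
      show (coeffMap A.subtype Z₁').coeff k = 0
      rw [coeffMap_coeff, hf'3 k hk, map_zero]
    · intro k hk
      rw [← hf'2.2]
      show (coeffMap A.subtype Z₂').coeff k = 0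
      rw [coeffMap_coeff, hf'4 k hk, map_zero]
    · rw [pairLin_eq_iff]
      exact ⟨hf'2.1.symm, hf'2.2.symm⟩
  · funext i
    fin_cases i
    · exact hf'5
    · exact hf'6

/-- `hFC` : **Frobenius closedness in family form** at the pair of cusps, from `RegRed2`, `SN2`
(through `helper15.exists_rep_of_red_eq_pow`) and `Sat2`. -/
theorem b4_FC (hWW : ∀ f, W (W f) = f) (hne : inftyBar M ≠ W • inftyBar M)
    (hSat : Fermat.Agent.T2.helper22.Sat2Statement M A W)
    (hReg : Fermat.Agent.T2.helper22.RegRed2Statement M A W)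
    (hSN : Fermat.Agent.T2.helper22.SN2Statement M A W)
    (p : ℕ) [Fact p.Prime] [CharP (kA A) p] :
    ∃ N₀ : ℤ, ∀ N : ℤ, N₀ ≤ N → ∀ N' : ℤ, ∀ Φ Z : Fin 2 → LaurentSeries A,
      famMap A.subtype Φ ∈ VN W N' →
      (∀ i, ∀ j < -N, (Z i).coeff j = 0) →
      famMap (IsLocalRing.residue A) Φ = famMap (IsLocalRing.residue A) Z ^ p →
      ∃ Z' : Fin 2 → LaurentSeries A, famMap A.subtype Z' ∈ VN W N ∧
        famMap (IsLocalRing.residue A) Z' = famMap (IsLocalRing.residue A) Z := by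
  obtain ⟨N₀, hN₀⟩ := hSat
  refine ⟨N₀, fun N hN1 N' Φ Z hΦ hZord hred => ?_⟩
  obtain ⟨F, hF1, -, -, hF4⟩ := (mem_VN_iff W hWW hne N' _).mp hΦ
  rw [pairLin_eq_iff] at hF4
  have hrep : Fermat.Agent.T2.helper22.IsRep A W F (Φ 0) (Φ 1) := ⟨hF4.1.symm, hF4.2.symm⟩
  have h1 : red A (Φ 0) = red A (Z 0) ^ p ^ 1 := by
    rw [pow_one]
    exact congrFun hred 0
  have h2 : red A (Φ 1) = red A (Z 1) ^ p ^ 1 := by
    rw [pow_one]
    exact congrFun hred 1
  obtain ⟨g, G₁, G₂, hg, hG, hr1, hr2⟩ :=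
    Fermat.Agent.T7.helper15.exists_rep_of_red_eq_pow hWW hReg hSN p 1
      (isReg2_of_regOff2 hF1) hrep h1 h2
  have hz : ∀ (X : LaurentSeries A), (∀ j < -N, X.coeff j = 0) →
      ∀ k : ℤ, k < -N → (red A X).coeff k = 0 := by
    intro X hX k hk
    show (coeffMap (IsLocalRing.residue A) X).coeff k = 0
    rw [coeffMap_coeff, hX k hk, map_zero]
  obtain ⟨f', Z₁', Z₂', hf'1, hf'2, hf'3, hf'4, hf'5, hf'6⟩ := hN₀ N hN1 g G₁ G₂ hg hG
    (by rw [hr1]; exact hz _ (hZord 0)) (by rw [hr2]; exact hz _ (hZord 1))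
  refine ⟨![Z₁', Z₂'], ?_, ?_⟩
  · rw [mem_VN_iff W hWW hne]
    refine ⟨f', regOff2_of_isReg2 hf'1, ?_, ?_, ?_⟩
    · intro k hk
      rw [← hf'2.1]
      show (coeffMap A.subtype Z₁').coeff k = 0
      rw [coeffMap_coeff, hf'3 k hk, map_zero]
    · intro k hk
      rw [← hf'2.2]
      show (coeffMap A.subtype Z₂').coeff k = 0
      rw [coeffMap_coeff, hf'4 k hk, map_zero]
    · rw [pairLin_eq_iff]
      exact ⟨hf'2.1.symm, hf'2.2.symm⟩
  · funext i
    fin_cases i
    · exact hf'5.trans hr1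
    · exact hf'6.trans hr2


/-! ### The pair of formal roots -/

theorem coeff_incl_eq_zero_of {X : LaurentSeries A} {N : ℤ} (hX : ∀ j < -N, X.coeff j = 0)
    (k : ℤ) (hk : k < -N) : (incl A X).coeff k = 0 := by
  show (coeffMap A.subtype X).coeff k = 0
  rw [coeffMap_coeff, hX k hk, map_zero]

theorem coeff_eq_zero_of_incl {X : LaurentSeries A} {k : ℤ} (h : (incl A X).coeff k = 0) :
    X.coeff k = 0 := by
  have h1 : (coeffMap A.subtype X).coeff k = 0 := h
  rw [coeffMap_coeff] at h1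
  exact Subtype.ext h1

/-- `hZ`, `hY` : the `m`-th power of a pair of integral series which are formal `m`-th roots
of the pair of expansions of `H`, with pole orders `≤ N`, lies in `VN W (m N)`. -/
theorem b4_root_mem (hWW : ∀ f, W (W f) = f) (hne : inftyBar M ≠ W • inftyBar M)
    (H : FF M) (hH : RegOff2 W H) (X : Fin 2 → LaurentSeries A) (m : ℕ) (N : ℤ)
    (h1 : incl A (X 0) ^ m = (H : LaurentSeries Kb))
    (h2 : incl A (X 1) ^ m = ((W H : FF M) : LaurentSeries Kb))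
    (hX : ∀ i, ∀ j < -N, (X i).coeff j = 0) :
    (famMap A.subtype X) ^ m ∈ VN W ((m : ℤ) * N) := by
  have e : (famMap A.subtype X) ^ m = pairLin W H := by
    symm
    rw [pairLin_eq_iff]
    exact ⟨h1.symm, h2.symm⟩
  rw [e, mem_VN_iff W hWW hne]
  refine ⟨H, hH, ?_, ?_, rfl⟩
  · intro k hk
    rw [← h1]
    exact coeff_pow_eq_zero (fun k hk => coeff_incl_eq_zero_of A (hX 0) k hk) m k hk
  · intro k hk
    rw [← h2]
    exact coeff_pow_eq_zero (fun k hk => coeff_incl_eq_zero_of A (hX 1) k hk) m k hk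

/-- `hYord` : the pole bound of the twisted root `sA(Z) Z ^ m` -/
theorem b4_twist_ord (sA : A →+* A) (Z : Fin 2 → LaurentSeries A) (m : ℕ) (N : ℤ)
    (hZ : ∀ i, ∀ j < -N, (Z i).coeff j = 0) :
    ∀ i, ∀ j < -(((m + 1 : ℕ) : ℤ) * N), ((famMap sA Z * Z ^ m) i).coeff j = 0 := by
  intro i j hj
  apply coeff_eq_zero_of_incl A
  have e : incl A ((famMap sA Z * Z ^ m) i) = incl A (coeffMap sA (Z i)) * incl A (Z i) ^ m := by
    show incl A (coeffMap sA (Z i) * Z i ^ m) = _
    rw [map_mul, map_pow]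
  rw [e]
  have hs : ∀ k : ℤ, k < -N → (incl A (coeffMap sA (Z i))).coeff k = 0 := by
    intro k hk
    apply coeff_incl_eq_zero_of A _ k hk
    intro j hj
    rw [coeffMap_coeff, hZ i j hj, map_zero]
  refine coeff_mul_eq_zero_of hs
    (coeff_pow_eq_zero (fun k hk => coeff_incl_eq_zero_of A (hZ i) k hk) m) j ?_
  push_cast at hj
  linarith


/-! ### The monoid trick at the pair of cusps -/

/-- **[B4-INST], combined form**: `helper96.mem_of_twist` at the pair of cusps.  The pair of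
twisted roots `sA(Z_i) Z_i ^ (p - a)` of `H'` (`= σ(H) H ^ (p - a)`) is the pair of expansions
of a function `v`; in particular `v ^ p = H'`.

Inputs still open: the cyclotomic data `l, τ, s, r`, the inertia data `sA` ([GAL]) and the
attained content `hatt` ([ATT]). -/
theorem twist_pair (hWW : ∀ f, W (W f) = f) (hne : inftyBar M ≠ W • inftyBar M)
    (p : ℕ) (hp : p.Prime) (hA : A.LiesOverPrime p)
    (hPN : PairNormStatement W A)
    (hInt : Fermat.Agent.T2.helper22.Integrality2Statement M A W)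
    (hSat : Fermat.Agent.T2.helper22.Sat2Statement M A W)
    (hReg : Fermat.Agent.T2.helper22.RegRed2Statement M A W)
    (hSN : Fermat.Agent.T2.helper22.SN2Statement M A W)
    -- the cyclotomic data
    (l τ s r : A) (hl : (p : A) = l ^ (p - 1) * τ) (hls : l ^ (p - 1) = (p : A) * s)
    (hπl : IsLocalRing.residue A l = 0)
    -- the inertia data
    (sA : A →+* A) (hsπ : ∀ x, IsLocalRing.residue A (sA x) = IsLocalRing.residue A x)
    (a : ℕ) (ha : a ≤ p) (hsl : sA l = l * ((a : A) + l * r))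
    (hσV : ∀ (N : ℤ) (U : Fin 2 → LaurentSeries A), famMap A.subtype U ∈ VN W N →
      famMap A.subtype (famMap sA U) ∈ VN W N)
    -- the function and its pair of roots
    (H : FF M) (hH : RegOff2 W H) (Z₁ Z₂ : LaurentSeries A)
    (h1 : incl A Z₁ ^ p = (H : LaurentSeries Kb))
    (h2 : incl A Z₂ ^ p = ((W H : FF M) : LaurentSeries Kb))
    (hr1 : red A Z₁ = 1) (hr2 : red A Z₂ = 1)
    -- the twisted function
    (H' : FF M) (hH' : RegOff2 W H')
    (h1' : incl A (coeffMap sA Z₁ * Z₁ ^ (p - a)) ^ p = (H' : LaurentSeries Kb))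
    (h2' : incl A (coeffMap sA Z₂ * Z₂ ^ (p - a)) ^ p = ((W H' : FF M) : LaurentSeries Kb))
    -- attained content
    (hatt : ∀ (N : ℤ), ∀ u ∈ VN W N, famMap A.subtype ![Z₁, Z₂] - u ≠ 0 →
      ContentAttainedFam A (IsLocalRing.residue A) (famMap A.subtype ![Z₁, Z₂] - u)) :
    ∃ v : FF M, (v : LaurentSeries Kb) = incl A (coeffMap sA Z₁ * Z₁ ^ (p - a)) ∧
      ((W v : FF M) : LaurentSeries Kb) = incl A (coeffMap sA Z₂ * Z₂ ^ (p - a)) := by
  haveI : Fact p.Prime := ⟨hp⟩
  haveI : CharP (kA A) p := Fermat.Agent.P2.helper93.charP_residueField hp hA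
  obtain ⟨N₁, hN₁⟩ := b4_red W A hWW hne hSat
  obtain ⟨N₂, hN₂⟩ := b4_FC W A hWW hne hSat hReg hSN p
  set N : ℤ := max (max (max N₁ N₂) 0) (max (-(Z₁.order)) (-(Z₂.order))) with hN
  have hNa : N₁ ≤ N :=
    le_trans (le_trans (le_max_left _ _) (le_max_left _ _)) (le_max_left _ _)
  have hNb : N₂ ≤ N :=
    le_trans (le_trans (le_max_right _ _) (le_max_left _ _)) (le_max_left _ _)
  have hN0 : 0 ≤ N := le_trans (le_max_right _ _) (le_max_left _ _)
  have hN3 : -N ≤ Z₁.order := by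
    have := le_trans (le_max_left (-(Z₁.order)) (-(Z₂.order)))
      (le_max_right (max (max N₁ N₂) 0) _)
    rw [← hN] at this
    omega
  have hN4 : -N ≤ Z₂.order := by
    have := le_trans (le_max_right (-(Z₁.order)) (-(Z₂.order)))
      (le_max_right (max (max N₁ N₂) 0) _)
    rw [← hN] at this
    omega
  set m : ℕ := p - a with hm
  set n₂ : ℤ := ((m + 1 : ℕ) : ℤ) * N with hn₂
  have hn₂N : N ≤ n₂ := by
    rw [hn₂]
    push_cast
    nlinarith [Int.natCast_nonneg m]
  have hn₂0 : 0 ≤ n₂ := le_trans hN0 hn₂N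
  have hπ : ∀ x : A, IsLocalRing.residue A x ≠ 0 → IsUnit x :=
    fun x hx => Fermat.Agent.P2.helper96.isUnit_of_residue_ne_zero x hx
  have hZord : ∀ i : Fin 2, ∀ j < -N, ((![Z₁, Z₂] : Fin 2 → LaurentSeries A) i).coeff j = 0 := by
    intro i j hj
    fin_cases i
    · exact HahnSeries.coeff_eq_zero_of_lt_order (lt_of_lt_of_le hj hN3)
    · exact HahnSeries.coeff_eq_zero_of_lt_order (lt_of_lt_of_le hj hN4)
  have hpL : ((p : ℕ) : Kb) ≠ 0 := Nat.cast_ne_zero.mpr hp.ne_zero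
  have hpk : ((p : ℕ) : kA A) = 0 := CharP.cast_eq_zero (kA A) p
  have hkey := Fermat.Agent.T7.helper96.mem_of_twist A (IsLocalRing.residue A) hπ
    IsLocalRing.residue_surjective (Fermat.Agent.P2.helper74.arch_algebraicClosure A p hp hA)
    p hp hpL hpk l τ s r hl hls hπl sA hsπ a ha hsl
    (VN W N) (VN W ((p : ℤ) * N)) (fun _ => N)
    (b4_att W A hWW hne hPN hInt N) (b4_ord W hWW hne N) (b4_pow W hWW hne N p)
    (b4_one W hWW hne N hN0)
    (fun Φ Z hΦ hZ hred => hN₂ N hNb _ Φ Z hΦ hZ hred)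
    (VN W n₂) (VN W ((p : ℤ) * n₂)) (fun _ => n₂) (fun _ => hn₂0)
    (b4_att W A hWW hne hPN hInt n₂) (b4_att W A hWW hne hPN hInt _)
    (b4_ord W hWW hne n₂) (b4_pow W hWW hne n₂ p)
    (fun Z hZ hZred => hN₁ n₂ (le_trans hNa hn₂N) _ Z hZ hZred)
    (fun U hU => hσV N U hU)
    (fun u v hu hv => b4_mul W hWW hne N m u v hu hv)
    ![Z₁, Z₂]
    (b4_root_mem W A hWW hne H hH ![Z₁, Z₂] p N h1 h2 hZord)
    (by
      funext i
      fin_cases i
      · exact hr1
      · exact hr2)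
    hZord (hatt N)
    (b4_root_mem W A hWW hne H' hH' (famMap sA ![Z₁, Z₂] * ![Z₁, Z₂] ^ m) p n₂ h1' h2'
      (b4_twist_ord A sA ![Z₁, Z₂] m N hZord))
    (b4_twist_ord A sA ![Z₁, Z₂] m N hZord)
  obtain ⟨v, -, -, -, hv⟩ := (mem_VN_iff W hWW hne n₂ _).mp hkey
  rw [pairLin_eq_iff] at hv
  exact ⟨v, hv.1, hv.2⟩

end Generic

/-! ### The instance `M = N * p`, `W = atkinLehner N p`, `A` over `p`, `N` good -/

section Bad

open Fermat.Agent.T2.helper36

variable (N p : ℕ) [NeZero N] [NeZero p] (hp : p.Prime) (hpN : ¬ p ∣ N)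
variable (A : ValuationSubring Kb) (hA : A.LiesOverPrime p)

include hA in
/-- **[B4-INST]** at the bad pair: `helper96.mem_of_twist` for `M = N * p`,
`W = atkinLehner N p`, `A` over `p`, `N` a good level.  Open inputs: the cyclotomic data,
the inertia data ([GAL]) and the attained content ([ATT]). -/
theorem twist_pair_bad (hN : 4 ∣ N ∨ 9 ∣ N)
    (l τ s r : A) (hl : (p : A) = l ^ (p - 1) * τ) (hls : l ^ (p - 1) = (p : A) * s)
    (hπl : IsLocalRing.residue A l = 0)
    (sA : A →+* A) (hsπ : ∀ x, IsLocalRing.residue A (sA x) = IsLocalRing.residue A x)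
    (a : ℕ) (ha : a ≤ p) (hsl : sA l = l * ((a : A) + l * r))
    (hσV : ∀ (n : ℤ) (U : Fin 2 → LaurentSeries A),
      famMap A.subtype U ∈ VN (atkinLehner N p hp hpN) n →
      famMap A.subtype (famMap sA U) ∈ VN (atkinLehner N p hp hpN) n)
    (H : FF (N * p)) (hH : RegOff2 (atkinLehner N p hp hpN) H) (Z₁ Z₂ : LaurentSeries A)
    (h1 : incl A Z₁ ^ p = (H : LaurentSeries Kb))
    (h2 : incl A Z₂ ^ p = ((atkinLehner N p hp hpN H : FF (N * p)) : LaurentSeries Kb))
    (hr1 : red A Z₁ = 1) (hr2 : red A Z₂ = 1)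
    (H' : FF (N * p)) (hH' : RegOff2 (atkinLehner N p hp hpN) H')
    (h1' : incl A (coeffMap sA Z₁ * Z₁ ^ (p - a)) ^ p = (H' : LaurentSeries Kb))
    (h2' : incl A (coeffMap sA Z₂ * Z₂ ^ (p - a)) ^ p
      = ((atkinLehner N p hp hpN H' : FF (N * p)) : LaurentSeries Kb))
    (hatt : ∀ (n : ℤ), ∀ u ∈ VN (atkinLehner N p hp hpN) n,
      famMap A.subtype ![Z₁, Z₂] - u ≠ 0 →
      ContentAttainedFam A (IsLocalRing.residue A) (famMap A.subtype ![Z₁, Z₂] - u)) :
    ∃ v : FF (N * p), (v : LaurentSeries Kb) = incl A (coeffMap sA Z₁ * Z₁ ^ (p - a)) ∧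
      ((atkinLehner N p hp hpN v : FF (N * p)) : LaurentSeries Kb)
        = incl A (coeffMap sA Z₂ * Z₂ ^ (p - a)) :=
  twist_pair (atkinLehner N p hp hpN) A (atkinLehner_atkinLehner N p hp hpN)
    (inftyBar_ne_smul N p hp hpN) p hp hA (pairNorm_bad N p hp hpN A hA)
    (integrality2_bad N p hp hpN A) (sat2_bad N p hp hpN A hA hN)
    (Fermat.Agent.T2.helper87.regRed2_holds N p hp hpN A hA)
    (Fermat.Agent.T2.helper22.sn2_good N p hp hpN hN A hA)
    l τ s r hl hls hπl sA hsπ a ha hsl hσV H hH Z₁ Z₂ h1 h2 hr1 hr2 H' hH' h1' h2' hatt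

end Bad

end Fermat.Agent.T7.helper74

end
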