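import Mathlib
import Fermat.Agent.T7.helper74_B4Inst
import Fermat.Agent.T7.helper22_AttInst
import Fermat.Agent.T7.helper23_GalTwist
import Fermat.Agent.T7.helper27_G1Asm
import Fermat.Agent.T7.helper84_PPow
import Fermat.Agent.P2.helper93_ESRed

/-!
# T7 [B4-ASM] (helper23, spare twin): contract [B4] at the bad pair, unconditional

`b4_bad : helper27.B4Statement (N * p) (atkinLehner N p) A p` for `N` good (`4 ∣ N ∨ 9 ∣ N`),
`p ∤ N` prime, `A` a valuation subring of `ℚ̄` over `p`: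

  a strongly split `K`, `σ` in the inertia group acting on `μ_p` by `z ↦ z ^ a` (`0 < a < p`)
  ⟹ `galF σ K * K ^ (p - a)` is a `p`-th power in `F_{N p}`.

Assembly of
* `helper74.twist_pair_bad`  ([B4-INST] = `helper96.mem_of_twist` at the pair of cusps),
* `helper22.hatt_bad`        ([ATT], number-field discreteness),
* `helper23` `GalTwist`      ([GAL]: `sA = decA σ`, `hsπ`, `hsl`, `hσV`),
* the cyclotomic data `exists_cyclo_data` (`l = ζ - 1`, `p = l ^ (p - 1) τ`,
  `l ^ (p - 1) = p s`, from `helper84.ppow_lambda_rel`).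
-/

set_option autoImplicit false
set_option linter.unusedSectionVars false
set_option linter.unusedVariables false

noncomputable section

open HahnSeries IntermediateField AlgebraicCurve ModularCurve
open Fermat.Agent.S18.helper19 Fermat.Agent.P2.helper29 Fermat.Agent.P2.helper22
open Fermat.Agent.P2.helper93
open Fermat.Agent.T2.helper74 Fermat.Agent.T2.helper36

namespace Fermat.Agent.T7.helper23

/-! ### Cyclotomic data -/

/-- **cyclotomic data**: for a primitive `p`-th root of unity `ζ` of `ℚ̄` and a valuation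
subring `A` over `p`, `l = ζ - 1` is critical: `p = l ^ (p - 1) τ`, `l ^ (p - 1) = p s`,
`red l = 0`. -/
theorem exists_cyclo_data (A : ValuationSubring Kb) {p : ℕ} (hp : p.Prime)
    (hA : A.LiesOverPrime p) {ζ : Kb} (hζ : IsPrimitiveRoot ζ p) :
    ∃ (z l τ s : A), (z : Kb) = ζ ∧ l = z - 1 ∧ (p : A) = l ^ (p - 1) * τ ∧
      l ^ (p - 1) = (p : A) * s ∧ IsLocalRing.residue A l = 0 := by
  set z : A := ((rootUnit A hp.ne_zero hζ.pow_eq_one : (↥A)ˣ) : ↥A) with hz
  have hzc : (z : Kb) = ζ := rfl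
  have hmem : z - 1 ∈ IsLocalRing.maximalIdeal ↥A := rootUnit_sub_one_mem hp hA hζ.pow_eq_one
  have hres : IsLocalRing.residue A (z - 1) = 0 :=
    (IsLocalRing.residue_eq_zero_iff _).mpr hmem
  -- the geometric sum vanishes
  have hsum : ∑ i ∈ Finset.range p, z ^ i = 0 := by
    apply Subtype.ext
    have h0 : ∑ i ∈ Finset.range p, ζ ^ i = 0 := hζ.geom_sum_eq_zero hp.one_lt
    have h1 : A.subtype (∑ i ∈ Finset.range p, z ^ i) = ∑ i ∈ Finset.range p, ζ ^ i := by
      rw [map_sum]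
      refine Finset.sum_congr rfl fun i _ => ?_
      rw [map_pow]
      rfl
    exact h1.trans h0
  obtain ⟨m, hm⟩ := Fermat.Agent.T7.helper84.ppow_lambda_rel hp hsum
  -- `1 + (z - 1) m` is a unit
  have hu : IsUnit (1 + (z - 1) * m) := by
    have h1 : IsLocalRing.residue A (1 + (z - 1) * m) = 1 := by
      rw [map_add, map_mul, hres, zero_mul, add_zero, map_one]
    by_contra hnu
    have h2 : (1 + (z - 1) * m) ∈ IsLocalRing.maximalIdeal ↥A :=
      (IsLocalRing.mem_maximalIdeal _).mpr hnu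
    rw [← IsLocalRing.residue_eq_zero_iff, h1] at h2
    exact one_ne_zero h2
  obtain ⟨w, hw⟩ := hu
  refine ⟨z, z - 1, -((w⁻¹ : (↥A)ˣ) : ↥A), -(1 + (z - 1) * m), hzc, rfl, ?_, ?_, hres⟩
  · have h3 : (z - 1) ^ (p - 1) = -((p : A) * (1 + (z - 1) * m)) := by rw [hm]; ring
    rw [h3, ← hw]
    have h4 : (w : ↥A) * ((w⁻¹ : (↥A)ˣ) : ↥A) = 1 := Units.mul_inv w
    calc (p : A) = (p : A) * ((w : ↥A) * ((w⁻¹ : (↥A)ˣ) : ↥A)) := by rw [h4, mul_one]
      _ = -((p : A) * (w : ↥A)) * -((w⁻¹ : (↥A)ˣ) : ↥A) := by ring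
  · have h3 : (z - 1) ^ (p - 1) = -((p : A) * (1 + (z - 1) * m)) := by rw [hm]; ring
    rw [h3]
    ring

/-! ### The assembly -/

section Bad

variable (N p : ℕ) [NeZero N] [NeZero p] (hp : p.Prime) (hpN : ¬ p ∣ N)

/-- **Contract [B4] at the bad pair, unconditional.** -/
theorem b4_bad (hN : 4 ∣ N ∨ 9 ∣ N) (A : ValuationSubring Kb) (hA : A.LiesOverPrime p) :
    Fermat.Agent.T7.helper27.B4Statement (N * p) (atkinLehner N p hp hpN) A p := by
  intro K hK σ hσ a ha0 hap hza
  obtain ⟨hA0, -, Z₁, Z₂, h1, h2, hr1, hr2⟩ := hK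
  have hreg : RegOff2 (atkinLehner N p hp hpN) K := hA0.1
  have hσd : σ ∈ A.decompositionSubgroup ℚ := mem_decomposition_of_inertia hσ
  -- cyclotomic data
  obtain ⟨ζ, hζ⟩ := HasEnoughRootsOfUnity.exists_primitiveRoot Kb p
  obtain ⟨z, l, τ, s, hzc, hlz, hl, hls, hπl⟩ := exists_cyclo_data A hp hA hζ
  have hσz : σ (z : Kb) = (z : Kb) ^ a := by
    rw [hzc]
    exact hza ζ hζ.pow_eq_one
  obtain ⟨r, hr⟩ := exists_decA_sub_one σ hσd z a hσz
  rw [← hlz] at hr
  -- the twisted function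
  set W := atkinLehner N p hp hpN with hW
  have hWgal := hWgal_atkinLehner N p hp hpN
  set H' : FF (N * p) := galF (N * p) σ K * K ^ (p - a) with hH'
  have hregσ : RegOff2 W (galF (N * p) σ K) :=
    regOff2_of_isReg2 (isReg2_galF W hWgal σ (isReg2_of_regOff2 hreg))
  have hregH' : RegOff2 W H' := by
    rw [hH']
    refine RegOff2.mul W hregσ ?_
    generalize p - a = m
    induction m with
    | zero =>
      rw [pow_zero]
      exact RegOff2.one W
    | succ m ih =>
      rw [pow_succ]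
      exact RegOff2.mul W ih hreg
  have key : ∀ (Z : LaurentSeries A) (F : FF (N * p)),
      incl A Z ^ p = (F : LaurentSeries Kb) →
      incl A (coeffMap (decA σ hσd) Z * Z ^ (p - a)) ^ p
        = ((galF (N * p) σ F * F ^ (p - a) : FF (N * p)) : LaurentSeries Kb) := by
    intro Z F hZ
    have e1 : incl A (coeffMap (decA σ hσd) Z)
        = coeffMap (σ : Kb →+* Kb) (incl A Z) := coeffMap_subtype_actA σ hσd Z
    rw [map_mul, map_pow, mul_pow, e1, ← map_pow, hZ, ← pow_mul, mul_comm (p - a) p, pow_mul,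
      hZ]
    rfl
  have h1' := key Z₁ K h1
  have h2' : incl A (coeffMap (decA σ hσd) Z₂ * Z₂ ^ (p - a)) ^ p
      = ((W H' : FF (N * p)) : LaurentSeries Kb) := by
    rw [key Z₂ (W K) h2, hH', map_mul, map_pow, hWgal]
  -- attained content
  have hatt : ∀ (n : ℤ), ∀ u ∈ VN W n, famMap A.subtype ![Z₁, Z₂] - u ≠ 0 →
      ContentAttainedFam A (IsLocalRing.residue A) (famMap A.subtype ![Z₁, Z₂] - u) := by
    intro n u hu hne
    rw [mem_VN_iff W (atkinLehner_atkinLehner N p hp hpN) (inftyBar_ne_smul N p hp hpN)] at hu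
    obtain ⟨f, hf, -, -, rfl⟩ := hu
    exact Fermat.Agent.T7.helper22.hatt_bad N p hp hpN A hA K Z₁ Z₂ h1 h2 f hf hne
  obtain ⟨v, hv, -⟩ := Fermat.Agent.T7.helper74.twist_pair_bad N p hp hpN A hA hN l τ s r hl hls
    hπl (decA σ hσd) (fun x => residue_decA_of_inertia hσ hσd x) a hap.le hr
    (fun n U hU => famMap_decA_mem_VN_bad N p hp hpN σ hσd n U hU)
    K hreg Z₁ Z₂ h1 h2 hr1 hr2 H' hregH' h1' h2' hatt
  refine ⟨v, ?_⟩
  apply Subtype.ext
  show (H' : LaurentSeries Kb) = ((v ^ p : FF (N * p)) : LaurentSeries Kb)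
  rw [← h1']
  show _ = (v : LaurentSeries Kb) ^ p
  rw [hv]

end Bad

end Fermat.Agent.T7.helper23

end
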