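import Mathlib
import Fermat.Agent.P2.helper23_Disc

/-!
# T7 [p-DISC] (d) DISC-UNIT (helper23, second prover): the P2 DISC factorisation for EVERY `m ≠ 0`

The first half of `P2.helper23.disc_root_core` never uses that `m` is a unit of `A`.  For every
exponent `m ≠ 0` (in particular `m = p` the residue characteristic), a function `H = Y₁ / Y₂`
(`Y₁, Y₂` integral expansions with the same nonzero reduction) whose divisor is divisible by `m`
and which is regular where `j` is finite factors, over `R₀ = A ∩ K₀` for every sufficiently large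
number field `K₀`, as

  `H * (X ^ n) ^ m = u * Z ^ m`,  `u` a UNIT of `R₀⟦X⟧`, `Z ∈ R₀⟦X⟧`, `Z ≠ 0`.

The finite set `S` of the statement can be enlarged at will by the caller (take unions), so that
ONE `K₀` serves several functions at once.

Main statements: `disc_unit_core` (abstract field `F`), `disc_unit_of_regular`, `disc_unit_jElt`,
`disc_unit_xJ`, `disc_unit` (at `F_N`).
-/

set_option autoImplicit false
set_option linter.unusedSectionVars false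

noncomputable section

open HahnSeries IntermediateField AlgebraicCurve ModularCurve
open Fermat.Agent.P2.helper23

namespace Fermat.Agent.T7.helper23

/-- **DISC-UNIT, core.**  Same hypotheses as `P2.helper23.disc_root_core`, but for every
`m ≠ 0`; the conclusion is the factorisation up to a unit power series, over `A ∩ K₀` for every
finite-dimensional `K₀` containing a finite set `S`. -/
theorem disc_unit_core (F : IntermediateField Kb (LaurentSeries Kb)) (A : ValuationSubring Kb)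
    (hD5 : ∀ V : ValuationSubring F, (∀ a : Kb, algebraMap Kb F a ∈ V) → V ≠ ⊤ →
      ∃ 𝔓 : Place Kb F, 𝔓.toValuationSubring = V)
    (hD4 : ∀ f : F, ∃ S : Finset Kb, ∀ K₀ : IntermediateField ℚ Kb, (S : Set Kb) ⊆ K₀ →
      IsRatio (capSubring A K₀) (f : LaurentSeries Kb))
    (hPID : ∀ K₀ : IntermediateField ℚ Kb, FiniteDimensional ℚ K₀ →
      IsPrincipalIdealRing (capSubring A K₀))
    (jF : F) (hj : (jF : LaurentSeries Kb) = jqModC Kb)
    (m : ℕ) (hm0 : m ≠ 0) (H : F) (hH : H ≠ 0)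
    (hfin : {𝔓 : Place Kb F | 𝔓.ord H ≠ 0}.Finite)
    (hord : (m : ℤ) ∣ (H : LaurentSeries Kb).order)
    (hdiv : ∀ 𝔓 : Place Kb F, 0 ≤ 𝔓.ord jF → (m : ℤ) ∣ 𝔓.ord H)
    (hreg : ∀ 𝔓 : Place Kb F, 0 ≤ 𝔓.ord jF → 0 ≤ 𝔓.ord H)
    (Y₁ Y₂ : LaurentSeries A) (h₁ : coeffMap A.subtype Y₁ ∈ F) (h₂ : coeffMap A.subtype Y₂ ∈ F)
    (h12 : coeffMap A.subtype Y₁ = (H : LaurentSeries Kb) * coeffMap A.subtype Y₂)
    (hred : coeffMap (IsLocalRing.residue A) Y₁ = coeffMap (IsLocalRing.residue A) Y₂)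
    (hne : coeffMap (IsLocalRing.residue A) Y₂ ≠ 0) :
    ∃ S : Finset Kb, ∀ K₀ : IntermediateField ℚ Kb, FiniteDimensional ℚ K₀ →
      (S : Set Kb) ⊆ K₀ →
      ∃ (n : ℕ) (u : (PowerSeries (capSubring A K₀))ˣ) (Z : PowerSeries (capSubring A K₀)),
        Z ≠ 0 ∧
        (H : LaurentSeries Kb) * (phi (capSubring A K₀) (PowerSeries.X ^ n)) ^ m
          = phi (capSubring A K₀) (u : PowerSeries (capSubring A K₀))
            * (phi (capSubring A K₀) Z) ^ m := by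
  classical
  have hH' : (H : LaurentSeries Kb) ≠ 0 := fun h => hH (Subtype.ext h)
  choose t ht using fun 𝔓 : Place Kb F => exists_uniformizer 𝔓
  choose St hSt using fun 𝔓 : Place Kb F => hD4 (t 𝔓)
  obtain ⟨S₁, hS₁⟩ := hD4 ⟨_, h₁⟩
  obtain ⟨S₂, hS₂⟩ := hD4 ⟨_, h₂⟩
  refine ⟨S₁ ∪ S₂ ∪ hfin.toFinset.biUnion St, fun K₀ hfd hSK => ?_⟩
  have : IsPrincipalIdealRing (capSubring A K₀) := hPID K₀ hfd
  have hS₁K : (S₁ : Set Kb) ⊆ K₀ := fun x hx => hSK (by
    simp only [Finset.coe_union, Set.mem_union, Finset.mem_coe]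
    exact Or.inl (Or.inl hx))
  have hS₂K : (S₂ : Set Kb) ⊆ K₀ := fun x hx => hSK (by
    simp only [Finset.coe_union, Set.mem_union, Finset.mem_coe]
    exact Or.inl (Or.inr hx))
  have hStK : ∀ 𝔓 : Place Kb F, 𝔓.ord H ≠ 0 → ((St 𝔓 : Finset Kb) : Set Kb) ⊆ K₀ := by
    intro 𝔓 h𝔓 x hx
    refine hSK ?_
    simp only [Finset.coe_union, Set.mem_union, Finset.mem_coe, Finset.mem_biUnion,
      Set.Finite.mem_toFinset, Set.mem_ofPred_eq]
    exact Or.inr ⟨𝔓, h𝔓, hx⟩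
  obtain ⟨k₁, G₁, hG₁, hu₁⟩ :=
    Fermat.Agent.P2.helper56.exists_phi_of_isRatio A K₀ Y₁ (hS₁ K₀ hS₁K)
  obtain ⟨k₂, G₂, hG₂, hu₂⟩ :=
    Fermat.Agent.P2.helper56.exists_phi_of_isRatio A K₀ Y₂ (hS₂ K₀ hS₂K)
  obtain ⟨n₁, hn₁⟩ := hu₁ (by rw [hred]; exact hne)
  obtain ⟨n₂, hn₂⟩ := hu₂ hne
  have hG₁0 : G₁ ≠ 0 := by
    rintro rfl
    simp at hn₁
  have hG₂0 : G₂ ≠ 0 := by
    rintro rfl
    simp at hn₂
  have hXk : ∀ k : ℕ, (PowerSeries.X : PowerSeries (capSubring A K₀)) ^ k ≠ 0 :=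
    fun k => pow_ne_zero _ PowerSeries.X_ne_zero
  have ha : G₁ * PowerSeries.X ^ k₂ ≠ 0 := mul_ne_zero hG₁0 (hXk _)
  have hb : G₂ * PowerSeries.X ^ k₁ ≠ 0 := mul_ne_zero hG₂0 (hXk _)
  have hab : (H : LaurentSeries Kb) * phi (capSubring A K₀) (G₂ * PowerSeries.X ^ k₁)
      = phi (capSubring A K₀) (G₁ * PowerSeries.X ^ k₂) := by
    rw [map_mul, map_mul, ← hG₁, ← hG₂, h12]
    ring
  have hconst : ∀ P : PowerSeries (capSubring A K₀), Prime P →
      (∃ r : capSubring A K₀, r ≠ 0 ∧ P ∣ PowerSeries.C r) →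
      ¬ P ∣ PowerSeries.X → ¬ P ∣ G₁ * PowerSeries.X ^ k₂ ∧ ¬ P ∣ G₂ * PowerSeries.X ^ k₁ := by
    rintro P hP ⟨r, hr, hPr⟩ hX
    constructor
    · intro h
      rcases hP.dvd_or_dvd h with h | h
      · exact Fermat.Agent.P2.helper13.not_dvd_of_dvd_C hP hr hPr hn₁ h
      · exact hX (hP.dvd_of_dvd_pow h)
    · intro h
      rcases hP.dvd_or_dvd h with h | h
      · exact Fermat.Agent.P2.helper13.not_dvd_of_dvd_C hP hr hPr hn₂ h
      · exact hX (hP.dvd_of_dvd_pow h)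
  have hunif : ∀ 𝔓 : Place Kb F, 𝔓.ord H ≠ 0 →
      ∃ t : F, 𝔓.ord t = 1 ∧ IsRatio (capSubring A K₀) (t : LaurentSeries Kb) :=
    fun 𝔓 h𝔓 => ⟨t 𝔓, ht 𝔓, hSt 𝔓 K₀ (hStK 𝔓 h𝔓)⟩
  have hmult := mult_claim F hD5 jF hj m hm0 H hH hord hdiv hreg hunif _ _ ha hb hab hconst
  obtain ⟨u, Z0, hU3⟩ := Fermat.Agent.P2.helper9.exists_unit_mul_pow_mul m hm0 _ _
    (mul_ne_zero ha (hXk _)) hb hmult
  have hZ0 : Z0 ≠ 0 := by
    rintro rfl
    rw [zero_pow hm0, mul_zero, zero_mul] at hU3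
    exact mul_ne_zero ha (hXk _) hU3
  exact ⟨_, u, Z0, hZ0, root_eq_of_unit_eq (H : LaurentSeries Kb) _ _ hb hab m _ u Z0 hU3⟩

/-- **DISC-UNIT at `F_N`, general form** (regularity only where `j` is finite). -/
theorem disc_unit_of_regular (N : ℕ) [NeZero N] (A : ValuationSubring Kb) (m : ℕ)
    (hm0 : m ≠ 0) (jF : FF N) (hj : (jF : LaurentSeries Kb) = jqModC Kb)
    (H : FF N) (hH : H ≠ 0)
    (hord : (m : ℤ) ∣ (H : LaurentSeries Kb).order)
    (hdiv : ∀ P : Place Kb (FF N), 0 ≤ P.ord jF → (m : ℤ) ∣ P.ord H)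
    (hreg : ∀ P : Place Kb (FF N), 0 ≤ P.ord jF → 0 ≤ P.ord H)
    (Y₁ Y₂ : LaurentSeries A) (h₁ : coeffMap A.subtype Y₁ ∈ FF N)
    (h₂ : coeffMap A.subtype Y₂ ∈ FF N)
    (h12 : coeffMap A.subtype Y₁ = (H : LaurentSeries Kb) * coeffMap A.subtype Y₂)
    (hred : coeffMap (IsLocalRing.residue A) Y₁ = coeffMap (IsLocalRing.residue A) Y₂)
    (hne : coeffMap (IsLocalRing.residue A) Y₂ ≠ 0) :
    ∃ S : Finset Kb, ∀ K₀ : IntermediateField ℚ Kb, FiniteDimensional ℚ K₀ →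
      (S : Set Kb) ⊆ K₀ →
      ∃ (n : ℕ) (u : (PowerSeries (capSubring A K₀))ˣ) (Z : PowerSeries (capSubring A K₀)),
        Z ≠ 0 ∧
        (H : LaurentSeries Kb) * (phi (capSubring A K₀) (PowerSeries.X ^ n)) ^ m
          = phi (capSubring A K₀) (u : PowerSeries (capSubring A K₀))
            * (phi (capSubring A K₀) Z) ^ m :=
  disc_unit_core (FF N) A (exists_place_of_valuationSubring_FF N)
    (fun f => Fermat.Agent.P2.helper73.exists_finset_isRatio N A f f.2)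
    (fun K₀ _ => Fermat.Agent.P2.helper89.isPrincipalIdealRing_capSubring A K₀)
    jF hj m hm0 H hH (finite_ord_ne_zero N H hH) hord hdiv hreg Y₁ Y₂ h₁ h₂ h12 hred hne

/-- **DISC-UNIT** with `j = helper29.jElt N`: `H` regular where `j` is finite, `m ∣ div H`. -/
theorem disc_unit_jElt (N : ℕ) [NeZero N] (A : ValuationSubring Kb) (m : ℕ)
    (hm0 : m ≠ 0) (H : FF N) (hH : H ≠ 0)
    (hdiv : ∀ P : Place Kb (FF N), (m : ℤ) ∣ P.ord H)
    (hreg : ∀ P : Place Kb (FF N), 0 ≤ P.ord (Fermat.Agent.P2.helper29.jElt N) → 0 ≤ P.ord H)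
    (Y₁ Y₂ : LaurentSeries A) (h₁ : coeffMap A.subtype Y₁ ∈ FF N)
    (h₂ : coeffMap A.subtype Y₂ ∈ FF N)
    (h12 : coeffMap A.subtype Y₁ = (H : LaurentSeries Kb) * coeffMap A.subtype Y₂)
    (hred : coeffMap (IsLocalRing.residue A) Y₁ = coeffMap (IsLocalRing.residue A) Y₂)
    (hne : coeffMap (IsLocalRing.residue A) Y₂ ≠ 0) :
    ∃ S : Finset Kb, ∀ K₀ : IntermediateField ℚ Kb, FiniteDimensional ℚ K₀ →
      (S : Set Kb) ⊆ K₀ →
      ∃ (n : ℕ) (u : (PowerSeries (capSubring A K₀))ˣ) (Z : PowerSeries (capSubring A K₀)),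
        Z ≠ 0 ∧
        (H : LaurentSeries Kb) * (phi (capSubring A K₀) (PowerSeries.X ^ n)) ^ m
          = phi (capSubring A K₀) (u : PowerSeries (capSubring A K₀))
            * (phi (capSubring A K₀) Z) ^ m := by
  refine disc_unit_of_regular N A m hm0 (Fermat.Agent.P2.helper29.jElt N) rfl H hH ?_
    (fun P _ => hdiv P) hreg Y₁ Y₂ h₁ h₂ h12 hred hne
  rw [← qPlace_ord N H hH]
  exact hdiv _

/-- **DISC-UNIT** with `j = S24.xJ N`. -/
theorem disc_unit_xJ (N : ℕ) [NeZero N] (A : ValuationSubring Kb) (m : ℕ)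
    (hm0 : m ≠ 0) (H : FF N) (hH : H ≠ 0)
    (hdiv : ∀ P : Place Kb (FF N), (m : ℤ) ∣ P.ord H)
    (hreg : ∀ P : Place Kb (FF N), 0 ≤ P.ord (Fermat.Agent.S24.xJ N : FF N) → 0 ≤ P.ord H)
    (Y₁ Y₂ : LaurentSeries A) (h₁ : coeffMap A.subtype Y₁ ∈ FF N)
    (h₂ : coeffMap A.subtype Y₂ ∈ FF N)
    (h12 : coeffMap A.subtype Y₁ = (H : LaurentSeries Kb) * coeffMap A.subtype Y₂)
    (hred : coeffMap (IsLocalRing.residue A) Y₁ = coeffMap (IsLocalRing.residue A) Y₂)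
    (hne : coeffMap (IsLocalRing.residue A) Y₂ ≠ 0) :
    ∃ S : Finset Kb, ∀ K₀ : IntermediateField ℚ Kb, FiniteDimensional ℚ K₀ →
      (S : Set Kb) ⊆ K₀ →
      ∃ (n : ℕ) (u : (PowerSeries (capSubring A K₀))ˣ) (Z : PowerSeries (capSubring A K₀)),
        Z ≠ 0 ∧
        (H : LaurentSeries Kb) * (phi (capSubring A K₀) (PowerSeries.X ^ n)) ^ m
          = phi (capSubring A K₀) (u : PowerSeries (capSubring A K₀))
            * (phi (capSubring A K₀) Z) ^ m := by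
  refine disc_unit_of_regular N A m hm0 (Fermat.Agent.S24.xJ N) (coe_xJ N) H hH ?_
    (fun P _ => hdiv P) hreg Y₁ Y₂ h₁ h₂ h12 hred hne
  rw [← qPlace_ord N H hH]
  exact hdiv _

/-- **DISC-UNIT** for a function with an integral expansion `Y` of reduction `1`
(`Y₁ = Y`, `Y₂ = 1`). -/
theorem disc_unit_one (N : ℕ) [NeZero N] (A : ValuationSubring Kb) (m : ℕ)
    (hm0 : m ≠ 0) (H : FF N)
    (hdiv : ∀ P : Place Kb (FF N), (m : ℤ) ∣ P.ord H)
    (hreg : ∀ P : Place Kb (FF N), 0 ≤ P.ord (Fermat.Agent.P2.helper29.jElt N) → 0 ≤ P.ord H)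
    (Y : LaurentSeries A) (hY : coeffMap A.subtype Y = (H : LaurentSeries Kb))
    (hred : coeffMap (IsLocalRing.residue A) Y = 1) :
    ∃ S : Finset Kb, ∀ K₀ : IntermediateField ℚ Kb, FiniteDimensional ℚ K₀ →
      (S : Set Kb) ⊆ K₀ →
      ∃ (n : ℕ) (u : (PowerSeries (capSubring A K₀))ˣ) (Z : PowerSeries (capSubring A K₀)),
        Z ≠ 0 ∧
        (H : LaurentSeries Kb) * (phi (capSubring A K₀) (PowerSeries.X ^ n)) ^ m
          = phi (capSubring A K₀) (u : PowerSeries (capSubring A K₀))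
            * (phi (capSubring A K₀) Z) ^ m := by
  have hH : H ≠ 0 := by
    rintro rfl
    rw [ZeroMemClass.coe_zero] at hY
    have hY0 : Y = 0 := by
      apply Fermat.Agent.P2.helper56.coeffMap_subtype_injective A
      rw [hY, map_zero]
    rw [hY0, map_zero] at hred
    exact zero_ne_one hred
  refine disc_unit_jElt N A m hm0 H hH hdiv hreg Y 1 (by rw [hY]; exact H.2)
    (by rw [map_one]; exact one_mem _) (by rw [map_one, mul_one, hY])
    (by rw [hred, map_one]) (by rw [map_one]; exact one_ne_zero)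

end Fermat.Agent.T7.helper23
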