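import Mathlib
import Fermat.Agent.S13.helper92_Minkowski
import Fermat.Agent.P1.helper15_DictCyc
import Fermat.Prelude.Def_GaloisRep_LocalConditions

/-!
# T7 (S33) [HNT-ZETA] (helper23): the inertia group at an odd prime `p` moves `ζ_p`

`A` a valuation subring of `ℚ̄` over an odd prime `p`.

* `exists_inertia_moves_zeta`   : some `σ` in the inertia group of `A` moves a `p`-th root of
                                  unity (`ℚ(ζ_p) / ℚ` is ramified at `p`);
* `exists_inertia_cyclo_ne_one` : some `σ` in the inertia group acts on `μ_p` by `μ ↦ μ ^ a`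
                                  with `a ≢ 1 mod p` (the mod `p` cyclotomic character is
                                  nontrivial on inertia at `p`);
* `exists_inertia_det_sub_one_isUnit` : for a representation with cyclotomic determinant
                                  (Prelude `DetIsCyclotomic`) some `σ` in the inertia group has
                                  `det ρ(σ) - 1` a unit.

(Twin of `P1.helper58.cycloRamified`; the leaf [HNT] itself is `T7.helper54.exists_hnt` /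
`T7.helper58.hnt_datum`.)

Proof: Minkowski (S13 `helper92.eq_top_of_exists_inertiaSubgroupIn_le`: an open normal subgroup
of `G_ℚ` containing ONE inertia group over every prime is everything) applied to the fixer of
`μ_p`; inertia at `ℓ ≠ p` fixes `μ_p` (P1 `helper15.apply_eq_of_mem_inertia`); a `p`-th root of
unity fixed by `G_ℚ` is rational, hence `1` (`p` odd).
-/

set_option autoImplicit false
set_option linter.unusedSectionVars false
set_option linter.unusedVariables false
set_option linter.style.longLine false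
set_option linter.style.haveILetI false

namespace Fermat.Agent.T7.helper23

open Fermat.Agent.S54.helper91 (Qbar GQ isGalois_Qbar isAlgebraic_Qbar
  exists_valuationSubring_liesOver)

/-- the fixer of the `p`-th roots of unity -/
def muFixer (p : ℕ) : Subgroup GQ where
  carrier := {σ | ∀ μ : Qbar, μ ^ p = 1 → σ μ = μ}
  one_mem' := fun _ _ => rfl
  mul_mem' := by
    intro σ τ hσ hτ μ hμ
    show σ (τ μ) = μ
    rw [hτ μ hμ, hσ μ hμ]
  inv_mem' := by
    intro σ hσ μ hμ
    have h := hσ μ hμ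
    calc σ⁻¹ μ = σ⁻¹ (σ μ) := by rw [h]
      _ = μ := σ.symm_apply_apply μ

theorem mem_muFixer {p : ℕ} {σ : GQ} : σ ∈ muFixer p ↔ ∀ μ : Qbar, μ ^ p = 1 → σ μ = μ :=
  Iff.rfl

instance muFixer_normal (p : ℕ) : (muFixer p).Normal where
  conj_mem := by
    intro σ hσ τ μ hμ
    show τ (σ (τ⁻¹ μ)) = μ
    have h1 : (τ⁻¹ μ) ^ p = 1 := by
      rw [← map_pow, hμ, map_one]
    rw [hσ _ h1]
    exact τ.apply_symm_apply μ

/-- the fixer of `μ_p` is open -/
theorem muFixer_isOpen {p : ℕ} (hp : 0 < p) : IsOpen (muFixer p : Set GQ) := by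
  classical
  have hfin : {μ : Qbar | μ ^ p = 1}.Finite := by
    have h0 : (Polynomial.X ^ p - 1 : Polynomial Qbar) ≠ 0 :=
      Polynomial.X_pow_sub_C_ne_zero hp 1
    refine (Polynomial.rootSet_finite (Polynomial.X ^ p - 1 : Polynomial Qbar) Qbar).subset ?_
    intro μ hμ
    rw [Polynomial.mem_rootSet]
    refine ⟨h0, ?_⟩
    simp [hμ.out]
  set E : IntermediateField ℚ Qbar := IntermediateField.adjoin ℚ {μ : Qbar | μ ^ p = 1} with hE
  haveI : FiniteDimensional ℚ E := by
    haveI := isAlgebraic_Qbar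
    haveI : Finite ↥{μ : Qbar | μ ^ p = 1} := hfin.to_subtype
    exact IntermediateField.finiteDimensional_adjoin (S := {μ : Qbar | μ ^ p = 1})
      (fun x _ => (Algebra.IsAlgebraic.isAlgebraic x).isIntegral)
  have hopen : IsOpen (E.fixingSubgroup : Set GQ) := IntermediateField.fixingSubgroup_isOpen E
  refine Subgroup.isOpen_mono (H₁ := E.fixingSubgroup) ?_ hopen
  intro σ hσ μ hμ
  exact (IntermediateField.mem_fixingSubgroup_iff E σ).mp hσ μ
    (IntermediateField.subset_adjoin ℚ _ hμ)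

/-- an element of `ℚ̄` fixed by `G_ℚ` is rational -/
theorem mem_range_of_forall_fixed (x : Qbar) (h : ∀ σ : GQ, σ x = x) :
    x ∈ Set.range (algebraMap ℚ Qbar) := by
  haveI := isGalois_Qbar
  exact (InfiniteGalois.mem_range_algebraMap_iff_fixed (k := ℚ) (K := Qbar) x).mpr h

/-- a rational `p`-th root of unity is `1` for odd `p` -/
theorem rat_root_eq_one {p : ℕ} (hodd : Odd p) {x : ℚ} (hx : x ^ p = 1) : x = 1 := by
  have h1 : x ^ p = 1 ^ p := by rw [hx, one_pow]
  exact hodd.pow_inj.mp h1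

/-- there is a nontrivial `p`-th root of unity in `ℚ̄` -/
theorem exists_root_ne_one {p : ℕ} (hp : p.Prime) : ∃ μ : Qbar, μ ^ p = 1 ∧ μ ≠ 1 := by
  haveI : NeZero (p : Qbar) := ⟨by exact_mod_cast hp.ne_zero⟩
  obtain ⟨ζ, hζ⟩ := HasEnoughRootsOfUnity.exists_primitiveRoot Qbar p
  exact ⟨ζ, hζ.pow_eq_one, hζ.ne_one hp.one_lt⟩

section Main

variable {p : ℕ} (hp : p.Prime) (hp2 : p ≠ 2) (A : ValuationSubring Qbar)
  (hA : A.LiesOverPrime p)

include hp hp2 hA

/-- **`ℚ(ζ_p)` is ramified at `p`**: some element of the inertia group of `A` moves a `p`-th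
root of unity. -/
theorem exists_inertia_moves_zeta :
    ∃ σ ∈ A.inertiaSubgroupIn ℚ, ∃ ζ : Qbar, ζ ^ p = 1 ∧ σ ζ ≠ ζ := by
  by_contra hcon
  push Not at hcon
  have hodd : Odd p := hp.odd_of_ne_two hp2
  have htop : muFixer p = ⊤ := by
    refine Fermat.Agent.S13.helper92.eq_top_of_exists_inertiaSubgroupIn_le (muFixer p)
      (muFixer_isOpen hp.pos) fun ℓ hℓ => ?_
    by_cases hℓp : ℓ = p
    · subst hℓp
      exact ⟨A, hA, fun σ hσ μ hμ => hcon σ hσ μ hμ⟩
    · obtain ⟨B, hB⟩ := exists_valuationSubring_liesOver hℓ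
      refine ⟨B, hB, fun σ hσ μ hμ => ?_⟩
      have hnd : ¬ ℓ ∣ p := fun hd =>
        hℓp ((Nat.prime_dvd_prime_iff_eq hℓ hp).mp hd)
      exact Fermat.Agent.P1.helper15.apply_eq_of_mem_inertia hℓ B hB hnd hσ hμ
  obtain ⟨μ, hμ, hμ1⟩ := exists_root_ne_one hp
  have hfix : ∀ σ : GQ, σ μ = μ := fun σ => by
    have hσ : σ ∈ muFixer p := by rw [htop]; exact Subgroup.mem_top σ
    exact hσ μ hμ
  obtain ⟨x, hx⟩ := mem_range_of_forall_fixed μ hfix
  apply hμ1
  have hxp : x ^ p = 1 := by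
    have h1 : algebraMap ℚ Qbar (x ^ p) = algebraMap ℚ Qbar 1 := by
      rw [map_pow, hx, hμ, map_one]
    exact (algebraMap ℚ Qbar).injective h1
  rw [← hx, rat_root_eq_one hodd hxp, map_one]

/-- **the mod `p` cyclotomic character is nontrivial on inertia at `p`** -/
theorem exists_inertia_cyclo_ne_one :
    ∃ σ ∈ A.inertiaSubgroupIn ℚ, ∃ a : ℕ,
      (∀ μ : Qbar, μ ^ p = 1 → σ μ = μ ^ a) ∧ (a : ZMod p) ≠ 1 := by
  obtain ⟨σ, hσ, ζ, hζ, hne⟩ := exists_inertia_moves_zeta hp hp2 A hA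
  have hζ1 : ζ ≠ 1 := by
    rintro rfl
    exact hne (map_one σ)
  have hprim : IsPrimitiveRoot ζ p := by
    have ho : orderOf ζ = p := orderOf_eq_prime hζ hζ1 (hp := ⟨hp⟩)
    rw [← ho]
    exact IsPrimitiveRoot.orderOf ζ
  haveI : NeZero p := ⟨hp.ne_zero⟩
  have hσζ : (σ ζ) ^ p = 1 := by rw [← map_pow, hζ, map_one]
  obtain ⟨a, -, ha⟩ := hprim.eq_pow_of_pow_eq_one hσζ
  refine ⟨σ, hσ, a, fun μ hμ => ?_, fun h1 => ?_⟩
  · obtain ⟨j, -, hj⟩ := hprim.eq_pow_of_pow_eq_one hμ
    rw [← hj, map_pow, ← ha, ← pow_mul, ← pow_mul, mul_comm]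
  · apply hne
    rw [← ha]
    have h2 : a ≡ 1 [MOD p] := by
      rw [← ZMod.natCast_eq_natCast_iff]
      simpa using h1
    have h3 : ζ ^ a = ζ ^ 1 := by
      rw [pow_eq_pow_mod a hζ, pow_eq_pow_mod 1 hζ]
      exact congrArg (fun j => ζ ^ j) h2
    rw [h3, pow_one]

omit hA A in
/-- `a - 1` is a unit of a local ring of residue characteristic `p` when `a ≢ 1 mod p` -/
theorem isUnit_natCast_sub_one {T : Type*} [CommRing T] [IsLocalRing T]
    (hpT : (p : T) ∈ IsLocalRing.maximalIdeal T) {a : ℕ} (ha : (a : ZMod p) ≠ 1) :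
    IsUnit ((a : T) - 1) := by
  have hcop : IsCoprime ((a : ℤ) - 1) (p : ℤ) := by
    rw [isCoprime_comm]
    refine (Nat.prime_iff_prime_int.mp hp).coprime_iff_not_dvd.mpr fun hd => ?_
    apply ha
    have h1 : ((a : ℤ) : ZMod p) = ((1 : ℤ) : ZMod p) := by
      rw [ZMod.intCast_eq_intCast_iff_dvd_sub]
      have : (1 : ℤ) - a = -((a : ℤ) - 1) := by ring
      rw [this]
      exact (dvd_neg).mpr hd
    simpa using h1
  obtain ⟨u, v, huv⟩ := hcop
  have h1 : ((u : ℤ) : T) * ((a : T) - 1) + ((v : ℤ) : T) * (p : T) = 1 := by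
    have := congrArg (fun z : ℤ => ((z : ℤ) : T)) huv
    simpa using this
  by_contra hnu
  have hmem : (a : T) - 1 ∈ IsLocalRing.maximalIdeal T := (IsLocalRing.mem_maximalIdeal _).mpr hnu
  have h2 : (1 : T) ∈ IsLocalRing.maximalIdeal T := by
    rw [← h1]
    exact Ideal.add_mem _ (Ideal.mul_mem_left _ _ hmem) (Ideal.mul_mem_left _ _ hpT)
  exact (IsLocalRing.maximalIdeal.isMaximal T).ne_top ((Ideal.eq_top_iff_one _).mpr h2)

/-- **a representation with cyclotomic determinant is ramified at `p`** (`p` odd): some `σ` in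
the inertia group of `A` has `det ρ(σ) - 1` a unit. -/
theorem exists_inertia_det_sub_one_isUnit {T : Type} [CommRing T] [IsLocalRing T]
    (ρ : GaloisRepAdic T) (hdet : ρ.DetIsCyclotomic p) :
    ∃ σ ∈ A.inertiaSubgroupIn ℚ, IsUnit (LinearMap.det (ρ.ρ σ) - 1) := by
  obtain ⟨σ, hσ, a, ha, hne⟩ := exists_inertia_cyclo_ne_one hp hp2 A hA
  refine ⟨σ, hσ, ?_⟩
  have h1 := hdet.2 1 σ a (fun μ hμ => ha μ (by rwa [pow_one] at hμ))
  have hu : IsUnit ((a : T) - 1) := isUnit_natCast_sub_one hp hp2 hdet.1 hne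
  have hm : LinearMap.det (ρ.ρ σ) - (a : T) ∈ IsLocalRing.maximalIdeal T := by
    obtain ⟨t, ht⟩ := Ideal.mem_span_singleton.mp h1
    rw [ht]
    refine Ideal.mul_mem_right _ _ ?_
    have : ((p ^ 1 : ℕ) : T) = (p : T) := by simp
    rw [this]
    exact hdet.1
  have hsum : LinearMap.det (ρ.ρ σ) - 1 = ((a : T) - 1) + (LinearMap.det (ρ.ρ σ) - (a : T)) := by
    ring
  rw [hsum]
  by_contra hnu
  have hmem : ((a : T) - 1) + (LinearMap.det (ρ.ρ σ) - (a : T)) ∈ IsLocalRing.maximalIdeal T :=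
    (IsLocalRing.mem_maximalIdeal _).mpr hnu
  have h2 : (a : T) - 1 ∈ IsLocalRing.maximalIdeal T := by
    have := Ideal.sub_mem _ hmem hm
    simpa using this
  exact (IsLocalRing.mem_maximalIdeal _).mp h2 hu

end Main

end Fermat.Agent.T7.helper23
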