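import Mathlib

/-!
# T7 / S33 (helper25): the abstract glue "big unramified quotients ⇒ ordinary"

`T` a local ring, `V` a free `T`-module of rank two with an action `ρ` of a group `G`,
`Inert ≤ Dec` subgroups of `G` with `Inert` normalised by `Dec`, `p` a natural number such that
`T` is `p`-adically separated and all `T / p ^ m` are finite.  If

* the inertia group does not act trivially on `V / 𝔪 V` (`hnt`), and
* for every `m` the module `V / p ^ m V` has a quotient group with trivial action of the
  inertia group and at least `card (T / p ^ m)` elements (`hbig`),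

then `V` has a basis `b` such that the line `T ∙ b 0` is stable under `Dec` and `ρ σ v - v`
lies on it for all `σ ∈ Inert` - the shape of the Prelude's `GaloisRepAdic.IsOrdinaryAt`.

No reducedness of `T` and no eigensystem is used: the coinvariants `V / W`
(`W = span {ρ σ v - v}`) are cyclic by `hnt`, `= T / 𝔞`, and `hbig` forces `𝔞 ⊆ p ^ m T` for
all `m`.

Main statements: `exists_basis_of_notMem_smul`, `exists_ordinary_line`.
-/

set_option autoImplicit false
set_option linter.unusedSectionVars false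
set_option linter.style.longLine false

namespace Fermat.Agent.T7.helper25

open Function

section Basis

variable {T : Type*} [CommRing T] [IsLocalRing T]
  {V : Type*} [AddCommGroup V] [Module T V] [Module.Free T V] [Module.Finite T V]

/-- an element outside `𝔪 V` has a unit coordinate in some basis -/
theorem exists_basis_isUnit_repr (hrank : Module.finrank T V = 2) {w : V}
    (hw : w ∉ (IsLocalRing.maximalIdeal T) • (⊤ : Submodule T V)) :
    ∃ e : Module.Basis (Fin 2) T V, IsUnit (e.repr w 0) := by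
  classical
  let e : Module.Basis (Fin 2) T V := Module.finBasisOfFinrankEq T V hrank
  by_cases h0 : IsUnit (e.repr w 0)
  · exact ⟨e, h0⟩
  by_cases h1 : IsUnit (e.repr w 1)
  · refine ⟨e.reindex (Equiv.swap 0 1), ?_⟩
    have : (e.reindex (Equiv.swap (0 : Fin 2) 1)).repr w 0 = e.repr w 1 := by
      rw [Module.Basis.repr_reindex_apply]
      simp
    rw [this]
    exact h1
  · exfalso
    apply hw
    have hsum := e.sum_repr w
    rw [Fin.sum_univ_two] at hsum
    rw [← hsum]
    refine Submodule.add_mem _ ?_ ?_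
    · exact Submodule.smul_mem_smul ((IsLocalRing.mem_maximalIdeal _).mpr h0) Submodule.mem_top
    · exact Submodule.smul_mem_smul ((IsLocalRing.mem_maximalIdeal _).mpr h1) Submodule.mem_top

/-- an element outside `𝔪 V` is the first vector of a basis -/
theorem exists_basis_of_notMem_smul (hrank : Module.finrank T V = 2) {w : V}
    (hw : w ∉ (IsLocalRing.maximalIdeal T) • (⊤ : Submodule T V)) :
    ∃ b : Module.Basis (Fin 2) T V, b 0 = w := by
  classical
  obtain ⟨e, hu⟩ := exists_basis_isUnit_repr hrank hw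
  obtain ⟨u, hu⟩ := hu
  have hsum := e.sum_repr w
  rw [Fin.sum_univ_two] at hsum
  have hli : LinearIndependent T ![w, e 1] := by
    rw [LinearIndependent.pair_iff]
    intro s t hst
    have h := congrArg e.repr hst
    rw [map_add, map_smul, map_smul, map_zero] at h
    have h0 := DFunLike.congr_fun h 0
    have h1 := DFunLike.congr_fun h 1
    simp only [Finsupp.coe_add, Finsupp.coe_smul, Pi.add_apply, Pi.smul_apply, smul_eq_mul,
      Module.Basis.repr_self, Finsupp.single_apply, Finsupp.coe_zero, Pi.zero_apply] at h0 h1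
    have hs : s = 0 := by
      have h0' : s * e.repr w 0 = 0 := by simpa using h0
      rw [← hu] at h0'
      exact (Units.mul_left_eq_zero u).mp h0'
    refine ⟨hs, ?_⟩
    rw [hs] at h1
    simpa using h1
  have hsp : ⊤ ≤ Submodule.span T (Set.range ![w, e 1]) := by
    have hw' : w ∈ Submodule.span T (Set.range ![w, e 1]) :=
      Submodule.subset_span ⟨0, rfl⟩
    have he1 : e 1 ∈ Submodule.span T (Set.range ![w, e 1]) :=
      Submodule.subset_span ⟨1, rfl⟩
    have he0 : e 0 ∈ Submodule.span T (Set.range ![w, e 1]) := by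
      have h : e 0 = (↑u⁻¹ : T) • (w - e.repr w 1 • e 1) := by
        have h1 : w - e.repr w 1 • e 1 = (u : T) • e 0 := by
          rw [hu]
          exact sub_eq_of_eq_add hsum.symm
        rw [h1, smul_smul, Units.inv_mul, one_smul]
      rw [h]
      exact Submodule.smul_mem _ _ (Submodule.sub_mem _ hw' (Submodule.smul_mem _ _ he1))
    intro v _
    have hv := e.sum_repr v
    rw [Fin.sum_univ_two] at hv
    rw [← hv]
    exact Submodule.add_mem _ (Submodule.smul_mem _ _ he0) (Submodule.smul_mem _ _ he1)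
  refine ⟨Module.Basis.mk hli hsp, ?_⟩
  rw [Module.Basis.mk_apply]
  rfl

end Basis

section Glue

variable {T : Type*} [CommRing T] [IsLocalRing T]
  {V : Type*} [AddCommGroup V] [Module T V] [Module.Free T V] [Module.Finite T V]
  {G : Type*} [Group G]

/-- the set of all `ρ σ v - v`, `σ` in the inertia group -/
def genSet (ρ : G →* Module.End T V) (Inert : Subgroup G) : Set V :=
  {x | ∃ σ ∈ Inert, ∃ v : V, x = ρ σ v - v}

/-- the submodule of `V` generated by all `ρ σ v - v`, `σ` in the inertia group -/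
def coinvKer (ρ : G →* Module.End T V) (Inert : Subgroup G) : Submodule T V :=
  Submodule.span T (genSet ρ Inert)

theorem sub_mem_coinvKer (ρ : G →* Module.End T V) (Inert : Subgroup G) {σ : G}
    (hσ : σ ∈ Inert) (v : V) : ρ σ v - v ∈ coinvKer ρ Inert :=
  Submodule.subset_span ⟨σ, hσ, v, rfl⟩

/-- an additive map killing all `ρ σ v - v` kills the submodule they generate -/
theorem eq_zero_of_mem_coinvKer (ρ : G →* Module.End T V) (Inert : Subgroup G)
    {Q : Type*} [AddCommGroup Q] (q : V →+ Q) (hq : ∀ σ ∈ Inert, ∀ v : V, q (ρ σ v) = q v)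
    {x : V} (hx : x ∈ coinvKer ρ Inert) : q x = 0 := by
  have key : ∀ x ∈ coinvKer ρ Inert, ∀ a : T, q (a • x) = 0 := by
    intro x hx
    induction hx using Submodule.span_induction with
    | mem x hx =>
      obtain ⟨σ, hσ, v, rfl⟩ := hx
      intro a
      rw [smul_sub, ← map_smul, map_sub, hq σ hσ, sub_self]
    | zero => intro a; rw [smul_zero, map_zero]
    | add x y _ _ hx hy => intro a; rw [smul_add, map_add, hx a, hy a, add_zero]
    | smul b x _ hx => intro a; rw [smul_smul]; exact hx _
  have := key x hx 1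
  rwa [one_smul] at this

/-- the submodule generated by the `ρ σ v - v` is stable under the decomposition group -/
theorem map_mem_coinvKer (ρ : G →* Module.End T V) (Dec Inert : Subgroup G)
    (hnormal : ∀ τ ∈ Dec, ∀ σ ∈ Inert, τ * σ * τ⁻¹ ∈ Inert) {τ : G} (hτ : τ ∈ Dec)
    {x : V} (hx : x ∈ coinvKer ρ Inert) : ρ τ x ∈ coinvKer ρ Inert := by
  induction hx using Submodule.span_induction with
  | mem x hx =>
    obtain ⟨σ, hσ, v, rfl⟩ := hx
    have h : ρ τ (ρ σ v - v) = ρ (τ * σ * τ⁻¹) (ρ τ v) - ρ τ v := by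
      rw [map_sub]
      congr 1
      rw [← Module.End.mul_apply, ← Module.End.mul_apply, ← map_mul, ← map_mul,
        inv_mul_cancel_right]
    rw [h]
    exact sub_mem_coinvKer ρ Inert (hnormal τ hτ σ hσ) _
  | zero => rw [map_zero]; exact Submodule.zero_mem _
  | add x y _ _ hx hy => rw [map_add]; exact Submodule.add_mem _ hx hy
  | smul a x _ hx => rw [map_smul]; exact Submodule.smul_mem _ _ hx

/-- **The abstract glue of S33.** -/
theorem exists_ordinary_line (hrank : Module.finrank T V = 2) (ρ : G →* Module.End T V)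
    (Dec Inert : Subgroup G) (hnormal : ∀ τ ∈ Dec, ∀ σ ∈ Inert, τ * σ * τ⁻¹ ∈ Inert)
    (p : ℕ)
    (hsep : ∀ a : T, (∀ m : ℕ, ∃ b : T, a = (p : T) ^ m * b) → a = 0)
    (hfin : ∀ m : ℕ, Finite (T ⧸ Ideal.span {(p : T) ^ m}))
    (hnt : ∃ σ ∈ Inert, ∃ v : V,
      ρ σ v - v ∉ (IsLocalRing.maximalIdeal T) • (⊤ : Submodule T V))
    (hbig : ∀ m : ℕ, ∃ (Q : Type) (_ : AddCommGroup Q) (q : V →+ Q),
      Function.Surjective q ∧ (∀ v : V, q ((p : T) ^ m • v) = 0) ∧
      (∀ σ ∈ Inert, ∀ v : V, q (ρ σ v) = q v) ∧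
      Nat.card (T ⧸ Ideal.span {(p : T) ^ m}) ≤ Nat.card Q) :
    ∃ b : Module.Basis (Fin 2) T V,
      (∀ σ ∈ Dec, ∀ v ∈ Submodule.span T {b 0}, ρ σ v ∈ Submodule.span T {b 0}) ∧
      ∀ σ ∈ Inert, ∀ v : V, ρ σ v - v ∈ Submodule.span T {b 0} := by
  classical
  obtain ⟨σ₀, hσ₀, v₀, hw⟩ := hnt
  set w : V := ρ σ₀ v₀ - v₀ with hw_def
  have hwW : w ∈ coinvKer ρ Inert := sub_mem_coinvKer ρ Inert hσ₀ v₀
  obtain ⟨b, hb0⟩ := exists_basis_of_notMem_smul hrank hw
  -- decomposition of a vector in the basis
  have hdec : ∀ v : V, v = b.repr v 0 • w + b.repr v 1 • b 1 := by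
    intro v
    have hv := b.sum_repr v
    rw [Fin.sum_univ_two, hb0] at hv
    exact hv.symm
  -- the second coordinate of an element of `W` is `0`
  have hcoord : ∀ x ∈ coinvKer ρ Inert, b.repr x 1 = 0 := by
    intro x hx
    apply hsep
    intro m
    obtain ⟨Q, _, q, hqs, hqp, hqI, hcard⟩ := hbig m
    have hfinm : Finite (T ⧸ Ideal.span {(p : T) ^ m}) := hfin m
    -- the additive map `T → Q`, `t ↦ q (t • b 1)`
    let f : T →+ Q := q.comp ((LinearMap.toSpanSingleton T V (b 1)).toAddMonoidHom)
    have hf : ∀ t : T, f t = q (t • b 1) := fun t => rfl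
    have hfs : Function.Surjective f := by
      intro y
      obtain ⟨v, rfl⟩ := hqs y
      refine ⟨b.repr v 1, ?_⟩
      rw [hf]
      conv_rhs => rw [hdec v]
      rw [map_add, eq_zero_of_mem_coinvKer ρ Inert q hqI
        (Submodule.smul_mem _ _ hwW), zero_add]
    have hfk : (Ideal.span {(p : T) ^ m}).toAddSubgroup ≤ f.ker := by
      intro t ht
      rw [Submodule.mem_toAddSubgroup, Ideal.mem_span_singleton'] at ht
      obtain ⟨a, rfl⟩ := ht
      rw [AddMonoidHom.mem_ker, hf, mul_comm, mul_smul]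
      exact hqp _
    let g : T ⧸ Ideal.span {(p : T) ^ m} →+ Q :=
      QuotientAddGroup.lift (Ideal.span {(p : T) ^ m}).toAddSubgroup f hfk
    have hg : ∀ t : T, g (Ideal.Quotient.mk _ t) = f t := fun t => rfl
    have hgs : Function.Surjective g := by
      intro y
      obtain ⟨t, rfl⟩ := hfs y
      exact ⟨Ideal.Quotient.mk _ t, hg t⟩
    have hgb := hgs.bijective_of_nat_card_le hcard
    -- `b.repr x 1 • b 1 ∈ W`
    have hxW : b.repr x 1 • b 1 ∈ coinvKer ρ Inert := by
      have h1 : b.repr x 1 • b 1 = x - b.repr x 0 • w :=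
        (sub_eq_of_eq_add' (hdec x)).symm
      rw [h1]
      exact Submodule.sub_mem _ hx (Submodule.smul_mem _ _ hwW)
    have h0 : g (Ideal.Quotient.mk _ (b.repr x 1)) = g 0 := by
      rw [hg, hf, map_zero]
      exact eq_zero_of_mem_coinvKer ρ Inert q hqI hxW
    have h1 := hgb.1 h0
    rw [Ideal.Quotient.eq_zero_iff_mem, Ideal.mem_span_singleton'] at h1
    obtain ⟨a, ha⟩ := h1
    exact ⟨a, by rw [← ha, mul_comm]⟩
  -- hence `W = T w`
  have hW : ∀ x : V, x ∈ coinvKer ρ Inert ↔ x ∈ Submodule.span T {b 0} := by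
    intro x
    rw [hb0, Submodule.mem_span_singleton]
    constructor
    · intro hx
      refine ⟨b.repr x 0, ?_⟩
      conv_rhs => rw [hdec x]
      rw [hcoord x hx, zero_smul, add_zero]
    · rintro ⟨a, rfl⟩
      exact Submodule.smul_mem _ _ hwW
  refine ⟨b, ?_, ?_⟩
  · intro τ hτ v hv
    rw [← hW] at hv ⊢
    exact map_mem_coinvKer ρ Dec Inert hnormal hτ hv
  · intro σ hσ v
    rw [← hW]
    exact sub_mem_coinvKer ρ Inert hσ v

end Glue

end Fermat.Agent.T7.helper25
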