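import Mathlib
import Fermat.Agent.T7.helper25_Glue

/-!
# T7 / S33 (helper25): the abstract counting step [CNT]

`T` a Noetherian local ring, `𝔟` an ideal, `p ∈ 𝔪`, `V` a free `T`-module with basis `e₀, e₁`,
`ρ` an action of a group `G` on `V`, `Inert ≤ G`.  Suppose

* (residual ordinarity) the `e₁`-coordinate of `ρ σ v - v` lies in `𝔪` for all `σ ∈ Inert`;
* `V0 ⊇ 𝔟 V` is an `Inert`-stable subgroup of `V` with **no nonzero inertia-trivial `p`-torsion
  subquotient** above `𝔟 V` (`NoTrivSubquot`).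

Then the `e₀`-coordinate is injective on `V0 / 𝔟 V` (`mem_smul_top_of_repr_zero_mem`), hence
`[V0 : 𝔟 V] ≤ card (T / 𝔟)` and `card (T / 𝔟) ≤ [V : V0]` (`card_quotient_le_index`).

If moreover `Inert` acts trivially on `V / V0`, the quotient `V / V0` is an inertia-trivial
quotient of `V / 𝔟 V` with at least `card (T / 𝔟)` elements: this is the hypothesis `hbig` of
`exists_ordinary_line` (`exists_big_quotient`), and `exists_ordinary_line_of_noTrivSubquot` is
the abstract endgame of S33.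
-/

set_option autoImplicit false
set_option linter.unusedSectionVars false
set_option linter.style.longLine false

namespace Fermat.Agent.T7.helper25

open Function

section Krull

variable {T : Type*} [CommRing T] [IsLocalRing T] [IsNoetherianRing T]

/-- Krull: an element outside `𝔟` lies in `𝔪 ^ j + 𝔟` but not in `𝔪 ^ (j + 1) + 𝔟` for some
`j`. -/
theorem exists_pow_sup_notMem (𝔟 : Ideal T) {b : T} (hb : b ∉ 𝔟) :
    ∃ j : ℕ, b ∈ IsLocalRing.maximalIdeal T ^ j ⊔ 𝔟 ∧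
      b ∉ IsLocalRing.maximalIdeal T ^ (j + 1) ⊔ 𝔟 := by
  classical
  have hK := Ideal.iInf_pow_smul_eq_bot_of_isLocalRing (M := T ⧸ 𝔟)
    (IsLocalRing.maximalIdeal T) (Ideal.IsPrime.ne_top inferInstance)
  have hex : ∃ i : ℕ, b ∉ IsLocalRing.maximalIdeal T ^ i ⊔ 𝔟 := by
    by_contra hcon
    push Not at hcon
    apply hb
    have h1 : (Ideal.Quotient.mk 𝔟 b) ∈
        (⨅ i, IsLocalRing.maximalIdeal T ^ i • (⊤ : Submodule T (T ⧸ 𝔟))) := by
      rw [Submodule.mem_iInf]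
      intro i
      obtain ⟨y, hy, z, hz, hyz⟩ := Submodule.mem_sup.mp (hcon i)
      have h2 : Ideal.Quotient.mk 𝔟 b = y • (Ideal.Quotient.mk 𝔟 1) := by
        rw [← hyz, map_add, Ideal.Quotient.eq_zero_iff_mem.mpr hz, add_zero]
        show Ideal.Quotient.mk 𝔟 y = y • (Ideal.Quotient.mk 𝔟 1)
        rw [Algebra.smul_def, map_one, mul_one]
        rfl
      rw [h2]
      exact Submodule.smul_mem_smul hy Submodule.mem_top
    rw [hK, Submodule.mem_bot] at h1
    exact Ideal.Quotient.eq_zero_iff_mem.mp h1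
  have h0 : ¬ (b ∉ IsLocalRing.maximalIdeal T ^ 0 ⊔ 𝔟) := by
    rw [pow_zero, Ideal.one_eq_top, top_sup_eq]
    exact fun h => h Submodule.mem_top
  have hpos : 0 < Nat.find hex := by
    rcases Nat.eq_zero_or_pos (Nat.find hex) with h | h
    · exact absurd (h ▸ Nat.find_spec hex) h0
    · exact h
  refine ⟨Nat.find hex - 1, ?_, ?_⟩
  · have := Nat.find_min hex (m := Nat.find hex - 1) (by omega)
    exact not_not.mp this
  · have h1 : Nat.find hex - 1 + 1 = Nat.find hex := by omega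
    rw [h1]
    exact Nat.find_spec hex

end Krull

section Coord

variable {T : Type*} [CommRing T] {V : Type*} [AddCommGroup V] [Module T V]

/-- membership in `J V` in coordinates -/
theorem mem_smul_top_iff_repr (e : Module.Basis (Fin 2) T V) (J : Ideal T) (v : V) :
    v ∈ J • (⊤ : Submodule T V) ↔ ∀ i, e.repr v i ∈ J := by
  constructor
  · intro hv i
    refine Submodule.smul_induction_on hv ?_ ?_
    · intro r hr n _
      rw [map_smul, Finsupp.smul_apply, smul_eq_mul]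
      exact J.mul_mem_right _ hr
    · intro x y hx hy
      rw [map_add, Finsupp.add_apply]
      exact J.add_mem hx hy
  · intro h
    have hv := e.sum_repr v
    rw [← hv]
    exact Submodule.sum_mem _ fun i _ => Submodule.smul_mem_smul (h i) Submodule.mem_top

/-- a linear map preserves `J V` -/
theorem map_mem_smul_top (f : Module.End T V) (J : Ideal T) {v : V}
    (hv : v ∈ J • (⊤ : Submodule T V)) : f v ∈ J • (⊤ : Submodule T V) := by
  refine Submodule.smul_induction_on hv ?_ ?_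
  · intro r hr n _
    rw [map_smul]
    exact Submodule.smul_mem_smul hr Submodule.mem_top
  · intro x y hx hy
    rw [map_add]
    exact Submodule.add_mem _ hx hy

end Coord

section Cnt

variable {T : Type*} [CommRing T] [IsLocalRing T] [IsNoetherianRing T]
  {V : Type*} [AddCommGroup V] [Module T V]
  {G : Type*} [Group G]

/-- `V0` has **no nonzero inertia-trivial `p`-torsion subquotient** above `𝔟 V`. -/
def NoTrivSubquot (ρ : G →* Module.End T V) (Inert : Subgroup G) (p : ℕ) (𝔟 : Ideal T)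
    (V0 : AddSubgroup V) : Prop :=
  ∀ A B : AddSubgroup V, (𝔟 • (⊤ : Submodule T V)).toAddSubgroup ≤ B → B ≤ A → A ≤ V0 →
    (∀ σ ∈ Inert, ∀ b ∈ B, ρ σ b ∈ B) →
    (∀ σ ∈ Inert, ∀ a ∈ A, ρ σ a - a ∈ B) → (∀ a ∈ A, p • a ∈ B) → A ≤ B

/-- the `e₁`-coordinate of `ρ σ x - x` gains one power of `𝔪` -/
theorem repr_sub_mem_mul (e : Module.Basis (Fin 2) T V) (ρ : G →* Module.End T V)
    (Inert : Subgroup G)
    (hres : ∀ σ ∈ Inert, ∀ v : V, e.repr (ρ σ v - v) 1 ∈ IsLocalRing.maximalIdeal T)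
    (J : Ideal T) {σ : G} (hσ : σ ∈ Inert) {x : V} (hx : x ∈ J • (⊤ : Submodule T V)) :
    e.repr (ρ σ x - x) 1 ∈ J * IsLocalRing.maximalIdeal T := by
  refine Submodule.smul_induction_on hx ?_ ?_
  · intro r hr n _
    have h : ρ σ (r • n) - r • n = r • (ρ σ n - n) := by rw [map_smul, smul_sub]
    rw [h, map_smul, Finsupp.smul_apply, smul_eq_mul]
    exact Ideal.mul_mem_mul hr (hres σ hσ n)
  · intro x y hx hy
    have h : ρ σ (x + y) - (x + y) = (ρ σ x - x) + (ρ σ y - y) := by rw [map_add]; abel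
    rw [h, map_add, Finsupp.add_apply]
    exact Ideal.add_mem _ hx hy

theorem pow_sup_mul_le (𝔟 : Ideal T) (j : ℕ) :
    (IsLocalRing.maximalIdeal T ^ j ⊔ 𝔟) * IsLocalRing.maximalIdeal T
      ≤ IsLocalRing.maximalIdeal T ^ (j + 1) ⊔ 𝔟 := by
  rw [Ideal.sup_mul, pow_succ]
  exact sup_le_sup le_rfl Ideal.mul_le_left

/-- **[CNT], injectivity form.**  On `V0` the `e₀`-coordinate detects `𝔟 V`. -/
theorem mem_smul_top_of_repr_zero_mem (e : Module.Basis (Fin 2) T V)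
    (ρ : G →* Module.End T V) (Inert : Subgroup G) (p : ℕ)
    (hp : (p : T) ∈ IsLocalRing.maximalIdeal T) (𝔟 : Ideal T)
    (hres : ∀ σ ∈ Inert, ∀ v : V, e.repr (ρ σ v - v) 1 ∈ IsLocalRing.maximalIdeal T)
    (V0 : AddSubgroup V) (hV0 : (𝔟 • (⊤ : Submodule T V)).toAddSubgroup ≤ V0)
    (hstab : ∀ σ ∈ Inert, ∀ v ∈ V0, ρ σ v ∈ V0)
    (hno : NoTrivSubquot ρ Inert p 𝔟 V0)
    {v : V} (hv : v ∈ V0) (h0 : e.repr v 0 ∈ 𝔟) : v ∈ 𝔟 • (⊤ : Submodule T V) := by
  classical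
  by_contra hcon
  have hb : e.repr v 1 ∉ 𝔟 := by
    intro h1
    apply hcon
    rw [mem_smul_top_iff_repr e]
    intro i
    fin_cases i
    · exact h0
    · exact h1
  obtain ⟨j, hj1, hj2⟩ := exists_pow_sup_notMem 𝔟 hb
  set J : Ideal T := IsLocalRing.maximalIdeal T ^ j ⊔ 𝔟 with hJ
  set J' : Ideal T := IsLocalRing.maximalIdeal T ^ (j + 1) ⊔ 𝔟 with hJ'
  have hJJ' : J * IsLocalRing.maximalIdeal T ≤ J' := pow_sup_mul_le 𝔟 j
  have h𝔟J : 𝔟 ≤ J := le_sup_right
  have h𝔟J' : 𝔟 ≤ J' := le_sup_right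
  let A : AddSubgroup V := V0 ⊓ (J • (⊤ : Submodule T V)).toAddSubgroup
  let B : AddSubgroup V := A ⊓ (Submodule.comap (e.coord 1) J').toAddSubgroup
  have hmemA : ∀ x : V, x ∈ A ↔ x ∈ V0 ∧ x ∈ J • (⊤ : Submodule T V) := fun x => Iff.rfl
  have hmemB : ∀ x : V, x ∈ B ↔ x ∈ A ∧ e.repr x 1 ∈ J' := fun x => Iff.rfl
  have hAB : A ≤ B := by
    apply hno A B
    · intro x hx
      have hx' : x ∈ 𝔟 • (⊤ : Submodule T V) := hx
      rw [hmemB, hmemA]
      refine ⟨⟨hV0 hx, Submodule.smul_mono_left h𝔟J hx'⟩, ?_⟩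
      exact h𝔟J' ((mem_smul_top_iff_repr e 𝔟 x).mp hx' 1)
    · exact inf_le_left
    · exact inf_le_left
    · intro σ hσ b hb
      rw [hmemB, hmemA] at hb ⊢
      refine ⟨⟨hstab σ hσ b hb.1.1, map_mem_smul_top (ρ σ) J hb.1.2⟩, ?_⟩
      have h1 : ρ σ b = (ρ σ b - b) + b := by abel
      rw [h1, map_add, Finsupp.add_apply]
      exact J'.add_mem (hJJ' (repr_sub_mem_mul e ρ Inert hres J hσ hb.1.2)) hb.2
    · intro σ hσ a ha
      rw [hmemA] at ha
      rw [hmemB, hmemA]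
      refine ⟨⟨V0.sub_mem (hstab σ hσ a ha.1) ha.1,
        Submodule.sub_mem _ (map_mem_smul_top (ρ σ) J ha.2) ha.2⟩, ?_⟩
      exact hJJ' (repr_sub_mem_mul e ρ Inert hres J hσ ha.2)
    · intro a ha
      rw [hmemA] at ha
      rw [hmemB, hmemA]
      have hpa : (p : ℕ) • a = (p : T) • a := by rw [Nat.cast_smul_eq_nsmul]
      refine ⟨⟨V0.nsmul_mem ha.1 p, ?_⟩, ?_⟩
      · rw [hpa]
        exact Submodule.smul_mem _ _ ha.2
      · rw [hpa, map_smul, Finsupp.smul_apply, smul_eq_mul, mul_comm]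
        exact hJJ' (Ideal.mul_mem_mul ((mem_smul_top_iff_repr e J a).mp ha.2 1) hp)
  have hvA : v ∈ A := by
    rw [hmemA]
    refine ⟨hv, ?_⟩
    rw [mem_smul_top_iff_repr e]
    intro i
    fin_cases i
    · exact h𝔟J h0
    · exact hj1
  exact hj2 ((hmemB v).mp (hAB hvA)).2

/-- the coordinate map `V → T / 𝔟` -/
noncomputable def coordHom (e : Module.Basis (Fin 2) T V) (𝔟 : Ideal T) (i : Fin 2) :
    V →+ T ⧸ 𝔟 :=
  (Ideal.Quotient.mk 𝔟 : T →+* T ⧸ 𝔟).toAddMonoidHom.comp (e.coord i).toAddMonoidHom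

theorem coordHom_apply (e : Module.Basis (Fin 2) T V) (𝔟 : Ideal T) (i : Fin 2) (v : V) :
    coordHom e 𝔟 i v = Ideal.Quotient.mk 𝔟 (e.repr v i) := rfl

/-- `[V : 𝔟 V] = card (T / 𝔟) ^ 2` -/
theorem index_smul_top (e : Module.Basis (Fin 2) T V) (𝔟 : Ideal T) :
    (𝔟 • (⊤ : Submodule T V)).toAddSubgroup.index = Nat.card (T ⧸ 𝔟) ^ 2 := by
  classical
  let φ : V →+ (Fin 2 → T ⧸ 𝔟) := AddMonoidHom.pi fun i => coordHom e 𝔟 i
  have hφ : ∀ v i, φ v i = Ideal.Quotient.mk 𝔟 (e.repr v i) := fun v i => rfl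
  have hker : φ.ker = (𝔟 • (⊤ : Submodule T V)).toAddSubgroup := by
    ext v
    rw [AddMonoidHom.mem_ker, Submodule.mem_toAddSubgroup, mem_smul_top_iff_repr e]
    constructor
    · intro h i
      have := congrFun h i
      rw [hφ, Pi.zero_apply, Ideal.Quotient.eq_zero_iff_mem] at this
      exact this
    · intro h
      funext i
      rw [hφ, Pi.zero_apply, Ideal.Quotient.eq_zero_iff_mem]
      exact h i
  have hsurj : Function.Surjective φ := by
    intro y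
    choose t ht using fun i => Ideal.Quotient.mk_surjective (y i)
    refine ⟨∑ i, t i • e i, ?_⟩
    funext i
    rw [hφ, ← ht i]
    congr 1
    rw [map_sum, Finsupp.coe_finsetSum, Finset.sum_apply]
    simp only [map_smul, Module.Basis.repr_self, Finsupp.smul_apply, Finsupp.single_apply,
      smul_eq_mul, mul_ite, mul_one, mul_zero, Finset.sum_ite_eq', Finset.mem_univ, if_true]
  rw [← hker, AddSubgroup.index_ker, AddMonoidHom.range_eq_top.mpr hsurj]
  have h1 : Nat.card (⊤ : AddSubgroup (Fin 2 → T ⧸ 𝔟)) = Nat.card (Fin 2 → T ⧸ 𝔟) :=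
    Nat.card_congr AddSubgroup.topEquiv.toEquiv
  rw [h1, Nat.card_fun, Nat.card_fin]

/-- **[CNT], cardinality form.**  `card (T / 𝔟) ≤ [V : V0]`. -/
theorem card_quotient_le_index (e : Module.Basis (Fin 2) T V)
    (ρ : G →* Module.End T V) (Inert : Subgroup G) (p : ℕ)
    (hp : (p : T) ∈ IsLocalRing.maximalIdeal T) (𝔟 : Ideal T) [Finite (T ⧸ 𝔟)]
    (hres : ∀ σ ∈ Inert, ∀ v : V, e.repr (ρ σ v - v) 1 ∈ IsLocalRing.maximalIdeal T)
    (V0 : AddSubgroup V) (hV0 : (𝔟 • (⊤ : Submodule T V)).toAddSubgroup ≤ V0)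
    (hstab : ∀ σ ∈ Inert, ∀ v ∈ V0, ρ σ v ∈ V0)
    (hno : NoTrivSubquot ρ Inert p 𝔟 V0) :
    Nat.card (T ⧸ 𝔟) ≤ V0.index := by
  classical
  set H : AddSubgroup V := (𝔟 • (⊤ : Submodule T V)).toAddSubgroup with hH
  have h1 : H.relIndex V0 * V0.index = H.index := AddSubgroup.relIndex_mul_index hV0
  rw [index_smul_top e 𝔟] at h1
  -- the relative index is at most `card (T / 𝔟)`
  have hinf : (coordHom e 𝔟 0).ker ⊓ V0 = H ⊓ V0 := by
    ext v
    rw [AddSubgroup.mem_inf, AddSubgroup.mem_inf, AddMonoidHom.mem_ker, coordHom_apply,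
      Ideal.Quotient.eq_zero_iff_mem]
    constructor
    · rintro ⟨h0, hv⟩
      exact ⟨mem_smul_top_of_repr_zero_mem e ρ Inert p hp 𝔟 hres V0 hV0 hstab hno hv h0, hv⟩
    · rintro ⟨hv', hv⟩
      exact ⟨(mem_smul_top_iff_repr e 𝔟 v).mp hv' 0, hv⟩
  have h2 : H.relIndex V0 ≤ Nat.card (T ⧸ 𝔟) := by
    rw [← AddSubgroup.inf_relIndex_right H V0, ← hinf, AddSubgroup.inf_relIndex_right,
      AddSubgroup.relIndex_ker]
    exact Finite.card_subtype_le _
  have hpos : 0 < Nat.card (T ⧸ 𝔟) := Nat.card_pos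
  have h3 : Nat.card (T ⧸ 𝔟) * Nat.card (T ⧸ 𝔟) ≤ Nat.card (T ⧸ 𝔟) * V0.index := by
    calc Nat.card (T ⧸ 𝔟) * Nat.card (T ⧸ 𝔟) = H.relIndex V0 * V0.index := by
          rw [h1, pow_two]
      _ ≤ Nat.card (T ⧸ 𝔟) * V0.index := Nat.mul_le_mul_right _ h2
  exact Nat.le_of_mul_le_mul_left h3 hpos

end Cnt

section Endgame

variable {T : Type*} [CommRing T] [IsLocalRing T] [IsNoetherianRing T]
  {V : Type} [AddCommGroup V] [Module T V] [Module.Free T V] [Module.Finite T V]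
  {G : Type*} [Group G]

/-- the hypothesis `hbig` of `exists_ordinary_line` from [CNT] -/
theorem exists_big_quotient (e : Module.Basis (Fin 2) T V)
    (ρ : G →* Module.End T V) (Inert : Subgroup G) (p : ℕ)
    (hp : (p : T) ∈ IsLocalRing.maximalIdeal T) (m : ℕ)
    [Finite (T ⧸ Ideal.span {(p : T) ^ m})]
    (hres : ∀ σ ∈ Inert, ∀ v : V, e.repr (ρ σ v - v) 1 ∈ IsLocalRing.maximalIdeal T)
    (V0 : AddSubgroup V)
    (hV0 : ((Ideal.span {(p : T) ^ m}) • (⊤ : Submodule T V)).toAddSubgroup ≤ V0)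
    (hstab : ∀ σ ∈ Inert, ∀ v ∈ V0, ρ σ v ∈ V0)
    (htriv : ∀ σ ∈ Inert, ∀ v : V, ρ σ v - v ∈ V0)
    (hno : NoTrivSubquot ρ Inert p (Ideal.span {(p : T) ^ m}) V0) :
    ∃ (Q : Type) (_ : AddCommGroup Q) (q : V →+ Q),
      Function.Surjective q ∧ (∀ v : V, q ((p : T) ^ m • v) = 0) ∧
      (∀ σ ∈ Inert, ∀ v : V, q (ρ σ v) = q v) ∧
      Nat.card (T ⧸ Ideal.span {(p : T) ^ m}) ≤ Nat.card Q := by
  refine ⟨V ⧸ V0, inferInstance, QuotientAddGroup.mk' V0, QuotientAddGroup.mk'_surjective V0,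
    ?_, ?_, ?_⟩
  · intro v
    rw [QuotientAddGroup.mk'_apply, QuotientAddGroup.eq_zero_iff]
    apply hV0
    rw [Submodule.mem_toAddSubgroup]
    exact Submodule.smul_mem_smul (Ideal.mem_span_singleton_self _) Submodule.mem_top
  · intro σ hσ v
    rw [← sub_eq_zero, ← map_sub, QuotientAddGroup.mk'_apply, QuotientAddGroup.eq_zero_iff]
    exact htriv σ hσ v
  · rw [← AddSubgroup.index_eq_card]
    exact card_quotient_le_index e ρ Inert p hp _ hres V0 hV0 hstab hno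

/-- **The abstract endgame of S33.**  Residual ordinarity in a basis, nontrivial inertia on
`V / 𝔪 V`, and for every `m` an inertia-stable subgroup `V0 ⊇ p ^ m V` with trivial inertia on
`V / V0` and no nonzero inertia-trivial `p`-torsion subquotient above `p ^ m V`: then `V` is
ordinary. -/
theorem exists_ordinary_line_of_noTrivSubquot (e : Module.Basis (Fin 2) T V)
    (ρ : G →* Module.End T V)
    (Dec Inert : Subgroup G) (hnormal : ∀ τ ∈ Dec, ∀ σ ∈ Inert, τ * σ * τ⁻¹ ∈ Inert)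
    (p : ℕ) (hp : (p : T) ∈ IsLocalRing.maximalIdeal T)
    (hfin : ∀ m : ℕ, Finite (T ⧸ Ideal.span {(p : T) ^ m}))
    (hres : ∀ σ ∈ Inert, ∀ v : V, e.repr (ρ σ v - v) 1 ∈ IsLocalRing.maximalIdeal T)
    (hnt : ∃ σ ∈ Inert, ∃ v : V,
      ρ σ v - v ∉ (IsLocalRing.maximalIdeal T) • (⊤ : Submodule T V))
    (hgeo : ∀ m : ℕ, ∃ V0 : AddSubgroup V,
      ((Ideal.span {(p : T) ^ m}) • (⊤ : Submodule T V)).toAddSubgroup ≤ V0 ∧
      (∀ σ ∈ Inert, ∀ v ∈ V0, ρ σ v ∈ V0) ∧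
      (∀ σ ∈ Inert, ∀ v : V, ρ σ v - v ∈ V0) ∧
      NoTrivSubquot ρ Inert p (Ideal.span {(p : T) ^ m}) V0) :
    ∃ b : Module.Basis (Fin 2) T V,
      (∀ σ ∈ Dec, ∀ v ∈ Submodule.span T {b 0}, ρ σ v ∈ Submodule.span T {b 0}) ∧
      ∀ σ ∈ Inert, ∀ v : V, ρ σ v - v ∈ Submodule.span T {b 0} := by
  have hrank : Module.finrank T V = 2 := by
    rw [Module.finrank_eq_card_basis e, Fintype.card_fin]
  have hsep : ∀ a : T, (∀ m : ℕ, ∃ b : T, a = (p : T) ^ m * b) → a = 0 := by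
    intro a ha
    have hK := Ideal.iInf_pow_eq_bot_of_isLocalRing (Ideal.span {(p : T)}) (by
      intro htop
      have h1 : (1 : T) ∈ Ideal.span {(p : T)} := htop ▸ Submodule.mem_top
      have h2 : Ideal.span {(p : T)} ≤ IsLocalRing.maximalIdeal T :=
        (Ideal.span_singleton_le_iff_mem _).mpr hp
      exact (Ideal.ne_top_iff_one _).mp (Ideal.IsPrime.ne_top inferInstance) (h2 h1))
    have h3 : a ∈ (⨅ i, Ideal.span {(p : T)} ^ i) := by
      rw [Ideal.mem_iInf]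
      intro i
      obtain ⟨b, rfl⟩ := ha i
      rw [Ideal.span_singleton_pow]
      exact Ideal.mul_mem_right _ _ (Ideal.mem_span_singleton_self _)
    rw [hK] at h3
    exact h3
  refine exists_ordinary_line hrank ρ Dec Inert hnormal p hsep hfin hnt ?_
  intro m
  obtain ⟨V0, hV0, hstab, htriv, hno⟩ := hgeo m
  have hfinm : Finite (T ⧸ Ideal.span {(p : T) ^ m}) := hfin m
  exact exists_big_quotient e ρ Inert p hp m hres V0 hV0 hstab htriv hno

end Endgame

end Fermat.Agent.T7.helper25
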