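import Mathlib
import Fermat.Agent.T7.helper25_Cnt

/-!
# T7 / S33 (helper25): bridge from the quotient form of "no unramified quotient" to [CNT]

The assembler's contract (helper72 / helper51) is stated on `X = V / 𝔟 V`:
`NUQ act I Z := ∀ A B, A ≤ B → B ≤ Z → (∀ s ∈ I, ∀ b ∈ B, act s b - b ∈ A) → B ≤ A`.
`noTrivSubquot_of_nuq` pulls it back along any additive surjection `π : V → X` with kernel
`𝔟 V` to the hypothesis `NoTrivSubquot` of `card_quotient_le_index` /
`exists_ordinary_line_of_noTrivSubquot`; `exists_geo_of_nuq` produces the whole hypothesis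
`hgeo` (at one level `m`) of the endgame.
-/

set_option autoImplicit false
set_option linter.unusedSectionVars false
set_option linter.style.longLine false

namespace Fermat.Agent.T7.helper25

section Bridge

variable {T : Type*} [CommRing T] [IsLocalRing T] [IsNoetherianRing T]
  {V : Type*} [AddCommGroup V] [Module T V]
  {G : Type*} [Group G]
  {X : Type*} [AddCommGroup X]

/-- the quotient form of "no unramified quotient" (same shape as the assembler's `NUQ`) -/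
def NuqOn (act : G → X → X) (Inert : Subgroup G) (Z : AddSubgroup X) : Prop :=
  ∀ A B : AddSubgroup X, A ≤ B → B ≤ Z → (∀ s ∈ Inert, ∀ b ∈ B, act s b - b ∈ A) → B ≤ A

/-- pull-back of `NuqOn` along `π : V → X` with kernel `𝔟 V` -/
theorem noTrivSubquot_of_nuq (ρ : G →* Module.End T V) (Inert : Subgroup G) (p : ℕ)
    (𝔟 : Ideal T) (π : V →+ X) (hπ : ∀ v : V, π v = 0 ↔ v ∈ 𝔟 • (⊤ : Submodule T V))
    (act : G → X → X) (hact : ∀ σ ∈ Inert, ∀ v : V, π (ρ σ v) = act σ (π v))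
    (Z : AddSubgroup X) (hZ : NuqOn act Inert Z) :
    NoTrivSubquot ρ Inert p 𝔟 (Z.comap π) := by
  intro A B h𝔟B hBA hAZ _ hAB _
  have h1 : A.map π ≤ B.map π := by
    apply hZ (B.map π) (A.map π) (AddSubgroup.map_mono hBA)
    · rintro x ⟨a, ha, rfl⟩
      exact hAZ ha
    · rintro s hs x ⟨a, ha, rfl⟩
      refine ⟨ρ s a - a, hAB s hs a ha, ?_⟩
      rw [map_sub, hact s hs]
  intro a ha
  obtain ⟨b, hb, hab⟩ := h1 ⟨a, ha, rfl⟩
  have h2 : a - b ∈ 𝔟 • (⊤ : Submodule T V) := by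
    rw [← hπ, map_sub, hab, sub_self]
  have h3 : a - b ∈ B := h𝔟B h2
  have h4 : a = (a - b) + b := by abel
  rw [h4]
  exact B.add_mem h3 hb

/-- the hypothesis `hgeo` of `exists_ordinary_line_of_noTrivSubquot` at one level, from a
subgroup `Z` of `X = V / p ^ m V` which contains the inertia span and satisfies `NuqOn`. -/
theorem exists_geo_of_nuq (ρ : G →* Module.End T V) (Inert : Subgroup G) (p : ℕ) (m : ℕ)
    (π : V →+ X)
    (hπ : ∀ v : V, π v = 0 ↔ v ∈ (Ideal.span {(p : T) ^ m}) • (⊤ : Submodule T V))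
    (act : G → X → X) (hact : ∀ σ ∈ Inert, ∀ v : V, π (ρ σ v) = act σ (π v))
    (Z : AddSubgroup X) (hstab : ∀ σ ∈ Inert, ∀ x ∈ Z, act σ x ∈ Z)
    (htriv : ∀ σ ∈ Inert, ∀ x : X, act σ x - x ∈ Z)
    (hZ : NuqOn act Inert Z) :
    ∃ V0 : AddSubgroup V,
      ((Ideal.span {(p : T) ^ m}) • (⊤ : Submodule T V)).toAddSubgroup ≤ V0 ∧
      (∀ σ ∈ Inert, ∀ v ∈ V0, ρ σ v ∈ V0) ∧
      (∀ σ ∈ Inert, ∀ v : V, ρ σ v - v ∈ V0) ∧
      NoTrivSubquot ρ Inert p (Ideal.span {(p : T) ^ m}) V0 := by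
  refine ⟨Z.comap π, ?_, ?_, ?_, noTrivSubquot_of_nuq ρ Inert p _ π hπ act hact Z hZ⟩
  · intro v hv
    rw [AddSubgroup.mem_comap, (hπ v).mpr hv]
    exact Z.zero_mem
  · intro σ hσ v hv
    rw [AddSubgroup.mem_comap] at hv ⊢
    rw [hact σ hσ]
    exact hstab σ hσ _ hv
  · intro σ hσ v
    rw [AddSubgroup.mem_comap, map_sub, hact σ hσ]
    exact htriv σ hσ _

/-- the smallest choice of `Z`: the subgroup generated by all `act s x - x`.  It is stable and
contains the inertia span by construction (for an action by additive maps). -/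
theorem exists_geo_of_nuq_span (ρ : G →* Module.End T V) (Inert : Subgroup G) (p : ℕ) (m : ℕ)
    (π : V →+ X)
    (hπ : ∀ v : V, π v = 0 ↔ v ∈ (Ideal.span {(p : T) ^ m}) • (⊤ : Submodule T V))
    (act : G → X → X) (hact : ∀ σ ∈ Inert, ∀ v : V, π (ρ σ v) = act σ (π v))
    (hZ : NuqOn act Inert
      (AddSubgroup.closure {y : X | ∃ s ∈ Inert, ∃ x : X, y = act s x - x})) :
    ∃ V0 : AddSubgroup V,
      ((Ideal.span {(p : T) ^ m}) • (⊤ : Submodule T V)).toAddSubgroup ≤ V0 ∧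
      (∀ σ ∈ Inert, ∀ v ∈ V0, ρ σ v ∈ V0) ∧
      (∀ σ ∈ Inert, ∀ v : V, ρ σ v - v ∈ V0) ∧
      NoTrivSubquot ρ Inert p (Ideal.span {(p : T) ^ m}) V0 := by
  have htriv : ∀ σ ∈ Inert, ∀ x : X, act σ x - x ∈
      AddSubgroup.closure {y : X | ∃ s ∈ Inert, ∃ x : X, y = act s x - x} :=
    fun σ hσ x => AddSubgroup.subset_closure ⟨σ, hσ, x, rfl⟩
  refine exists_geo_of_nuq ρ Inert p m π hπ act hact _ ?_ htriv hZ
  intro σ hσ x hx
  have h1 : act σ x = (act σ x - x) + x := by abel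
  rw [h1]
  exact AddSubgroup.add_mem _ (htriv σ hσ x) hx

end Bridge

end Fermat.Agent.T7.helper25
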