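import Mathlib
import Fermat.Prelude.Def_GaloisRep_Flat
import Fermat.Prelude.Def_GaloisRep_LocalConditions
import Fermat.Agent.T7.helper25_CntNuq
import Fermat.Agent.S33.helper54_OrdAlg

/-!
# T7 / S33 (helper25): the endgame in the shape of the Prelude

`ρ : GaloisRepAdic T`, `T` a noetherian local ring.

* `mem_smul_top_of_tmul_eq_zero` : the kernel of `V → k ⊗ V` is `𝔪 V`;
* `exists_basis_of_residual_line` : the residual ordinary line (Prelude shape, on `k ⊗ V`) lifts
  to a basis `e` of `V` with `e.repr (ρ σ v - v) 1 ∈ 𝔪` for all `σ` in the inertia group;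
* `finite_quotient_span_natCast_pow` : `T / p ^ m T` is finite for `T` finite over a discrete
  valuation ring of characteristic zero with finite residue field;
* `nuqOn_geo` : the hypothesis `hgeo` of the abstract endgame from `NuqOn` of the inertia span
  of `V / p ^ m V` with its `levelAction`;
* `isOrdinaryAt_of_nuqOn` : **`ρ.IsOrdinaryAt p` from residual ordinarity + nontrivial inertia
  on `V / 𝔪 V` + `NuqOn` of the inertia span of every `V / p ^ m V`**.
-/

set_option autoImplicit false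
set_option linter.unusedSectionVars false
set_option linter.style.longLine false
set_option linter.unusedVariables false

open scoped TensorProduct

namespace Fermat.Agent.T7.helper25

section ResidualLine

variable {A : Type} [CommRing A] [IsLocalRing A]

/-- the kernel of `V → k ⊗ V` is `𝔪 V` (for `V` free of rank two) -/
theorem mem_smul_top_of_tmul_eq_zero {V : Type} [AddCommGroup V] [Module A V]
    (e : Module.Basis (Fin 2) A V) (v : V)
    (h : (1 : IsLocalRing.ResidueField A) ⊗ₜ[A] v = 0) :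
    v ∈ (IsLocalRing.maximalIdeal A) • (⊤ : Submodule A V) := by
  rw [mem_smul_top_iff_repr e]
  intro i
  have h1 := congrArg (fun w => (Algebra.TensorProduct.basis (IsLocalRing.ResidueField A) e).repr w i) h
  simp only [Algebra.TensorProduct.basis_repr_tmul, map_zero, Finsupp.coe_zero, Pi.zero_apply,
    one_smul, Finsupp.mapRange_apply] at h1
  rw [IsLocalRing.ResidueField.algebraMap_eq] at h1
  exact (IsLocalRing.residue_eq_zero_iff _).mp h1

/-- every element of `k ⊗ V` is of the form `1 ⊗ v` -/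
theorem exists_tmul_eq {V : Type} [AddCommGroup V] [Module A V]
    (w : IsLocalRing.ResidueField A ⊗[A] V) :
    ∃ v : V, (1 : IsLocalRing.ResidueField A) ⊗ₜ[A] v = w := by
  induction w using TensorProduct.induction_on with
  | zero => exact ⟨0, TensorProduct.tmul_zero _ _⟩
  | tmul c v =>
    obtain ⟨a, rfl⟩ := IsLocalRing.residue_surjective c
    refine ⟨a • v, ?_⟩
    rw [TensorProduct.tmul_smul, TensorProduct.smul_tmul', Algebra.smul_def, mul_one,
      IsLocalRing.ResidueField.algebraMap_eq]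
  | add x y hx hy =>
    obtain ⟨a, ha⟩ := hx
    obtain ⟨b, hb⟩ := hy
    exact ⟨a + b, by rw [TensorProduct.tmul_add, ha, hb]⟩

/-- **The residual line lifts to a basis.** -/
theorem exists_basis_of_residual_line (ρ : GaloisRepAdic A)
    (Inert : Subgroup (AlgebraicClosure ℚ ≃ₐ[ℚ] AlgebraicClosure ℚ))
    (L : Submodule (IsLocalRing.ResidueField A) ρ.residual.V)
    (hL : ∃ b : Module.Basis (Fin 2) (IsLocalRing.ResidueField A) ρ.residual.V,
      L = (IsLocalRing.ResidueField A) ∙ b 0)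
    (hI : ∀ σ ∈ Inert, ∀ v : ρ.residual.V, ρ.residual.ρ σ v - v ∈ L) :
    ∃ e : Module.Basis (Fin 2) A ρ.V,
      ∀ σ ∈ Inert, ∀ v : ρ.V, e.repr (ρ.ρ σ v - v) 1 ∈ IsLocalRing.maximalIdeal A := by
  classical
  obtain ⟨b, rfl⟩ := hL
  let e' : Module.Basis (Fin 2) A ρ.V := Module.finBasisOfFinrankEq A ρ.V ρ.finrank_eq
  obtain ⟨e0, he0⟩ := exists_tmul_eq (A := A) (V := ρ.V) (b 0)
  have hne : e0 ∉ (IsLocalRing.maximalIdeal A) • (⊤ : Submodule A ρ.V) := by
    intro hmem
    have h0 : (1 : IsLocalRing.ResidueField A) ⊗ₜ[A] e0 = 0 := by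
      refine Submodule.smul_induction_on
        (p := fun x => (1 : IsLocalRing.ResidueField A) ⊗ₜ[A] x = 0) hmem ?_ ?_
      · intro a ha w _
        rw [TensorProduct.tmul_smul, TensorProduct.smul_tmul', Algebra.smul_def,
          IsLocalRing.ResidueField.algebraMap_eq, (IsLocalRing.residue_eq_zero_iff a).mpr ha,
          zero_mul, TensorProduct.zero_tmul]
      · intro x y hx hy
        rw [TensorProduct.tmul_add, hx, hy, add_zero]
    rw [he0] at h0
    exact b.ne_zero 0 h0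
  obtain ⟨e, he⟩ := exists_basis_of_notMem_smul ρ.finrank_eq hne
  refine ⟨e, fun σ hσ v => ?_⟩
  have h1 := hI σ hσ ((1 : IsLocalRing.ResidueField A) ⊗ₜ[A] v)
  rw [Submodule.mem_span_singleton] at h1
  obtain ⟨c, hc⟩ := h1
  obtain ⟨a, rfl⟩ := IsLocalRing.residue_surjective c
  have h2 : ρ.residual.ρ σ ((1 : IsLocalRing.ResidueField A) ⊗ₜ[A] v) =
      ((1 : IsLocalRing.ResidueField A) ⊗ₜ[A] (ρ.ρ σ v) : IsLocalRing.ResidueField A ⊗[A] ρ.V) :=
    LinearMap.baseChange_tmul _ _ _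
  have e1 : ((1 : IsLocalRing.ResidueField A) ⊗ₜ[A] (a • e0) :
      IsLocalRing.ResidueField A ⊗[A] ρ.V) =
      IsLocalRing.residue A a • ((1 : IsLocalRing.ResidueField A) ⊗ₜ[A] e0 :
        IsLocalRing.ResidueField A ⊗[A] ρ.V) := by
    rw [TensorProduct.tmul_smul, TensorProduct.smul_tmul', TensorProduct.smul_tmul',
      Algebra.smul_def, smul_eq_mul, IsLocalRing.ResidueField.algebraMap_eq]
  have e2 : IsLocalRing.residue A a • ((1 : IsLocalRing.ResidueField A) ⊗ₜ[A] e0 :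
        IsLocalRing.ResidueField A ⊗[A] ρ.V) =
      ((1 : IsLocalRing.ResidueField A) ⊗ₜ[A] (ρ.ρ σ v) :
        IsLocalRing.ResidueField A ⊗[A] ρ.V) - (1 : IsLocalRing.ResidueField A) ⊗ₜ[A] v :=
    (congrArg (fun w : IsLocalRing.ResidueField A ⊗[A] ρ.V => IsLocalRing.residue A a • w)
      he0).trans (hc.trans (congrArg (fun w : IsLocalRing.ResidueField A ⊗[A] ρ.V =>
        w - (1 : IsLocalRing.ResidueField A) ⊗ₜ[A] v) h2))
  have h3 : ((1 : IsLocalRing.ResidueField A) ⊗ₜ[A] (ρ.ρ σ v - v - a • e0) :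
      IsLocalRing.ResidueField A ⊗[A] ρ.V) = 0 := by
    rw [TensorProduct.tmul_sub, TensorProduct.tmul_sub, e1, e2, sub_self]
  have h4 := mem_smul_top_of_tmul_eq_zero e _ h3
  rw [mem_smul_top_iff_repr e] at h4
  have h5 := h4 1
  rw [map_sub, map_smul, ← he, Module.Basis.repr_self] at h5
  simpa using h5

end ResidualLine

section Finiteness

variable {𝒪 : Type*} [CommRing 𝒪] [IsDomain 𝒪] [IsDiscreteValuationRing 𝒪]
  [Finite (IsLocalRing.ResidueField 𝒪)]
  {T : Type*} [CommRing T] [Algebra 𝒪 T] [Module.Finite 𝒪 T]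

/-- the quotient of a discrete valuation ring with finite residue field by a nonzero element is
finite -/
theorem finite_quotient_span_of_ne_zero {x : 𝒪} (hx : x ≠ 0) :
    Finite (𝒪 ⧸ Ideal.span {x}) := by
  rw [IsLocalRing.finite_quotient_iff]
  obtain ⟨ϖ, hϖ⟩ := IsDiscreteValuationRing.exists_irreducible 𝒪
  have hne : Ideal.span {x} ≠ ⊥ := by
    rw [Ne, Ideal.span_singleton_eq_bot]
    exact hx
  obtain ⟨n, hn⟩ := IsDiscreteValuationRing.ideal_eq_span_pow_irreducible hne hϖ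
  refine ⟨n, ?_⟩
  rw [hn, hϖ.maximalIdeal_eq, Ideal.span_singleton_pow]

/-- **`T / x T` is finite** for `T` finite over a discrete valuation ring `𝒪` with finite
residue field and `x ≠ 0` in `𝒪`. -/
theorem finite_quotient_span_algebraMap {x : 𝒪} (hx : x ≠ 0) :
    Finite (T ⧸ Ideal.span {algebraMap 𝒪 T x}) := by
  have : Finite (𝒪 ⧸ Ideal.span {x}) := finite_quotient_span_of_ne_zero hx
  have : Finite (T ⧸ (⊤ : Submodule 𝒪 T)) := inferInstance
  have hfg : (⊤ : Submodule 𝒪 T).FG := Module.Finite.fg_top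
  have h1 : Finite (T ⧸ ((Ideal.span {x}) • (⊤ : Submodule 𝒪 T))) :=
    Submodule.finite_quotient_smul (Ideal.span {x}) hfg
  have hle : (Ideal.span {x}) • (⊤ : Submodule 𝒪 T) ≤
      LinearMap.ker (Ideal.Quotient.mkₐ 𝒪 (Ideal.span {algebraMap 𝒪 T x})).toLinearMap := by
    rw [Submodule.smul_le]
    intro a ha t _
    rw [LinearMap.mem_ker, AlgHom.toLinearMap_apply, Ideal.Quotient.mkₐ_eq_mk,
      Ideal.Quotient.eq_zero_iff_mem]
    obtain ⟨c, rfl⟩ := Ideal.mem_span_singleton.mp ha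
    rw [Algebra.smul_def, map_mul, mul_assoc]
    exact Ideal.mul_mem_right _ _ (Ideal.mem_span_singleton_self _)
  let g : (T ⧸ ((Ideal.span {x}) • (⊤ : Submodule 𝒪 T))) →ₗ[𝒪]
      (T ⧸ Ideal.span {algebraMap 𝒪 T x}) :=
    Submodule.liftQ _ (Ideal.Quotient.mkₐ 𝒪 (Ideal.span {algebraMap 𝒪 T x})).toLinearMap hle
  have hg : Function.Surjective g := by
    intro y
    obtain ⟨t, rfl⟩ := Ideal.Quotient.mk_surjective y
    exact ⟨Submodule.Quotient.mk t, rfl⟩
  exact Finite.of_surjective g hg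

/-- **`T / p ^ m T` is finite.** -/
theorem finite_quotient_span_natCast_pow [CharZero 𝒪] (p : ℕ) (hp : p ≠ 0) (m : ℕ) :
    Finite (T ⧸ Ideal.span {(p : T) ^ m}) := by
  have hx : ((p : 𝒪) ^ m) ≠ 0 := pow_ne_zero _ (Nat.cast_ne_zero.mpr hp)
  have h := finite_quotient_span_algebraMap (T := T) hx
  rwa [map_pow, map_natCast] at h

end Finiteness

section Wrapper

variable {T : Type} [CommRing T] [IsLocalRing T] [IsNoetherianRing T]

/-- the hypothesis `hgeo` of the abstract endgame, at level `m`, from `NuqOn` of the inertia span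
of `V / p ^ m V` with its `levelAction`. -/
theorem nuqOn_geo (ρ : GaloisRepAdic T)
    (Inert : Subgroup (AlgebraicClosure ℚ ≃ₐ[ℚ] AlgebraicClosure ℚ)) (p : ℕ) (m : ℕ)
    (hG : NuqOn (fun s x => ρ.levelAction (Ideal.span {(p : T) ^ m}) s x) Inert
      (AddSubgroup.closure {y | ∃ s ∈ Inert, ∃ x, y =
        ρ.levelAction (Ideal.span {(p : T) ^ m}) s x - x})) :
    ∃ V0 : AddSubgroup ρ.V,
      ((Ideal.span {(p : T) ^ m}) • (⊤ : Submodule T ρ.V)).toAddSubgroup ≤ V0 ∧
      (∀ σ ∈ Inert, ∀ v ∈ V0, ρ.ρ σ v ∈ V0) ∧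
      (∀ σ ∈ Inert, ∀ v : ρ.V, ρ.ρ σ v - v ∈ V0) ∧
      NoTrivSubquot ρ.ρ Inert p (Ideal.span {(p : T) ^ m}) V0 := by
  refine exists_geo_of_nuq_span ρ.ρ Inert p m
    ((Submodule.mkQ ((Ideal.span {(p : T) ^ m}) • (⊤ : Submodule T ρ.V))).toAddMonoidHom)
    (fun v => ?_) (fun s x => ρ.levelAction (Ideal.span {(p : T) ^ m}) s x)
    (fun σ _ v => rfl) hG
  exact Submodule.Quotient.mk_eq_zero _

/-- **The endgame of S33 in the shape of the Prelude.** -/
theorem isOrdinaryAt_of_nuqOn (ρ : GaloisRepAdic T) (p : ℕ)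
    (hp : (p : T) ∈ IsLocalRing.maximalIdeal T)
    (hfin : ∀ m : ℕ, Finite (T ⧸ Ideal.span {(p : T) ^ m}))
    (hres : (GaloisRepAdic.ofResidualGaloisRep ρ.residual).IsOrdinaryAt p)
    (hnt : ∀ P : ValuationSubring (AlgebraicClosure ℚ), P.LiesOverPrime p →
      ∃ σ ∈ P.inertiaSubgroupIn ℚ, ∃ v : ρ.V,
        ρ.ρ σ v - v ∉ (IsLocalRing.maximalIdeal T) • (⊤ : Submodule T ρ.V))
    (hG : ∀ P : ValuationSubring (AlgebraicClosure ℚ), P.LiesOverPrime p → ∀ m : ℕ,
      NuqOn (fun s x => ρ.levelAction (Ideal.span {(p : T) ^ m}) s x) (P.inertiaSubgroupIn ℚ)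
        (AddSubgroup.closure {y | ∃ s ∈ P.inertiaSubgroupIn ℚ, ∃ x, y =
          ρ.levelAction (Ideal.span {(p : T) ^ m}) s x - x})) :
    ρ.IsOrdinaryAt p := by
  intro P hP
  obtain ⟨L, hL, -, hI⟩ := hres P hP
  obtain ⟨e, he⟩ := exists_basis_of_residual_line ρ (P.inertiaSubgroupIn ℚ) L hL hI
  obtain ⟨b, hD, hIb⟩ := exists_ordinary_line_of_noTrivSubquot e ρ.ρ
    (P.decompositionSubgroup ℚ) (P.inertiaSubgroupIn ℚ)
    (fun τ hτ σ hσ => Fermat.Agent.S33.helper54.conj_mem_inertiaSubgroupIn' P hτ hσ)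
    p hp hfin he (hnt P hP) (fun m => nuqOn_geo ρ (P.inertiaSubgroupIn ℚ) p m (hG P hP m))
  exact ⟨T ∙ b 0, ⟨b, rfl⟩, hD, hIb⟩

end Wrapper

end Fermat.Agent.T7.helper25
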