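import Mathlib
import Fermat.Agent.P2.helper74_Content

/-!
# T7 / S33 (helper25): a factor of a series with attained content has attained content

`A` a valuation ring of rank one (hypothesis (ARCH)) in which every element has `n`-th roots
(e.g. a valuation subring of an algebraically closed field).

* `exists_first_min`          : a finite family has a first divisibility-minimal member;
* `exists_first_min_rescale`  : after the rescaling `q ↦ c q` (`c` a nonzero nonunit) the
  coefficients of a nonzero power series have a first divisibility-minimal member;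
* `coeff_mul_first_min`       : Gauss: at the sum of the first minimal indices the coefficient of
  a product is associated to the product of the minimal coefficients;
* `exists_min_coeff_of_mul_eq`: **[ATT-FACTOR], power series form**: if `X * Φ = e • P`, `e ≠ 0`
  and `P` has a unit coefficient, then some coefficient of `X` divides all coefficients of `X`.
-/

set_option autoImplicit false
set_option linter.unusedSectionVars false
set_option linter.unusedVariables false
set_option linter.style.longLine false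

namespace Fermat.Agent.T7.helper25

open PowerSeries

section FirstMin

variable {A : Type*} [CommRing A] [IsDomain A] [ValuationRing A]

/-- a finite family in a valuation ring has a first divisibility-minimal member -/
theorem exists_first_min (f : ℕ → A) (N : ℕ) :
    ∃ i0 ≤ N, (∀ i ≤ N, f i0 ∣ f i) ∧ ∀ i < i0, ¬ f i ∣ f i0 := by
  classical
  have hex : ∃ i, i ≤ N ∧ ∀ j ≤ N, f i ∣ f j := by
    induction N with
    | zero =>
      refine ⟨0, le_rfl, fun j hj => ?_⟩
      rw [Nat.le_zero.mp hj]
    | succ N ih =>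
      obtain ⟨i, hi, hmin⟩ := ih
      rcases ValuationRing.dvd_total (f i) (f (N + 1)) with h | h
      · refine ⟨i, Nat.le_succ_of_le hi, fun j hj => ?_⟩
        rcases Nat.lt_or_ge j (N + 1) with hj' | hj'
        · exact hmin j (Nat.lt_succ_iff.mp hj')
        · rw [le_antisymm hj hj']
          exact h
      · refine ⟨N + 1, le_rfl, fun j hj => ?_⟩
        rcases Nat.lt_or_ge j (N + 1) with hj' | hj'
        · exact h.trans (hmin j (Nat.lt_succ_iff.mp hj'))
        · rw [le_antisymm hj hj']
  refine ⟨Nat.find hex, (Nat.find_spec hex).1, (Nat.find_spec hex).2, fun i hi hdvd => ?_⟩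
  refine Nat.find_min hex hi ⟨(Nat.le_of_lt hi).trans (Nat.find_spec hex).1, fun j hj => ?_⟩
  exact hdvd.trans ((Nat.find_spec hex).2 j hj)

/-- the coefficients of a nonzero series, rescaled by a nonzero nonunit, have a first
divisibility-minimal member -/
theorem exists_first_min_rescale
    (hArch : ∀ b : A, ¬ IsUnit b → ∀ e : A, e ≠ 0 → ∃ n : ℕ, e ∣ b ^ n)
    (c : A) (hc : ¬ IsUnit c) (hc0 : c ≠ 0) (X : PowerSeries A) (hX : X ≠ 0) :
    ∃ i0, (∀ i, coeff i0 (rescale c X) ∣ coeff i (rescale c X)) ∧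
      (∀ i < i0, ¬ coeff i (rescale c X) ∣ coeff i0 (rescale c X)) ∧
      coeff i0 (rescale c X) ≠ 0 := by
  classical
  obtain ⟨m, hm⟩ : ∃ m, coeff m X ≠ 0 := by
    by_contra hcon
    push Not at hcon
    exact hX (PowerSeries.ext fun n => by rw [hcon n, map_zero])
  have hy : c ^ m * coeff m X ≠ 0 := mul_ne_zero (pow_ne_zero _ hc0) hm
  obtain ⟨N, hN⟩ := hArch c hc _ hy
  obtain ⟨i0, hi0, hmin, hfirst⟩ :=
    exists_first_min (fun i => coeff i (rescale c X)) (max N m)
  have hi0m : coeff i0 (rescale c X) ∣ c ^ m * coeff m X := by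
    have h := hmin m (le_max_right _ _)
    have e : coeff m (rescale c X) = c ^ m * coeff m X := coeff_rescale X c m
    rwa [e] at h
  refine ⟨i0, fun i => ?_, hfirst, ?_⟩
  · rcases Nat.lt_or_ge (max N m) i with hi | hi
    · have hNi : N ≤ i := (le_max_left N m).trans (Nat.le_of_lt hi)
      have e : coeff i (rescale c X) = c ^ i * coeff i X := coeff_rescale X c i
      rw [e]
      exact hi0m.trans (hN.trans (Dvd.dvd.mul_right (pow_dvd_pow c hNi) _))
    · exact hmin i hi
  · intro h0
    rw [h0, zero_dvd_iff] at hi0m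
    exact hy hi0m

/-- **Gauss at the first minimal indices.** -/
theorem coeff_mul_first_min (F G : PowerSeries A) (i0 j0 : ℕ)
    (hF : ∀ i, coeff i0 F ∣ coeff i F) (hF' : ∀ i < i0, ¬ coeff i F ∣ coeff i0 F)
    (hG : ∀ j, coeff j0 G ∣ coeff j G) (hG' : ∀ j < j0, ¬ coeff j G ∣ coeff j0 G) :
    coeff (i0 + j0) (F * G) ∣ coeff i0 F * coeff j0 G := by
  classical
  set f0 := coeff i0 F with hf0
  set g0 := coeff j0 G with hg0
  have hmem : (i0, j0) ∈ Finset.HasAntidiagonal.antidiagonal (i0 + j0) := by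
    rw [Finset.HasAntidiagonal.mem_antidiagonal]
  have hterm : ∀ q ∈ (Finset.HasAntidiagonal.antidiagonal (i0 + j0)).erase (i0, j0),
      coeff q.1 F * coeff q.2 G ∈ Ideal.span {f0 * g0} * IsLocalRing.maximalIdeal A := by
    intro q hq
    rw [Finset.mem_erase, Finset.HasAntidiagonal.mem_antidiagonal] at hq
    obtain ⟨hne, hsum⟩ := hq
    obtain ⟨s, hs⟩ := hF q.1
    obtain ⟨t, ht⟩ := hG q.2
    have hst : s * t ∈ IsLocalRing.maximalIdeal A := by
      have hlt : q.1 < i0 ∨ q.2 < j0 := by
        by_contra hcon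
        push Not at hcon
        apply hne
        have h1 : q.1 = i0 := by omega
        have h2 : q.2 = j0 := by omega
        exact Prod.ext h1 h2
      rcases hlt with h | h
      · have hsn : ¬ IsUnit s := by
          intro hu
          apply hF' q.1 h
          obtain ⟨u, rfl⟩ := hu
          refine ⟨(↑u⁻¹ : A), ?_⟩
          rw [hs, mul_assoc, Units.mul_inv, mul_one]
        exact Ideal.mul_mem_right _ _ ((IsLocalRing.mem_maximalIdeal _).mpr hsn)
      · have htn : ¬ IsUnit t := by
          intro hu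
          apply hG' q.2 h
          obtain ⟨u, rfl⟩ := hu
          refine ⟨(↑u⁻¹ : A), ?_⟩
          rw [ht, mul_assoc, Units.mul_inv, mul_one]
        exact Ideal.mul_mem_left _ _ ((IsLocalRing.mem_maximalIdeal _).mpr htn)
    rw [Ideal.mem_span_singleton_mul]
    refine ⟨s * t, hst, ?_⟩
    rw [hs, ht]
    ring
  have hsum : ∑ q ∈ (Finset.HasAntidiagonal.antidiagonal (i0 + j0)).erase (i0, j0),
      coeff q.1 F * coeff q.2 G ∈ Ideal.span {f0 * g0} * IsLocalRing.maximalIdeal A :=
    Ideal.sum_mem _ hterm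
  rw [Ideal.mem_span_singleton_mul] at hsum
  obtain ⟨M, hM, hMeq⟩ := hsum
  have hcoeff : coeff (i0 + j0) (F * G) = f0 * g0 * (1 + M) := by
    rw [coeff_mul, ← Finset.add_sum_erase _ _ hmem, ← hMeq]
    ring
  have hu : IsUnit (1 + M) := by
    by_contra hnu
    have h1 : (1 + M) ∈ IsLocalRing.maximalIdeal A := (IsLocalRing.mem_maximalIdeal _).mpr hnu
    have h2 : (1 : A) ∈ IsLocalRing.maximalIdeal A := by
      have := Ideal.sub_mem _ h1 hM
      rwa [add_sub_cancel_right] at this
    exact (IsLocalRing.maximalIdeal.isMaximal A).ne_top ((Ideal.eq_top_iff_one _).mpr h2)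
  obtain ⟨u, hu⟩ := hu
  refine ⟨(↑u⁻¹ : A), ?_⟩
  rw [hcoeff, ← hu, mul_assoc, Units.mul_inv, mul_one]

end FirstMin

section Main

variable {A : Type*} [CommRing A] [IsDomain A] [ValuationRing A]

/-- **[ATT-FACTOR], power series form.**  If `X * Φ = e • P` with `e ≠ 0` and `P` has a unit
coefficient, then some nonzero coefficient of `X` divides all coefficients of `X`. -/
theorem exists_min_coeff_of_mul_eq
    (hArch : ∀ b : A, ¬ IsUnit b → ∀ e : A, e ≠ 0 → ∃ n : ℕ, e ∣ b ^ n)
    (hroot : ∀ d : A, ∀ n : ℕ, 0 < n → ∃ c : A, c ^ n = d)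
    (X Φ P : PowerSeries A) (e : A) (he : e ≠ 0) (nP : ℕ) (hP : IsUnit (coeff nP P))
    (h : X * Φ = e • P) :
    ∃ i0, coeff i0 X ≠ 0 ∧ ∀ n, coeff i0 X ∣ coeff n X := by
  classical
  obtain ⟨ia, hia, hmin, -⟩ := exists_first_min (fun i => coeff i X) nP
  have hcoeffP : coeff nP (X * Φ) = e * coeff nP P := by
    rw [h, PowerSeries.coeff_smul, smul_eq_mul]
  have hne : e * coeff nP P ≠ 0 := mul_ne_zero he hP.ne_zero
  have ha0 : coeff ia X ≠ 0 := by
    intro h0
    have hz : ∀ i ≤ nP, coeff i X = 0 := fun i hi => by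
      have h1 := hmin i hi
      simp only [h0, zero_dvd_iff] at h1
      exact h1
    have h2 : coeff nP (X * Φ) = 0 := by
      rw [coeff_mul]
      refine Finset.sum_eq_zero fun q hq => ?_
      rw [Finset.HasAntidiagonal.mem_antidiagonal] at hq
      rw [hz q.1 (by omega), zero_mul]
    rw [hcoeffP] at h2
    exact hne h2
  refine ⟨ia, ha0, ?_⟩
  by_contra hcon
  push Not at hcon
  obtain ⟨n1, hn1⟩ := hcon
  have hdvd : coeff n1 X ∣ coeff ia X := (ValuationRing.dvd_total _ _).resolve_left hn1
  obtain ⟨d, hd⟩ := hdvd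
  have hdnu : ¬ IsUnit d := by
    intro hu
    apply hn1
    obtain ⟨u, rfl⟩ := hu
    exact ⟨(↑u⁻¹ : A), by rw [hd, mul_assoc, Units.mul_inv, mul_one]⟩
  have hx1 : coeff n1 X ≠ 0 := by
    intro h0
    rw [h0, zero_mul] at hd
    exact ha0 hd
  have hd0 : d ≠ 0 := by
    intro h0
    rw [h0, mul_zero] at hd
    exact ha0 hd
  obtain ⟨c, hc⟩ := hroot d (n1 + 1) (Nat.succ_pos _)
  have hc0 : c ≠ 0 := by
    intro h0
    rw [h0, zero_pow (Nat.succ_ne_zero _)] at hc
    exact hd0 hc.symm
  have hcnu : ¬ IsUnit c := by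
    intro hu
    exact hdnu (hc ▸ hu.pow _)
  have hX0 : X ≠ 0 := by
    intro h0
    apply ha0
    rw [h0, map_zero]
  have hΦ0 : Φ ≠ 0 := by
    intro h0
    have h2 : coeff nP (X * Φ) = 0 := by rw [h0, mul_zero, map_zero]
    rw [hcoeffP] at h2
    exact hne h2
  obtain ⟨i0, hFmin, hFfirst, hF0⟩ := exists_first_min_rescale hArch c hcnu hc0 X hX0
  obtain ⟨j0, hGmin, hGfirst, hG0⟩ := exists_first_min_rescale hArch c hcnu hc0 Φ hΦ0
  have hgauss := coeff_mul_first_min (rescale c X) (rescale c Φ) i0 j0 hFmin hFfirst hGmin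
    hGfirst
  have hprod : rescale c X * rescale c Φ = rescale c (X * Φ) := (map_mul _ _ _).symm
  have hcoeff : ∀ n, coeff n (rescale c X * rescale c Φ) = c ^ n * (e * coeff n P) := by
    intro n
    rw [hprod, coeff_rescale, h, PowerSeries.coeff_smul, smul_eq_mul]
  have hαi : coeff i0 (rescale c X) = c ^ i0 * coeff i0 X := coeff_rescale X c i0
  have hαn : coeff n1 (rescale c X) = c ^ n1 * coeff n1 X := coeff_rescale X c n1
  -- `e c ^ (i0 + j0) ∣ α β`
  have h1 : e * c ^ (i0 + j0) ∣ coeff i0 (rescale c X) * coeff j0 (rescale c Φ) := by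
    refine Dvd.dvd.trans ?_ hgauss
    rw [hcoeff]
    exact ⟨coeff (i0 + j0) P, by ring⟩
  -- `α β ∣ e c ^ nP`
  have h2 : coeff i0 (rescale c X) * coeff j0 (rescale c Φ) ∣ e * c ^ nP := by
    have h3 : coeff i0 (rescale c X) * coeff j0 (rescale c Φ) ∣
        coeff nP (rescale c X * rescale c Φ) := by
      rw [coeff_mul]
      exact Finset.dvd_sum fun q _ => mul_dvd_mul (hFmin q.1) (hGmin q.2)
    rw [hcoeff] at h3
    obtain ⟨u, hu⟩ := hP
    have h4 : c ^ nP * (e * coeff nP P) = (e * c ^ nP) * (u : A) := by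
      rw [← hu]
      ring
    rw [h4] at h3
    exact (Units.dvd_mul_right).mp h3
  have h4 : c ^ (i0 + j0) ∣ c ^ nP := (mul_dvd_mul_iff_left he).mp (h1.trans h2)
  have hle : i0 + j0 ≤ nP := (pow_dvd_pow_iff hc0 hcnu).mp h4
  have hi0 : i0 ≤ nP := by omega
  -- `c ^ i0 * a ∣ α ∣ c ^ n1 * x_n1`
  have h5 : c ^ i0 * coeff ia X ∣ c ^ n1 * coeff n1 X := by
    have h6 : c ^ i0 * coeff ia X ∣ coeff i0 (rescale c X) := by
      rw [hαi]
      exact mul_dvd_mul_left _ (hmin i0 hi0)
    have h7 := hFmin n1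
    rw [hαn] at h7
    exact h6.trans h7
  have h8 : (c ^ n1 * coeff n1 X) * c ^ (i0 + 1) ∣ (c ^ n1 * coeff n1 X) * 1 := by
    have h9 : (c ^ n1 * coeff n1 X) * c ^ (i0 + 1) = c ^ i0 * coeff ia X := by
      rw [hd, ← hc]
      ring
    rw [h9, mul_one]
    exact h5
  have h10 : c ^ (i0 + 1) ∣ 1 :=
    (mul_dvd_mul_iff_left (mul_ne_zero (pow_ne_zero _ hc0) hx1)).mp h8
  exact hcnu ((isUnit_pow_iff (Nat.succ_ne_zero i0)).mp (isUnit_of_dvd_one h10))

end Main

section Laurent

open HahnSeries ModularCurve Fermat.Agent.P2.helper74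

variable {L : Type*} [Field L] {A : ValuationSubring L} {k : Type*} [Field k] {π : A →+* k}

/-- the coefficients of a shifted Laurent series -/
theorem coeff_single_neg_mul {R : Type*} [CommRing R] (f : LaurentSeries R) (c m : ℤ) :
    (HahnSeries.single (-c) (1 : R) * f).coeff m = f.coeff (c + m) := by
  have h := HahnSeries.coeff_single_mul_add (r := (1 : R)) (x := f) (a := c + m) (b := -c)
  rw [one_mul] at h
  rw [← h]
  congr 1
  ring

/-- division of a Laurent series by a common divisor of its coefficients -/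
theorem exists_eq_smul_of_forall_dvd {R : Type*} [CommRing R] [IsDomain R]
    (X : LaurentSeries R) (ε : R) (hε : ε ≠ 0) (h : ∀ i, ε ∣ X.coeff i) :
    ∃ δ : LaurentSeries R, X = ε • δ := by
  classical
  let f : ZeroHom R R :=
    { toFun := fun x => if hx : ε ∣ x then Classical.choose hx else 0
      map_zero' := by
        have h0 : ε ∣ (0 : R) := dvd_zero ε
        rw [dif_pos h0]
        have := Classical.choose_spec h0
        rcases mul_eq_zero.mp this.symm with h | h
        · exact absurd h hε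
        · exact h }
  refine ⟨X.map f, ?_⟩
  apply HahnSeries.ext
  funext i
  rw [HahnSeries.coeff_smul, HahnSeries.map_coeff, smul_eq_mul]
  show X.coeff i = ε * (if hx : ε ∣ X.coeff i then Classical.choose hx else 0)
  rw [dif_pos (h i)]
  exact Classical.choose_spec (h i)

/-- **[ATT-FACTOR]**: a factor of a Laurent series with attained content has attained content
(`A` of rank one, with roots). -/
theorem att_factor (hπ : ∀ x : A, π x ≠ 0 → IsUnit x) (hArch : Arch A π)
    (hroot : ∀ d : A, ∀ n : ℕ, 0 < n → ∃ c : A, c ^ n = d)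
    (X Φ P : LaurentSeries A) (e : A) (he : e ≠ 0) (hP : coeffMap π P ≠ 0)
    (h : X * Φ = e • P) :
    ∃ (ε : A) (δ : LaurentSeries A), X = ε • δ ∧ coeffMap π δ ≠ 0 := by
  classical
  have hP0 : P ≠ 0 := fun h0 => hP (by rw [h0, map_zero])
  have heP : e • P ≠ 0 := by
    intro h0
    apply hP0
    apply HahnSeries.ext
    funext i
    have h1 := congrArg (fun z => z.coeff i) h0
    simp only [HahnSeries.coeff_smul, smul_eq_mul, HahnSeries.coeff_zero] at h1
    rcases mul_eq_zero.mp h1 with h2 | h2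
    · exact absurd h2 he
    · rw [h2, HahnSeries.coeff_zero]
  have hX0 : X ≠ 0 := fun h0 => heP (by rw [← h, h0, zero_mul])
  have hΦ0 : Φ ≠ 0 := fun h0 => heP (by rw [← h, h0, mul_zero])
  obtain ⟨j, hj⟩ : ∃ j : ℤ, π (P.coeff j) ≠ 0 := by
    by_contra hcon
    push Not at hcon
    apply hP
    apply HahnSeries.ext
    funext i
    rw [coeffMap_coeff, hcon i, HahnSeries.coeff_zero]
  have hju : IsUnit (P.coeff j) := hπ _ hj
  have hord : (X * Φ).order = X.order + Φ.order := HahnSeries.order_mul hX0 hΦ0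
  have hjge : X.order + Φ.order ≤ j := by
    rw [← hord, h]
    apply HahnSeries.order_le_of_coeff_ne_zero
    rw [HahnSeries.coeff_smul, smul_eq_mul]
    exact mul_ne_zero he hju.ne_zero
  obtain ⟨nP, hnP⟩ : ∃ nP : ℕ, j = X.order + Φ.order + nP :=
    ⟨(j - (X.order + Φ.order)).toNat, by omega⟩
  have hmul : LaurentSeries.powerSeriesPart X * LaurentSeries.powerSeriesPart Φ =
      e • (PowerSeries.mk fun n : ℕ => P.coeff (X.order + Φ.order + n)) := by
    ext n
    rw [PowerSeries.coeff_smul, PowerSeries.coeff_mk, smul_eq_mul,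
      ← HahnSeries.ofPowerSeries_apply_coeff (Γ := ℤ), map_mul,
      LaurentSeries.ofPowerSeries_powerSeriesPart, LaurentSeries.ofPowerSeries_powerSeriesPart]
    have e1 : HahnSeries.single (-X.order) (1 : A) * X *
        (HahnSeries.single (-Φ.order) (1 : A) * Φ) =
        HahnSeries.single (-(X.order + Φ.order)) (1 : A) * (e • P) := by
      rw [← h]
      have e2 : HahnSeries.single (-(X.order + Φ.order)) (1 : A) =
          HahnSeries.single (-X.order) (1 : A) * HahnSeries.single (-Φ.order) (1 : A) := by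
        rw [HahnSeries.single_mul_single, one_mul, neg_add]
      rw [e2]
      ring
    rw [e1, coeff_single_neg_mul, HahnSeries.coeff_smul, smul_eq_mul]
  have hArch' : ∀ b : A, ¬ IsUnit b → ∀ e : A, e ≠ 0 → ∃ n : ℕ, e ∣ b ^ n := by
    intro b hb e' he'
    refine hArch b ?_ e' he'
    by_contra hne
    exact hb (hπ b hne)
  obtain ⟨i0, hi0, hdvd⟩ := exists_min_coeff_of_mul_eq hArch' hroot
    (LaurentSeries.powerSeriesPart X) (LaurentSeries.powerSeriesPart Φ) _ e he nP
    (by rw [PowerSeries.coeff_mk, ← hnP]; exact hju) hmul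
  rw [LaurentSeries.powerSeriesPart_coeff] at hi0
  have hall : ∀ i : ℤ, X.coeff (X.order + i0) ∣ X.coeff i := by
    intro i
    rcases lt_or_ge i X.order with hi | hi
    · rw [HahnSeries.coeff_eq_zero_of_lt_order hi]
      exact dvd_zero _
    · obtain ⟨n, hn⟩ : ∃ n : ℕ, i = X.order + n := ⟨(i - X.order).toNat, by omega⟩
      have h1 := hdvd n
      rw [LaurentSeries.powerSeriesPart_coeff, LaurentSeries.powerSeriesPart_coeff] at h1
      rw [hn]
      exact h1
  obtain ⟨δ, hδ⟩ := exists_eq_smul_of_forall_dvd X _ hi0 hall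
  refine ⟨X.coeff (X.order + i0), δ, hδ, ?_⟩
  intro h0
  have h1 : δ.coeff (X.order + i0) = 1 := by
    have h2 := congrArg (fun z => z.coeff (X.order + i0)) hδ
    simp only [HahnSeries.coeff_smul, smul_eq_mul] at h2
    have h3 : X.coeff (X.order + i0) * δ.coeff (X.order + i0) = X.coeff (X.order + i0) * 1 := by
      rw [mul_one]
      exact h2.symm
    exact mul_left_cancel₀ hi0 h3
  have h4 := congrArg (fun z => z.coeff (X.order + i0)) h0
  simp only [coeffMap_coeff, HahnSeries.coeff_zero] at h4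
  rw [h1, map_one] at h4
  exact one_ne_zero h4

end Laurent

end Fermat.Agent.T7.helper25
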