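import Mathlib

/-!
# T7 / S33, leaf [ATT-FACTOR] (helper29): a factor of a series with attained content has
attained content

`R` a valuation ring of rank one (hypothesis `harch`: every non-unit has a power divisible by
any given nonzero element) in which roots exist (hypothesis `hroot`; true for the valuation
rings of an algebraically closed field).  If `X * Φ = e • P` in `R⟦X⟧`, `e ≠ 0`, and `P` has a
unit coefficient, then `X = a • δ` with `δ` having a unit coefficient: the Gauss norm of `X`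
is attained.  No hypothesis on the residue characteristic.

Proof: rescaling `q ↦ c q` (`PowerSeries.rescale`) makes the coefficients decay, so that the
contents of the rescaled series are attained and the Gauss lemma applies; the index at which
the content of the rescaled `X` is attained is bounded by the index of the unit coefficient of
`P`, independently of `c`.
-/

set_option autoImplicit false

namespace Fermat.Agent.T7.helper29

open PowerSeries

section Core

set_option linter.unusedSectionVars false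

variable {R : Type*} [CommRing R] [IsDomain R] [ValuationRing R]

/-- In a valuation ring, a finite window of a sequence has an element dividing all the
others. -/
theorem exists_window_min (y : ℕ → R) (M : ℕ) : ∃ i₀ ≤ M, ∀ i ≤ M, y i₀ ∣ y i := by
  induction M with
  | zero => exact ⟨0, le_rfl, fun i hi => by rw [Nat.le_zero.mp hi]⟩
  | succ M ih =>
    obtain ⟨i₀, hi₀, h⟩ := ih
    rcases ValuationRing.dvd_total (y i₀) (y (M + 1)) with h1 | h1
    · refine ⟨i₀, Nat.le_succ_of_le hi₀, fun i hi => ?_⟩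
      rcases Nat.lt_or_ge i (M + 1) with h2 | h2
      · exact h i (Nat.lt_succ_iff.mp h2)
      · have h3 : i = M + 1 := le_antisymm hi h2
        rw [h3]
        exact h1
    · refine ⟨M + 1, le_rfl, fun i hi => ?_⟩
      rcases Nat.lt_or_ge i (M + 1) with h2 | h2
      · exact h1.trans (h i (Nat.lt_succ_iff.mp h2))
      · have h3 : i = M + 1 := le_antisymm hi h2
        rw [h3]

/-- powers of a nonzero non-unit are strictly ordered by divisibility -/
theorem le_of_pow_dvd_pow {c : R} (hc0 : c ≠ 0) (hcu : ¬ IsUnit c) {k j : ℕ}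
    (h : c ^ k ∣ c ^ j) : k ≤ j := by
  by_contra hlt
  rw [not_le] at hlt
  obtain ⟨d, hd⟩ := h
  have hk : k = j + (k - j) := by omega
  rw [hk, pow_add, mul_assoc] at hd
  have h1 : c ^ j * 1 = c ^ j * (c ^ (k - j) * d) := by
    rw [mul_one]
    exact hd
  have h2 : (1 : R) = c ^ (k - j) * d := mul_left_cancel₀ (pow_ne_zero j hc0) h1
  have h3 : IsUnit (c ^ (k - j)) := IsUnit.of_mul_eq_one _ h2.symm
  have h4 : k - j ≠ 0 := by omega
  exact hcu ((isUnit_pow_iff h4).mp h3)

/-- A rescaled nonzero power series has attained content. -/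
theorem rescale_attained (harch : ∀ b : R, ¬ IsUnit b → ∀ e : R, e ≠ 0 → ∃ n : ℕ, e ∣ b ^ n)
    (f : R⟦X⟧) (hf : f ≠ 0) (c : R) (hc0 : c ≠ 0) (hcu : ¬ IsUnit c) :
    ∃ (r : R) (g : R⟦X⟧) (n : ℕ), rescale c f = r • g ∧ IsUnit (coeff n g) ∧
      (∀ i < n, ¬ IsUnit (coeff i g)) ∧ r ≠ 0 := by
  classical
  obtain ⟨n₀, hn₀⟩ : ∃ n₀, coeff n₀ f ≠ 0 := by
    by_contra hcon
    push Not at hcon
    apply hf
    ext i
    rw [hcon i, map_zero]
  set y : ℕ → R := fun i => c ^ i * coeff i f with hy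
  have hyn₀ : y n₀ ≠ 0 := mul_ne_zero (pow_ne_zero _ hc0) hn₀
  obtain ⟨N, hN⟩ := harch c hcu (y n₀) hyn₀
  obtain ⟨j₀, -, hmin⟩ := exists_window_min y (max N n₀)
  have hr_t : y j₀ ∣ y n₀ := hmin n₀ (le_max_right _ _)
  have hr0 : y j₀ ≠ 0 := by
    intro h0
    rw [h0] at hr_t
    exact hyn₀ (zero_dvd_iff.mp hr_t)
  have hall : ∀ i, y j₀ ∣ y i := by
    intro i
    rcases le_or_gt i (max N n₀) with h | h
    · exact hmin i h
    · have hNi : N ≤ i := le_of_lt (lt_of_le_of_lt (le_max_left _ _) h)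
      have h1 : c ^ N ∣ c ^ i := pow_dvd_pow c hNi
      exact hr_t.trans (hN.trans (h1.trans (Dvd.intro _ rfl)))
  choose g hg using hall
  have hgj : g j₀ = 1 := by
    have h1 : y j₀ * 1 = y j₀ * g j₀ := by
      rw [mul_one]
      exact hg j₀
    exact (mul_left_cancel₀ hr0 h1).symm
  have hex : ∃ n, IsUnit (coeff n (PowerSeries.mk g)) :=
    ⟨j₀, by rw [coeff_mk, hgj]; exact isUnit_one⟩
  refine ⟨y j₀, PowerSeries.mk g, Nat.find hex, ?_, Nat.find_spec hex,
    fun i hi => Nat.find_min hex hi, hr0⟩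
  ext i
  rw [coeff_rescale, coeff_smul, coeff_mk, smul_eq_mul]
  exact hg i

/-- **Gauss lemma** at the first unit coefficients. -/
theorem isUnit_coeff_mul (X₁ Φ₁ : R⟦X⟧) (n m : ℕ) (hn : IsUnit (coeff n X₁))
    (hm : IsUnit (coeff m Φ₁)) (hn' : ∀ i < n, ¬ IsUnit (coeff i X₁))
    (hm' : ∀ j < m, ¬ IsUnit (coeff j Φ₁)) : IsUnit (coeff (n + m) (X₁ * Φ₁)) := by
  classical
  rw [coeff_mul]
  have hmem : (n, m) ∈ Finset.HasAntidiagonal.antidiagonal (n + m) := by simp
  rw [← Finset.add_sum_erase _ _ hmem]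
  have h1 : IsUnit (coeff n X₁ * coeff m Φ₁) := hn.mul hm
  have h2 : ∑ p ∈ (Finset.HasAntidiagonal.antidiagonal (n + m)).erase (n, m), coeff p.1 X₁ * coeff p.2 Φ₁
      ∈ IsLocalRing.maximalIdeal R := by
    refine Ideal.sum_mem _ (fun p hp => ?_)
    rw [Finset.mem_erase, Finset.HasAntidiagonal.mem_antidiagonal] at hp
    obtain ⟨hne, hsum⟩ := hp
    rcases Nat.lt_or_ge p.1 n with h | h
    · exact Ideal.mul_mem_right _ _ ((IsLocalRing.mem_maximalIdeal _).mpr (hn' _ h))
    · have h3 : p.2 < m := by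
        rcases Nat.lt_or_ge p.2 m with h4 | h4
        · exact h4
        · exfalso
          apply hne
          have h5 : p.1 = n := by omega
          have h6 : p.2 = m := by omega
          exact Prod.ext h5 h6
      exact Ideal.mul_mem_left _ _ ((IsLocalRing.mem_maximalIdeal _).mpr (hm' _ h3))
  by_contra hcon
  have h3 : coeff n X₁ * coeff m Φ₁
      + ∑ p ∈ (Finset.HasAntidiagonal.antidiagonal (n + m)).erase (n, m), coeff p.1 X₁ * coeff p.2 Φ₁
      ∈ IsLocalRing.maximalIdeal R := (IsLocalRing.mem_maximalIdeal _).mpr hcon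
  have h4 := (Ideal.add_mem_iff_left _ h2).mp h3
  exact (IsLocalRing.mem_maximalIdeal _).mp h4 h1

/-- **[ATT-FACTOR], power series form.** -/
theorem ps_attained_of_mul
    (harch : ∀ b : R, ¬ IsUnit b → ∀ e : R, e ≠ 0 → ∃ n : ℕ, e ∣ b ^ n)
    (hroot : ∀ d : R, ∀ n : ℕ, 0 < n → ∃ c : R, c ^ n = d)
    (X Φ P : R⟦X⟧) (e : R) (he : e ≠ 0) (nP : ℕ) (hP : IsUnit (coeff nP P))
    (h : X * Φ = e • P) :
    ∃ (a : R) (δ : R⟦X⟧) (i₀ : ℕ), X = a • δ ∧ IsUnit (coeff i₀ δ) ∧ a ≠ 0 := by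
  classical
  set x : ℕ → R := fun i => coeff i X with hx
  obtain ⟨i₀, hi₀, hwin⟩ := exists_window_min x nP
  have hcoefP : ∀ k, coeff k (X * Φ) = e * coeff k P := fun k => by
    rw [h, coeff_smul, smul_eq_mul]
  have hPne : e * coeff nP P ≠ 0 := mul_ne_zero he hP.ne_zero
  have ha0 : x i₀ ≠ 0 := by
    intro ha
    have hz : ∀ i ≤ nP, coeff i X = 0 := fun i hi => by
      have h1 := hwin i hi
      rw [ha] at h1
      exact zero_dvd_iff.mp h1
    have h2 : coeff nP (X * Φ) = 0 := by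
      rw [coeff_mul]
      refine Finset.sum_eq_zero (fun p hp => ?_)
      rw [Finset.HasAntidiagonal.mem_antidiagonal] at hp
      rw [hz p.1 (by omega), zero_mul]
    rw [hcoefP] at h2
    exact hPne h2
  have hall : ∀ n, x i₀ ∣ x n := by
    by_contra hcon
    push Not at hcon
    obtain ⟨n₁, hn₁⟩ := hcon
    obtain ⟨d, hd⟩ : x n₁ ∣ x i₀ := (ValuationRing.dvd_total (x i₀) (x n₁)).resolve_left hn₁
    have hxn₁ : x n₁ ≠ 0 := by
      intro h0
      rw [h0, zero_mul] at hd
      exact ha0 hd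
    have hd0 : d ≠ 0 := by
      intro h0
      rw [h0, mul_zero] at hd
      exact ha0 hd
    have hdu : ¬ IsUnit d := by
      intro hu
      obtain ⟨u, rfl⟩ := hu
      apply hn₁
      refine ⟨((u⁻¹ : Rˣ) : R), ?_⟩
      rw [hd, mul_assoc, Units.mul_inv, mul_one]
    obtain ⟨c, hc⟩ := hroot d (n₁ + 1) (Nat.succ_pos _)
    have hc0 : c ≠ 0 := by
      intro h0
      rw [h0, zero_pow (Nat.succ_ne_zero _)] at hc
      exact hd0 hc.symm
    have hcu : ¬ IsUnit c := by
      intro hu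
      apply hdu
      rw [← hc]
      exact hu.pow _
    have hX0 : X ≠ 0 := by
      intro h0
      apply hxn₁
      rw [hx]
      simp only
      rw [h0, map_zero]
    have hΦ0 : Φ ≠ 0 := by
      intro h0
      have h1 := hcoefP nP
      rw [h0, mul_zero, map_zero] at h1
      exact hPne h1.symm
    obtain ⟨ac, X₁, nc, hX₁, hXu, hXmin, -⟩ := rescale_attained harch X hX0 c hc0 hcu
    obtain ⟨bc, Φ₁, mc, hΦ₁, hΦu, hΦmin, -⟩ := rescale_attained harch Φ hΦ0 c hc0 hcu
    have hprod : ∀ k, ac * bc * coeff k (X₁ * Φ₁) = e * (c ^ k * coeff k P) := by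
      intro k
      have h1 : coeff k (rescale c (X * Φ)) = c ^ k * (e * coeff k P) := by
        rw [coeff_rescale, hcoefP]
      rw [map_mul, hX₁, hΦ₁, smul_mul_smul_comm, coeff_smul, smul_eq_mul] at h1
      rw [h1]
      ring
    have hG := isUnit_coeff_mul X₁ Φ₁ nc mc hXu hΦu hXmin hΦmin
    -- `e c^(nc+mc) ∣ ac bc`
    have hdiv1 : e * c ^ (nc + mc) ∣ ac * bc := by
      obtain ⟨u, hu⟩ := hG
      have h1 := hprod (nc + mc)
      rw [← hu] at h1
      refine ⟨coeff (nc + mc) P * ((u⁻¹ : Rˣ) : R), ?_⟩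
      have h2 : ac * bc = ac * bc * (u : R) * ((u⁻¹ : Rˣ) : R) := by
        rw [mul_assoc (ac * bc), Units.mul_inv, mul_one]
      rw [h2, h1]
      ring
    -- `ac bc ∣ e c^nP`
    have hdiv2 : ac * bc ∣ e * c ^ nP := by
      obtain ⟨u, hu⟩ := hP
      have h1 := hprod nP
      rw [← hu] at h1
      refine ⟨coeff nP (X₁ * Φ₁) * ((u⁻¹ : Rˣ) : R), ?_⟩
      have h2 : e * c ^ nP = e * (c ^ nP * (u : R)) * ((u⁻¹ : Rˣ) : R) := by
        rw [mul_assoc e, mul_assoc (c ^ nP), Units.mul_inv, mul_one]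
      rw [h2, ← h1]
      ring
    have hk : nc + mc ≤ nP :=
      le_of_pow_dvd_pow hc0 hcu ((mul_dvd_mul_iff_left he).mp (hdiv1.trans hdiv2))
    have hncP : nc ≤ nP := le_trans (Nat.le_add_right _ _) hk
    -- `c^nc x_nc ∣ c^n₁ x_n₁`
    have hdiv3 : c ^ nc * x nc ∣ c ^ n₁ * x n₁ := by
      have e1 : c ^ nc * x nc = ac * coeff nc X₁ := by
        have h1 : coeff nc (rescale c X) = c ^ nc * x nc := by rw [coeff_rescale]
        rw [hX₁, coeff_smul, smul_eq_mul] at h1
        exact h1.symm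
      have e2 : c ^ n₁ * x n₁ = ac * coeff n₁ X₁ := by
        have h1 : coeff n₁ (rescale c X) = c ^ n₁ * x n₁ := by rw [coeff_rescale]
        rw [hX₁, coeff_smul, smul_eq_mul] at h1
        exact h1.symm
      obtain ⟨u, hu⟩ := hXu
      rw [← hu] at e1
      refine ⟨((u⁻¹ : Rˣ) : R) * coeff n₁ X₁, ?_⟩
      rw [e2, e1]
      have h2 : ac * (u : R) * (((u⁻¹ : Rˣ) : R) * coeff n₁ X₁)
          = ac * ((u : R) * ((u⁻¹ : Rˣ) : R)) * coeff n₁ X₁ := by ring
      rw [h2, Units.mul_inv, mul_one]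
    have hdiv4 : c ^ nc * x i₀ ∣ c ^ n₁ * x n₁ :=
      (mul_dvd_mul_left _ (hwin nc hncP)).trans hdiv3
    have hdiv5 : c ^ n₁ * x n₁ * c ^ (nc + 1) ∣ c ^ n₁ * x n₁ * 1 := by
      have h1 : c ^ n₁ * x n₁ * c ^ (nc + 1) = c ^ nc * x i₀ := by
        rw [hd, ← hc]
        ring
      rw [h1, mul_one]
      exact hdiv4
    have hdiv6 : c ^ (nc + 1) ∣ 1 :=
      (mul_dvd_mul_iff_left (mul_ne_zero (pow_ne_zero _ hc0) hxn₁)).mp hdiv5
    exact hcu ((isUnit_pow_iff (Nat.succ_ne_zero nc)).mp (isUnit_of_dvd_one hdiv6))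
  choose g hg using hall
  have hgi : g i₀ = 1 := by
    have h1 : x i₀ * 1 = x i₀ * g i₀ := by
      rw [mul_one]
      exact hg i₀
    exact (mul_left_cancel₀ ha0 h1).symm
  refine ⟨x i₀, PowerSeries.mk g, i₀, ?_, by rw [coeff_mk, hgi]; exact isUnit_one, ha0⟩
  ext i
  rw [coeff_smul, coeff_mk, smul_eq_mul]
  exact hg i

end Core

end Fermat.Agent.T7.helper29
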