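import Mathlib
import Fermat.Prelude.Def_ModularCurve_LaurentCoeff
import Fermat.Agent.P2.helper74_Content
import Fermat.Agent.T7.helper29_AttFactor

/-!
# T7 / S33, leaf [ATT-FACTOR] (helper29), Laurent series form in the T2 vocabulary

`A` a valuation subring of `L` with (ARCH) and roots.  If `X * Φ = e • P` in `A((q))`, `e ≠ 0`,
and `P` has nonzero reduction, then `X = ε • δ` with `δ` of nonzero reduction: the Gauss norm of
`X` is attained.  (`laurent_attained_of_mul`.)
-/

set_option autoImplicit false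
set_option linter.unusedSectionVars false

noncomputable section

namespace Fermat.Agent.T7.helper29

open ModularCurve HahnSeries
open Fermat.Agent.P2.helper74

variable {L : Type*} [Field L]

/-- a Laurent series with nonzero reduction has a unit coefficient -/
theorem exists_isUnit_coeff_of_red_ne_zero (A : ValuationSubring L) {k : Type*} [Field k]
    (π : A →+* k) (hπ : ∀ x : A, π x ≠ 0 → IsUnit x) (P : LaurentSeries A)
    (hP : coeffMap π P ≠ 0) : ∃ j : ℤ, IsUnit (P.coeff j) := by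
  by_contra hcon
  push Not at hcon
  apply hP
  ext j
  rw [coeffMap_coeff, HahnSeries.coeff_zero]
  by_contra h
  exact hcon j (hπ _ h)

/-- a Laurent series with a unit coefficient has nonzero reduction -/
theorem red_ne_zero_of_isUnit_coeff (A : ValuationSubring L) {k : Type*} [Field k]
    (π : A →+* k) (δ : LaurentSeries A) (j : ℤ) (hj : IsUnit (δ.coeff j)) :
    coeffMap π δ ≠ 0 := by
  intro h
  have h1 : (coeffMap π δ).coeff j = 0 := by rw [h, HahnSeries.coeff_zero]
  rw [coeffMap_coeff] at h1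
  exact (hj.map π).ne_zero h1

/-- **[ATT-FACTOR], Laurent series form.** -/
theorem laurent_attained_of_mul (A : ValuationSubring L) {k : Type*} [Field k] (π : A →+* k)
    (hπ : ∀ x : A, π x ≠ 0 → IsUnit x) (hArch : Arch A π)
    (hroot : ∀ d : A, ∀ n : ℕ, 0 < n → ∃ c : A, c ^ n = d)
    (X Φ P : LaurentSeries A) (e : A) (he : e ≠ 0) (hP : coeffMap π P ≠ 0)
    (h : X * Φ = e • P) :
    ∃ (ε : A) (δ : LaurentSeries A), X = ε • δ ∧ coeffMap π δ ≠ 0 ∧ ε ≠ 0 := by
  classical
  have harch : ∀ b : A, ¬ IsUnit b → ∀ e : A, e ≠ 0 → ∃ n : ℕ, e ∣ b ^ n := by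
    intro b hb e he
    refine hArch b ?_ e he
    by_contra h0
    exact hb (hπ b h0)
  obtain ⟨j, hj⟩ := exists_isUnit_coeff_of_red_ne_zero A π hπ P hP
  have hePj : (e • P).coeff j ≠ 0 := by
    rw [HahnSeries.coeff_smul, smul_eq_mul]
    exact mul_ne_zero he hj.ne_zero
  have hXΦ0 : X * Φ ≠ 0 := by
    intro h0
    rw [h0] at h
    rw [← h] at hePj
    exact hePj rfl
  have hX0 : X ≠ 0 := fun h0 => hXΦ0 (by rw [h0, zero_mul])
  have hΦ0 : Φ ≠ 0 := fun h0 => hXΦ0 (by rw [h0, mul_zero])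
  set nX : ℤ := X.order with hnX
  set nΦ : ℤ := Φ.order with hnΦ
  set X' : PowerSeries A := X.powerSeriesPart with hX'
  set Φ' : PowerSeries A := Φ.powerSeriesPart with hΦ'
  have hXdec : X = HahnSeries.single nX (1 : A) * HahnSeries.ofPowerSeries ℤ A X' :=
    (LaurentSeries.single_order_mul_powerSeriesPart X).symm
  have hΦdec : Φ = HahnSeries.single nΦ (1 : A) * HahnSeries.ofPowerSeries ℤ A Φ' :=
    (LaurentSeries.single_order_mul_powerSeriesPart Φ).symm
  have hprod : X * Φ = HahnSeries.single (nX + nΦ) (1 : A)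
      * HahnSeries.ofPowerSeries ℤ A (X' * Φ') := by
    conv_lhs => rw [hXdec, hΦdec]
    rw [mul_mul_mul_comm, HahnSeries.single_mul_single, mul_one, map_mul]
  have hcoef : ∀ n : ℕ, PowerSeries.coeff n (X' * Φ') = e * P.coeff ((n : ℤ) + (nX + nΦ)) := by
    intro n
    have h1 : (X * Φ).coeff ((n : ℤ) + (nX + nΦ)) = PowerSeries.coeff n (X' * Φ') := by
      rw [hprod, HahnSeries.coeff_single_mul_add, one_mul,
        HahnSeries.ofPowerSeries_apply_coeff]
    rw [← h1, h, HahnSeries.coeff_smul, smul_eq_mul]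
  set P' : PowerSeries A := PowerSeries.mk (fun n : ℕ => P.coeff ((n : ℤ) + (nX + nΦ))) with hP'
  have hmul' : X' * Φ' = e • P' := by
    ext n
    rw [hcoef, PowerSeries.coeff_smul, PowerSeries.coeff_mk, smul_eq_mul]
  -- the unit coefficient of `P` sits at an index `≥ nX + nΦ`
  have hjge : nX + nΦ ≤ j := by
    have h1 : (X * Φ).order ≤ j := by
      rw [h]
      exact HahnSeries.order_le_of_coeff_ne_zero hePj
    rwa [HahnSeries.order_mul hX0 hΦ0] at h1
  obtain ⟨nP, hnP⟩ : ∃ nP : ℕ, (nP : ℤ) + (nX + nΦ) = j :=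
    ⟨(j - (nX + nΦ)).toNat, by
      rw [Int.toNat_of_nonneg (by omega)]
      ring⟩
  have hP'u : IsUnit (PowerSeries.coeff nP P') := by
    rw [PowerSeries.coeff_mk, hnP]
    exact hj
  obtain ⟨a, δ', i₀, hXa, hδ'u, ha0⟩ :=
    ps_attained_of_mul harch hroot X' Φ' P' e he nP hP'u hmul'
  refine ⟨a, HahnSeries.single nX (1 : A) * HahnSeries.ofPowerSeries ℤ A δ', ?_, ?_, ha0⟩
  · conv_lhs => rw [hXdec, hXa]
    rw [PowerSeries.smul_eq_C_mul, map_mul, HahnSeries.ofPowerSeries_C,
      ← HahnSeries.C_mul_eq_smul]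
    ring
  · refine red_ne_zero_of_isUnit_coeff A π _ ((i₀ : ℤ) + nX) ?_
    rw [HahnSeries.coeff_single_mul_add, one_mul, HahnSeries.ofPowerSeries_apply_coeff]
    exact hδ'u

end Fermat.Agent.T7.helper29
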