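import Mathlib
import Fermat.Prelude.Def_ModularCurve_LaurentCoeff
import Fermat.Agent.T2.helper74_PivotFam
import Fermat.Agent.T7.helper29_AttLaurent

/-!
# T7 / S33, leaf [ATT-P] (helper29): attained content of `W₀ - u` WITHOUT `m` invertible in `k`

Twin of `T2.helper74.contentAttained_sub_fam` in which the hypothesis `hm : π m ≠ 0` is removed
(so `m = p` = the residue characteristic is allowed) and no closeness of `W₀` to `V` is assumed
(unlike `T7.helper40.contentAttained_sub_fam_deep`).  The price:

* roots exist in `A` (`hroot`; true for a valuation subring of an algebraically closed field);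
* the Gauss norm is attained COMPONENTWISE on `V'` (`hV'c`; at the bad pair the components of an
  element of `VN W (p n₀)` are the expansions of `f` and of `W f`, so this is the single-series
  statement `P2.helper74.contentAttained_of_inL` twice);
* `L` contains a primitive `m`-th root of unity.

The conclusion is exactly the hypothesis `hatt` of `T7.helper82.exists_close_of_pow_mem_fam`
(the Frobenius regime of the `p`-pivot) and of `T2.helper74.mem_of_pow_mem_fam`.
-/

set_option autoImplicit false
set_option linter.unusedSectionVars false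
set_option linter.style.haveILetI false

noncomputable section

namespace Fermat.Agent.T7.helper29

open ModularCurve HahnSeries
open Fermat.Agent.P2.helper22 Fermat.Agent.P2.helper74 Fermat.Agent.T2.helper74

variable {L : Type*} [Field L] {ι : Type*}

/-- in a valuation ring a nonempty finite family has a member dividing all the others -/
theorem exists_dvd_min_finset {R : Type*} [CommRing R] [IsDomain R] [ValuationRing R] (ε : ι → R)
    (S : Finset ι) (hS : S.Nonempty) : ∃ i₀ ∈ S, ∀ i ∈ S, ε i₀ ∣ ε i := by
  classical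
  induction hS using Finset.Nonempty.cons_induction with
  | singleton a =>
    refine ⟨a, Finset.mem_singleton_self a, fun i hi => ?_⟩
    rw [Finset.mem_singleton.mp hi]
  | cons a s ha hs ih =>
    obtain ⟨i₀, hi₀, h⟩ := ih
    rcases ValuationRing.dvd_total (ε i₀) (ε a) with h1 | h1
    · refine ⟨i₀, Finset.mem_cons.mpr (Or.inr hi₀), fun i hi => ?_⟩
      rcases Finset.mem_cons.mp hi with rfl | hi'
      · exact h1
      · exact h i hi'
    · refine ⟨a, Finset.mem_cons_self a s, fun i hi => ?_⟩
      rcases Finset.mem_cons.mp hi with rfl | hi'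
      · exact dvd_rfl
      · exact h1.trans (h i hi')

/-- an `m`-th root of unity of `L` lies in every valuation subring -/
theorem mem_of_pow_eq_one (A : ValuationSubring L) {m : ℕ} (hm : 0 < m) {z : L}
    (hz : z ^ m = 1) : z ∈ A := by
  rcases A.mem_or_inv_mem z with h | h
  · exact h
  · have h1 : z = z⁻¹ ^ (m - 1) := by
      have hz0 : z ≠ 0 := by
        intro h0
        rw [h0, zero_pow hm.ne'] at hz
        exact zero_ne_one hz
      have h2 : z * z ^ (m - 1) = 1 := by
        rw [← pow_succ', Nat.sub_add_cancel hm]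
        exact hz
      rw [inv_pow]
      exact eq_inv_of_mul_eq_one_left h2
    rw [h1]
    exact A.pow_mem h _

/-- componentwise attained content gives attained content of a finite family -/
theorem fam_attained_of_components [Finite ι] (A : ValuationSubring L) {k : Type*} [Field k]
    (π : A →+* k) (X : ι → LaurentSeries A) (hX : X ≠ 0)
    (hc : ∀ i, X i ≠ 0 →
      ∃ (ε : A) (δ : LaurentSeries A), X i = ε • δ ∧ coeffMap π δ ≠ 0 ∧ ε ≠ 0) :
    ∃ (ε : A) (δ : ι → LaurentSeries A), X = ε • δ ∧ famMap π δ ≠ 0 ∧ ε ≠ 0 := by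
  classical
  haveI := Fintype.ofFinite ι
  have hc' : ∀ i, ∃ (ε : A) (δ : LaurentSeries A),
      X i = ε • δ ∧ (X i ≠ 0 → coeffMap π δ ≠ 0 ∧ ε ≠ 0) := by
    intro i
    by_cases hi : X i = 0
    · exact ⟨0, 0, by rw [hi, smul_zero], fun h => absurd hi h⟩
    · obtain ⟨ε, δ, h1, h2, h3⟩ := hc i hi
      exact ⟨ε, δ, h1, fun _ => ⟨h2, h3⟩⟩
  choose ε δ hXi hprop using hc'
  set S : Finset ι := Finset.univ.filter (fun i => X i ≠ 0) with hS
  have hSne : S.Nonempty := by
    by_contra hcon
    rw [Finset.not_nonempty_iff_eq_empty] at hcon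
    apply hX
    funext i
    by_contra hi
    have : i ∈ S := by
      rw [hS, Finset.mem_filter]
      exact ⟨Finset.mem_univ i, hi⟩
    rw [hcon] at this
    exact absurd this (Finset.notMem_empty i)
  obtain ⟨i₀, hi₀, hmin⟩ := exists_dvd_min_finset ε S hSne
  have hi₀' : X i₀ ≠ 0 := by
    rw [hS, Finset.mem_filter] at hi₀
    exact hi₀.2
  have hε₀ : ε i₀ ≠ 0 := (hprop i₀ hi₀').2
  have hdiv : ∀ i, ∃ q : A, X i = ε i₀ • (q • δ i) ∧ (i = i₀ → q = 1) := by
    intro i
    by_cases hi : X i = 0
    · refine ⟨0, by rw [hi]; ext j; simp, fun h => ?_⟩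
      rw [h] at hi
      exact absurd hi hi₀'
    · have hiS : i ∈ S := by
        rw [hS, Finset.mem_filter]
        exact ⟨Finset.mem_univ i, hi⟩
      obtain ⟨q, hq⟩ := hmin i hiS
      refine ⟨q, by rw [smul_smul, ← hq]; exact hXi i, fun h => ?_⟩
      subst h
      have h1 : ε i * 1 = ε i * q := by
        rw [mul_one]
        exact hq
      exact (mul_left_cancel₀ hε₀ h1).symm
  choose q hq hq1 using hdiv
  refine ⟨ε i₀, fun i => q i • δ i, ?_, ?_, hε₀⟩
  · funext i
    exact hq i
  · intro h0
    have h1 := congrFun h0 i₀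
    rw [famMap_apply, hq1 i₀ rfl, one_smul] at h1
    exact (hprop i₀ hi₀').1 h1

/-- **[ATT-P]: attained content of `W₀ - u`, no hypothesis on the residue characteristic.** -/
theorem contentAttained_sub_fam_p [Finite ι] (A : ValuationSubring L) {k : Type*} [Field k]
    (π : A →+* k) (hπ : ∀ x : A, π x ≠ 0 → IsUnit x) (hArch : Arch A π)
    (hroot : ∀ d : A, ∀ n : ℕ, 0 < n → ∃ c : A, c ^ n = d)
    (m : ℕ) (hm : 0 < m) (ζ : L) (hζ : IsPrimitiveRoot ζ m)
    (V V' : Submodule L (ι → LaurentSeries L))
    (hVatt : ∀ u ∈ V, u ≠ 0 → ContentAttainedFam A π u)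
    (hV'c : ∀ u ∈ V', ∀ i, u i ≠ 0 → ContentAttained A π (u i))
    (hpow : ∀ u ∈ V, u ^ m ∈ V')
    (W₀ : ι → LaurentSeries A) (hW₀ : (famMap A.subtype W₀) ^ m ∈ V')
    (hW₀red : famMap π W₀ = 1) :
    ∀ u ∈ V, famMap A.subtype W₀ - u ≠ 0 →
      ContentAttainedFam A π (famMap A.subtype W₀ - u) := by
  classical
  haveI : NeZero m := ⟨hm.ne'⟩
  intro u hu hne
  obtain ⟨i₁, hi₁⟩ : ∃ i, (famMap A.subtype W₀ - u) i ≠ 0 := by
    by_contra h
    push Not at h
    exact hne (funext h)
  have hone : (1 : ι → LaurentSeries k) ≠ 0 := by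
    intro h
    have := congrFun h i₁
    exact one_ne_zero this
  by_cases hu0 : u = 0
  · subst hu0
    refine ⟨1, one_ne_zero, W₀, ?_, ?_⟩
    · rw [one_smul, sub_zero]
    · rw [hW₀red]
      exact hone
  obtain ⟨cu, hcu, Yu, hYu, hYur⟩ := hVatt u hu hu0
  by_cases hcuA : cu⁻¹ ∈ A
  · -- `u` is integral
    set U : ι → LaurentSeries A := (⟨cu⁻¹, hcuA⟩ : A) • Yu with hU
    have hUu : famMap A.subtype U = u := by
      rw [hU, famMap_subtype_smul, hYu]
      show cu⁻¹ • cu • u = u
      rw [smul_smul, inv_mul_cancel₀ hcu, one_smul]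
    by_cases hr : famMap π (W₀ - U) = 0
    · -- the congruent case
      have hUred : famMap π U = 1 := by
        have h1 := hr
        rw [famMap_sub, hW₀red, sub_eq_zero] at h1
        exact h1.symm
      have hWi : ∀ i, coeffMap π (W₀ i) = 1 := fun i => congrFun hW₀red i
      have hUi : ∀ i, coeffMap π (U i) = 1 := fun i => congrFun hUred i
      have hXne : W₀ - U ≠ 0 := by
        intro h0
        apply hne
        rw [← hUu, ← famMap_sub, h0, famMap_zero]
      -- the element of `V'`
      have hN : (famMap A.subtype W₀) ^ m - u ^ m ∈ V' := V'.sub_mem hW₀ (hpow u hu)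
      have hNi : ∀ i, ((famMap A.subtype W₀) ^ m - u ^ m) i
          = coeffMap A.subtype ((W₀ i) ^ m - (U i) ^ m) := by
        intro i
        rw [← hUu]
        simp [famMap]
      have hcomp : ∀ i, (W₀ - U) i ≠ 0 →
          ∃ (ε : A) (δ : LaurentSeries A), (W₀ - U) i = ε • δ ∧ coeffMap π δ ≠ 0 ∧ ε ≠ 0 := by
        intro i hXi
        set Θ : LaurentSeries A := ∑ j ∈ Finset.range m, (W₀ i) ^ j * (U i) ^ (m - 1 - j)
          with hΘ
        have hΘmul : (W₀ - U) i * Θ = (W₀ i) ^ m - (U i) ^ m := by
          rw [hΘ, mul_comm]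
          exact (Commute.all (W₀ i) (U i)).geom_sum₂_mul m
        by_cases hΘ0 : Θ = 0
        · -- `W₀ i = ζ ^ j • U i`
          have hpw : (W₀ i) ^ m = (U i) ^ m := by
            rw [← sub_eq_zero, ← hΘmul, hΘ0, mul_zero]
          set w : LaurentSeries L := coeffMap A.subtype (W₀ i) with hw
          set v : LaurentSeries L := coeffMap A.subtype (U i) with hv
          have hv0 : v ≠ 0 := by
            intro h0
            have h1 : U i = 0 := coeffMap_subtype_injective A (h0.trans (map_zero _).symm)
            have h2 := hUi i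
            rw [h1, map_zero] at h2
            exact zero_ne_one h2
          have hwv : w ^ m = v ^ m := by
            rw [hw, hv, ← map_pow, ← map_pow, hpw]
          have hquot : (w / v) ^ m = 1 := by
            rw [div_pow, hwv]
            exact div_self (pow_ne_zero _ hv0)
          have hζ' : IsPrimitiveRoot (HahnSeries.C ζ : LaurentSeries L) m :=
            hζ.map_of_injective HahnSeries.C_injective
          obtain ⟨j, -, hj⟩ := hζ'.eq_pow_of_pow_eq_one hquot
          have hzA : ζ ^ j ∈ A :=
            mem_of_pow_eq_one A hm (by rw [← pow_mul, mul_comm, pow_mul, hζ.pow_eq_one, one_pow])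
          have hwz : w = (ζ ^ j) • v := by
            have h1 : w = (w / v) * v := by rw [div_mul_cancel₀ _ hv0]
            rw [h1, ← hj, ← map_pow, HahnSeries.C_mul_eq_smul]
          set ε : A := ⟨ζ ^ j, hzA⟩ - 1 with hε
          have hXe : (W₀ - U) i = ε • U i := by
            apply coeffMap_subtype_injective A
            rw [coeffMap_subtype_smul]
            show coeffMap A.subtype (W₀ i - U i) = _
            rw [map_sub, ← hw, ← hv, hwz, hε]
            show ζ ^ j • v - v = (ζ ^ j - 1) • v
            rw [sub_smul, one_smul]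
          refine ⟨ε, U i, hXe, ?_, ?_⟩
          · rw [hUi i]
            exact one_ne_zero
          · intro h0
            apply hXi
            rw [hXe, h0]
            ext j
            simp
        · -- `Θ ≠ 0`: the product is a nonzero component of an element of `V'`
          have hprod0 : (W₀ i) ^ m - (U i) ^ m ≠ 0 := by
            rw [← hΘmul]
            exact mul_ne_zero hXi hΘ0
          have hNi0 : ((famMap A.subtype W₀) ^ m - u ^ m) i ≠ 0 := by
            rw [hNi i]
            intro h0
            exact hprod0 (coeffMap_subtype_injective A (h0.trans (map_zero _).symm))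
          obtain ⟨c', hc', P, hP, hPr⟩ := hV'c _ hN i hNi0
          rw [hNi i] at hP
          have hc'A : c'⁻¹ ∈ A := by
            by_contra h
            have hc'A' : c' ∈ A := (A.mem_or_inv_mem c').resolve_right h
            apply hPr
            have hPeq : P = (⟨c', hc'A'⟩ : A) • ((W₀ i) ^ m - (U i) ^ m) := by
              apply coeffMap_subtype_injective A
              rw [hP, coeffMap_subtype_smul]
            rw [hPeq, coeffMap_smul', map_sub, map_pow, map_pow, hWi i, hUi i, sub_self,
              smul_zero]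
          set e : A := ⟨c'⁻¹, hc'A⟩ with he_def
          have he : e ≠ 0 := by
            intro h
            have h1 : (e : L) = 0 := by rw [h]; rfl
            exact inv_ne_zero hc' h1
          have hPe : (W₀ - U) i * Θ = e • P := by
            rw [hΘmul]
            apply coeffMap_subtype_injective A
            rw [coeffMap_subtype_smul, hP, smul_smul]
            show _ = (c'⁻¹ * c') • _
            rw [inv_mul_cancel₀ hc', one_smul]
          exact laurent_attained_of_mul A π hπ hArch hroot ((W₀ - U) i) Θ P e he hPr hPe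
      obtain ⟨ε, δ, hXe, hδ, hε0⟩ := fam_attained_of_components A π (W₀ - U) hXne hcomp
      have hεL : (ε : L) ≠ 0 := by
        intro h0
        apply hε0
        exact Subtype.ext h0
      refine ⟨(ε : L)⁻¹, inv_ne_zero hεL, δ, ?_, hδ⟩
      have h1 : famMap A.subtype W₀ - u = famMap A.subtype (W₀ - U) := by
        rw [famMap_sub, hUu]
      rw [h1, hXe, famMap_subtype_smul, smul_smul, inv_mul_cancel₀ hεL, one_smul]
    · refine ⟨1, one_ne_zero, W₀ - U, ?_, hr⟩
      rw [one_smul, famMap_sub, hUu]
  · -- `u` is not integral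
    have hcuA' : cu ∈ A := (A.mem_or_inv_mem cu).resolve_right hcuA
    have hcu0 : π (⟨cu, hcuA'⟩ : A) = 0 := by
      by_contra h
      obtain ⟨v, hv⟩ := hπ _ h
      apply hcuA
      have h1 : ((v⁻¹ : Aˣ) : A) * (⟨cu, hcuA'⟩ : A) = 1 := by
        rw [← hv]
        exact Units.inv_mul v
      have h2 : (((v⁻¹ : Aˣ) : A) : L) * cu = 1 := congrArg Subtype.val h1
      have h3 : cu⁻¹ = (((v⁻¹ : Aˣ) : A) : L) := (eq_inv_of_mul_eq_one_left h2).symm
      rw [h3]
      exact Subtype.property _
    refine ⟨cu, hcu, (⟨cu, hcuA'⟩ : A) • W₀ - Yu, ?_, ?_⟩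
    · rw [famMap_sub, famMap_subtype_smul, hYu, smul_sub]
    · rw [famMap_sub, famMap_smul, hcu0, zero_smul, zero_sub, neg_ne_zero]
      exact hYur

end Fermat.Agent.T7.helper29
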