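import Mathlib
import Fermat.Prelude.Def_ModularCurve_LaurentCoeff
import Fermat.Agent.T2.helper74_PivotFam
import Fermat.Agent.T7.helper82_FrobRegime
import Fermat.Agent.T7.helper40_PivotDeepFam
import Fermat.Agent.T7.helper29_AttP

/-!
# T7 / S33, box B4, abstract glue (helper29): (L1) and (L2) with the attained content discharged

* `hroot_of_isAlgClosed` : roots exist in a valuation subring of an algebraically closed field
  (the hypothesis `hroot` of `contentAttained_sub_fam_p`).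
* `exists_close_of_pow_mem_fam_p` : (L1) = `helper82.exists_close_of_pow_mem_fam` with its
  hypothesis `hatt` discharged by `contentAttained_sub_fam_p`.
* `exists_deep_of_red_zero` : if `W₀ - v₁ = l • E₁` with `red E₁ = 0` and `p = l ^ (p-1) τ`,
  `τ` a unit, then `W₀ - v₁ = ϖ • Y₁` with `ϖ ^ (p-1) = p t`, `red t = 0`: the uniform depth
  needed by the deep pivot, from the COEFFICIENTWISE statement `red E₁ = 0` (attained content).
* `mem_of_pow_mem_fam_of_red_zero` : (L2) = `helper40.mem_of_pow_mem_fam_deep_arch` in the form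
  consumed by the monoid step: closeness is given as `W₀ - v₁ = l • E₁`, `red E₁ = 0`.
-/

set_option autoImplicit false
set_option linter.unusedSectionVars false
set_option linter.unusedVariables false

noncomputable section

namespace Fermat.Agent.T7.helper29

open ModularCurve HahnSeries
open Fermat.Agent.P2.helper22 Fermat.Agent.P2.helper74 Fermat.Agent.T2.helper74

variable {L : Type*} [Field L] {ι : Type*}

/-- roots exist in a valuation subring of an algebraically closed field -/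
theorem hroot_of_isAlgClosed [IsAlgClosed L] (A : ValuationSubring L) :
    ∀ d : A, ∀ n : ℕ, 0 < n → ∃ c : A, c ^ n = d := by
  intro d n hn
  obtain ⟨z, hz⟩ := IsAlgClosed.exists_pow_nat_eq (d : L) hn
  have hzA : z ∈ A := by
    rcases A.mem_or_inv_mem z with h | h
    · exact h
    · rcases eq_or_ne z 0 with rfl | hz0
      · exact A.zero_mem
      · have h1 : z = z⁻¹ ^ (n - 1) * (d : L) := by
          rw [← hz, inv_pow]
          have h2 : z ^ n = z ^ (n - 1) * z := by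
            rw [← pow_succ, Nat.sub_add_cancel hn]
          rw [h2, ← mul_assoc, inv_mul_cancel₀ (pow_ne_zero _ hz0), one_mul]
        rw [h1]
        exact mul_mem (pow_mem h _) d.2
  exact ⟨⟨z, hzA⟩, Subtype.ext hz⟩

/-- **(L1) with the attained content discharged.** -/
theorem exists_close_of_pow_mem_fam_p [Finite ι] (A : ValuationSubring L) {k : Type*} [Field k]
    (π : A →+* k) (hπ : ∀ x : A, π x ≠ 0 → IsUnit x) (hπs : Function.Surjective π)
    (hArch : Arch A π) (hroot : ∀ d : A, ∀ n : ℕ, 0 < n → ∃ c : A, c ^ n = d)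
    (V V' : Submodule L (ι → LaurentSeries L)) [FiniteDimensional L V] (n : ι → ℤ)
    (p : ℕ) (hp : p.Prime) (ζ : L) (hζ : IsPrimitiveRoot ζ p)
    (l τ : A) (hl : (p : A) = l ^ (p - 1) * τ)
    (hVatt : ∀ u ∈ V, u ≠ 0 → ContentAttainedFam A π u)
    (hV'c : ∀ u ∈ V', ∀ i, u i ≠ 0 → ContentAttained A π (u i))
    (hVord : ∀ u ∈ V, ∀ i, ∀ j < -(n i), (u i).coeff j = 0)
    (hpow : ∀ u ∈ V, u ^ p ∈ V')
    (hone : (1 : ι → LaurentSeries L) ∈ V)
    (hFC : ∀ Φ Z : ι → LaurentSeries A, famMap A.subtype Φ ∈ V' →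
      (∀ i, ∀ j < -(n i), (Z i).coeff j = 0) → famMap π Φ = famMap π Z ^ p →
      ∃ Z' : ι → LaurentSeries A, famMap A.subtype Z' ∈ V ∧ famMap π Z' = famMap π Z)
    (W₀ : ι → LaurentSeries A) (hW₀ : (famMap A.subtype W₀) ^ p ∈ V')
    (hW₀red : famMap π W₀ = 1) (hW₀ord : ∀ i, ∀ j < -(n i), (W₀ i).coeff j = 0) :
    ∃ U Y : ι → LaurentSeries A, famMap A.subtype U ∈ V ∧ famMap π U = 1 ∧ W₀ - U = l • Y :=
  Fermat.Agent.T7.helper82.exists_close_of_pow_mem_fam A π hπ hπs V V' n p hp l τ hl hVatt hVord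
    hpow hone hFC W₀ hW₀ hW₀red hW₀ord
    (contentAttained_sub_fam_p A π hπ hArch hroot p hp.pos ζ hζ V V' hVatt hV'c hpow W₀ hW₀
      hW₀red)

/-- **Uniform depth from a coefficientwise statement.** -/
theorem exists_deep_of_red_zero [Finite ι] (A : ValuationSubring L) {k : Type*} [Field k]
    (π : A →+* k) (hπ : ∀ x : A, π x ≠ 0 → IsUnit x)
    (hArch : Arch A π) (hroot : ∀ d : A, ∀ n : ℕ, 0 < n → ∃ c : A, c ^ n = d)
    (V V' : Submodule L (ι → LaurentSeries L))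
    (p : ℕ) (hp : p.Prime) (hpL : (p : L) ≠ 0) (ζ : L) (hζ : IsPrimitiveRoot ζ p)
    (l τ : A) (hl : (p : A) = l ^ (p - 1) * τ) (hτ : IsUnit τ)
    (hVatt : ∀ u ∈ V, u ≠ 0 → ContentAttainedFam A π u)
    (hV'c : ∀ u ∈ V', ∀ i, u i ≠ 0 → ContentAttained A π (u i))
    (hpow : ∀ u ∈ V, u ^ p ∈ V')
    (W₀ : ι → LaurentSeries A) (hW₀ : (famMap A.subtype W₀) ^ p ∈ V')
    (hW₀red : famMap π W₀ = 1)
    (v₁ E₁ : ι → LaurentSeries A) (hv₁ : famMap A.subtype v₁ ∈ V) (hE₁ : W₀ - v₁ = l • E₁)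
    (hE₁red : famMap π E₁ = 0) (hne : W₀ - v₁ ≠ 0) :
    ∃ (ϖ t : A) (Y₁ : ι → LaurentSeries A), π t = 0 ∧ ϖ ^ (p - 1) = (p : A) * t ∧
      W₀ - v₁ = ϖ • Y₁ := by
  classical
  have hp1 : p - 1 ≠ 0 := by
    have := hp.two_le
    omega
  have hpA : (p : A) ≠ 0 := by
    intro h0
    apply hpL
    have h1 : ((p : A) : L) = 0 := by rw [h0]; rfl
    simpa using h1
  have hl0 : l ≠ 0 := by
    intro h0
    apply hpA
    rw [hl, h0, zero_pow hp1, zero_mul]
  have hneL : famMap A.subtype W₀ - famMap A.subtype v₁ ≠ 0 := by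
    intro h0
    apply hne
    apply famMap_subtype_injective A
    rw [famMap_sub, h0, famMap_zero]
  obtain ⟨c, hc, Y, hY, hYr⟩ :=
    contentAttained_sub_fam_p A π hπ hArch hroot p hp.pos ζ hζ V V' hVatt hV'c hpow W₀ hW₀
      hW₀red (famMap A.subtype v₁) hv₁ hneL
  have hredX : famMap π (W₀ - v₁) = 0 := by
    rw [hE₁, famMap_smul, hE₁red, smul_zero]
  have hcA : c⁻¹ ∈ A := by
    by_contra h
    have hcA' : c ∈ A := (A.mem_or_inv_mem c).resolve_right h
    apply hYr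
    have hYeq : Y = (⟨c, hcA'⟩ : A) • (W₀ - v₁) := by
      apply famMap_subtype_injective A
      rw [hY, famMap_subtype_smul, famMap_sub]
    rw [hYeq, famMap_smul, hredX, smul_zero]
  set e : A := ⟨c⁻¹, hcA⟩ with he_def
  have he : e ≠ 0 := by
    intro h
    have h1 : (e : L) = 0 := by rw [h]; rfl
    exact inv_ne_zero hc h1
  have hXe : W₀ - v₁ = e • Y := by
    apply famMap_subtype_injective A
    rw [famMap_subtype_smul, hY, famMap_sub, smul_smul]
    show _ = (c⁻¹ * c) • _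
    rw [inv_mul_cancel₀ hc, one_smul]
  -- cancellation of a nonzero scalar
  have hcancel : ∀ (a : A), a ≠ 0 → ∀ F G : ι → LaurentSeries A, a • F = a • G → F = G := by
    intro a ha F G hFG
    funext i
    refine HahnSeries.ext (funext fun j => ?_)
    have h1 := congrArg (fun z : ι → LaurentSeries A => (z i).coeff j) hFG
    simp only [Pi.smul_apply, HahnSeries.coeff_smul, smul_eq_mul] at h1
    exact mul_left_cancel₀ ha h1
  -- `l ∣ e` with a quotient in the maximal ideal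
  obtain ⟨ϖ₁, hϖ₁⟩ : l ∣ e := by
    rcases ValuationRing.dvd_total l e with h | ⟨s, hs⟩
    · exact h
    · exfalso
      apply hYr
      have h1 : e • (s • E₁) = e • Y := by
        rw [smul_smul, ← hs, ← hE₁, hXe]
      rw [← hcancel e he _ _ h1, famMap_smul, hE₁red, smul_zero]
  have hEY : E₁ = ϖ₁ • Y := by
    apply hcancel l hl0
    rw [smul_smul, ← hϖ₁, ← hE₁, hXe]
  have hπϖ₁ : π ϖ₁ = 0 := by
    by_contra h
    apply hYr
    have h1 : famMap π E₁ = π ϖ₁ • famMap π Y := by rw [hEY, famMap_smul]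
    rw [hE₁red] at h1
    funext i
    refine HahnSeries.ext (funext fun j => ?_)
    have h2 := congrArg (fun z : ι → LaurentSeries k => (z i).coeff j) h1
    simp only [Pi.zero_apply, HahnSeries.coeff_zero, Pi.smul_apply, HahnSeries.coeff_smul,
      smul_eq_mul] at h2
    rcases mul_eq_zero.mp h2.symm with h3 | h3
    · exact absurd h3 h
    · simpa using h3
  obtain ⟨uτ, huτ⟩ := hτ
  refine ⟨e, ((uτ⁻¹ : Aˣ) : A) * ϖ₁ ^ (p - 1), Y, ?_, ?_, hXe⟩
  · rw [map_mul, map_pow, hπϖ₁, zero_pow hp1, mul_zero]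
  · rw [hϖ₁, mul_pow, hl, ← huτ]
    have h1 : l ^ (p - 1) * ϖ₁ ^ (p - 1)
        = l ^ (p - 1) * ((uτ : A) * ((uτ⁻¹ : Aˣ) : A)) * ϖ₁ ^ (p - 1) := by
      rw [Units.mul_inv, mul_one]
    rw [h1]
    ring

/-- **(L2) in the form consumed by the monoid step.** -/
theorem mem_of_pow_mem_fam_of_red_zero [Finite ι] (A : ValuationSubring L) {k : Type*}
    [Field k] (π : A →+* k) (hπ : ∀ x : A, π x ≠ 0 → IsUnit x) (hπs : Function.Surjective π)
    (hArch : Arch A π) (hroot : ∀ d : A, ∀ n : ℕ, 0 < n → ∃ c : A, c ^ n = d)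
    (V V' : Submodule L (ι → LaurentSeries L)) [FiniteDimensional L V] (n : ι → ℤ)
    (hn : ∀ i, 0 ≤ n i) (p : ℕ) (hp : p.Prime) (hpL : (p : L) ≠ 0)
    (ζ : L) (hζ : IsPrimitiveRoot ζ p)
    (l τ : A) (hl : (p : A) = l ^ (p - 1) * τ) (hτ : IsUnit τ)
    (hVatt : ∀ u ∈ V, u ≠ 0 → ContentAttainedFam A π u)
    (hV'att : ∀ u ∈ V', u ≠ 0 → ContentAttainedFam A π u)
    (hV'c : ∀ u ∈ V', ∀ i, u i ≠ 0 → ContentAttained A π (u i))
    (hVord : ∀ u ∈ V, ∀ i, ∀ j < -(n i), (u i).coeff j = 0)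
    (hpow : ∀ u ∈ V, u ^ p ∈ V')
    (hred : ∀ Z : ι → LaurentSeries A, famMap A.subtype Z ∈ V' →
      (∀ i, ∀ j < -(n i), (famMap π Z i).coeff j = 0) →
      ∃ Z' : ι → LaurentSeries A, famMap A.subtype Z' ∈ V ∧ famMap π Z' = famMap π Z)
    (W₀ : ι → LaurentSeries A) (hW₀ : (famMap A.subtype W₀) ^ p ∈ V')
    (hW₀red : famMap π W₀ = 1) (hW₀ord : ∀ i, ∀ j < -(n i), (W₀ i).coeff j = 0)
    (v₁ E₁ : ι → LaurentSeries A) (hv₁ : famMap A.subtype v₁ ∈ V) (hE₁ : W₀ - v₁ = l • E₁)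
    (hE₁red : famMap π E₁ = 0) :
    famMap A.subtype W₀ ∈ V := by
  by_cases hne : W₀ - v₁ = 0
  · have h1 : W₀ = v₁ := sub_eq_zero.mp hne
    rw [h1]
    exact hv₁
  · obtain ⟨ϖ, t, Y₁, ht, hϖ, hY₁⟩ :=
      exists_deep_of_red_zero A π hπ hArch hroot V V' p hp hpL ζ hζ l τ hl hτ hVatt hV'c hpow
        W₀ hW₀ hW₀red v₁ E₁ hv₁ hE₁ hE₁red hne
    exact Fermat.Agent.T7.helper40.mem_of_pow_mem_fam_deep_arch A π hπ hπs hArch V V' n hn p hp
      hpL ϖ t ht hϖ hVatt hV'att hVord hpow hred W₀ hW₀ hW₀red hW₀ord v₁ Y₁ hv₁ hY₁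

end Fermat.Agent.T7.helper29
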