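import Fermat.Agent.T7.helper2_RamT0

/-!
# T7 / S33, leaf [T0-SAT] (helper2): the kernel of reduction is saturated and stable

Setting of `helper2_RamT0`: level `N q`, `q ∤ N` prime, `A` over `q`, `W` the Atkin-Lehner
involution.  Here the exponent is a power of the RESIDUE characteristic `q`.

* `exists_unit_of_scale_eq` : an equation `e · incl P = incl Q` between integral series with
  nonzero reductions forces `e ∈ Aˣ`.
* `isRedOne_of_pow` : if `f ^ (q ^ i) ≡ 1` for the Gauss valuation then `f ≡ 1`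
  (the residue field has characteristic `q`, so Frobenius is injective on `k((t))`).
* `IsT0.mono` : `T0` at exponent `q ^ j` lies in `T0` at exponent `q ^ k`, `j ≤ k`.
* `IsT0.of_torsion` : **[T0-SAT]** a class of `T0` at exponent `q ^ k` which is killed by `q ^ j`
  (`j ≤ k`) lies in `T0` at exponent `q ^ j`.  Hence `t0 (q^k) ⊓ J[q^j] = t0 (q^j)`.
* `IsT0.smul_of_mem_decomp` : `T0` is stable under the decomposition group of `A`.
-/

set_option autoImplicit false
set_option linter.unusedSectionVars false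
set_option linter.style.longLine false
set_option linter.style.haveILetI false

noncomputable section

open HahnSeries IntermediateField AlgebraicCurve ModularCurve

namespace Fermat.Agent.T7.helper2

open Fermat.Agent.S18.helper19 Fermat.Agent.P2.helper29 Fermat.Agent.P2.helper93
open Fermat.Agent.T2 Fermat.Agent.T2.helper20 Fermat.Agent.T2.helper36

section Scale

variable {A : ValuationSubring Kb}

theorem incl_constA_mul (a : A) (P : LaurentSeries A) :
    incl A (constA a * P) = algebraMap Kb (LaurentSeries Kb) (a : Kb) * incl A P := by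
  rw [map_mul, coeffMap_subtype_constA]

theorem red_constA_mul (a : A) (P : LaurentSeries A) :
    red A (constA a * P)
      = algebraMap (kA A) (LaurentSeries (kA A)) (IsLocalRing.residue A a) * red A P := by
  rw [map_mul, coeffMap_residue_constA]

/-- an equation `e · incl P = incl Q` between integral series with nonzero reductions forces
`e` to be a unit of `A`. -/
theorem exists_unit_of_scale_eq {e : Kb} {P Q : LaurentSeries A}
    (hP : red A P ≠ 0) (hQ : red A Q ≠ 0)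
    (h : algebraMap Kb (LaurentSeries Kb) e * incl A P = incl A Q) :
    ∃ a : A, (a : Kb) = e ∧ IsUnit a ∧ constA a * P = Q := by
  have hQ0 : Q ≠ 0 := fun h0 => hQ (by rw [h0, map_zero])
  have hP0 : P ≠ 0 := fun h0 => hP (by rw [h0, map_zero])
  have he0 : e ≠ 0 := by
    rintro rfl
    rw [map_zero, zero_mul] at h
    exact hQ0 (coeffMap_subtype_injective (h.symm.trans (map_zero (incl A)).symm))
  -- the case `e ∈ A`
  have main : ∀ a : A, (a : Kb) = e → ∃ a : A, (a : Kb) = e ∧ IsUnit a ∧ constA a * P = Q := by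
    intro a ha
    have h1 : constA a * P = Q := by
      apply coeffMap_subtype_injective (A := A)
      show incl A (constA a * P) = incl A Q
      rw [incl_constA_mul, ha, h]
    refine ⟨a, ha, ?_, h1⟩
    by_contra hu
    have hr : IsLocalRing.residue A a = 0 := by
      rw [IsLocalRing.residue_eq_zero_iff]
      exact (IsLocalRing.mem_maximalIdeal a).mpr hu
    apply hQ
    rw [← h1, red_constA_mul, hr, map_zero, zero_mul]
  rcases A.mem_or_inv_mem e with he | he
  · exact main ⟨e, he⟩ rfl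
  · -- `e⁻¹ ∈ A` : then `P = e⁻¹ Q`, so `e⁻¹` is a unit
    have h2 : constA (⟨e⁻¹, he⟩ : A) * Q = P := by
      apply coeffMap_subtype_injective (A := A)
      show incl A (constA (⟨e⁻¹, he⟩ : A) * Q) = incl A P
      rw [incl_constA_mul, ← h, ← mul_assoc, ← map_mul]
      show algebraMap Kb (LaurentSeries Kb) (e⁻¹ * e) * incl A P = incl A P
      rw [inv_mul_cancel₀ he0, map_one, one_mul]
    have hu : IsUnit (⟨e⁻¹, he⟩ : A) := by
      by_contra hu
      have hr : IsLocalRing.residue A (⟨e⁻¹, he⟩ : A) = 0 := by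
        rw [IsLocalRing.residue_eq_zero_iff]
        exact (IsLocalRing.mem_maximalIdeal _).mpr hu
      apply hP
      rw [← h2, red_constA_mul, hr, map_zero, zero_mul]
    obtain ⟨b, hb⟩ := hu
    refine main ((b⁻¹ : Aˣ) : A) ?_
    have h3 : ((b : A) : Kb) * (((b⁻¹ : Aˣ) : A) : Kb) = 1 :=
      congrArg Subtype.val (Units.mul_inv b)
    have h4 : ((b : A) : Kb) = e⁻¹ := by rw [hb]
    rw [h4] at h3
    rw [eq_inv_of_mul_eq_one_right h3, inv_inv]

/-- a root of a unit of `A` is a unit of `A` -/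
theorem exists_unit_of_pow_eq {c : Kb} {r : ℕ} (hr : r ≠ 0) {a : A} (ha : IsUnit a)
    (h : c ^ r = (a : Kb)) : ∃ b : A, (b : Kb) = c ∧ IsUnit b := by
  have main : ∀ b : A, (b : Kb) = c → ∃ b : A, (b : Kb) = c ∧ IsUnit b := by
    intro b hb
    refine ⟨b, hb, ?_⟩
    have h1 : b ^ r = a := by
      apply Subtype.ext
      show ((b : A) : Kb) ^ r = (a : Kb)
      rw [hb, h]
    exact (isUnit_pow_iff hr).mp (h1 ▸ ha)
  have hc0 : c ≠ 0 := by
    rintro rfl
    rw [zero_pow hr] at h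
    have : a = 0 := Subtype.ext h.symm
    exact ha.ne_zero this
  rcases A.mem_or_inv_mem c with hc | hc
  · exact main ⟨c, hc⟩ rfl
  · have h1 : (⟨c⁻¹, hc⟩ : A) ^ r * a = 1 := by
      apply Subtype.ext
      show (c⁻¹) ^ r * (a : Kb) = 1
      rw [← h, inv_pow, inv_mul_cancel₀ (pow_ne_zero _ hc0)]
    have hu : IsUnit ((⟨c⁻¹, hc⟩ : A) ^ r) := IsUnit.of_mul_eq_one _ h1
    obtain ⟨b, hb⟩ := (isUnit_pow_iff hr).mp hu
    refine main ((b⁻¹ : Aˣ) : A) ?_
    have h3 : ((b : A) : Kb) * (((b⁻¹ : Aˣ) : A) : Kb) = 1 :=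
      congrArg Subtype.val (Units.mul_inv b)
    have h4 : ((b : A) : Kb) = c⁻¹ := by rw [hb]
    rw [h4] at h3
    rw [eq_inv_of_mul_eq_one_right h3, inv_inv]

end Scale

section Pow

variable {A : ValuationSubring Kb} {M : ℕ} [NeZero M] {q : ℕ}

/-- **Frobenius is injective on the residue field of the Gauss valuation**: if
`f ^ (q ^ i) ≡ 1` then `f ≡ 1` (`q` the residue characteristic). -/
theorem isRedOne_of_pow (hq : q.Prime) (hA : A.LiesOverPrime q) (hSC : ScaleStatement M A)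
    (f : FF M) (hf : f ≠ 0) (i : ℕ)
    (h : IsRedOne A M ((f ^ (q ^ i) : FF M) : LaurentSeries Kb)) :
    IsRedOne A M (f : LaurentSeries Kb) := by
  haveI : CharP (kA A) q := charP_residueField hq hA
  haveI : Fact q.Prime := ⟨hq⟩
  haveI : CharP (LaurentSeries (kA A)) q :=
    charP_of_injective_algebraMap (algebraMap (kA A) (LaurentSeries (kA A))).injective q
  have hr : q ^ i ≠ 0 := pow_ne_zero _ hq.ne_zero
  obtain ⟨c, Y₁, Y₂, hc, g₁, g₂, E⟩ := hSC (f : LaurentSeries Kb) f.2 (fun h0 => hf (Subtype.ext h0))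
  obtain ⟨Z₁, Z₂, z₁, z₂, EZ, rZ⟩ := h
  have hfp : ((f ^ (q ^ i) : FF M) : LaurentSeries Kb) = (f : LaurentSeries Kb) ^ (q ^ i) := rfl
  rw [hfp] at EZ
  -- the scaled equation
  have key : algebraMap Kb (LaurentSeries Kb) (c ^ (q ^ i)) * incl A (Y₁ ^ (q ^ i) * Z₂)
      = incl A (Y₂ ^ (q ^ i) * Z₁) := by
    rw [map_mul, map_mul, map_pow, map_pow, map_pow, EZ]
    calc algebraMap Kb (LaurentSeries Kb) c ^ (q ^ i) * (incl A Y₁ ^ (q ^ i) * incl A Z₂)
        = (algebraMap Kb (LaurentSeries Kb) c * incl A Y₁) ^ (q ^ i) * incl A Z₂ := by ring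
      _ = ((f : LaurentSeries Kb) * incl A Y₂) ^ (q ^ i) * incl A Z₂ := by rw [E]
      _ = incl A Y₂ ^ (q ^ i) * ((f : LaurentSeries Kb) ^ (q ^ i) * incl A Z₂) := by ring
  have hP : red A (Y₁ ^ (q ^ i) * Z₂) ≠ 0 := by
    rw [map_mul, map_pow]
    exact mul_ne_zero (pow_ne_zero _ g₁.2.2) z₂.2.2
  have hQ : red A (Y₂ ^ (q ^ i) * Z₁) ≠ 0 := by
    rw [map_mul, map_pow]
    exact mul_ne_zero (pow_ne_zero _ g₂.2.2) z₁.2.2
  obtain ⟨a, ha, hau, hEq⟩ := exists_unit_of_scale_eq hP hQ key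
  obtain ⟨b, hb, hbu⟩ := exists_unit_of_pow_eq hr hau ha.symm
  have hba : b ^ (q ^ i) = a := by
    apply Subtype.ext
    show ((b : A) : Kb) ^ (q ^ i) = (a : Kb)
    rw [hb, ha]
  have hbres : IsLocalRing.residue A b ≠ 0 := by
    intro h0
    rw [IsLocalRing.residue_eq_zero_iff] at h0
    exact (IsLocalRing.mem_maximalIdeal b).mp h0 hbu
  -- reduce the equation
  have hred := congrArg (red A) hEq
  rw [red_constA_mul, map_mul, map_mul, map_pow, map_pow, ← hba, map_pow, map_pow, ← rZ] at hred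
  have hZ0 : red A Z₁ ≠ 0 := z₁.2.2
  have hpow : (algebraMap (kA A) (LaurentSeries (kA A)) (IsLocalRing.residue A b) * red A Y₁)
      ^ (q ^ i) = (red A Y₂) ^ (q ^ i) := by
    apply mul_right_cancel₀ hZ0
    rw [mul_pow]
    linear_combination hred
  have hroot : algebraMap (kA A) (LaurentSeries (kA A)) (IsLocalRing.residue A b) * red A Y₁
      = red A Y₂ :=
    iterateFrobenius_inj (LaurentSeries (kA A)) q i hpow
  refine ⟨constA b * Y₁, Y₂, (isGood_constA hbres).mul g₁, g₂, ?_, ?_⟩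
  · rw [incl_constA_mul, hb, E]
  · rw [red_constA_mul, hroot]

end Pow

section Sat

variable {N q : ℕ} [NeZero N] [NeZero q] {hq : q.Prime} {hqN : ¬ q ∣ N}
  {A : ValuationSubring Kb}

/-- `T0` grows with the exponent. -/
theorem IsT0.mono {j k : ℕ} (hjk : j ≤ k) {y : JZero (N * q)}
    (hy : IsT0 N q hq hqN A (q ^ j) y) : IsT0 N q hq hqN A (q ^ k) y := by
  obtain ⟨D, u, rfl, H, r1, r2⟩ := hy
  obtain ⟨d, rfl⟩ := Nat.exists_eq_add_of_le hjk
  refine ⟨D, u ^ (q ^ d), rfl, ⟨pow_ne_zero _ H.1, fun P => ?_⟩, ?_, ?_⟩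
  · rw [ord_pow' P u (q ^ d), ← H.2 P]
    push_cast
    ring
  · have := (redC_one_iff.mpr r1).pow (q ^ d)
    rw [one_pow] at this
    exact redC_one_iff.mp this
  · rw [map_pow]
    have := (redC_one_iff.mpr r2).pow (q ^ d)
    rw [one_pow] at this
    exact redC_one_iff.mp this

/-- **[T0-SAT]** a class of `T0` at exponent `q ^ k` which is killed by `q ^ j`, `j ≤ k`, lies in
`T0` at exponent `q ^ j`. -/
theorem IsT0.of_torsion (hA : A.LiesOverPrime q) {j k : ℕ} (hjk : j ≤ k) {y : JZero (N * q)}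
    (hy : IsT0 N q hq hqN A (q ^ k) y) (hjy : (q ^ j) • y = 0) :
    IsT0 N q hq hqN A (q ^ j) y := by
  obtain ⟨D, u, rfl, H, r1, r2⟩ := hy
  obtain ⟨d, rfl⟩ := Nat.exists_eq_add_of_le hjk
  obtain ⟨g, Hg⟩ := kum_exists_root hjy
  have hg0 : g ≠ 0 := Hg.1
  have hu0 : u ≠ 0 := H.1
  -- `u / g ^ (q ^ d)` has no zeros and poles, hence is constant
  have hw0 : u / g ^ (q ^ d) ≠ 0 := div_ne_zero hu0 (pow_ne_zero _ hg0)
  have hord : ∀ P : Place Kb (FF (N * q)), P.ord (u / g ^ (q ^ d)) = 0 := by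
    intro P
    rw [ord_div' P hu0 (pow_ne_zero _ hg0), ord_pow' P g (q ^ d), ← H.2 P, ← Hg.2 P]
    push_cast
    ring
  obtain ⟨c, hc⟩ := const_of_ord_eq_zero (N * q) _ hord
  have hc0 : c ≠ 0 := by
    rintro rfl
    rw [map_zero] at hc
    exact hw0 hc.symm
  have hr : q ^ d ≠ 0 := pow_ne_zero _ hq.ne_zero
  obtain ⟨c', hc'⟩ := IsAlgClosed.exists_pow_nat_eq c (Nat.pos_of_ne_zero hr)
  have hc'0 : c' ≠ 0 := by
    rintro rfl
    rw [zero_pow hr] at hc'
    exact hc0 hc'.symm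
  have hcF : algebraMap Kb (FF (N * q)) c' ≠ 0 := (map_ne_zero _).mpr hc'0
  -- the new generator
  have hpow : (algebraMap Kb (FF (N * q)) c' * g) ^ (q ^ d) = u := by
    rw [mul_pow, ← map_pow, hc', hc]
    field_simp
  have hg'0 : algebraMap Kb (FF (N * q)) c' * g ≠ 0 := mul_ne_zero hcF hg0
  have hSC : ScaleStatement (N * q) A :=
    Fermat.Agent.T2.helper58.scaleStatement_bad N q hq hqN A hA
  refine ⟨D, algebraMap Kb (FF (N * q)) c' * g, rfl, ⟨hg'0, fun P => ?_⟩, ?_, ?_⟩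
  · rw [ord_const_mul' P hc'0 hg0]
    exact Hg.2 P
  · apply isRedOne_of_pow hq hA hSC _ hg'0 d
    rw [hpow]
    exact r1
  · apply isRedOne_of_pow hq hA hSC _ ((map_ne_zero _).mpr hg'0) d
    rw [← map_pow, hpow]
    exact r2

/-- `T0` at exponent `q ^ k` cut by the `q ^ j`-torsion is `T0` at exponent `q ^ j`. -/
theorem isT0_iff_of_le (hA : A.LiesOverPrime q) {j k : ℕ} (hjk : j ≤ k) (y : JZero (N * q)) :
    IsT0 N q hq hqN A (q ^ j) y ↔ IsT0 N q hq hqN A (q ^ k) y ∧ (q ^ j) • y = 0 :=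
  ⟨fun h => ⟨h.mono hjk, h.nsmul_eq_zero⟩, fun h => h.1.of_torsion hA hjk h.2⟩

end Sat

section Decomp

variable {N q : ℕ} [NeZero N] [NeZero q] {hq : q.Prime} {hqN : ¬ q ∣ N}
  {A : ValuationSubring Kb}

/-- the decomposition group preserves `≡ 1` for the Gauss valuation -/
theorem isRedOne_galF {M : ℕ} {σ : Kb ≃ₐ[ℚ] Kb} (hσ : σ ∈ A.decompositionSubgroup ℚ)
    {f : FF M} (h : IsRedOne A M (f : LaurentSeries Kb)) :
    IsRedOne A M ((galF M σ f : FF M) : LaurentSeries Kb) := by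
  obtain ⟨Y₁, Y₂, g₁, g₂, e, r⟩ := h
  refine ⟨actA σ hσ Y₁, actA σ hσ Y₂, isGood_actA hσ g₁, isGood_actA hσ g₂, ?_, ?_⟩
  · have i1 : incl A (actA σ hσ Y₁) = coeffMap (σ : Kb →+* Kb) (incl A Y₁) :=
      coeffMap_subtype_actA σ hσ Y₁
    have i2 : incl A (actA σ hσ Y₂) = coeffMap (σ : Kb →+* Kb) (incl A Y₂) :=
      coeffMap_subtype_actA σ hσ Y₂
    have e1 : ((galF M σ f : FF M) : LaurentSeries Kb)
        = coeffMap (σ : Kb →+* Kb) (f : LaurentSeries Kb) := rfl
    rw [i1, i2, e1, e, map_mul]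
  · have j1 : red A (actA σ hσ Y₁) = coeffMap (decK σ hσ) (red A Y₁) :=
      coeffMap_residue_actA σ hσ Y₁
    have j2 : red A (actA σ hσ Y₂) = coeffMap (decK σ hσ) (red A Y₂) :=
      coeffMap_residue_actA σ hσ Y₂
    rw [j1, j2, r]

/-- `T0` is stable under the decomposition group of `A`. -/
theorem IsT0.smul_of_mem_decomp {n : ℕ} {σ : Kb ≃ₐ[ℚ] Kb}
    (hσ : σ ∈ A.decompositionSubgroup ℚ) {y : JZero (N * q)}
    (hy : IsT0 N q hq hqN A n y) : IsT0 N q hq hqN A n (σ • y) := by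
  obtain ⟨D, u, rfl, H, r1, r2⟩ := hy
  obtain ⟨D1, e1, H1⟩ := kum_galois (N * q) σ H
  refine ⟨D1, galF (N * q) σ u, e1.symm, H1, isRedOne_galF hσ r1, ?_⟩
  have hW : atkinLehner N q hq hqN (galF (N * q) σ u)
      = galF (N * q) σ (atkinLehner N q hq hqN u) :=
    atkinLehner_arithmeticRingAut N q hq hqN σ u
  rw [hW]
  exact isRedOne_galF hσ r2

end Decomp

end Fermat.Agent.T7.helper2

end
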