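import Mathlib
import Fermat.Prelude.Def_GaloisRep_LocalConditions
import Fermat.Agent.P3.Defs
import Fermat.Agent.T3.helper84_K0Ring

/-!
# T7 / S33, leaf [HNT] (helper35): inertia at `p` is not residually trivial

`A` a valuation subring of `ℚ̄` over an odd prime `p`, `I = A.inertiaSubgroupIn ℚ`.

* `exists_inertia_sq`   : there is `σ ∈ I` with `σ μ = μ ^ 2` for every `p`-th root of unity `μ`
  (from `T3.helper84.k0_zeta_trans`: `I` is transitive on the primitive `p`-th roots of unity);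
* `hnt_of_det`          : if `det ρ(σ) ≡ 2` modulo the maximal ideal for every such `σ`, then some
  `σ ∈ I` and some `v` have `ρ(σ) v - v ∉ 𝔪 V` (the hypothesis `hnt` of `T7.helper25`);
* `hnt_of_isCycloChar`  : the same from `det ρ = d`, `d` the `p`-adic cyclotomic character
  (`P3.IsCycloChar`);
* `hnt_of_detIsCyclotomic` : the same for a `GaloisRepAdic` with the Prelude's `DetIsCyclotomic`.
-/

set_option autoImplicit false
set_option linter.unusedSectionVars false
set_option linter.unusedVariables false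
set_option linter.style.longLine false

namespace Fermat.Agent.T7.helper35

open Fermat.Agent.P3

/-- an endomorphism of a finite free module which is congruent to `1` modulo an ideal `I` has
determinant congruent to `1` modulo `I` -/
theorem hnt_det_sub_one_mem {R : Type*} [CommRing R] {V : Type*} [AddCommGroup V] [Module R V]
    [Module.Free R V] [Module.Finite R V] (I : Ideal R) (f : Module.End R V)
    (h : ∀ v, f v - v ∈ I • (⊤ : Submodule R V)) : LinearMap.det f - 1 ∈ I := by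
  classical
  set b := Module.Free.chooseBasis R V with hb
  rw [← LinearMap.det_toMatrix b f]
  have hrepr : ∀ (w : V), w ∈ I • (⊤ : Submodule R V) → ∀ i, b.repr w i ∈ I := by
    intro w hw i
    refine Submodule.smul_induction_on hw ?_ ?_
    · intro r hr n _
      rw [map_smul, Finsupp.smul_apply, smul_eq_mul]
      exact I.mul_mem_right _ hr
    · intro x y hx hy
      rw [map_add, Finsupp.add_apply]
      exact I.add_mem hx hy
  have hA : (Ideal.Quotient.mk I).mapMatrix (LinearMap.toMatrix b b f) = 1 := by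
    ext i j
    rw [RingHom.mapMatrix_apply, Matrix.map_apply, LinearMap.toMatrix_apply, Matrix.one_apply]
    have h1 := hrepr _ (h (b j)) i
    rw [map_sub, Finsupp.sub_apply, Module.Basis.repr_self, Finsupp.single_apply] at h1
    have h2 := (Ideal.Quotient.eq (I := I)).mpr h1
    rw [h2]
    by_cases hij : i = j
    · rw [if_pos hij, if_pos hij.symm, map_one]
    · rw [if_neg hij, if_neg (fun h => hij h.symm), map_zero]
  have h3 : Ideal.Quotient.mk I (Matrix.det (LinearMap.toMatrix b b f)) = 1 := by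
    rw [RingHom.map_det, hA, Matrix.det_one]
  rw [← Ideal.Quotient.eq, h3, map_one]

variable {p : ℕ}

/-- an odd prime does not divide `2` -/
theorem hnt_not_dvd_two (hp : p.Prime) (hp2 : p ≠ 2) : ¬ p ∣ 2 := fun h =>
  hp2 ((Nat.prime_dvd_prime_iff_eq hp Nat.prime_two).mp h)

/-- **inertia moves `μ_p`**: for `p` odd there is `σ` in the inertia group of `A` (over `p`) which
squares every `p`-th root of unity. -/
theorem exists_inertia_sq (hp : p.Prime) (hp2 : p ≠ 2) (A : ValuationSubring Qbar)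
    (hA : A.LiesOverPrime p) :
    ∃ σ ∈ A.inertiaSubgroupIn ℚ, ∀ μ : Qbar, μ ^ p = 1 → σ μ = μ ^ 2 := by
  have : NeZero (p : Qbar) := ⟨by exact_mod_cast hp.ne_zero⟩
  have : NeZero p := ⟨hp.ne_zero⟩
  obtain ⟨ζ, hζ⟩ := HasEnoughRootsOfUnity.exists_primitiveRoot Qbar p
  obtain ⟨σ, hσ, hσζ⟩ :=
    Fermat.Agent.T3.helper84.k0_zeta_trans hp A hA hζ (k := 2) (hnt_not_dvd_two hp hp2)
  refine ⟨σ, hσ, fun μ hμ => ?_⟩
  obtain ⟨i, -, rfl⟩ := hζ.eq_pow_of_pow_eq_one hμ
  rw [map_pow, hσζ, ← pow_mul, ← pow_mul, mul_comm]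

/-- for `p` odd some element of the inertia group of `A` moves a `p`-th root of unity -/
theorem exists_inertia_ne (hp : p.Prime) (hp2 : p ≠ 2) (A : ValuationSubring Qbar)
    (hA : A.LiesOverPrime p) :
    ∃ σ ∈ A.inertiaSubgroupIn ℚ, ∃ ζ : Qbar, ζ ^ p = 1 ∧ σ ζ ≠ ζ := by
  have : NeZero (p : Qbar) := ⟨by exact_mod_cast hp.ne_zero⟩
  have : NeZero p := ⟨hp.ne_zero⟩
  obtain ⟨ζ, hζ⟩ := HasEnoughRootsOfUnity.exists_primitiveRoot Qbar p
  obtain ⟨σ, hσ, hσζ⟩ := exists_inertia_sq hp hp2 A hA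
  refine ⟨σ, hσ, ζ, hζ.pow_eq_one, fun h => ?_⟩
  have h1 : ζ ^ 2 = ζ ^ 1 := by rw [pow_one, ← hσζ ζ hζ.pow_eq_one, h]
  have h2 := hζ.pow_inj (by
    rcases hp.two_le.lt_or_eq with h | h
    · exact h
    · exact absurd h.symm hp2) hp.one_lt h1
  omega

section Abstract

variable {T : Type*} [CommRing T] [IsLocalRing T]
  {V : Type*} [AddCommGroup V] [Module T V] [Module.Free T V] [Module.Finite T V]

/-- **[HNT]**, abstract form: if `det ρ(σ) ≡ 2 mod 𝔪` for every `σ` which squares the `p`-th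
roots of unity, then the inertia group of `A` does not act trivially on `V / 𝔪 V`. -/
theorem hnt_of_det (hp : p.Prime) (hp2 : p ≠ 2) (A : ValuationSubring Qbar)
    (hA : A.LiesOverPrime p) (ρ : GQ →* Module.End T V)
    (hdet : ∀ σ : GQ, (∀ μ : Qbar, μ ^ p = 1 → σ μ = μ ^ 2) →
      LinearMap.det (ρ σ) - 2 ∈ IsLocalRing.maximalIdeal T) :
    ∃ σ ∈ A.inertiaSubgroupIn ℚ, ∃ v : V,
      ρ σ v - v ∉ IsLocalRing.maximalIdeal T • (⊤ : Submodule T V) := by
  obtain ⟨σ, hσ, hσμ⟩ := exists_inertia_sq hp hp2 A hA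
  refine ⟨σ, hσ, ?_⟩
  by_contra hcon
  push Not at hcon
  have h1 := hnt_det_sub_one_mem (IsLocalRing.maximalIdeal T) (ρ σ) hcon
  have h2 := hdet σ hσμ
  have h3 : (1 : T) ∈ IsLocalRing.maximalIdeal T := by
    have := Ideal.sub_mem _ h1 h2
    have e : LinearMap.det (ρ σ) - 1 - (LinearMap.det (ρ σ) - 2) = 1 := by ring
    rwa [e] at this
  exact (Ideal.ne_top_iff_one _).mp (IsLocalRing.maximalIdeal.isMaximal T).ne_top h3

end Abstract

section Cyclo

variable {T : Type} [CommRing T] [IsLocalRing T]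
  {V : Type*} [AddCommGroup V] [Module T V] [Module.Free T V] [Module.Finite T V]

/-- **[HNT]** from `det ρ = d`, `d` the `p`-adic cyclotomic character. -/
theorem hnt_of_isCycloChar (hp : p.Prime) (hp2 : p ≠ 2) (A : ValuationSubring Qbar)
    (hA : A.LiesOverPrime p) (hpT : (p : T) ∈ IsLocalRing.maximalIdeal T)
    (ρ : GQ →* Module.End T V) (d : GQ →* Tˣ) (hd : IsCycloChar p d)
    (hdet : ∀ σ : GQ, LinearMap.det (ρ σ) = (d σ : T)) :
    ∃ σ ∈ A.inertiaSubgroupIn ℚ, ∃ v : V,
      ρ σ v - v ∉ IsLocalRing.maximalIdeal T • (⊤ : Submodule T V) := by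
  refine hnt_of_det hp hp2 A hA ρ (fun σ hσ => ?_)
  have h1 := hd 1 σ 2 (by simpa using hσ)
  rw [hdet σ]
  have h2 : Ideal.span {(p : T) ^ 1} ≤ IsLocalRing.maximalIdeal T := by
    rw [Ideal.span_singleton_le_iff_mem, pow_one]
    exact hpT
  simpa using h2 h1

/-- **[HNT]** for a `GaloisRepAdic` whose determinant is cyclotomic (Prelude form). -/
theorem hnt_of_detIsCyclotomic (hp : p.Prime) (hp2 : p ≠ 2) (A : ValuationSubring Qbar)
    (hA : A.LiesOverPrime p) (ρ : GaloisRepAdic T) (hdet : ρ.DetIsCyclotomic p) :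
    ∃ σ ∈ A.inertiaSubgroupIn ℚ, ∃ v : ρ.V,
      ρ.ρ σ v - v ∉ IsLocalRing.maximalIdeal T • (⊤ : Submodule T ρ.V) := by
  refine hnt_of_det hp hp2 A hA ρ.ρ (fun σ hσ => ?_)
  have h1 := hdet.2 1 σ 2 (by simpa using hσ)
  have h2 : Ideal.span {((p ^ 1 : ℕ) : T)} ≤ IsLocalRing.maximalIdeal T := by
    rw [Ideal.span_singleton_le_iff_mem, pow_one]
    exact hdet.1
  simpa using h2 h1

end Cyclo

end Fermat.Agent.T7.helper35
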