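import Mathlib
import Fermat.Agent.T7.helper25_Cnt
import Fermat.Agent.T7.helper51_NUQ

/-!
# T7 (S33), helper51: from NUQ to the abstract endgame of helper25

* `aug_stable`                    : `aug act` is stable under the `act i`;
* `NUQ.aug_of_subquotient_pi`     : the NUQ analogue of the closure of the flat shape under
  subquotients of finite powers (T6 `FlatShape.subquotient_pi`): if `Z ≤ X` is NUQ and contains
  all `act s x - x`, `Y` embeds equivariantly into a finite power of `X` and maps equivariantly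
  onto `Q`, then `aug actQ` is NUQ;
* `noTrivSubquot_of_nuq`          : NUQ on a quotient `Q` of `V` with kernel inside `𝔟 V` gives
  `helper25.NoTrivSubquot` for every subgroup of `V` mapping into the NUQ subgroup;
* `exists_geo_of_nuq`             : the hypothesis `hgeo` of
  `helper25.exists_ordinary_line_of_noTrivSubquot` at one level from NUQ of `aug actQ`;
* `exists_ordinary_line_of_nuq`   : the endgame with NUQ hypotheses.
-/

set_option autoImplicit false
set_option linter.unusedSectionVars false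
set_option linter.unusedVariables false
set_option linter.style.longLine false

namespace Fermat.Agent.T7.helper51

open Fermat.Agent.T7.helper25

section Aug

variable {ι : Type*} {X : Type*} [AddCommGroup X] {act : ι → X →+ X}

/-- a subgroup containing all `act i x - x` is stable -/
theorem act_mem_of_aug_le {Z : AddSubgroup X} (h : ∀ i x, act i x - x ∈ Z) (i : ι) {z : X}
    (hz : z ∈ Z) : act i z ∈ Z := by
  have h1 : act i z = (act i z - z) + z := by abel
  rw [h1]
  exact Z.add_mem (h i z) hz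

theorem aug_stable (i : ι) {z : X} (hz : z ∈ aug act) : act i z ∈ aug act :=
  act_mem_of_aug_le (fun i x => sub_mem_aug i x) i hz

theorem aug_le_of_forall {Z : AddSubgroup X} (h : ∀ i x, act i x - x ∈ Z) : aug act ≤ Z := by
  rw [aug, AddSubgroup.closure_le]
  rintro _ ⟨i, x, rfl⟩
  exact h i x

end Aug

section SubquotientPi

variable {ι : Type*} {X : Type*} [AddCommGroup X] {act : ι → X →+ X}

/-- **NUQ passes to subquotients of finite powers.**  `Z ≤ X` NUQ containing all
`act s x - x`; `Y` an additive group with maps `actY s : Y → Y`, an injective additive map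
`i : Y → X ^ κ` (`κ` finite) and an additive surjection `φ : Y → Q`, both equivariant.  Then the
subgroup of `Q` generated by the `actQ s x - x` is NUQ. -/
theorem NUQ.aug_of_subquotient_pi {Z : AddSubgroup X} (hZ : NUQ act Z)
    (hZaug : ∀ s x, act s x - x ∈ Z)
    {κ : Type*} [Finite κ] {Y : Type*} [AddCommGroup Y] (actY : ι → Y → Y)
    (i : Y →+ (κ → X)) (hi : Function.Injective i)
    (hiact : ∀ s y j, i (actY s y) j = act s (i y j))
    {Q : Type*} [AddCommGroup Q] (actQ : ι → Q →+ Q) (φ : Y →+ Q)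
    (hφ : Function.Surjective φ) (hpact : ∀ s y, φ (actY s y) = actQ s (φ y)) :
    NUQ actQ (aug actQ) := by
  classical
  -- the action on `Y` is additive
  have hadd : ∀ s y y', actY s (y + y') = actY s y + actY s y' := by
    intro s y y'
    apply hi
    funext j
    rw [hiact, map_add, Pi.add_apply, map_add, map_add, Pi.add_apply, hiact, hiact]
  have hzero : ∀ s, actY s 0 = 0 := by
    intro s
    apply hi
    funext j
    rw [hiact, map_zero, Pi.zero_apply, map_zero]
  let actY' : ι → Y →+ Y := fun s =>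
    { toFun := actY s
      map_zero' := hzero s
      map_add' := hadd s }
  have hactY' : ∀ s y, actY' s y = actY s y := fun _ _ => rfl
  -- NUQ on the power
  have hpi : NUQ (piAct act κ) (AddSubgroup.pi Set.univ fun _ : κ => Z) := NUQ.pi hZ
  -- NUQ on `Y`
  have hY : NUQ actY' ((AddSubgroup.pi Set.univ fun _ : κ => Z).comap i) := by
    refine NUQ.comap_of_injective i ?_ hi hpi
    intro s y
    funext j
    rw [hactY', hiact, piAct_apply]
  have hYst : ∀ s, ∀ z ∈ (AddSubgroup.pi Set.univ fun _ : κ => Z).comap i,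
      actY' s z ∈ (AddSubgroup.pi Set.univ fun _ : κ => Z).comap i := by
    intro s z hz
    rw [AddSubgroup.mem_comap, AddSubgroup.mem_pi] at hz ⊢
    intro j hj
    rw [hactY', hiact]
    exact act_mem_of_aug_le hZaug s (hz j hj)
  have hQ : NUQ actQ (((AddSubgroup.pi Set.univ fun _ : κ => Z).comap i).map φ) :=
    NUQ.map φ (fun s y => hpact s y) hYst hY
  refine NUQ.mono ?_ hQ
  refine aug_le_of_forall ?_
  intro s x
  obtain ⟨y, rfl⟩ := hφ x
  refine ⟨actY s y - y, ?_, ?_⟩
  · rw [SetLike.mem_coe, AddSubgroup.mem_comap, AddSubgroup.mem_pi]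
    intro j _
    rw [map_sub, Pi.sub_apply, hiact]
    exact hZaug s (i y j)
  · rw [map_sub, hpact]

end SubquotientPi

section Adapter

variable {T : Type*} [CommRing T] [IsLocalRing T] [IsNoetherianRing T]
  {V : Type*} [AddCommGroup V] [Module T V]
  {G : Type*} [Group G]

/-- **NUQ gives `NoTrivSubquot`.**  `q : V → Q` additive with kernel inside `𝔟 V`, equivariant
for the action `actQ` of the elements of `Inert`; `Z ≤ Q` NUQ.  Then every subgroup `V0` of `V`
with `q V0 ⊆ Z` has no nonzero inertia-trivial subquotient above `𝔟 V`. -/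
theorem noTrivSubquot_of_nuq (ρ : G →* Module.End T V) (Inert : Subgroup G) (p : ℕ)
    (𝔟 : Ideal T) {Q : Type*} [AddCommGroup Q] (q : V →+ Q)
    (hker : ∀ v : V, q v = 0 → v ∈ 𝔟 • (⊤ : Submodule T V))
    (actQ : Inert → Q →+ Q) (hequiv : ∀ (σ : Inert) (v : V), q (ρ (σ : G) v) = actQ σ (q v))
    {Z : AddSubgroup Q} (hZ : NUQ actQ Z) (V0 : AddSubgroup V) (hV0 : ∀ v ∈ V0, q v ∈ Z) :
    NoTrivSubquot ρ Inert p 𝔟 V0 := by
  intro A B h𝔟B hBA hAV0 hBst hAB _ a ha
  have hBZ : B.map q ≤ Z := by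
    rintro _ ⟨b, hb, rfl⟩
    exact hV0 b (hAV0 (hBA hb))
  have hBst' : ∀ σ : Inert, ∀ y ∈ B.map q, actQ σ y ∈ B.map q := by
    rintro σ _ ⟨b, hb, rfl⟩
    exact ⟨ρ (σ : G) b, hBst σ σ.2 b hb, hequiv σ b⟩
  have hfix : ∀ σ : Inert, actQ σ (q a) - q a ∈ B.map q := by
    intro σ
    refine ⟨ρ (σ : G) a - a, hAB σ σ.2 a ha, ?_⟩
    rw [map_sub, hequiv]
  obtain ⟨b, hb, hba⟩ := hZ (B.map q) hBZ hBst' (q a) (hV0 a (hAV0 ha)) hfix
  have h1 : q (a - b) = 0 := by rw [map_sub, hba, sub_self]
  have h2 : a - b ∈ B := h𝔟B (hker _ h1)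
  have h3 : a = (a - b) + b := by abel
  rw [h3]
  exact B.add_mem h2 hb

/-- **The geometric hypothesis of the endgame at one level**, from NUQ of the augmentation
subgroup of a quotient `Q` of `V` with kernel `𝔟 V`. -/
theorem exists_geo_of_nuq (ρ : G →* Module.End T V) (Inert : Subgroup G) (p : ℕ)
    (𝔟 : Ideal T) {Q : Type*} [AddCommGroup Q] (q : V →+ Q)
    (hker : ∀ v : V, q v = 0 ↔ v ∈ 𝔟 • (⊤ : Submodule T V))
    (actQ : Inert → Q →+ Q) (hequiv : ∀ (σ : Inert) (v : V), q (ρ (σ : G) v) = actQ σ (q v))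
    (hZ : NUQ actQ (aug actQ)) :
    ∃ V0 : AddSubgroup V,
      (𝔟 • (⊤ : Submodule T V)).toAddSubgroup ≤ V0 ∧
      (∀ σ ∈ Inert, ∀ v ∈ V0, ρ σ v ∈ V0) ∧
      (∀ σ ∈ Inert, ∀ v : V, ρ σ v - v ∈ V0) ∧
      NoTrivSubquot ρ Inert p 𝔟 V0 := by
  refine ⟨(aug actQ).comap q, ?_, ?_, ?_, ?_⟩
  · intro v hv
    rw [AddSubgroup.mem_comap, (hker v).mpr hv]
    exact (aug actQ).zero_mem
  · intro σ hσ v hv
    rw [AddSubgroup.mem_comap] at hv ⊢
    have h := hequiv ⟨σ, hσ⟩ v
    rw [h]
    exact aug_stable _ hv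
  · intro σ hσ v
    rw [AddSubgroup.mem_comap, map_sub]
    have h := hequiv ⟨σ, hσ⟩ v
    rw [h]
    exact sub_mem_aug _ _
  · exact noTrivSubquot_of_nuq ρ Inert p 𝔟 q (fun v hv => (hker v).mp hv) actQ hequiv hZ _
      (fun v hv => hv)

end Adapter

section Endgame

variable {T : Type*} [CommRing T] [IsLocalRing T] [IsNoetherianRing T]
  {V : Type} [AddCommGroup V] [Module T V] [Module.Free T V] [Module.Finite T V]
  {G : Type*} [Group G]

/-- the action of the elements of `Inert` on `V / 𝔟 V` -/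
noncomputable def quotAct (ρ : G →* Module.End T V) (Inert : Subgroup G) (𝔟 : Ideal T)
    (σ : Inert) :
    (V ⧸ (𝔟 • (⊤ : Submodule T V))) →+ (V ⧸ (𝔟 • (⊤ : Submodule T V))) :=
  (Submodule.mapQ _ _ (ρ (σ : G)) (by
    rw [← Submodule.map_le_iff_le_comap, Submodule.map_smul'']
    exact Submodule.smul_mono le_rfl le_top)).toAddMonoidHom

theorem quotAct_mk (ρ : G →* Module.End T V) (Inert : Subgroup G) (𝔟 : Ideal T)
    (σ : Inert) (v : V) :
    quotAct ρ Inert 𝔟 σ (Submodule.Quotient.mk v) = Submodule.Quotient.mk (ρ (σ : G) v) := rfl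

/-- **The abstract endgame of S33 with NUQ hypotheses.**  Residual ordinarity in a basis,
nontrivial inertia on `V / 𝔪 V`, and for every `m` the subgroup of `V / p ^ m V` generated by
the `σ x - x` (`σ` in inertia) has no unramified subquotient: then `V` is ordinary. -/
theorem exists_ordinary_line_of_nuq (e : Module.Basis (Fin 2) T V)
    (ρ : G →* Module.End T V)
    (Dec Inert : Subgroup G) (hnormal : ∀ τ ∈ Dec, ∀ σ ∈ Inert, τ * σ * τ⁻¹ ∈ Inert)
    (p : ℕ) (hp : (p : T) ∈ IsLocalRing.maximalIdeal T)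
    (hfin : ∀ m : ℕ, Finite (T ⧸ Ideal.span {(p : T) ^ m}))
    (hres : ∀ σ ∈ Inert, ∀ v : V, e.repr (ρ σ v - v) 1 ∈ IsLocalRing.maximalIdeal T)
    (hnt : ∃ σ ∈ Inert, ∃ v : V,
      ρ σ v - v ∉ (IsLocalRing.maximalIdeal T) • (⊤ : Submodule T V))
    (hnuq : ∀ m : ℕ, NUQ (quotAct ρ Inert (Ideal.span {(p : T) ^ m}))
      (aug (quotAct ρ Inert (Ideal.span {(p : T) ^ m})))) :
    ∃ b : Module.Basis (Fin 2) T V,
      (∀ σ ∈ Dec, ∀ v ∈ Submodule.span T {b 0}, ρ σ v ∈ Submodule.span T {b 0}) ∧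
      ∀ σ ∈ Inert, ∀ v : V, ρ σ v - v ∈ Submodule.span T {b 0} := by
  refine exists_ordinary_line_of_noTrivSubquot e ρ Dec Inert hnormal p hp hfin hres hnt ?_
  intro m
  refine exists_geo_of_nuq ρ Inert p (Ideal.span {(p : T) ^ m})
    (Submodule.mkQ (Ideal.span {(p : T) ^ m} • (⊤ : Submodule T V))).toAddMonoidHom ?_
    (quotAct ρ Inert (Ideal.span {(p : T) ^ m})) ?_ (hnuq m)
  · intro v
    exact Submodule.Quotient.mk_eq_zero _
  · intro σ v
    rfl

end Endgame

end Fermat.Agent.T7.helper51
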