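import Mathlib
import Fermat.Agent.T7.helper25_CntNuq
import Fermat.Agent.T7.helper51_NUQGlue

/-!
# T7 (S33), helper51: the abstract wiring of the geometric contract [G]

`X` = the `p ^ k`-torsion of the Jacobian at the bad level, `X₁` = the `p ^ k`-torsion at the good
level, `f₁ f₂ : X → X₁` the two push-forwards, `act`, `act₁` the actions of the elements of an
inertia group.

* `map_mem_aug`          : equivariant maps send `aug act` into `aug act₁`;
* `NUQ.prod`             : products;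
* `NUQ.of_scalar_tor`    : scalar action on the `p`-torsion of a `p ^ k`-torsion subgroup;
* `NUQ.aug_of_old_new`   : **[G] from [G-OLD] and [G-NEW]** (one map);
* `NUQ.aug_of_old_new₂`  : the same for two maps;
* `NUQ.aug_of_leaves`    : [G] from [G-OLD] + "the inertia span meets the common kernel in a
  subgroup `Z₁` on whose `p`-torsion the inertia acts by scalars, one of them `≠ 1` mod `p`";
* `nuqOn_iff_nuq`, `nuqOn_of_nuq` : dictionary with `helper25.NuqOn` (the unfolded shape used by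
  the assembler and by the leaf [FT-NUQ]).
-/

set_option autoImplicit false
set_option linter.unusedSectionVars false
set_option linter.unusedVariables false
set_option linter.style.longLine false

namespace Fermat.Agent.T7.helper51

section Wiring

variable {ι : Type*} {X : Type*} [AddCommGroup X] {act : ι → X →+ X}
  {X₁ : Type*} [AddCommGroup X₁] {act₁ : ι → X₁ →+ X₁}

/-- equivariant maps send the augmentation subgroup into the augmentation subgroup -/
theorem map_mem_aug (f : X →+ X₁) (hf : ∀ i x, f (act i x) = act₁ i (f x)) {x : X}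
    (hx : x ∈ aug act) : f x ∈ aug act₁ := by
  have h : aug act ≤ (aug act₁).comap f := by
    refine aug_le_of_forall ?_
    intro i y
    rw [AddSubgroup.mem_comap, map_sub, hf]
    exact sub_mem_aug i (f y)
  exact h hx

/-- **[G] from [G-OLD] and [G-NEW]**: if `aug act₁` is NUQ, `Z₁` is NUQ and every element of
`aug act` killed by the equivariant map `f` lies in `Z₁`, then `aug act` is NUQ. -/
theorem NUQ.aug_of_old_new (f : X →+ X₁) (hf : ∀ i x, f (act i x) = act₁ i (f x))
    (hold : NUQ act₁ (aug act₁)) {Z₁ : AddSubgroup X} (hnew : NUQ act Z₁)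
    (hker : ∀ x ∈ aug act, f x = 0 → x ∈ Z₁) : NUQ act (aug act) :=
  NUQ.of_map f hf hold hnew (fun x hx => map_mem_aug f hf hx) hker

/-- **[G] from [G-OLD] and [G-NEW]**, two maps. -/
theorem NUQ.aug_of_old_new₂ (f₁ f₂ : X →+ X₁) (hf₁ : ∀ i x, f₁ (act i x) = act₁ i (f₁ x))
    (hf₂ : ∀ i x, f₂ (act i x) = act₁ i (f₂ x))
    (hold : NUQ act₁ (aug act₁)) {Z₁ : AddSubgroup X} (hnew : NUQ act Z₁)
    (hker : ∀ x ∈ aug act, f₁ x = 0 → f₂ x = 0 → x ∈ Z₁) : NUQ act (aug act) := by
  have h1 : NUQ act (aug act ⊓ f₁.ker) := by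
    refine NUQ.of_map f₂ hf₂ hold hnew (fun x hx => map_mem_aug f₂ hf₂ hx.1) ?_
    intro x hx h2
    exact hker x hx.1 (AddMonoidHom.mem_ker.mp hx.2) h2
  refine NUQ.of_map f₁ hf₁ hold h1 (fun x hx => map_mem_aug f₁ hf₁ hx) ?_
  intro x hx h
  exact ⟨hx, AddMonoidHom.mem_ker.mpr h⟩

/-- scalar action on the `p`-torsion of a subgroup killed by `p ^ k` -/
theorem NUQ.of_scalar_tor {p : ℕ} (hp : p.Prime) {Z : AddSubgroup X} (k : ℕ)
    (hk : ∀ x ∈ Z, p ^ k • x = 0) (c : ι → ℤ)
    (hc : ∀ i, ∀ x ∈ Z, p • x = 0 → act i x = c i • x) (i₀ : ι)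
    (hi₀ : ¬ (p : ℤ) ∣ c i₀ - 1) : NUQ act Z :=
  NUQ.of_tor (NUQ.of_scalar hp c hc i₀ hi₀) k hk

/-- **[G] from the leaves.**  `hold` = [G-OLD] at the good level; `hker` = [RAM-T0] + the
definition of the new part; `hc`, `hi₀` = [S]: the inertia acts on the `p`-torsion of `Z₁`
through scalars, one of which is not `1` modulo `p`. -/
theorem NUQ.aug_of_leaves {p : ℕ} (hp : p.Prime) (f₁ f₂ : X →+ X₁)
    (hf₁ : ∀ i x, f₁ (act i x) = act₁ i (f₁ x)) (hf₂ : ∀ i x, f₂ (act i x) = act₁ i (f₂ x))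
    (hold : NUQ act₁ (aug act₁)) (Z₁ : AddSubgroup X)
    (hker : ∀ x ∈ aug act, f₁ x = 0 → f₂ x = 0 → x ∈ Z₁)
    (k : ℕ) (hk : ∀ x ∈ Z₁, p ^ k • x = 0) (c : ι → ℤ)
    (hc : ∀ i, ∀ x ∈ Z₁, p • x = 0 → act i x = c i • x) (i₀ : ι)
    (hi₀ : ¬ (p : ℤ) ∣ c i₀ - 1) : NUQ act (aug act) :=
  NUQ.aug_of_old_new₂ f₁ f₂ hf₁ hf₂ hold (NUQ.of_scalar_tor hp k hk c hc i₀ hi₀) hker

end Wiring

section Prod

variable {ι : Type*} {X : Type*} [AddCommGroup X] {act : ι → X →+ X}
  {X₁ : Type*} [AddCommGroup X₁] {act₁ : ι → X₁ →+ X₁}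

/-- the action on a product -/
def prodAct (act : ι → X →+ X) (act₁ : ι → X₁ →+ X₁) (i : ι) : X × X₁ →+ X × X₁ :=
  (act i).prodMap (act₁ i)

@[simp] theorem prodAct_apply (i : ι) (x : X × X₁) :
    prodAct act act₁ i x = (act i x.1, act₁ i x.2) := rfl

/-- **Products.** -/
theorem NUQ.prod {Z : AddSubgroup X} {Z₁ : AddSubgroup X₁} (hZ : NUQ act Z)
    (hZ₁ : NUQ act₁ Z₁) : NUQ (prodAct act act₁) (Z.prod Z₁) := by
  have h0 : NUQ (prodAct act act₁) ((⊥ : AddSubgroup X).prod Z₁) := by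
    intro A hA hst x hx hfix
    have hx1 : x.1 = 0 := by
      have := (AddSubgroup.mem_prod.mp hx).1
      rwa [AddSubgroup.mem_bot] at this
    have hx2 : x.2 ∈ Z₁ := (AddSubgroup.mem_prod.mp hx).2
    have hxeq : x = AddMonoidHom.inr X X₁ x.2 := by
      refine Prod.ext ?_ rfl
      rw [hx1]
      rfl
    have key := hZ₁ (A.comap (AddMonoidHom.inr X X₁)) ?_ ?_ x.2 hx2 ?_
    · rw [hxeq]
      exact key
    · intro y hy
      exact (AddSubgroup.mem_prod.mp (hA hy)).2
    · intro i a ha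
      rw [AddSubgroup.mem_comap] at ha ⊢
      have h1 := hst i _ ha
      rw [prodAct_apply] at h1
      simpa only [AddMonoidHom.inr_apply, map_zero] using h1
    · intro i
      rw [AddSubgroup.mem_comap]
      have h1 := hfix i
      rw [hxeq, prodAct_apply] at h1
      simpa only [AddMonoidHom.inr_apply, map_zero, Prod.mk_sub_mk, sub_zero] using h1
  refine NUQ.of_map (AddMonoidHom.fst X X₁) (fun i x => rfl) hZ h0 ?_ ?_
  · intro x hx
    exact (AddSubgroup.mem_prod.mp hx).1
  · intro x hx h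
    refine AddSubgroup.mem_prod.mpr ⟨?_, (AddSubgroup.mem_prod.mp hx).2⟩
    rw [AddSubgroup.mem_bot]
    exact h

end Prod

section Dictionary

variable {G : Type*} [Group G] {X : Type*} [AddCommGroup X]

/-- dictionary with the unfolded shape `helper25.NuqOn` -/
theorem nuqOn_iff_nuq (act : G → X → X) (Inert : Subgroup G) (actI : Inert → X →+ X)
    (hact : ∀ (σ : Inert) (x : X), actI σ x = act (σ : G) x) (Z : AddSubgroup X) :
    Fermat.Agent.T7.helper25.NuqOn act Inert Z ↔ NUQ actI Z := by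
  rw [nuq_iff_forall_le]
  constructor
  · intro h A B hAB hBZ hfix
    refine h A B hAB hBZ ?_
    intro s hs b hb
    have := hfix ⟨s, hs⟩ b hb
    rwa [hact] at this
  · intro h A B hAB hBZ hfix
    refine h A B hAB hBZ ?_
    intro σ b hb
    rw [hact]
    exact hfix σ σ.2 b hb

theorem nuqOn_of_nuq (act : G → X → X) (Inert : Subgroup G) (actI : Inert → X →+ X)
    (hact : ∀ (σ : Inert) (x : X), actI σ x = act (σ : G) x) {Z : AddSubgroup X}
    (hZ : NUQ actI Z) : Fermat.Agent.T7.helper25.NuqOn act Inert Z :=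
  (nuqOn_iff_nuq act Inert actI hact Z).mpr hZ

theorem nuq_of_nuqOn (act : G → X → X) (Inert : Subgroup G) (actI : Inert → X →+ X)
    (hact : ∀ (σ : Inert) (x : X), actI σ x = act (σ : G) x) {Z : AddSubgroup X}
    (hZ : Fermat.Agent.T7.helper25.NuqOn act Inert Z) : NUQ actI Z :=
  (nuqOn_iff_nuq act Inert actI hact Z).mp hZ

/-- the augmentation subgroup in the unfolded shape -/
theorem aug_eq_closure (act : G → X → X) (Inert : Subgroup G) (actI : Inert → X →+ X)
    (hact : ∀ (σ : Inert) (x : X), actI σ x = act (σ : G) x) :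
    aug actI = AddSubgroup.closure {y : X | ∃ s ∈ Inert, ∃ x : X, y = act s x - x} := by
  unfold aug
  congr 1
  ext y
  constructor
  · rintro ⟨σ, x, rfl⟩
    exact ⟨σ, σ.2, x, by rw [hact]⟩
  · rintro ⟨s, hs, x, rfl⟩
    exact ⟨⟨s, hs⟩, x, by rw [hact]⟩

end Dictionary

end Fermat.Agent.T7.helper51
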