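import Fermat.Agent.T7.helper78_FTNuq
import Fermat.Agent.T6.helper36_AsmGeo
import Fermat.Agent.T6.helper72_GeoInst

/-!
# T7 (S33), GLUE group, leaf [OLD-INST] (helper78)

At a level `M'` NOT divisible by the odd prime `p` the `p ^ k`-torsion of `J₀(M')` is the group
of points of a finite flat Hopf algebra over `ℤ_(p)` (S19 = T6).  Hence, by [FT-NUQ], for ANY
place `P` of `ℚ̄` over `p` the inertia span of `J₀(M')[p ^ k]` has no nonzero inertia-trivial
subquotient.

* `flatBody_tors`   : `FlatBody p (Tors M' p k) (actTors M' p k)`;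
* `nuq_tors`        : [FT-NUQ] for `Tors M' p k`;
* `nuq_old`         : the same inside `J₀(M')` : a subgroup `X0` of the `p ^ k`-torsion containing
                      all `s x - x` (`x` killed by `p ^ k`, `s` in the inertia group of `P`)
                      without nonzero inertia-trivial subquotient;
* `nuq_span_old`    : the corollary for the span of the `s x - x`.
-/

set_option autoImplicit false
set_option linter.unusedSectionVars false
set_option linter.style.haveILetI false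

open ModularCurve

namespace Fermat.Agent.T7.helper78

open Fermat.Agent.T6.helper73

/-- S19 in the shape of `FlatBody`. -/
theorem flatBody_tors (M' : ℕ) [NeZero M'] (p : ℕ) [Fact p.Prime] (hpM : ¬ p ∣ M') (k : ℕ) :
    FlatBody p (Tors M' p k) (actTors M' p k) := by
  obtain ⟨H, instR, instH, hfin, hflat, hco, e, hadd, heq⟩ :=
    Fermat.Agent.T6.helper36.s19_of_geo Fermat.Agent.T6.helper72.geoStatement72 M' p hpM k
  exact ⟨H, instR, instH, hfin, hflat, hco, e, hadd,
    fun σ f g hfg => Subtype.ext (heq σ f g hfg)⟩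

/-- the torsion is killed by `p ^ k` -/
theorem tors_nsmul_eq_zero (M' p k : ℕ) (x : Tors M' p k) : p ^ k • x = 0 := by
  apply Subtype.ext
  have hx := x.2
  rw [Submodule.mem_torsionBy_iff] at hx
  rw [Submodule.coe_smul_of_tower, ZeroMemClass.coe_zero, ← natCast_zsmul]
  push_cast
  exact hx

/-- **[OLD-INST]**, on the torsion subgroup. -/
theorem nuq_tors (M' : ℕ) [NeZero M'] (p : ℕ) [Fact p.Prime] (hp2 : p ≠ 2) (hpM : ¬ p ∣ M')
    (k : ℕ) (P : ValuationSubring Kq) (hP : P.LiesOverPrime p) :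
    ∃ X0 : AddSubgroup (Tors M' p k),
      (∀ s ∈ P.inertiaSubgroupIn ℚ, ∀ x, actTors M' p k s x - x ∈ X0) ∧
      ∀ A B : AddSubgroup (Tors M' p k), A ≤ B → B ≤ X0 →
        (∀ s ∈ P.inertiaSubgroupIn ℚ, ∀ b ∈ B, actTors M' p k s b - b ∈ A) → B ≤ A := by
  haveI : Finite (Tors M' p k) := Fermat.Agent.T6.helper36.finite_tors M' p k
  exact nuq_of_flatBody p hp2 (actTors M' p k) (isGalAct_actTors M' p k) k
    (tors_nsmul_eq_zero M' p k) (flatBody_tors M' p hpM k) P hP

/-- **[OLD-INST]**, inside `J₀(M')`: there is a subgroup `X0` of the `p ^ k`-torsion of `J₀(M')`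
containing all `s x - x` (`x` killed by `p ^ k`, `s` in the inertia group of `P`) which has no
nonzero inertia-trivial subquotient. -/
theorem nuq_old (M' : ℕ) [NeZero M'] (p : ℕ) [Fact p.Prime] (hp2 : p ≠ 2) (hpM : ¬ p ∣ M')
    (k : ℕ) (P : ValuationSubring Kq) (hP : P.LiesOverPrime p) :
    ∃ X0 : AddSubgroup (JZero M'),
      (∀ x ∈ X0, p ^ k • x = 0) ∧
      (∀ s ∈ P.inertiaSubgroupIn ℚ, ∀ x : JZero M', p ^ k • x = 0 → s • x - x ∈ X0) ∧
      ∀ A B : AddSubgroup (JZero M'), A ≤ B → B ≤ X0 →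
        (∀ s ∈ P.inertiaSubgroupIn ℚ, ∀ b ∈ B, s • b - b ∈ A) → B ≤ A := by
  obtain ⟨X0, h1, h2⟩ := nuq_tors M' p hp2 hpM k P hP
  let ι : Tors M' p k →+ JZero M' :=
    (Submodule.torsionBy ℤ (JZero M') ((p : ℤ) ^ k)).subtype.toAddMonoidHom
  have hι : ∀ x : Tors M' p k, ι x = (x : JZero M') := fun _ => rfl
  have hmem : ∀ x : JZero M', p ^ k • x = 0 →
      x ∈ Submodule.torsionBy ℤ (JZero M') ((p : ℤ) ^ k) := by
    intro x hx
    rw [Submodule.mem_torsionBy_iff]
    have e : ((p : ℤ) ^ k) = ((p ^ k : ℕ) : ℤ) := by push_cast; rfl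
    rw [e, natCast_zsmul]
    exact hx
  refine ⟨X0.map ι, ?_, ?_, ?_⟩
  · rintro x ⟨y, -, rfl⟩
    have h := congrArg Subtype.val (tors_nsmul_eq_zero M' p k y)
    rw [Submodule.coe_smul_of_tower] at h
    exact h
  · intro s hs x hx
    refine ⟨actTors M' p k s ⟨x, hmem x hx⟩ - ⟨x, hmem x hx⟩, h1 s hs _, ?_⟩
    rw [map_sub]
    rfl
  · intro A B hAB hBX hI
    have h3 := h2 (A.comap ι) (B.comap ι) (AddSubgroup.comap_mono hAB)
      (by
        intro y hy
        obtain ⟨z, hz, hzy⟩ := hBX (AddSubgroup.mem_comap.mp hy)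
        have e : z = y := Subtype.ext hzy
        rw [← e]
        exact hz)
      (by
        intro s hs y hy
        rw [AddSubgroup.mem_comap, map_sub]
        exact hI s hs (ι y) (AddSubgroup.mem_comap.mp hy))
    intro b hb
    obtain ⟨z, -, hzb⟩ := hBX hb
    have h4 : z ∈ B.comap ι := by
      rw [AddSubgroup.mem_comap, hzb]
      exact hb
    have h5 := h3 h4
    rw [AddSubgroup.mem_comap, hzb] at h5
    exact h5

/-- **[G-OLD]**: at a level `M'` prime to the odd prime `p`, the span of the `s x - x`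
(`x ∈ J₀(M')[p ^ k]`, `s` in the inertia group of a place `P` over `p`) has no nonzero
inertia-trivial subquotient. -/
theorem nuq_span_old (M' : ℕ) [NeZero M'] (p : ℕ) [Fact p.Prime] (hp2 : p ≠ 2) (hpM : ¬ p ∣ M')
    (k : ℕ) (P : ValuationSubring Kq) (hP : P.LiesOverPrime p) (A B : AddSubgroup (JZero M'))
    (hAB : A ≤ B)
    (hB : B ≤ AddSubgroup.closure {y | ∃ s ∈ P.inertiaSubgroupIn ℚ, ∃ x : JZero M',
      p ^ k • x = 0 ∧ y = s • x - x})
    (hI : ∀ s ∈ P.inertiaSubgroupIn ℚ, ∀ b ∈ B, s • b - b ∈ A) : B ≤ A := by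
  obtain ⟨X0, -, h1, h2⟩ := nuq_old M' p hp2 hpM k P hP
  refine h2 A B hAB (hB.trans ?_) hI
  rw [AddSubgroup.closure_le]
  rintro y ⟨s, hs, x, hx, rfl⟩
  exact h1 s hs x hx

end Fermat.Agent.T7.helper78
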