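import Fermat.Agent.T7.helper72_Frontier
import Fermat.Agent.T7.helper78_OldInst
import Fermat.Agent.T7.helper43_DegMaps
import Fermat.Agent.T7.helper51_NUQAsm
import Fermat.Agent.T7.helper35_HNT
import Fermat.Agent.T7.helper2_T0Sat

/-!
# T7 / S33, leaf [G-ASM] + [G-NEW] (helper2): the geometric contract [G] from (G1)

`G1Statement N p hp hpN A` (**(G1), class form**): for a class `x` of `J₀(N p)` which
* lies in the kernel of reduction at exponent `p` (`IsT0 N p hp hpN A p x`: a Kummer generator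
  `u`, `p • D = div u`, `u ≡ 1` for both Gauss valuations at `A`), and
* is NEW (`α_* x = 0`, `β_* x = 0`, helper43's `alphaPush`, `betaPush`),
every `σ` in the inertia group of `A` acts by the cyclotomic scalar: `σ • x = a • x` whenever
`σ z = z ^ a` for all `p`-th roots of unity `z`.

`geom_of_g1` : if (G1) holds at all bad pairs (`N` with `4 ∣ N`, `p ∤ N` odd, `A` over `p`), then
helper72's contract `S33GeomStatement` holds.  Hence (`isOrdinaryAt_of_g1`) the frozen S33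
follows from (G1) alone.

Inputs (all on main, unconditional): `helper51.NUQ.aug_of_leaves` (extension along
`(α_*, β_*)`, `p`-filtration, scalar action), `helper78.nuq_tors` ([G-OLD] = S19 at the good
level + FT-A / FT-C), `helper2.ram_isT0_bad` ([RAM-T0]), `helper2.IsT0.of_torsion` ([T0-SAT]),
`helper35.exists_inertia_sq` (inertia moves `μ_p`).
-/

set_option autoImplicit false
set_option linter.unusedSectionVars false
set_option linter.unusedVariables false
set_option linter.style.longLine false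
set_option linter.style.haveILetI false

noncomputable section

open ModularCurve AlgebraicCurve

namespace Fermat.Agent.T7.helper2

open Fermat.Agent.S18.helper19 Fermat.Agent.T7 Fermat.Agent.P3

/-- **(G1), class form**: inertia acts by the cyclotomic scalar on the new classes of order `p`
in the kernel of reduction. -/
def G1Statement (N p : ℕ) [NeZero N] [NeZero p] (hp : p.Prime) (hpN : ¬ p ∣ N)
    (A : ValuationSubring Kb) : Prop :=
  ∀ x : JZero (N * p), IsT0 N p hp hpN A p x →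
    helper43.alphaPush N p x = 0 → helper43.betaPush N p x = 0 →
    ∀ σ ∈ A.inertiaSubgroupIn ℚ, ∀ a : ℕ, (∀ z : Kb, z ^ p = 1 → σ z = z ^ a) →
      σ • x = a • x

/-- **(G1) at all bad pairs** -/
def G1AllStatement : Prop :=
  ∀ (N p : ℕ) [NeZero N] [NeZero p] (hp : p.Prime) (hpN : ¬ p ∣ N), p ≠ 2 → 4 ∣ N →
    ∀ A : ValuationSubring Kb, A.LiesOverPrime p → G1Statement N p hp hpN A

/-! ### The cyclotomic exponent -/

/-- every automorphism acts on the `p`-th roots of unity by a power -/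
theorem exists_cyclo_exp {p : ℕ} (hp : p.Prime) (σ : GQ) :
    ∃ a : ℕ, ∀ z : Qbar, z ^ p = 1 → σ z = z ^ a := by
  haveI : NeZero (p : Qbar) := ⟨by exact_mod_cast hp.ne_zero⟩
  haveI : NeZero p := ⟨hp.ne_zero⟩
  obtain ⟨ζ, hζ⟩ := HasEnoughRootsOfUnity.exists_primitiveRoot Qbar p
  have h1 : (σ ζ) ^ p = 1 := by rw [← map_pow, hζ.pow_eq_one, map_one]
  obtain ⟨a, -, ha⟩ := hζ.eq_pow_of_pow_eq_one h1
  refine ⟨a, fun z hz => ?_⟩
  obtain ⟨i, -, rfl⟩ := hζ.eq_pow_of_pow_eq_one hz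
  rw [map_pow, ← ha, ← pow_mul, ← pow_mul, mul_comm]

/-- the cyclotomic exponent of `σ` (a choice) -/
def cycloExp {p : ℕ} (hp : p.Prime) (σ : GQ) : ℕ := (exists_cyclo_exp hp σ).choose

theorem cycloExp_spec {p : ℕ} (hp : p.Prime) (σ : GQ) :
    ∀ z : Qbar, z ^ p = 1 → σ z = z ^ cycloExp hp σ :=
  (exists_cyclo_exp hp σ).choose_spec

/-- an automorphism which squares the `p`-th roots of unity (`p` odd) has cyclotomic exponent
`≢ 1` modulo `p` -/
theorem not_dvd_cycloExp_sub_one {p : ℕ} (hp : p.Prime) (hp2 : p ≠ 2) {σ : GQ}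
    (hσ : ∀ μ : Qbar, μ ^ p = 1 → σ μ = μ ^ 2) :
    ¬ (p : ℤ) ∣ (cycloExp hp σ : ℤ) - 1 := by
  haveI : NeZero (p : Qbar) := ⟨by exact_mod_cast hp.ne_zero⟩
  haveI : NeZero p := ⟨hp.ne_zero⟩
  obtain ⟨ζ, hζ⟩ := HasEnoughRootsOfUnity.exists_primitiveRoot Qbar p
  have h1 : ζ ^ cycloExp hp σ = ζ ^ 2 := by
    rw [← cycloExp_spec hp σ ζ hζ.pow_eq_one, hσ ζ hζ.pow_eq_one]
  have hζ0 : ζ ≠ 0 := hζ.ne_zero hp.ne_zero
  have h2 : ζ ^ ((cycloExp hp σ : ℤ) - ((2 : ℕ) : ℤ)) = 1 := by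
    rw [zpow_sub₀ hζ0, zpow_natCast, zpow_natCast, h1]
    exact div_self (pow_ne_zero _ hζ0)
  have h3 : (p : ℤ) ∣ (cycloExp hp σ : ℤ) - ((2 : ℕ) : ℤ) := (hζ.zpow_eq_one_iff_dvd _).mp h2
  intro h4
  have h5 : (p : ℤ) ∣ 1 := by
    have := Int.dvd_sub h4 h3
    have e : ((cycloExp hp σ : ℤ) - 1) - ((cycloExp hp σ : ℤ) - ((2 : ℕ) : ℤ)) = 1 := by
      push_cast
      ring
    rwa [e] at this
  have h6 : p ∣ 1 := by exact_mod_cast h5
  exact hp.one_lt.ne' (Nat.dvd_one.mp h6)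

/-! ### Maps on the torsion -/

section Tors

variable {J J' : Type} [AddCommGroup J] [AddCommGroup J']

/-- the restriction of an additive map to the `n`-torsion -/
def torsMap (f : J →+ J') (n : ℤ) :
    ↥(Submodule.torsionBy ℤ J n) →+ ↥(Submodule.torsionBy ℤ J' n) where
  toFun x := ⟨f (x : J), by
    rw [Submodule.mem_torsionBy_iff, ← map_zsmul, (Submodule.mem_torsionBy_iff _ _).mp x.2,
      map_zero]⟩
  map_zero' := Subtype.ext (map_zero f)
  map_add' := fun x y => Subtype.ext (map_add f _ _)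

@[simp] theorem coe_torsMap (f : J →+ J') (n : ℤ) (x : ↥(Submodule.torsionBy ℤ J n)) :
    ((torsMap f n x : ↥(Submodule.torsionBy ℤ J' n)) : J') = f (x : J) := rfl

theorem torsMap_eq_zero_iff (f : J →+ J') (n : ℤ) (x : ↥(Submodule.torsionBy ℤ J n)) :
    torsMap f n x = 0 ↔ f (x : J) = 0 := by
  constructor
  · intro h
    exact congrArg Subtype.val h
  · intro h
    exact Subtype.ext h

theorem nsmul_coe_eq_zero_of_mem_torsionBy {p k : ℕ}
    (x : ↥(Submodule.torsionBy ℤ J ((p : ℤ) ^ k))) : p ^ k • (x : J) = 0 := by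
  have hx : ((p : ℤ) ^ k) • (x : J) = 0 := (Submodule.mem_torsionBy_iff _ _).mp x.2
  calc p ^ k • (x : J) = ((p ^ k : ℕ) : ℤ) • (x : J) := (natCast_zsmul _ _).symm
    _ = ((p : ℤ) ^ k) • (x : J) := by rw [Nat.cast_pow]
    _ = 0 := hx

end Tors

/-! ### The assembly -/

section Asm

variable (N p : ℕ) [NeZero N] [NeZero p] (hp : p.Prime) (hpN : ¬ p ∣ N)
  (P : ValuationSubring Kb)

include hp hpN in
/-- [G-OLD] in the shape of `helper51.NUQ`. -/
theorem nuq_aug_old (hp2 : p ≠ 2) (hP : P.LiesOverPrime p) (k : ℕ) :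
    helper51.NUQ (helper72.inertiaAct72 N p k P)
      (helper51.aug (helper72.inertiaAct72 N p k P)) := by
  haveI : Fact p.Prime := ⟨hp⟩
  obtain ⟨X0, h1, h2⟩ := helper78.nuq_tors N p hp2 hpN k P hP
  have hX0 : helper51.NUQ (helper72.inertiaAct72 N p k P) X0 := by
    rw [helper51.nuq_iff_forall_le]
    intro A B hAB hBX hfix
    exact h2 A B hAB hBX (fun s hs b hb => hfix ⟨s, hs⟩ b hb)
  refine hX0.mono (helper51.aug_le_of_forall ?_)
  intro σ x
  exact h1 σ.1 σ.2 x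

/-- **[G] at one bad pair from (G1).** -/
theorem nuq_aug_of_g1 (hp2 : p ≠ 2) (hP : P.LiesOverPrime p)
    (hG1 : G1Statement N p hp hpN P) (k : ℕ) :
    helper51.NUQ (helper72.inertiaAct72 (N * p) p k P)
      (helper51.aug (helper72.inertiaAct72 (N * p) p k P)) := by
  -- the two degeneracy maps on the torsion
  set f₁ := torsMap (helper43.alphaPush N p) ((p : ℤ) ^ k) with hf₁def
  set f₂ := torsMap (helper43.betaPush N p) ((p : ℤ) ^ k) with hf₂def
  have hf₁ : ∀ (σ : ↥(P.inertiaSubgroupIn ℚ))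
      (x : ↥(Submodule.torsionBy ℤ (JZero (N * p)) ((p : ℤ) ^ k))),
      f₁ (helper72.inertiaAct72 (N * p) p k P σ x)
        = helper72.inertiaAct72 N p k P σ (f₁ x) := by
    intro σ x
    apply Subtype.ext
    exact helper43.alphaPush_galois_smul N p (σ : GQ) (x : JZero (N * p))
  have hf₂ : ∀ (σ : ↥(P.inertiaSubgroupIn ℚ))
      (x : ↥(Submodule.torsionBy ℤ (JZero (N * p)) ((p : ℤ) ^ k))),
      f₂ (helper72.inertiaAct72 (N * p) p k P σ x)
        = helper72.inertiaAct72 N p k P σ (f₂ x) := by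
    intro σ x
    apply Subtype.ext
    exact helper43.betaPush_galois_smul N p (σ : GQ) (x : JZero (N * p))
  -- the new part of the kernel of reduction
  let T0k : AddSubgroup ↥(Submodule.torsionBy ℤ (JZero (N * p)) ((p : ℤ) ^ k)) :=
    (t0 N p hp hpN P (p ^ k)).comap
      (Submodule.torsionBy ℤ (JZero (N * p)) ((p : ℤ) ^ k)).subtype.toAddMonoidHom
  let Z₁ : AddSubgroup ↥(Submodule.torsionBy ℤ (JZero (N * p)) ((p : ℤ) ^ k)) :=
    T0k ⊓ f₁.ker ⊓ f₂.ker
  have hpk : p ^ k ≠ 0 := pow_ne_zero _ hp.ne_zero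
  have haug : helper51.aug (helper72.inertiaAct72 (N * p) p k P) ≤ T0k := by
    refine helper51.aug_le_of_forall ?_
    intro σ x
    show IsT0 N p hp hpN P (p ^ k) ((σ : GQ) • (x : JZero (N * p)) - (x : JZero (N * p)))
    exact ram_isT0_bad N p hp hpN P hP (p ^ k) hpk (σ : GQ) σ.2 (x : JZero (N * p))
      (nsmul_coe_eq_zero_of_mem_torsionBy x)
  obtain ⟨σ₀, hσ₀, hsq⟩ := helper35.exists_inertia_sq hp hp2 P hP
  refine helper51.NUQ.aug_of_leaves hp f₁ f₂ hf₁ hf₂ (nuq_aug_old N p hp hpN P hp2 hP k) Z₁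
    ?_ k ?_ (fun σ => (cycloExp hp (σ : GQ) : ℤ)) ?_ ⟨σ₀, hσ₀⟩
    (not_dvd_cycloExp_sub_one hp hp2 hsq)
  · -- the kernel
    intro x hx h1 h2
    exact ⟨⟨haug hx, AddMonoidHom.mem_ker.mpr h1⟩, AddMonoidHom.mem_ker.mpr h2⟩
  · -- killed by `p ^ k`
    intro x _
    apply Subtype.ext
    rw [Submodule.coe_smul_of_tower, ZeroMemClass.coe_zero]
    exact nsmul_coe_eq_zero_of_mem_torsionBy x
  · -- the scalar action on the `p`-torsion: (G1)
    intro σ x hx hpx
    obtain ⟨⟨hxT, hx1⟩, hx2⟩ := hx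
    have hx1' : helper43.alphaPush N p (x : JZero (N * p)) = 0 :=
      (torsMap_eq_zero_iff _ _ x).mp (AddMonoidHom.mem_ker.mp hx1)
    have hx2' : helper43.betaPush N p (x : JZero (N * p)) = 0 :=
      (torsMap_eq_zero_iff _ _ x).mp (AddMonoidHom.mem_ker.mp hx2)
    have hpx' : p • (x : JZero (N * p)) = 0 := by
      have := congrArg Subtype.val hpx
      rwa [Submodule.coe_smul_of_tower, ZeroMemClass.coe_zero] at this
    have hxT' : IsT0 N p hp hpN P (p ^ k) (x : JZero (N * p)) := hxT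
    -- exponent `p`
    have hT1 : IsT0 N p hp hpN P p (x : JZero (N * p)) := by
      rcases Nat.eq_zero_or_pos k with hk0 | hk0
      · -- `k = 0`: the class is zero
        subst hk0
        have h0 : (x : JZero (N * p)) = 0 := by
          have := hxT'.nsmul_eq_zero
          rwa [pow_zero, one_smul] at this
        rw [h0]
        exact isT0_zero p
      · have h1 : IsT0 N p hp hpN P (p ^ 1) (x : JZero (N * p)) :=
          hxT'.of_torsion hP hk0 (by rwa [pow_one])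
        rwa [pow_one] at h1
    have key := hG1 (x : JZero (N * p)) hT1 hx1' hx2' (σ : GQ) σ.2 (cycloExp hp (σ : GQ))
      (cycloExp_spec hp (σ : GQ))
    apply Subtype.ext
    show (σ : GQ) • (x : JZero (N * p))
      = (((cycloExp hp (σ : GQ) : ℤ) • x :
          ↥(Submodule.torsionBy ℤ (JZero (N * p)) ((p : ℤ) ^ k))) : JZero (N * p))
    rw [Submodule.coe_smul_of_tower, natCast_zsmul]
    exact key

end Asm

/-- **[G] from (G1)**: helper72's geometric contract follows from (G1) at all bad pairs. -/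
theorem geom_of_g1 (hG1 : G1AllStatement) : helper72.S33GeomStatement := by
  intro p hp hp2 M _ h4 hpM hp2M P hP k
  obtain ⟨N, rfl⟩ : ∃ N : ℕ, M = N * p := ⟨M / p, (Nat.div_mul_cancel hpM).symm⟩
  have hN0 : N ≠ 0 := by
    rintro rfl
    exact NeZero.ne (0 * p) (zero_mul p)
  haveI : NeZero N := ⟨hN0⟩
  haveI : NeZero p := ⟨hp.ne_zero⟩
  have hpN : ¬ p ∣ N := by
    intro hd
    apply hp2M
    rw [pow_two]
    exact Nat.mul_dvd_mul_right hd p
  have h4N : 4 ∣ N := by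
    have hcop : Nat.Coprime 4 p := by
      have h2 : Nat.Coprime 2 p := (Nat.coprime_primes Nat.prime_two hp).mpr (Ne.symm hp2)
      have : Nat.Coprime (2 ^ 2) p := Nat.Coprime.pow_left 2 h2
      simpa using this
    exact hcop.dvd_of_dvd_mul_right h4
  exact nuq_aug_of_g1 N p hp hpN P hp2 hP (hG1 N p hp hpN hp2 h4N P hP) k

variable {p : ℕ} {N : ℕ} [NeZero N] {S : Finset ℕ}
  {𝒪 : Type} [CommRing 𝒪] [IsDomain 𝒪] [IsDiscreteValuationRing 𝒪]
  [IsAdicComplete (IsLocalRing.maximalIdeal 𝒪) 𝒪]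
  {θ : CuspForm.heckeAlgebra N 2 (↑S : Set ℕ) →+* IsLocalRing.ResidueField 𝒪}
  {T : Type} [CommRing T] [IsLocalRing T] [IsNoetherianRing T]
  [IsAdicComplete (IsLocalRing.maximalIdeal T) T] [Algebra 𝒪 T] [IsLocalHom (algebraMap 𝒪 T)]
  [Module.Finite 𝒪 T] [Module.Free 𝒪 T]

/-- **S33 from (G1).** -/
theorem isOrdinaryAt_of_g1 (hG1 : G1AllStatement)
    [Finite (IsLocalRing.ResidueField 𝒪)] [CharZero 𝒪]
    (hp : p.Prime) (hp2 : p ≠ 2) (hp𝒪 : (p : 𝒪) ∈ IsLocalRing.maximalIdeal 𝒪)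
    (hN : p ∣ N ∧ ¬ p ^ 2 ∣ N)
    (hNS : ∀ q : ℕ, q.Prime → q ∣ N → q ∈ S)
    (H : CuspForm.HeckeGaloisRepDatum N (↑S : Set ℕ) 𝒪 θ T)
    (hres : (GaloisRepAdic.ofResidualGaloisRep H.ρ.residual).IsOrdinaryAt p) :
    H.ρ.IsOrdinaryAt p :=
  helper72.isOrdinaryAt_of_geom (geom_of_g1 hG1) hp hp2 hp𝒪 hN hNS H hres

end Fermat.Agent.T7.helper2

end
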