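import Fermat.Agent.T7.helper2_GAsm
import Fermat.Agent.T7.helper27_NewQ

/-!
# T7 / S33, leaf [KUM-END] (helper2): (G1) in class form from (G1) in Kummer form

* `g1_of_t0InertOmega` : `helper27.T0InertOmegaStatement (N p) W A p (IsNewN N p)` (Kummer form:
  `σ u = c · v ^ p · u ^ a` for the new functions `u ≡ 1` with `p ∣ div u`) implies
  `helper2.G1Statement N p hp hpN A` (class form: `σ • x = a • x` for the new classes of the
  kernel of reduction at exponent `p`).
* `g1_of_b3_b4` : the same from helper27's contracts `B3Statement` + `B4Statement` (through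
  `helper27.t0InertOmega_new`).
* `B34AllStatement` : the two contracts at all bad pairs; `g1All_of_b3_b4`,
  `geom_of_b3_b4`, `isOrdinaryAt_of_b3_b4` : the frozen S33 from `B34AllStatement`.
-/

set_option autoImplicit false
set_option linter.unusedSectionVars false
set_option linter.unusedVariables false
set_option linter.style.longLine false
set_option linter.style.haveILetI false

noncomputable section

open ModularCurve AlgebraicCurve

namespace Fermat.Agent.T7.helper2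

open Fermat.Agent.S18.helper19 Fermat.Agent.P2.helper93 Fermat.Agent.P3.helper94
open Fermat.Agent.T2 Fermat.Agent.T2.helper36

section Pair

variable (N p : ℕ) [NeZero N] [NeZero p] (hp : p.Prime) (hpN : ¬ p ∣ N)
  (A : ValuationSubring Kb)

/-- **[KUM-END]**: the class form of (G1) from its Kummer form. -/
theorem g1_of_t0InertOmega
    (hT : helper27.T0InertOmegaStatement (N * p) (atkinLehner N p hp hpN) A p
      (helper27.IsNewN N p)) :
    G1Statement N p hp hpN A := by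
  intro x hx hα hβ σ hσ a ha
  obtain ⟨D, u, rfl, H, r1, r2⟩ := hx
  have hu0 : u ≠ 0 := H.1
  have hKR : IsKummerRep p (Pic0.mk D : JZero (N * p)) u := ⟨H.1, D, rfl, H.2⟩
  have hnew : helper27.IsNewN N p u := helper27.isNewN_of_push hKR hα hβ
  have hdiv : ∀ P : Place Kb (FF (N * p)), (p : ℤ) ∣ P.ord u := fun P => ⟨_, (H.2 P).symm⟩
  obtain ⟨c, v, e⟩ := hT u hu0 hdiv r1 r2 hnew σ hσ a ha
  obtain ⟨D1, e1, H1⟩ := kum_galois (N * p) σ H
  have hσu : galF (N * p) σ u ≠ 0 := H1.1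
  have hc0 : c ≠ 0 := by
    rintro rfl
    rw [map_zero, zero_mul, zero_mul] at e
    exact hσu e
  have hv0 : v ≠ 0 := by
    rintro rfl
    rw [zero_pow hp.ne_zero, mul_zero, zero_mul] at e
    exact hσu e
  have hcF : algebraMap Kb (FF (N * p)) c ≠ 0 := by
    rw [Ne, map_eq_zero_iff _ (algebraMap Kb (FF (N * p))).injective]
    exact hc0
  have hp0 : (p : ℤ) ≠ 0 := by exact_mod_cast hp.ne_zero
  -- the divisor comparison
  have hord : ∀ P : Place Kb (FF (N * p)),
      ((D1 - a • D : Divisor.degZero (K := Kb) (F := FF (N * p))) : Divisor Kb (FF (N * p))) P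
        = P.ord v := by
    intro P
    have h1 : (p : ℤ) * (D1 : Divisor Kb (FF (N * p))) P = P.ord (galF (N * p) σ u) := H1.2 P
    have h2 : (p : ℤ) * (D : Divisor Kb (FF (N * p))) P = P.ord u := H.2 P
    have h3 : P.ord (galF (N * p) σ u) = (p : ℤ) * P.ord v + (a : ℤ) * P.ord u := by
      rw [e, P.ord_mul (mul_ne_zero hcF (pow_ne_zero _ hv0)) (pow_ne_zero _ hu0),
        P.ord_mul hcF (pow_ne_zero _ hv0), ord_algebraMap_eq_zero, zero_add]
      have e4 := P.ord_zpow v (p : ℤ)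
      rw [zpow_natCast] at e4
      have e5 := P.ord_zpow u (a : ℤ)
      rw [zpow_natCast] at e5
      rw [e4, e5]
    have h4 : (p : ℤ) * ((D1 : Divisor Kb (FF (N * p))) P
        - (a : ℤ) * (D : Divisor Kb (FF (N * p))) P) = (p : ℤ) * P.ord v := by
      rw [mul_sub, h1, h3, ← h2]
      ring
    have h5 := mul_left_cancel₀ hp0 h4
    rw [← h5, AddSubgroup.coe_sub, AddSubgroup.coe_nsmul, Finsupp.sub_apply, Finsupp.smul_apply,
      nsmul_eq_mul]
  have hz : (Pic0.mk (D1 - a • D) : JZero (N * p)) = 0 := kum_mk_eq_zero_of_ord hv0 hord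
  have hz' : (Pic0.mk D1 : JZero (N * p)) - a • Pic0.mk D = 0 := hz
  rw [e1]
  exact sub_eq_zero.mp hz'

/-- (G1) in class form at one bad pair from [B3] + [B4]. -/
theorem g1_of_b3_b4 (hN : 4 ∣ N ∨ 9 ∣ N) (hA : A.LiesOverPrime p)
    (hB3 : helper27.B3Statement (N * p) (atkinLehner N p hp hpN) A p (helper27.IsNewN N p))
    (hB4 : helper27.B4Statement (N * p) (atkinLehner N p hp hpN) A p) :
    G1Statement N p hp hpN A :=
  g1_of_t0InertOmega N p hp hpN A (helper27.t0InertOmega_new hp hpN hN A hA hB3 hB4)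

end Pair

/-- **[B3] + [B4] at all bad pairs** (`4 ∣ N`, `p ∤ N` odd, `A` over `p`). -/
def B34AllStatement : Prop :=
  ∀ (N p : ℕ) [NeZero N] [NeZero p] (hp : p.Prime) (hpN : ¬ p ∣ N), p ≠ 2 → 4 ∣ N →
    ∀ A : ValuationSubring Kb, A.LiesOverPrime p →
      helper27.B3Statement (N * p) (atkinLehner N p hp hpN) A p (helper27.IsNewN N p) ∧
        helper27.B4Statement (N * p) (atkinLehner N p hp hpN) A p

theorem g1All_of_b3_b4 (h : B34AllStatement) : G1AllStatement := by
  intro N p _ _ hp hpN hp2 h4 A hA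
  obtain ⟨hB3, hB4⟩ := h N p hp hpN hp2 h4 A hA
  exact g1_of_b3_b4 N p hp hpN A (Or.inl h4) hA hB3 hB4

theorem geom_of_b3_b4 (h : B34AllStatement) : helper72.S33GeomStatement :=
  geom_of_g1 (g1All_of_b3_b4 h)

variable {p : ℕ} {N : ℕ} [NeZero N] {S : Finset ℕ}
  {𝒪 : Type} [CommRing 𝒪] [IsDomain 𝒪] [IsDiscreteValuationRing 𝒪]
  [IsAdicComplete (IsLocalRing.maximalIdeal 𝒪) 𝒪]
  {θ : CuspForm.heckeAlgebra N 2 (↑S : Set ℕ) →+* IsLocalRing.ResidueField 𝒪}
  {T : Type} [CommRing T] [IsLocalRing T] [IsNoetherianRing T]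
  [IsAdicComplete (IsLocalRing.maximalIdeal T) T] [Algebra 𝒪 T] [IsLocalHom (algebraMap 𝒪 T)]
  [Module.Finite 𝒪 T] [Module.Free 𝒪 T]

/-- **S33 from [B3] + [B4].** -/
theorem isOrdinaryAt_of_b3_b4 (h : B34AllStatement)
    [Finite (IsLocalRing.ResidueField 𝒪)] [CharZero 𝒪]
    (hp : p.Prime) (hp2 : p ≠ 2) (hp𝒪 : (p : 𝒪) ∈ IsLocalRing.maximalIdeal 𝒪)
    (hN : p ∣ N ∧ ¬ p ^ 2 ∣ N)
    (hNS : ∀ q : ℕ, q.Prime → q ∣ N → q ∈ S)
    (H : CuspForm.HeckeGaloisRepDatum N (↑S : Set ℕ) 𝒪 θ T)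
    (hres : (GaloisRepAdic.ofResidualGaloisRep H.ρ.residual).IsOrdinaryAt p) :
    H.ρ.IsOrdinaryAt p :=
  isOrdinaryAt_of_g1 (g1All_of_b3_b4 h) hp hp2 hp𝒪 hN hNS H hres

end Fermat.Agent.T7.helper2

end
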