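import Mathlib

/-!
# T7 / S33, leaf [D-c] (helper35): the deep `p`-th root of a power-series `1`-unit

`A` a valuation subring of an algebraically closed field `K` of characteristic `0` in which the
prime `p` is not a unit.  If all coefficients of `y : A⟦q⟧` are divisible by `c`, where
`v(c) ≥ p/(p-1) · v(p)` (e.g. `c = p ^ 2`), then `1 + y = R ^ p` with `R ∈ A⟦q⟧` and
`R ≡ 1` modulo the maximal ideal of `A` (coefficientwise).

Proof: choose `ϖ ∈ A` with `ϖ ^ (p - 1) = p`.  Then `(1 + ϖ S) ^ p = 1 + p ϖ G(S)` with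
`G ∈ A[S]` MONIC of degree `p` and `G' = (1 + ϖ S) ^ (p - 1)`.  Write `y = p ϖ y₁`; the monic
polynomial `G - y₁` over `A⟦q⟧` has a root modulo `q` (a root of a monic polynomial over `A`,
which lies in `A` because `K` is algebraically closed and `A` is integrally closed) at which
the derivative is a unit; `A⟦q⟧` is Henselian along `(q)`.

* `deepRoot_abstract` : the abstract form over a local domain `B` with an element `ϖ`,
  `ϖ ^ (p - 1) = p`, in which every monic polynomial of positive degree has a root;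
* `deepRoot_core`     : valuation subrings, `c` with `p ^ p ∣ c ^ (p - 1)`;
* `deepRoot_sq`       : the same with `c = p ^ 2`.
-/

set_option autoImplicit false
set_option linter.unusedSectionVars false
set_option linter.unusedVariables false
set_option linter.style.longLine false

open Polynomial

namespace Fermat.Agent.T7.helper35

section Abstract

variable {B : Type*} [CommRing B] [IsDomain B] [CharZero B]

/-- the monic polynomial `G` with `(1 + ϖ X) ^ p = 1 + p ϖ G` -/
theorem dr_exists_G (p : ℕ) (hp : p.Prime) (ϖ : B) (hϖ : ϖ ^ (p - 1) = (p : B)) :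
    ∃ G : B[X], G.Monic ∧ G.natDegree = p ∧
      (1 + C ϖ * X) ^ p = 1 + C ((p : B) * ϖ) * G ∧
      derivative G = (1 + C ϖ * X) ^ (p - 1) := by
  have hp0 : (p : B) ≠ 0 := by exact_mod_cast hp.ne_zero
  have hϖ0 : ϖ ≠ 0 := by
    intro h
    rw [h, zero_pow (Nat.sub_ne_zero_of_lt hp.one_lt)] at hϖ
    exact hp0 hϖ.symm
  have hϖp : ϖ ^ p = (p : B) * ϖ := by
    have : p = (p - 1) + 1 := (Nat.sub_add_cancel hp.one_le).symm
    conv_lhs => rw [this, pow_succ, hϖ]
  obtain ⟨r, hr⟩ := exists_add_pow_prime_eq hp (1 : B[X]) (C ϖ * X)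
  have hC : (C ((p : B) * ϖ) : B[X]) ≠ 0 := by
    rw [Ne, C_eq_zero]
    exact mul_ne_zero hp0 hϖ0
  -- the identity
  have hid : (1 + C ϖ * X) ^ p = 1 + C ((p : B) * ϖ) * (X ^ p + X * r) := by
    rw [hr, one_pow, mul_pow, ← C_pow, hϖp]
    have hpC : ((p : ℕ) : B[X]) = C (p : B) := (map_natCast C p).symm
    rw [hpC, C_mul]
    ring
  -- the degree of `X * r`
  have hdeg1 : degree ((1 + C ϖ * X) ^ p - (C ϖ * X) ^ p) < p := by
    have hlin : (1 + C ϖ * X : B[X]) = C ϖ * X + C 1 := by rw [C_1]; ring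
    have hd1 : degree ((1 + C ϖ * X : B[X]) ^ p) = p := by
      rw [degree_pow, hlin, degree_linear hϖ0]
      simp
    have hd2 : degree ((C ϖ * X : B[X]) ^ p) = p := by
      rw [degree_pow, degree_C_mul_X hϖ0]
      simp
    have hl1 : leadingCoeff ((1 + C ϖ * X : B[X]) ^ p) = ϖ ^ p := by
      rw [leadingCoeff_pow, hlin, leadingCoeff_linear hϖ0]
    have hl2 : leadingCoeff ((C ϖ * X : B[X]) ^ p) = ϖ ^ p := by
      rw [leadingCoeff_pow, leadingCoeff_mul, leadingCoeff_C, leadingCoeff_X, mul_one]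
    have hne : ((1 + C ϖ * X : B[X]) ^ p) ≠ 0 := by
      intro h
      rw [h, degree_zero] at hd1
      exact absurd hd1 (by simp)
    have := degree_sub_lt_left (hd1.trans hd2.symm) hne (hl1.trans hl2.symm)
    rwa [hd1] at this
  have hXr : C ((p : B) * ϖ) * (X * r) = (1 + C ϖ * X) ^ p - (C ϖ * X) ^ p - 1 := by
    rw [hr, one_pow]
    have hpC : ((p : ℕ) : B[X]) = C (p : B) := (map_natCast C p).symm
    rw [hpC, C_mul]
    ring
  have hdeg2 : degree (X * r) < p := by
    have h1 : degree (C ((p : B) * ϖ) * (X * r)) < p := by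
      rw [hXr]
      refine lt_of_le_of_lt (degree_sub_le _ _) (max_lt hdeg1 ?_)
      rw [degree_one]
      exact_mod_cast hp.pos
    rwa [degree_C_mul (mul_ne_zero hp0 hϖ0)] at h1
  have hmonic : (X ^ p + X * r : B[X]).Monic := monic_X_pow_add hdeg2
  have hnat : (X ^ p + X * r : B[X]).natDegree = p := by
    rw [natDegree_add_eq_left_of_degree_lt (by rwa [degree_X_pow]), natDegree_X_pow]
  refine ⟨X ^ p + X * r, hmonic, hnat, hid, ?_⟩
  -- the derivative
  have hder := congrArg derivative hid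
  rw [derivative_pow, derivative_add, derivative_add, derivative_one, zero_add, zero_add,
    derivative_mul, derivative_C, zero_mul, zero_add, derivative_mul, derivative_C, zero_mul,
    zero_add, derivative_X, mul_one] at hder
  have h2 : C ((p : B) * ϖ) * (1 + C ϖ * X) ^ (p - 1) =
      C ((p : B) * ϖ) * derivative (X ^ p + X * r) := by
    rw [← hder, C_mul, map_natCast C p]
    ring
  exact (mul_left_cancel₀ hC h2).symm

variable [IsLocalRing B]

/-- **[D-c], abstract form.**  `B` a local domain of characteristic `0`, `ϖ` in its maximal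
ideal with `ϖ ^ (p - 1) = p`, every monic polynomial of positive degree over `B` has a root in
`B`.  Then `1 + p ϖ y₁` is the `p`-th power of `1 + ϖ S` for every power series `y₁`. -/
theorem deepRoot_abstract (p : ℕ) (hp : p.Prime) (ϖ : B) (hϖ : ϖ ^ (p - 1) = (p : B))
    (hϖm : ϖ ∈ IsLocalRing.maximalIdeal B)
    (hroot : ∀ f : B[X], f.Monic → 0 < f.natDegree → ∃ a : B, f.IsRoot a)
    (y₁ : PowerSeries B) :
    ∃ S : PowerSeries B,
      (1 + PowerSeries.C ϖ * S) ^ p = 1 + PowerSeries.C ((p : B) * ϖ) * y₁ := by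
  classical
  obtain ⟨G, hGm, hGd, hGid, hGder⟩ := dr_exists_G p hp ϖ hϖ
  -- the root modulo `q`
  set y₀ : B := PowerSeries.constantCoeff y₁ with hy₀
  have hdegC : degree (C y₀ : B[X]) < degree G := by
    rw [degree_eq_natDegree hGm.ne_zero, hGd]
    refine lt_of_le_of_lt degree_C_le ?_
    exact_mod_cast hp.pos
  have hf0m : (G - C y₀).Monic := hGm.sub_of_left hdegC
  have hf0d : 0 < (G - C y₀).natDegree := by
    rw [natDegree_sub_eq_left_of_natDegree_lt, hGd]
    · exact hp.pos
    · rw [natDegree_C, hGd]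
      exact hp.pos
  obtain ⟨a₀, ha₀⟩ := hroot (G - C y₀) hf0m hf0d
  have ha₀' : G.eval a₀ = y₀ := by
    have : (G - C y₀).eval a₀ = 0 := ha₀
    rw [eval_sub, eval_C] at this
    exact sub_eq_zero.1 this
  -- Hensel in `B⟦q⟧`
  have hH : HenselianRing (PowerSeries B) (Ideal.span {(PowerSeries.X : PowerSeries B)}) :=
    inferInstance
  have hmem : ∀ x : PowerSeries B, x ∈ Ideal.span {(PowerSeries.X : PowerSeries B)} ↔
      PowerSeries.constantCoeff x = 0 := by
    intro x
    rw [Ideal.mem_span_singleton, PowerSeries.X_dvd_iff]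
  set GP : (PowerSeries B)[X] := G.map (PowerSeries.C : B →+* PowerSeries B) with hGP
  have hGPm : GP.Monic := hGm.map _
  have hGPd : GP.natDegree = p := by rw [hGP, hGm.natDegree_map, hGd]
  set F : (PowerSeries B)[X] := GP - C y₁ with hF
  have hFm : F.Monic := by
    refine hGPm.sub_of_left ?_
    rw [degree_eq_natDegree hGPm.ne_zero, hGPd]
    refine lt_of_le_of_lt degree_C_le ?_
    exact_mod_cast hp.pos
  have hevalC : ∀ (P : B[X]) (a : B),
      (P.map (PowerSeries.C : B →+* PowerSeries B)).eval (PowerSeries.C a) =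
        PowerSeries.C (P.eval a) := by
    intro P a
    rw [eval_map, eval₂_at_apply]
  have h1 : F.eval (PowerSeries.C a₀) ∈ Ideal.span {(PowerSeries.X : PowerSeries B)} := by
    rw [hmem, hF, eval_sub, eval_C, hGP, hevalC, map_sub, PowerSeries.constantCoeff_C, ha₀',
      sub_self]
  have hunit : IsUnit (1 + ϖ * a₀) := by
    have h := IsLocalRing.isUnit_one_sub_self_of_mem_nonunits (-(ϖ * a₀)) (by
      have : -(ϖ * a₀) ∈ IsLocalRing.maximalIdeal B :=
        Ideal.neg_mem_iff _ |>.2 (Ideal.mul_mem_right _ _ hϖm)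
      exact this)
    simpa using h
  have h2 : IsUnit (Ideal.Quotient.mk (Ideal.span {(PowerSeries.X : PowerSeries B)})
      (F.derivative.eval (PowerSeries.C a₀))) := by
    apply IsUnit.map
    rw [hF, derivative_sub, derivative_C, sub_zero, hGP, derivative_map, hevalC, hGder]
    apply IsUnit.map
    rw [eval_pow, eval_add, eval_one, eval_mul, eval_C, eval_X]
    exact hunit.pow _
  obtain ⟨S, hS, -⟩ := hH.is_henselian F hFm (PowerSeries.C a₀) h1 h2
  refine ⟨S, ?_⟩
  have hS' : GP.eval S = y₁ := by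
    have : F.eval S = 0 := hS
    rw [hF, eval_sub, eval_C] at this
    exact sub_eq_zero.1 this
  have := congrArg (fun P : B[X] => (P.map (PowerSeries.C : B →+* PowerSeries B)).eval S) hGid
  simp only [Polynomial.map_pow, Polynomial.map_add, Polynomial.map_one, Polynomial.map_mul,
    map_C, map_X, eval_pow, eval_add, eval_one, eval_mul, eval_C, eval_X] at this
  rw [this, ← hGP, hS']

end Abstract

section Val

variable {K : Type*} [Field K] [CharZero K] [IsAlgClosed K] (A : ValuationSubring K)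

/-- a monic polynomial of positive degree over a valuation subring of an algebraically closed
field has a root in the valuation subring -/
theorem dr_exists_root (f : A[X]) (hf : f.Monic) (hd : 0 < f.natDegree) :
    ∃ a : A, f.IsRoot a := by
  have hinj : Function.Injective (algebraMap A K) := Subtype.val_injective
  have hg : (f.map (algebraMap A K)).degree ≠ 0 := by
    rw [degree_map_eq_of_injective hinj, degree_eq_natDegree hf.ne_zero]
    exact_mod_cast hd.ne'
  obtain ⟨α, hα⟩ := IsAlgClosed.exists_root (f.map (algebraMap A K)) hg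
  have hint : IsIntegral A α := ⟨f, hf, by rwa [IsRoot.def, eval_map] at hα⟩
  obtain ⟨a, rfl⟩ := IsIntegrallyClosed.isIntegral_iff.mp hint
  refine ⟨a, ?_⟩
  rw [IsRoot.def, eval_map, eval₂_at_apply] at hα
  exact hinj (by rw [hα, map_zero])

/-- in a valuation subring `a ^ n ∣ b ^ n` implies `a ∣ b` -/
theorem dr_dvd_of_pow_dvd_pow {a b : A} {n : ℕ} (hn : n ≠ 0) (h : a ^ n ∣ b ^ n) : a ∣ b := by
  rcases ValuationRing.dvd_total a b with hab | hba
  · exact hab
  · rcases eq_or_ne b 0 with rfl | hb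
    · exact dvd_zero a
    obtain ⟨m, rfl⟩ := hba
    obtain ⟨k, hk⟩ := h
    have hbn : b ^ n ≠ 0 := pow_ne_zero n hb
    have h1 : b ^ n * 1 = b ^ n * (m ^ n * k) := by
      rw [mul_one]
      conv_lhs => rw [hk]
      ring
    have h2 : m ^ n * k = 1 := (mul_left_cancel₀ hbn h1).symm
    have hm : IsUnit m := by
      have : IsUnit (m ^ n) := IsUnit.of_mul_eq_one _ h2
      exact (isUnit_pow_iff hn).1 this
    obtain ⟨u, rfl⟩ := hm
    exact ⟨((u⁻¹ : Aˣ) : A), by rw [mul_assoc, Units.mul_inv, mul_one]⟩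

/-- a `(p-1)`-th root of `p` in the valuation subring -/
theorem dr_exists_pi (p : ℕ) (hp : p.Prime) (hpA : (p : K) ∈ A.nonunits) :
    ∃ ϖ : A, ϖ ^ (p - 1) = (p : A) ∧ ϖ ∈ IsLocalRing.maximalIdeal A := by
  have hp1 : 0 < p - 1 := Nat.sub_pos_of_lt hp.one_lt
  have hpm : (p : A) ∈ IsLocalRing.maximalIdeal A := by
    rw [← ValuationSubring.coe_mem_nonunits_iff]
    simpa using hpA
  have hmon : (X ^ (p - 1) - C (p : A) : A[X]).Monic := monic_X_pow_sub_C _ hp1.ne'
  have hdeg : 0 < (X ^ (p - 1) - C (p : A) : A[X]).natDegree := by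
    rw [natDegree_X_pow_sub_C]
    exact hp1
  obtain ⟨ϖ, hϖ⟩ := dr_exists_root A _ hmon hdeg
  have hϖ' : ϖ ^ (p - 1) = (p : A) := by
    rw [IsRoot.def, eval_sub, eval_pow, eval_X, eval_C] at hϖ
    exact sub_eq_zero.1 hϖ
  refine ⟨ϖ, hϖ', ?_⟩
  by_contra hcon
  have hu : IsUnit ϖ := by
    by_contra h
    exact hcon ((IsLocalRing.mem_maximalIdeal _).2 h)
  have : IsUnit ((p : A)) := by
    rw [← hϖ']
    exact hu.pow _
  exact ((IsLocalRing.mem_maximalIdeal _).1 hpm) this

/-- **[D-c] DEEP ROOT**, sharp form.  `A` a valuation subring of an algebraically closed field of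
characteristic `0`, `p` a prime which is not a unit of `A`, `c ∈ A` with
`p ^ p ∣ c ^ (p - 1)` (i.e. `v(c) ≥ p/(p-1) v(p)`).  Every power series `1 + y`, `y ∈ c A⟦q⟧`,
is the `p`-th power of a power series over `A` which is `≡ 1` modulo the maximal ideal. -/
theorem deepRoot_core (p : ℕ) (hp : p.Prime) (hpA : (p : K) ∈ A.nonunits) (c : A)
    (hc : (p : A) ^ p ∣ c ^ (p - 1)) (y : PowerSeries A)
    (hy : ∀ n : ℕ, c ∣ PowerSeries.coeff n y) :
    ∃ R : PowerSeries A, R ^ p = 1 + y ∧
      ∀ n : ℕ, PowerSeries.coeff n (R - 1) ∈ IsLocalRing.maximalIdeal A := by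
  classical
  have hp1 : p - 1 ≠ 0 := (Nat.sub_pos_of_lt hp.one_lt).ne'
  obtain ⟨ϖ, hϖ, hϖm⟩ := dr_exists_pi A p hp hpA
  -- `p ϖ ∣ c`
  have hdvd : (p : A) * ϖ ∣ c := by
    refine dr_dvd_of_pow_dvd_pow A hp1 ?_
    have : ((p : A) * ϖ) ^ (p - 1) = (p : A) ^ p := by
      rw [mul_pow, hϖ, ← pow_succ, Nat.sub_add_cancel hp.one_le]
    rw [this]
    exact hc
  have hy' : ∀ n : ℕ, ∃ t : A, PowerSeries.coeff n y = (p : A) * ϖ * t := fun n =>
    (hdvd.trans (hy n))
  choose t ht using hy'
  set y₁ : PowerSeries A := PowerSeries.mk t with hy₁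
  have hyy : y = PowerSeries.C ((p : A) * ϖ) * y₁ := by
    ext n
    rw [PowerSeries.coeff_C_mul, hy₁, PowerSeries.coeff_mk, ht n]
  obtain ⟨S, hS⟩ := deepRoot_abstract p hp ϖ hϖ hϖm (dr_exists_root A) y₁
  refine ⟨1 + PowerSeries.C ϖ * S, by rw [hS, hyy], fun n => ?_⟩
  rw [add_sub_cancel_left, PowerSeries.coeff_C_mul]
  exact Ideal.mul_mem_right _ _ hϖm

/-- **[D-c] DEEP ROOT** for `c = p ^ 2`. -/
theorem deepRoot_sq (p : ℕ) (hp : p.Prime) (hpA : (p : K) ∈ A.nonunits) (y : PowerSeries A)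
    (hy : ∀ n : ℕ, (p : A) ^ 2 ∣ PowerSeries.coeff n y) :
    ∃ R : PowerSeries A, R ^ p = 1 + y ∧
      ∀ n : ℕ, PowerSeries.coeff n (R - 1) ∈ IsLocalRing.maximalIdeal A := by
  refine deepRoot_core A p hp hpA ((p : A) ^ 2) ?_ y hy
  rw [← pow_mul]
  refine pow_dvd_pow _ ?_
  have := hp.two_le
  have h1 : p - 1 ≥ 1 := Nat.sub_pos_of_lt hp.one_lt
  calc p = 1 * p := (one_mul p).symm
    _ ≤ 2 * (p - 1) := by omega

end Val

end Fermat.Agent.T7.helper35
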