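import Mathlib
import Fermat.Prelude.Def_ModularCurve_LaurentCoeff
import Fermat.Agent.T7.helper35_DeepRoot

/-!
# T7 / S33, leaf [D-c] (helper35): the deep `p`-th root, Laurent-series form

The statement of `helper35_DeepRoot` in the vocabulary of P2 / T2: `LaurentSeries A`, the
coefficientwise reduction `coeffMap (IsLocalRing.residue A)` (`= P2.helper29.red A`) and the
coefficientwise inclusion `coeffMap A.subtype` (`= P2.helper29.incl A`).

* `deepRoot_laurent`      : `Y : LaurentSeries A` without negative terms, `Y - 1 ∈ c A((q))`,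
  `p ^ p ∣ c ^ (p - 1)`  ⟹  `Y = Z ^ p`, `red Z = 1`, `Z` without negative terms;
* `deepRoot_laurent_sq`   : the same with `c = p ^ 2`;
* `deepRoot_laurent_incl` : the same with the conclusion `incl Z ^ p = incl Y`.
-/

set_option autoImplicit false
set_option linter.unusedSectionVars false
set_option linter.unusedVariables false
set_option linter.style.longLine false

open HahnSeries ModularCurve

namespace Fermat.Agent.T7.helper35

section General

variable {R : Type*} [CommRing R]

/-- the coefficients of `ofPowerSeries` at negative exponents vanish -/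
theorem drl_ofPowerSeries_coeff_neg (f : PowerSeries R) {k : ℤ} (hk : k < 0) :
    (HahnSeries.ofPowerSeries ℤ R f).coeff k = 0 := by
  rw [HahnSeries.ofPowerSeries_apply]
  apply HahnSeries.embDomain_of_notMem_range
  rintro ⟨n, hn⟩
  have : (0 : ℤ) ≤ k := by
    rw [← hn]
    exact Int.natCast_nonneg n
  omega

/-- a Laurent series without negative terms is a power series -/
theorem drl_exists_ofPowerSeries (U : LaurentSeries R) (h : ∀ k : ℤ, k < 0 → U.coeff k = 0) :
    ∃ U₀ : PowerSeries R, HahnSeries.ofPowerSeries ℤ R U₀ = U ∧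
      ∀ n : ℕ, PowerSeries.coeff n U₀ = U.coeff n := by
  refine ⟨PowerSeries.mk fun n => U.coeff n, ?_, fun n => PowerSeries.coeff_mk _ _⟩
  ext k
  rcases le_or_gt 0 k with hk | hk
  · lift k to ℕ using hk
    rw [HahnSeries.ofPowerSeries_apply_coeff, PowerSeries.coeff_mk]
  · rw [drl_ofPowerSeries_coeff_neg _ hk, h k hk]

end General

section Val

variable {K : Type*} [Field K] [CharZero K] [IsAlgClosed K] (A : ValuationSubring K)

/-- **[D-c] DEEP ROOT**, Laurent-series form. -/
theorem deepRoot_laurent (p : ℕ) (hp : p.Prime) (hpA : (p : K) ∈ A.nonunits) (c : A)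
    (hc : (p : A) ^ p ∣ c ^ (p - 1)) (Y : LaurentSeries A)
    (hneg : ∀ k : ℤ, k < 0 → Y.coeff k = 0) (hY : ∀ k : ℤ, c ∣ (Y - 1).coeff k) :
    ∃ Z : LaurentSeries A, Z ^ p = Y ∧ coeffMap (IsLocalRing.residue A) Z = 1 ∧
      ∀ k : ℤ, k < 0 → Z.coeff k = 0 := by
  obtain ⟨U₀, hU₀, hU₀c⟩ := drl_exists_ofPowerSeries Y hneg
  have hy : ∀ n : ℕ, c ∣ PowerSeries.coeff n (U₀ - 1) := by
    intro n
    have h1 := hY n
    rw [← hU₀, ← map_one (HahnSeries.ofPowerSeries ℤ A), ← map_sub,
      HahnSeries.ofPowerSeries_apply_coeff] at h1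
    exact h1
  obtain ⟨R, hR, hRm⟩ := deepRoot_core A p hp hpA c hc (U₀ - 1) hy
  refine ⟨HahnSeries.ofPowerSeries ℤ A R, ?_, ?_, fun k hk => drl_ofPowerSeries_coeff_neg R hk⟩
  · rw [← map_pow, hR, add_sub_cancel, hU₀]
  · ext k
    rw [coeffMap_coeff]
    rcases le_or_gt 0 k with hk | hk
    · lift k to ℕ using hk
      rw [HahnSeries.ofPowerSeries_apply_coeff]
      have h1 := hRm k
      rw [map_sub, ← Ideal.Quotient.eq_zero_iff_mem] at h1
      have h2 : IsLocalRing.residue A (PowerSeries.coeff k R) =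
          IsLocalRing.residue A (PowerSeries.coeff k (1 : PowerSeries A)) := by
        have h3 : IsLocalRing.residue A (PowerSeries.coeff k R - PowerSeries.coeff k 1) = 0 := h1
        rw [map_sub] at h3
        exact sub_eq_zero.1 h3
      rw [h2, HahnSeries.coeff_one, PowerSeries.coeff_one]
      by_cases hk0 : k = 0
      · subst hk0
        simp
      · rw [if_neg hk0, if_neg (by exact_mod_cast hk0), map_zero]
    · rw [drl_ofPowerSeries_coeff_neg R hk, map_zero, HahnSeries.coeff_one, if_neg (by omega)]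

/-- **[D-c] DEEP ROOT**, Laurent-series form with `c = p ^ 2`. -/
theorem deepRoot_laurent_sq (p : ℕ) (hp : p.Prime) (hpA : (p : K) ∈ A.nonunits)
    (Y : LaurentSeries A) (hneg : ∀ k : ℤ, k < 0 → Y.coeff k = 0)
    (hY : ∀ k : ℤ, (p : A) ^ 2 ∣ (Y - 1).coeff k) :
    ∃ Z : LaurentSeries A, Z ^ p = Y ∧ coeffMap (IsLocalRing.residue A) Z = 1 ∧
      ∀ k : ℤ, k < 0 → Z.coeff k = 0 := by
  refine deepRoot_laurent A p hp hpA ((p : A) ^ 2) ?_ Y hneg hY
  rw [← pow_mul]
  refine pow_dvd_pow _ ?_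
  have := hp.two_le
  omega

/-- **[D-c] DEEP ROOT**, with the root of the coefficientwise inclusion. -/
theorem deepRoot_laurent_incl (p : ℕ) (hp : p.Prime) (hpA : (p : K) ∈ A.nonunits) (c : A)
    (hc : (p : A) ^ p ∣ c ^ (p - 1)) (Y : LaurentSeries A)
    (hneg : ∀ k : ℤ, k < 0 → Y.coeff k = 0) (hY : ∀ k : ℤ, c ∣ (Y - 1).coeff k) :
    ∃ Z : LaurentSeries A, coeffMap A.subtype Z ^ p = coeffMap A.subtype Y ∧
      coeffMap (IsLocalRing.residue A) Z = 1 ∧ ∀ k : ℤ, k < 0 → Z.coeff k = 0 := by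
  obtain ⟨Z, hZ, hZr, hZn⟩ := deepRoot_laurent A p hp hpA c hc Y hneg hY
  exact ⟨Z, by rw [← map_pow, hZ], hZr, hZn⟩

end Val

end Fermat.Agent.T7.helper35
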