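/-
T7 (S33, leaf [P-ABS] instance), helper40: the pivot step for the PAIR of cusps at the residue
characteristic (twin of `T2.helper74.pivot2`, where the exponent had to be prime to the residue
characteristic).

* `pivot2_deep`     : generic in the level `M` and the involution `W`.  Integral formal `p`-th
  roots `(Z₁, Z₂)` of the pair of expansions of `H` (regular off the two cusps), with reduction
  `(1, 1)`, which are `ϖ`-close to the integral pair of expansions `(G₁, G₂)` of a function `g`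
  regular off the two cusps (`Z_i - G_i = ϖ • Y_i`, `ϖ ^ (p - 1) = p * t`, `t` in the maximal
  ideal), are the pair of expansions of a function.
* `pivot2_deep_one` : the case `g = 1`.
* `PairPivotDeepStatement`, `pairPivotDeep_of`, `pairPivotDeep_bad` : the statement in the shape
  of `helper51.PairPivotStatement`, and its instance at the bad level `N * q`, `A | q`,
  `W = atkinLehner N q`, for EVERY prime `p` (in particular `p = q`).
-/
import Mathlib
import Fermat.Agent.T2.helper74_Pivot2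
import Fermat.Agent.T2.helper74_RootEndBad
import Fermat.Agent.T7.helper40_PivotDeepFam

set_option autoImplicit false
set_option synthInstance.maxHeartbeats 400000
set_option linter.unusedSectionVars false
set_option linter.unusedVariables false
set_option linter.style.haveILetI false

noncomputable section

open HahnSeries IntermediateField AlgebraicCurve ModularCurve
open Fermat.Agent.S18.helper19 Fermat.Agent.P2.helper29
open Fermat.Agent.P2.helper22
open Fermat.Agent.T2.helper74 Fermat.Agent.T2.helper36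

namespace Fermat.Agent.T7.helper40

section Pivot

variable {M : ℕ} [NeZero M] (W : FF M ≃ₐ[Kb] FF M) (A : ValuationSubring Kb)

/-- **[PIVOT2] at the residue characteristic.** -/
theorem pivot2_deep (hWW : ∀ f, W (W f) = f) (hne : inftyBar M ≠ W • inftyBar M)
    (ℓ : ℕ) (hℓ : ℓ.Prime) (hA : A.LiesOverPrime ℓ) (p : ℕ) (hp : p.Prime)
    (ϖ t : A) (ht : IsLocalRing.residue A t = 0) (hϖ : ϖ ^ (p - 1) = (p : A) * t)
    (hPN : PairNormStatement W A)
    (hInt : Fermat.Agent.T2.helper22.Integrality2Statement M A W)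
    (hSat : Fermat.Agent.T2.helper22.Sat2Statement M A W)
    (H : FF M) (hH : RegOff2 W H) (Z₁ Z₂ : LaurentSeries A)
    (h1 : incl A Z₁ ^ p = (H : LaurentSeries Kb))
    (h2 : incl A Z₂ ^ p = ((W H : FF M) : LaurentSeries Kb))
    (hr1 : red A Z₁ = 1) (hr2 : red A Z₂ = 1)
    (g : FF M) (hg : RegOff2 W g) (G₁ G₂ Y₁ Y₂ : LaurentSeries A)
    (hG₁ : incl A G₁ = (g : LaurentSeries Kb))
    (hG₂ : incl A G₂ = ((W g : FF M) : LaurentSeries Kb))
    (hY₁ : Z₁ - G₁ = ϖ • Y₁) (hY₂ : Z₂ - G₂ = ϖ • Y₂) :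
    ∃ v : FF M, (v : LaurentSeries Kb) = incl A Z₁ ∧
      ((W v : FF M) : LaurentSeries Kb) = incl A Z₂ := by
  obtain ⟨N₀, hN₀⟩ := hSat
  set N : ℤ := max (max (max N₀ 0) (max (-(Z₁.order)) (-(Z₂.order))))
    (max (-(G₁.order)) (-(G₂.order))) with hN
  have hN1 : N₀ ≤ N :=
    le_trans (le_trans (le_max_left _ _) (le_max_left _ _)) (le_max_left _ _)
  have hN2 : 0 ≤ N :=
    le_trans (le_trans (le_max_right _ _) (le_max_left _ _)) (le_max_left _ _)
  have hN3 : -N ≤ Z₁.order := by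
    have := le_trans (le_trans (le_max_left (-(Z₁.order)) (-(Z₂.order)))
      (le_max_right (max N₀ 0) _)) (le_max_left _ (max (-(G₁.order)) (-(G₂.order))))
    rw [← hN] at this
    omega
  have hN4 : -N ≤ Z₂.order := by
    have := le_trans (le_trans (le_max_right (-(Z₁.order)) (-(Z₂.order)))
      (le_max_right (max N₀ 0) _)) (le_max_left _ (max (-(G₁.order)) (-(G₂.order))))
    rw [← hN] at this
    omega
  have hN5 : -N ≤ G₁.order := by
    have := le_trans (le_max_left (-(G₁.order)) (-(G₂.order)))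
      (le_max_right (max (max N₀ 0) (max (-(Z₁.order)) (-(Z₂.order)))) _)
    rw [← hN] at this
    omega
  have hN6 : -N ≤ G₂.order := by
    have := le_trans (le_max_right (-(G₁.order)) (-(G₂.order)))
      (le_max_right (max (max N₀ 0) (max (-(Z₁.order)) (-(Z₂.order)))) _)
    rw [← hN] at this
    omega
  have hπ : ∀ x : A, IsLocalRing.residue A x ≠ 0 → IsUnit x :=
    fun x hx => Fermat.Agent.P2.helper96.isUnit_of_residue_ne_zero x hx
  have hpL : ((p : ℕ) : Kb) ≠ 0 := Nat.cast_ne_zero.mpr hp.ne_zero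
  have hkey := mem_of_pow_mem_fam_deep_arch A (IsLocalRing.residue A) hπ
    IsLocalRing.residue_surjective (Fermat.Agent.P2.helper74.arch_algebraicClosure A ℓ hℓ hA)
    (VN W N) (VN W (p * N)) (fun _ => N) (fun _ => hN2) p hp hpL ϖ t ht hϖ
    (fun u hu hu0 => by
      obtain ⟨f, hf1, -, -, rfl⟩ := (mem_VN_iff W hWW hne N u).mp hu
      have hf0 : f ≠ 0 := by
        rintro rfl
        exact hu0 (map_zero _)
      exact contentAttained_pair hWW hPN hInt f hf0 hf1)
    (fun u hu hu0 => by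
      obtain ⟨f, hf1, -, -, rfl⟩ := (mem_VN_iff W hWW hne (p * N) u).mp hu
      have hf0 : f ≠ 0 := by
        rintro rfl
        exact hu0 (map_zero _)
      exact contentAttained_pair hWW hPN hInt f hf0 hf1)
    (fun u hu i j hj => by
      obtain ⟨f, -, hf2, hf3, rfl⟩ := (mem_VN_iff W hWW hne N u).mp hu
      fin_cases i
      · exact hf2 j hj
      · exact hf3 j hj)
    (fun u hu => by
      obtain ⟨f, hf, rfl⟩ := Submodule.mem_map.mp hu
      rw [← pairLin_pow]
      exact Submodule.mem_map_of_mem (pow_mem_L2 W hWW hne N hf p))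
    (fun Z hZ hZred => by
      obtain ⟨F, hF1, -, -, hF4⟩ := (mem_VN_iff W hWW hne (p * N) _).mp hZ
      rw [pairLin_eq_iff] at hF4
      obtain ⟨f', Z₁', Z₂', hf'1, hf'2, hf'3, hf'4, hf'5, hf'6⟩ := hN₀ N hN1 F (Z 0) (Z 1)
        (isReg2_of_regOff2 hF1) ⟨hF4.1.symm, hF4.2.symm⟩ (hZred 0) (hZred 1)
      refine ⟨![Z₁', Z₂'], ?_, ?_⟩
      · rw [mem_VN_iff W hWW hne]
        refine ⟨f', regOff2_of_isReg2 hf'1, ?_, ?_, ?_⟩
        · intro k hk
          rw [← hf'2.1]
          show (coeffMap A.subtype Z₁').coeff k = 0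
          rw [coeffMap_coeff, hf'3 k hk, map_zero]
        · intro k hk
          rw [← hf'2.2]
          show (coeffMap A.subtype Z₂').coeff k = 0
          rw [coeffMap_coeff, hf'4 k hk, map_zero]
        · rw [pairLin_eq_iff]
          exact ⟨hf'2.1.symm, hf'2.2.symm⟩
      · funext i
        fin_cases i
        · exact hf'5
        · exact hf'6)
    ![Z₁, Z₂]
    (by
      have e : (famMap A.subtype ![Z₁, Z₂]) ^ p = pairLin W H := by
        symm
        rw [pairLin_eq_iff]
        exact ⟨h1.symm, h2.symm⟩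
      rw [e, mem_VN_iff W hWW hne]
      refine ⟨H, hH, ?_, ?_, rfl⟩
      · intro k hk
        rw [← h1]
        exact coeff_pow_eq_zero (fun k hk => coeff_incl_eq_zero A hN3 k hk) p k hk
      · intro k hk
        rw [← h2]
        exact coeff_pow_eq_zero (fun k hk => coeff_incl_eq_zero A hN4 k hk) p k hk)
    (by
      funext i
      fin_cases i
      · exact hr1
      · exact hr2)
    (fun i j hj => by
      fin_cases i
      · exact HahnSeries.coeff_eq_zero_of_lt_order (lt_of_lt_of_le hj hN3)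
      · exact HahnSeries.coeff_eq_zero_of_lt_order (lt_of_lt_of_le hj hN4))
    ![G₁, G₂] ![Y₁, Y₂]
    (by
      rw [mem_VN_iff W hWW hne]
      refine ⟨g, hg, ?_, ?_, ?_⟩
      · intro k hk
        rw [← hG₁]
        exact coeff_incl_eq_zero A hN5 k hk
      · intro k hk
        rw [← hG₂]
        exact coeff_incl_eq_zero A hN6 k hk
      · rw [pairLin_eq_iff]
        exact ⟨hG₁.symm, hG₂.symm⟩)
    (by
      funext i
      fin_cases i
      · exact hY₁
      · exact hY₂)
  obtain ⟨v, -, -, -, hv⟩ := (mem_VN_iff W hWW hne N _).mp hkey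
  rw [pairLin_eq_iff] at hv
  exact ⟨v, hv.1, hv.2⟩

/-- **[PIVOT2] at the residue characteristic**, roots `ϖ`-close to `1`. -/
theorem pivot2_deep_one (hWW : ∀ f, W (W f) = f) (hne : inftyBar M ≠ W • inftyBar M)
    (ℓ : ℕ) (hℓ : ℓ.Prime) (hA : A.LiesOverPrime ℓ) (p : ℕ) (hp : p.Prime)
    (ϖ t : A) (ht : IsLocalRing.residue A t = 0) (hϖ : ϖ ^ (p - 1) = (p : A) * t)
    (hPN : PairNormStatement W A)
    (hInt : Fermat.Agent.T2.helper22.Integrality2Statement M A W)
    (hSat : Fermat.Agent.T2.helper22.Sat2Statement M A W)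
    (H : FF M) (hH : RegOff2 W H) (Z₁ Z₂ : LaurentSeries A)
    (h1 : incl A Z₁ ^ p = (H : LaurentSeries Kb))
    (h2 : incl A Z₂ ^ p = ((W H : FF M) : LaurentSeries Kb))
    (Y₁ Y₂ : LaurentSeries A) (hY₁ : Z₁ - 1 = ϖ • Y₁) (hY₂ : Z₂ - 1 = ϖ • Y₂) :
    ∃ v : FF M, (v : LaurentSeries Kb) = incl A Z₁ ∧
      ((W v : FF M) : LaurentSeries Kb) = incl A Z₂ := by
  have hp1 : p - 1 ≠ 0 := by
    have := hp.two_le
    omega
  have hπϖ : IsLocalRing.residue A ϖ = 0 := by
    have h : IsLocalRing.residue A ϖ ^ (p - 1) = 0 := by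
      rw [← map_pow, hϖ, map_mul, ht, mul_zero]
    exact (pow_eq_zero_iff hp1).mp h
  have hred : ∀ (Z Y : LaurentSeries A), Z - 1 = ϖ • Y → red A Z = 1 := by
    intro Z Y hZ
    have h := congrArg (red A) hZ
    have h' : red A (ϖ • Y) = 0 := by
      show coeffMap (IsLocalRing.residue A) (ϖ • Y) = 0
      rw [Fermat.Agent.P2.helper74.coeffMap_smul', hπϖ, zero_smul]
    rw [h', map_sub, map_one, sub_eq_zero] at h
    exact h
  have hone : incl A (1 : LaurentSeries A) = ((1 : FF M) : LaurentSeries Kb) :=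
    map_one (incl A)
  have hone' : incl A (1 : LaurentSeries A) = ((W (1 : FF M) : FF M) : LaurentSeries Kb) := by
    have hW1 : W (1 : FF M) = 1 := map_one W
    rw [hW1]
    exact map_one (incl A)
  exact pivot2_deep W A hWW hne ℓ hℓ hA p hp ϖ t ht hϖ hPN hInt hSat H hH Z₁ Z₂ h1 h2
    (hred Z₁ Y₁ hY₁) (hred Z₂ Y₂ hY₂) 1 (RegOff2.one W) 1 1 Y₁ Y₂ hone hone' hY₁ hY₂

/-- **[PIVOT2-DEEP]** in the shape of `helper51.PairPivotStatement`: if the two expansions of
`H` (regular off the two cusps) are `p`-th powers of `A`-integral series which are `ϖ`-close to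
`1`, `ϖ ^ (p - 1) ∈ p 𝔪`, then `H` is a `p`-th power in the function field. -/
def PairPivotDeepStatement (M : ℕ) (W : FF M ≃ₐ[Kb] FF M) (A : ValuationSubring Kb) (p : ℕ) :
    Prop :=
  ∀ (ϖ t : A), IsLocalRing.residue A t = 0 → ϖ ^ (p - 1) = (p : A) * t →
    ∀ (H : FF M) (Z₁ Z₂ Y₁ Y₂ : LaurentSeries A), RegOff2 W H →
      incl A Z₁ ^ p = (H : LaurentSeries Kb) →
      incl A Z₂ ^ p = ((W H : FF M) : LaurentSeries Kb) →
      Z₁ - 1 = ϖ • Y₁ → Z₂ - 1 = ϖ • Y₂ →
      ∃ v : FF M, v ^ p = H ∧ (v : LaurentSeries Kb) = incl A Z₁ ∧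
        ((W v : FF M) : LaurentSeries Kb) = incl A Z₂

theorem pairPivotDeep_of (hWW : ∀ f, W (W f) = f) (hne : inftyBar M ≠ W • inftyBar M)
    (ℓ : ℕ) (hℓ : ℓ.Prime) (hA : A.LiesOverPrime ℓ) (p : ℕ) (hp : p.Prime)
    (hPN : PairNormStatement W A)
    (hInt : Fermat.Agent.T2.helper22.Integrality2Statement M A W)
    (hSat : Fermat.Agent.T2.helper22.Sat2Statement M A W) :
    PairPivotDeepStatement M W A p := by
  intro ϖ t ht hϖ H Z₁ Z₂ Y₁ Y₂ hH hZ₁ hZ₂ hY₁ hY₂
  obtain ⟨v, hv1, hv2⟩ := pivot2_deep_one W A hWW hne ℓ hℓ hA p hp ϖ t ht hϖ hPN hInt hSat H hH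
    Z₁ Z₂ hZ₁ hZ₂ Y₁ Y₂ hY₁ hY₂
  refine ⟨v, ?_, hv1, hv2⟩
  apply Subtype.ext
  show ((v : LaurentSeries Kb)) ^ p = (H : LaurentSeries Kb)
  rw [hv1, hZ₁]

end Pivot

section Bad

variable (N q : ℕ) [NeZero N] [NeZero q] (hq : q.Prime) (hqN : ¬ q ∣ N)
variable (A : ValuationSubring Kb) (hA : A.LiesOverPrime q)

include hA in
/-- **[PIVOT2-DEEP]** at the bad level `N * q`, `A | q`, for every prime `p` (in particular
`p = q`), unconditional for good levels `N`. -/
theorem pairPivotDeep_bad (hN : 4 ∣ N ∨ 9 ∣ N) (p : ℕ) (hp : p.Prime) :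
    PairPivotDeepStatement (N * q) (atkinLehner N q hq hqN) A p :=
  pairPivotDeep_of (atkinLehner N q hq hqN) A (atkinLehner_atkinLehner N q hq hqN)
    (inftyBar_ne_smul N q hq hqN) q hq hA p hp (pairNorm_bad N q hq hqN A hA)
    (integrality2_bad N q hq hqN A) (sat2_bad N q hq hqN A hA hN)

end Bad

end Fermat.Agent.T7.helper40

end
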