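import Mathlib
import Fermat.Agent.T7.helper43_DegMaps
import Fermat.Agent.T7.helper51_NUQAsm
import Fermat.Agent.T7.helper78_OldInst

/-!
# T7 (S33), leaf [G-ASM] (helper41, second prover): `[G]` from `[G-OLD]` + `[G-NEW]`

Level `M = N' * p` with `p ∤ N'`, `p` odd, `P` a place of `ℚ̄` over `p`, `I = I_P` its inertia
group.

* `inertSpan M p k P` : the subgroup of `J₀(M)` generated by the `s • x - x`, `s ∈ I`,
  `p ^ k • x = 0`  (the shape of `helper78.nuq_span_old`);
* `NuqAt M P Z`       : `Z ≤ J₀(M)` has no nonzero `I`-trivial subquotient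
  (`∀ A ≤ B ≤ Z, (∀ s ∈ I, ∀ b ∈ B, s • b - b ∈ A) → B ≤ A`);
* `newSpan N' p k P`  : the elements of the inertia span killed by `α_*` and `β_*`;
* `nuqAt_inertSpan_of_new` : **[G-ASM]** `NuqAt (newSpan ..) → NuqAt (inertSpan (N' * p) ..)`
  ([G-OLD] = `helper78.nuq_span_old` is plugged in, the extension step is `helper51.NUQ.of_map`
  along `α_*` and `β_*` = `helper43.alphaPush / betaPush`);
* `nuqAt_inertSpan_of_le`  : the same with `[G-NEW]` stated for any subgroup `Z₁` containing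
  `newSpan` (e.g. `T0_k ∩ NEW`, by [T0-SPAN]);
* `nuqAt_of_scalar`        : `NuqAt Z₁` from the operator form of (G1): `Z₁` is killed by
  `p ^ k` and the inertia acts on its `p`-torsion through integers `c s`, one of them with
  `p ∤ c s₀ - 1`;
* `nuqAt_inertSpan_of_scalar` : [G] from (G1) in operator form + [T0-SPAN] in one step.
-/

set_option autoImplicit false
set_option linter.unusedSectionVars false
set_option linter.unusedVariables false
set_option linter.style.longLine false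

noncomputable section

open ModularCurve

namespace Fermat.Agent.T7.helper41

open Fermat.Agent.T7.helper51 Fermat.Agent.T7.helper43

/-- the absolute Galois group of `ℚ` -/
abbrev GQ : Type := AlgebraicClosure ℚ ≃ₐ[ℚ] AlgebraicClosure ℚ

/-- the subgroup of `J₀(M)` generated by the `s • x - x`, `s` in the inertia group of `P`,
`x` killed by `p ^ k` -/
def inertSpan (M p k : ℕ) (P : ValuationSubring (AlgebraicClosure ℚ)) :
    AddSubgroup (JZero M) :=
  AddSubgroup.closure {y | ∃ s ∈ P.inertiaSubgroupIn ℚ, ∃ x : JZero M,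
    p ^ k • x = 0 ∧ y = s • x - x}

/-- `Z` has no nonzero subquotient with trivial action of the inertia group of `P` -/
def NuqAt (M : ℕ) (P : ValuationSubring (AlgebraicClosure ℚ)) (Z : AddSubgroup (JZero M)) :
    Prop :=
  ∀ A B : AddSubgroup (JZero M), A ≤ B → B ≤ Z →
    (∀ s ∈ P.inertiaSubgroupIn ℚ, ∀ b ∈ B, s • b - b ∈ A) → B ≤ A

/-- the action of the elements of the inertia group by additive maps -/
def inertAct (M : ℕ) (P : ValuationSubring (AlgebraicClosure ℚ)) :
    (P.inertiaSubgroupIn ℚ) → JZero M →+ JZero M :=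
  fun s => DistribSMul.toAddMonoidHom (JZero M) (s : GQ)

@[simp] theorem inertAct_apply (M : ℕ) (P : ValuationSubring (AlgebraicClosure ℚ))
    (s : P.inertiaSubgroupIn ℚ) (x : JZero M) : inertAct M P s x = (s : GQ) • x := rfl

/-- dictionary with `helper51.NUQ` -/
theorem nuqAt_iff (M : ℕ) (P : ValuationSubring (AlgebraicClosure ℚ))
    (Z : AddSubgroup (JZero M)) : NuqAt M P Z ↔ NUQ (inertAct M P) Z := by
  rw [nuq_iff_forall_le]
  constructor
  · intro h A B hAB hBZ hfix
    exact h A B hAB hBZ (fun s hs b hb => hfix ⟨s, hs⟩ b hb)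
  · intro h A B hAB hBZ hfix
    exact h A B hAB hBZ (fun s b hb => hfix s s.2 b hb)

theorem NuqAt.mono {M : ℕ} {P : ValuationSubring (AlgebraicClosure ℚ)}
    {Z Z' : AddSubgroup (JZero M)} (h : Z' ≤ Z) (hZ : NuqAt M P Z) : NuqAt M P Z' :=
  fun A B hAB hBZ hfix => hZ A B hAB (hBZ.trans h) hfix

/-- **[G-OLD]** in the present vocabulary (`helper78.nuq_span_old`). -/
theorem nuqAt_inertSpan_old (M' : ℕ) [NeZero M'] (p : ℕ) [Fact p.Prime] (hp2 : p ≠ 2)
    (hpM : ¬ p ∣ M') (k : ℕ) (P : ValuationSubring (AlgebraicClosure ℚ))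
    (hP : P.LiesOverPrime p) : NuqAt M' P (inertSpan M' p k P) :=
  fun A B hAB hB hI =>
    Fermat.Agent.T7.helper78.nuq_span_old M' p hp2 hpM k P hP A B hAB hB hI

section Maps

variable (N' p : ℕ) [NeZero N'] [NeZero p] (k : ℕ) (P : ValuationSubring (AlgebraicClosure ℚ))

/-- an equivariant additive map sends the inertia span into the inertia span -/
theorem map_mem_inertSpan {M M' : ℕ} (f : JZero M →+ JZero M')
    (hf : ∀ (σ : GQ) (x : JZero M), f (σ • x) = σ • f x) {x : JZero M}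
    (hx : x ∈ inertSpan M p k P) : f x ∈ inertSpan M' p k P := by
  have h : inertSpan M p k P ≤ (inertSpan M' p k P).comap f := by
    unfold inertSpan
    rw [AddSubgroup.closure_le]
    rintro y ⟨s, hs, z, hz, rfl⟩
    rw [SetLike.mem_coe, AddSubgroup.mem_comap, map_sub, hf]
    refine AddSubgroup.subset_closure ⟨s, hs, f z, ?_, rfl⟩
    rw [← map_nsmul, hz, map_zero]
  exact h hx

/-- the elements of the inertia span at the level `N' * p` killed by `α_*` and `β_*` -/
def newSpan : AddSubgroup (JZero (N' * p)) :=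
  inertSpan (N' * p) p k P ⊓ (alphaPush N' p).ker ⊓ (betaPush N' p).ker

theorem mem_newSpan {x : JZero (N' * p)} :
    x ∈ newSpan N' p k P ↔
      x ∈ inertSpan (N' * p) p k P ∧ alphaPush N' p x = 0 ∧ betaPush N' p x = 0 := by
  unfold newSpan
  rw [AddSubgroup.mem_inf, AddSubgroup.mem_inf, AddMonoidHom.mem_ker, AddMonoidHom.mem_ker,
    and_assoc]

variable {N' p k P}

/-- **[G-ASM]**: [G] at the level `N' * p` from [G-NEW] stated on any subgroup `Z₁` containing
the new part of the inertia span. -/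
theorem nuqAt_inertSpan_of_le [Fact p.Prime] (hp2 : p ≠ 2) (hpN : ¬ p ∣ N')
    (hP : P.LiesOverPrime p) {Z₁ : AddSubgroup (JZero (N' * p))}
    (hle : newSpan N' p k P ≤ Z₁) (hnew : NuqAt (N' * p) P Z₁) :
    NuqAt (N' * p) P (inertSpan (N' * p) p k P) := by
  rw [nuqAt_iff] at hnew ⊢
  have hold : NUQ (inertAct N' P) (inertSpan N' p k P) :=
    (nuqAt_iff N' P _).1 (nuqAt_inertSpan_old N' p hp2 hpN k P hP)
  have hα : ∀ (i : P.inertiaSubgroupIn ℚ) (x : JZero (N' * p)),
      alphaPush N' p (inertAct (N' * p) P i x) = inertAct N' P i (alphaPush N' p x) :=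
    fun i x => alphaPush_galois_smul N' p (i : GQ) x
  have hβ : ∀ (i : P.inertiaSubgroupIn ℚ) (x : JZero (N' * p)),
      betaPush N' p (inertAct (N' * p) P i x) = inertAct N' P i (betaPush N' p x) :=
    fun i x => betaPush_galois_smul N' p (i : GQ) x
  have h1 : NUQ (inertAct (N' * p) P) (inertSpan (N' * p) p k P ⊓ (alphaPush N' p).ker) := by
    refine NUQ.of_map (betaPush N' p) hβ hold hnew ?_ ?_
    · intro x hx
      exact map_mem_inertSpan p k P (betaPush N' p) (betaPush_galois_smul N' p) hx.1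
    · intro x hx h0
      refine hle ((mem_newSpan N' p k P).2 ⟨hx.1, AddMonoidHom.mem_ker.1 hx.2, h0⟩)
  refine NUQ.of_map (alphaPush N' p) hα hold h1 ?_ ?_
  · intro x hx
    exact map_mem_inertSpan p k P (alphaPush N' p) (alphaPush_galois_smul N' p) hx
  · intro x hx h0
    exact ⟨hx, AddMonoidHom.mem_ker.2 h0⟩

/-- **[G-ASM]**: [G] at the level `N' * p` from [G-NEW] on the new part of the inertia span. -/
theorem nuqAt_inertSpan_of_new [Fact p.Prime] (hp2 : p ≠ 2) (hpN : ¬ p ∣ N')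
    (hP : P.LiesOverPrime p) (hnew : NuqAt (N' * p) P (newSpan N' p k P)) :
    NuqAt (N' * p) P (inertSpan (N' * p) p k P) :=
  nuqAt_inertSpan_of_le hp2 hpN hP le_rfl hnew

end Maps

section Scalar

variable {M : ℕ} {P : ValuationSubring (AlgebraicClosure ℚ)}

/-- **(G1) in operator form ⇒ NUQ**: if `Z₁` is killed by `p ^ k`, the inertia acts on the
`p`-torsion of `Z₁` through integers `c s`, and `p ∤ c s₀ - 1` for one `s₀`, then `Z₁` has no
nonzero inertia-trivial subquotient. -/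
theorem nuqAt_of_scalar {p : ℕ} (hp : p.Prime) {Z₁ : AddSubgroup (JZero M)} (k : ℕ)
    (hk : ∀ x ∈ Z₁, p ^ k • x = 0) (c : GQ → ℤ)
    (hc : ∀ s ∈ P.inertiaSubgroupIn ℚ, ∀ x ∈ Z₁, p • x = 0 → s • x = c s • x)
    (s₀ : GQ) (hs₀ : s₀ ∈ P.inertiaSubgroupIn ℚ) (hc₀ : ¬ (p : ℤ) ∣ c s₀ - 1) :
    NuqAt M P Z₁ := by
  rw [nuqAt_iff]
  exact NUQ.of_scalar_tor hp k hk (fun s : P.inertiaSubgroupIn ℚ => c (s : GQ))
    (fun s x hx hpx => hc s s.2 x hx hpx) ⟨s₀, hs₀⟩ hc₀

end Scalar

section Final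

variable {N' p : ℕ} [NeZero N'] [NeZero p] {k : ℕ} {P : ValuationSubring (AlgebraicClosure ℚ)}

/-- the inertia span is killed by `p ^ k` -/
theorem nsmul_eq_zero_of_mem_inertSpan {M : ℕ} {x : JZero M} (hx : x ∈ inertSpan M p k P) :
    p ^ k • x = 0 := by
  have h : inertSpan M p k P ≤ (nsmulAddMonoidHom (p ^ k) : JZero M →+ JZero M).ker := by
    unfold inertSpan
    rw [AddSubgroup.closure_le]
    rintro y ⟨s, hs, z, hz, rfl⟩
    have e : p ^ k • (s • z) = s • (p ^ k • z) :=
      (map_nsmul (DistribSMul.toAddMonoidHom (JZero M) s) (p ^ k) z).symm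
    have e0 : s • (0 : JZero M) = 0 := map_zero (DistribSMul.toAddMonoidHom (JZero M) s)
    rw [SetLike.mem_coe, AddMonoidHom.mem_ker, nsmulAddMonoidHom_apply, nsmul_sub,
      e, hz, e0, sub_zero]
  exact AddMonoidHom.mem_ker.1 (h hx)

/-- **[G] from (G1)** (operator form): if the inertia acts on the `p`-torsion of the new part
of the inertia span at the level `N' * p` through integers `c s` and `p ∤ c s₀ - 1` for one
`s₀` in the inertia group, then the inertia span of `J₀(N' * p)[p ^ k]` has no nonzero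
inertia-trivial subquotient. -/
theorem nuqAt_inertSpan_of_scalar [Fact p.Prime] (hp2 : p ≠ 2) (hpN : ¬ p ∣ N')
    (hP : P.LiesOverPrime p) (c : GQ → ℤ)
    (hc : ∀ s ∈ P.inertiaSubgroupIn ℚ, ∀ x ∈ inertSpan (N' * p) p k P,
      alphaPush N' p x = 0 → betaPush N' p x = 0 → p • x = 0 → s • x = c s • x)
    (s₀ : GQ) (hs₀ : s₀ ∈ P.inertiaSubgroupIn ℚ) (hc₀ : ¬ (p : ℤ) ∣ c s₀ - 1) :
    NuqAt (N' * p) P (inertSpan (N' * p) p k P) := by
  refine nuqAt_inertSpan_of_new hp2 hpN hP ?_
  refine nuqAt_of_scalar (Fact.out : p.Prime) k ?_ c ?_ s₀ hs₀ hc₀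
  · intro x hx
    exact nsmul_eq_zero_of_mem_inertSpan ((mem_newSpan N' p k P).1 hx).1
  · intro s hs x hx hpx
    obtain ⟨h1, h2, h3⟩ := (mem_newSpan N' p k P).1 hx
    exact hc s hs x h1 h2 h3 hpx

end Final

end Fermat.Agent.T7.helper41

end
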