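import Fermat.Agent.T2.helper72_Wire34
import Fermat.Agent.T3.helper84_K0Ring
import Fermat.Prelude.Def_CuspForm_HeckeGaloisRepDatum
import Fermat.Prelude.Def_GaloisRep_LocalConditions

/-!
# T7 / S33, leaf [HNT] (helper54): determinant and inertia of a Hecke-Galois datum at `p`

`H : CuspForm.HeckeGaloisRepDatum N S 𝒪 θ T`, `p` a prime in the maximal ideal of `𝒪`.

* `natCast_mem_maximalIdeal_T` : `p` lies in the maximal ideal of `T`;
* `det_eq_cycloChar` : `det (H.ρ s)` is the `p`-adic cyclotomic character of `s`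
  (Chebotarev + continuity, `T2.helper72.det_eq_cyclo`);
* `detIsCyclotomic` : `H.ρ.DetIsCyclotomic p` (the Prelude shape);
* `det_sub_natCast_mem` : if `s` raises the `p`-th roots of unity to the power `a` then
  `det (H.ρ s) - a ∈ 𝔪_T`;
* `exists_unit_det` : for `p` odd and every place `P` over `p` there is `σ₀` in the inertia
  group of `P` with `det (H.ρ σ₀) - 1` a unit (input of `S33.helper54.isOrdinaryAt_of_identity`);
* `exists_hnt` : for `p` odd the inertia group of `P` does not act trivially on `V / 𝔪 V`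
  (the hypothesis `hnt` of `T7.helper25.exists_ordinary_line`).
-/

set_option autoImplicit false
set_option linter.unusedSectionVars false
set_option linter.style.haveILetI false
set_option linter.unusedVariables false

open Polynomial

noncomputable section

namespace Fermat.Agent.T7.helper54

open Fermat.Agent.P3

variable {p : ℕ} {N : ℕ} [NeZero N] {S : Finset ℕ}
  {𝒪 : Type} [CommRing 𝒪] [IsDomain 𝒪] [IsDiscreteValuationRing 𝒪]
  [IsAdicComplete (IsLocalRing.maximalIdeal 𝒪) 𝒪]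
  {θ : CuspForm.heckeAlgebra N 2 (↑S : Set ℕ) →+* IsLocalRing.ResidueField 𝒪}
  {T : Type} [CommRing T] [IsLocalRing T] [IsNoetherianRing T]
  [IsAdicComplete (IsLocalRing.maximalIdeal T) T] [Algebra 𝒪 T] [IsLocalHom (algebraMap 𝒪 T)]
  [Module.Finite 𝒪 T] [Module.Free 𝒪 T]

/-- `p` lies in the maximal ideal of `T`. -/
theorem natCast_mem_maximalIdeal_T (hp𝒪 : (p : 𝒪) ∈ IsLocalRing.maximalIdeal 𝒪) :
    (p : T) ∈ IsLocalRing.maximalIdeal T := by
  have h1 : algebraMap 𝒪 T (p : 𝒪) ∈ IsLocalRing.maximalIdeal T := by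
    rw [IsLocalRing.mem_maximalIdeal, mem_nonunits_iff]
    intro hu
    have := isUnit_of_map_unit (algebraMap 𝒪 T) (p : 𝒪) hu
    exact (IsLocalRing.mem_maximalIdeal _).mp hp𝒪 this
  rwa [map_natCast] at h1

/-- **The determinant of a Hecke-Galois datum is the cyclotomic character.** -/
theorem det_eq_cycloChar [Fact p.Prime]
    (hp𝒪 : (p : 𝒪) ∈ IsLocalRing.maximalIdeal 𝒪)
    (H : CuspForm.HeckeGaloisRepDatum N (↑S : Set ℕ) 𝒪 θ T) (s : GQ) :
    LinearMap.det (H.ρ.ρ s) =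
      ((Fermat.Agent.P3.helper24.cycloChar p T (natCast_mem_maximalIdeal_T hp𝒪) s : Tˣ) : T) := by
  have hpp : p.Prime := Fact.out
  have hpT : (p : T) ∈ IsLocalRing.maximalIdeal T := natCast_mem_maximalIdeal_T hp𝒪
  have hNp : N * p ≠ 0 := Nat.mul_ne_zero (NeZero.ne N) hpp.ne_zero
  refine Fermat.Agent.T2.helper72.det_eq_cyclo Fermat.Agent.P3.helper40.chebStatement (p := p)
    (Fermat.Agent.P3.helper24.cycloChar p T hpT)
    (Fermat.Agent.P3.helper24.isAdicContinuousChar_cycloChar p T hpT)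
    (S ∪ (N * p).primeFactors) ?_ H.ρ ?_ s
  · intro ℓ hℓ hℓBad A hA φ hφ
    have hℓp : ℓ ≠ p := by
      rintro rfl
      exact hℓBad (Finset.mem_union_right _
        (Nat.mem_primeFactors.mpr ⟨hℓ, Dvd.intro_left N rfl, hNp⟩))
    -- the value of the cyclotomic character at a Frobenius element
    have hndvd : ∀ n : ℕ, ¬ ℓ ∣ p ^ n := fun n h =>
      hℓp ((Nat.prime_dvd_prime_iff_eq hℓ hpp).mp (hℓ.dvd_of_dvd_pow h))
    refine Fermat.Agent.P3.helper24.cycloChar_eq_natCast p T hpT φ ℓ fun n ζ hζ => ?_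
    exact Fermat.Agent.P3.helper24.apply_eq_pow_of_isFrobeniusAt A hℓ hA (hndvd n) hφ hζ
  · intro ℓ hℓ hℓBad A hA φ hφ
    have hℓS : ℓ ∉ (↑S : Set ℕ) := fun h =>
      hℓBad (Finset.mem_union_left _ (Finset.mem_coe.mp h))
    have hℓN : ¬ ℓ ∣ N := fun h =>
      hℓBad (Finset.mem_union_right _
        (Nat.mem_primeFactors.mpr ⟨hℓ, Dvd.dvd.mul_right h p, hNp⟩))
    exact Fermat.Agent.T2.helper72.det_of_charpoly_eq H.ρ.finrank_eq _ _ _
      (H.charpoly_frob ℓ hℓ hℓN hℓS A hA φ hφ)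

/-- **`DetIsCyclotomic`** for every Hecke-Galois datum. -/
theorem detIsCyclotomic (hp : p.Prime)
    (hp𝒪 : (p : 𝒪) ∈ IsLocalRing.maximalIdeal 𝒪)
    (H : CuspForm.HeckeGaloisRepDatum N (↑S : Set ℕ) 𝒪 θ T) :
    H.ρ.DetIsCyclotomic p := by
  haveI : Fact p.Prime := ⟨hp⟩
  have hpT : (p : T) ∈ IsLocalRing.maximalIdeal T := natCast_mem_maximalIdeal_T hp𝒪
  refine ⟨hpT, fun n σ a h => ?_⟩
  rw [det_eq_cycloChar hp𝒪 H σ]
  have h1 := Fermat.Agent.P3.helper24.isCycloChar_cycloChar p T hpT n σ a h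
  rwa [Nat.cast_pow]

/-- If `s` raises all `p`-th roots of unity to the power `a`, then `det (H.ρ s) ≡ a` modulo the
maximal ideal of `T`. -/
theorem det_sub_natCast_mem (hp : p.Prime)
    (hp𝒪 : (p : 𝒪) ∈ IsLocalRing.maximalIdeal 𝒪)
    (H : CuspForm.HeckeGaloisRepDatum N (↑S : Set ℕ) 𝒪 θ T) (s : GQ) (a : ℕ)
    (h : ∀ μ : Qbar, μ ^ p = 1 → s μ = μ ^ a) :
    LinearMap.det (H.ρ.ρ s) - (a : T) ∈ IsLocalRing.maximalIdeal T := by
  have hpT : (p : T) ∈ IsLocalRing.maximalIdeal T := natCast_mem_maximalIdeal_T hp𝒪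
  have h1 := (detIsCyclotomic hp hp𝒪 H).2 1 s a (fun μ hμ => h μ (by rwa [pow_one] at hμ))
  rw [pow_one] at h1
  exact (Ideal.span_singleton_le_iff_mem _).mpr hpT h1

/-- **[UNIT]** for `p` odd there is an element `σ₀` of the inertia group at `P` with
`det (H.ρ σ₀) - 1` a unit (namely `σ₀ ζ = ζ ^ 2` on the `p`-th roots of unity). -/
theorem exists_unit_det (hp : p.Prime) (hp2 : p ≠ 2)
    (hp𝒪 : (p : 𝒪) ∈ IsLocalRing.maximalIdeal 𝒪)
    (H : CuspForm.HeckeGaloisRepDatum N (↑S : Set ℕ) 𝒪 θ T)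
    (P : ValuationSubring (AlgebraicClosure ℚ)) (hP : P.LiesOverPrime p) :
    ∃ σ₀ ∈ P.inertiaSubgroupIn ℚ, IsUnit (LinearMap.det (H.ρ.ρ σ₀) - 1) := by
  haveI : Fact p.Prime := ⟨hp⟩
  obtain ⟨ζ, hζ⟩ : ∃ ζ : Qbar, IsPrimitiveRoot ζ p := by
    have := Fermat.Agent.P3.helper24.exists_primitiveRoot_pow p 1
    simpa using this
  have h2 : ¬ p ∣ 2 := by
    intro h
    exact hp2 ((Nat.prime_dvd_prime_iff_eq hp Nat.prime_two).mp h)
  obtain ⟨σ₀, hσ₀, hσ₀ζ⟩ := Fermat.Agent.T3.helper84.k0_zeta_trans hp P hP hζ h2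
  refine ⟨σ₀, hσ₀, ?_⟩
  have hall : ∀ μ : Qbar, μ ^ p = 1 → σ₀ μ = μ ^ 2 := by
    intro μ hμ
    obtain ⟨i, -, rfl⟩ := hζ.eq_pow_of_pow_eq_one hμ
    rw [map_pow, hσ₀ζ, ← pow_mul, ← pow_mul, mul_comm]
  have h3 := det_sub_natCast_mem hp hp𝒪 H σ₀ 2 hall
  -- `det - 1 = 1 + (det - 2)` is a unit
  by_contra hnu
  have h4 : LinearMap.det (H.ρ.ρ σ₀) - 1 ∈ IsLocalRing.maximalIdeal T :=
    (IsLocalRing.mem_maximalIdeal _).mpr hnu
  have h5 : (1 : T) ∈ IsLocalRing.maximalIdeal T := by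
    have := Ideal.sub_mem _ h4 h3
    have e : LinearMap.det (H.ρ.ρ σ₀) - 1 - (LinearMap.det (H.ρ.ρ σ₀) - ((2 : ℕ) : T)) = 1 := by
      push_cast
      ring
    rwa [e] at this
  exact (IsLocalRing.maximalIdeal.isMaximal T).ne_top
    ((Ideal.eq_top_iff_one _).mpr h5)

/-- **[HNT]** for `p` odd the inertia group at `P` does not act trivially on `V / 𝔪 V`. -/
theorem exists_hnt (hp : p.Prime) (hp2 : p ≠ 2)
    (hp𝒪 : (p : 𝒪) ∈ IsLocalRing.maximalIdeal 𝒪)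
    (H : CuspForm.HeckeGaloisRepDatum N (↑S : Set ℕ) 𝒪 θ T)
    (P : ValuationSubring (AlgebraicClosure ℚ)) (hP : P.LiesOverPrime p) :
    ∃ σ ∈ P.inertiaSubgroupIn ℚ, ∃ v : H.ρ.V,
      H.ρ.ρ σ v - v ∉ (IsLocalRing.maximalIdeal T) • (⊤ : Submodule T H.ρ.V) := by
  obtain ⟨σ₀, hσ₀, hu⟩ := exists_unit_det hp hp2 hp𝒪 H P hP
  refine ⟨σ₀, hσ₀, ?_⟩
  by_contra hall
  have hall' : ∀ v : H.ρ.V,
      H.ρ.ρ σ₀ v - v ∈ (IsLocalRing.maximalIdeal T) • (⊤ : Submodule T H.ρ.V) := by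
    intro v
    by_contra hv
    exact hall ⟨v, hv⟩
  have h1 := Fermat.Agent.T2.helper72.det_sub_one_mem (IsLocalRing.maximalIdeal T)
    (H.ρ.ρ σ₀) hall'
  exact (IsLocalRing.mem_maximalIdeal _).mp h1 hu

end Fermat.Agent.T7.helper54
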