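/-
T7 (S33) adapter [CMP-EXPORT] (helper67): **the comparison of S32 in exported form**.

For a Hecke-Galois datum `H` of level `N` (ANY odd `p`, also `p ∣ N`), an auxiliary level `M`
(`N ∣ M`) carrying a geometric Tate datum, and every ideal `I` of finite index of `T`:
`V / I V` is a Galois-equivariant quotient of a Galois-stable subgroup `Y` of a finite power of
`J₀(M)[p^n]`.

* `exists_torsion_subquotient` : the statement at an auxiliary level `M`;
* `exists_torsion_subquotient_four` : unconditional, at the level `M = 4 N`.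

No flatness / S19 is used; the proof is the one of `T6.helper67.isFlatAt_aux` (landed, frozen),
stopped before the closure step.
-/
import Mathlib
import Fermat.Agent.T6.helper67_CmpWire
import Fermat.Agent.T2.helper34_Asm34

set_option autoImplicit false
set_option linter.unusedSectionVars false
set_option linter.style.haveILetI false
set_option linter.unusedVariables false

noncomputable section

namespace Fermat.Agent.T7.helper67

open Fermat.Agent.P3 Fermat.Agent.P3.helper1 Fermat.Agent.P3.helper64 Fermat.Agent.P3.helper98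
  ModularCurve Fermat.Agent.T6.helper67

/-- transport of a subquotient presentation along an injective equivariant homomorphism -/
theorem transport_subquotient {G A B Z : Type} [AddCommGroup A] [AddCommGroup B]
    [AddCommGroup Z] (i : A →+ B) (hi : Function.Injective i) (actA : G → A → A)
    (actB : G → B → B) (hact : ∀ s a, i (actA s a) = actB s (i a)) (Y : AddSubgroup A)
    (hstab : ∀ s, ∀ a ∈ Y, actA s a ∈ Y) (φ : Y →+ Z) (hφ : Function.Surjective φ)
    (actZ : G → Z → Z)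
    (hequiv : ∀ (s : G) (y : Y) (hy : actA s (y : A) ∈ Y), φ ⟨_, hy⟩ = actZ s (φ y)) :
    ∃ (Y' : AddSubgroup B) (φ' : Y' →+ Z), (∀ s, ∀ b ∈ Y', actB s b ∈ Y') ∧
      Function.Surjective φ' ∧
      ∀ (s : G) (z : Y') (hz : actB s (z : B) ∈ Y'), φ' ⟨_, hz⟩ = actZ s (φ' z) := by
  let e : Y ≃+ Y.map i := Y.equivMapOfInjective i hi
  have he : ∀ y : Y, ((e y : Y.map i) : B) = i (y : A) := fun y =>
    AddSubgroup.coe_equivMapOfInjective_apply Y i hi y
  refine ⟨Y.map i, φ.comp e.symm.toAddMonoidHom, ?_, ?_, ?_⟩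
  · rintro s b ⟨y, hy, rfl⟩
    exact ⟨actA s y, hstab s y hy, hact s y⟩
  · intro v
    obtain ⟨y, rfl⟩ := hφ v
    refine ⟨e y, ?_⟩
    have h : e.symm (e y) = y := AddEquiv.symm_apply_apply e y
    exact congrArg φ h
  · intro s z hz
    obtain ⟨y, rfl⟩ := e.surjective z
    have hy : actA s (y : A) ∈ Y := hstab s y y.2
    have h1 : (⟨_, hz⟩ : Y.map i) = e ⟨_, hy⟩ :=
      Subtype.ext (((congrArg (actB s) (he y)).trans (hact s (y : A)).symm).trans
        (he ⟨_, hy⟩).symm)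
    have h2 : e.symm (e ⟨_, hy⟩) = ⟨_, hy⟩ := AddEquiv.symm_apply_apply e _
    have h3 : e.symm (e y) = y := AddEquiv.symm_apply_apply e y
    calc (φ.comp e.symm.toAddMonoidHom) ⟨_, hz⟩ = φ (e.symm (e ⟨_, hy⟩)) :=
          congrArg (fun w => φ (e.symm w)) h1
      _ = φ ⟨_, hy⟩ := congrArg φ h2
      _ = actZ s (φ y) := hequiv s y hy
      _ = actZ s ((φ.comp e.symm.toAddMonoidHom) (e y)) := by
          exact congrArg (fun w => actZ s (φ w)) h3.symm

/-- `Z` (with the action `actZ` of `G_ℚ`) is a Galois-equivariant quotient of a Galois-stable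
subgroup of a finite power of `J₀(M)[p^n]`, for some `n`. -/
def TorsSubquot (M : ℕ) [NeZero M] (p : ℕ) {Z : Type} [AddCommGroup Z] (actZ : GQ → Z → Z) :
    Prop :=
  ∃ (n m : ℕ) (Y : AddSubgroup (Fin m → ↥(Submodule.torsionBy ℤ (JZero M) ((p : ℤ) ^ n))))
    (φ : Y →+ Z),
    (∀ (s : GQ) (z : Fin m → ↥(Submodule.torsionBy ℤ (JZero M) ((p : ℤ) ^ n))), z ∈ Y →
      (fun j => Fermat.Agent.T6.helper33.torsAct ((p : ℤ) ^ n) s (z j)) ∈ Y) ∧
    Function.Surjective φ ∧
    ∀ (s : GQ) (z : Y)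
      (hz : (fun j => Fermat.Agent.T6.helper33.torsAct ((p : ℤ) ^ n) s
        ((z : Fin m → ↥(Submodule.torsionBy ℤ (JZero M) ((p : ℤ) ^ n))) j)) ∈ Y),
      φ ⟨_, hz⟩ = actZ s (φ z)

set_option maxHeartbeats 1600000 in
/-- **[CMP-EXPORT] at one auxiliary level**: `V / I V` is a Galois-equivariant quotient of a
Galois-stable subgroup of a finite power of `J₀(M)[p^n]`. -/
theorem exists_torsion_subquotient (hPU : PseudoUnivStatement) (hCheb : ChebStatement)
    (hCyc : CycloStatement) (hZp : ZpAlgebraStatement)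
    (p : ℕ) [Fact p.Prime] (hp2 : p ≠ 2) (N : ℕ) [NeZero N] (S : Finset ℕ) (M : ℕ) [NeZero M]
    (hNM : N ∣ M)
    (hTate : Nonempty (Fermat.Agent.P3.helper67.TateGeom p N S M hNM))
    (hfin : ∀ k : ℕ, Finite ↥(Submodule.torsionBy ℤ (JZero M) ((p : ℤ) ^ k)))
    (𝒪 : Type) [CommRing 𝒪] [IsDomain 𝒪] [IsDiscreteValuationRing 𝒪]
    [IsAdicComplete (IsLocalRing.maximalIdeal 𝒪) 𝒪]
    (hp𝒪 : (p : 𝒪) ∈ IsLocalRing.maximalIdeal 𝒪)
    (θ : CuspForm.heckeAlgebra N 2 (↑S : Set ℕ) →+* IsLocalRing.ResidueField 𝒪)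
    (T : Type) [CommRing T] [IsLocalRing T] [IsNoetherianRing T]
    [IsAdicComplete (IsLocalRing.maximalIdeal T) T] [Algebra 𝒪 T]
    [IsLocalHom (algebraMap 𝒪 T)] [Module.Finite 𝒪 T] [Module.Free 𝒪 T]
    (H : CuspForm.HeckeGaloisRepDatum N (↑S : Set ℕ) 𝒪 θ T)
    (I : Ideal T) (hI : Finite (T ⧸ I)) :
    TorsSubquot M p (fun s => H.ρ.levelAction I s) := by

  have hp : p.Prime := Fact.out
  obtain ⟨DG⟩ := hTate
  let D : TateDatum p N S M hNM := DG.toTateDatum
  -- `p` lies in the maximal ideal of `T`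
  have hpT : (p : T) ∈ IsLocalRing.maximalIdeal T := by
    rw [IsLocalRing.mem_maximalIdeal, mem_nonunits_iff]
    intro hu
    have h1 : IsUnit (algebraMap 𝒪 T (p : 𝒪)) := by rw [map_natCast]; exact hu
    have h2 : IsUnit (p : 𝒪) := IsUnit.of_map (algebraMap 𝒪 T) _ h1
    exact (IsLocalRing.mem_maximalIdeal _).mp hp𝒪 h2
  -- the cyclotomic character
  have hpZ : (p : ℤ_[p]) ∈ IsLocalRing.maximalIdeal ℤ_[p] := by
    rw [PadicInt.maximalIdeal_eq_span_p]
    exact Ideal.mem_span_singleton_self _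
  obtain ⟨d, hd, hdc, hdloc, c, hc, hdcc⟩ := hCyc p ℤ_[p] hpZ
  -- the universal trace
  obtain ⟨t, ht⟩ := hPU p N S M hNM D d hd hdc
  -- `T` is a `ℤ_p`-algebra
  obtain ⟨ι⟩ := hZp p T hpT
  letI : Algebra ℤ_[p] T := ι.toAlgebra
  -- the map `𝔸 → T`
  let f : MvPolynomial (GoodPrime p M S) ℤ_[p] →ₐ[ℤ_[p]] D.𝔸 := MvPolynomial.aeval D.τ
  let g : MvPolynomial (GoodPrime p M S) ℤ_[p] →ₐ[ℤ_[p]] T :=
    MvPolynomial.aeval (fun ℓ => H.π (goodT hNM ℓ))
  have hsurj : Function.Surjective f := by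
    rw [← AlgHom.range_eq_top]
    change (MvPolynomial.aeval D.τ).range = ⊤
    rw [← Algebra.adjoin_range_eq_range_aeval]
    exact D.adjoin_τ
  have hker : ∀ P ∈ RingHom.ker (f : MvPolynomial (GoodPrime p M S) ℤ_[p] →+* D.𝔸), g P = 0 := by
    intro P hP
    exact D.faithful T H.π P hP
  let Θ : D.𝔸 →ₐ[ℤ_[p]] T :=
    (Ideal.Quotient.liftₐ (RingHom.ker (f : MvPolynomial (GoodPrime p M S) ℤ_[p] →+* D.𝔸)) g
      hker).comp (Ideal.quotientKerAlgEquivOfSurjective hsurj).symm.toAlgHom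
  have hΘ : ∀ ℓ : GoodPrime p M S, Θ (D.τ ℓ) = H.π (goodT hNM ℓ) := by
    intro ℓ
    have h1 : (Ideal.quotientKerAlgEquivOfSurjective hsurj).symm (D.τ ℓ) =
        Ideal.Quotient.mk _ (MvPolynomial.X ℓ) := by
      rw [AlgEquiv.symm_apply_eq]
      change D.τ ℓ = f (MvPolynomial.X ℓ)
      exact (MvPolynomial.aeval_X D.τ ℓ).symm
    change Ideal.Quotient.liftₐ _ g hker ((Ideal.quotientKerAlgEquivOfSurjective hsurj).symm
      (D.τ ℓ)) = _
    rw [h1]
    change g (MvPolynomial.X ℓ) = _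
    exact MvPolynomial.aeval_X _ ℓ
  -- the trace formula
  have htr : ∀ s : GQ, LinearMap.trace T H.ρ.V (H.ρ.ρ s) = Θ (t s) := by
    refine trace_eq_of_tateDatum D d t ht hCheb hd hdc hpT Θ H.ρ ?_
    intro ℓ A' hA' φ hφ
    rw [hΘ]
    exact H.charpoly_frob ℓ.1 ℓ.2.1 (fun h => ℓ.2.2.1 (Dvd.dvd.mul_right (h.trans hNM) p))
      (fun h => ℓ.2.2.2 (Finset.mem_coe.mp h)) A' hA' φ hφ
  -- `2` is invertible
  obtain ⟨j2, hj2⟩ := exists_two_mul_eq_one hp hp2 hpZ
  have h2A : (2 : D.𝔸) * algebraMap ℤ_[p] D.𝔸 j2 = 1 := by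
    rw [← map_ofNat (algebraMap ℤ_[p] D.𝔸) 2, ← map_mul, hj2, map_one]
  have h2T : IsUnit (2 : T) := by
    refine IsUnit.of_mul_eq_one (Θ (algebraMap ℤ_[p] D.𝔸 j2)) ?_
    rw [← map_ofNat Θ 2, ← map_mul, h2A, map_one]
  -- the determinant formula
  have hdet : ∀ s : GQ, LinearMap.det (H.ρ.ρ s) = Θ (dA DG d s) := by
    intro s
    have h1 := two_mul_det_eq H.ρ.finrank_eq (H.ρ.ρ s)
    rw [← map_mul, htr, htr, t_mul_self DG d t ht s, ← map_pow, ← map_sub] at h1
    have h2 : t s ^ 2 - (t s ^ 2 - 2 * dA DG d s) = 2 * dA DG d s := by ring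
    rw [h2, map_mul, map_ofNat] at h1
    exact h2T.mul_left_cancel h1
  have hspan : Submodule.span T (Set.range H.ρ.ρ) = ⊤ :=
    Fermat.Agent.P3.helper12.span_range_eq_top_of_residual_absIrr H.ρ H.residual_absIrr
  haveI := hI
  -- the level
  obtain ⟨n, hn⟩ := exists_pow_mem_of_finite_quotient I (p : T) hpT
  obtain ⟨c₀, hc₀⟩ := exists_artinRees_LT DG
  haveI := hfin (n + c₀)
  haveI : Finite (LT DG (n + c₀)) := Finite.of_injective _ (jLT_injective DG (n + c₀))
  have hAR : ∀ a : D.𝔸, (∀ w : LT DG (n + c₀), a • w = 0) → Θ a ∈ I := by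
    intro a ha
    have h1 := hc₀ n a ha
    refine Submodule.smul_induction_on h1 ?_ ?_
    · intro r hr b _
      rw [map_smul, Algebra.smul_def]
      refine Ideal.mul_mem_right _ _ ?_
      rw [PadicInt.maximalIdeal_eq_span_p, Ideal.span_singleton_pow,
        Ideal.mem_span_singleton'] at hr
      obtain ⟨r', rfl⟩ := hr
      rw [map_mul, map_pow, map_natCast]
      exact Ideal.mul_mem_left _ _ hn
    · intro x y hx hy
      rw [map_add]
      exact Ideal.add_mem _ hx hy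
  obtain ⟨κ, hκ, Y, φ, hstab, hφsurj, hequiv⟩ :=
    cmp_mid (quadLT DG d t ht (n + c₀) c hc hdcc) (algebraMap ℤ_[p] D.𝔸 j2) h2A
      (Θ : D.𝔸 →+* T) H.ρ.finrank_eq H.ρ.ρ htr hdet hspan I hAR
  haveI := hκ
  obtain ⟨m, ⟨eκ⟩⟩ := Finite.exists_equiv_fin κ
  -- the closure
  let actY : GQ → Y → Y := fun s z =>
    ⟨fun k => rLT DG (n + c₀) s ((z : κ → LT DG (n + c₀)) k), hstab s z.1 z.2⟩
  let i : Y →+ (Fin m → ↥(Submodule.torsionBy ℤ (JZero M) ((p : ℤ) ^ (n + c₀)))) :=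
    { toFun := fun z j => jLT DG (n + c₀) ((z : κ → LT DG (n + c₀)) (eκ.symm j))
      map_zero' := by
        funext j
        exact map_zero _
      map_add' := fun z w => by
        funext j
        exact map_add _ _ _ }
  have hi : Function.Injective i := by
    intro z w hzw
    refine Subtype.ext (funext fun k => ?_)
    have h1 := congrFun hzw (eκ k)
    have h2 : jLT DG (n + c₀) ((z : κ → LT DG (n + c₀)) (eκ.symm (eκ k)))
        = jLT DG (n + c₀) ((w : κ → LT DG (n + c₀)) (eκ.symm (eκ k))) := h1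
    rw [Equiv.symm_apply_apply] at h2
    exact jLT_injective DG (n + c₀) h2
  have hiact : ∀ (s : GQ) (y : Y) (j : Fin m), i (actY s y) j
      = Fermat.Agent.T6.helper33.torsAct ((p : ℤ) ^ (n + c₀)) s (i y j) := by
    intro s y j
    exact Subtype.ext (coe_jLT_rLT DG (n + c₀) s _)
  have hpact : ∀ (s : GQ) (y : Y), φ (actY s y) = H.ρ.levelAction I s (φ y) := by
    intro s y
    obtain ⟨v, hv⟩ := Submodule.Quotient.mk_surjective _ (φ y)
    have h := hequiv s y (hstab s y.1 y.2) v hv.symm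
    refine h.trans ?_
    rw [← hv]
    rfl
  -- the export
  let i' : (κ → LT DG (n + c₀)) →+
      (Fin m → ↥(Submodule.torsionBy ℤ (JZero M) ((p : ℤ) ^ (n + c₀)))) :=
    { toFun := fun z j => jLT DG (n + c₀) (z (eκ.symm j))
      map_zero' := by
        funext j
        exact map_zero _
      map_add' := fun z w => by
        funext j
        exact map_add _ _ _ }
  have hi' : Function.Injective i' := by
    intro z w hzw
    refine funext fun k => ?_
    have h1 := congrFun hzw (eκ k)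
    have h2 : jLT DG (n + c₀) (z (eκ.symm (eκ k))) = jLT DG (n + c₀) (w (eκ.symm (eκ k))) := h1
    rw [Equiv.symm_apply_apply] at h2
    exact jLT_injective DG (n + c₀) h2
  have hact' : ∀ (s : GQ) (z : κ → LT DG (n + c₀)),
      i' (fun k => rLT DG (n + c₀) s (z k))
        = fun j => Fermat.Agent.T6.helper33.torsAct ((p : ℤ) ^ (n + c₀)) s (i' z j) := by
    intro s z
    funext j
    exact Subtype.ext (coe_jLT_rLT DG (n + c₀) s _)
  obtain ⟨Y', φ', h1, h2, h3⟩ := transport_subquotient i' hi'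
    (fun (s : GQ) (z : κ → LT DG (n + c₀)) => fun k => rLT DG (n + c₀) s (z k))
    (fun (s : GQ) (z : Fin m → ↥(Submodule.torsionBy ℤ (JZero M) ((p : ℤ) ^ (n + c₀)))) =>
      fun j => Fermat.Agent.T6.helper33.torsAct ((p : ℤ) ^ (n + c₀)) s (z j))
    hact' Y (fun s z hz => hstab s z hz) φ hφsurj (fun s => H.ρ.levelAction I s)
    (fun s y hy => hpact s y)
  exact ⟨n + c₀, m, Y', φ', h1, h2, h3⟩

/-- **[CMP-EXPORT]**, unconditional, at the auxiliary level `4 N`. -/
theorem exists_torsion_subquotient_four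
    {p : ℕ} {N : ℕ} [NeZero N] {S : Finset ℕ}
    {𝒪 : Type} [CommRing 𝒪] [IsDomain 𝒪] [IsDiscreteValuationRing 𝒪]
    [IsAdicComplete (IsLocalRing.maximalIdeal 𝒪) 𝒪]
    {θ : CuspForm.heckeAlgebra N 2 (↑S : Set ℕ) →+* IsLocalRing.ResidueField 𝒪}
    {T : Type} [CommRing T] [IsLocalRing T] [IsNoetherianRing T]
    [IsAdicComplete (IsLocalRing.maximalIdeal T) T] [Algebra 𝒪 T] [IsLocalHom (algebraMap 𝒪 T)]
    [Module.Finite 𝒪 T] [Module.Free 𝒪 T]
    (hp : p.Prime) (hp2 : p ≠ 2) (hp𝒪 : (p : 𝒪) ∈ IsLocalRing.maximalIdeal 𝒪)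
    (hpS : p ∈ S)
    (H : CuspForm.HeckeGaloisRepDatum N (↑S : Set ℕ) 𝒪 θ T)
    (I : Ideal T) (hI : Finite (T ⧸ I)) :
    haveI : NeZero (4 * N) := ⟨Nat.mul_ne_zero (by norm_num) (NeZero.ne N)⟩
    TorsSubquot (4 * N) p (fun s => H.ρ.levelAction I s) := by
  haveI : Fact p.Prime := ⟨hp⟩
  haveI : NeZero (4 * N) := ⟨Nat.mul_ne_zero (by norm_num) (NeZero.ne N)⟩
  have hNM : N ∣ 4 * N := Dvd.intro_left 4 rfl
  have hM : GoodLevel (4 * N) := Or.inl (Dvd.intro N rfl)
  exact exists_torsion_subquotient (Fermat.Agent.P3.helper98.pseudoUniv Fermat.Agent.P3.helper91.cheb)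
    Fermat.Agent.P3.helper91.cheb Fermat.Agent.P3.helper26.cycloStatement
    Fermat.Agent.P3.helper24.zpAlgebra p hp2 N S (4 * N) hNM
    (Fermat.Agent.T2.helper34.tateGeom_goodLevel p N S (4 * N) hNM hpS hM)
    (fun k => finite_torsionBy_pow (4 * N) p k) 𝒪 hp𝒪 θ T H I hI

end Fermat.Agent.T7.helper67

end
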