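import Fermat.Agent.T7.helper72_FrontAbs
import Fermat.Agent.T7.helper67_CmpExport
import Fermat.Agent.T7.helper54_Hnt
import Fermat.Agent.S33.helper54_OrdAlg

/-!
# T7 / S33 (helper72, assembler): the frontier chain, first layer

`S33GeomStatement` (**contract [G]**): for an odd prime `p`, a level `M` with `4 ∣ M` and
`p ∥ M`, a place `P` of `ℚ̄` over `p` and every `k`: the subgroup of `J₀(M)[p ^ k]` generated by
the `σ x - x`, `σ` in the inertia group of `P`, has no unramified subquotient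
(`helper51.NUQ`: no nonzero subquotient with trivial action of inertia).

`isOrdinaryAt_of_geom` : `S33GeomStatement` implies the frozen statement S33.

Inputs, all on main and unconditional: the comparison `helper67.exists_torsion_subquotient_four`
(`V / p ^ m V` is a subquotient of a power of `J₀(4 N)[p ^ n]`), `helper54.exists_hnt`
(inertia is not trivial on the residual representation), the abstract endgame
`helper25.exists_ordinary_line_of_noTrivSubquot` and the NUQ calculus of `helper51`.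
-/

set_option autoImplicit false
set_option linter.unusedSectionVars false
set_option linter.style.longLine false
set_option linter.unusedVariables false
set_option linter.style.haveILetI false

noncomputable section

namespace Fermat.Agent.T7.helper72

open Fermat.Agent.T7 Fermat.Agent.P3 Function
open scoped TensorProduct

/-- the action of `σ` on the `n`-torsion, as an additive map -/
def torsActHom72 {J : Type} [AddCommGroup J] [DistribMulAction GQ J] (n : ℤ) (σ : GQ) :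
    ↥(Submodule.torsionBy ℤ J n) →+ ↥(Submodule.torsionBy ℤ J n) where
  toFun := Fermat.Agent.T6.helper33.torsAct n σ
  map_zero' := Fermat.Agent.T6.helper33.torsAct_zero n σ
  map_add' := by
    intro a b
    apply Subtype.ext
    show σ • ((a : J) + (b : J)) = σ • (a : J) + σ • (b : J)
    exact smul_add σ _ _

theorem torsActHom72_apply {J : Type} [AddCommGroup J] [DistribMulAction GQ J] (n : ℤ) (σ : GQ)
    (x : ↥(Submodule.torsionBy ℤ J n)) :
    torsActHom72 n σ x = Fermat.Agent.T6.helper33.torsAct n σ x := rfl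

/-- the inertia action on `J₀(M)[p ^ k]` -/
def inertiaAct72 (M : ℕ) [NeZero M] (p k : ℕ) (P : ValuationSubring (AlgebraicClosure ℚ))
    (σ : ↥(P.inertiaSubgroupIn ℚ)) :
    ↥(Submodule.torsionBy ℤ (ModularCurve.JZero M) ((p : ℤ) ^ k)) →+
      ↥(Submodule.torsionBy ℤ (ModularCurve.JZero M) ((p : ℤ) ^ k)) :=
  torsActHom72 ((p : ℤ) ^ k) (σ : GQ)

/-- **Contract [G]** (the geometric input of S33): the inertia span of `J₀(M)[p ^ k]` at a place
over `p ∥ M` has no unramified subquotient. -/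
def S33GeomStatement : Prop :=
  ∀ (p : ℕ), p.Prime → p ≠ 2 → ∀ (M : ℕ) [NeZero M], 4 ∣ M → p ∣ M → ¬ p ^ 2 ∣ M →
    ∀ (P : ValuationSubring (AlgebraicClosure ℚ)), P.LiesOverPrime p → ∀ k : ℕ,
      helper51.NUQ (inertiaAct72 M p k P) (helper51.aug (inertiaAct72 M p k P))

variable {p : ℕ} {N : ℕ} [NeZero N] {S : Finset ℕ}
  {𝒪 : Type} [CommRing 𝒪] [IsDomain 𝒪] [IsDiscreteValuationRing 𝒪]
  [IsAdicComplete (IsLocalRing.maximalIdeal 𝒪) 𝒪]
  {θ : CuspForm.heckeAlgebra N 2 (↑S : Set ℕ) →+* IsLocalRing.ResidueField 𝒪}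
  {T : Type} [CommRing T] [IsLocalRing T] [IsNoetherianRing T]
  [IsAdicComplete (IsLocalRing.maximalIdeal T) T] [Algebra 𝒪 T] [IsLocalHom (algebraMap 𝒪 T)]
  [Module.Finite 𝒪 T] [Module.Free 𝒪 T]

/-- NUQ of the inertia span of `V / I V` from [G] and the comparison -/
theorem nuq_level_of_geom (hG : S33GeomStatement)
    (hp : p.Prime) (hp2 : p ≠ 2) (hp𝒪 : (p : 𝒪) ∈ IsLocalRing.maximalIdeal 𝒪)
    (hN : p ∣ N ∧ ¬ p ^ 2 ∣ N) (hpS : p ∈ S)
    (H : CuspForm.HeckeGaloisRepDatum N (↑S : Set ℕ) 𝒪 θ T)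
    (P : ValuationSubring (AlgebraicClosure ℚ)) (hP : P.LiesOverPrime p)
    (I : Ideal T) (hI : Finite (T ⧸ I)) :
    helper51.NUQ
      (fun σ : ↥(P.inertiaSubgroupIn ℚ) => (quotAct72 H.ρ.ρ I (σ : GQ)).toAddMonoidHom)
      (helper51.aug
        (fun σ : ↥(P.inertiaSubgroupIn ℚ) => (quotAct72 H.ρ.ρ I (σ : GQ)).toAddMonoidHom)) := by
  haveI : NeZero (4 * N) := ⟨Nat.mul_ne_zero (by norm_num) (NeZero.ne N)⟩
  obtain ⟨n, r, Y, φ, hstab, hφ, hequiv⟩ :=
    helper67.exists_torsion_subquotient_four hp hp2 hp𝒪 hpS H I hI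
  have h4 : 4 ∣ 4 * N := Dvd.intro N rfl
  have hpM : p ∣ 4 * N := Dvd.dvd.mul_left hN.1 4
  have hp2M : ¬ p ^ 2 ∣ 4 * N := by
    intro h
    apply hN.2
    have hodd : Nat.Coprime (p ^ 2) 4 := by
      have h2 : Nat.Coprime p 2 := (Nat.coprime_primes hp Nat.prime_two).mpr hp2
      have : Nat.Coprime (p ^ 2) (2 ^ 2) := Nat.Coprime.pow 2 2 h2
      simpa using this
    exact hodd.dvd_of_dvd_mul_left h
  have hJ := hG p hp hp2 (4 * N) h4 hpM hp2M P hP n
  exact nuq_aug_of_subquotient (inertiaAct72 (4 * N) p n P) hJ r Y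
    (fun σ y hy => hstab (σ : GQ) y hy) φ hφ
    (fun σ y hy => hequiv (σ : GQ) y hy)

/-- **S33 from the geometric contract [G].** -/
theorem isOrdinaryAt_of_geom (hG : S33GeomStatement)
    [Finite (IsLocalRing.ResidueField 𝒪)] [CharZero 𝒪]
    (hp : p.Prime) (hp2 : p ≠ 2) (hp𝒪 : (p : 𝒪) ∈ IsLocalRing.maximalIdeal 𝒪)
    (hN : p ∣ N ∧ ¬ p ^ 2 ∣ N)
    (hNS : ∀ q : ℕ, q.Prime → q ∣ N → q ∈ S)
    (H : CuspForm.HeckeGaloisRepDatum N (↑S : Set ℕ) 𝒪 θ T)
    (hres : (GaloisRepAdic.ofResidualGaloisRep H.ρ.residual).IsOrdinaryAt p) :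
    H.ρ.IsOrdinaryAt p := by
  intro P hP
  have hpS : p ∈ S := hNS p hp hN.1
  have hpT : (p : T) ∈ IsLocalRing.maximalIdeal T := helper54.natCast_mem_maximalIdeal_T hp𝒪
  -- the residual line
  obtain ⟨Lk, ⟨bk, hLk⟩, -, hIk⟩ := hres P hP
  change Module.Basis (Fin 2) (IsLocalRing.ResidueField T)
    (IsLocalRing.ResidueField T ⊗[T] H.ρ.V) at bk
  obtain ⟨e, he⟩ := exists_basis_of_residual72 (T := T) (V := H.ρ.V) bk
  have hcoord : ∀ σ ∈ P.inertiaSubgroupIn ℚ, ∀ v : H.ρ.V,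
      e.repr (H.ρ.ρ σ v - v) 1 ∈ IsLocalRing.maximalIdeal T := by
    intro σ hσ v
    refine repr_one_mem_of_tmul_mem72 e bk he _ ?_
    have h1 := hIk σ hσ ((1 : IsLocalRing.ResidueField T) ⊗ₜ[T] v)
    rw [hLk] at h1
    have h2 : (1 : IsLocalRing.ResidueField T) ⊗ₜ[T] (H.ρ.ρ σ v - v) =
        (H.ρ.ρ σ).baseChange (IsLocalRing.ResidueField T)
          ((1 : IsLocalRing.ResidueField T) ⊗ₜ[T] v) - (1 : IsLocalRing.ResidueField T) ⊗ₜ[T] v := by
      rw [LinearMap.baseChange_tmul, TensorProduct.tmul_sub]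
    rw [h2]
    exact h1
  obtain ⟨b, hbD, hbI⟩ := helper25.exists_ordinary_line_of_noTrivSubquot e H.ρ.ρ
    (P.decompositionSubgroup ℚ) (P.inertiaSubgroupIn ℚ)
    (fun τ hτ σ hσ => Fermat.Agent.S33.helper54.conj_mem_inertiaSubgroupIn' P hτ hσ)
    p hpT (fun m => finite_quotient_span_pow72 (𝒪 := 𝒪) p hp.ne_zero m) hcoord
    (helper54.exists_hnt hp hp2 hp𝒪 H P hP)
    (fun m => hgeo_of_nuq H.ρ.ρ (P.inertiaSubgroupIn ℚ) p (Ideal.span {(p : T) ^ m})
      (nuq_level_of_geom hG hp hp2 hp𝒪 hN hpS H P hP _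
        (finite_quotient_span_pow72 (𝒪 := 𝒪) p hp.ne_zero m)))
  exact ⟨Submodule.span T {b 0}, ⟨b, rfl⟩, hbD, hbI⟩

end Fermat.Agent.T7.helper72

end
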