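import Mathlib
import Fermat.Agent.T7.helper41_GAsm
import Fermat.Agent.T7.helper72_Frontier

/-!
# T7 (S33), leaf [G-ASM] (helper41, second prover): the contract [G] of the assembler

`helper72.S33GeomStatement` (NUQ of the inertia span of the torsion SUBTYPE `J₀(M)[p ^ k]`)
from the statements inside `J₀(M)` of `helper41_GAsm`:

* `nuq_aug_of_nuqAt`     : dictionary subtype / ambient group;
* `s33Geom_of_nuqAt`     : [G] from `NuqAt M P (inertSpan M p k P)` at all bad levels;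
* `s33Geom_of_new`       : **[G-ASM]** [G] from [G-NEW] = `NuqAt` of the new part of the
                           inertia span at the levels `N' * p` ([G-OLD] = `helper78` plugged in);
* `s33Geom_of_le`        : the same with [G-NEW] on any subgroups `Z₁ ≥ newSpan`
                           (for instance `T0_k ∩ NEW`, [T0-SPAN]);
* `s33Geom_of_scalar`    : [G] from the operator form of (G1) + one inertia element `s₀` with
                           `p ∤ c s₀ - 1`;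
* `s33_of_new`, `s33_of_scalar` : the frozen statement S33 from these contracts
                           (`helper72.isOrdinaryAt_of_geom` plugged in).
-/

set_option autoImplicit false
set_option linter.unusedSectionVars false
set_option linter.unusedVariables false
set_option linter.style.longLine false
set_option linter.style.haveILetI false

noncomputable section

open ModularCurve

namespace Fermat.Agent.T7.helper41

open Fermat.Agent.T7.helper51 Fermat.Agent.T7.helper43 Fermat.Agent.T7.helper72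

/-- dictionary: NUQ of the inertia span of the torsion subtype from `NuqAt` of the inertia span
inside `J₀(M)`. -/
theorem nuq_aug_of_nuqAt (M : ℕ) [NeZero M] (p k : ℕ)
    (P : ValuationSubring (AlgebraicClosure ℚ))
    (h : NuqAt M P (inertSpan M p k P)) :
    NUQ (inertiaAct72 M p k P) (aug (inertiaAct72 M p k P)) := by
  let ι : ↥(Submodule.torsionBy ℤ (JZero M) ((p : ℤ) ^ k)) →+ JZero M :=
    (Submodule.torsionBy ℤ (JZero M) ((p : ℤ) ^ k)).subtype.toAddMonoidHom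
  have hι : ∀ x, ι x = (x : JZero M) := fun _ => rfl
  have hf : ∀ (i : P.inertiaSubgroupIn ℚ) x,
      ι (inertiaAct72 M p k P i x) = inertAct M P i (ι x) := fun _ _ => rfl
  have hinj : Function.Injective ι := Subtype.val_injective
  have h1 : NUQ (inertiaAct72 M p k P) ((inertSpan M p k P).comap ι) :=
    NUQ.comap_of_injective ι hf hinj ((nuqAt_iff M P _).1 h)
  refine NUQ.mono ?_ h1
  unfold aug
  rw [AddSubgroup.closure_le]
  rintro y ⟨i, x, rfl⟩
  rw [SetLike.mem_coe, AddSubgroup.mem_comap, map_sub, hf, hι, inertAct_apply]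
  refine AddSubgroup.subset_closure ⟨(i : GQ), i.2, (x : JZero M), ?_, rfl⟩
  have hx : ((p : ℤ) ^ k) • (x : JZero M) = 0 := (Submodule.mem_torsionBy_iff _ _).1 x.2
  have e : ((p : ℤ) ^ k) = ((p ^ k : ℕ) : ℤ) := by push_cast; rfl
  generalize (x : JZero M) = y at hx ⊢
  rw [e, natCast_zsmul] at hx
  exact hx

/-- [G] from `NuqAt` of the inertia spans at all bad levels. -/
theorem s33Geom_of_nuqAt
    (h : ∀ (p : ℕ), p.Prime → p ≠ 2 → ∀ (M : ℕ) [NeZero M], 4 ∣ M → p ∣ M → ¬ p ^ 2 ∣ M →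
      ∀ (P : ValuationSubring (AlgebraicClosure ℚ)), P.LiesOverPrime p → ∀ k : ℕ,
        NuqAt M P (inertSpan M p k P)) : S33GeomStatement :=
  fun p hp hp2 M _ h4 hpM hp2M P hP k =>
    nuq_aug_of_nuqAt M p k P (h p hp hp2 M h4 hpM hp2M P hP k)

/-- **[G-ASM]**: [G] from [G-NEW] on subgroups `Z₁ N' p k P ≥ newSpan N' p k P`. -/
theorem s33Geom_of_le
    (Z₁ : ∀ (N' p : ℕ) [NeZero N'] [NeZero p] (k : ℕ)
      (P : ValuationSubring (AlgebraicClosure ℚ)), AddSubgroup (JZero (N' * p)))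
    (hle : ∀ (N' p : ℕ) [NeZero N'] [NeZero p] (k : ℕ)
      (P : ValuationSubring (AlgebraicClosure ℚ)), newSpan N' p k P ≤ Z₁ N' p k P)
    (hnew : ∀ (p : ℕ) [NeZero p], p.Prime → p ≠ 2 → ∀ (N' : ℕ) [NeZero N'], 4 ∣ N' * p →
      ¬ p ∣ N' → ∀ (P : ValuationSubring (AlgebraicClosure ℚ)), P.LiesOverPrime p →
        ∀ k : ℕ, NuqAt (N' * p) P (Z₁ N' p k P)) : S33GeomStatement := by
  refine s33Geom_of_nuqAt ?_
  intro p hp hp2 M instM h4 hpM hp2M P hP k
  obtain ⟨N', hN'⟩ := hpM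
  have hM : M = N' * p := by rw [hN', Nat.mul_comm]
  subst hM
  haveI : Fact p.Prime := ⟨hp⟩
  haveI : NeZero p := ⟨hp.ne_zero⟩
  haveI : NeZero N' := ⟨fun h0 => by
    have := NeZero.ne (N' * p)
    rw [h0, Nat.zero_mul] at this
    exact this rfl⟩
  have hpN : ¬ p ∣ N' := by
    intro hdvd
    apply hp2M
    rw [pow_two]
    exact Nat.mul_dvd_mul hdvd (dvd_refl p)
  exact nuqAt_inertSpan_of_le hp2 hpN hP (hle N' p k P) (hnew p hp hp2 N' h4 hpN P hP k)

/-- **[G-ASM]**: [G] from [G-NEW] on the new part of the inertia span. -/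
theorem s33Geom_of_new
    (hnew : ∀ (p : ℕ) [NeZero p], p.Prime → p ≠ 2 → ∀ (N' : ℕ) [NeZero N'], 4 ∣ N' * p →
      ¬ p ∣ N' → ∀ (P : ValuationSubring (AlgebraicClosure ℚ)), P.LiesOverPrime p →
        ∀ k : ℕ, NuqAt (N' * p) P (newSpan N' p k P)) : S33GeomStatement :=
  s33Geom_of_le (fun N' p _ _ k P => newSpan N' p k P) (fun _ _ _ _ _ _ => le_rfl) hnew

/-- the operator form of (G1) at the level `N' * p`: the inertia group of `P` acts on the
`p`-torsion of the new part of the inertia span through integers `c s`, and `p ∤ c s₀ - 1` for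
one `s₀`. -/
def G1OperatorAt (N' p : ℕ) [NeZero N'] [NeZero p] (k : ℕ)
    (P : ValuationSubring (AlgebraicClosure ℚ)) : Prop :=
  ∃ c : GQ → ℤ,
    (∀ s ∈ P.inertiaSubgroupIn ℚ, ∀ x ∈ inertSpan (N' * p) p k P,
      alphaPush N' p x = 0 → betaPush N' p x = 0 → p • x = 0 → s • x = c s • x) ∧
    ∃ s₀ ∈ P.inertiaSubgroupIn ℚ, ¬ (p : ℤ) ∣ c s₀ - 1

/-- **[G] from (G1)** in operator form. -/
theorem s33Geom_of_scalar
    (hG1 : ∀ (p : ℕ) [NeZero p], p.Prime → p ≠ 2 → ∀ (N' : ℕ) [NeZero N'], 4 ∣ N' * p →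
      ¬ p ∣ N' → ∀ (P : ValuationSubring (AlgebraicClosure ℚ)), P.LiesOverPrime p →
        ∀ k : ℕ, G1OperatorAt N' p k P) : S33GeomStatement := by
  refine s33Geom_of_new ?_
  intro p _ hp hp2 N' _ h4 hpN P hP k
  haveI : Fact p.Prime := ⟨hp⟩
  obtain ⟨c, hc, s₀, hs₀, hc₀⟩ := hG1 p hp hp2 N' h4 hpN P hP k
  refine nuqAt_of_scalar hp k ?_ c ?_ s₀ hs₀ hc₀
  · intro x hx
    exact nsmul_eq_zero_of_mem_inertSpan ((mem_newSpan N' p k P).1 hx).1
  · intro s hs x hx hpx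
    obtain ⟨h1, h2, h3⟩ := (mem_newSpan N' p k P).1 hx
    exact hc s hs x h1 h2 h3 hpx

section Frozen

variable {p : ℕ} {N : ℕ} [NeZero N] {S : Finset ℕ}
  {𝒪 : Type} [CommRing 𝒪] [IsDomain 𝒪] [IsDiscreteValuationRing 𝒪]
  [IsAdicComplete (IsLocalRing.maximalIdeal 𝒪) 𝒪]
  {θ : CuspForm.heckeAlgebra N 2 (↑S : Set ℕ) →+* IsLocalRing.ResidueField 𝒪}
  {T : Type} [CommRing T] [IsLocalRing T] [IsNoetherianRing T]
  [IsAdicComplete (IsLocalRing.maximalIdeal T) T] [Algebra 𝒪 T] [IsLocalHom (algebraMap 𝒪 T)]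
  [Module.Finite 𝒪 T] [Module.Free 𝒪 T]

/-- **S33 from [G-NEW]** (frozen shape). -/
theorem s33_of_new
    (hnew : ∀ (p : ℕ) [NeZero p], p.Prime → p ≠ 2 → ∀ (N' : ℕ) [NeZero N'], 4 ∣ N' * p →
      ¬ p ∣ N' → ∀ (P : ValuationSubring (AlgebraicClosure ℚ)), P.LiesOverPrime p →
        ∀ k : ℕ, NuqAt (N' * p) P (newSpan N' p k P))
    [Finite (IsLocalRing.ResidueField 𝒪)] [CharZero 𝒪]
    (hp : p.Prime) (hp2 : p ≠ 2) (hp𝒪 : (p : 𝒪) ∈ IsLocalRing.maximalIdeal 𝒪)
    (hN : p ∣ N ∧ ¬ p ^ 2 ∣ N)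
    (hNS : ∀ q : ℕ, q.Prime → q ∣ N → q ∈ S)
    (H : CuspForm.HeckeGaloisRepDatum N (↑S : Set ℕ) 𝒪 θ T)
    (hres : (GaloisRepAdic.ofResidualGaloisRep H.ρ.residual).IsOrdinaryAt p) :
    H.ρ.IsOrdinaryAt p :=
  isOrdinaryAt_of_geom (s33Geom_of_new hnew) hp hp2 hp𝒪 hN hNS H hres

/-- **S33 from (G1)** in operator form (frozen shape). -/
theorem s33_of_scalar
    (hG1 : ∀ (p : ℕ) [NeZero p], p.Prime → p ≠ 2 → ∀ (N' : ℕ) [NeZero N'], 4 ∣ N' * p →
      ¬ p ∣ N' → ∀ (P : ValuationSubring (AlgebraicClosure ℚ)), P.LiesOverPrime p →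
        ∀ k : ℕ, G1OperatorAt N' p k P)
    [Finite (IsLocalRing.ResidueField 𝒪)] [CharZero 𝒪]
    (hp : p.Prime) (hp2 : p ≠ 2) (hp𝒪 : (p : 𝒪) ∈ IsLocalRing.maximalIdeal 𝒪)
    (hN : p ∣ N ∧ ¬ p ^ 2 ∣ N)
    (hNS : ∀ q : ℕ, q.Prime → q ∣ N → q ∈ S)
    (H : CuspForm.HeckeGaloisRepDatum N (↑S : Set ℕ) 𝒪 θ T)
    (hres : (GaloisRepAdic.ofResidualGaloisRep H.ρ.residual).IsOrdinaryAt p) :
    H.ρ.IsOrdinaryAt p :=
  isOrdinaryAt_of_geom (s33Geom_of_scalar hG1) hp hp2 hp𝒪 hN hNS H hres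

end Frozen

end Fermat.Agent.T7.helper41

end
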