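/-
T7 (S33, at risk), leaf [B3-ITER] (helper43, second prover): **the operator
`E(y) = α(N_β y) / W y` on `F_{N p}` and the exact identity `u = κ · Θ ^ n · E(E(u))`**.

Level `N p`, `p ∤ N` prime, `α, β : F_N → F_{N p}` the degeneracy maps, `W` the Atkin–Lehner
automorphism, `N_α`, `N_β` the norms (`P3.helper94.normAlong`).

* `eHom` : `E` as a multiplicative map `F_{N p} →*₀ F_{N p}`; `eOp_algebraMap` : `E(c) = c ^ p`;
* `qExpand_eOp` : the expansion of `E y` at `∞` is `NU(y)`:
  `(E y)(q^p) = ∏_{k<p} y(ζ^k q)`;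
* `eOp_mul_atkinLehner` : `E(y) · W y = α(N_β y)`; `eOp_atkinLehner_mul` : `E(W y) · y = α(N_α y)`;
* `b3_identity` : if `N_α u = c₁ g₁ ^ n` and `N_β u = c₂ g₂ ^ n` then
  `c₁ · α(g₁) ^ n · E(E(u)) = u · (c₂ ^ p · E(α g₂) ^ n)`  (no division);
* `b3_iterate` : for every `J`,
  `κ₁ · A_J ^ n · E^{2J}(u) = u · (κ₂ · B_J ^ n)` with
  `A_J = ∏_{j<J} E^{2j}(α g₁)`, `B_J = ∏_{j<J} E^{2j+1}(α g₂)`, `κ₁, κ₂ ∈ ℚ̄ˣ`;
* `b3_identity_W`, `b3_iterate_W` : the same for `W u` (roles of `(c₁, g₁)`, `(c₂, g₂)`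
  exchanged);
* depth (with `helper49.exists_of_qExpand_eq_prod`): `eOp_depth`, `iterate_eOp_depth` :
  `y = 1 + c Z` at `∞` ⟹ `E^k(y) = 1 + c d^k D` at `∞` (`d ∣ c^(p-1)`, `d ∣ p`, `Z`, `D`
  `A`-integral);
* `b3_iter_depth` : **[B3-ITER] + [NU-DEPTH]**: `u = 1 + c Z` at `∞` and the two norm relations
  give, for every `J`, `κ₁ · A_J ^ n · (1 + c d^(2J) D) = u · (κ₂ · B_J ^ n)` at `∞`.
-/
import Mathlib
import Fermat.Agent.T7.helper43_NormPair
import Fermat.Agent.T7.helper49_NormFF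

set_option autoImplicit false
set_option linter.unusedSectionVars false
set_option linter.unusedVariables false
set_option linter.style.haveILetI false
set_option linter.style.longLine false

noncomputable section

open ModularCurve AlgebraicCurve IntermediateField Finset

namespace Fermat.Agent.T7.helper43

open Fermat.Agent.S24 Fermat.Agent.P2.helper93 Fermat.Agent.P3.helper94 Fermat.Agent.T2.helper36

/-! ### Abstract iteration -/

/-- iteration of a relation `a * E (E u) = u * b` under a multiplicative map `E` -/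
theorem iterate_relation {G : Type*} [CommMonoidWithZero G] (E : G →*₀ G) {u a b : G}
    (h : a * E (E u) = u * b) (J : ℕ) :
    (∏ j ∈ range J, E^[2 * j] a) * E^[2 * J] u = u * ∏ j ∈ range J, E^[2 * j] b := by
  have hiter : ∀ (k : ℕ) (x y : G), E^[k] (x * y) = E^[k] x * E^[k] y := by
    intro k
    induction k with
    | zero => intro x y; rfl
    | succ k ih =>
      intro x y
      rw [Function.iterate_succ_apply', Function.iterate_succ_apply',
        Function.iterate_succ_apply', ih, map_mul]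
  induction J with
  | zero => simp
  | succ J ih =>
    rw [prod_range_succ, prod_range_succ]
    have h1 : E^[2 * (J + 1)] u = E^[2 * J] (E (E u)) := by
      rw [show 2 * (J + 1) = 2 * J + 2 by ring, Function.iterate_add_apply]
      rfl
    have h2 : E^[2 * J] a * E^[2 * (J + 1)] u = E^[2 * J] u * E^[2 * J] b := by
      rw [h1, ← hiter, h, hiter]
    calc (∏ j ∈ range J, E^[2 * j] a) * E^[2 * J] a * E^[2 * (J + 1)] u
        = (∏ j ∈ range J, E^[2 * j] a) * (E^[2 * J] a * E^[2 * (J + 1)] u) := by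
          rw [mul_assoc]
      _ = ((∏ j ∈ range J, E^[2 * j] a) * E^[2 * J] u) * E^[2 * J] b := by
          rw [h2, mul_assoc]
      _ = u * ((∏ j ∈ range J, E^[2 * j] b) * E^[2 * J] b) := by
          rw [ih, mul_assoc]

theorem iterate_hom_mul {G : Type*} [CommMonoidWithZero G] (E : G →*₀ G) (k : ℕ) (x y : G) :
    E^[k] (x * y) = E^[k] x * E^[k] y := by
  induction k generalizing x y with
  | zero => rfl
  | succ k ih =>
    rw [Function.iterate_succ_apply', Function.iterate_succ_apply',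
      Function.iterate_succ_apply', ih, map_mul]

theorem iterate_hom_pow {G : Type*} [CommMonoidWithZero G] (E : G →*₀ G) (k : ℕ) (x : G)
    (n : ℕ) : E^[k] (x ^ n) = (E^[k] x) ^ n := by
  induction k generalizing x with
  | zero => rfl
  | succ k ih =>
    rw [Function.iterate_succ_apply', Function.iterate_succ_apply', ih, map_pow]

theorem iterate_hom_ne_zero {G : Type*} [CommGroupWithZero G] (E : G →*₀ G) (k : ℕ) {x : G}
    (hx : x ≠ 0) : E^[k] x ≠ 0 := by
  induction k with
  | zero => exact hx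
  | succ k ih =>
    rw [Function.iterate_succ_apply']
    exact (map_ne_zero E).mpr ih

/-! ### The operator `E` -/

variable (N p : ℕ) [NeZero N] [NeZero p]

section EOp

variable (hp : p.Prime) (hN : ¬ p ∣ N)

include hp hN

/-- `N_α` of `α y`: `y ^ (p + 1)` -/
theorem normAlpha_alpha' (y : modularFunctionFieldBar N) :
    normAlong (heckeAlphaBar Kbar N p) (heckeAlphaBar Kbar N p y) = y ^ (p + 1) := by
  letI := algebraAlong (heckeAlphaBar Kbar N p)
  have hfr : Module.finrank (FN N) (FN (N * p)) = p + 1 := finrank_alpha N p hp hN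
  show Algebra.norm (FN N) (algebraMap (FN N) (FN (N * p)) y) = y ^ (p + 1)
  rw [Algebra.norm_algebraMap, hfr]

/-- `N_α` of a constant -/
theorem normAlpha_const' (c : Kbar) :
    normAlong (heckeAlphaBar Kbar N p) (algebraMap Kbar (modularFunctionFieldBar (N * p)) c)
      = algebraMap Kbar (modularFunctionFieldBar N) (c ^ (p + 1)) := by
  have h1 : algebraMap Kbar (modularFunctionFieldBar (N * p)) c
      = heckeAlphaBar Kbar N p (algebraMap Kbar (modularFunctionFieldBar N) c) :=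
    ((heckeAlphaBar Kbar N p).commutes c).symm
  rw [h1, normAlpha_alpha' N p hp hN, map_pow]

/-- `N_β` of a constant -/
theorem normBeta_const' (c : Kbar) :
    normAlong (heckeBetaBar Kbar N p) (algebraMap Kbar (modularFunctionFieldBar (N * p)) c)
      = algebraMap Kbar (modularFunctionFieldBar N) (c ^ (p + 1)) := by
  rw [normAlong_beta_eq N p hp hN, AlgEquiv.commutes, normAlpha_const' N p hp hN]

/-- the norm of `0` -/
theorem normAlong_beta_zero :
    normAlong (heckeBetaBar Kbar N p) (0 : modularFunctionFieldBar (N * p)) = 0 := by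
  have h := normBeta_const' N p hp hN 0
  have e1 : algebraMap Kbar (modularFunctionFieldBar (N * p)) 0 = 0 := map_zero _
  have e2 : algebraMap Kbar (modularFunctionFieldBar N) ((0 : Kbar) ^ (p + 1)) = 0 := by
    rw [zero_pow (Nat.succ_ne_zero p)]
    exact map_zero _
  rw [e1, e2] at h
  exact h

/-- **the operator `E(y) = α(N_β y) / W y`** -/
def eOp (y : modularFunctionFieldBar (N * p)) : modularFunctionFieldBar (N * p) :=
  heckeAlphaBar Kbar N p (normAlong (heckeBetaBar Kbar N p) y) * (atkinLehner N p hp hN y)⁻¹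

theorem eOp_def (y : modularFunctionFieldBar (N * p)) :
    eOp N p hp hN y
      = heckeAlphaBar Kbar N p (normAlong (heckeBetaBar Kbar N p) y)
          * (atkinLehner N p hp hN y)⁻¹ := rfl

/-- `E` as a multiplicative map -/
def eHom : modularFunctionFieldBar (N * p) →*₀ modularFunctionFieldBar (N * p) where
  toFun := eOp N p hp hN
  map_zero' := by
    rw [eOp_def, map_zero (atkinLehner N p hp hN), inv_zero, mul_zero]
  map_one' := by rw [eOp_def, map_one, map_one, map_one, inv_one, mul_one]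
  map_mul' x y := by
    rw [eOp_def, eOp_def, eOp_def, map_mul, map_mul, map_mul, mul_inv]
    ring

theorem eHom_apply (y : modularFunctionFieldBar (N * p)) :
    eHom N p hp hN y = eOp N p hp hN y := rfl

/-- `E(y) · W y = α(N_β y)` -/
theorem eOp_mul_atkinLehner (y : modularFunctionFieldBar (N * p)) :
    eOp N p hp hN y * atkinLehner N p hp hN y
      = heckeAlphaBar Kbar N p (normAlong (heckeBetaBar Kbar N p) y) := by
  rcases eq_or_ne y 0 with rfl | hy
  · rw [map_zero (atkinLehner N p hp hN), mul_zero, normAlong_beta_zero N p hp hN,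
      map_zero (heckeAlphaBar Kbar N p)]
  · have hW : atkinLehner N p hp hN y ≠ 0 := (map_ne_zero (atkinLehner N p hp hN)).mpr hy
    rw [eOp_def, mul_assoc, inv_mul_cancel₀ hW, mul_one]

/-- `E(W y) · y = α(N_α y)` -/
theorem eOp_atkinLehner_mul (y : modularFunctionFieldBar (N * p)) :
    eOp N p hp hN (atkinLehner N p hp hN y) * y
      = heckeAlphaBar Kbar N p (normAlong (heckeAlphaBar Kbar N p) y) := by
  have h := eOp_mul_atkinLehner N p hp hN (atkinLehner N p hp hN y)
  rw [atkinLehner_atkinLehner, normAlong_beta_eq N p hp hN, atkinLehner_atkinLehner] at h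
  exact h

/-- `E(c) = c ^ p` on constants -/
theorem eOp_algebraMap (c : Kbar) :
    eOp N p hp hN (algebraMap Kbar (modularFunctionFieldBar (N * p)) c)
      = algebraMap Kbar (modularFunctionFieldBar (N * p)) (c ^ p) := by
  rcases eq_or_ne c 0 with rfl | hc
  · rw [zero_pow hp.ne_zero, map_zero (algebraMap Kbar (modularFunctionFieldBar (N * p)))]
    exact map_zero (eHom N p hp hN)
  · rw [eOp_def, normBeta_const' N p hp hN, AlgHom.commutes, AlgEquiv.commutes, ← map_inv₀,
      ← map_mul]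
    congr 1
    rw [pow_succ, mul_assoc, mul_inv_cancel₀ hc, mul_one]

/-- **the expansion of `E y` at `∞` is `NU(y)`**: `(E y)(q^p) = ∏_{k<p} y(ζ^k q)` -/
theorem qExpand_eOp (ζ : Kbar) (hζ : IsPrimitiveRoot ζ p) (y : modularFunctionFieldBar (N * p)) :
    qExpand Kbar p ((eOp N p hp hN y : modularFunctionFieldBar (N * p)) : LaurentSeries Kbar)
      = ∏ k ∈ range p, twistL (ζ ^ k) (y : LaurentSeries Kbar) := by
  rcases eq_or_ne y 0 with rfl | hy
  · have h0 : eOp N p hp hN 0 = 0 := map_zero (eHom N p hp hN)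
    rw [h0]
    have h1 : ((0 : modularFunctionFieldBar (N * p)) : LaurentSeries Kbar) = 0 := rfl
    rw [h1, map_zero]
    symm
    apply prod_eq_zero (mem_range.mpr hp.pos)
    ext k
    rw [twistL_coeff]
    simp
  · have hW : atkinLehner N p hp hN y ≠ 0 := (map_ne_zero (atkinLehner N p hp hN)).mpr hy
    have hWc : ((atkinLehner N p hp hN y : modularFunctionFieldBar (N * p)) :
        LaurentSeries Kbar) ≠ 0 := fun h => hW (Subtype.ext h)
    have hWq : qExpand Kbar p ((atkinLehner N p hp hN y : modularFunctionFieldBar (N * p)) :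
        LaurentSeries Kbar) ≠ 0 := fun h =>
      hWc (Fermat.Agent.P2.helper94.qExpand_injective p (by rw [h, map_zero]))
    have h1 := congrArg (fun f : modularFunctionFieldBar (N * p) => (f : LaurentSeries Kbar))
      (eOp_mul_atkinLehner N p hp hN y)
    have h2 : ((eOp N p hp hN y * atkinLehner N p hp hN y : modularFunctionFieldBar (N * p)) :
        LaurentSeries Kbar)
        = ((eOp N p hp hN y : modularFunctionFieldBar (N * p)) : LaurentSeries Kbar)
          * ((atkinLehner N p hp hN y : modularFunctionFieldBar (N * p)) :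
              LaurentSeries Kbar) := rfl
    have h3 : (eOp N p hp hN y : LaurentSeries Kbar)
        * ((atkinLehner N p hp hN y : modularFunctionFieldBar (N * p)) : LaurentSeries Kbar)
        = ((normAlong (heckeBetaBar Kbar N p) y : modularFunctionFieldBar N) :
            LaurentSeries Kbar) := by
      rw [← h2]
      refine h1.trans ?_
      show ((heckeAlphaBar Kbar N p (normAlong (heckeBetaBar Kbar N p) y) :
        modularFunctionFieldBar (N * p)) : LaurentSeries Kbar) = _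
      rw [coe_heckeAlphaBar]
    have h4 := congrArg (qExpand Kbar p) h3
    rw [map_mul, normBeta_pair N p hp hN ζ hζ y, mul_comm] at h4
    exact mul_left_cancel₀ hWq h4

end EOp

/-! ### The exact identity and its iterates -/

section Identity

variable (hp : p.Prime) (hN : ¬ p ∣ N)

include hp hN

/-- **[B3-ITER] the exact identity**, division-free:
`c₁ · α(g₁) ^ n · E(E(u)) = u · (c₂ ^ p · E(α g₂) ^ n)`. -/
theorem b3_identity {n : ℕ} {u : modularFunctionFieldBar (N * p)} {c₁ c₂ : Kbar}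
    {g₁ g₂ : modularFunctionFieldBar N}
    (hα : normAlong (heckeAlphaBar Kbar N p) u
      = algebraMap Kbar (modularFunctionFieldBar N) c₁ * g₁ ^ n)
    (hβ : normAlong (heckeBetaBar Kbar N p) u
      = algebraMap Kbar (modularFunctionFieldBar N) c₂ * g₂ ^ n) :
    (algebraMap Kbar (modularFunctionFieldBar (N * p)) c₁ * (heckeAlphaBar Kbar N p g₁) ^ n)
        * eOp N p hp hN (eOp N p hp hN u)
      = u * (algebraMap Kbar (modularFunctionFieldBar (N * p)) (c₂ ^ p)
          * (eOp N p hp hN (heckeAlphaBar Kbar N p g₂)) ^ n) := by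
  have h1 : eOp N p hp hN u * atkinLehner N p hp hN u
      = algebraMap Kbar (modularFunctionFieldBar (N * p)) c₂
          * (heckeAlphaBar Kbar N p g₂) ^ n := by
    rw [eOp_mul_atkinLehner, hβ, map_mul, map_pow, AlgHom.commutes]
  have h2 : eOp N p hp hN (atkinLehner N p hp hN u) * u
      = algebraMap Kbar (modularFunctionFieldBar (N * p)) c₁
          * (heckeAlphaBar Kbar N p g₁) ^ n := by
    rw [eOp_atkinLehner_mul, hα, map_mul, map_pow, AlgHom.commutes]
  have h3 : eOp N p hp hN (eOp N p hp hN u) * eOp N p hp hN (atkinLehner N p hp hN u)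
      = algebraMap Kbar (modularFunctionFieldBar (N * p)) (c₂ ^ p)
          * (eOp N p hp hN (heckeAlphaBar Kbar N p g₂)) ^ n := by
    have := congrArg (eHom N p hp hN) h1
    rw [map_mul, map_mul, map_pow, eHom_apply, eHom_apply, eHom_apply, eHom_apply,
      eOp_algebraMap] at this
    exact this
  rw [← h2, ← h3]
  ring

/-- **[B3-ITER] the exact identity for `W u`**:
`c₂ · α(g₂) ^ n · E(E(W u)) = W u · (c₁ ^ p · E(α g₁) ^ n)`. -/
theorem b3_identity_W {n : ℕ} {u : modularFunctionFieldBar (N * p)} {c₁ c₂ : Kbar}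
    {g₁ g₂ : modularFunctionFieldBar N}
    (hα : normAlong (heckeAlphaBar Kbar N p) u
      = algebraMap Kbar (modularFunctionFieldBar N) c₁ * g₁ ^ n)
    (hβ : normAlong (heckeBetaBar Kbar N p) u
      = algebraMap Kbar (modularFunctionFieldBar N) c₂ * g₂ ^ n) :
    (algebraMap Kbar (modularFunctionFieldBar (N * p)) c₂ * (heckeAlphaBar Kbar N p g₂) ^ n)
        * eOp N p hp hN (eOp N p hp hN (atkinLehner N p hp hN u))
      = atkinLehner N p hp hN u * (algebraMap Kbar (modularFunctionFieldBar (N * p)) (c₁ ^ p)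
          * (eOp N p hp hN (heckeAlphaBar Kbar N p g₁)) ^ n) := by
  refine b3_identity N p hp hN ?_ ?_
  · rw [← normAlong_beta_eq N p hp hN]
    exact hβ
  · rw [normAlong_beta_eq N p hp hN, atkinLehner_atkinLehner]
    exact hα

/-- iterates of `E` on constants -/
theorem iterate_eHom_algebraMap (k : ℕ) (c : Kbar) :
    (eHom N p hp hN)^[k] (algebraMap Kbar (modularFunctionFieldBar (N * p)) c)
      = algebraMap Kbar (modularFunctionFieldBar (N * p)) (c ^ (p ^ k)) := by
  induction k with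
  | zero => simp
  | succ k ih =>
    rw [Function.iterate_succ_apply', ih, eHom_apply, eOp_algebraMap, ← pow_mul, pow_succ]

/-- iterates of `E` on `c · x ^ n` -/
theorem iterate_eHom_const_mul_pow (k : ℕ) (c : Kbar) (x : modularFunctionFieldBar (N * p))
    (n : ℕ) :
    (eHom N p hp hN)^[k] (algebraMap Kbar (modularFunctionFieldBar (N * p)) c * x ^ n)
      = algebraMap Kbar (modularFunctionFieldBar (N * p)) (c ^ (p ^ k))
          * ((eHom N p hp hN)^[k] x) ^ n := by
  rw [iterate_hom_mul, iterate_hom_pow, iterate_eHom_algebraMap N p hp hN]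

/-- **[B3-ITER] the iterated identity**: for every `J`,
`κ₁ · A_J ^ n · E^{2J}(u) = u · (κ₂ · B_J ^ n)`, `A_J = ∏_{j<J} E^{2j}(α g₁)`,
`B_J = ∏_{j<J} E^{2j+1}(α g₂)`, `κ₁ = ∏_{j<J} c₁ ^ (p ^ (2j))`, `κ₂ = ∏_{j<J} c₂ ^ (p ^ (2j+1))`. -/
theorem b3_iterate {n : ℕ} {u : modularFunctionFieldBar (N * p)} {c₁ c₂ : Kbar}
    {g₁ g₂ : modularFunctionFieldBar N}
    (hα : normAlong (heckeAlphaBar Kbar N p) u
      = algebraMap Kbar (modularFunctionFieldBar N) c₁ * g₁ ^ n)
    (hβ : normAlong (heckeBetaBar Kbar N p) u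
      = algebraMap Kbar (modularFunctionFieldBar N) c₂ * g₂ ^ n) (J : ℕ) :
    (algebraMap Kbar (modularFunctionFieldBar (N * p)) (∏ j ∈ range J, c₁ ^ (p ^ (2 * j)))
        * (∏ j ∈ range J, (eHom N p hp hN)^[2 * j] (heckeAlphaBar Kbar N p g₁)) ^ n)
        * (eHom N p hp hN)^[2 * J] u
      = u * (algebraMap Kbar (modularFunctionFieldBar (N * p))
            (∏ j ∈ range J, c₂ ^ (p ^ (2 * j + 1)))
          * (∏ j ∈ range J, (eHom N p hp hN)^[2 * j + 1] (heckeAlphaBar Kbar N p g₂)) ^ n) := by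
  have h := iterate_relation (eHom N p hp hN) (b3_identity N p hp hN hα hβ) J
  simp_rw [iterate_eHom_const_mul_pow N p hp hN] at h
  rw [prod_mul_distrib, prod_mul_distrib, prod_pow, prod_pow, ← map_prod, ← map_prod] at h
  have e1 : ∀ j : ℕ, (eHom N p hp hN)^[2 * j] (eOp N p hp hN (heckeAlphaBar Kbar N p g₂))
      = (eHom N p hp hN)^[2 * j + 1] (heckeAlphaBar Kbar N p g₂) := fun j => rfl
  have e2 : ∀ j : ℕ, (c₂ ^ p) ^ (p ^ (2 * j)) = c₂ ^ (p ^ (2 * j + 1)) := fun j => by
    rw [← pow_mul, pow_succ, mul_comm]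
  simp_rw [e1, e2] at h
  exact h

/-- **[B3-ITER] the iterated identity for `W u`**. -/
theorem b3_iterate_W {n : ℕ} {u : modularFunctionFieldBar (N * p)} {c₁ c₂ : Kbar}
    {g₁ g₂ : modularFunctionFieldBar N}
    (hα : normAlong (heckeAlphaBar Kbar N p) u
      = algebraMap Kbar (modularFunctionFieldBar N) c₁ * g₁ ^ n)
    (hβ : normAlong (heckeBetaBar Kbar N p) u
      = algebraMap Kbar (modularFunctionFieldBar N) c₂ * g₂ ^ n) (J : ℕ) :
    (algebraMap Kbar (modularFunctionFieldBar (N * p)) (∏ j ∈ range J, c₂ ^ (p ^ (2 * j)))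
        * (∏ j ∈ range J, (eHom N p hp hN)^[2 * j] (heckeAlphaBar Kbar N p g₂)) ^ n)
        * (eHom N p hp hN)^[2 * J] (atkinLehner N p hp hN u)
      = atkinLehner N p hp hN u * (algebraMap Kbar (modularFunctionFieldBar (N * p))
            (∏ j ∈ range J, c₁ ^ (p ^ (2 * j + 1)))
          * (∏ j ∈ range J, (eHom N p hp hN)^[2 * j + 1] (heckeAlphaBar Kbar N p g₁)) ^ n) := by
  refine b3_iterate N p hp hN ?_ ?_ J
  · rw [← normAlong_beta_eq N p hp hN]
    exact hβ
  · rw [normAlong_beta_eq N p hp hN, atkinLehner_atkinLehner]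
    exact hα

end Identity

/-! ### Depth -/

section Depth

variable (hp : p.Prime) (hN : ¬ p ∣ N)

include hp hN

/-- **`E` raises the depth at `∞`**: `y = 1 + c Z` ⟹ `E y = 1 + c d D`. -/
theorem eOp_depth (A : ValuationSubring Kbar) (hA : A.LiesOverPrime p) (c d e₁ e₂ : ↥A)
    (h₁ : c ^ (p - 1) = d * e₁) (h₂ : ((p : ℕ) : ↥A) = d * e₂)
    (y : modularFunctionFieldBar (N * p)) (Z : LaurentSeries ↥A)
    (hy : (y : LaurentSeries Kbar) =
      1 + HahnSeries.C (c : Kbar) * coeffMap (A.subtype : ↥A →+* Kbar) Z) :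
    ∃ D : LaurentSeries ↥A,
      ((eOp N p hp hN y : modularFunctionFieldBar (N * p)) : LaurentSeries Kbar) =
        1 + HahnSeries.C ((c : Kbar) * (d : Kbar)) *
          coeffMap (A.subtype : ↥A →+* Kbar) D := by
  obtain ⟨ζ, hζ⟩ := HasEnoughRootsOfUnity.exists_primitiveRoot Kbar p
  have h := qExpand_eOp N p hp hN ζ hζ y
  rw [hy] at h
  exact Fermat.Agent.T7.helper49.exists_of_qExpand_eq_prod p hp A hA hζ c d e₁ e₂ h₁ h₂ Z h

/-- **iterated depth**: `y = 1 + c Z` ⟹ `E^k y = 1 + c d^k D`. -/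
theorem iterate_eOp_depth (A : ValuationSubring Kbar) (hA : A.LiesOverPrime p) (c d e₁ e₂ : ↥A)
    (h₁ : c ^ (p - 1) = d * e₁) (h₂ : ((p : ℕ) : ↥A) = d * e₂)
    (y : modularFunctionFieldBar (N * p)) (Z : LaurentSeries ↥A)
    (hy : (y : LaurentSeries Kbar) =
      1 + HahnSeries.C (c : Kbar) * coeffMap (A.subtype : ↥A →+* Kbar) Z) (k : ℕ) :
    ∃ D : LaurentSeries ↥A,
      (((eHom N p hp hN)^[k] y : modularFunctionFieldBar (N * p)) : LaurentSeries Kbar) =
        1 + HahnSeries.C ((c : Kbar) * (d : Kbar) ^ k) *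
          coeffMap (A.subtype : ↥A →+* Kbar) D := by
  induction k with
  | zero =>
    refine ⟨Z, ?_⟩
    rw [pow_zero, mul_one]
    exact hy
  | succ k ih =>
    obtain ⟨D, hD⟩ := ih
    have h₁' : (c * d ^ k) ^ (p - 1) = d * (e₁ * (d ^ k) ^ (p - 1)) := by
      rw [mul_pow, h₁]
      ring
    have hD' : (((eHom N p hp hN)^[k] y : modularFunctionFieldBar (N * p)) :
        LaurentSeries Kbar) =
        1 + HahnSeries.C (((c * d ^ k : ↥A) : Kbar)) * coeffMap (A.subtype : ↥A →+* Kbar) D := by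
      rw [hD]
      push_cast
      rfl
    obtain ⟨D', hD''⟩ := eOp_depth N p hp hN A hA (c * d ^ k) d _ e₂ h₁' h₂ _ D hD'
    refine ⟨D', ?_⟩
    rw [Function.iterate_succ_apply', eHom_apply, hD'']
    push_cast
    rw [pow_succ, mul_assoc]

/-- the iterates of `E` on a `1`-unit of depth `c` are `1`-units of depth `c` -/
theorem iterate_eOp_unit (A : ValuationSubring Kbar) (hA : A.LiesOverPrime p) (c : ↥A)
    (y : modularFunctionFieldBar (N * p)) (Z : LaurentSeries ↥A)
    (hy : (y : LaurentSeries Kbar) =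
      1 + HahnSeries.C (c : Kbar) * coeffMap (A.subtype : ↥A →+* Kbar) Z) (k : ℕ) :
    ∃ D : LaurentSeries ↥A,
      (((eHom N p hp hN)^[k] y : modularFunctionFieldBar (N * p)) : LaurentSeries Kbar) =
        1 + HahnSeries.C (c : Kbar) * coeffMap (A.subtype : ↥A →+* Kbar) D := by
  obtain ⟨D, hD⟩ := iterate_eOp_depth N p hp hN A hA c 1 (c ^ (p - 1)) ((p : ℕ) : ↥A)
    (by rw [one_mul]) (by rw [one_mul]) y Z hy k
  refine ⟨D, ?_⟩
  rw [hD]
  simp

end Depth

/-! ### Expansions -/

section Expansion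

variable {N}

/-- the expansion at `∞` as a ring homomorphism -/
def expF (M : ℕ) : modularFunctionFieldBar M →+* LaurentSeries Kbar :=
  algebraMap (modularFunctionFieldBar M) (LaurentSeries Kbar)

theorem expF_apply (M : ℕ) (x : modularFunctionFieldBar M) :
    expF M x = (x : LaurentSeries Kbar) := rfl

theorem expF_algebraMap (M : ℕ) (c : Kbar) :
    expF M (algebraMap Kbar (modularFunctionFieldBar M) c) = HahnSeries.C c := by
  show algebraMap Kbar (LaurentSeries Kbar) c = _
  rw [ModularCurve.algebraMap_laurentSeries_eq_single]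
  rfl

/-- a finite product of `1`-units of depth `c` is a `1`-unit of depth `c` -/
theorem prod_one_add_C_mul (A : ValuationSubring Kbar) (c : ↥A) {ι : Type*} (s : Finset ι)
    (f : ι → LaurentSeries Kbar)
    (hf : ∀ j ∈ s, ∃ D : LaurentSeries ↥A,
      f j = 1 + HahnSeries.C (c : Kbar) * coeffMap (A.subtype : ↥A →+* Kbar) D) :
    ∃ D : LaurentSeries ↥A,
      ∏ j ∈ s, f j = 1 + HahnSeries.C (c : Kbar) * coeffMap (A.subtype : ↥A →+* Kbar) D := by
  classical
  induction s using Finset.induction_on with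
  | empty => exact ⟨0, by simp⟩
  | insert a s ha ih =>
    obtain ⟨D₁, h₁⟩ := hf a (mem_insert_self a s)
    obtain ⟨D₂, h₂⟩ := ih (fun j hj => hf j (mem_insert_of_mem hj))
    refine ⟨D₁ + D₂ + HahnSeries.C c * D₁ * D₂, ?_⟩
    rw [prod_insert ha, h₁, h₂, map_add, map_add, map_mul, map_mul]
    have hC : coeffMap (A.subtype : ↥A →+* Kbar) (HahnSeries.C c) = HahnSeries.C (c : Kbar) :=
      coeffMap_single (A.subtype : ↥A →+* Kbar) 0 c
    rw [hC]
    ring

end Expansion

section Final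

variable (hp : p.Prime) (hN : ¬ p ∣ N)

include hp hN

/-- **[B3-ITER] + [NU-DEPTH] at `∞`**: if `u = 1 + c Z`, `g₁ = 1 + c' Z₁`, `g₂ = 1 + c' Z₂` at
`∞` (`Z`, `Z₁`, `Z₂` integral), `d ∣ c ^ (p - 1)`, `d ∣ p`, and `N_α u = c₁ g₁ ^ n`,
`N_β u = c₂ g₂ ^ n`, then for every `J` there are `A`-integral series `V_A`, `V_B`, `D` with
`κ₁ · (1 + c' V_A) ^ n · (1 + c d^(2J) D) = u · (κ₂ · (1 + c' V_B) ^ n)`,
`κ₁ = ∏_{j<J} c₁^(p^(2j))`, `κ₂ = ∏_{j<J} c₂^(p^(2j+1))`. -/
theorem b3_iter_depth (A : ValuationSubring Kbar) (hA : A.LiesOverPrime p) (c d e₁ e₂ c' : ↥A)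
    (h₁ : c ^ (p - 1) = d * e₁) (h₂ : ((p : ℕ) : ↥A) = d * e₂)
    {n : ℕ} {u : modularFunctionFieldBar (N * p)} {c₁ c₂ : Kbar}
    {g₁ g₂ : modularFunctionFieldBar N} (Z Z₁ Z₂ : LaurentSeries ↥A)
    (hu : (u : LaurentSeries Kbar) =
      1 + HahnSeries.C (c : Kbar) * coeffMap (A.subtype : ↥A →+* Kbar) Z)
    (hg₁ : (g₁ : LaurentSeries Kbar) =
      1 + HahnSeries.C (c' : Kbar) * coeffMap (A.subtype : ↥A →+* Kbar) Z₁)
    (hg₂ : (g₂ : LaurentSeries Kbar) =
      1 + HahnSeries.C (c' : Kbar) * coeffMap (A.subtype : ↥A →+* Kbar) Z₂)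
    (hα : normAlong (heckeAlphaBar Kbar N p) u
      = algebraMap Kbar (modularFunctionFieldBar N) c₁ * g₁ ^ n)
    (hβ : normAlong (heckeBetaBar Kbar N p) u
      = algebraMap Kbar (modularFunctionFieldBar N) c₂ * g₂ ^ n) (J : ℕ) :
    ∃ VA VB D : LaurentSeries ↥A,
      HahnSeries.C (∏ j ∈ range J, c₁ ^ (p ^ (2 * j)))
          * (1 + HahnSeries.C (c' : Kbar) * coeffMap (A.subtype : ↥A →+* Kbar) VA) ^ n
          * (1 + HahnSeries.C ((c : Kbar) * (d : Kbar) ^ (2 * J))
              * coeffMap (A.subtype : ↥A →+* Kbar) D)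
        = (u : LaurentSeries Kbar)
          * (HahnSeries.C (∏ j ∈ range J, c₂ ^ (p ^ (2 * j + 1)))
            * (1 + HahnSeries.C (c' : Kbar) * coeffMap (A.subtype : ↥A →+* Kbar) VB) ^ n) := by
  have hαg₁ : ((heckeAlphaBar Kbar N p g₁ : modularFunctionFieldBar (N * p)) :
      LaurentSeries Kbar) =
      1 + HahnSeries.C (c' : Kbar) * coeffMap (A.subtype : ↥A →+* Kbar) Z₁ := by
    rw [coe_heckeAlphaBar]
    exact hg₁
  have hαg₂ : ((heckeAlphaBar Kbar N p g₂ : modularFunctionFieldBar (N * p)) :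
      LaurentSeries Kbar) =
      1 + HahnSeries.C (c' : Kbar) * coeffMap (A.subtype : ↥A →+* Kbar) Z₂ := by
    rw [coe_heckeAlphaBar]
    exact hg₂
  obtain ⟨VA, hVA⟩ := prod_one_add_C_mul A c' (range J)
    (fun j => expF (N * p) ((eHom N p hp hN)^[2 * j] (heckeAlphaBar Kbar N p g₁)))
    (fun j _ => iterate_eOp_unit N p hp hN A hA c' _ Z₁ hαg₁ (2 * j))
  obtain ⟨VB, hVB⟩ := prod_one_add_C_mul A c' (range J)
    (fun j => expF (N * p) ((eHom N p hp hN)^[2 * j + 1] (heckeAlphaBar Kbar N p g₂)))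
    (fun j _ => iterate_eOp_unit N p hp hN A hA c' _ Z₂ hαg₂ (2 * j + 1))
  obtain ⟨D, hD⟩ := iterate_eOp_depth N p hp hN A hA c d e₁ e₂ h₁ h₂ u Z hu (2 * J)
  refine ⟨VA, VB, D, ?_⟩
  have h := congrArg (expF (N * p)) (b3_iterate N p hp hN hα hβ J)
  have e1 : expF (N * p) (∏ j ∈ range J, (eHom N p hp hN)^[2 * j] (heckeAlphaBar Kbar N p g₁))
      = 1 + HahnSeries.C (c' : Kbar) * coeffMap (A.subtype : ↥A →+* Kbar) VA := by
    rw [map_prod]
    exact hVA
  have e2 : expF (N * p)
      (∏ j ∈ range J, (eHom N p hp hN)^[2 * j + 1] (heckeAlphaBar Kbar N p g₂))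
      = 1 + HahnSeries.C (c' : Kbar) * coeffMap (A.subtype : ↥A →+* Kbar) VB := by
    rw [map_prod]
    exact hVB
  have e3 : expF (N * p) ((eHom N p hp hN)^[2 * J] u)
      = 1 + HahnSeries.C ((c : Kbar) * (d : Kbar) ^ (2 * J))
          * coeffMap (A.subtype : ↥A →+* Kbar) D := hD
  rw [map_mul (expF (N * p)), map_mul (expF (N * p)), map_mul (expF (N * p)),
    map_mul (expF (N * p)), map_pow (expF (N * p)), map_pow (expF (N * p)), e1, e2, e3,
    expF_algebraMap, expF_algebraMap] at h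
  exact h

/-- **[B3-ITER] + [NU-DEPTH] at `∞` for `W u`**. -/
theorem b3_iter_depth_W (A : ValuationSubring Kbar) (hA : A.LiesOverPrime p)
    (c d e₁ e₂ c' : ↥A)
    (h₁ : c ^ (p - 1) = d * e₁) (h₂ : ((p : ℕ) : ↥A) = d * e₂)
    {n : ℕ} {u : modularFunctionFieldBar (N * p)} {c₁ c₂ : Kbar}
    {g₁ g₂ : modularFunctionFieldBar N} (Z Z₁ Z₂ : LaurentSeries ↥A)
    (hu : ((atkinLehner N p hp hN u : modularFunctionFieldBar (N * p)) : LaurentSeries Kbar) =
      1 + HahnSeries.C (c : Kbar) * coeffMap (A.subtype : ↥A →+* Kbar) Z)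
    (hg₁ : (g₁ : LaurentSeries Kbar) =
      1 + HahnSeries.C (c' : Kbar) * coeffMap (A.subtype : ↥A →+* Kbar) Z₁)
    (hg₂ : (g₂ : LaurentSeries Kbar) =
      1 + HahnSeries.C (c' : Kbar) * coeffMap (A.subtype : ↥A →+* Kbar) Z₂)
    (hα : normAlong (heckeAlphaBar Kbar N p) u
      = algebraMap Kbar (modularFunctionFieldBar N) c₁ * g₁ ^ n)
    (hβ : normAlong (heckeBetaBar Kbar N p) u
      = algebraMap Kbar (modularFunctionFieldBar N) c₂ * g₂ ^ n) (J : ℕ) :
    ∃ VA VB D : LaurentSeries ↥A,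
      HahnSeries.C (∏ j ∈ range J, c₂ ^ (p ^ (2 * j)))
          * (1 + HahnSeries.C (c' : Kbar) * coeffMap (A.subtype : ↥A →+* Kbar) VA) ^ n
          * (1 + HahnSeries.C ((c : Kbar) * (d : Kbar) ^ (2 * J))
              * coeffMap (A.subtype : ↥A →+* Kbar) D)
        = ((atkinLehner N p hp hN u : modularFunctionFieldBar (N * p)) : LaurentSeries Kbar)
          * (HahnSeries.C (∏ j ∈ range J, c₁ ^ (p ^ (2 * j + 1)))
            * (1 + HahnSeries.C (c' : Kbar) * coeffMap (A.subtype : ↥A →+* Kbar) VB) ^ n) := by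
  refine b3_iter_depth N p hp hN A hA c d e₁ e₂ c' h₁ h₂ Z Z₂ Z₁ hu hg₂ hg₁ ?_ ?_ J
  · rw [← normAlong_beta_eq N p hp hN]
    exact hβ
  · rw [normAlong_beta_eq N p hp hN, atkinLehner_atkinLehner]
    exact hα

end Final

end Fermat.Agent.T7.helper43

end
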