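/-
T7 (S33, at risk), helper43: **[B3-APPROX] from the iterated identity to approximate `p`-th
roots modulo every `t ≠ 0`** (the hypothesis of [p-DISC]).

`A` a valuation subring of `ℚ̄` over `p`, `incl = coeffMap A.subtype`, `red = coeffMap residue`.
If `u ∈ F_{N p}` has the expansion `incl Y`, `Y = 1 + c Z` with `c ∈ 𝔪_A`, and
`N_α u = c₁ g₁ ^ p`, `N_β u = c₂ g₂ ^ p` with `g_i = 1 + c' Z_i` at `∞`, `c' ∈ 𝔪_A`, then

  `∀ t ≠ 0 in A, ∃ V R : A((q)), red V = 1 ∧ Y - V ^ p = t R`     (`b3_approx`),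

and the same for `W u` (`b3_approx_W`).  Ingredients: `helper43_B3Iter.b3_iter_depth`,
the archimedean property of `A` (`P2.helper74.arch_algebraicClosure`), the constant
`κ₁ / κ₂` is a `p`-th power of a `1`-unit of `A`, inverses of `1`-units modulo `t` by finite
geometric sums.
-/
import Mathlib
import Fermat.Agent.T7.helper43_B3Iter
import Fermat.Agent.T7.helper43_DegMaps
import Fermat.Agent.P2.helper74_Arch
import Fermat.Agent.P2.helper93_CoreWire

set_option autoImplicit false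
set_option linter.unusedSectionVars false
set_option linter.unusedVariables false
set_option linter.style.haveILetI false
set_option linter.style.longLine false

noncomputable section

open ModularCurve AlgebraicCurve IntermediateField Finset

namespace Fermat.Agent.T7.helper43

open Fermat.Agent.S24 Fermat.Agent.P2.helper93 Fermat.Agent.P3.helper94 Fermat.Agent.T2.helper36

/-! ### Abstract algebra -/

section Abstract

variable {Λ Λ' : Type*} [CommRing Λ] [CommRing Λ']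

/-- inverse of `1 + x` modulo `t` when `t ∣ x ^ (m + 1)` -/
theorem exists_inv_mod (x t : Λ) (m : ℕ) (ht : t ∣ x ^ (m + 1)) :
    ∃ B' R : Λ, (1 + x) * B' = 1 + t * R ∧ ∀ r : Λ →+* Λ', r x = 0 → r B' = 1 := by
  obtain ⟨e, he⟩ := ht
  refine ⟨∑ i ∈ range (m + 1), (-x) ^ i, -((-1) ^ (m + 1) * e), ?_, ?_⟩
  · have h := mul_neg_geom_sum (-x) (m + 1)
    rw [sub_neg_eq_add] at h
    rw [h, neg_pow, he]
    ring
  · intro r hr
    rw [map_sum, sum_range_succ']
    have h0 : ∀ i ∈ range m, r ((-x) ^ (i + 1)) = 0 := by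
      intro i _
      rw [map_pow, map_neg, hr, neg_zero, zero_pow (Nat.succ_ne_zero i)]
    rw [sum_eq_zero h0, zero_add, pow_zero, map_one]

/-- the assembly: from the identity `k PA^p (1 + cd D) = Y PB^p` to `Y - V^p ∈ t Λ` -/
theorem exists_approx_of_identity (r : Λ →+* Λ') (p : ℕ) {k ρ t cd PA PB Y D B' R₁ : Λ}
    (hk : ρ ^ p = k) (hid : k * PA ^ p * (1 + cd * D) = Y * PB ^ p)
    (hB : PB * B' = 1 + t * R₁) (ht : t ∣ cd) (hρ : r ρ = 1) (hPA : r PA = 1)
    (hB' : r B' = 1) :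
    ∃ V R : Λ, r V = 1 ∧ Y - V ^ p = t * R := by
  obtain ⟨e, he⟩ := ht
  obtain ⟨Q, hQ⟩ := sub_one_dvd_pow_sub_one (PB * B') p
  have hQ' : (PB * B') ^ p = 1 + t * (R₁ * Q) := by
    have h1 : PB * B' - 1 = t * R₁ := by rw [hB]; ring
    rw [h1] at hQ
    have h2 : (PB * B') ^ p = ((PB * B') ^ p - 1) + 1 := by ring
    rw [h2, hQ]
    ring
  refine ⟨ρ * PA * B', e * ((ρ * PA * B') ^ p * D) - Y * (R₁ * Q), ?_, ?_⟩
  · rw [map_mul, map_mul, hρ, hPA, hB', mul_one, mul_one]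
  · have h3 : Y * (PB * B') ^ p = (ρ * PA * B') ^ p * (1 + cd * D) := by
      calc Y * (PB * B') ^ p = (Y * PB ^ p) * B' ^ p := by ring
        _ = (k * PA ^ p * (1 + cd * D)) * B' ^ p := by rw [hid]
        _ = (ρ * PA * B') ^ p * (1 + cd * D) := by rw [← hk]; ring
    rw [hQ', he] at h3
    linear_combination h3

end Abstract

/-! ### Constants -/

section Constants

variable (A : ValuationSubring Kbar)

/-- a constant `κ` with `κ · X₀ = Y₀` for two integral series of reduction `1` is a `1`-unit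
of `A` -/
theorem exists_const_of_mul_eq {κ : Kbar} {X₀ Y₀ : LaurentSeries ↥A}
    (hX : coeffMap (IsLocalRing.residue ↥A) X₀ = 1)
    (hY : coeffMap (IsLocalRing.residue ↥A) Y₀ = 1)
    (h : HahnSeries.C κ * coeffMap (A.subtype : ↥A →+* Kbar) X₀
      = coeffMap (A.subtype : ↥A →+* Kbar) Y₀) :
    ∃ k : ↥A, (k : Kbar) = κ ∧ IsLocalRing.residue ↥A k = 1 := by
  have hx : IsLocalRing.residue ↥A (X₀.coeff 0) = 1 := by
    have := congrArg (fun f : LaurentSeries (IsLocalRing.ResidueField ↥A) => f.coeff 0) hX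
    simpa using this
  have hy : IsLocalRing.residue ↥A (Y₀.coeff 0) = 1 := by
    have := congrArg (fun f : LaurentSeries (IsLocalRing.ResidueField ↥A) => f.coeff 0) hY
    simpa using this
  have hxu : IsUnit (X₀.coeff 0) := by
    by_contra hnu
    have h0 : IsLocalRing.residue ↥A (X₀.coeff 0) = 0 :=
      (IsLocalRing.residue_eq_zero_iff _).mpr ((IsLocalRing.mem_maximalIdeal _).mpr hnu)
    rw [h0] at hx
    exact zero_ne_one hx
  obtain ⟨x, hx'⟩ := hxu
  have h0 := congrArg (fun f : LaurentSeries Kbar => f.coeff 0) h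
  simp only [coeffMap_coeff] at h0
  have h1 : (HahnSeries.C κ * coeffMap (A.subtype : ↥A →+* Kbar) X₀).coeff 0
      = κ * ((X₀.coeff 0 : ↥A) : Kbar) := by
    rw [HahnSeries.C_mul_eq_smul, HahnSeries.coeff_smul, coeffMap_coeff]
    rfl
  rw [h1] at h0
  refine ⟨Y₀.coeff 0 * ((x⁻¹ : (↥A)ˣ) : ↥A), ?_, ?_⟩
  · have h2 : ((X₀.coeff 0 : ↥A) : Kbar) * (((x⁻¹ : (↥A)ˣ) : ↥A) : Kbar) = 1 := by
      rw [← hx']
      have h6 : (((x : ↥A) * ((x⁻¹ : (↥A)ˣ) : ↥A) : ↥A) : Kbar) = ((1 : ↥A) : Kbar) := by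
        rw [Units.mul_inv]
      exact h6
    have h3 : ((Y₀.coeff 0 * ((x⁻¹ : (↥A)ˣ) : ↥A) : ↥A) : Kbar)
        = ((Y₀.coeff 0 : ↥A) : Kbar) * (((x⁻¹ : (↥A)ˣ) : ↥A) : Kbar) := rfl
    have h4 : (A.subtype : ↥A →+* Kbar) (Y₀.coeff 0) = ((Y₀.coeff 0 : ↥A) : Kbar) := rfl
    rw [h3, ← h4, ← h0, mul_assoc, h2, mul_one]
  · have h5 : IsLocalRing.residue ↥A (X₀.coeff 0) * IsLocalRing.residue ↥A ((x⁻¹ : (↥A)ˣ) : ↥A)
        = 1 := by
      rw [← map_mul, ← hx', Units.mul_inv, map_one]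
    rw [hx, one_mul] at h5
    rw [map_mul, hy, h5, one_mul]

/-- a `1`-unit of `A` has a `p`-th root which is a `1`-unit -/
theorem exists_root_one_unit (p : ℕ) (hp : p.Prime) [CharP (IsLocalRing.ResidueField ↥A) p]
    (k : ↥A) (hk : IsLocalRing.residue ↥A k = 1) :
    ∃ ρ : ↥A, ρ ^ p = k ∧ IsLocalRing.residue ↥A ρ = 1 := by
  obtain ⟨r, hr⟩ := IsAlgClosed.exists_pow_nat_eq (k : Kbar) hp.pos
  have hint : IsIntegral ↥A r := by
    refine IsIntegral.of_pow hp.pos ?_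
    rw [hr]
    exact isIntegral_algebraMap (x := k)
  obtain ⟨ρ, hρ⟩ := IsIntegrallyClosed.isIntegral_iff.mp hint
  have hρ' : (ρ : Kbar) = r := hρ
  have hpow : ρ ^ p = k := by
    apply Subtype.val_injective
    show ((ρ ^ p : ↥A) : Kbar) = (k : Kbar)
    rw [← hr, ← hρ']
    rfl
  refine ⟨ρ, hpow, ?_⟩
  haveI : Fact p.Prime := ⟨hp⟩
  have h1 : (IsLocalRing.residue ↥A ρ - 1) ^ p = 0 := by
    rw [sub_pow_char, one_pow, ← map_pow, hpow, hk, sub_self]
  exact sub_eq_zero.mp (pow_eq_zero_iff hp.ne_zero |>.mp h1)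

end Constants

/-! ### Series -/

section Series

variable (A : ValuationSubring Kbar)

theorem incl_C (a : ↥A) :
    coeffMap (A.subtype : ↥A →+* Kbar) (HahnSeries.C a) = HahnSeries.C (a : Kbar) :=
  coeffMap_single (A.subtype : ↥A →+* Kbar) 0 a

theorem red_C (a : ↥A) :
    coeffMap (IsLocalRing.residue ↥A) (HahnSeries.C a)
      = HahnSeries.C (IsLocalRing.residue ↥A a) :=
  coeffMap_single (IsLocalRing.residue ↥A) 0 a

theorem incl_one_add (a : ↥A) (V : LaurentSeries ↥A) :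
    coeffMap (A.subtype : ↥A →+* Kbar) (1 + HahnSeries.C a * V)
      = 1 + HahnSeries.C (a : Kbar) * coeffMap (A.subtype : ↥A →+* Kbar) V := by
  rw [map_add, map_one, map_mul, incl_C]

theorem red_one_add {a : ↥A} (ha : IsLocalRing.residue ↥A a = 0) (V : LaurentSeries ↥A) :
    coeffMap (IsLocalRing.residue ↥A) (1 + HahnSeries.C a * V) = 1 := by
  rw [map_add, map_one, map_mul, red_C, ha, map_zero, zero_mul, add_zero]

theorem incl_injective :
    Function.Injective (coeffMap (A.subtype : ↥A →+* Kbar)) := by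
  intro x y h
  ext n
  have h2 := congrArg (fun z : LaurentSeries Kbar => z.coeff n) h
  simp only [coeffMap_coeff] at h2
  exact h2

/-- **series form of [B3-APPROX]** -/
theorem approx_of_series_identity (p : ℕ) (hp : p.Prime) (hA : A.LiesOverPrime p)
    (c' t cd : ↥A) (hc' : IsLocalRing.residue ↥A c' = 0) (hcd : IsLocalRing.residue ↥A cd = 0)
    (ht : t ≠ 0) (htcd : t ∣ cd) (κ₁ κ₂ : Kbar) (hκ₂ : κ₂ ≠ 0)
    (Y VA VB D : LaurentSeries ↥A) (hY : coeffMap (IsLocalRing.residue ↥A) Y = 1)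
    (h : HahnSeries.C κ₁
          * (1 + HahnSeries.C (c' : Kbar) * coeffMap (A.subtype : ↥A →+* Kbar) VA) ^ p
          * (1 + HahnSeries.C (cd : Kbar) * coeffMap (A.subtype : ↥A →+* Kbar) D)
        = coeffMap (A.subtype : ↥A →+* Kbar) Y
          * (HahnSeries.C κ₂
            * (1 + HahnSeries.C (c' : Kbar) * coeffMap (A.subtype : ↥A →+* Kbar) VB) ^ p)) :
    ∃ V R : LaurentSeries ↥A, coeffMap (IsLocalRing.residue ↥A) V = 1 ∧
      Y - V ^ p = HahnSeries.C t * R := by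
  haveI : CharP (IsLocalRing.ResidueField ↥A) p :=
    Fermat.Agent.P2.helper93.charP_residueField hp hA
  have hArch := Fermat.Agent.P2.helper74.arch_algebraicClosure A p hp hA
  set PA : LaurentSeries ↥A := 1 + HahnSeries.C c' * VA with hPA
  set PB : LaurentSeries ↥A := 1 + HahnSeries.C c' * VB with hPB
  set X₀ : LaurentSeries ↥A := PA ^ p * (1 + HahnSeries.C cd * D) with hX₀
  set Y₀ : LaurentSeries ↥A := Y * PB ^ p with hY₀
  have rPA : coeffMap (IsLocalRing.residue ↥A) PA = 1 := red_one_add A hc' VA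
  have rPB : coeffMap (IsLocalRing.residue ↥A) PB = 1 := red_one_add A hc' VB
  have rX₀ : coeffMap (IsLocalRing.residue ↥A) X₀ = 1 := by
    rw [hX₀, map_mul, map_pow, rPA, one_pow, one_mul, red_one_add A hcd D]
  have rY₀ : coeffMap (IsLocalRing.residue ↥A) Y₀ = 1 := by
    rw [hY₀, map_mul, map_pow, rPB, one_pow, mul_one, hY]
  have iX₀ : coeffMap (A.subtype : ↥A →+* Kbar) X₀
      = (1 + HahnSeries.C (c' : Kbar) * coeffMap (A.subtype : ↥A →+* Kbar) VA) ^ p
          * (1 + HahnSeries.C (cd : Kbar) * coeffMap (A.subtype : ↥A →+* Kbar) D) := by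
    rw [hX₀, map_mul, map_pow, hPA, incl_one_add, incl_one_add]
  have iY₀ : coeffMap (A.subtype : ↥A →+* Kbar) Y₀
      = coeffMap (A.subtype : ↥A →+* Kbar) Y
          * (1 + HahnSeries.C (c' : Kbar) * coeffMap (A.subtype : ↥A →+* Kbar) VB) ^ p := by
    rw [hY₀, map_mul, map_pow, hPB, incl_one_add]
  -- the constant
  have hκ : HahnSeries.C (κ₁ * κ₂⁻¹) * coeffMap (A.subtype : ↥A →+* Kbar) X₀
      = coeffMap (A.subtype : ↥A →+* Kbar) Y₀ := by
    rw [iX₀, iY₀]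
    have h1 : (HahnSeries.C κ₂⁻¹ : LaurentSeries Kbar) * HahnSeries.C κ₂ = 1 := by
      rw [← map_mul, inv_mul_cancel₀ hκ₂, map_one]
    have h2 : HahnSeries.C κ₂⁻¹ * (HahnSeries.C κ₁
          * (1 + HahnSeries.C (c' : Kbar) * coeffMap (A.subtype : ↥A →+* Kbar) VA) ^ p
          * (1 + HahnSeries.C (cd : Kbar) * coeffMap (A.subtype : ↥A →+* Kbar) D))
        = HahnSeries.C κ₂⁻¹ * (coeffMap (A.subtype : ↥A →+* Kbar) Y
          * (HahnSeries.C κ₂
            * (1 + HahnSeries.C (c' : Kbar) * coeffMap (A.subtype : ↥A →+* Kbar) VB) ^ p)) := by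
      rw [h]
    rw [map_mul]
    calc HahnSeries.C κ₁ * HahnSeries.C κ₂⁻¹
          * ((1 + HahnSeries.C (c' : Kbar) * coeffMap (A.subtype : ↥A →+* Kbar) VA) ^ p
            * (1 + HahnSeries.C (cd : Kbar) * coeffMap (A.subtype : ↥A →+* Kbar) D))
        = HahnSeries.C κ₂⁻¹ * (HahnSeries.C κ₁
          * (1 + HahnSeries.C (c' : Kbar) * coeffMap (A.subtype : ↥A →+* Kbar) VA) ^ p
          * (1 + HahnSeries.C (cd : Kbar) * coeffMap (A.subtype : ↥A →+* Kbar) D)) := by ring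
      _ = HahnSeries.C κ₂⁻¹ * (coeffMap (A.subtype : ↥A →+* Kbar) Y
          * (HahnSeries.C κ₂
            * (1 + HahnSeries.C (c' : Kbar) * coeffMap (A.subtype : ↥A →+* Kbar) VB) ^ p)) := h2
      _ = (HahnSeries.C κ₂⁻¹ * HahnSeries.C κ₂) * (coeffMap (A.subtype : ↥A →+* Kbar) Y
            * (1 + HahnSeries.C (c' : Kbar) * coeffMap (A.subtype : ↥A →+* Kbar) VB) ^ p) := by
          ring
      _ = _ := by rw [h1, one_mul]
  obtain ⟨k, hk, rk⟩ := exists_const_of_mul_eq A rX₀ rY₀ hκ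
  obtain ⟨ρ, hρ, rρ⟩ := exists_root_one_unit A p hp k rk
  have hid : HahnSeries.C k * X₀ = Y₀ := by
    apply incl_injective A
    rw [map_mul, incl_C, hk]
    exact hκ
  -- the inverse of `PB` modulo `t`
  obtain ⟨m, hm⟩ := hArch c' hc' t ht
  have hm' : (HahnSeries.C t : LaurentSeries ↥A) ∣ (HahnSeries.C c' * VB) ^ (m + 1) := by
    obtain ⟨e, he⟩ := hm
    refine ⟨HahnSeries.C (e * c') * VB ^ (m + 1), ?_⟩
    rw [mul_pow, ← map_pow, pow_succ, he, map_mul, map_mul, map_mul]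
    ring
  obtain ⟨B', R₁, hB, hrB⟩ := exists_inv_mod
    (Λ' := LaurentSeries (IsLocalRing.ResidueField ↥A)) (HahnSeries.C c' * VB)
    (HahnSeries.C t) m hm'
  have rB' : coeffMap (IsLocalRing.residue ↥A) B' = 1 := by
    apply hrB
    rw [map_mul, red_C, hc', map_zero, zero_mul]
  refine exists_approx_of_identity (coeffMap (IsLocalRing.residue ↥A)) p
    (k := HahnSeries.C k) (ρ := HahnSeries.C ρ) (t := HahnSeries.C t) (cd := HahnSeries.C cd)
    (PA := PA) (PB := PB) (Y := Y) (D := D) (B' := B') (R₁ := R₁) ?_ ?_ hB ?_ ?_ rPA rB'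
  · rw [← map_pow, hρ]
  · rw [mul_assoc]
    exact hid
  · exact map_dvd (HahnSeries.C : ↥A →+* LaurentSeries ↥A) htcd
  · rw [red_C, rρ, map_one]

end Series

/-! ### The function-field instance -/

section Instance

variable (N p : ℕ) [NeZero N] [NeZero p] (hp : p.Prime) (hN : ¬ p ∣ N)

include hp hN

/-- auxiliary: the approximation from the two norm relations, for a given pair of relations
(used for `u` and for `W u`) -/
theorem b3_approx_aux (A : ValuationSubring Kbar) (hA : A.LiesOverPrime p) (c c' : ↥A)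
    (hc : IsLocalRing.residue ↥A c = 0) (hc' : IsLocalRing.residue ↥A c' = 0)
    {u : modularFunctionFieldBar (N * p)} (hu0 : u ≠ 0) {c₁ c₂ : Kbar}
    {g₁ g₂ : modularFunctionFieldBar N} (Z Z₁ Z₂ : LaurentSeries ↥A)
    (hu : (u : LaurentSeries Kbar) =
      1 + HahnSeries.C (c : Kbar) * coeffMap (A.subtype : ↥A →+* Kbar) Z)
    (hg₁ : (g₁ : LaurentSeries Kbar) =
      1 + HahnSeries.C (c' : Kbar) * coeffMap (A.subtype : ↥A →+* Kbar) Z₁)
    (hg₂ : (g₂ : LaurentSeries Kbar) =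
      1 + HahnSeries.C (c' : Kbar) * coeffMap (A.subtype : ↥A →+* Kbar) Z₂)
    (hα : normAlong (heckeAlphaBar Kbar N p) u
      = algebraMap Kbar (modularFunctionFieldBar N) c₁ * g₁ ^ p)
    (hβ : normAlong (heckeBetaBar Kbar N p) u
      = algebraMap Kbar (modularFunctionFieldBar N) c₂ * g₂ ^ p)
    (t : ↥A) (ht : t ≠ 0) :
    ∃ V R : LaurentSeries ↥A, coeffMap (IsLocalRing.residue ↥A) V = 1 ∧
      (1 + HahnSeries.C c * Z) - V ^ p = HahnSeries.C t * R := by
  haveI : CharP (IsLocalRing.ResidueField ↥A) p :=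
    Fermat.Agent.P2.helper93.charP_residueField hp hA
  have hArch := Fermat.Agent.P2.helper74.arch_algebraicClosure A p hp hA
  have hpres : IsLocalRing.residue ↥A ((p : ℕ) : ↥A) = 0 := by
    rw [map_natCast]
    exact CharP.cast_eq_zero _ p
  have hcpow : IsLocalRing.residue ↥A (c ^ (p - 1)) = 0 := by
    rw [map_pow, hc, zero_pow (Nat.sub_ne_zero_of_lt hp.one_lt)]
  -- the step `d`
  obtain ⟨d, e₁, e₂, h₁, h₂, hd⟩ : ∃ d e₁ e₂ : ↥A, c ^ (p - 1) = d * e₁ ∧
      ((p : ℕ) : ↥A) = d * e₂ ∧ IsLocalRing.residue ↥A d = 0 := by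
    rcases ValuationRing.dvd_total (c ^ (p - 1)) (((p : ℕ) : ↥A)) with h | h
    · obtain ⟨e, he⟩ := h
      exact ⟨c ^ (p - 1), 1, e, (mul_one _).symm, he, hcpow⟩
    · obtain ⟨e, he⟩ := h
      exact ⟨((p : ℕ) : ↥A), e, 1, he, (mul_one _).symm, hpres⟩
  obtain ⟨J, hJ⟩ := hArch d hd t ht
  have htcd : t ∣ c * d ^ (2 * J) := by
    refine Dvd.dvd.mul_left ?_ c
    rw [two_mul, pow_add]
    exact Dvd.dvd.mul_right hJ _
  have hcd : IsLocalRing.residue ↥A (c * d ^ (2 * J)) = 0 := by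
    rw [map_mul, hc, zero_mul]
  have hc₂ : c₂ ≠ 0 := by
    rintro rfl
    rw [map_zero, zero_mul] at hβ
    exact normAlong_ne_zero' (heckeBetaBar Kbar N p) (beta_finiteAlong N p) hu0 hβ
  have hκ₂ : (∏ j ∈ range J, c₂ ^ (p ^ (2 * j + 1))) ≠ 0 :=
    prod_ne_zero_iff.mpr fun j _ => pow_ne_zero _ hc₂
  obtain ⟨VA, VB, D, hid⟩ := b3_iter_depth N p hp hN A hA c d e₁ e₂ c' h₁ h₂ Z Z₁ Z₂
    hu hg₁ hg₂ hα hβ J
  have hY : coeffMap (IsLocalRing.residue ↥A) (1 + HahnSeries.C c * Z) = 1 :=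
    red_one_add A hc Z
  refine approx_of_series_identity A p hp hA c' t (c * d ^ (2 * J)) hc' hcd ht htcd
    (∏ j ∈ range J, c₁ ^ (p ^ (2 * j))) (∏ j ∈ range J, c₂ ^ (p ^ (2 * j + 1))) hκ₂
    (1 + HahnSeries.C c * Z) VA VB D hY ?_
  rw [incl_one_add, ← hu]
  have e : (((c * d ^ (2 * J) : ↥A)) : Kbar) = (c : Kbar) * (d : Kbar) ^ (2 * J) := by
    push_cast
    rfl
  rw [e]
  exact hid

/-- **[B3-APPROX]**: `u = 1 + c Z` at `∞`, `N_α u = c₁ g₁ ^ p`, `N_β u = c₂ g₂ ^ p`,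
`g_i = 1 + c' Z_i` at `∞`, `c, c' ∈ 𝔪_A`: for every `t ≠ 0` the expansion of `u` is a `p`-th
power of an integral series of reduction `1` modulo `t`. -/
theorem b3_approx (A : ValuationSubring Kbar) (hA : A.LiesOverPrime p) (c c' : ↥A)
    (hc : IsLocalRing.residue ↥A c = 0) (hc' : IsLocalRing.residue ↥A c' = 0)
    {u : modularFunctionFieldBar (N * p)} (hu0 : u ≠ 0) {c₁ c₂ : Kbar}
    {g₁ g₂ : modularFunctionFieldBar N} (Z Z₁ Z₂ : LaurentSeries ↥A)
    (hu : (u : LaurentSeries Kbar) =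
      1 + HahnSeries.C (c : Kbar) * coeffMap (A.subtype : ↥A →+* Kbar) Z)
    (hg₁ : (g₁ : LaurentSeries Kbar) =
      1 + HahnSeries.C (c' : Kbar) * coeffMap (A.subtype : ↥A →+* Kbar) Z₁)
    (hg₂ : (g₂ : LaurentSeries Kbar) =
      1 + HahnSeries.C (c' : Kbar) * coeffMap (A.subtype : ↥A →+* Kbar) Z₂)
    (hα : normAlong (heckeAlphaBar Kbar N p) u
      = algebraMap Kbar (modularFunctionFieldBar N) c₁ * g₁ ^ p)
    (hβ : normAlong (heckeBetaBar Kbar N p) u
      = algebraMap Kbar (modularFunctionFieldBar N) c₂ * g₂ ^ p) :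
    ∀ t : ↥A, t ≠ 0 → ∃ V R : LaurentSeries ↥A, coeffMap (IsLocalRing.residue ↥A) V = 1 ∧
      (1 + HahnSeries.C c * Z) - V ^ p = HahnSeries.C t * R :=
  fun t ht => b3_approx_aux N p hp hN A hA c c' hc hc' hu0 Z Z₁ Z₂ hu hg₁ hg₂ hα hβ t ht

/-- **[B3-APPROX] for `W u`**: `W u = 1 + c Z` at `∞` and the same norm relations. -/
theorem b3_approx_W (A : ValuationSubring Kbar) (hA : A.LiesOverPrime p) (c c' : ↥A)
    (hc : IsLocalRing.residue ↥A c = 0) (hc' : IsLocalRing.residue ↥A c' = 0)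
    {u : modularFunctionFieldBar (N * p)} (hu0 : u ≠ 0) {c₁ c₂ : Kbar}
    {g₁ g₂ : modularFunctionFieldBar N} (Z Z₁ Z₂ : LaurentSeries ↥A)
    (hu : ((atkinLehner N p hp hN u : modularFunctionFieldBar (N * p)) : LaurentSeries Kbar) =
      1 + HahnSeries.C (c : Kbar) * coeffMap (A.subtype : ↥A →+* Kbar) Z)
    (hg₁ : (g₁ : LaurentSeries Kbar) =
      1 + HahnSeries.C (c' : Kbar) * coeffMap (A.subtype : ↥A →+* Kbar) Z₁)
    (hg₂ : (g₂ : LaurentSeries Kbar) =
      1 + HahnSeries.C (c' : Kbar) * coeffMap (A.subtype : ↥A →+* Kbar) Z₂)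
    (hα : normAlong (heckeAlphaBar Kbar N p) u
      = algebraMap Kbar (modularFunctionFieldBar N) c₁ * g₁ ^ p)
    (hβ : normAlong (heckeBetaBar Kbar N p) u
      = algebraMap Kbar (modularFunctionFieldBar N) c₂ * g₂ ^ p) :
    ∀ t : ↥A, t ≠ 0 → ∃ V R : LaurentSeries ↥A, coeffMap (IsLocalRing.residue ↥A) V = 1 ∧
      (1 + HahnSeries.C c * Z) - V ^ p = HahnSeries.C t * R := by
  intro t ht
  have hW0 : atkinLehner N p hp hN u ≠ 0 := (map_ne_zero (atkinLehner N p hp hN)).mpr hu0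
  have hα' : normAlong (heckeAlphaBar Kbar N p) (atkinLehner N p hp hN u)
      = algebraMap Kbar (modularFunctionFieldBar N) c₂ * g₂ ^ p := by
    rw [← normAlong_beta_eq N p hp hN]
    exact hβ
  have hβ' : normAlong (heckeBetaBar Kbar N p) (atkinLehner N p hp hN u)
      = algebraMap Kbar (modularFunctionFieldBar N) c₁ * g₁ ^ p := by
    rw [normAlong_beta_eq N p hp hN, atkinLehner_atkinLehner]
    exact hα
  exact b3_approx_aux N p hp hN A hA c c' hc hc' hW0 Z Z₂ Z₁ hu hg₂ hg₁ hα' hβ' t ht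

end Instance

end Fermat.Agent.T7.helper43

end
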