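import Mathlib

/-!
# T7 / S33, leaf [B3] (helper44): the norm operator `NU` on power series -- abstract core

`R` a commutative ring, `p` a prime, `ζ` a primitive `p`-th root of unity of `R`.

* `rotProd p ζ f = ∏_{j<p} f(ζ^j X)`;
* `nuOp p ζ f` : the power series `NU f` with `(NU f)(X^p) = ∏_{j<p} f(ζ^j X)`
  (`expand_nuOp`, `R` a domain): the expansion at the ramified cusp of the norm along the
  degeneracy map;
* `nuOp` is multiplicative (`nuOp_mul`, `nuOp_one`, `nuOp_pow`), `nuOp (C c) = C (c ^ p)`,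
  `nuOp X = X` for `p` odd, and maps units to units;
* **depth raising** (`coeffIn_nuOp_sub_one`): if all coefficients of `f - 1` lie in an ideal `I`,
  then all coefficients of `NU f - 1` lie in `p I + I²`;
* `exists_iterate_nuOp_deep` : if `I ^ m ≤ (p)`, then for all large `k` the coefficients of
  `NU^k f - 1` lie in `(p²)`.

Mathlib only.
-/

set_option autoImplicit false

noncomputable section

open PowerSeries

namespace Fermat.Agent.T7.helper44

variable {R : Type*} [CommRing R]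

/-- all coefficients of `F` lie in the ideal `I` -/
def CoeffIn (I : Ideal R) (F : R⟦X⟧) : Prop := ∀ n : ℕ, coeff n F ∈ I

theorem coeffIn_zero (I : Ideal R) : CoeffIn I (0 : R⟦X⟧) := fun n => by
  rw [map_zero]; exact I.zero_mem

theorem CoeffIn.add {I : Ideal R} {F G : R⟦X⟧} (hF : CoeffIn I F) (hG : CoeffIn I G) :
    CoeffIn I (F + G) := fun n => by
  rw [map_add]; exact I.add_mem (hF n) (hG n)

theorem CoeffIn.neg {I : Ideal R} {F : R⟦X⟧} (hF : CoeffIn I F) : CoeffIn I (-F) := fun n => by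
  rw [map_neg]; exact I.neg_mem (hF n)

theorem CoeffIn.sub {I : Ideal R} {F G : R⟦X⟧} (hF : CoeffIn I F) (hG : CoeffIn I G) :
    CoeffIn I (F - G) := fun n => by
  rw [map_sub]; exact I.sub_mem (hF n) (hG n)

theorem CoeffIn.mono {I J : Ideal R} (hIJ : I ≤ J) {F : R⟦X⟧} (hF : CoeffIn I F) :
    CoeffIn J F := fun n => hIJ (hF n)

theorem CoeffIn.mul {I J : Ideal R} {F G : R⟦X⟧} (hF : CoeffIn I F) (hG : CoeffIn J G) :
    CoeffIn (I * J) (F * G) :=
  coeff_mul_mem_ideal_mul_ideal_of_coeff_mem_ideal' hF hG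

theorem CoeffIn.mul_left {I : Ideal R} {G : R⟦X⟧} (hG : CoeffIn I G) (F : R⟦X⟧) :
    CoeffIn I (F * G) :=
  coeff_mul_mem_ideal_of_coeff_right_mem_ideal' hG

theorem CoeffIn.mul_right {I : Ideal R} {F : R⟦X⟧} (hF : CoeffIn I F) (G : R⟦X⟧) :
    CoeffIn I (F * G) := by
  rw [mul_comm]; exact hF.mul_left G

theorem CoeffIn.sum {I : Ideal R} {ι : Type*} (s : Finset ι) (F : ι → R⟦X⟧)
    (hF : ∀ i ∈ s, CoeffIn I (F i)) : CoeffIn I (∑ i ∈ s, F i) := fun n => by
  rw [map_sum]; exact I.sum_mem fun i hi => hF i hi n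

theorem CoeffIn.rescale {I : Ideal R} {F : R⟦X⟧} (hF : CoeffIn I F) (a : R) :
    CoeffIn I (rescale a F) := fun n => by
  rw [coeff_rescale]; exact I.mul_mem_left _ (hF n)

/-! ## The operators -/

/-- the product of the `p` rotations `f(ζ^j X)`, `j < p` -/
def rotProd (p : ℕ) (ζ : R) (f : R⟦X⟧) : R⟦X⟧ :=
  ∏ j ∈ Finset.range p, rescale (ζ ^ j) f

/-- the contraction `∑ aₙ Xⁿ ↦ ∑ a_{pn} Xⁿ` -/
def contract (p : ℕ) (F : R⟦X⟧) : R⟦X⟧ := PowerSeries.mk fun n => coeff (p * n) F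

@[simp]
theorem coeff_contract (p : ℕ) (F : R⟦X⟧) (n : ℕ) :
    coeff n (contract p F) = coeff (p * n) F := by
  rw [contract, coeff_mk]

/-- the norm operator: `(NU f)(X^p) = ∏_{j<p} f(ζ^j X)` -/
def nuOp (p : ℕ) (ζ : R) (f : R⟦X⟧) : R⟦X⟧ := contract p (rotProd p ζ f)

theorem rotProd_one (p : ℕ) (ζ : R) : rotProd p ζ (1 : R⟦X⟧) = 1 := by
  simp [rotProd]

theorem rotProd_mul (p : ℕ) (ζ : R) (f g : R⟦X⟧) :
    rotProd p ζ (f * g) = rotProd p ζ f * rotProd p ζ g := by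
  simp only [rotProd, map_mul, Finset.prod_mul_distrib]

theorem rotProd_C (p : ℕ) (ζ c : R) : rotProd p ζ (C c : R⟦X⟧) = C (c ^ p) := by
  have h : ∀ a : R, rescale a (C c : R⟦X⟧) = C c := by
    intro a
    ext n
    rw [coeff_rescale, coeff_C]
    split_ifs with h
    · subst h; simp
    · simp
  simp only [rotProd, h, Finset.prod_const, Finset.card_range, map_pow]

theorem expand_injective (p : ℕ) (hp : p ≠ 0) :
    Function.Injective (PowerSeries.expand p hp : R⟦X⟧ → R⟦X⟧) := by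
  intro f g h
  ext n
  rw [← coeff_expand_mul p hp f n, ← coeff_expand_mul p hp g n, h]

/-- `rotProd` is invariant under the rotation by `ζ` -/
theorem rescale_rotProd {p : ℕ} {ζ : R} (hζ : ζ ^ p = 1) (f : R⟦X⟧) :
    rescale ζ (rotProd p ζ f) = rotProd p ζ f := by
  have h1 : rescale ζ (rotProd p ζ f) = ∏ j ∈ Finset.range p, rescale (ζ ^ (j + 1)) f := by
    rw [rotProd, map_prod]
    refine Finset.prod_congr rfl fun j _ => ?_
    rw [rescale_rescale, pow_succ]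
  rw [h1, rotProd]
  rcases Nat.eq_zero_or_pos p with rfl | hp
  · simp
  obtain ⟨n, rfl⟩ : ∃ n, p = n + 1 := ⟨p - 1, by omega⟩
  rw [Finset.prod_range_succ, Finset.prod_range_succ' (fun j => rescale (ζ ^ j) f), hζ, pow_zero]

variable [IsDomain R]

theorem coeff_rotProd_of_not_dvd {p : ℕ} {ζ : R} (hζ : IsPrimitiveRoot ζ p) (f : R⟦X⟧)
    {n : ℕ} (hn : ¬ p ∣ n) : coeff n (rotProd p ζ f) = 0 := by
  have h1 := congrArg (coeff n) (rescale_rotProd hζ.pow_eq_one f)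
  rw [coeff_rescale] at h1
  have h2 : (ζ ^ n - 1) * coeff n (rotProd p ζ f) = 0 := by
    rw [sub_mul, h1, one_mul, sub_self]
  rcases mul_eq_zero.1 h2 with h3 | h3
  · exact absurd ((hζ.pow_eq_one_iff_dvd n).1 (sub_eq_zero.1 h3)) hn
  · exact h3

/-- **the defining property of `NU`**: `(NU f)(X^p) = ∏_{j<p} f(ζ^j X)` -/
theorem expand_nuOp {p : ℕ} (hp : p ≠ 0) {ζ : R} (hζ : IsPrimitiveRoot ζ p) (f : R⟦X⟧) :
    PowerSeries.expand p hp (nuOp p ζ f) = rotProd p ζ f := by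
  ext n
  rw [coeff_expand]
  split_ifs with h
  · obtain ⟨m, rfl⟩ := h
    rw [Nat.mul_div_cancel_left _ (Nat.pos_of_ne_zero hp), nuOp, coeff_contract]
  · rw [coeff_rotProd_of_not_dvd hζ f h]

theorem nuOp_one {p : ℕ} (hp : p ≠ 0) {ζ : R} (hζ : IsPrimitiveRoot ζ p) :
    nuOp p ζ (1 : R⟦X⟧) = 1 := by
  apply expand_injective p hp
  rw [expand_nuOp hp hζ, rotProd_one, map_one]

theorem nuOp_mul {p : ℕ} (hp : p ≠ 0) {ζ : R} (hζ : IsPrimitiveRoot ζ p) (f g : R⟦X⟧) :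
    nuOp p ζ (f * g) = nuOp p ζ f * nuOp p ζ g := by
  apply expand_injective p hp
  rw [map_mul, expand_nuOp hp hζ, expand_nuOp hp hζ, expand_nuOp hp hζ, rotProd_mul]

/-- `NU` as a monoid homomorphism -/
def nuHom {p : ℕ} (hp : p ≠ 0) {ζ : R} (hζ : IsPrimitiveRoot ζ p) : R⟦X⟧ →* R⟦X⟧ where
  toFun := nuOp p ζ
  map_one' := nuOp_one hp hζ
  map_mul' := nuOp_mul hp hζ

@[simp]
theorem nuHom_apply {p : ℕ} (hp : p ≠ 0) {ζ : R} (hζ : IsPrimitiveRoot ζ p) (f : R⟦X⟧) :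
    nuHom hp hζ f = nuOp p ζ f := rfl

theorem nuOp_pow {p : ℕ} (hp : p ≠ 0) {ζ : R} (hζ : IsPrimitiveRoot ζ p) (f : R⟦X⟧) (n : ℕ) :
    nuOp p ζ (f ^ n) = nuOp p ζ f ^ n :=
  map_pow (nuHom hp hζ) f n

theorem isUnit_nuOp {p : ℕ} (hp : p ≠ 0) {ζ : R} (hζ : IsPrimitiveRoot ζ p) {f : R⟦X⟧}
    (hf : IsUnit f) : IsUnit (nuOp p ζ f) :=
  hf.map (nuHom hp hζ)

theorem nuOp_C {p : ℕ} (hp : p ≠ 0) {ζ : R} (hζ : IsPrimitiveRoot ζ p) (c : R) :
    nuOp p ζ (C c : R⟦X⟧) = C (c ^ p) := by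
  apply expand_injective p hp
  rw [expand_nuOp hp hζ, rotProd_C, expand_C]

/-- `NU X = X` for `p` odd -/
theorem nuOp_X {p : ℕ} (hp : p ≠ 0) (hodd : Odd p) {ζ : R} (hζ : IsPrimitiveRoot ζ p) :
    nuOp p ζ (X : R⟦X⟧) = X := by
  apply expand_injective p hp
  rw [expand_nuOp hp hζ, expand_X, rotProd]
  have h : ∀ a : R, rescale a (X : R⟦X⟧) = C a * X := by
    intro a
    ext n
    rw [coeff_rescale, coeff_C_mul, coeff_X]
    split_ifs with h
    · subst h; simp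
    · simp
  simp only [h, Finset.prod_mul_distrib, Finset.prod_const, Finset.card_range]
  rw [← map_prod, Finset.prod_pow_eq_pow_sum]
  have h2 : ζ ^ (∑ j ∈ Finset.range p, j) = 1 := by
    rw [Finset.sum_range_id]
    obtain ⟨k, hk⟩ := hodd
    have h3 : p * (p - 1) / 2 = p * k := by
      rw [hk, Nat.add_sub_cancel, mul_comm 2 k, ← mul_assoc, Nat.mul_div_cancel _ (by norm_num)]
    rw [h3, pow_mul, hζ.pow_eq_one, one_pow]
  rw [h2, map_one, one_mul]

/-! ## Depth raising -/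

/-- the sum of the `p` rotations has all coefficients in `p I` -/
theorem coeffIn_sum_rescale {p : ℕ} (hp : p.Prime) {ζ : R} (hζ : IsPrimitiveRoot ζ p)
    {I : Ideal R} {y : R⟦X⟧} (hy : CoeffIn I y) :
    CoeffIn (Ideal.span {(p : R)} * I) (∑ j ∈ Finset.range p, rescale (ζ ^ j) y) := by
  intro n
  rw [map_sum]
  simp only [coeff_rescale]
  rw [← Finset.sum_mul]
  by_cases hn : p ∣ n
  · have h1 : ∀ j ∈ Finset.range p, (ζ ^ j) ^ n = 1 := by
      intro j _
      obtain ⟨m, rfl⟩ := hn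
      rw [← pow_mul, mul_comm j, mul_assoc, pow_mul, hζ.pow_eq_one, one_pow]
    rw [Finset.sum_congr rfl h1, Finset.sum_const, Finset.card_range, nsmul_eq_mul, mul_one]
    exact Ideal.mul_mem_mul (Ideal.mem_span_singleton_self _) (hy n)
  · have hcop : Nat.Coprime n p := (Nat.Coprime.symm ((Nat.Prime.coprime_iff_not_dvd hp).2 hn))
    have h1 : IsPrimitiveRoot (ζ ^ n) p := hζ.pow_of_coprime n hcop
    have h2 : ∑ j ∈ Finset.range p, (ζ ^ j) ^ n = 0 := by
      have h3 := h1.geom_sum_eq_zero hp.one_lt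
      rw [← h3]
      refine Finset.sum_congr rfl fun j _ => ?_
      rw [← pow_mul, ← pow_mul, mul_comm]
    rw [h2, zero_mul]
    exact Ideal.zero_mem _

omit [IsDomain R] in
/-- `∏ (1 + y_j) = 1 + ∑ y_j + G` with all coefficients of `G` in `I²` -/
theorem exists_prod_one_add {ι : Type*} (s : Finset ι) {I : Ideal R} (y : ι → R⟦X⟧)
    (hy : ∀ j ∈ s, CoeffIn I (y j)) :
    ∃ G : R⟦X⟧, CoeffIn (I * I) G ∧ ∏ j ∈ s, (1 + y j) = 1 + ∑ j ∈ s, y j + G := by
  classical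
  induction s using Finset.induction_on with
  | empty => exact ⟨0, coeffIn_zero _, by simp⟩
  | insert a s ha ih =>
    obtain ⟨G, hG, hprod⟩ := ih fun j hj => hy j (Finset.mem_insert_of_mem hj)
    have hya : CoeffIn I (y a) := hy a (Finset.mem_insert_self a s)
    have hsum : CoeffIn I (∑ j ∈ s, y j) :=
      CoeffIn.sum s y fun j hj => hy j (Finset.mem_insert_of_mem hj)
    refine ⟨G + y a * ∑ j ∈ s, y j + y a * G, ?_, ?_⟩
    · exact (hG.add (hya.mul hsum)).add (hG.mul_left _)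
    · rw [Finset.prod_insert ha, Finset.sum_insert ha, hprod]
      ring

/-- **Depth raising**: if all coefficients of `f - 1` lie in `I`, then all coefficients of
`NU f - 1` lie in `p I + I²`. -/
theorem coeffIn_nuOp_sub_one {p : ℕ} (hp : p.Prime) {ζ : R} (hζ : IsPrimitiveRoot ζ p)
    {I : Ideal R} {f : R⟦X⟧} (hf : CoeffIn I (f - 1)) :
    CoeffIn (Ideal.span {(p : R)} * I ⊔ I * I) (nuOp p ζ f - 1) := by
  set y : R⟦X⟧ := f - 1 with hy
  have hfy : f = 1 + y := by rw [hy]; ring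
  obtain ⟨G, hG, hprod⟩ := exists_prod_one_add (Finset.range p)
    (fun j => rescale (ζ ^ j) y) (fun j _ => hf.rescale _)
  have hrot : rotProd p ζ f = 1 + ∑ j ∈ Finset.range p, rescale (ζ ^ j) y + G := by
    rw [rotProd, ← hprod]
    refine Finset.prod_congr rfl fun j _ => ?_
    rw [hfy, map_add, map_one]
  intro n
  have h1 : coeff n (nuOp p ζ f - 1) =
      coeff (p * n) (∑ j ∈ Finset.range p, rescale (ζ ^ j) y) + coeff (p * n) G := by
    rw [map_sub, nuOp, coeff_contract, hrot, map_add, map_add, coeff_one, coeff_one]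
    have h2 : (p * n = 0) ↔ (n = 0) := by
      constructor
      · intro h
        rcases Nat.mul_eq_zero.1 h with h | h
        · exact absurd h hp.ne_zero
        · exact h
      · rintro rfl; rfl
    by_cases h0 : n = 0
    · rw [if_pos h0, if_pos (h2.2 h0)]; ring
    · rw [if_neg h0, if_neg (fun h => h0 (h2.1 h))]; ring
  rw [h1]
  exact Ideal.add_mem _ (Ideal.mem_sup_left (coeffIn_sum_rescale hp hζ hf _))
    (Ideal.mem_sup_right (hG _))

/-- iterated depth raising, ideal form -/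
theorem coeffIn_iterate_nuOp_sub_one {p : ℕ} (hp : p.Prime) {ζ : R}
    (hζ : IsPrimitiveRoot ζ p) {I : Ideal R} {f : R⟦X⟧} (hf : CoeffIn I (f - 1)) (k : ℕ) :
    CoeffIn ((Ideal.span {(p : R)} ⊔ I) ^ (k + 1)) ((nuOp p ζ)^[k] f - 1) := by
  induction k with
  | zero =>
    rw [Function.iterate_zero, id, zero_add, pow_one]
    exact hf.mono le_sup_right
  | succ k ih =>
    rw [Function.iterate_succ', Function.comp_apply]
    refine (coeffIn_nuOp_sub_one hp hζ ih).mono ?_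
    set 𝔞 : Ideal R := Ideal.span {(p : R)} ⊔ I
    refine sup_le ?_ ?_
    · calc Ideal.span {(p : R)} * 𝔞 ^ (k + 1) ≤ 𝔞 * 𝔞 ^ (k + 1) :=
            Ideal.mul_mono_left le_sup_left
        _ = 𝔞 ^ (k + 1 + 1) := by rw [← pow_succ']
    · calc 𝔞 ^ (k + 1) * 𝔞 ^ (k + 1) = 𝔞 ^ (k + 1 + (k + 1)) := (pow_add _ _ _).symm
        _ ≤ 𝔞 ^ (k + 1 + 1) := Ideal.pow_le_pow_right (by omega)

/-- **Deep after finitely many steps**: if `I ^ m ≤ (p)` and all coefficients of `f - 1` lie in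
`I`, then for every `k ≥ 2 m + 1` all coefficients of `NU^k f - 1` lie in `(p²)`. -/
theorem coeffIn_iterate_nuOp_deep {p : ℕ} (hp : p.Prime) {ζ : R}
    (hζ : IsPrimitiveRoot ζ p) {I : Ideal R} {m : ℕ} (hI : I ^ m ≤ Ideal.span {(p : R)})
    {f : R⟦X⟧} (hf : CoeffIn I (f - 1)) {k : ℕ} (hk : 2 * m + 1 ≤ k) :
    CoeffIn (Ideal.span {(p : R) ^ 2}) ((nuOp p ζ)^[k] f - 1) := by
  refine (coeffIn_iterate_nuOp_sub_one hp hζ hf k).mono ?_
  set 𝔞 : Ideal R := Ideal.span {(p : R)} ⊔ I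
  calc 𝔞 ^ (k + 1) ≤ 𝔞 ^ (2 + 2 * m) := Ideal.pow_le_pow_right (by omega)
    _ ≤ Ideal.span {(p : R)} ^ 2 ⊔ I ^ (2 * m) := Ideal.sup_pow_add_le_pow_sup_pow
    _ ≤ Ideal.span {(p : R) ^ 2} := by
        refine sup_le ?_ ?_
        · rw [Ideal.span_singleton_pow]
        · rw [mul_comm, pow_mul]
          calc (I ^ m) ^ 2 ≤ Ideal.span {(p : R)} ^ 2 := Ideal.pow_right_mono hI 2
            _ = Ideal.span {(p : R) ^ 2} := Ideal.span_singleton_pow _ _

end Fermat.Agent.T7.helper44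

end
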