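import Mathlib
import Fermat.Agent.T7.helper44_NUCore

/-!
# T7 / S33, leaf [B3] (helper44): `p`-th roots of deep `1`-unit power series

`S` any commutative ring, `p ≥ 3` a prime.

* `exists_fixed_of_contracting` : a map `Ψ` of `S⟦X⟧` with
  `X^n ∣ Z - Z' → X^(n+1) ∣ Ψ Z - Ψ Z'` has a fixed point;
* `exists_pow_eq_one_add` : for every `h` there is `V` with
  `(1 + p X V) ^ p = 1 + p² X h`;
* `exists_pow_eq_of_coeffIn` : a power series `f` with unit constant coefficient `f₀` all of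
  whose coefficients of `f - 1` lie in `(p²)` is `f₀ * T ^ p` with `T` a unit.

No completeness of the coefficient ring, no characteristic assumption.  Mathlib only.
-/

set_option autoImplicit false

noncomputable section

open PowerSeries

namespace Fermat.Agent.T7.helper44

variable {S : Type*} [CommRing S]

/-- **Fixed points of contracting maps** of `S⟦X⟧` (for the `X`-adic topology). -/
theorem exists_fixed_of_contracting (Ψ : S⟦X⟧ → S⟦X⟧)
    (hΨ : ∀ (n : ℕ) (Z Z' : S⟦X⟧), (X : S⟦X⟧) ^ n ∣ Z - Z' →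
      (X : S⟦X⟧) ^ (n + 1) ∣ Ψ Z - Ψ Z') :
    ∃ V : S⟦X⟧, Ψ V = V := by
  set W : ℕ → S⟦X⟧ := fun k => Ψ^[k] 0 with hW
  have hWs : ∀ k, W (k + 1) = Ψ (W k) := fun k => by
    simp only [hW, Function.iterate_succ', Function.comp_apply]
  have h1 : ∀ k, (X : S⟦X⟧) ^ k ∣ W (k + 1) - W k := by
    intro k
    induction k with
    | zero => rw [pow_zero]; exact one_dvd _
    | succ k ih =>
      have h0 := hΨ k (W (k + 1)) (W k) ih
      rw [← hWs (k + 1), ← hWs k] at h0
      exact h0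
  have h2 : ∀ k j, (X : S⟦X⟧) ^ k ∣ W (k + j) - W k := by
    intro k j
    induction j with
    | zero => rw [add_zero, sub_self]; exact dvd_zero _
    | succ j ih =>
      have e : W (k + (j + 1)) - W k = (W (k + j + 1) - W (k + j)) + (W (k + j) - W k) := by
        rw [← add_assoc]; ring
      rw [e]
      exact dvd_add (dvd_trans (pow_dvd_pow _ (Nat.le_add_right k j)) (h1 (k + j))) ih
  set V : S⟦X⟧ := PowerSeries.mk fun n => coeff n (W (n + 1)) with hV
  have h3 : ∀ k, (X : S⟦X⟧) ^ k ∣ V - W k := by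
    intro k
    rw [X_pow_dvd_iff]
    intro m hm
    obtain ⟨j, rfl⟩ : ∃ j, k = m + 1 + j := ⟨k - (m + 1), by omega⟩
    have h4 := (X_pow_dvd_iff.1 (h2 (m + 1) j)) m (Nat.lt_succ_self m)
    rw [map_sub, sub_eq_zero] at h4
    rw [map_sub, hV, coeff_mk, h4, sub_self]
  refine ⟨V, ?_⟩
  have h5 : ∀ k, (X : S⟦X⟧) ^ (k + 1) ∣ Ψ V - V := by
    intro k
    have e : Ψ V - V = (Ψ V - Ψ (W k)) - (V - W (k + 1)) := by
      rw [hWs k]; ring
    rw [e]
    exact dvd_sub (hΨ k _ _ (h3 k)) (h3 (k + 1))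
  have h6 : Ψ V - V = 0 := by
    ext n
    rw [map_zero]
    exact (X_pow_dvd_iff.1 (h5 n)) n (Nat.lt_succ_self n)
  exact sub_eq_zero.1 h6

/-- the universal identity `(1 + Y)^p = 1 + Y^p + p Y + p Y² r₁(Y)` in `ℤ[Y]` -/
theorem exists_poly_one_add_pow (p : ℕ) (hp : p.Prime) :
    ∃ r₁ : Polynomial ℤ, (1 + Polynomial.X : Polynomial ℤ) ^ p =
      1 + Polynomial.X ^ p + (p : Polynomial ℤ) * Polynomial.X +
        (p : Polynomial ℤ) * Polynomial.X ^ 2 * r₁ := by
  obtain ⟨r, hr⟩ := exists_add_pow_prime_eq hp (1 : Polynomial ℤ) Polynomial.X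
  have h0 : r.coeff 0 = 1 := by
    have h1 : ((1 + Polynomial.X : Polynomial ℤ) ^ p).coeff 1 =
        (1 ^ p + Polynomial.X ^ p + (p : Polynomial ℤ) * 1 * Polynomial.X * r).coeff 1 := by
      rw [hr]
    rw [Polynomial.coeff_one_add_X_pow, Nat.choose_one_right, one_pow, Polynomial.coeff_add,
      Polynomial.coeff_add, Polynomial.coeff_one, Polynomial.coeff_X_pow, mul_one,
      mul_assoc, ← Polynomial.C_eq_natCast, Polynomial.coeff_C_mul,
      Polynomial.coeff_X_mul] at h1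
    have hp1 : (1 : ℕ) ≠ p := hp.one_lt.ne
    rw [if_neg (by norm_num), if_neg hp1] at h1
    have hp0 : (p : ℤ) ≠ 0 := by exact_mod_cast hp.ne_zero
    have h2 : (p : ℤ) * 1 = (p : ℤ) * r.coeff 0 := by
      rw [mul_one]
      simpa using h1
    exact (mul_left_cancel₀ hp0 h2).symm
  have h3 : Polynomial.X ∣ r - 1 := by
    rw [Polynomial.X_dvd_iff, Polynomial.coeff_sub, h0, Polynomial.coeff_one_zero, sub_self]
  obtain ⟨r₁, hr₁⟩ := h3
  refine ⟨r₁, ?_⟩
  have h4 : r = 1 + Polynomial.X * r₁ := by rw [← hr₁]; ring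
  rw [hr, h4]
  ring

/-- for every `b` in a commutative ring: `(1 + b)^p = 1 + b^p + p b + p b² r₁(b)` with the same
polynomial `r₁ ∈ ℤ[Y]` -/
theorem exists_poly_one_add_pow_eval (p : ℕ) (hp : p.Prime) :
    ∃ r₁ : Polynomial ℤ, ∀ (T : Type*) [CommRing T] (b : T),
      (1 + b) ^ p = 1 + b ^ p + (p : T) * b +
        (p : T) * b ^ 2 * Polynomial.eval₂ (Int.castRingHom T) b r₁ := by
  obtain ⟨r₁, hr₁⟩ := exists_poly_one_add_pow p hp
  refine ⟨r₁, fun T _ b => ?_⟩
  have h := congrArg (Polynomial.eval₂ (Int.castRingHom T) b) hr₁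
  simpa [Polynomial.eval₂_add, Polynomial.eval₂_mul, Polynomial.eval₂_pow, Polynomial.eval₂_X,
    Polynomial.eval₂_one, Polynomial.eval₂_natCast] using h

/-- **Deep roots, explicit form**: `(1 + p X V)^p = 1 + p² X h` has a solution `V` for every
`h`. -/
theorem exists_pow_eq_one_add (p : ℕ) (hp : p.Prime) (hp3 : 3 ≤ p) (h : S⟦X⟧) :
    ∃ V : S⟦X⟧, (1 + C (p : S) * X * V) ^ p = 1 + C ((p : S) ^ 2) * X * h := by
  obtain ⟨r₁, hr₁⟩ := exists_poly_one_add_pow_eval p hp
  -- the polynomial `Ĝ` with `G₁ V = Ĝ(V)`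
  set P : S⟦X⟧ := C (p : S) with hP
  set Ghat : Polynomial S⟦X⟧ :=
    Polynomial.X ^ 2 * ((r₁.map (Int.castRingHom S⟦X⟧)).comp (Polynomial.C (P * X) * Polynomial.X)
      + Polynomial.C (P ^ (p - 3) * X ^ (p - 2)) * Polynomial.X ^ (p - 2)) with hGhat
  have hG : ∀ V : S⟦X⟧, Ghat.eval V =
      V ^ 2 * (Polynomial.eval₂ (Int.castRingHom S⟦X⟧) (P * X * V) r₁ +
        P ^ (p - 3) * X ^ (p - 2) * V ^ (p - 2)) := by
    intro V
    rw [hGhat]
    simp only [Polynomial.eval_mul, Polynomial.eval_pow, Polynomial.eval_X, Polynomial.eval_add,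
      Polynomial.eval_comp, Polynomial.eval_C, Polynomial.eval_map]
  obtain ⟨V, hV⟩ := exists_fixed_of_contracting (fun V => h - P * X * Ghat.eval V) (by
    intro n Z Z' hZ
    have h1 : (Z - Z') ∣ Ghat.eval Z - Ghat.eval Z' := Polynomial.sub_dvd_eval_sub Z Z' Ghat
    have e : (h - P * X * Ghat.eval Z) - (h - P * X * Ghat.eval Z') =
        X * (-(P * (Ghat.eval Z - Ghat.eval Z'))) := by ring
    rw [e, pow_succ']
    exact mul_dvd_mul_left _ ((dvd_trans hZ h1).mul_left _ |>.neg_right))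
  refine ⟨V, ?_⟩
  have hV' : h - P * X * Ghat.eval V = V := hV
  have hh : h = V + P * X * Ghat.eval V := by
    linear_combination hV'
  have hpow : P ^ p = P ^ 3 * P ^ (p - 3) := by
    rw [← pow_add]; congr 1; omega
  have hXp : (X : S⟦X⟧) ^ p = X ^ 2 * X ^ (p - 2) := by
    rw [← pow_add]; congr 1; omega
  have hVp : V ^ p = V ^ 2 * V ^ (p - 2) := by
    rw [← pow_add]; congr 1; omega
  have hcast : ((p : ℕ) : S⟦X⟧) = P := by
    rw [hP, map_natCast]
  have key := hr₁ S⟦X⟧ (P * X * V)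
  rw [hcast] at key
  rw [show C ((p : S) ^ 2) = P ^ 2 by rw [hP, map_pow]]
  rw [key, hh, hG, mul_pow, mul_pow, hpow, hXp, hVp]
  ring

/-- **Deep roots**: a power series with unit constant coefficient `f₀` such that all
coefficients of `f - 1` lie in `(p²)` is `f₀ * T ^ p` with `T` a unit. -/
theorem exists_pow_eq_of_coeffIn (p : ℕ) (hp : p.Prime) (hp3 : 3 ≤ p) {f : S⟦X⟧}
    (hf : CoeffIn (Ideal.span {(p : S) ^ 2}) (f - 1)) (hu : IsUnit (constantCoeff f)) :
    ∃ T : S⟦X⟧, IsUnit T ∧ f = C (constantCoeff f) * T ^ p := by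
  obtain ⟨c₀, hc₀⟩ := hu
  have hcoef : ∀ n : ℕ, ∃ r : S, coeff (n + 1) f = (p : S) ^ 2 * r := by
    intro n
    have h1 := hf (n + 1)
    rw [map_sub, coeff_one, if_neg (Nat.succ_ne_zero n), sub_zero,
      Ideal.mem_span_singleton] at h1
    exact h1
  choose r hr using hcoef
  set h : S⟦X⟧ := PowerSeries.mk fun n => (↑(c₀⁻¹) : S) * r n with hh
  obtain ⟨V, hV⟩ := exists_pow_eq_one_add p hp hp3 h
  have hg : C (↑(c₀⁻¹) : S) * f = 1 + C ((p : S) ^ 2) * X * h := by
    ext n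
    rcases n with _ | n
    · rw [coeff_zero_eq_constantCoeff_apply, coeff_zero_eq_constantCoeff_apply]
      simp [← hc₀]
    · rw [coeff_C_mul, hr n, map_add, coeff_one, if_neg (Nat.succ_ne_zero n), zero_add,
        mul_assoc, coeff_C_mul, coeff_succ_X_mul, hh, coeff_mk]
      ring
  refine ⟨1 + C (p : S) * X * V, ?_, ?_⟩
  · rw [isUnit_iff_constantCoeff]
    simp
  · rw [hV, ← hg, ← mul_assoc, ← map_mul, ← hc₀, Units.mul_inv, map_one, one_mul]

end Fermat.Agent.T7.helper44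

end
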