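import Mathlib
import Fermat.Agent.T7.helper44_NUCore
import Fermat.Agent.T7.helper44_DeepRoot

/-!
# T7 / S33, leaf [B3] (helper44): the iteration theorem

`R` a domain, `p ≥ 3` a prime, `ζ` a primitive `p`-th root of unity of `R`, `NU = nuOp p ζ`.

* `exists_unit_mul_pow_of_nu_relation` : let `u, E, e` be unit power series and `c` a unit
  constant with
    `u = c * E ^ p * NU^j u`      (the norm relation on the unit parts, `j ≥ 1`; `j = 2` in (b3)),
    `u ≡ e ^ p` modulo an ideal `I` with `I ^ m ≤ (p)`   (the reduction of `u` is a `p`-th power).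
  Then `u = c' * T ^ p` with `c'` a unit constant and `T` a unit power series.

No completion, no negative parts: the depth is raised by `NU` (`coeffIn_nuOp_sub_one`) until
`exists_pow_eq_of_coeffIn` applies.  Mathlib only.
-/

set_option autoImplicit false

noncomputable section

open PowerSeries

namespace Fermat.Agent.T7.helper44

variable {R : Type*} [CommRing R] [IsDomain R]

section Iterate

variable {p : ℕ} (hp : p ≠ 0) {ζ : R} (hζ : IsPrimitiveRoot ζ p)

include hp hζ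

theorem iterate_nuOp_one (k : ℕ) : (nuOp p ζ)^[k] (1 : R⟦X⟧) = 1 := by
  induction k with
  | zero => rfl
  | succ k ih => rw [Function.iterate_succ', Function.comp_apply, ih, nuOp_one hp hζ]

theorem iterate_nuOp_mul (k : ℕ) (f g : R⟦X⟧) :
    (nuOp p ζ)^[k] (f * g) = (nuOp p ζ)^[k] f * (nuOp p ζ)^[k] g := by
  induction k with
  | zero => rfl
  | succ k ih =>
    rw [Function.iterate_succ', Function.comp_apply, Function.comp_apply, Function.comp_apply,
      ih, nuOp_mul hp hζ]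

theorem iterate_nuOp_pow (k : ℕ) (f : R⟦X⟧) (n : ℕ) :
    (nuOp p ζ)^[k] (f ^ n) = ((nuOp p ζ)^[k] f) ^ n := by
  induction n with
  | zero => rw [pow_zero, pow_zero, iterate_nuOp_one hp hζ]
  | succ n ih => rw [pow_succ, pow_succ, iterate_nuOp_mul hp hζ, ih]

theorem iterate_nuOp_C (k : ℕ) (c : R) :
    (nuOp p ζ)^[k] (C c : R⟦X⟧) = C (c ^ p ^ k) := by
  induction k with
  | zero => rw [Function.iterate_zero, id, pow_zero, pow_one]
  | succ k ih =>
    rw [Function.iterate_succ', Function.comp_apply, ih, nuOp_C hp hζ, ← pow_mul, ← pow_succ]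

theorem isUnit_iterate_nuOp (k : ℕ) {f : R⟦X⟧} (hf : IsUnit f) :
    IsUnit ((nuOp p ζ)^[k] f) := by
  induction k with
  | zero => exact hf
  | succ k ih =>
    rw [Function.iterate_succ', Function.comp_apply]
    exact isUnit_nuOp hp hζ ih

/-- iterating the norm relation `u = c E^p NU^j u` -/
theorem exists_iterate_relation (j : ℕ) {u E : R⟦X⟧} {c : R} (hE : IsUnit E) (hc : IsUnit c)
    (hrel : u = C c * E ^ p * (nuOp p ζ)^[j] u) (k : ℕ) :
    ∃ (ck : R) (Ek : R⟦X⟧), IsUnit ck ∧ IsUnit Ek ∧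
      u = C ck * Ek ^ p * (nuOp p ζ)^[j * k] u := by
  induction k with
  | zero =>
    refine ⟨1, 1, isUnit_one, isUnit_one, ?_⟩
    rw [mul_zero, Function.iterate_zero, id, map_one, one_pow, one_mul, one_mul]
  | succ k ih =>
    obtain ⟨ck, Ek, hck, hEk, hk⟩ := ih
    refine ⟨ck * c ^ p ^ (j * k), Ek * (nuOp p ζ)^[j * k] E, hck.mul (hc.pow _),
      hEk.mul (isUnit_iterate_nuOp hp hζ _ hE), ?_⟩
    have h1 : (nuOp p ζ)^[j * k] u =
        C (c ^ p ^ (j * k)) * ((nuOp p ζ)^[j * k] E) ^ p * (nuOp p ζ)^[j * (k + 1)] u := by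
      conv_lhs => rw [hrel]
      rw [iterate_nuOp_mul hp hζ, iterate_nuOp_mul hp hζ, iterate_nuOp_C hp hζ,
        iterate_nuOp_pow hp hζ, ← Function.iterate_add_apply, mul_add, mul_one]
    conv_lhs => rw [hk, h1]
    rw [map_mul, mul_pow]
    ring

end Iterate

/-- **The iteration theorem** ([B3], abstract core).  A unit power series `u` satisfying the
norm relation `u = c E^p NU^j u` (`j ≥ 1`) whose reduction modulo `I` (`I^m ≤ (p)`) is a `p`-th
power is a unit constant times a `p`-th power. -/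
theorem exists_unit_mul_pow_of_nu_relation {p : ℕ} (hp : p.Prime) (hp3 : 3 ≤ p) {ζ : R}
    (hζ : IsPrimitiveRoot ζ p) {I : Ideal R} {m : ℕ} (hI : I ^ m ≤ Ideal.span {(p : R)})
    {j : ℕ} (hj : 1 ≤ j) {u E e : R⟦X⟧} {c : R} (hu : IsUnit u) (hE : IsUnit E) (he : IsUnit e)
    (hc : IsUnit c) (hrel : u = C c * E ^ p * (nuOp p ζ)^[j] u)
    (hred : CoeffIn I (u - e ^ p)) :
    ∃ (c' : R) (T : R⟦X⟧), IsUnit c' ∧ IsUnit T ∧ u = C c' * T ^ p := by
  have hp0 : p ≠ 0 := hp.ne_zero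
  obtain ⟨e', he'⟩ := he.exists_right_inv
  have he'u : IsUnit e' := IsUnit.of_mul_eq_one e (by rw [mul_comm]; exact he')
  -- `u' = u e'^p ≡ 1`
  set u' : R⟦X⟧ := u * e' ^ p with hu'
  have hu'1 : CoeffIn I (u' - 1) := by
    have e1 : u' - 1 = (u - e ^ p) * e' ^ p := by
      rw [hu', sub_mul, ← mul_pow, he', one_pow]
    rw [e1]
    exact hred.mul_right _
  have huu' : u = u' * e ^ p := by
    rw [hu', mul_assoc, ← mul_pow, mul_comm e' e, he', one_pow, mul_one]
  -- the number of steps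
  set K : ℕ := j * (2 * m + 1) with hK
  have hKle : 2 * m + 1 ≤ K := by
    rw [hK]
    exact Nat.le_mul_of_pos_left _ hj
  obtain ⟨ck, Ek, hck, hEk, hk⟩ := exists_iterate_relation hp0 hζ j hE hc hrel (2 * m + 1)
  rw [← hK] at hk
  -- `w = NU^K u'` is deep
  set w : R⟦X⟧ := (nuOp p ζ)^[K] u' with hw
  have hwdeep : CoeffIn (Ideal.span {(p : R) ^ 2}) (w - 1) :=
    coeffIn_iterate_nuOp_deep hp hζ hI hu'1 hKle
  have hwu : IsUnit w := isUnit_iterate_nuOp hp0 hζ K (hu.mul (he'u.pow p))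
  have hw0 : IsUnit (constantCoeff w) := (isUnit_iff_constantCoeff.1 hwu)
  obtain ⟨T₀, hT₀, hwT⟩ := exists_pow_eq_of_coeffIn p hp hp3 hwdeep hw0
  refine ⟨ck * constantCoeff w, Ek * T₀ * (nuOp p ζ)^[K] e, hck.mul hw0,
    (hEk.mul hT₀).mul (isUnit_iterate_nuOp hp0 hζ K he), ?_⟩
  have h2 : (nuOp p ζ)^[K] u = w * ((nuOp p ζ)^[K] e) ^ p := by
    conv_lhs => rw [huu']
    rw [iterate_nuOp_mul hp0 hζ, iterate_nuOp_pow hp0 hζ]
  conv_lhs => rw [hk, h2, hwT]
  rw [map_mul, mul_pow, mul_pow]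
  ring

end Fermat.Agent.T7.helper44

end
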