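import Mathlib
import Fermat.Agent.T7.helper44_NUIter

/-!
# T7 / S33, leaf [B3] (helper44): the norm relations on the unit parts

`R` a domain, `p ≥ 3` prime, `ζ ∈ R` a primitive `p`-th root of unity, `NU = nuOp p ζ`.

* `exists_unit_pow_eq_of_pow_eq` : in an integrally closed domain, `B ^ p = U * D ^ p` with `U` a
  unit and `D ≠ 0` forces `U = ε ^ p` with `ε` a unit (the UFD descent of the norm relation);
* `nu_relation_of_pair` : `u₁ * NU u₂ = ε₁ ^ p`, `u₂ * NU u₁ = ε₂ ^ p` (units) give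
  `u₁ = E ^ p * NU (NU u₁)` with `E` a unit;
* `exists_unit_mul_pow_of_pair` : if moreover `u₁ ≡ e ^ p` modulo `I`, `I ^ m ≤ (p)`, then
  `u₁ = c' * T ^ p` with `c'` a unit constant and `T` a unit power series.

Mathlib only.
-/

set_option autoImplicit false

noncomputable section

open PowerSeries

namespace Fermat.Agent.T7.helper44

/-- **UFD descent**: in an integrally closed domain, `B ^ p = U * D ^ p`, `U` a unit, `D ≠ 0`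
implies that `U` is the `p`-th power of a unit. -/
theorem exists_unit_pow_eq_of_pow_eq {D : Type*} [CommRing D] [IsDomain D]
    [IsIntegrallyClosed D] {p : ℕ} (hp : p ≠ 0) {B U Dd : D} (hU : IsUnit U) (hD : Dd ≠ 0)
    (h : B ^ p = U * Dd ^ p) : ∃ ε : D, IsUnit ε ∧ U = ε ^ p := by
  have h1 : Dd ^ p ∣ B ^ p := ⟨U, by rw [h, mul_comm]⟩
  obtain ⟨ε, hε⟩ := (IsIntegrallyClosed.pow_dvd_pow_iff hp).1 h1
  have h2 : ε ^ p * Dd ^ p = U * Dd ^ p := by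
    rw [← h, hε, mul_pow, mul_comm]
  have h3 : ε ^ p = U := mul_right_cancel₀ (pow_ne_zero p hD) h2
  refine ⟨ε, ?_, h3.symm⟩
  have h4 : IsUnit (ε ^ p) := by rw [h3]; exact hU
  exact (isUnit_pow_iff hp).1 h4

variable {R : Type*} [CommRing R] [IsDomain R]

/-- the two norm relations on units give the fixed-point relation `u₁ = E ^ p * NU² u₁`. -/
theorem nu_relation_of_pair {p : ℕ} (hp : p ≠ 0) {ζ : R} (hζ : IsPrimitiveRoot ζ p)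
    {u₁ u₂ ε₁ ε₂ : R⟦X⟧} (hε₂ : IsUnit ε₂) (hε₁ : IsUnit ε₁)
    (h1 : u₁ * nuOp p ζ u₂ = ε₁ ^ p) (h2 : u₂ * nuOp p ζ u₁ = ε₂ ^ p) :
    ∃ E : R⟦X⟧, IsUnit E ∧ u₁ = C (1 : R) * E ^ p * (nuOp p ζ)^[2] u₁ := by
  have hN : IsUnit (nuOp p ζ ε₂) := isUnit_nuOp hp hζ hε₂
  obtain ⟨n, hn⟩ := hN.exists_right_inv
  have hnu : IsUnit n := IsUnit.of_mul_eq_one (nuOp p ζ ε₂) (by rw [mul_comm]; exact hn)
  refine ⟨ε₁ * n, hε₁.mul hnu, ?_⟩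
  -- `NU u₂ * NU² u₁ = NU(ε₂) ^ p`
  have h3 : nuOp p ζ u₂ * nuOp p ζ (nuOp p ζ u₁) = nuOp p ζ ε₂ ^ p := by
    rw [← nuOp_mul hp hζ, h2, nuOp_pow hp hζ]
  have h4 : u₁ * nuOp p ζ ε₂ ^ p = ε₁ ^ p * nuOp p ζ (nuOp p ζ u₁) := by
    rw [← h3, ← h1]; ring
  have h5 : nuOp p ζ ε₂ ^ p * n ^ p = 1 := by rw [← mul_pow, hn, one_pow]
  have h6 : (nuOp p ζ)^[2] u₁ = nuOp p ζ (nuOp p ζ u₁) := rfl
  rw [h6, map_one, one_mul, mul_pow]
  calc u₁ = u₁ * (nuOp p ζ ε₂ ^ p * n ^ p) := by rw [h5, mul_one]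
    _ = (u₁ * nuOp p ζ ε₂ ^ p) * n ^ p := by ring
    _ = ε₁ ^ p * n ^ p * nuOp p ζ (nuOp p ζ u₁) := by rw [h4]; ring

/-- **[B3] on units**: the two norm relations and "`u₁` is a `p`-th power modulo `I`" force
`u₁ = c' * T ^ p`. -/
theorem exists_unit_mul_pow_of_pair {p : ℕ} (hp : p.Prime) (hp3 : 3 ≤ p) {ζ : R}
    (hζ : IsPrimitiveRoot ζ p) {I : Ideal R} {m : ℕ} (hI : I ^ m ≤ Ideal.span {(p : R)})
    {u₁ u₂ ε₁ ε₂ e : R⟦X⟧} (hu₁ : IsUnit u₁) (hε₁ : IsUnit ε₁) (hε₂ : IsUnit ε₂)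
    (he : IsUnit e)
    (h1 : u₁ * nuOp p ζ u₂ = ε₁ ^ p) (h2 : u₂ * nuOp p ζ u₁ = ε₂ ^ p)
    (hred : CoeffIn I (u₁ - e ^ p)) :
    ∃ (c' : R) (T : R⟦X⟧), IsUnit c' ∧ IsUnit T ∧ u₁ = C c' * T ^ p := by
  obtain ⟨E, hE, hrel⟩ := nu_relation_of_pair hp.ne_zero hζ hε₂ hε₁ h1 h2
  exact exists_unit_mul_pow_of_nu_relation hp hp3 hζ hI (j := 2) (by norm_num) hu₁ hE he
    isUnit_one hrel hred

end Fermat.Agent.T7.helper44

end
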