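import Mathlib
import Fermat.Agent.P2.helper23_DiscDefs
import Fermat.Agent.T7.helper44_UnitNorm

/-!
# T7 / S33, leaf [B3] (helper44): from the DISC factorisation and the norm relations to the
integral formal `p`-th roots

Vocabulary: `P2.helper23` (`Kb = ℚ̄`, `phi R₀ : R₀⟦X⟧ → ℚ̄((q))`, `IsRatio`), Prelude `qExpand`,
`coeffMap`.

* bridges: `qExpand_phi` (`phi` intertwines `expand` and `qExpand`), `phiA`, `resHom`;
* `unit_relation_of_norm` (**UNIT-NORM**): the norm relation `a(q^p) ∏ₖ b(ζ^k q) = ρ(q^p)^p`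
  descends to the unit parts of the DISC factorisations: `u_a * NU u_b = ε ^ p`, `ε` a unit
  (integral closedness of `R₀⟦X⟧`, `R₀` a PID);
* `exists_unit_coeffIn_of_red` (**UNIT mod 𝔪**): `red a = 1` makes `u_a` a `p`-th power of a
  unit modulo the kernel of the residue map;
* `exists_pow_ker_le` : a power of that kernel lies in `(p)` (`R₀` is a DVR);
* `exists_roots_of_factor_norm` (**[B3], abstract form**): `a`, `b` have `A`-integral formal
  `p`-th roots with reduction `1`.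

The twists `q ↦ ζ^k q` enter through an abstract family `tw k` of ring endomorphisms of
`ℚ̄((q))` with `tw k (phi G) = phi (rescale (ζ^k) G)` (instance: `T2.helper87.twistHom`).
-/

set_option autoImplicit false

noncomputable section

open PowerSeries ModularCurve

namespace Fermat.Agent.T7.helper44

open Fermat.Agent.P2.helper23 (Kb phi phi_apply phi_injective phi_coeff_natCast IsRatio)

/-! ## Bridges -/

/-- `phi` intertwines `expand` and `qExpand` -/
theorem qExpand_phi (R₀ : Subring Kb) (p : ℕ) [NeZero p] (G : PowerSeries R₀) :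
    qExpand Kb p (phi R₀ G) = phi R₀ (PowerSeries.expand p (NeZero.ne p) G) := by
  ext k
  by_cases hd : (p : ℤ) ∣ k
  · obtain ⟨j, rfl⟩ := hd
    rw [qExpand_coeff_mul]
    rcases lt_or_ge j 0 with hj | hj
    · have hneg : (p : ℤ) * j < 0 :=
        mul_neg_of_pos_of_neg (by exact_mod_cast Nat.pos_of_ne_zero (NeZero.ne p)) hj
      rw [phi_apply, ofPowerSeries_coeff_of_neg _ hj, phi_apply,
        ofPowerSeries_coeff_of_neg _ hneg]
    · lift j to ℕ using hj
      rw [phi_coeff_natCast, ← Nat.cast_mul, phi_coeff_natCast, coeff_expand_mul]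
  · rw [qExpand_coeff_of_not_dvd _ _ hd]
    rcases lt_or_ge k 0 with hk | hk
    · rw [phi_apply, ofPowerSeries_coeff_of_neg _ hk]
    · lift k to ℕ using hk
      rw [phi_coeff_natCast, coeff_expand_of_not_dvd]
      · rfl
      · intro h
        exact hd (by exact_mod_cast h)

/-- the inclusion `R₀ → A` -/
def inclRA (A : ValuationSubring Kb) (R₀ : Subring Kb) (hR : R₀ ≤ A.toSubring) : R₀ →+* A :=
  Subring.inclusion hR

theorem coe_inclRA (A : ValuationSubring Kb) (R₀ : Subring Kb) (hR : R₀ ≤ A.toSubring)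
    (x : R₀) : ((inclRA A R₀ hR x : A) : Kb) = (x : Kb) := rfl

/-- the `A`-integral version of `phi` -/
def phiA (A : ValuationSubring Kb) (R₀ : Subring Kb) (hR : R₀ ≤ A.toSubring) :
    PowerSeries R₀ →+* LaurentSeries A :=
  (HahnSeries.ofPowerSeries ℤ A).comp (PowerSeries.map (inclRA A R₀ hR))

theorem coeffMap_subtype_phiA (A : ValuationSubring Kb) (R₀ : Subring Kb)
    (hR : R₀ ≤ A.toSubring) (G : PowerSeries R₀) :
    coeffMap A.subtype (phiA A R₀ hR G) = phi R₀ G := by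
  rw [phiA, RingHom.comp_apply, coeffMap_ofPowerSeries, phi_apply]
  congr 1

theorem coeffMap_subtype_inj (A : ValuationSubring Kb) :
    Function.Injective (coeffMap A.subtype : LaurentSeries A → LaurentSeries Kb) := by
  intro Y Y' h
  ext n
  have h1 := congrArg (fun Z : LaurentSeries Kb => Z.coeff n) h
  simp only [coeffMap_coeff] at h1
  exact h1

/-- the residue map on `R₀` -/
def resHom (A : ValuationSubring Kb) (R₀ : Subring Kb) (hR : R₀ ≤ A.toSubring) :
    R₀ →+* IsLocalRing.ResidueField A :=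
  (IsLocalRing.residue A).comp (inclRA A R₀ hR)

theorem coeffMap_residue_phiA (A : ValuationSubring Kb) (R₀ : Subring Kb)
    (hR : R₀ ≤ A.toSubring) (G : PowerSeries R₀) :
    coeffMap (IsLocalRing.residue A) (phiA A R₀ hR G) =
      HahnSeries.ofPowerSeries ℤ _ (PowerSeries.map (resHom A R₀ hR) G) := by
  rw [phiA, RingHom.comp_apply, coeffMap_ofPowerSeries]
  congr 1

theorem phi_X_pow' (R₀ : Subring Kb) (n : ℕ) :
    phi R₀ (X ^ n) = HahnSeries.single (n : ℤ) 1 := by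
  rw [phi_apply, map_pow, PowerSeries.map_X, HahnSeries.ofPowerSeries_X_pow]

/-! ## The norm relation on the unit parts -/

theorem rescale_ne_zero {R : Type*} [CommRing R] [IsDomain R] {c : R} (hc : c ≠ 0)
    {G : PowerSeries R} (hG : G ≠ 0) : rescale c G ≠ 0 := by
  intro h
  apply hG
  ext n
  have h1 := congrArg (coeff n) h
  rw [coeff_rescale, map_zero] at h1
  rcases mul_eq_zero.1 h1 with h2 | h2
  · exact absurd h2 (pow_ne_zero n hc)
  · rw [h2, map_zero]

theorem nuOp_ne_zero {R : Type*} [CommRing R] [IsDomain R] {p : ℕ} (hp : p ≠ 0) {ζ : R}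
    (hζ : IsPrimitiveRoot ζ p) {G : PowerSeries R} (hG : G ≠ 0) : nuOp p ζ G ≠ 0 := by
  intro h
  have h1 := expand_nuOp hp hζ G
  rw [h, map_zero] at h1
  have h2 : rotProd p ζ G ≠ 0 := by
    rw [rotProd]
    refine Finset.prod_ne_zero_iff.2 fun k _ => ?_
    exact rescale_ne_zero (pow_ne_zero k (hζ.ne_zero hp)) hG
  exact h2 h1.symm

/-- **UNIT-NORM**: the norm relation `a(q^p) ∏ₖ b(ζ^k q) = ρ(q^p)^p` (`ρ` a ratio) descends to the
unit parts of the DISC factorisations of `a` and `b`: `u_a * NU u_b = ε ^ p`, `ε` a unit. -/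
theorem unit_relation_of_norm (R₀ : Subring Kb) [IsPrincipalIdealRing R₀]
    {p : ℕ} [NeZero p] (hodd : Odd p) (ζ : R₀) (hζ : IsPrimitiveRoot ζ p)
    (tw : ℕ → LaurentSeries Kb →+* LaurentSeries Kb)
    (htw : ∀ (k : ℕ) (G : PowerSeries R₀), tw k (phi R₀ G) = phi R₀ (rescale (ζ ^ k) G))
    (a b : LaurentSeries Kb) (na nb : ℕ) (ua ub Za Zb : PowerSeries R₀)
    (hua : IsUnit ua) (hub : IsUnit ub) (hZa : Za ≠ 0) (hZb : Zb ≠ 0)
    (hfa : a * (phi R₀ (X ^ na)) ^ p = phi R₀ ua * (phi R₀ Za) ^ p)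
    (hfb : b * (phi R₀ (X ^ nb)) ^ p = phi R₀ ub * (phi R₀ Zb) ^ p)
    (ρ : LaurentSeries Kb) (hρ : IsRatio R₀ ρ)
    (hn : qExpand Kb p a * ∏ k ∈ Finset.range p, tw k b = (qExpand Kb p ρ) ^ p) :
    ∃ ε : PowerSeries R₀, IsUnit ε ∧ ua * nuOp p ζ ub = ε ^ p := by
  have hp : p ≠ 0 := NeZero.ne p
  obtain ⟨G₁, G₂, hG₂, hG⟩ := hρ
  -- the expanded factorisation of `a`
  have e1 : qExpand Kb p a * (phi R₀ (PowerSeries.expand p hp (X ^ na))) ^ p =
      phi R₀ (PowerSeries.expand p hp ua) * (phi R₀ (PowerSeries.expand p hp Za)) ^ p := by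
    have h := congrArg (qExpand Kb p) hfa
    rwa [map_mul, map_mul, map_pow (qExpand Kb p) (phi R₀ (X ^ na)),
      map_pow (qExpand Kb p) (phi R₀ Za), qExpand_phi, qExpand_phi, qExpand_phi] at h
  -- the product of the twisted factorisations of `b`
  have e2 : (∏ k ∈ Finset.range p, tw k b) * (phi R₀ (rotProd p ζ (X ^ nb))) ^ p =
      phi R₀ (rotProd p ζ ub) * (phi R₀ (rotProd p ζ Zb)) ^ p := by
    have h : ∀ k ∈ Finset.range p, tw k b * (phi R₀ (rescale (ζ ^ k) (X ^ nb))) ^ p =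
        phi R₀ (rescale (ζ ^ k) ub) * (phi R₀ (rescale (ζ ^ k) Zb)) ^ p := by
      intro k _
      have h := congrArg (tw k) hfb
      rwa [map_mul, map_mul, map_pow (tw k) (phi R₀ (X ^ nb)), map_pow (tw k) (phi R₀ Zb),
        htw, htw, htw] at h
    have h2 := Finset.prod_congr rfl h
    rw [Finset.prod_mul_distrib, Finset.prod_mul_distrib, Finset.prod_pow, Finset.prod_pow,
      ← map_prod, ← map_prod, ← map_prod] at h2
    exact h2
  -- the ratio
  have e3 : qExpand Kb p ρ * phi R₀ (PowerSeries.expand p hp G₂) =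
      phi R₀ (PowerSeries.expand p hp G₁) := by
    have h := congrArg (qExpand Kb p) hG
    rwa [map_mul, qExpand_phi, qExpand_phi] at h
  -- everything in `R₀⟦X⟧`
  have hNX : nuOp p ζ ((X : PowerSeries R₀) ^ nb) = X ^ nb := by
    rw [nuOp_pow hp hζ, nuOp_X hp hodd hζ]
  have key : phi R₀ (PowerSeries.expand p hp ((G₁ * X ^ (na + nb)) ^ p)) =
      phi R₀ (PowerSeries.expand p hp
        ((ua * nuOp p ζ ub) * (Za * nuOp p ζ Zb * G₂) ^ p)) := by
    have r1 : rotProd p ζ ((X : PowerSeries R₀) ^ nb) = PowerSeries.expand p hp (X ^ nb) := by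
      rw [← expand_nuOp hp hζ, hNX]
    have r2 : rotProd p ζ ub = PowerSeries.expand p hp (nuOp p ζ ub) :=
      (expand_nuOp hp hζ ub).symm
    have r3 : rotProd p ζ Zb = PowerSeries.expand p hp (nuOp p ζ Zb) :=
      (expand_nuOp hp hζ Zb).symm
    rw [r1] at e2
    rw [r2, r3] at e2
    simp only [map_mul, map_pow] at e1 e2 ⊢
    have h3 : (qExpand Kb p a * ∏ k ∈ Finset.range p, tw k b) *
        ((phi R₀ (PowerSeries.expand p hp X)) ^ na) ^ p *
        ((phi R₀ (PowerSeries.expand p hp X)) ^ nb) ^ p =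
        (phi R₀ (PowerSeries.expand p hp ua) * (phi R₀ (PowerSeries.expand p hp Za)) ^ p) *
        (phi R₀ (PowerSeries.expand p hp (nuOp p ζ ub)) *
          (phi R₀ (PowerSeries.expand p hp (nuOp p ζ Zb))) ^ p) := by
      rw [← e1, ← e2]; ring
    rw [hn] at h3
    have h4 : (phi R₀ (PowerSeries.expand p hp G₁)) ^ p =
        (qExpand Kb p ρ) ^ p * (phi R₀ (PowerSeries.expand p hp G₂)) ^ p := by
      rw [← e3, mul_pow]
    rw [pow_add, mul_pow, mul_pow, h4]
    linear_combination (phi R₀ (PowerSeries.expand p hp G₂)) ^ p * h3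
  have key2 : (G₁ * X ^ (na + nb)) ^ p = (ua * nuOp p ζ ub) * (Za * nuOp p ζ Zb * G₂) ^ p :=
    expand_injective p hp (phi_injective R₀ key)
  have hD : Za * nuOp p ζ Zb * G₂ ≠ 0 :=
    mul_ne_zero (mul_ne_zero hZa (nuOp_ne_zero hp hζ hZb)) hG₂
  obtain ⟨ε, hε, hU⟩ := exists_unit_pow_eq_of_pow_eq hp (hua.mul (isUnit_nuOp hp hζ hub)) hD key2
  exact ⟨ε, hε, hU⟩

/-! ## The unit part is a `p`-th power modulo the maximal ideal -/

/-- **UNIT mod 𝔪**: if `a = incl Ya` with `red Ya = 1` and `a * (X^na)^p = φ(ua) φ(Za)^p`, then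
the unit `ua` is congruent to the `p`-th power of a unit of `R₀⟦X⟧` modulo the kernel of the
residue map (`hloc`: elements of `R₀` which are units of `A` are units of `R₀`). -/
theorem exists_unit_coeffIn_of_red (A : ValuationSubring Kb) (R₀ : Subring Kb)
    (hR : R₀ ≤ A.toSubring)
    (hloc : ∀ x : R₀, IsUnit (inclRA A R₀ hR x) → IsUnit x)
    {p : ℕ} (hp : p ≠ 0) (a : LaurentSeries Kb) (Ya : LaurentSeries A)
    (ha : coeffMap A.subtype Ya = a) (hra : coeffMap (IsLocalRing.residue A) Ya = 1)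
    (na : ℕ) (ua Za : PowerSeries R₀) (hua : IsUnit ua)
    (hfa : a * (phi R₀ (X ^ na)) ^ p = phi R₀ ua * (phi R₀ Za) ^ p) :
    ∃ e : PowerSeries R₀, IsUnit e ∧ CoeffIn (RingHom.ker (resHom A R₀ hR)) (ua - e ^ p) := by
  set r₀ := resHom A R₀ hR with hr₀
  set k := IsLocalRing.ResidueField A
  -- the equation over `A`
  have h1 : Ya * (phiA A R₀ hR (X ^ na)) ^ p = phiA A R₀ hR ua * (phiA A R₀ hR Za) ^ p := by
    apply coeffMap_subtype_inj A
    rw [map_mul, map_mul, map_pow (coeffMap A.subtype) (phiA A R₀ hR (X ^ na)),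
      map_pow (coeffMap A.subtype) (phiA A R₀ hR Za), coeffMap_subtype_phiA,
      coeffMap_subtype_phiA, coeffMap_subtype_phiA, ha, hfa]
  -- the equation over `k`
  have h2 : ((X : PowerSeries k) ^ na) ^ p =
      PowerSeries.map r₀ ua * (PowerSeries.map r₀ Za) ^ p := by
    have h := congrArg (coeffMap (IsLocalRing.residue A)) h1
    rw [map_mul, map_mul, map_pow (coeffMap (IsLocalRing.residue A)) (phiA A R₀ hR (X ^ na)),
      map_pow (coeffMap (IsLocalRing.residue A)) (phiA A R₀ hR Za), coeffMap_residue_phiA,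
      coeffMap_residue_phiA, coeffMap_residue_phiA, hra, one_mul,
      ← map_pow (HahnSeries.ofPowerSeries ℤ (IsLocalRing.ResidueField A)),
      ← map_pow (HahnSeries.ofPowerSeries ℤ (IsLocalRing.ResidueField A)),
      ← map_mul (HahnSeries.ofPowerSeries ℤ (IsLocalRing.ResidueField A))] at h
    have h' := HahnSeries.ofPowerSeries_injective h
    rw [map_pow (PowerSeries.map (resHom A R₀ hR)) X, PowerSeries.map_X] at h'
    exact h'
  set ub := PowerSeries.map r₀ ua with hub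
  set Zb := PowerSeries.map r₀ Za with hZb
  have hubu : IsUnit ub := hua.map (PowerSeries.map r₀)
  have hXne : ((X : PowerSeries k) ^ na) ≠ 0 := pow_ne_zero _ PowerSeries.X_ne_zero
  have hZb0 : Zb ≠ 0 := by
    intro h0
    rw [h0, zero_pow hp, mul_zero] at h2
    exact pow_ne_zero p hXne h2
  -- `Zb ∣ X^na` and `X^na ∣ Zb`
  have hd1 : Zb ∣ (X : PowerSeries k) ^ na :=
    (IsIntegrallyClosed.pow_dvd_pow_iff hp).1 ⟨ub, by rw [h2, mul_comm]⟩
  have hd2 : (X : PowerSeries k) ^ na ∣ Zb := by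
    obtain ⟨v, hv⟩ := hubu.exists_right_inv
    refine (IsIntegrallyClosed.pow_dvd_pow_iff hp).1 ⟨v, ?_⟩
    rw [h2, mul_comm ub, mul_assoc, hv, mul_one]
  obtain ⟨w, hw⟩ := hd2
  obtain ⟨t, ht⟩ := hd1
  have hwt : w * t = 1 := by
    have h3 : (X : PowerSeries k) ^ na * (w * t) = X ^ na * 1 := by
      rw [mul_one, ← mul_assoc, ← hw, ← ht]
    exact mul_left_cancel₀ hXne h3
  have hwu : IsUnit w := IsUnit.of_mul_eq_one t hwt
  -- the lift `W` of `w`
  set W : PowerSeries R₀ := PowerSeries.mk fun n => coeff (n + na) Za with hW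
  have hWw : PowerSeries.map r₀ W = w := by
    ext n
    rw [PowerSeries.coeff_map, hW, coeff_mk, ← PowerSeries.coeff_map, ← hZb, hw,
      coeff_X_pow_mul]
  have hW0 : IsUnit (constantCoeff W) := by
    apply hloc
    have h4 : IsLocalRing.residue A (inclRA A R₀ hR (constantCoeff W)) ≠ 0 := by
      have h5 : constantCoeff w ≠ 0 := (isUnit_iff_constantCoeff.1 hwu).ne_zero
      rw [← hWw] at h5
      rw [← coeff_zero_eq_constantCoeff_apply, PowerSeries.coeff_map,
        coeff_zero_eq_constantCoeff_apply] at h5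
      exact h5
    exact (IsLocalRing.residue_ne_zero_iff_isUnit _).1 h4
  have hWu : IsUnit W := isUnit_iff_constantCoeff.2 hW0
  obtain ⟨e, he⟩ := hWu.exists_right_inv
  have heu : IsUnit e := IsUnit.of_mul_eq_one W (by rw [mul_comm]; exact he)
  refine ⟨e, heu, ?_⟩
  -- `ub * w^p = 1`
  have h6 : ub * w ^ p = 1 := by
    have h7 : ((X : PowerSeries k) ^ na) ^ p * (ub * w ^ p) = ((X : PowerSeries k) ^ na) ^ p * 1 := by
      rw [mul_one]
      conv_rhs => rw [h2, hw, mul_pow]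
      ring
    exact mul_left_cancel₀ (pow_ne_zero p hXne) h7
  have h8 : w * PowerSeries.map r₀ e = 1 := by
    rw [← hWw, ← map_mul, he, map_one]
  have h9 : PowerSeries.map r₀ (ua - e ^ p) = 0 := by
    rw [map_sub, map_pow, ← hub]
    have h10 : ub = ub * (w * PowerSeries.map r₀ e) ^ p := by rw [h8, one_pow, mul_one]
    rw [mul_pow, ← mul_assoc, h6, one_mul] at h10
    rw [← h10, sub_self]
  intro n
  rw [RingHom.mem_ker, ← PowerSeries.coeff_map, h9, map_zero]

/-! ## `R₀` is a discrete valuation ring: a power of the kernel of the residue map lies in `(p)` -/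

theorem exists_pow_ker_le (A : ValuationSubring Kb) (R₀ : Subring Kb) (hR : R₀ ≤ A.toSubring)
    [IsPrincipalIdealRing R₀] (hloc : ∀ x : R₀, IsUnit (inclRA A R₀ hR x) → IsUnit x)
    {p : ℕ} (hp0 : p ≠ 0) :
    ∃ m : ℕ, (RingHom.ker (resHom A R₀ hR)) ^ m ≤ Ideal.span {((p : ℕ) : R₀)} := by
  set I : Ideal R₀ := RingHom.ker (resHom A R₀ hR) with hI
  have hprin : I.IsPrincipal := IsPrincipalIdealRing.principal I
  obtain ⟨π, hπ⟩ := hprin
  have hπ' : I = Ideal.span {π} := hπ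
  have hmem : ∀ x : R₀, ¬ IsUnit x → x ∈ I := by
    intro x hx
    rw [hI, RingHom.mem_ker, resHom, RingHom.comp_apply]
    by_contra h
    exact hx (hloc x ((IsLocalRing.residue_ne_zero_iff_isUnit _).1 h))
  have hπnu : ¬ IsUnit π := by
    intro h
    have h1 : (1 : R₀) ∈ I := by
      rw [hπ']
      obtain ⟨w, hw⟩ := h.exists_left_inv
      exact Ideal.mem_span_singleton'.2 ⟨w, hw⟩
    rw [hI, RingHom.mem_ker, map_one] at h1
    exact one_ne_zero h1
  have key : ∀ x : R₀, x ≠ 0 → ∃ (m : ℕ) (u : R₀), IsUnit u ∧ x = u * π ^ m := by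
    intro x
    induction x using UniqueFactorizationMonoid.induction_on_prime with
    | h₁ => intro h; exact absurd rfl h
    | h₂ x hx => intro _; exact ⟨0, x, hx, by rw [pow_zero, mul_one]⟩
    | h₃ y q hy hq ih =>
      intro _
      obtain ⟨m, u, hu, hyu⟩ := ih hy
      have hqI : q ∈ I := hmem q hq.not_isUnit
      rw [hπ', Ideal.mem_span_singleton] at hqI
      obtain ⟨s, hs⟩ := hqI
      have hsu : IsUnit s := by
        rcases hq.irreducible.isUnit_or_isUnit hs with h | h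
        · exact absurd h hπnu
        · exact h
      exact ⟨m + 1, s * u, hsu.mul hu, by rw [hs, hyu, pow_succ]; ring⟩
  have hp0' : ((p : ℕ) : R₀) ≠ 0 := by
    intro h
    have h1 : (((p : ℕ) : R₀) : Kb) = ((0 : R₀) : Kb) := by rw [h]
    push_cast at h1
    exact (Nat.cast_ne_zero.2 hp0) h1
  obtain ⟨m, u, hu, hpu⟩ := key _ hp0'
  refine ⟨m, ?_⟩
  rw [hπ', Ideal.span_singleton_pow, Ideal.span_singleton_le_span_singleton]
  obtain ⟨v, hv⟩ := hu.exists_left_inv
  refine ⟨v, ?_⟩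
  calc π ^ m = (v * u) * π ^ m := by rw [hv, one_mul]
    _ = (u * π ^ m) * v := by ring
    _ = ((p : ℕ) : R₀) * v := by rw [hpu]

/-- `p`-th roots exist in `A` -/
theorem exists_pow_eq_in_valuationSubring (A : ValuationSubring Kb) {p : ℕ} (hp : p ≠ 0)
    (c : A) : ∃ γ : A, γ ^ p = c := by
  obtain ⟨z, hz⟩ := IsAlgClosed.exists_pow_nat_eq (c : Kb) (Nat.pos_of_ne_zero hp)
  have hzA : z ∈ A := by
    rw [← A.valuation_le_one_iff]
    have h1 : A.valuation z ^ p ≤ 1 := by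
      rw [← map_pow, hz, A.valuation_le_one_iff]
      exact c.2
    exact (pow_le_one_iff hp).1 h1
  exact ⟨⟨z, hzA⟩, Subtype.ext hz⟩

/-! ## The roots -/

/-- **[B3], one side.**  From the DISC factorisations of `a` and `b` over `R₀`, the two norm
relations and `red a = 1`: `a` has an `A`-integral formal `p`-th root with reduction `1`. -/
theorem exists_root_of_factor_norm_side (A : ValuationSubring Kb) (R₀ : Subring Kb)
    (hR : R₀ ≤ A.toSubring) [IsPrincipalIdealRing R₀]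
    (hloc : ∀ x : R₀, IsUnit (inclRA A R₀ hR x) → IsUnit x)
    {p : ℕ} [NeZero p] (hp : p.Prime) (hp3 : 3 ≤ p)
    (hpA : ((p : ℕ) : A) ∈ IsLocalRing.maximalIdeal A)
    (ζ : R₀) (hζ : IsPrimitiveRoot ζ p)
    (tw : ℕ → LaurentSeries Kb →+* LaurentSeries Kb)
    (htw : ∀ (k : ℕ) (G : PowerSeries R₀), tw k (phi R₀ G) = phi R₀ (rescale (ζ ^ k) G))
    (a b : LaurentSeries Kb) (Ya : LaurentSeries A)
    (ha : coeffMap A.subtype Ya = a) (hra : coeffMap (IsLocalRing.residue A) Ya = 1)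
    (na nb : ℕ) (ua ub Za Zb : PowerSeries R₀)
    (hua : IsUnit ua) (hub : IsUnit ub) (hZa : Za ≠ 0) (hZb : Zb ≠ 0)
    (hfa : a * (phi R₀ (X ^ na)) ^ p = phi R₀ ua * (phi R₀ Za) ^ p)
    (hfb : b * (phi R₀ (X ^ nb)) ^ p = phi R₀ ub * (phi R₀ Zb) ^ p)
    (ρ ρ' : LaurentSeries Kb) (hρ : IsRatio R₀ ρ) (hρ' : IsRatio R₀ ρ')
    (hn1 : qExpand Kb p a * ∏ k ∈ Finset.range p, tw k b = (qExpand Kb p ρ) ^ p)
    (hn2 : qExpand Kb p b * ∏ k ∈ Finset.range p, tw k a = (qExpand Kb p ρ') ^ p) :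
    ∃ Z₁ : LaurentSeries A, (coeffMap A.subtype Z₁) ^ p = a ∧
      coeffMap (IsLocalRing.residue A) Z₁ = 1 := by
  have hp0 : p ≠ 0 := hp.ne_zero
  have hodd : Odd p := hp.odd_of_ne_two (by omega)
  obtain ⟨ε₁, hε₁, h1⟩ := unit_relation_of_norm R₀ hodd ζ hζ tw htw a b na nb ua ub Za Zb
    hua hub hZa hZb hfa hfb ρ hρ hn1
  obtain ⟨ε₂, hε₂, h2⟩ := unit_relation_of_norm R₀ hodd ζ hζ tw htw b a nb na ub ua Zb Za
    hub hua hZb hZa hfb hfa ρ' hρ' hn2
  obtain ⟨e, he, hred⟩ := exists_unit_coeffIn_of_red A R₀ hR hloc hp0 a Ya ha hra na ua Za hua hfa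
  obtain ⟨m, hm⟩ := exists_pow_ker_le A R₀ hR hloc hp0
  obtain ⟨c', T, hc', hT, huT⟩ :=
    exists_unit_mul_pow_of_pair hp hp3 hζ hm hua hε₁ hε₂ he h1 h2 hred
  obtain ⟨γ, hγ⟩ := exists_pow_eq_in_valuationSubring A hp0 (inclRA A R₀ hR c')
  -- the root
  set Q : PowerSeries A := C γ * PowerSeries.map (inclRA A R₀ hR) (T * Za) with hQ
  have hQp : Q ^ p = PowerSeries.map (inclRA A R₀ hR) (ua * Za ^ p) := by
    rw [hQ, mul_pow, ← map_pow C, hγ, ← PowerSeries.map_C, ← map_pow, ← map_mul, huT]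
    congr 1
    ring
  set Z₁ : LaurentSeries A :=
    HahnSeries.single (-(na : ℤ)) (1 : A) * HahnSeries.ofPowerSeries ℤ A Q with hZ₁
  have hZp : Z₁ ^ p * (phiA A R₀ hR (X ^ na)) ^ p =
      phiA A R₀ hR ua * (phiA A R₀ hR Za) ^ p := by
    have hX : phiA A R₀ hR (X ^ na) = HahnSeries.single (na : ℤ) (1 : A) := by
      rw [phiA, RingHom.comp_apply, map_pow, PowerSeries.map_X,
        HahnSeries.ofPowerSeries_X_pow]
    have h3 : Z₁ * phiA A R₀ hR (X ^ na) = HahnSeries.ofPowerSeries ℤ A Q := by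
      rw [hZ₁, hX, mul_comm, ← mul_assoc, HahnSeries.single_mul_single, add_neg_cancel,
        mul_one, HahnSeries.single_zero_one, one_mul]
    rw [← mul_pow, h3, ← map_pow, hQp, ← map_pow (phiA A R₀ hR), ← map_mul (phiA A R₀ hR)]
    rfl
  have hZY : Z₁ ^ p = Ya := by
    have h4 : Ya * (phiA A R₀ hR (X ^ na)) ^ p =
        phiA A R₀ hR ua * (phiA A R₀ hR Za) ^ p := by
      apply coeffMap_subtype_inj A
      rw [map_mul, map_mul, map_pow (coeffMap A.subtype) (phiA A R₀ hR (X ^ na)),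
        map_pow (coeffMap A.subtype) (phiA A R₀ hR Za), coeffMap_subtype_phiA,
        coeffMap_subtype_phiA, coeffMap_subtype_phiA, ha, hfa]
    have hne : (phiA A R₀ hR (X ^ na)) ^ p ≠ 0 := by
      apply pow_ne_zero
      rw [phiA, RingHom.comp_apply, map_pow, PowerSeries.map_X,
        HahnSeries.ofPowerSeries_X_pow]
      intro h
      have := congrArg (fun Y : LaurentSeries A => Y.coeff (na : ℤ)) h
      simp at this
    exact mul_right_cancel₀ hne (hZp.trans h4.symm)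
  refine ⟨Z₁, ?_, ?_⟩
  · rw [← map_pow, hZY, ha]
  · -- reduction `1`
    set y := coeffMap (IsLocalRing.residue A) Z₁ with hy
    have hyp : y ^ p = 1 := by rw [hy, ← map_pow, hZY, hra]
    have hpk : ((p : ℕ) : LaurentSeries (IsLocalRing.ResidueField A)) = 0 := by
      have h5 : IsLocalRing.residue A ((p : ℕ) : A) = 0 :=
        (IsLocalRing.residue_eq_zero_iff _).2 hpA
      have h6 : ((p : ℕ) : LaurentSeries (IsLocalRing.ResidueField A)) =
          coeffMap (IsLocalRing.residue A) (HahnSeries.C ((p : ℕ) : A)) := by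
        rw [map_natCast, map_natCast]
      rw [h6, HahnSeries.C_apply, coeffMap_single, h5, HahnSeries.single_eq_zero]
    obtain ⟨r, hr⟩ := exists_add_pow_prime_eq hp (y - 1) 1
    rw [sub_add_cancel, hyp, one_pow, hpk, zero_mul, zero_mul, zero_mul, add_zero] at hr
    have h7 : (y - 1) ^ p = 0 := by linear_combination -hr
    exact sub_eq_zero.1 (pow_eq_zero_iff hp0 |>.1 h7)

/-- **[B3], abstract form.**  From the DISC factorisations of the two expansions `a`, `b` of
`K`, `W K` over one subring `R₀ ≤ A` (a PID containing `ζ`), the two norm relations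
(`helper43` shape, constants absorbed in the ratios `ρ`, `ρ'`) and `red a = red b = 1`:
`a` and `b` have `A`-integral formal `p`-th roots with reduction `1`. -/
theorem exists_roots_of_factor_norm (A : ValuationSubring Kb) (R₀ : Subring Kb)
    (hR : R₀ ≤ A.toSubring) [IsPrincipalIdealRing R₀]
    (hloc : ∀ x : R₀, IsUnit (inclRA A R₀ hR x) → IsUnit x)
    {p : ℕ} [NeZero p] (hp : p.Prime) (hp3 : 3 ≤ p)
    (hpA : ((p : ℕ) : A) ∈ IsLocalRing.maximalIdeal A)
    (ζ : R₀) (hζ : IsPrimitiveRoot ζ p)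
    (tw : ℕ → LaurentSeries Kb →+* LaurentSeries Kb)
    (htw : ∀ (k : ℕ) (G : PowerSeries R₀), tw k (phi R₀ G) = phi R₀ (rescale (ζ ^ k) G))
    (a b : LaurentSeries Kb) (Ya Yb : LaurentSeries A)
    (ha : coeffMap A.subtype Ya = a) (hra : coeffMap (IsLocalRing.residue A) Ya = 1)
    (hb : coeffMap A.subtype Yb = b) (hrb : coeffMap (IsLocalRing.residue A) Yb = 1)
    (na nb : ℕ) (ua ub Za Zb : PowerSeries R₀)
    (hua : IsUnit ua) (hub : IsUnit ub) (hZa : Za ≠ 0) (hZb : Zb ≠ 0)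
    (hfa : a * (phi R₀ (X ^ na)) ^ p = phi R₀ ua * (phi R₀ Za) ^ p)
    (hfb : b * (phi R₀ (X ^ nb)) ^ p = phi R₀ ub * (phi R₀ Zb) ^ p)
    (ρ ρ' : LaurentSeries Kb) (hρ : IsRatio R₀ ρ) (hρ' : IsRatio R₀ ρ')
    (hn1 : qExpand Kb p a * ∏ k ∈ Finset.range p, tw k b = (qExpand Kb p ρ) ^ p)
    (hn2 : qExpand Kb p b * ∏ k ∈ Finset.range p, tw k a = (qExpand Kb p ρ') ^ p) :
    ∃ Z₁ Z₂ : LaurentSeries A, (coeffMap A.subtype Z₁) ^ p = a ∧
      (coeffMap A.subtype Z₂) ^ p = b ∧ coeffMap (IsLocalRing.residue A) Z₁ = 1 ∧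
      coeffMap (IsLocalRing.residue A) Z₂ = 1 := by
  obtain ⟨Z₁, h1, h1'⟩ := exists_root_of_factor_norm_side A R₀ hR hloc hp hp3 hpA ζ hζ tw htw
    a b Ya ha hra na nb ua ub Za Zb hua hub hZa hZb hfa hfb ρ ρ' hρ hρ' hn1 hn2
  obtain ⟨Z₂, h2, h2'⟩ := exists_root_of_factor_norm_side A R₀ hR hloc hp hp3 hpA ζ hζ tw htw
    b a Yb hb hrb nb na ub ua Zb Za hub hua hZb hZa hfb hfa ρ' ρ hρ' hρ hn2 hn1
  exact ⟨Z₁, Z₂, h1, h2, h1', h2'⟩

end Fermat.Agent.T7.helper44

end
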