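import Mathlib
import Fermat.Agent.P2.helper23_Disc
import Fermat.Agent.T2.helper23_RootPair
import Fermat.Agent.T7.helper44_B3Phi

/-!
# T7 / S33, leaf [B3] (helper44): DISC-UNIT, the P2 DISC factorisation at an arbitrary `m ≠ 0`

`P2.helper23.disc_root_core` uses `m ∈ Aˣ` only in its last two lines.  Its first half, for every
`m ≠ 0` (in particular `m = p` the residue characteristic):

* `disc_factor_core` : for `H = Y₁ / Y₂ ∈ F` (`Y₁`, `Y₂` integral with the same nonzero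
  reduction), `m ∣ div H` and `H` regular where `j` is finite, there is a finite set `S ⊂ ℚ̄` such
  that for every number field `K₀ ⊇ S`, with `R₀ = A ∩ K₀`:
    `H * (X ^ n') ^ m = φ(u) * φ(Z₀) ^ m`,   `u` a UNIT of `R₀⟦X⟧`, `Z₀ ≠ 0`.
* `disc_factor_jElt` : the instance `F = F_N`.
* `disc_factor_pair` : for `IsA0One M W A K` with `m ∣ div K`: the factorisations of `K` and
  `W K` over ONE `R₀`.
-/

set_option autoImplicit false
set_option linter.unusedSectionVars false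
set_option linter.unusedVariables false

noncomputable section

open HahnSeries IntermediateField AlgebraicCurve ModularCurve

namespace Fermat.Agent.T7.helper44

open Fermat.Agent.P2.helper23

/-- **DISC-UNIT, core.** -/
theorem disc_factor_core (F : IntermediateField Kb (LaurentSeries Kb)) (A : ValuationSubring Kb)
    (hD5 : ∀ V : ValuationSubring F, (∀ a : Kb, algebraMap Kb F a ∈ V) → V ≠ ⊤ →
      ∃ 𝔓 : Place Kb F, 𝔓.toValuationSubring = V)
    (hD4 : ∀ f : F, ∃ S : Finset Kb, ∀ K₀ : IntermediateField ℚ Kb, (S : Set Kb) ⊆ K₀ →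
      IsRatio (capSubring A K₀) (f : LaurentSeries Kb))
    (hPID : ∀ K₀ : IntermediateField ℚ Kb, FiniteDimensional ℚ K₀ →
      IsPrincipalIdealRing (capSubring A K₀))
    (jF : F) (hj : (jF : LaurentSeries Kb) = jqModC Kb)
    (m : ℕ) (hm0 : m ≠ 0) (H : F) (hH : H ≠ 0)
    (hfin : {𝔓 : Place Kb F | 𝔓.ord H ≠ 0}.Finite)
    (hord : (m : ℤ) ∣ (H : LaurentSeries Kb).order)
    (hdiv : ∀ 𝔓 : Place Kb F, 0 ≤ 𝔓.ord jF → (m : ℤ) ∣ 𝔓.ord H)
    (hreg : ∀ 𝔓 : Place Kb F, 0 ≤ 𝔓.ord jF → 0 ≤ 𝔓.ord H)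
    (Y₁ Y₂ : LaurentSeries A) (h₁ : coeffMap A.subtype Y₁ ∈ F) (h₂ : coeffMap A.subtype Y₂ ∈ F)
    (h12 : coeffMap A.subtype Y₁ = (H : LaurentSeries Kb) * coeffMap A.subtype Y₂)
    (hred : coeffMap (IsLocalRing.residue A) Y₁ = coeffMap (IsLocalRing.residue A) Y₂)
    (hne : coeffMap (IsLocalRing.residue A) Y₂ ≠ 0) :
    ∃ S : Finset Kb, ∀ K₀ : IntermediateField ℚ Kb, FiniteDimensional ℚ K₀ →
      (S : Set Kb) ⊆ K₀ →
      ∃ (n' : ℕ) (u : (PowerSeries (capSubring A K₀))ˣ) (Z0 : PowerSeries (capSubring A K₀)),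
        Z0 ≠ 0 ∧
        (H : LaurentSeries Kb) * (phi (capSubring A K₀) (PowerSeries.X ^ n')) ^ m =
          phi (capSubring A K₀) (u : PowerSeries (capSubring A K₀)) *
            (phi (capSubring A K₀) Z0) ^ m := by
  classical
  have hH' : (H : LaurentSeries Kb) ≠ 0 := fun h => hH (Subtype.ext h)
  choose t ht using fun 𝔓 : Place Kb F => exists_uniformizer 𝔓
  choose St hSt using fun 𝔓 : Place Kb F => hD4 (t 𝔓)
  obtain ⟨S₁, hS₁⟩ := hD4 ⟨_, h₁⟩
  obtain ⟨S₂, hS₂⟩ := hD4 ⟨_, h₂⟩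
  set S : Finset Kb := S₁ ∪ S₂ ∪ hfin.toFinset.biUnion St with hS
  refine ⟨S, fun K₀ hfd hSK => ?_⟩
  have : IsPrincipalIdealRing (capSubring A K₀) := hPID K₀ hfd
  have hS₁K : (S₁ : Set Kb) ⊆ K₀ := fun x hx => hSK (by
    rw [hS]
    simp only [Finset.coe_union, Set.mem_union, Finset.mem_coe]
    exact Or.inl (Or.inl hx))
  have hS₂K : (S₂ : Set Kb) ⊆ K₀ := fun x hx => hSK (by
    rw [hS]
    simp only [Finset.coe_union, Set.mem_union, Finset.mem_coe]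
    exact Or.inl (Or.inr hx))
  have hStK : ∀ 𝔓 : Place Kb F, 𝔓.ord H ≠ 0 → ((St 𝔓 : Finset Kb) : Set Kb) ⊆ K₀ := by
    intro 𝔓 h𝔓 x hx
    refine hSK ?_
    rw [hS]
    simp only [Finset.coe_union, Set.mem_union, Finset.mem_coe, Finset.mem_biUnion,
      Set.Finite.mem_toFinset, Set.mem_ofPred_eq]
    exact Or.inr ⟨𝔓, h𝔓, hx⟩
  -- numerator and denominator
  obtain ⟨k₁, G₁, hG₁, hu₁⟩ :=
    Fermat.Agent.P2.helper56.exists_phi_of_isRatio A K₀ Y₁ (hS₁ K₀ hS₁K)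
  obtain ⟨k₂, G₂, hG₂, hu₂⟩ :=
    Fermat.Agent.P2.helper56.exists_phi_of_isRatio A K₀ Y₂ (hS₂ K₀ hS₂K)
  obtain ⟨n₁, hn₁⟩ := hu₁ (by rw [hred]; exact hne)
  obtain ⟨n₂, hn₂⟩ := hu₂ hne
  have hG₁0 : G₁ ≠ 0 := by
    rintro rfl
    simp at hn₁
  have hG₂0 : G₂ ≠ 0 := by
    rintro rfl
    simp at hn₂
  have hXk : ∀ k : ℕ, (PowerSeries.X : PowerSeries (capSubring A K₀)) ^ k ≠ 0 :=
    fun k => pow_ne_zero _ PowerSeries.X_ne_zero
  have ha : G₁ * PowerSeries.X ^ k₂ ≠ 0 := mul_ne_zero hG₁0 (hXk _)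
  have hb : G₂ * PowerSeries.X ^ k₁ ≠ 0 := mul_ne_zero hG₂0 (hXk _)
  have hab : (H : LaurentSeries Kb) * phi (capSubring A K₀) (G₂ * PowerSeries.X ^ k₁)
      = phi (capSubring A K₀) (G₁ * PowerSeries.X ^ k₂) := by
    rw [map_mul, map_mul, ← hG₁, ← hG₂, h12]
    ring
  have hconst : ∀ P : PowerSeries (capSubring A K₀), Prime P →
      (∃ r : capSubring A K₀, r ≠ 0 ∧ P ∣ PowerSeries.C r) →
      ¬ P ∣ PowerSeries.X → ¬ P ∣ G₁ * PowerSeries.X ^ k₂ ∧ ¬ P ∣ G₂ * PowerSeries.X ^ k₁ := by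
    rintro P hP ⟨r, hr, hPr⟩ hX
    constructor
    · intro h
      rcases hP.dvd_or_dvd h with h | h
      · exact Fermat.Agent.P2.helper13.not_dvd_of_dvd_C hP hr hPr hn₁ h
      · exact hX (hP.dvd_of_dvd_pow h)
    · intro h
      rcases hP.dvd_or_dvd h with h | h
      · exact Fermat.Agent.P2.helper13.not_dvd_of_dvd_C hP hr hPr hn₂ h
      · exact hX (hP.dvd_of_dvd_pow h)
  have hunif : ∀ 𝔓 : Place Kb F, 𝔓.ord H ≠ 0 →
      ∃ t : F, 𝔓.ord t = 1 ∧ IsRatio (capSubring A K₀) (t : LaurentSeries Kb) :=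
    fun 𝔓 h𝔓 => ⟨t 𝔓, ht 𝔓, hSt 𝔓 K₀ (hStK 𝔓 h𝔓)⟩
  have hmult := mult_claim F hD5 jF hj m hm0 H hH hord hdiv hreg hunif _ _ ha hb hab hconst
  obtain ⟨u, Z0, hU3⟩ := Fermat.Agent.P2.helper9.exists_unit_mul_pow_mul m hm0 _ _
    (mul_ne_zero ha (hXk _)) hb hmult
  have hZ0 : Z0 ≠ 0 := by
    rintro rfl
    rw [zero_pow hm0, mul_zero, zero_mul] at hU3
    exact mul_ne_zero ha (hXk _) hU3
  have hkey := root_eq_of_unit_eq (H : LaurentSeries Kb) _ _ hb hab m _ u Z0 hU3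
  exact ⟨_, u, Z0, hZ0, hkey⟩

/-- **DISC-UNIT** for `F_N`, `j = helper29.jElt N`. -/
theorem disc_factor_jElt (N : ℕ) [NeZero N] (A : ValuationSubring Kb) (m : ℕ) (hm0 : m ≠ 0)
    (H : FF N) (hH : H ≠ 0)
    (hdiv : ∀ P : Place Kb (FF N), (m : ℤ) ∣ P.ord H)
    (hreg : ∀ P : Place Kb (FF N), 0 ≤ P.ord (Fermat.Agent.P2.helper29.jElt N) → 0 ≤ P.ord H)
    (Y₁ : LaurentSeries A) (h12 : coeffMap A.subtype Y₁ = (H : LaurentSeries Kb))
    (hred : coeffMap (IsLocalRing.residue A) Y₁ = 1) :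
    ∃ S : Finset Kb, ∀ K₀ : IntermediateField ℚ Kb, FiniteDimensional ℚ K₀ →
      (S : Set Kb) ⊆ K₀ →
      ∃ (n' : ℕ) (u : (PowerSeries (capSubring A K₀))ˣ) (Z0 : PowerSeries (capSubring A K₀)),
        Z0 ≠ 0 ∧
        (H : LaurentSeries Kb) * (phi (capSubring A K₀) (PowerSeries.X ^ n')) ^ m =
          phi (capSubring A K₀) (u : PowerSeries (capSubring A K₀)) *
            (phi (capSubring A K₀) Z0) ^ m := by
  have hone : coeffMap (IsLocalRing.residue A) (1 : LaurentSeries A) = 1 := map_one _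
  have hincl1 : coeffMap A.subtype (1 : LaurentSeries A) = 1 := map_one _
  refine disc_factor_core (FF N) A (exists_place_of_valuationSubring_FF N)
    (fun f => Fermat.Agent.P2.helper73.exists_finset_isRatio N A f f.2)
    (fun K₀ _ => Fermat.Agent.P2.helper89.isPrincipalIdealRing_capSubring A K₀)
    (Fermat.Agent.P2.helper29.jElt N) rfl m hm0 H hH (finite_ord_ne_zero N H hH) ?_
    (fun P _ => hdiv P) hreg Y₁ 1 (by rw [h12]; exact H.2)
    (by rw [hincl1]; exact one_mem _) (by rw [hincl1, mul_one, h12]) (by rw [hred, hone])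
    (by rw [hone]; exact one_ne_zero)
  rw [← qPlace_ord N H hH]
  exact hdiv _

/-- **DISC-UNIT for the pair of cusps**: for `IsA0One M W A K` with `m ∣ div K` (`m ≠ 0`), the
two expansions of `K` and `W K` factor over ONE `R₀ = A ∩ K₀` (every number field `K₀` containing
a suitable finite set). -/
theorem disc_factor_pair {M : ℕ} [NeZero M] (W : FF M ≃ₐ[Kb] FF M) (hWW : ∀ f, W (W f) = f)
    (hWj : ((W (Fermat.Agent.P2.helper29.jElt M) : FF M) : LaurentSeries Kb).order < 0)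
    (A : ValuationSubring Kb) (m : ℕ) (hm0 : m ≠ 0) (K : FF M)
    (hK : Fermat.Agent.T2.IsA0One M W A K)
    (hdiv : ∀ P : Place Kb (FF M), (m : ℤ) ∣ P.ord K) :
    ∃ S : Finset Kb, ∀ K₀ : IntermediateField ℚ Kb, FiniteDimensional ℚ K₀ →
      (S : Set Kb) ⊆ K₀ →
      ∃ (na nb : ℕ) (ua ub : (PowerSeries (capSubring A K₀))ˣ)
        (Za Zb : PowerSeries (capSubring A K₀)), Za ≠ 0 ∧ Zb ≠ 0 ∧
        (K : LaurentSeries Kb) * (phi (capSubring A K₀) (PowerSeries.X ^ na)) ^ m =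
          phi (capSubring A K₀) (ua : PowerSeries (capSubring A K₀)) *
            (phi (capSubring A K₀) Za) ^ m ∧
        ((W K : FF M) : LaurentSeries Kb) * (phi (capSubring A K₀) (PowerSeries.X ^ nb)) ^ m =
          phi (capSubring A K₀) (ub : PowerSeries (capSubring A K₀)) *
            (phi (capSubring A K₀) Zb) ^ m := by
  classical
  obtain ⟨hreg, Y₁, Y₂, hY₁, hY₂, hr₁, hr₂⟩ := hK
  have hne : ∀ (Y : LaurentSeries A) (G : FF M),
      coeffMap A.subtype Y = (G : LaurentSeries Kb) →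
      coeffMap (IsLocalRing.residue A) Y = 1 → G ≠ 0 := by
    rintro Y G hY hr rfl
    have h0 : coeffMap A.subtype Y = 0 := by simpa using hY
    have hY0 : Y = 0 := by
      ext k
      have := congrArg (fun Z : LaurentSeries Kb => Z.coeff k) h0
      simpa using this
    rw [hY0, map_zero] at hr
    exact zero_ne_one hr
  have hH0 : K ≠ 0 := hne Y₁ K hY₁ hr₁
  have hWH0 : W K ≠ 0 := hne Y₂ (W K) hY₂ hr₂
  obtain ⟨S₁, hS₁⟩ := disc_factor_jElt M A m hm0 K hH0 hdiv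
    (fun P hP => hreg P (Fermat.Agent.T2.helper23.not_isInfty_of_ord_jElt_nonneg hP)
      (Fermat.Agent.T2.helper23.not_isInftyW_of_ord_jElt_nonneg W hWj hP)) Y₁ hY₁ hr₁
  have hdivW : ∀ P : Place Kb (FF M), (m : ℤ) ∣ P.ord (W K) := by
    intro P
    rw [← Fermat.Agent.T2.helper23.ord_smul_invol W hWW]
    exact hdiv _
  have hregW : ∀ P : Place Kb (FF M), 0 ≤ P.ord (Fermat.Agent.P2.helper29.jElt M) →
      0 ≤ P.ord (W K) := by
    intro P hP
    rw [← Fermat.Agent.T2.helper23.ord_smul_invol W hWW]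
    apply hreg
    · intro h
      apply Fermat.Agent.T2.helper23.not_isInftyW_of_ord_jElt_nonneg W hWj hP
      intro f hf
      have h1 := h (W f) ((EmbeddingLike.map_ne_zero_iff).mpr hf)
      rw [Fermat.Agent.T2.helper23.ord_smul_invol W hWW, hWW] at h1
      exact h1
    · intro h
      apply Fermat.Agent.T2.helper23.not_isInfty_of_ord_jElt_nonneg hP
      intro f hf
      have h1 := h (W f) ((EmbeddingLike.map_ne_zero_iff).mpr hf)
      rw [Fermat.Agent.T2.helper23.ord_smul_invol W hWW, hWW] at h1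
      exact h1
  obtain ⟨S₂, hS₂⟩ := disc_factor_jElt M A m hm0 (W K) hWH0 hdivW hregW Y₂ hY₂ hr₂
  refine ⟨S₁ ∪ S₂, fun K₀ hfd hSK => ?_⟩
  have hSK₁ : (S₁ : Set Kb) ⊆ K₀ := fun x hx => hSK (by
    simp only [Finset.coe_union, Set.mem_union, Finset.mem_coe]
    exact Or.inl hx)
  have hSK₂ : (S₂ : Set Kb) ⊆ K₀ := fun x hx => hSK (by
    simp only [Finset.coe_union, Set.mem_union, Finset.mem_coe]
    exact Or.inr hx)
  obtain ⟨na, ua, Za, hZa, hfa⟩ := hS₁ K₀ hfd hSK₁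
  obtain ⟨nb, ub, Zb, hZb, hfb⟩ := hS₂ K₀ hfd hSK₂
  exact ⟨na, nb, ua, ub, Za, Zb, hZa, hZb, hfa, hfb⟩

end Fermat.Agent.T7.helper44

end
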