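/-
T7 (S33), helper49: **the norm of a 1-unit over a family of conjugates with `p`-divisible traces**
(Mathlib only).

`R` a commutative ring, `B` a subring ("integral elements"), `p` a prime number, `x : ι → R` a
family of `p` elements of `B` ("the conjugates of `z`") such that

* every power sum `∑ i, x i ^ j` (`0 < j < p`) lies in `p B`   ("the traces are divisible by `p`"),
* every `k` with `0 < k < p` is invertible in `B`.

Then the elementary symmetric functions `e_k(x)`, `0 < k < p`, lie in `p B` (Newton's identities)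
and, for every `c ∈ B`,

  `∏ i, (1 + c * x i) = 1 + c ^ p * ∏ i, x i + (c * p) * b`,   `b ∈ B`       (`prod_one_add_mul`).

Application (T7, norm of a Kummer generator along a degeneracy map of degree `p` with purely
inseparable residue extension): `R = ℚ̄((q))`, `B` = the series with coefficients in `A`,
`x k = z(ζ^k q)`; the power sums are `p` times a series with coefficients in `A`.
So a `1`-unit of depth `d` has a norm of depth `≥ min (p d, d + v(p))`.
-/
import Mathlib

set_option autoImplicit false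

namespace Fermat.Agent.T7.helper49

open Finset MvPolynomial

variable {R : Type*} [CommRing R]

/-- the value of the `n`-th elementary symmetric polynomial at the family `x` -/
def esymF {ι : Type*} [Fintype ι] (x : ι → R) (n : ℕ) : R :=
  ∑ t ∈ powersetCard n (univ : Finset ι), ∏ i ∈ t, x i

theorem eval_esymm {ι : Type*} [Fintype ι] (x : ι → R) (n : ℕ) :
    MvPolynomial.eval x (esymm ι R n) = esymF x n := by
  simp only [esymm, esymF, map_sum, map_prod, eval_X]

theorem eval_psum {ι : Type*} [Fintype ι] (x : ι → R) (n : ℕ) :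
    MvPolynomial.eval x (psum ι R n) = ∑ i, x i ^ n := by
  simp only [psum, map_sum, map_pow, eval_X]

/-- **Newton's identities**, evaluated at a family. -/
theorem newton_eval {ι : Type*} [Fintype ι] (x : ι → R) (k : ℕ) :
    (k : R) * esymF x k = (-1) ^ (k + 1) *
      ∑ a ∈ antidiagonal k with a.1 < k, (-1) ^ a.1 * esymF x a.1 * ∑ i, x i ^ a.2 := by
  have h := congrArg (MvPolynomial.eval x) (mul_esymm_eq_sum ι R k)
  simpa only [map_mul, map_natCast, map_pow, map_neg, map_one, map_sum, eval_esymm,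
    eval_psum] using h

theorem esymF_mem (B : Subring R) {ι : Type*} [Fintype ι] (x : ι → R) (hx : ∀ i, x i ∈ B)
    (n : ℕ) : esymF x n ∈ B :=
  Subring.sum_mem _ fun _ _ => Subring.prod_mem _ fun i _ => hx i

theorem esymF_zero {ι : Type*} [Fintype ι] (x : ι → R) : esymF x 0 = 1 := by
  simp [esymF]

theorem esymF_card {ι : Type*} [Fintype ι] (x : ι → R) :
    esymF x (Fintype.card ι) = ∏ i, x i := by
  have h : powersetCard (Fintype.card ι) (univ : Finset ι) = {univ} := by
    rw [← Finset.card_univ]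
    exact powersetCard_self _
  rw [esymF, h, sum_singleton]

/-- **the elementary symmetric functions are divisible by `p`** -/
theorem esymF_mem_smul (B : Subring R) (p : ℕ) {ι : Type*} [Fintype ι] (x : ι → R)
    (hx : ∀ i, x i ∈ B)
    (hunit : ∀ k : ℕ, 0 < k → k < p → ∃ b ∈ B, (k : R) * b = 1)
    (hpow : ∀ j : ℕ, 0 < j → j < p → ∃ b ∈ B, ∑ i, x i ^ j = (p : R) * b)
    (k : ℕ) (hk0 : 0 < k) (hkp : k < p) : ∃ b ∈ B, esymF x k = (p : R) * b := by
  classical
  obtain ⟨u, huB, hu⟩ := hunit k hk0 hkp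
  -- every summand of the right-hand side of Newton's identity lies in `p B`
  have hsum : ∃ b ∈ B, (∑ a ∈ antidiagonal k with a.1 < k,
      (-1) ^ a.1 * esymF x a.1 * ∑ i, x i ^ a.2) = (p : R) * b := by
    have hterm : ∀ a ∈ (antidiagonal k).filter (fun a => a.1 < k),
        ∃ b ∈ B, (-1) ^ a.1 * esymF x a.1 * ∑ i, x i ^ a.2 = (p : R) * b := by
      intro a ha
      rw [mem_filter, HasAntidiagonal.mem_antidiagonal] at ha
      obtain ⟨b, hbB, hb⟩ := hpow a.2 (by omega) (by omega)
      refine ⟨(-1) ^ a.1 * esymF x a.1 * b, ?_, ?_⟩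
      · exact B.mul_mem (B.mul_mem (B.pow_mem (B.neg_mem B.one_mem) _) (esymF_mem B x hx _)) hbB
      · rw [hb]; ring
    choose! f hfB hf using hterm
    refine ⟨∑ a ∈ (antidiagonal k).filter (fun a => a.1 < k), f a, ?_, ?_⟩
    · exact Subring.sum_mem _ fun a ha => hfB a ha
    · rw [mul_sum]
      exact sum_congr rfl fun a ha => hf a ha
  obtain ⟨b, hbB, hb⟩ := hsum
  refine ⟨u * ((-1) ^ (k + 1) * b), ?_, ?_⟩
  · exact B.mul_mem huB (B.mul_mem (B.pow_mem (B.neg_mem B.one_mem) _) hbB)
  · have h1 := newton_eval x k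
    rw [hb] at h1
    calc esymF x k = ((k : R) * u) * esymF x k := by rw [hu, one_mul]
      _ = u * ((k : R) * esymF x k) := by ring
      _ = u * ((-1) ^ (k + 1) * ((p : R) * b)) := by rw [h1]
      _ = (p : R) * (u * ((-1) ^ (k + 1) * b)) := by ring

/-- the expansion of `∏ (1 + c x_i)` in the elementary symmetric functions -/
theorem prod_one_add_mul_eq_sum {ι : Type*} [Fintype ι] (x : ι → R) (c : R) :
    ∏ i, (1 + c * x i) = ∑ k ∈ range (Fintype.card ι + 1), c ^ k * esymF x k := by
  classical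
  rw [prod_one_add, ← Finset.card_univ, powerset_card_disjiUnion, sum_disjiUnion]
  refine sum_congr rfl fun k _ => ?_
  rw [esymF, mul_sum]
  refine sum_congr rfl fun t ht => ?_
  rw [prod_mul_distrib, prod_const, (mem_powersetCard.mp ht).2]

/-- **The norm of a `1`-unit.**  If the power sums of the family `x` (of `p` elements of `B`) are
divisible by `p` and `1, .., p - 1` are units of `B`, then
`∏ (1 + c x_i) = 1 + c ^ p ∏ x_i + c p b` with `b ∈ B`. -/
theorem prod_one_add_mul (B : Subring R) (p : ℕ) (hp : 0 < p) {ι : Type*} [Fintype ι]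
    (hcard : Fintype.card ι = p) (x : ι → R) (hx : ∀ i, x i ∈ B)
    (hunit : ∀ k : ℕ, 0 < k → k < p → ∃ b ∈ B, (k : R) * b = 1)
    (hpow : ∀ j : ℕ, 0 < j → j < p → ∃ b ∈ B, ∑ i, x i ^ j = (p : R) * b)
    (c : R) (hc : c ∈ B) :
    ∃ b ∈ B, ∏ i, (1 + c * x i) = 1 + c ^ p * ∏ i, x i + c * (p : R) * b := by
  classical
  have hmid : ∀ k ∈ Ioo 0 p, ∃ b ∈ B, c ^ k * esymF x k = c * (p : R) * b := by
    intro k hk
    rw [mem_Ioo] at hk
    obtain ⟨b, hbB, hb⟩ := esymF_mem_smul B p x hx hunit hpow k hk.1 hk.2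
    refine ⟨c ^ (k - 1) * b, B.mul_mem (B.pow_mem hc _) hbB, ?_⟩
    rw [hb]
    obtain ⟨m, rfl⟩ : ∃ m, k = m + 1 := ⟨k - 1, by omega⟩
    rw [Nat.add_sub_cancel, pow_succ]
    ring
  choose! f hfB hf using hmid
  refine ⟨∑ k ∈ Ioo 0 p, f k, Subring.sum_mem _ fun k hk => hfB k hk, ?_⟩
  rw [prod_one_add_mul_eq_sum, hcard]
  have hsplit : range (p + 1) = insert 0 (insert p (Ioo 0 p)) := by
    ext k
    simp only [mem_range, mem_insert, mem_Ioo]
    omega
  rw [hsplit, sum_insert (by simp only [mem_insert, mem_Ioo]; omega),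
    sum_insert (by simp only [mem_Ioo]; omega), pow_zero, esymF_zero, one_mul, ← hcard,
    esymF_card, hcard, mul_sum, add_assoc]
  congr 2
  exact sum_congr rfl fun k hk => hf k hk

end Fermat.Agent.T7.helper49
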