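/-
T7 (S33), helper49: **the norm `NU` raises the depth of `1`-units** (`q`-series form).

`A` a valuation subring of `ℚ̄` over the prime `p`, `ζ` a primitive `p`-th root of unity,
`NU(Y)(q^p) = ∏_{k<p} Y(ζ^k q)` (the second factor of `helper43.normAlpha_pair`).  For an
`A`-integral series `Z` and `c ∈ A`:

  `∏_{k<p} (1 + c Z)(ζ^k q) = 1 + c^p ∏_{k<p} Z(ζ^k q) + c p W`,   `W` `A`-integral
                                                                     (`prod_twistL_one_add`).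

So a `1`-unit `1 + c Z` of depth `v(c)` has a norm of depth `≥ min (p v(c), v(c) + v(p))`.

* `intB A`              : the subring of the `A`-integral series of `ℚ̄((q))`;
* `sum_twistL`          : `∑_{k<p} f(ζ^k q) = p · (the part of f in q^p)` (the trace);
* `prod_twistL_one_add` : the statement above;
* `prod_twistL_mem`     : the norm of an integral series is integral.
-/
import Mathlib
import Fermat.Agent.T7.helper49_NormSym
import Fermat.Agent.T2.helper87_RegRed2
import Fermat.Agent.P2.helper93_ESRed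

set_option autoImplicit false
set_option linter.unusedSectionVars false
set_option linter.unusedVariables false
set_option linter.style.longLine false

noncomputable section

open ModularCurve Finset

namespace Fermat.Agent.T7.helper49

open Fermat.Agent.S24 Fermat.Agent.P2.helper93 Fermat.Agent.T2.helper87

variable (A : ValuationSubring Kbar)

/-- the subring of the `A`-integral series -/
def intB : Subring (LaurentSeries Kbar) := (coeffMap (A.subtype : ↥A →+* Kbar)).range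

variable {A}

theorem mem_intB_iff {f : LaurentSeries Kbar} : f ∈ intB A ↔ ∀ k, f.coeff k ∈ A := by
  constructor
  · rintro ⟨Z, rfl⟩ k
    rw [coeffMap_coeff]
    exact (Z.coeff k).2
  · intro h
    exact ⟨liftA f h, coeffMap_subtype_liftA f h⟩

theorem coeffMap_mem_intB (Z : LaurentSeries ↥A) :
    coeffMap (A.subtype : ↥A →+* Kbar) Z ∈ intB A := ⟨Z, rfl⟩

theorem C_mem_intB {a : Kbar} (ha : a ∈ A) :
    (HahnSeries.C a : LaurentSeries Kbar) ∈ intB A := by
  rw [mem_intB_iff]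
  intro k
  rw [HahnSeries.C_apply, HahnSeries.coeff_single]
  split_ifs
  · exact ha
  · exact A.zero_mem

/-- the twist by a root of unity preserves integrality -/
theorem twistL_mem_intB {ξ : Kbar} {n : ℕ} (hn : n ≠ 0) (hξ : ξ ^ n = 1)
    {f : LaurentSeries Kbar} (hf : f ∈ intB A) : twistL ξ f ∈ intB A := by
  obtain ⟨Z, rfl⟩ := hf
  exact ⟨Fermat.Agent.P2.helper94.rot (rootUnit A hn hξ) Z, by
    rw [coeffMap_subtype_rot, coe_rootUnit]⟩

theorem twistL_C (ξ a : Kbar) :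
    twistL ξ (HahnSeries.C a : LaurentSeries Kbar) = HahnSeries.C a := by
  rw [HahnSeries.C_apply, twistL_single, zpow_zero, one_mul]

/-! ### The trace -/

/-- the part of a series in `q^p` -/
def pPart (p : ℕ) (f : LaurentSeries Kbar) : LaurentSeries Kbar where
  coeff k := if (p : ℤ) ∣ k then f.coeff k else 0
  isPWO_support' := f.isPWO_support.mono fun k hk => by
    simp only [Function.mem_support, ne_eq] at hk ⊢
    intro h
    apply hk
    rw [h]
    simp

@[simp]
theorem pPart_coeff (p : ℕ) (f : LaurentSeries Kbar) (k : ℤ) :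
    (pPart p f).coeff k = if (p : ℤ) ∣ k then f.coeff k else 0 := rfl

theorem pPart_mem_intB (p : ℕ) {f : LaurentSeries Kbar} (hf : f ∈ intB A) :
    pPart p f ∈ intB A := by
  rw [mem_intB_iff] at hf ⊢
  intro k
  rw [pPart_coeff]
  split_ifs
  · exact hf k
  · exact A.zero_mem

theorem natCast_mul_coeff (n : ℕ) (f : LaurentSeries Kbar) (k : ℤ) :
    ((n : LaurentSeries Kbar) * f).coeff k = (n : Kbar) * f.coeff k := by
  have h : (n : LaurentSeries Kbar) = HahnSeries.C (n : Kbar) := by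
    rw [map_natCast]
  rw [h, HahnSeries.C_mul_eq_smul, HahnSeries.coeff_smul, smul_eq_mul]

/-- **the trace**: `∑_{k<p} f(ζ^k q) = p · pPart f` -/
theorem sum_twistL {p : ℕ} {ζ : Kbar} (hζ : IsPrimitiveRoot ζ p) (hp : 0 < p)
    (f : LaurentSeries Kbar) :
    ∑ k ∈ range p, twistL (ζ ^ k) f = (p : LaurentSeries Kbar) * pPart p f := by
  ext n
  rw [natCast_mul_coeff, pPart_coeff, HahnSeries.coeff_sum]
  simp only [twistL_coeff]
  rw [← Finset.sum_mul]
  have hpow : ∀ k : ℕ, (ζ ^ k) ^ n = (ζ ^ n) ^ k := by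
    intro k
    rw [← zpow_natCast, ← zpow_mul, mul_comm, zpow_mul, zpow_natCast]
  simp only [hpow]
  by_cases hn : (p : ℤ) ∣ n
  · rw [if_pos hn]
    have h1 : ζ ^ n = 1 := (hζ.zpow_eq_one_iff_dvd n).mpr hn
    simp [h1]
  · rw [if_neg hn, mul_zero]
    have h1 : ζ ^ n ≠ 1 := fun h => hn ((hζ.zpow_eq_one_iff_dvd n).mp h)
    have h2 : (ζ ^ n) ^ p = 1 := by
      rw [← zpow_natCast, ← zpow_mul, mul_comm, zpow_mul, zpow_natCast, hζ.pow_eq_one, one_zpow]
    have h3 : ∑ k ∈ range p, (ζ ^ n) ^ k = 0 := by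
      have := mul_geom_sum (ζ ^ n) p
      rw [h2, sub_self] at this
      exact (mul_eq_zero.mp this).resolve_left (sub_ne_zero.mpr h1)
    rw [h3, zero_mul]

/-! ### Units -/

theorem valuation_mul_intCast_lt {x : Kbar} (hx : A.valuation x < 1) (a : ℤ) :
    A.valuation (x * (a : Kbar)) < 1 := by
  have ha : A.valuation (a : Kbar) ≤ 1 := (A.valuation_le_one_iff _).mpr (intCast_mem A a)
  rw [map_mul]
  calc A.valuation x * A.valuation (a : Kbar) ≤ A.valuation x * 1 := by gcongr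
    _ = A.valuation x := mul_one _
    _ < 1 := hx

theorem natCast_inv_mem {p : ℕ} (hp : p.Prime) (hA : A.LiesOverPrime p) {k : ℕ} (hk0 : 0 < k)
    (hkp : k < p) : ((k : Kbar))⁻¹ ∈ A := by
  have hcop : Nat.Coprime k p :=
    ((Nat.Prime.coprime_iff_not_dvd hp).mpr (Nat.not_dvd_of_pos_of_lt hk0 hkp)).symm
  have hb := Int.gcd_eq_gcd_ab k p
  rw [show Int.gcd (k : ℤ) (p : ℤ) = Nat.gcd k p from rfl, hcop.gcd_eq_one] at hb
  have hb' := congrArg (Int.cast : ℤ → Kbar) hb
  push_cast at hb'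
  have hvp : A.valuation (p : Kbar) < 1 := hA
  by_contra hk
  have hvk : A.valuation (k : Kbar) < 1 :=
    (A.mem_nonunits_iff_or).mpr (Or.inr hk)
  have h1 : A.valuation (1 : Kbar) < 1 := by
    rw [hb']
    exact Valuation.map_add_lt _ (valuation_mul_intCast_lt hvk _) (valuation_mul_intCast_lt hvp _)
  rw [map_one] at h1
  exact lt_irrefl _ h1

/-! ### The norm of a `1`-unit -/

/-- **the norm `NU` raises the depth of `1`-units**:
`∏_{k<p} (1 + c Z)(ζ^k q) = 1 + c^p ∏_{k<p} Z(ζ^k q) + c p W` with `W` integral. -/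
theorem prod_twistL_one_add {p : ℕ} (hp : p.Prime) (hA : A.LiesOverPrime p) {ζ : Kbar}
    (hζ : IsPrimitiveRoot ζ p) (c : ↥A) (Z : LaurentSeries ↥A) :
    ∃ W : LaurentSeries ↥A,
      ∏ k ∈ range p, twistL (ζ ^ k)
          (1 + HahnSeries.C (c : Kbar) * coeffMap (A.subtype : ↥A →+* Kbar) Z) =
        1 + HahnSeries.C ((c : Kbar) ^ p) *
            ∏ k ∈ range p, twistL (ζ ^ k) (coeffMap (A.subtype : ↥A →+* Kbar) Z)
          + HahnSeries.C ((c : Kbar) * (p : Kbar)) * coeffMap (A.subtype : ↥A →+* Kbar) W := by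
  have hζ0 : ∀ k : ℕ, ζ ^ k ≠ 0 := fun k => pow_ne_zero _ (hζ.ne_zero hp.ne_zero)
  have hζp : ∀ k : ℕ, (ζ ^ k) ^ p = 1 := fun k => by
    rw [← pow_mul, mul_comm, pow_mul, hζ.pow_eq_one, one_pow]
  set z : LaurentSeries Kbar := coeffMap (A.subtype : ↥A →+* Kbar) Z with hz
  have hzB : z ∈ intB A := coeffMap_mem_intB Z
  let x : Fin p → LaurentSeries Kbar := fun i => twistL (ζ ^ (i : ℕ)) z
  have hx : ∀ i, x i ∈ intB A := fun i => twistL_mem_intB hp.ne_zero (hζp _) hzB
  have hunit : ∀ k : ℕ, 0 < k → k < p →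
      ∃ b ∈ intB A, ((k : ℕ) : LaurentSeries Kbar) * b = 1 := by
    intro k hk0 hkp
    refine ⟨HahnSeries.C ((k : Kbar))⁻¹, C_mem_intB (natCast_inv_mem hp hA hk0 hkp), ?_⟩
    have hk : (k : Kbar) ≠ 0 := Nat.cast_ne_zero.mpr hk0.ne'
    rw [show ((k : ℕ) : LaurentSeries Kbar) = HahnSeries.C (k : Kbar) by rw [map_natCast],
      ← map_mul, mul_inv_cancel₀ hk, map_one]
  have hpow : ∀ j : ℕ, 0 < j → j < p →
      ∃ b ∈ intB A, ∑ i, x i ^ j = ((p : ℕ) : LaurentSeries Kbar) * b := by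
    intro j _ _
    refine ⟨pPart p (z ^ j), pPart_mem_intB p ((intB A).pow_mem hzB j), ?_⟩
    rw [← sum_twistL hζ hp.pos (z ^ j), ← Fin.sum_univ_eq_sum_range
      (fun k => twistL (ζ ^ k) (z ^ j)) p]
    refine Finset.sum_congr rfl fun i _ => ?_
    exact ((twistHom (ζ ^ (i : ℕ)) (hζ0 _)).map_pow z j).symm
  obtain ⟨b, hbB, hb⟩ := prod_one_add_mul (intB A) p hp.pos (Fintype.card_fin p) x hx hunit hpow
    (HahnSeries.C (c : Kbar)) (C_mem_intB c.2)
  obtain ⟨W, rfl⟩ := hbB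
  refine ⟨W, ?_⟩
  have e1 : ∀ k : ℕ, twistL (ζ ^ k) (1 + HahnSeries.C (c : Kbar) * z) =
      1 + HahnSeries.C (c : Kbar) * twistL (ζ ^ k) z := by
    intro k
    rw [twistL_add, twistL_one, twistL_mul (hζ0 k), twistL_C]
  simp only [e1]
  rw [← Fin.prod_univ_eq_prod_range (fun k => 1 + HahnSeries.C (c : Kbar) * twistL (ζ ^ k) z) p,
    ← Fin.prod_univ_eq_prod_range (fun k => twistL (ζ ^ k) z) p]
  rw [hb, map_pow, map_mul, map_natCast]

/-- the norm `NU` of an integral series is integral -/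
theorem prod_twistL_mem_intB {p : ℕ} (hp : p ≠ 0) {ζ : Kbar} (hζ : ζ ^ p = 1)
    {f : LaurentSeries Kbar} (hf : f ∈ intB A) :
    ∏ k ∈ range p, twistL (ζ ^ k) f ∈ intB A :=
  Subring.prod_mem _ fun k _ => twistL_mem_intB hp (by
    rw [← pow_mul, mul_comm, pow_mul, hζ, one_pow]) hf

/-- **depth form**: the norm of `1 + c Z` is `1 + c (c^(p-1) N + p W)`, `N`, `W` integral. -/
theorem prod_twistL_one_add' {p : ℕ} (hp : p.Prime) (hA : A.LiesOverPrime p) {ζ : Kbar}
    (hζ : IsPrimitiveRoot ζ p) (c : ↥A) (Z : LaurentSeries ↥A) :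
    ∃ N W : LaurentSeries ↥A,
      coeffMap (A.subtype : ↥A →+* Kbar) N =
        ∏ k ∈ range p, twistL (ζ ^ k) (coeffMap (A.subtype : ↥A →+* Kbar) Z) ∧
      ∏ k ∈ range p, twistL (ζ ^ k)
          (1 + HahnSeries.C (c : Kbar) * coeffMap (A.subtype : ↥A →+* Kbar) Z) =
        1 + HahnSeries.C (c : Kbar) * (HahnSeries.C ((c : Kbar) ^ (p - 1)) *
            coeffMap (A.subtype : ↥A →+* Kbar) N
          + HahnSeries.C ((p : Kbar)) * coeffMap (A.subtype : ↥A →+* Kbar) W) := by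
  obtain ⟨W, hW⟩ := prod_twistL_one_add hp hA hζ c Z
  obtain ⟨N, hN⟩ := prod_twistL_mem_intB hp.ne_zero hζ.pow_eq_one (coeffMap_mem_intB Z)
  refine ⟨N, W, hN, ?_⟩
  rw [hW, hN]
  obtain ⟨m, hm⟩ : ∃ m, p = m + 1 := ⟨p - 1, by have := hp.pos; omega⟩
  rw [hm, Nat.add_sub_cancel, pow_succ]
  simp only [map_mul, map_pow]
  ring

/-- **depth raising**: if `d` divides `c^(p-1)` and `p` in `A`, the norm of a `1`-unit of depth
`c` is a `1`-unit of depth `c d`. -/
theorem prod_twistL_one_add_of_dvd {p : ℕ} (hp : p.Prime) (hA : A.LiesOverPrime p) {ζ : Kbar}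
    (hζ : IsPrimitiveRoot ζ p) (c d e₁ e₂ : ↥A) (h₁ : c ^ (p - 1) = d * e₁)
    (h₂ : ((p : ℕ) : ↥A) = d * e₂) (Z : LaurentSeries ↥A) :
    ∃ W : LaurentSeries ↥A,
      ∏ k ∈ range p, twistL (ζ ^ k)
          (1 + HahnSeries.C (c : Kbar) * coeffMap (A.subtype : ↥A →+* Kbar) Z) =
        1 + HahnSeries.C ((c : Kbar) * (d : Kbar)) * coeffMap (A.subtype : ↥A →+* Kbar) W := by
  obtain ⟨N, W, -, h⟩ := prod_twistL_one_add' hp hA hζ c Z
  refine ⟨HahnSeries.C e₁ * N + HahnSeries.C e₂ * W, ?_⟩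
  have h₁' : (c : Kbar) ^ (p - 1) = (d : Kbar) * (e₁ : Kbar) := by
    have := congrArg (fun a : ↥A => (a : Kbar)) h₁
    simpa using this
  have h₂' : ((p : ℕ) : Kbar) = (d : Kbar) * (e₂ : Kbar) := by
    have := congrArg (fun a : ↥A => (a : Kbar)) h₂
    simpa using this
  have hC : ∀ a : ↥A, coeffMap (A.subtype : ↥A →+* Kbar) (HahnSeries.C a) =
      HahnSeries.C (a : Kbar) := by
    intro a
    ext k
    rw [coeffMap_coeff, HahnSeries.C_apply, HahnSeries.C_apply, HahnSeries.coeff_single,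
      HahnSeries.coeff_single]
    split_ifs <;> simp
  have hR : coeffMap (A.subtype : ↥A →+* Kbar) (HahnSeries.C e₁ * N + HahnSeries.C e₂ * W) =
      HahnSeries.C (e₁ : Kbar) * coeffMap (A.subtype : ↥A →+* Kbar) N +
        HahnSeries.C (e₂ : Kbar) * coeffMap (A.subtype : ↥A →+* Kbar) W := by
    rw [map_add, map_mul, map_mul, hC, hC]
  rw [h, h₁', h₂', hR]
  simp only [map_mul]
  ring

/-- **descent of the depth along `q ↦ q^n`**: if `X(q^n)` is a `1`-unit of depth `c`, so is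
`X`. -/
theorem exists_of_qExpand_eq_one_add {n : ℕ} [NeZero n] {X : LaurentSeries Kbar} (c : ↥A)
    (Y : LaurentSeries ↥A)
    (h : qExpand Kbar n X = 1 + HahnSeries.C (c : Kbar) * coeffMap (A.subtype : ↥A →+* Kbar) Y) :
    ∃ Y' : LaurentSeries ↥A,
      X = 1 + HahnSeries.C (c : Kbar) * coeffMap (A.subtype : ↥A →+* Kbar) Y' := by
  by_cases hc : (c : Kbar) = 0
  · refine ⟨0, ?_⟩
    rw [hc, map_zero, zero_mul, add_zero] at h
    rw [hc, map_zero, zero_mul, add_zero]
    apply Fermat.Agent.P2.helper94.qExpand_injective n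
    rw [h, map_one]
  · have hmem : ∀ k, (HahnSeries.C (c : Kbar)⁻¹ * (X - 1)).coeff k ∈ A := by
      intro k
      have h1 : (HahnSeries.C (c : Kbar)⁻¹ * (X - 1)).coeff k =
          (qExpand Kbar n (HahnSeries.C (c : Kbar)⁻¹ * (X - 1))).coeff ((n : ℤ) * k) :=
        (qExpand_coeff_mul n _ k).symm
      have h2 : qExpand Kbar n (HahnSeries.C (c : Kbar)⁻¹ * (X - 1)) =
          coeffMap (A.subtype : ↥A →+* Kbar) Y := by
        have hqC : qExpand Kbar n (HahnSeries.C (c : Kbar)⁻¹) = HahnSeries.C (c : Kbar)⁻¹ := by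
          rw [HahnSeries.C_apply, qExpand_single, mul_zero]
        rw [map_mul, map_sub, map_one, h, hqC, add_sub_cancel_left, ← mul_assoc, ← map_mul,
          inv_mul_cancel₀ hc, map_one, one_mul]
      rw [h1, h2, coeffMap_coeff]
      exact (Y.coeff _).2
    refine ⟨liftA _ hmem, ?_⟩
    rw [coeffMap_subtype_liftA, ← mul_assoc, ← map_mul, mul_inv_cancel₀ hc, map_one, one_mul]
    ring

end Fermat.Agent.T7.helper49

end
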