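/-
T7 (S33), helper49: **depth of the norms along the two degeneracy maps** (function-field form).

Level `N p`, `p ∤ N` prime, `A` a valuation subring of `ℚ̄` over `p`, `W` the Atkin–Lehner
automorphism.  With `helper43.normAlpha_pair` / `normBeta_pair` (`N_α y = y · NU(W y)`,
`N_β y = W y · NU(y)` at `∞`) and `helper49.prod_twistL_one_add_of_dvd` (`NU` raises the depth):
if `d` divides both `c^(p-1)` and `p` in `A` then

* `normAlpha_depth` : `W y = 1 + c Z` at `∞`  ⟹  `N_α y = y · (1 + c d D)` at `∞`;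
* `normBeta_depth`  : `y = 1 + c Z` at `∞`    ⟹  `N_β y = W y · (1 + c d D)` at `∞`

(`Z`, `D` series with coefficients in `A`; all expansions are the inclusions
`F_M ⊆ ℚ̄((q))`).
-/
import Mathlib
import Fermat.Agent.T7.helper49_NormDepth
import Fermat.Agent.T7.helper43_NormPair

set_option autoImplicit false
set_option linter.unusedSectionVars false
set_option linter.unusedVariables false
set_option linter.style.longLine false

noncomputable section

open ModularCurve AlgebraicCurve Finset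

namespace Fermat.Agent.T7.helper49

open Fermat.Agent.S24 Fermat.Agent.P2.helper93 Fermat.Agent.T2.helper87
open Fermat.Agent.T2.helper36 Fermat.Agent.T7.helper43 Fermat.Agent.P3.helper94

variable (N p : ℕ) [NeZero N] [NeZero p]

/-- a series `X` with `X(q^p) = NU`-product of a `1`-unit of depth `c` is a `1`-unit of depth
`c d` -/
theorem exists_of_qExpand_eq_prod (hp : p.Prime) (A : ValuationSubring Kbar)
    (hA : A.LiesOverPrime p) {ζ : Kbar} (hζ : IsPrimitiveRoot ζ p) (c d e₁ e₂ : ↥A)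
    (h₁ : c ^ (p - 1) = d * e₁) (h₂ : ((p : ℕ) : ↥A) = d * e₂) (Z : LaurentSeries ↥A)
    {X : LaurentSeries Kbar}
    (hX : qExpand Kbar p X = ∏ k ∈ range p, twistL (ζ ^ k)
      (1 + HahnSeries.C (c : Kbar) * coeffMap (A.subtype : ↥A →+* Kbar) Z)) :
    ∃ D : LaurentSeries ↥A,
      X = 1 + HahnSeries.C ((c : Kbar) * (d : Kbar)) *
        coeffMap (A.subtype : ↥A →+* Kbar) D := by
  obtain ⟨W, hW⟩ := prod_twistL_one_add_of_dvd hp hA hζ c d e₁ e₂ h₁ h₂ Z
  rw [hW] at hX
  have := exists_of_qExpand_eq_one_add (A := A) (n := p) (X := X) (c * d) W (by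
    rw [hX]; simp)
  simpa using this

/-- **the norm along `α` raises the depth at `∞` relative to `y`**:
`W y = 1 + c Z`  ⟹  `N_α y = y · (1 + c d D)`. -/
theorem normAlpha_depth (hp : p.Prime) (hN : ¬ p ∣ N) (A : ValuationSubring Kbar)
    (hA : A.LiesOverPrime p) (c d e₁ e₂ : ↥A)
    (h₁ : c ^ (p - 1) = d * e₁) (h₂ : ((p : ℕ) : ↥A) = d * e₂)
    (y : modularFunctionFieldBar (N * p)) (Z : LaurentSeries ↥A)
    (hW : ((atkinLehner N p hp hN y : modularFunctionFieldBar (N * p)) : LaurentSeries Kbar) =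
      1 + HahnSeries.C (c : Kbar) * coeffMap (A.subtype : ↥A →+* Kbar) Z) :
    ∃ D : LaurentSeries ↥A,
      ((normAlong (heckeAlphaBar Kbar N p) y : modularFunctionFieldBar N) : LaurentSeries Kbar) =
        (y : LaurentSeries Kbar) * (1 + HahnSeries.C ((c : Kbar) * (d : Kbar)) *
          coeffMap (A.subtype : ↥A →+* Kbar) D) := by
  obtain ⟨ζ, hζ⟩ := HasEnoughRootsOfUnity.exists_primitiveRoot Kbar p
  have hpair := normAlpha_pair N p hp hN ζ hζ y
  rw [hW] at hpair
  by_cases hy : (y : LaurentSeries Kbar) = 0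
  · refine ⟨0, ?_⟩
    rw [hy, map_zero, zero_mul] at hpair
    rw [hy, zero_mul]
    apply Fermat.Agent.P2.helper94.qExpand_injective p
    rw [hpair, map_zero]
  · set n : LaurentSeries Kbar :=
      ((normAlong (heckeAlphaBar Kbar N p) y : modularFunctionFieldBar N) : LaurentSeries Kbar)
      with hn
    have hX : qExpand Kbar p (n * (y : LaurentSeries Kbar)⁻¹) = ∏ k ∈ range p, twistL (ζ ^ k)
        (1 + HahnSeries.C (c : Kbar) * coeffMap (A.subtype : ↥A →+* Kbar) Z) := by
      have hy' : qExpand Kbar p (y : LaurentSeries Kbar) ≠ 0 := fun h =>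
        hy (Fermat.Agent.P2.helper94.qExpand_injective p (by rw [h, map_zero]))
      rw [map_mul, map_inv₀, hpair, mul_comm, ← mul_assoc, inv_mul_cancel₀ hy', one_mul]
    obtain ⟨D, hD⟩ := exists_of_qExpand_eq_prod p hp A hA hζ c d e₁ e₂ h₁ h₂ Z hX
    refine ⟨D, ?_⟩
    rw [← hD, mul_comm n, ← mul_assoc, mul_inv_cancel₀ hy, one_mul]

/-- **the norm along `β` raises the depth at `∞` relative to `W y`**:
`y = 1 + c Z`  ⟹  `N_β y = W y · (1 + c d D)`. -/
theorem normBeta_depth (hp : p.Prime) (hN : ¬ p ∣ N) (A : ValuationSubring Kbar)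
    (hA : A.LiesOverPrime p) (c d e₁ e₂ : ↥A)
    (h₁ : c ^ (p - 1) = d * e₁) (h₂ : ((p : ℕ) : ↥A) = d * e₂)
    (y : modularFunctionFieldBar (N * p)) (Z : LaurentSeries ↥A)
    (hy : (y : LaurentSeries Kbar) =
      1 + HahnSeries.C (c : Kbar) * coeffMap (A.subtype : ↥A →+* Kbar) Z) :
    ∃ D : LaurentSeries ↥A,
      ((normAlong (heckeBetaBar Kbar N p) y : modularFunctionFieldBar N) : LaurentSeries Kbar) =
        ((atkinLehner N p hp hN y : modularFunctionFieldBar (N * p)) : LaurentSeries Kbar) *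
          (1 + HahnSeries.C ((c : Kbar) * (d : Kbar)) *
            coeffMap (A.subtype : ↥A →+* Kbar) D) := by
  have h := normAlpha_depth N p hp hN A hA c d e₁ e₂ h₁ h₂ (atkinLehner N p hp hN y) Z (by
    rw [atkinLehner_atkinLehner]; exact hy)
  rw [← normAlong_beta_eq N p hp hN y] at h
  exact h

end Fermat.Agent.T7.helper49

end
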