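import Mathlib
import Fermat.Agent.T2.helper36_ValBad
import Fermat.Agent.T2.helper49_FrobBase
import Fermat.Agent.P2.helper93_ESRed

/-!
# T7 (S33), helper51: [ROOT-RED] at the bad pair

Level `N ℓ`, `ℓ ∤ N`, `A` a valuation subring of `ℚ̄` over `ℓ`.  If `g ^ (ℓ ^ j)` is a
`w₁`-unit with reduction `1` (`IsRedOne`), then so is `g` (`isRedOne_of_pow`): by the scale
statement at the bad level `g = c · (unit with reduction r)`, `c ^ (ℓ ^ j)` is a unit of `A`,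
`r ^ (ℓ ^ j)` is a constant, hence (characteristic `ℓ`) `r` is the same constant.
-/

set_option autoImplicit false
set_option linter.unusedSectionVars false
set_option linter.unusedVariables false
set_option linter.style.longLine false

noncomputable section

open HahnSeries IntermediateField AlgebraicCurve ModularCurve
open Fermat.Agent.S18.helper19 Fermat.Agent.P2.helper29
open Fermat.Agent.T2 Fermat.Agent.T2.helper36 Fermat.Agent.T2.helper49

namespace Fermat.Agent.T7.helper51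

/-- a valuation subring contains every element one of whose positive powers it contains -/
theorem mem_of_pow_mem_valuationSubring {K : Type*} [Field K] (A : ValuationSubring K) {d : K}
    {n : ℕ} (hn : n ≠ 0) (h : d ^ n ∈ A) : d ∈ A := by
  by_contra hd
  have hd0 : d ≠ 0 := fun h0 => hd (h0 ▸ A.zero_mem)
  have hinv : d⁻¹ ∈ A := (A.mem_or_inv_mem d).resolve_left hd
  -- `d⁻¹` is a unit of `A`
  obtain ⟨m, rfl⟩ : ∃ m, n = m + 1 := ⟨n - 1, by omega⟩
  have h1 : d = d ^ (m + 1) * (d⁻¹) ^ m := by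
    rw [pow_succ, inv_pow, mul_assoc, mul_comm d, ← mul_assoc, mul_inv_cancel₀ (pow_ne_zero m hd0),
      one_mul]
  apply hd
  rw [h1]
  exact A.mul_mem _ _ h (A.pow_mem hinv m)

/-- in characteristic `ℓ` the `ℓ ^ j`-th power map is injective on a reduced ring -/
theorem eq_of_pow_char_pow_eq {R : Type*} [CommRing R] [IsReduced R] (ℓ : ℕ) [Fact ℓ.Prime]
    [CharP R ℓ] (j : ℕ) {a b : R} (h : a ^ (ℓ ^ j) = b ^ (ℓ ^ j)) : a = b := by
  have h1 : (a - b) ^ (ℓ ^ j) = 0 := by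
    rw [sub_pow_char_pow, h, sub_self]
  have h2 : a - b = 0 := IsReduced.eq_zero _ ⟨_, h1⟩
  exact sub_eq_zero.mp h2

variable {N ℓ : ℕ} [NeZero N] [NeZero ℓ]

/-- **[ROOT-RED]**: if `g ^ (ℓ ^ j)` is a `w₁`-unit with reduction `1`, so is `g`. -/
theorem isRedOne_of_pow (hℓ : ℓ.Prime) (hℓN : ¬ ℓ ∣ N) (A : ValuationSubring Kb)
    (hA : A.LiesOverPrime ℓ) (g : FF (N * ℓ)) (j : ℕ)
    (h : IsRedOne A (N * ℓ) ((g : LaurentSeries Kb) ^ (ℓ ^ j))) :
    IsRedOne A (N * ℓ) (g : LaurentSeries Kb) := by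
  have : Fact ℓ.Prime := ⟨hℓ⟩
  have : CharP (kA A) ℓ := Fermat.Agent.P2.helper93.charP_residueField hℓ hA
  have : CharP (LaurentSeries (kA A)) ℓ :=
    charP_of_injective_algebraMap (algebraMap (kA A) (LaurentSeries (kA A))).injective ℓ
  have hn0 : ℓ ^ j ≠ 0 := pow_ne_zero j hℓ.ne_zero
  have h1 : RhoIs A (N * ℓ) ((g : LaurentSeries Kb) ^ (ℓ ^ j)) 1 := fb_rhoIs_of_isRedOne h
  have hgL : (g : LaurentSeries Kb) ≠ 0 := by
    intro h0
    have h' := h1.ne_zero one_ne_zero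
    rw [h0, zero_pow hn0] at h'
    exact h' rfl
  have hg : g ≠ 0 := fun h0 => hgL (by rw [h0]; rfl)
  obtain ⟨c, r, hc, hr, hρ⟩ := exists_rhoIs_bad hℓ hℓN A hA g hg
  have h2 := (hρ.pow (ℓ ^ j)).mul (h1.inv one_ne_zero)
  have e : (algebraMap Kb (LaurentSeries Kb) c⁻¹ * (g : LaurentSeries Kb)) ^ (ℓ ^ j) *
      ((g : LaurentSeries Kb) ^ (ℓ ^ j))⁻¹ = algebraMap Kb (LaurentSeries Kb) (c⁻¹ ^ (ℓ ^ j)) := by
    rw [mul_pow, mul_assoc, mul_inv_cancel₀ (pow_ne_zero _ hgL), mul_one, map_pow]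
  rw [e, inv_one, mul_one] at h2
  -- `c⁻¹` lies in `A`
  have hd : c⁻¹ ∈ A := mem_of_pow_mem_valuationSubring A hn0 h2.algebraMap_mem
  have h3 := h2.algebraMap_eq
  have e2 : (⟨c⁻¹ ^ (ℓ ^ j), h2.algebraMap_mem⟩ : A) = (⟨c⁻¹, hd⟩ : A) ^ (ℓ ^ j) :=
    Subtype.ext rfl
  rw [e2, map_pow, map_pow] at h3
  have h4 : r = algebraMap (kA A) (LaurentSeries (kA A)) (IsLocalRing.residue A ⟨c⁻¹, hd⟩) :=
    eq_of_pow_char_pow_eq ℓ j h3
  -- the residue of `c⁻¹` is not zero, so `c⁻¹` is a unit of `A`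
  have h5 : IsLocalRing.residue A ⟨c⁻¹, hd⟩ ≠ 0 := by
    intro h0
    apply hr
    rw [h4, h0, map_zero]
  have h6 : IsUnit (⟨c⁻¹, hd⟩ : A) := by
    by_contra hnu
    apply h5
    rw [IsLocalRing.residue_eq_zero_iff]
    exact (IsLocalRing.mem_maximalIdeal _).2 hnu
  obtain ⟨u, hu⟩ := h6
  have h7 : ((u⁻¹ : Aˣ) : A) * ⟨c⁻¹, hd⟩ = 1 := by rw [← hu]; exact u.inv_mul
  have h8 : (((u⁻¹ : Aˣ) : A) : Kb) * c⁻¹ = 1 := by
    have := congrArg (fun x : A => (x : Kb)) h7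
    simpa using this
  have h9 := hρ.smul_const ((u⁻¹ : Aˣ) : A)
  have e3 : algebraMap Kb (LaurentSeries Kb) (((u⁻¹ : Aˣ) : A) : Kb) *
      (algebraMap Kb (LaurentSeries Kb) c⁻¹ * (g : LaurentSeries Kb)) = (g : LaurentSeries Kb) := by
    rw [← mul_assoc, ← map_mul, h8, map_one, one_mul]
  have e4 : algebraMap (kA A) (LaurentSeries (kA A)) (IsLocalRing.residue A ((u⁻¹ : Aˣ) : A)) * r
      = 1 := by
    rw [h4, ← map_mul, ← map_mul, h7, map_one, map_one]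
  rw [e3, e4] at h9
  exact fb_isRedOne_of_rhoIs h9

end Fermat.Agent.T7.helper51
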