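import Mathlib
import Fermat.Agent.T7.helper43_DegMaps
import Fermat.Agent.T7.helper51_RootRed
import Fermat.Agent.T7.helper51_NUQAsm
import Fermat.Agent.T3.helper84_K0Ring

/-!
# T7 (S33), helper51: leaf [G-NEW]

Level `N p`, `p ∤ N`, `A` a valuation subring of `ℚ̄` over `p`, `W` the Atkin-Lehner involution.

* `IsT0 n x`        : the class `x` of `J₀(N p)` has a Kummer representative `u` (w.r.t. `n`) with
                      `u ≡ 1` for both Gauss valuations (`IsRedOne u`, `IsRedOne (W u)`);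
* `IsNewCl x`       : `α_* x = 0` and `β_* x = 0`;
* `G1OpStatement`   : **(G1), operator form**: on the classes of `T0_1 ∩ NEW` every element `σ`
                      of the inertia group of `A` acts through the scalar `a`, `σ ζ = ζ ^ a`;
* `G1TwoStatement`  : the only case which is used: ONE element `σ₀` of the inertia group with
                      `σ₀ x = 2 x` on `T0_1 ∩ NEW`;
* `isT0_zero / add / neg / sub` : `IsT0 n` is a subgroup;
* `isT0_of_pow`     : **saturation**: `IsT0 (p ^ k) x`, `p x = 0`, `0 < k`  ⟹  `IsT0 p x`;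
* `gNew`            : **[G-NEW]**: a subgroup `B` of `J₀(N p)` consisting of classes of
                      `T0_k ∩ NEW` has no nonzero inertia-trivial subquotient.
-/

set_option autoImplicit false
set_option linter.unusedSectionVars false
set_option linter.unusedVariables false
set_option linter.style.longLine false
set_option linter.style.haveILetI false

noncomputable section

open HahnSeries IntermediateField AlgebraicCurve ModularCurve
open Fermat.Agent.S18.helper19 Fermat.Agent.P2.helper29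
open Fermat.Agent.T2 Fermat.Agent.T2.helper36 Fermat.Agent.T2.helper49
open Fermat.Agent.P3.helper94 Fermat.Agent.T7.helper43

namespace Fermat.Agent.T7.helper51

section Subfamily

variable {ι κ : Type*} {X : Type*} [AddCommGroup X] {act : ι → X →+ X}

/-- NUQ for a subfamily of the operators implies NUQ for the whole family -/
theorem NUQ.of_subfamily (f : κ → ι) {Z : AddSubgroup X} (h : NUQ (fun j => act (f j)) Z) :
    NUQ act Z :=
  fun A hA hst x hx hfix => h A hA (fun j a ha => hst (f j) a ha) x hx (fun j => hfix (f j))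

/-- **Scalar action of one operator**: if ONE operator `act i₀` acts on the `p`-torsion of `Z`
through an integer `c₀` with `c₀ - 1` prime to `p`, then the `p`-torsion of `Z` is NUQ. -/
theorem NUQ.of_scalar_one {p : ℕ} (hp : p.Prime) {Z : AddSubgroup X} (i₀ : ι) (c₀ : ℤ)
    (hc : ∀ x ∈ Z, p • x = 0 → act i₀ x = c₀ • x) (h : ¬ (p : ℤ) ∣ c₀ - 1) :
    NUQ act (Z ⊓ tor X p) :=
  NUQ.of_subfamily (fun _ : Unit => i₀)
    (NUQ.of_scalar (act := fun _ : Unit => act i₀) hp (fun _ => c₀) (fun _ => hc) () h)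

end Subfamily

variable (N p : ℕ) [NeZero N] [NeZero p] (hp : p.Prime) (hpN : ¬ p ∣ N)
  (A : ValuationSubring Kb)

/-- `T0` at the exponent `n`: classes with a Kummer representative `≡ 1` for both Gauss
valuations. -/
def IsT0 (n : ℕ) (x : JZero (N * p)) : Prop :=
  ∃ u : FF (N * p), IsKummerRep n x u ∧ IsRedOne A (N * p) (u : LaurentSeries Kb) ∧
    IsRedOne A (N * p) ((atkinLehner N p hp hpN u : FF (N * p)) : LaurentSeries Kb)

/-- the `p`-new classes -/
def IsNewCl (x : JZero (N * p)) : Prop :=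
  alphaPush N p x = 0 ∧ betaPush N p x = 0

/-- **(G1), operator form.** -/
def G1OpStatement : Prop :=
  ∀ x : JZero (N * p), IsT0 N p hp hpN A p x → IsNewCl N p x →
    ∀ σ ∈ A.inertiaSubgroupIn ℚ, ∀ a : ℕ, (∀ z : Kb, z ^ p = 1 → σ z = z ^ a) →
      σ • x = a • x

/-- **(G1), the case which is used**: one element of the inertia group acting by `2`. -/
def G1TwoStatement : Prop :=
  ∃ σ₀ ∈ A.inertiaSubgroupIn ℚ, ∀ x : JZero (N * p), IsT0 N p hp hpN A p x → IsNewCl N p x →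
    σ₀ • x = 2 • x

variable {N p hp hpN A}

/-- (G1) gives its special case (`p` odd). -/
theorem g1Two_of_g1Op (hA : A.LiesOverPrime p) (hp2 : p ≠ 2)
    (h : G1OpStatement N p hp hpN A) : G1TwoStatement N p hp hpN A := by
  haveI : Fact p.Prime := ⟨hp⟩
  obtain ⟨ζ, hζ⟩ : ∃ ζ : Kb, IsPrimitiveRoot ζ p :=
    HasEnoughRootsOfUnity.exists_primitiveRoot (AlgebraicClosure ℚ) p
  have h2 : ¬ p ∣ 2 := fun h' => hp2 ((Nat.prime_dvd_prime_iff_eq hp Nat.prime_two).mp h')
  obtain ⟨σ₀, hσ₀, hσ₀ζ⟩ := Fermat.Agent.T3.helper84.k0_zeta_trans hp A hA hζ h2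
  refine ⟨σ₀, hσ₀, fun x hx hnew => ?_⟩
  refine h x hx hnew σ₀ hσ₀ 2 ?_
  intro μ hμ
  obtain ⟨i, -, rfl⟩ := hζ.eq_pow_of_pow_eq_one hμ
  rw [map_pow, hσ₀ζ, ← pow_mul, ← pow_mul, mul_comm]

/-! ### `IsT0 n` is a subgroup -/

theorem isRedOne_coe_one : IsRedOne A (N * p) (((1 : FF (N * p)) : FF (N * p)) : LaurentSeries Kb) :=
  fb_isRedOne_of_rhoIs rhoIs_one

theorem isT0_zero (n : ℕ) : IsT0 N p hp hpN A n 0 := by
  refine ⟨1, isKummerRep_zero n, isRedOne_coe_one, ?_⟩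
  rw [map_one]
  exact isRedOne_coe_one

theorem isT0_add {n : ℕ} {x y : JZero (N * p)} (hx : IsT0 N p hp hpN A n x)
    (hy : IsT0 N p hp hpN A n y) : IsT0 N p hp hpN A n (x + y) := by
  obtain ⟨u, hu, hu1, hu2⟩ := hx
  obtain ⟨v, hv, hv1, hv2⟩ := hy
  refine ⟨u * v, hu.add hv, ?_, ?_⟩
  · have h := (fb_rhoIs_of_isRedOne hu1).mul (fb_rhoIs_of_isRedOne hv1)
    rw [one_mul] at h
    exact fb_isRedOne_of_rhoIs h
  · rw [map_mul]
    have h := (fb_rhoIs_of_isRedOne hu2).mul (fb_rhoIs_of_isRedOne hv2)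
    rw [one_mul] at h
    exact fb_isRedOne_of_rhoIs h

theorem isT0_neg {n : ℕ} {x : JZero (N * p)} (hx : IsT0 N p hp hpN A n x) :
    IsT0 N p hp hpN A n (-x) := by
  obtain ⟨u, hu, hu1, hu2⟩ := hx
  refine ⟨u⁻¹, hu.neg, ?_, ?_⟩
  · have h := (fb_rhoIs_of_isRedOne hu1).inv one_ne_zero
    rw [inv_one] at h
    exact fb_isRedOne_of_rhoIs h
  · rw [map_inv₀]
    have h := (fb_rhoIs_of_isRedOne hu2).inv one_ne_zero
    rw [inv_one] at h
    exact fb_isRedOne_of_rhoIs h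

theorem isT0_sub {n : ℕ} {x y : JZero (N * p)} (hx : IsT0 N p hp hpN A n x)
    (hy : IsT0 N p hp hpN A n y) : IsT0 N p hp hpN A n (x - y) := by
  rw [sub_eq_add_neg]
  exact isT0_add hx (isT0_neg hy)

theorem IsT0.nsmul_eq_zero {n : ℕ} {x : JZero (N * p)} (hx : IsT0 N p hp hpN A n x) :
    n • x = 0 := by
  obtain ⟨u, hu, -, -⟩ := hx
  exact hu.nsmul_eq_zero

/-- the subgroup `T0_n` -/
def t0Subgroup (N p : ℕ) [NeZero N] [NeZero p] (hp : p.Prime) (hpN : ¬ p ∣ N)
    (A : ValuationSubring Kb) (n : ℕ) : AddSubgroup (JZero (N * p)) where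
  carrier := {x | IsT0 N p hp hpN A n x}
  zero_mem' := isT0_zero n
  add_mem' := fun hx hy => isT0_add hx hy
  neg_mem' := fun hx => isT0_neg hx

theorem mem_t0Subgroup {n : ℕ} {x : JZero (N * p)} :
    x ∈ t0Subgroup N p hp hpN A n ↔ IsT0 N p hp hpN A n x := Iff.rfl

/-- the subgroup of `p`-new classes -/
def newSubgroup (N p : ℕ) [NeZero N] [NeZero p] : AddSubgroup (JZero (N * p)) :=
  (alphaPush N p).ker ⊓ (betaPush N p).ker

theorem mem_newSubgroup {x : JZero (N * p)} : x ∈ newSubgroup N p ↔ IsNewCl N p x := by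
  rw [newSubgroup, AddSubgroup.mem_inf, AddMonoidHom.mem_ker, AddMonoidHom.mem_ker]
  rfl

/-! ### Saturation -/

/-- **Saturation**: a `p`-torsion class of `T0_{p^k}` (`k > 0`) lies in `T0_p`. -/
theorem isT0_of_pow (hA : A.LiesOverPrime p) {k : ℕ} (hk : 0 < k) {x : JZero (N * p)}
    (hx : IsT0 N p hp hpN A (p ^ k) x) (hpx : p • x = 0) : IsT0 N p hp hpN A p x := by
  obtain ⟨u, hu, hu1, hu2⟩ := hx
  haveI : HasPrincipalDivisors Kb (FF (N * p)) := hasPD (N * p)
  obtain ⟨h, hh⟩ := exists_isKummerRep hpx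
  obtain ⟨j, rfl⟩ : ∃ j, k = j + 1 := ⟨k - 1, by omega⟩
  have hpj : 0 < p ^ j := pow_pos hp.pos j
  -- `h ^ (p ^ j)` is a Kummer representative w.r.t. `p ^ (j + 1)`
  have hh' : IsKummerRep (p ^ (j + 1)) x (h ^ (p ^ j)) := by
    obtain ⟨hh0, D, hD, hord⟩ := hh
    refine ⟨pow_ne_zero _ hh0, D, hD, fun v => ?_⟩
    rw [ord_pow, ← hord v]
    push_cast
    ring
  obtain ⟨v, w, hv, hw, he⟩ := hh'.unique hu
  obtain ⟨c, hc, rfl⟩ := exists_const_of_hasTrivialDiv hw
  obtain ⟨c₁, hc₁⟩ := IsAlgClosed.exists_pow_nat_eq c hpj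
  have hc₁0 : c₁ ≠ 0 := by
    rintro rfl
    rw [zero_pow hpj.ne'] at hc₁
    exact hc hc₁.symm
  have hg : IsKummerRep p x (h * (algebraMap Kb (FF (N * p)) c₁ * v ^ p)) :=
    hh.mul_pow hv (hasTrivialDiv_algebraMap hc₁0)
  have hgu : (h * (algebraMap Kb (FF (N * p)) c₁ * v ^ p)) ^ (p ^ j) = u := by
    rw [he, mul_pow, mul_pow, ← map_pow, hc₁, ← pow_mul, pow_succ']
  refine ⟨h * (algebraMap Kb (FF (N * p)) c₁ * v ^ p), hg, ?_, ?_⟩
  · apply isRedOne_of_pow hp hpN A hA _ j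
    have e : ((h * (algebraMap Kb (FF (N * p)) c₁ * v ^ p) : FF (N * p)) : LaurentSeries Kb)
        ^ (p ^ j) = (u : LaurentSeries Kb) := by
      rw [← hgu]
      rfl
    rw [e]
    exact hu1
  · apply isRedOne_of_pow hp hpN A hA _ j
    have e : ((atkinLehner N p hp hpN (h * (algebraMap Kb (FF (N * p)) c₁ * v ^ p)) :
        FF (N * p)) : LaurentSeries Kb) ^ (p ^ j)
          = ((atkinLehner N p hp hpN u : FF (N * p)) : LaurentSeries Kb) := by
      rw [← hgu, map_pow]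
      rfl
    rw [e]
    exact hu2

/-! ### [G-NEW] -/

/-- the action of the elements of the inertia group on `J₀(N p)` -/
def inertAct (N p : ℕ) [NeZero N] [NeZero p] (A : ValuationSubring Kb)
    (σ : A.inertiaSubgroupIn ℚ) : JZero (N * p) →+ JZero (N * p) :=
  DistribSMul.toAddMonoidHom (JZero (N * p)) (σ : Kb ≃ₐ[ℚ] Kb)

@[simp] theorem inertAct_apply (σ : A.inertiaSubgroupIn ℚ) (x : JZero (N * p)) :
    inertAct N p A σ x = (σ : Kb ≃ₐ[ℚ] Kb) • x := rfl

/-- **[G-NEW]**, NUQ form: a subgroup of `J₀(N p)` consisting of classes of `T0_{p^k} ∩ NEW`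
is NUQ for the inertia group. -/
theorem nuq_of_g1Two (hA : A.LiesOverPrime p) (hG1 : G1TwoStatement N p hp hpN A) (k : ℕ)
    (B : AddSubgroup (JZero (N * p)))
    (hB : ∀ b ∈ B, IsT0 N p hp hpN A (p ^ k) b ∧ IsNewCl N p b) :
    NUQ (inertAct N p A) B := by
  obtain ⟨σ₀, hσ₀, hσ⟩ := hG1
  refine NUQ.of_tor (p := p) ?_ k (fun x hx => (hB x hx).1.nsmul_eq_zero)
  refine NUQ.of_scalar_one hp ⟨σ₀, hσ₀⟩ 2 ?_ ?_
  · intro x hx hpx
    rw [inertAct_apply]
    show σ₀ • x = (2 : ℤ) • x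
    have e : (2 : ℤ) • x = (2 : ℕ) • x := by
      rw [← natCast_zsmul]
      rfl
    rw [e]
    rcases Nat.eq_zero_or_pos k with h0 | hk
    · -- `k = 0`: `x = 0`
      have hx0 : x = 0 := by
        have := (hB x hx).1.nsmul_eq_zero
        rwa [h0, pow_zero, one_smul] at this
      rw [hx0, smul_zero]
      exact smul_zero (A := JZero (N * p)) σ₀
    · exact hσ x (isT0_of_pow hA hk (hB x hx).1 hpx) (hB x hx).2
  · norm_num
    intro h
    have h1 : p ∣ 1 := by exact_mod_cast h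
    exact hp.one_lt.ne' (Nat.dvd_one.mp h1)

/-- **[G-NEW]**: a subgroup `B` of `J₀(N p)` all of whose elements lie in `T0_{p^k} ∩ NEW` has
no nonzero inertia-trivial subquotient. -/
theorem gNew_of_g1Two (hA : A.LiesOverPrime p) (hG1 : G1TwoStatement N p hp hpN A) (k : ℕ)
    (A' B : AddSubgroup (JZero (N * p))) (hAB : A' ≤ B)
    (hB : ∀ b ∈ B, IsT0 N p hp hpN A (p ^ k) b ∧ IsNewCl N p b)
    (hI : ∀ s ∈ A.inertiaSubgroupIn ℚ, ∀ b ∈ B, s • b - b ∈ A') : B ≤ A' := by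
  have h := nuq_iff_forall_le.mp (nuq_of_g1Two hA hG1 k B hB) A' B hAB le_rfl
  exact h (fun σ x hx => hI σ σ.2 x hx)

/-- **[G-NEW]** from (G1) in operator form (`p` odd). -/
theorem gNew (hA : A.LiesOverPrime p) (hp2 : p ≠ 2) (hG1 : G1OpStatement N p hp hpN A) (k : ℕ)
    (A' B : AddSubgroup (JZero (N * p))) (hAB : A' ≤ B)
    (hB : ∀ b ∈ B, IsT0 N p hp hpN A (p ^ k) b ∧ IsNewCl N p b)
    (hI : ∀ s ∈ A.inertiaSubgroupIn ℚ, ∀ b ∈ B, s • b - b ∈ A') : B ≤ A' :=
  gNew_of_g1Two hA (g1Two_of_g1Op hA hp2 hG1) k A' B hAB hB hI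

end Fermat.Agent.T7.helper51
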