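import Mathlib
import Fermat.Agent.T7.helper51_GNew
import Fermat.Agent.T7.helper78_OldInst

/-!
# T7 (S33), helper51: the geometric contract [G] at the bad level from its leaves

Level `N p`, `p` odd, `p ∤ N`, `A` a valuation subring of `ℚ̄` over `p`.

* `inertSpan M A p k`  : the subgroup of `J₀(M)` generated by the `s x - x`, `s` in the inertia
                         group of `A`, `p ^ k x = 0`;
* `GStatement M A p k` : **[G]**: `inertSpan M A p k` has no nonzero inertia-trivial subquotient;
* `gStatement_good`    : [G] at a level prime to `p` (= `helper78.nuq_span_old`, unconditional);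
* `T0SpanStatement`    : **[T0-SPAN]**: the generators `s x - x` of the inertia span at the level
                         `N p` lie in `T0_{p^k}`;
* `gStatement_bad`     : **[G] at the level `N p`** from [T0-SPAN] and (G1) (`G1TwoStatement`),
                         by the extension along `(α_*, β_*)`.
-/

set_option autoImplicit false
set_option linter.unusedSectionVars false
set_option linter.unusedVariables false
set_option linter.style.longLine false
set_option linter.style.haveILetI false

noncomputable section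

open HahnSeries IntermediateField AlgebraicCurve ModularCurve
open Fermat.Agent.S18.helper19 Fermat.Agent.P2.helper29
open Fermat.Agent.P3.helper94 Fermat.Agent.T7.helper43

namespace Fermat.Agent.T7.helper51

/-- the action of the elements of the inertia group of `A` on `J₀(M)` -/
def inertActL (M : ℕ) [NeZero M] (A : ValuationSubring Kb) (σ : A.inertiaSubgroupIn ℚ) :
    JZero M →+ JZero M :=
  DistribSMul.toAddMonoidHom (JZero M) (σ : Kb ≃ₐ[ℚ] Kb)

@[simp] theorem inertActL_apply (M : ℕ) [NeZero M] (A : ValuationSubring Kb)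
    (σ : A.inertiaSubgroupIn ℚ) (x : JZero M) :
    inertActL M A σ x = (σ : Kb ≃ₐ[ℚ] Kb) • x := rfl

/-- the inertia span of the `p ^ k`-torsion of `J₀(M)` -/
def inertSpan (M : ℕ) [NeZero M] (A : ValuationSubring Kb) (p k : ℕ) : AddSubgroup (JZero M) :=
  AddSubgroup.closure {y | ∃ s ∈ A.inertiaSubgroupIn ℚ, ∃ x : JZero M,
    p ^ k • x = 0 ∧ y = s • x - x}

/-- **[G]**: the inertia span of `J₀(M)[p ^ k]` has no nonzero inertia-trivial subquotient. -/
def GStatement (M : ℕ) [NeZero M] (A : ValuationSubring Kb) (p k : ℕ) : Prop :=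
  ∀ A' B : AddSubgroup (JZero M), A' ≤ B → B ≤ inertSpan M A p k →
    (∀ s ∈ A.inertiaSubgroupIn ℚ, ∀ b ∈ B, s • b - b ∈ A') → B ≤ A'

theorem gStatement_iff_nuq (M : ℕ) [NeZero M] (A : ValuationSubring Kb) (p k : ℕ) :
    GStatement M A p k ↔ NUQ (inertActL M A) (inertSpan M A p k) := by
  rw [nuq_iff_forall_le]
  constructor
  · intro h A' B hAB hB hI
    exact h A' B hAB hB (fun s hs b hb => hI ⟨s, hs⟩ b hb)
  · intro h A' B hAB hB hI
    exact h A' B hAB hB (fun σ b hb => hI σ σ.2 b hb)

/-- **[G] at a good level** (`helper78`, unconditional). -/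
theorem gStatement_good (M : ℕ) [NeZero M] (A : ValuationSubring Kb) (p : ℕ) (hp : p.Prime)
    (hp2 : p ≠ 2) (hpM : ¬ p ∣ M) (hA : A.LiesOverPrime p) (k : ℕ) : GStatement M A p k := by
  haveI : Fact p.Prime := ⟨hp⟩
  intro A' B hAB hB hI
  exact Fermat.Agent.T7.helper78.nuq_span_old M p hp2 hpM k A hA A' B hAB hB hI

variable (N p : ℕ) [NeZero N] [NeZero p] (hp : p.Prime) (hpN : ¬ p ∣ N)
  (A : ValuationSubring Kb)

/-- **[T0-SPAN]**: the generators of the inertia span lie in `T0_{p^k}`. -/
def T0SpanStatement (k : ℕ) : Prop :=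
  ∀ s ∈ A.inertiaSubgroupIn ℚ, ∀ x : JZero (N * p), p ^ k • x = 0 →
    IsT0 N p hp hpN A (p ^ k) (s • x - x)

variable {N p hp hpN A}

/-- [T0-SPAN] on the whole span -/
theorem isT0_of_mem_inertSpan {k : ℕ} (hT0 : T0SpanStatement N p hp hpN A k)
    {x : JZero (N * p)} (hx : x ∈ inertSpan (N * p) A p k) : IsT0 N p hp hpN A (p ^ k) x := by
  have h : inertSpan (N * p) A p k ≤ t0Subgroup N p hp hpN A (p ^ k) := by
    rw [inertSpan, AddSubgroup.closure_le]
    rintro y ⟨s, hs, z, hz, rfl⟩
    exact hT0 s hs z hz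
  exact h hx

/-- an equivariant additive map sends the inertia span into the inertia span -/
theorem map_mem_inertSpan {M M' : ℕ} [NeZero M] [NeZero M'] (f : JZero M →+ JZero M')
    (hf : ∀ (σ : Kb ≃ₐ[ℚ] Kb) (x : JZero M), f (σ • x) = σ • f x) {k : ℕ} {x : JZero M}
    (hx : x ∈ inertSpan M A p k) : f x ∈ inertSpan M' A p k := by
  have h : inertSpan M A p k ≤ (inertSpan M' A p k).comap f := by
    rw [inertSpan, AddSubgroup.closure_le]
    rintro y ⟨s, hs, z, hz, rfl⟩
    rw [SetLike.mem_coe, AddSubgroup.mem_comap, map_sub, hf]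
    refine AddSubgroup.subset_closure ⟨s, hs, f z, ?_, rfl⟩
    rw [← map_nsmul, hz, map_zero]
  exact h hx

/-- **[G] at the bad level** from [T0-SPAN] and (G1). -/
theorem gStatement_bad (hA : A.LiesOverPrime p) (hp2 : p ≠ 2) (k : ℕ)
    (hT0 : T0SpanStatement N p hp hpN A k) (hG1 : G1TwoStatement N p hp hpN A) :
    GStatement (N * p) A p k := by
  rw [gStatement_iff_nuq]
  have hold : NUQ (inertActL N A) (inertSpan N A p k) :=
    (gStatement_iff_nuq N A p k).mp (gStatement_good N A p hp hp2 hpN hA k)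
  have hfα : ∀ (σ : A.inertiaSubgroupIn ℚ) (x : JZero (N * p)),
      alphaPush N p (inertActL (N * p) A σ x) = inertActL N A σ (alphaPush N p x) :=
    fun σ x => alphaPush_galois_smul N p (σ : Kb ≃ₐ[ℚ] Kb) x
  have hfβ : ∀ (σ : A.inertiaSubgroupIn ℚ) (x : JZero (N * p)),
      betaPush N p (inertActL (N * p) A σ x) = inertActL N A σ (betaPush N p x) :=
    fun σ x => betaPush_galois_smul N p (σ : Kb ≃ₐ[ℚ] Kb) x
  -- the new part
  have hnew : NUQ (inertActL (N * p) A)
      ((inertSpan (N * p) A p k ⊓ (alphaPush N p).ker) ⊓ (betaPush N p).ker) := by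
    refine nuq_of_g1Two hA hG1 k _ ?_
    intro b hb
    have hb1 := (AddSubgroup.mem_inf.mp hb).1
    exact ⟨isT0_of_mem_inertSpan hT0 (AddSubgroup.mem_inf.mp hb1).1,
      AddMonoidHom.mem_ker.mp (AddSubgroup.mem_inf.mp hb1).2,
      AddMonoidHom.mem_ker.mp (AddSubgroup.mem_inf.mp hb).2⟩
  -- extension along `β_*`
  have h1 : NUQ (inertActL (N * p) A) (inertSpan (N * p) A p k ⊓ (alphaPush N p).ker) := by
    refine NUQ.of_map (betaPush N p) hfβ hold hnew ?_ ?_
    · intro x hx
      exact map_mem_inertSpan (betaPush N p) (fun σ y => betaPush_galois_smul N p σ y)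
        (AddSubgroup.mem_inf.mp hx).1
    · intro x hx h0
      exact AddSubgroup.mem_inf.mpr ⟨hx, AddMonoidHom.mem_ker.mpr h0⟩
  -- extension along `α_*`
  refine NUQ.of_map (alphaPush N p) hfα hold h1 ?_ ?_
  · intro x hx
    exact map_mem_inertSpan (alphaPush N p) (fun σ y => alphaPush_galois_smul N p σ y) hx
  · intro x hx h0
    exact AddSubgroup.mem_inf.mpr ⟨hx, AddMonoidHom.mem_ker.mpr h0⟩

/-- **[G] at the bad level** from [T0-SPAN] and (G1) in operator form. -/
theorem gStatement_bad_of_g1Op (hA : A.LiesOverPrime p) (hp2 : p ≠ 2) (k : ℕ)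
    (hT0 : T0SpanStatement N p hp hpN A k) (hG1 : G1OpStatement N p hp hpN A) :
    GStatement (N * p) A p k :=
  gStatement_bad hA hp2 k hT0 (g1Two_of_g1Op hA hp2 hG1)

end Fermat.Agent.T7.helper51
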