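/-
T7 (S33, at risk), leaves [DET] and [HNT] (helper58).

For every Hecke-Galois datum `H` (finite `S`, residue characteristic `p`):

* `det_eq_cycloChar_datum` : `det (H.ρ σ) = d σ` for every `p`-adic cyclotomic character `d`
  with values in `T` which is adically continuous and has value `ℓ` on Frobenius lifts;
* `detIsCyclotomic_datum`  : `H.ρ.DetIsCyclotomic p` (the Prelude's predicate);
* `hnt_datum`              : for `p` odd and every place `P` over `p` some `σ` in the inertia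
  group of `P` moves some vector of `H.ρ.V` modulo the maximal ideal
  (the hypothesis `hnt` of `Fermat.Agent.T7.helper25.exists_ordinary_line`).

Inputs, all on main: Chebotarev (`P3.helper40.chebStatement`), the cyclotomic character
(`P3.helper26.cycloStatement`), `T2.helper72.det_eq_cyclo`, and the ramification of `ℚ(ζ_p)` at
`p` (`P1.helper58.cycloRamified`).
-/
import Fermat.Agent.P1.helper58_Ram
import Fermat.Agent.T2.helper72_Wire34
import Fermat.Agent.P3.helper26_Cyclo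
import Fermat.Agent.P3.helper40_Cheb
import Fermat.Prelude.Def_CuspForm_HeckeGaloisRepDatum
import Fermat.Prelude.Def_GaloisRep_LocalConditions

set_option autoImplicit false
set_option linter.unusedSectionVars false
set_option linter.style.haveILetI false

open Polynomial

noncomputable section

namespace Fermat.Agent.T7.helper58

open Fermat.Agent.P3

variable {p : ℕ} {N : ℕ} [NeZero N] {S : Finset ℕ}
  {𝒪 : Type} [CommRing 𝒪] [IsDomain 𝒪] [IsDiscreteValuationRing 𝒪]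
  [IsAdicComplete (IsLocalRing.maximalIdeal 𝒪) 𝒪]
  {θ : CuspForm.heckeAlgebra N 2 (↑S : Set ℕ) →+* IsLocalRing.ResidueField 𝒪}
  {T : Type} [CommRing T] [IsLocalRing T] [IsNoetherianRing T]
  [IsAdicComplete (IsLocalRing.maximalIdeal T) T] [Algebra 𝒪 T] [IsLocalHom (algebraMap 𝒪 T)]
  [Module.Finite 𝒪 T] [Module.Free 𝒪 T]

/-- `p` lies in the maximal ideal of `T`. -/
theorem natCast_mem_maximalIdeal_T (hp𝒪 : (p : 𝒪) ∈ IsLocalRing.maximalIdeal 𝒪) :
    (p : T) ∈ IsLocalRing.maximalIdeal T := by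
  have h := map_nonunit (algebraMap 𝒪 T) (p : 𝒪) hp𝒪
  rwa [map_natCast] at h

/-- the determinant of a Frobenius lift at a good prime `ℓ` is `ℓ` -/
theorem det_frob_datum (H : CuspForm.HeckeGaloisRepDatum N (↑S : Set ℕ) 𝒪 θ T)
    (ℓ : ℕ) (hℓ : ℓ.Prime) (hℓN : ¬ ℓ ∣ N) (hℓS : ℓ ∉ S)
    (A : ValuationSubring Qbar) (hA : A.LiesOverPrime ℓ) (φ : GQ)
    (hφ : A.IsFrobeniusAt φ ℓ) : LinearMap.det (H.ρ.ρ φ) = (ℓ : T) :=
  Fermat.Agent.T2.helper72.det_of_charpoly_eq H.ρ.finrank_eq (H.ρ.ρ φ) _ _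
    (H.charpoly_frob ℓ hℓ hℓN (by simpa using hℓS) A hA φ hφ)

/-- **[DET]** (character form): the determinant of the representation of a Hecke-Galois datum
is any adically continuous character with value `ℓ` on the Frobenius lifts at almost all `ℓ`. -/
theorem det_eq_cycloChar_datum [Fact p.Prime]
    (H : CuspForm.HeckeGaloisRepDatum N (↑S : Set ℕ) 𝒪 θ T)
    (d : GQ →* Tˣ) (hdc : IsAdicContinuousChar d)
    (hdφ : ∀ ℓ : ℕ, ℓ.Prime → ℓ ≠ p → ∀ A : ValuationSubring Qbar, A.LiesOverPrime ℓ →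
      ∀ φ : GQ, A.IsFrobeniusAt φ ℓ → (d φ : T) = (ℓ : T))
    (s : GQ) : LinearMap.det (H.ρ.ρ s) = (d s : T) := by
  classical
  refine Fermat.Agent.T2.helper72.det_eq_cyclo Fermat.Agent.P3.helper40.chebStatement (p := p)
    d hdc (insert p (S ∪ N.primeFactors)) ?_ H.ρ ?_ s
  · intro ℓ hℓ hℓB A hA φ hφ
    refine hdφ ℓ hℓ ?_ A hA φ hφ
    rintro rfl
    exact hℓB (Finset.mem_insert_self _ _)
  · intro ℓ hℓ hℓB A hA φ hφ
    have hℓS : ℓ ∉ S := fun h =>
      hℓB (Finset.mem_insert_of_mem (Finset.mem_union_left _ h))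
    have hℓN : ¬ ℓ ∣ N := fun h =>
      hℓB (Finset.mem_insert_of_mem (Finset.mem_union_right _
        (Nat.mem_primeFactors.mpr ⟨hℓ, h, NeZero.ne N⟩)))
    exact det_frob_datum H ℓ hℓ hℓN hℓS A hA φ hφ

/-- **[DET]**: the representation of a Hecke-Galois datum has cyclotomic determinant. -/
theorem detIsCyclotomic_datum (hp : p.Prime)
    (hp𝒪 : (p : 𝒪) ∈ IsLocalRing.maximalIdeal 𝒪)
    (H : CuspForm.HeckeGaloisRepDatum N (↑S : Set ℕ) 𝒪 θ T) :
    H.ρ.DetIsCyclotomic p := by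
  haveI : Fact p.Prime := ⟨hp⟩
  have hpT : (p : T) ∈ IsLocalRing.maximalIdeal T := natCast_mem_maximalIdeal_T hp𝒪
  obtain ⟨d, hd, hdc, hdF, -⟩ := Fermat.Agent.P3.helper26.cycloStatement p T hpT
  refine ⟨hpT, fun n σ a ha => ?_⟩
  have h1 := det_eq_cycloChar_datum H d hdc
    (fun ℓ hℓ hℓp A hA φ hφ => (hdF ℓ hℓ hℓp A hA).2 φ hφ) σ
  have h2 := hd n σ a ha
  rw [h1, Nat.cast_pow]
  exact h2

/-- an integer which is not divisible by `p` is not in the maximal ideal of `T` -/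
theorem intCast_notMem_maximalIdeal (hp : p.Prime)
    (hpT : (p : T) ∈ IsLocalRing.maximalIdeal T) {z : ℤ} (hz : ¬ (p : ℤ) ∣ z) :
    (z : T) ∉ IsLocalRing.maximalIdeal T := by
  intro hmem
  have hcop : IsCoprime (p : ℤ) z :=
    ((Nat.prime_iff_prime_int.mp hp).coprime_iff_not_dvd).mpr hz
  obtain ⟨x, y, hxy⟩ := hcop
  have h1 : ((x * (p : ℤ) + y * z : ℤ) : T) = 1 := by rw [hxy, Int.cast_one]
  have h2 : ((x * (p : ℤ) + y * z : ℤ) : T) ∈ IsLocalRing.maximalIdeal T := by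
    push_cast
    exact Ideal.add_mem _ (Ideal.mul_mem_left _ _ hpT) (Ideal.mul_mem_left _ _ hmem)
  rw [h1] at h2
  exact (Ideal.ne_top_iff_one _).mp (IsLocalRing.maximalIdeal.isMaximal T).ne_top h2

/-- The spec of the mod `p` cyclotomic character on `p`-th roots of unity. -/
theorem cycloChar_spec' [Fact p.Prime] (σ : GQ) {ζ : Qbar} (hζ : ζ ^ p = 1) :
    σ ζ = ζ ^ ((ExtCitation.cycloChar p σ : (ZMod p)ˣ) : ZMod p).val := by
  have : NeZero p := ⟨(Fact.out : p.Prime).ne_zero⟩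
  have hζ0 : ζ ≠ 0 := by
    rintro rfl
    rw [zero_pow (NeZero.ne p)] at hζ
    exact zero_ne_one hζ
  set t : Qbarˣ := Units.mk0 ζ hζ0 with ht
  have htm : t ∈ rootsOfUnity p Qbar := by
    rw [mem_rootsOfUnity]
    exact Units.ext (by simpa [t] using hζ)
  have := modularCyclotomicCharacter.spec Qbar (ExtCitation.card_rootsOfUnity_eq_self p)
    (σ : Qbar ≃+* Qbar) htm
  simpa [t, ExtCitation.cycloChar] using this

/-- **[HNT]**: for `p` odd, inertia at `p` acts nontrivially on the residual representation of a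
Hecke-Galois datum: some `σ` in the inertia group moves some vector modulo `𝔪_T V`. -/
theorem hnt_datum (hp : p.Prime) (hp2 : p ≠ 2)
    (hp𝒪 : (p : 𝒪) ∈ IsLocalRing.maximalIdeal 𝒪)
    (H : CuspForm.HeckeGaloisRepDatum N (↑S : Set ℕ) 𝒪 θ T)
    (P : ValuationSubring (AlgebraicClosure ℚ)) (hP : P.LiesOverPrime p) :
    ∃ σ ∈ P.inertiaSubgroupIn ℚ, ∃ v : H.ρ.V,
      H.ρ.ρ σ v - v ∉ (IsLocalRing.maximalIdeal T) • (⊤ : Submodule T H.ρ.V) := by
  haveI : Fact p.Prime := ⟨hp⟩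
  haveI : NeZero p := ⟨hp.ne_zero⟩
  have hpT : (p : T) ∈ IsLocalRing.maximalIdeal T := natCast_mem_maximalIdeal_T hp𝒪
  obtain ⟨σ, hσ, hσ1⟩ := Fermat.Agent.P1.helper58.cycloRamified p hp2 P hP
  refine ⟨σ, hσ, ?_⟩
  by_contra hcon
  push Not at hcon
  -- `det (ρ σ) ≡ 1`
  have h1 : LinearMap.det (H.ρ.ρ σ) - 1 ∈ IsLocalRing.maximalIdeal T :=
    Fermat.Agent.T2.helper72.det_sub_one_mem _ _ hcon
  -- `det (ρ σ) ≡ a`
  set a : ℕ := ((ExtCitation.cycloChar p σ : (ZMod p)ˣ) : ZMod p).val with ha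
  have h2 : LinearMap.det (H.ρ.ρ σ) - (a : T) ∈ Ideal.span {((p ^ 1 : ℕ) : T)} :=
    (detIsCyclotomic_datum hp hp𝒪 H).2 1 σ a
      (fun μ hμ => cycloChar_spec' σ (by simpa using hμ))
  have h3 : LinearMap.det (H.ρ.ρ σ) - (a : T) ∈ IsLocalRing.maximalIdeal T := by
    refine (Ideal.span_le.mpr ?_) h2
    intro x hx
    rw [Set.mem_singleton_iff] at hx
    rw [hx, pow_one]
    exact hpT
  have h4 : (((a : ℤ) - 1 : ℤ) : T) ∈ IsLocalRing.maximalIdeal T := by
    have h5 : (((a : ℤ) - 1 : ℤ) : T) =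
        (LinearMap.det (H.ρ.ρ σ) - 1) - (LinearMap.det (H.ρ.ρ σ) - (a : T)) := by
      push_cast
      ring
    rw [h5]
    exact Ideal.sub_mem _ h1 h3
  have h6 : (p : ℤ) ∣ (a : ℤ) - 1 := by
    by_contra h
    exact intCast_notMem_maximalIdeal hp hpT h h4
  -- hence the mod `p` cyclotomic character of `σ` is `1`
  apply hσ1
  apply Units.ext
  have h7 : ((a : ℤ) : ZMod p) = 1 := by
    have := (ZMod.intCast_zmod_eq_zero_iff_dvd ((a : ℤ) - 1) p).mpr h6
    rw [Int.cast_sub, Int.cast_one, sub_eq_zero] at this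
    exact this
  rw [Int.cast_natCast, ha, ZMod.natCast_val, ZMod.cast_id] at h7
  rw [h7, Units.val_one]

end Fermat.Agent.T7.helper58

end
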