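/-
T7 (S33, at risk), leaf [PUSH] (helper58): the push-forward of divisor classes along the two
degeneracy maps `α, β : X₀(N ℓ) → X₀(N)` and its Kummer description.

* `IsRootDiv.pushforwardAlong` : `n • D = div h` ⟹ `n • ψ_* D = div (Norm_ψ h)`;
* `pushPicAlong ψ` : `Pic⁰(F') → Pic⁰(F)`, `pushPicAlong_smul` (Galois transport),
  `norm_eq_of_pushPicAlong_eq_zero` (abstract form of the Kummer statement);
* `pushAlpha N ℓ`, `pushBeta N ℓ : J₀(N ℓ) →+ J₀(N)` with
  `pushAlpha_smul`, `pushBeta_smul` (Galois equivariance) and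
* `normAlpha_eq_of_pushAlpha_eq_zero`, `normBeta_eq_of_pushBeta_eq_zero` :
  if `n • D = div H` on `X₀(N ℓ)` and the class of `D` is killed by `α_*` (resp. `β_*`), then
  `Norm_α H = c * f ^ n` with `c ∈ ℚ̄ˣ` and `f ∈ F_N` nonzero (resp. for `β`);
* `pushAlpha_eq_zero_of_norm`, `pushBeta_eq_zero_of_norm` : the converse.
-/
import Fermat.Agent.P3.helper58_HeckeInputsL
import Fermat.Agent.P3.helper10_GalHecke
import Fermat.Agent.P2.helper93_CoreWire
import Fermat.Agent.S18.helper19_Wiring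

set_option autoImplicit false
set_option linter.unusedSectionVars false
set_option linter.style.haveILetI false

noncomputable section

open AlgebraicCurve ModularCurve

namespace Fermat.Agent.T7.helper58

open Fermat.Agent.S18.helper19 (Kb FF)
open Fermat.Agent.P2.helper93 (IsRootDiv)

/-! ### Abstract form -/

section Abstract

variable {K F F' : Type*} [Field K] [Field F] [Field F'] [Algebra K F] [Algebra K F']

/-- the norm along a morphism of function fields -/
def normAlong (ψ : F →ₐ[K] F') (h : F') : F :=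
  letI := algebraAlong ψ
  Algebra.norm F h

theorem normAlong_ne_zero (ψ : F →ₐ[K] F') (hfin : FiniteAlong K ψ) {h : F'} (hh : h ≠ 0) :
    normAlong ψ h ≠ 0 := by
  letI := algebraAlong ψ
  haveI : Module.Finite F F' := hfin
  exact Algebra.norm_ne_zero_iff.mpr hh

theorem normAlong_mul (ψ : F →ₐ[K] F') (a b : F') :
    normAlong ψ (a * b) = normAlong ψ a * normAlong ψ b := by
  letI := algebraAlong ψ
  exact map_mul (Algebra.norm F) a b

theorem normAlong_one (ψ : F →ₐ[K] F') : normAlong ψ (1 : F') = 1 := by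
  letI := algebraAlong ψ
  exact map_one (Algebra.norm F)

theorem normAlong_pow (ψ : F →ₐ[K] F') (a : F') (m : ℕ) :
    normAlong ψ (a ^ m) = normAlong ψ a ^ m := by
  letI := algebraAlong ψ
  exact map_pow (Algebra.norm F) a m

/-- the norm of the image of `x : F` is `x ^ [F' : F]` -/
theorem normAlong_apply (ψ : F →ₐ[K] F') (x : F) :
    normAlong ψ (ψ x) = x ^ finrankAlong K ψ := by
  letI := algebraAlong ψ
  exact Algebra.norm_algebraMap (S := F') x

/-- Push-forward transport of Kummer generators: `n • D = div h` gives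
`n • ψ_* D = div (Norm_ψ h)`. -/
theorem IsRootDiv.pushforwardAlong (ψ : F →ₐ[K] F') (hψ : ψ.toRingHom.IsIntegral)
    (hfin : FiniteAlong K ψ) (hN : NormFormulaAlong K ψ hfin)
    {n : ℕ} {D : Divisor K F'} {h : F'} (H : IsRootDiv n D h) :
    IsRootDiv n (Divisor.pushforwardAlong ψ hψ D) (normAlong ψ h) := by
  refine ⟨normAlong_ne_zero ψ hfin H.1, fun v => ?_⟩
  letI := algebraAlong ψ
  haveI := isScalarTower_along ψ
  haveI := isIntegral_along ψ hψ
  haveI : Module.Finite F F' := hfin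
  have hD : ∀ w : Place K F', ((n : ℤ) • D) w = w.ord h := by
    intro w
    rw [Finsupp.smul_apply, smul_eq_mul]
    exact H.2 w
  have h1 := hN h H.1 ((n : ℤ) • D) hD v
  have h2 : Divisor.pushforward F ((n : ℤ) • D) = (n : ℤ) • Divisor.pushforward F D :=
    map_zsmul (Divisor.pushforward F) (n : ℤ) D
  rw [h2, Finsupp.smul_apply, smul_eq_mul] at h1
  exact h1

variable (ψ : F →ₐ[K] F') (hψ : ψ.toRingHom.IsIntegral)

/-- push-forward of divisors of degree `0` -/
def pushDegZeroAlong : Divisor.degZero (K := K) (F := F') →+ Divisor.degZero (K := K) (F := F) :=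
  ((Divisor.pushforwardAlong ψ hψ).domRestrict (Divisor.degZero (K := K) (F := F'))).codRestrict
    _ (fun D => Divisor.pushforwardAlong_mem_degZero ψ hψ D.2)

@[simp]
theorem coe_pushDegZeroAlong (D : Divisor.degZero (K := K) (F := F')) :
    (pushDegZeroAlong ψ hψ D : Divisor K F) = Divisor.pushforwardAlong ψ hψ (D : Divisor K F') :=
  rfl

/-- **push-forward of divisor classes** along a morphism of function fields -/
def pushPicAlong (hfin : FiniteAlong K ψ) (hN : NormFormulaAlong K ψ hfin) :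
    Pic0 K F' →+ Pic0 K F :=
  QuotientAddGroup.map _ _ (pushDegZeroAlong ψ hψ) (by
    rintro ⟨D, hD0⟩ hD
    simp only [AddSubgroup.mem_addSubgroupOf] at hD ⊢
    exact Divisor.isPrincipal_pushforwardAlong ψ hψ hfin hN hD)

theorem pushPicAlong_mk (hfin : FiniteAlong K ψ) (hN : NormFormulaAlong K ψ hfin)
    (D : Divisor.degZero (K := K) (F := F')) :
    pushPicAlong ψ hψ hfin hN (Pic0.mk D) = Pic0.mk (pushDegZeroAlong ψ hψ D) :=
  rfl

/-- Galois transport of the push-forward of classes. -/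
theorem pushPicAlong_smul (hfin : FiniteAlong K ψ) (hN : NormFormulaAlong K ψ hfin)
    {g : SemilinearAut K F} {g' : SemilinearAut K F'}
    (h : SemilinearAut.IntertwinesAlong (ψ : F →+* F') g g') (x : Pic0 K F') :
    pushPicAlong ψ hψ hfin hN (g' • x) = g • pushPicAlong ψ hψ hfin hN x := by
  obtain ⟨D, rfl⟩ := Pic0.mk_surjective x
  rw [SemilinearAut.pic0_smul_mk, pushPicAlong_mk, pushPicAlong_mk, SemilinearAut.pic0_smul_mk]
  refine congrArg Pic0.mk (Subtype.ext ?_)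
  rw [coe_pushDegZeroAlong, SemilinearAut.coe_degZeroSMulHom, SemilinearAut.coe_degZeroSMulHom,
    coe_pushDegZeroAlong]
  exact Fermat.Agent.P3.helper10.pushforwardAlong_smul ψ hψ h _

/-- **Kummer description of the kernel of the push-forward** (abstract form): if
`n • D = div h` and the class of `D` is killed by `ψ_*`, then the divisor of `Norm_ψ h` is the
divisor of an `n`-th power. -/
theorem exists_ord_norm_eq_of_pushPicAlong_eq_zero (hfin : FiniteAlong K ψ)
    (hN : NormFormulaAlong K ψ hfin) {n : ℕ} {D : Divisor.degZero (K := K) (F := F')} {h : F'}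
    (H : IsRootDiv n (D : Divisor K F') h)
    (h0 : pushPicAlong ψ hψ hfin hN (Pic0.mk D) = 0) :
    ∃ f : F, f ≠ 0 ∧ ∀ v : Place K F, v.ord (normAlong ψ h) = v.ord (f ^ n) := by
  rw [pushPicAlong_mk] at h0
  have h2 := (QuotientAddGroup.eq_zero_iff _).mp h0
  rw [AddSubgroup.mem_addSubgroupOf] at h2
  obtain ⟨f, hf0, hf⟩ := h2
  refine ⟨f, hf0, fun v => ?_⟩
  have h3 := (IsRootDiv.pushforwardAlong ψ hψ hfin hN H).2 v
  rw [← h3, ← zpow_natCast, v.ord_zpow, ← hf v, coe_pushDegZeroAlong]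

/-- the converse: if the divisor of `Norm_ψ h` is the divisor of an `n`-th power (`n ≠ 0`),
the class of `D` is killed by `ψ_*`. -/
theorem pushPicAlong_eq_zero_of_ord (hfin : FiniteAlong K ψ)
    (hN : NormFormulaAlong K ψ hfin) {n : ℕ} (hn : n ≠ 0)
    {D : Divisor.degZero (K := K) (F := F')} {h : F'}
    (H : IsRootDiv n (D : Divisor K F') h) {f : F} (hf0 : f ≠ 0)
    (hf : ∀ v : Place K F, v.ord (normAlong ψ h) = v.ord (f ^ n)) :
    pushPicAlong ψ hψ hfin hN (Pic0.mk D) = 0 := by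
  rw [pushPicAlong_mk]
  refine Fermat.Agent.P2.helper93.kum_mk_eq_zero_of_ord hf0 (fun v => ?_)
  have h3 := (IsRootDiv.pushforwardAlong ψ hψ hfin hN H).2 v
  rw [hf v, ← zpow_natCast, v.ord_zpow] at h3
  rw [coe_pushDegZeroAlong]
  exact mul_left_cancel₀ (Nat.cast_ne_zero.mpr hn) h3

end Abstract

/-! ### The degeneracy maps `α, β : X₀(N ℓ) → X₀(N)` -/

section Modular

variable (N ℓ : ℕ) [NeZero N] [NeZero ℓ]

/-- `α : F_N → F_{N ℓ}`, the inclusion -/
abbrev alphaF : FF N →ₐ[Kb] FF (N * ℓ) := heckeAlphaBar Kb N ℓ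

/-- `β : F_N → F_{N ℓ}`, `f(q) ↦ f(q ^ ℓ)` -/
abbrev betaF : FF N →ₐ[Kb] FF (N * ℓ) := heckeBetaBar Kb N ℓ

theorem alphaF_integral : (alphaF N ℓ).toRingHom.IsIntegral :=
  (Fermat.Agent.P3.helper58.heckeInputsAlong_bar N ℓ).fst

theorem betaF_integral : (betaF N ℓ).toRingHom.IsIntegral :=
  (Fermat.Agent.P3.helper58.heckeInputsAlong_bar N ℓ).snd.fst

theorem alphaF_finite : FiniteAlong Kb (alphaF N ℓ) :=
  (Fermat.Agent.P3.helper58.heckeInputsAlong_bar N ℓ).snd.snd.snd.fst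

theorem alphaF_normFormula : NormFormulaAlong Kb (alphaF N ℓ) (alphaF_finite N ℓ) :=
  (Fermat.Agent.P3.helper58.heckeInputsAlong_bar N ℓ).snd.snd.snd.snd.2

theorem betaF_finite : FiniteAlong Kb (betaF N ℓ) :=
  (Fermat.Agent.P3.helper58.heckeInputsAlong_transpose_of_isAlgClosed Kb N ℓ).snd.snd.snd.fst

theorem betaF_normFormula : NormFormulaAlong Kb (betaF N ℓ) (betaF_finite N ℓ) :=
  (Fermat.Agent.P3.helper58.heckeInputsAlong_transpose_of_isAlgClosed Kb N ℓ).snd.snd.snd.snd.2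

/-- **`α_* : J₀(N ℓ) → J₀(N)`** -/
def pushAlpha : JZero (N * ℓ) →+ JZero N :=
  pushPicAlong (alphaF N ℓ) (alphaF_integral N ℓ) (alphaF_finite N ℓ) (alphaF_normFormula N ℓ)

/-- **`β_* : J₀(N ℓ) → J₀(N)`** -/
def pushBeta : JZero (N * ℓ) →+ JZero N :=
  pushPicAlong (betaF N ℓ) (betaF_integral N ℓ) (betaF_finite N ℓ) (betaF_normFormula N ℓ)

theorem pushAlpha_mk (D : Divisor.degZero (K := Kb) (F := FF (N * ℓ))) :
    pushAlpha N ℓ (Pic0.mk D) =
      Pic0.mk (pushDegZeroAlong (alphaF N ℓ) (alphaF_integral N ℓ) D) :=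
  rfl

theorem pushBeta_mk (D : Divisor.degZero (K := Kb) (F := FF (N * ℓ))) :
    pushBeta N ℓ (Pic0.mk D) =
      Pic0.mk (pushDegZeroAlong (betaF N ℓ) (betaF_integral N ℓ) D) :=
  rfl

/-- `α_*` commutes with the Galois action. -/
theorem pushAlpha_smul (σ : Kb ≃ₐ[ℚ] Kb) (x : JZero (N * ℓ)) :
    pushAlpha N ℓ (σ • x) = σ • pushAlpha N ℓ x := by
  rw [galois_smul_pic0_def, galois_smul_pic0_def]
  exact pushPicAlong_smul _ _ _ _ (Fermat.Agent.P3.helper10.intertwines_heckeAlphaBar N ℓ σ) x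

/-- `β_*` commutes with the Galois action. -/
theorem pushBeta_smul (σ : Kb ≃ₐ[ℚ] Kb) (x : JZero (N * ℓ)) :
    pushBeta N ℓ (σ • x) = σ • pushBeta N ℓ x := by
  rw [galois_smul_pic0_def, galois_smul_pic0_def]
  exact pushPicAlong_smul _ _ _ _ (Fermat.Agent.P3.helper10.intertwines_heckeBetaBar N ℓ σ) x

/-- the norm `F_{N ℓ} → F_N` along `α` -/
def normAlpha (h : FF (N * ℓ)) : FF N := normAlong (alphaF N ℓ) h

/-- the norm `F_{N ℓ} → F_N` along `β` -/
def normBeta (h : FF (N * ℓ)) : FF N := normAlong (betaF N ℓ) h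

/-- two functions with the same divisor differ by a constant -/
theorem exists_const_mul_of_ord_eq {a b : FF N} (ha : a ≠ 0) (hb : b ≠ 0)
    (h : ∀ v : Place Kb (FF N), v.ord a = v.ord b) :
    ∃ c : Kb, c ≠ 0 ∧ a = algebraMap Kb (FF N) c * b := by
  have hg : ∀ P : Place Kb (FF N), P.ord (a * b⁻¹) = 0 := by
    intro P
    rw [P.ord_mul ha (inv_ne_zero hb), P.ord_inv, h P, add_neg_cancel]
  obtain ⟨c, hc⟩ := Fermat.Agent.S18.helper19.const_of_ord_eq_zero N (a * b⁻¹) hg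
  have hab : a * b⁻¹ ≠ 0 := mul_ne_zero ha (inv_ne_zero hb)
  refine ⟨c, ?_, ?_⟩
  · rintro rfl
    rw [map_zero] at hc
    exact hab hc.symm
  · rw [hc, mul_assoc, inv_mul_cancel₀ hb, mul_one]

/-- **[PUSH-KUM] for `α`**: if `n • D = div H` and `α_* [D] = 0`, then
`Norm_α H = c * f ^ n`. -/
theorem normAlpha_eq_of_pushAlpha_eq_zero {n : ℕ}
    {D : Divisor.degZero (K := Kb) (F := FF (N * ℓ))} {H : FF (N * ℓ)}
    (hH : IsRootDiv n (D : Divisor Kb (FF (N * ℓ))) H)
    (h0 : pushAlpha N ℓ (Pic0.mk D) = 0) :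
    ∃ (c : Kb) (f : FF N), c ≠ 0 ∧ f ≠ 0 ∧
      normAlpha N ℓ H = algebraMap Kb (FF N) c * f ^ n := by
  obtain ⟨f, hf0, hf⟩ := exists_ord_norm_eq_of_pushPicAlong_eq_zero (alphaF N ℓ)
    (alphaF_integral N ℓ) (alphaF_finite N ℓ) (alphaF_normFormula N ℓ) hH h0
  obtain ⟨c, hc, hcf⟩ := exists_const_mul_of_ord_eq N
    (normAlong_ne_zero (alphaF N ℓ) (alphaF_finite N ℓ) hH.1) (pow_ne_zero n hf0) hf
  exact ⟨c, f, hc, hf0, hcf⟩

/-- **[PUSH-KUM] for `β`**: if `n • D = div H` and `β_* [D] = 0`, then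
`Norm_β H = c * f ^ n`. -/
theorem normBeta_eq_of_pushBeta_eq_zero {n : ℕ}
    {D : Divisor.degZero (K := Kb) (F := FF (N * ℓ))} {H : FF (N * ℓ)}
    (hH : IsRootDiv n (D : Divisor Kb (FF (N * ℓ))) H)
    (h0 : pushBeta N ℓ (Pic0.mk D) = 0) :
    ∃ (c : Kb) (f : FF N), c ≠ 0 ∧ f ≠ 0 ∧
      normBeta N ℓ H = algebraMap Kb (FF N) c * f ^ n := by
  obtain ⟨f, hf0, hf⟩ := exists_ord_norm_eq_of_pushPicAlong_eq_zero (betaF N ℓ)
    (betaF_integral N ℓ) (betaF_finite N ℓ) (betaF_normFormula N ℓ) hH h0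
  obtain ⟨c, hc, hcf⟩ := exists_const_mul_of_ord_eq N
    (normAlong_ne_zero (betaF N ℓ) (betaF_finite N ℓ) hH.1) (pow_ne_zero n hf0) hf
  exact ⟨c, f, hc, hf0, hcf⟩

/-- the converse of [PUSH-KUM] for `α` -/
theorem pushAlpha_eq_zero_of_norm {n : ℕ} (hn : n ≠ 0)
    {D : Divisor.degZero (K := Kb) (F := FF (N * ℓ))} {H : FF (N * ℓ)}
    (hH : IsRootDiv n (D : Divisor Kb (FF (N * ℓ))) H) {c : Kb} {f : FF N}
    (hcf : normAlpha N ℓ H = algebraMap Kb (FF N) c * f ^ n) :
    pushAlpha N ℓ (Pic0.mk D) = 0 := by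
  have hne := normAlong_ne_zero (alphaF N ℓ) (alphaF_finite N ℓ) hH.1
  have hc : algebraMap Kb (FF N) c ≠ 0 := by
    intro h0
    apply hne
    show normAlpha N ℓ H = 0
    rw [hcf, h0, zero_mul]
  have hf0 : f ≠ 0 := by
    rintro rfl
    apply hne
    show normAlpha N ℓ H = 0
    rw [hcf, zero_pow hn, mul_zero]
  refine pushPicAlong_eq_zero_of_ord (alphaF N ℓ) (alphaF_integral N ℓ) (alphaF_finite N ℓ)
    (alphaF_normFormula N ℓ) hn hH hf0 (fun v => ?_)
  show v.ord (normAlpha N ℓ H) = _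
  rw [hcf, v.ord_mul hc (pow_ne_zero n hf0), Fermat.Agent.S24.helper75.place_ord_algebraMap,
    zero_add]

/-- the converse of [PUSH-KUM] for `β` -/
theorem pushBeta_eq_zero_of_norm {n : ℕ} (hn : n ≠ 0)
    {D : Divisor.degZero (K := Kb) (F := FF (N * ℓ))} {H : FF (N * ℓ)}
    (hH : IsRootDiv n (D : Divisor Kb (FF (N * ℓ))) H) {c : Kb} {f : FF N}
    (hcf : normBeta N ℓ H = algebraMap Kb (FF N) c * f ^ n) :
    pushBeta N ℓ (Pic0.mk D) = 0 := by
  have hne := normAlong_ne_zero (betaF N ℓ) (betaF_finite N ℓ) hH.1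
  have hc : algebraMap Kb (FF N) c ≠ 0 := by
    intro h0
    apply hne
    show normBeta N ℓ H = 0
    rw [hcf, h0, zero_mul]
  have hf0 : f ≠ 0 := by
    rintro rfl
    apply hne
    show normBeta N ℓ H = 0
    rw [hcf, zero_pow hn, mul_zero]
  refine pushPicAlong_eq_zero_of_ord (betaF N ℓ) (betaF_integral N ℓ) (betaF_finite N ℓ)
    (betaF_normFormula N ℓ) hn hH hf0 (fun v => ?_)
  show v.ord (normBeta N ℓ H) = _
  rw [hcf, v.ord_mul hc (pow_ne_zero n hf0), Fermat.Agent.S24.helper75.place_ord_algebraMap,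
    zero_add]

end Modular

end Fermat.Agent.T7.helper58

end
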