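import Mathlib
import Fermat.Agent.T2.helper74_PivotFam
import Fermat.Agent.T7.helper84_PPow
import Fermat.Agent.T7.helper40_PivotDeepFam

/-!
# T7 [B4] (helper60): from the critical depth to the deep pivot

Setting of `helper40.mem_of_pow_mem_fam_deep_arch` / `helper82.exists_close_of_pow_mem_fam`:
`A` a valuation subring of `L`, `π : A → k` the reduction, `p = l ^ (p - 1) τ` with `τ` a unit and
`l` in the maximal ideal (`l = ζ_p - 1`).

* `crit_factor`                : `(v + l X) ^ p - v ^ p = l ^ p (X S)`,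
                                 `S = τ v ^ (p - 1) + τ l X E + X ^ (p - 1)`;
* `exists_uniform_of_red_zero` : if `W₀ ^ p ∈ V'`, `v₁` is an integral element of `V` of reduction
  `1`, `W₀ - v₁ = l • E₁` and the reduction of `E₁` vanishes, then `E₁ = ϖ₁ • E₂` with `ϖ₁` in
  the maximal ideal (UNIFORM divisibility; no discreteness is used: the content of the function
  `W₀ ^ p - v₁ ^ p` is attained, and the content lemma `P2.helper74.exists_eq_smul_of_mul_eq`
  applies because the cofactor `S` has reduction `τ ≠ 0`);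
* `mem_of_pow_mem_fam_crit`    : the pivot at the critical depth with vanishing Artin-Schreier
  class: under the hypotheses of the deep pivot, `W₀ - v₁ = l • E₁` with `red E₁ = 0` implies
  `W₀ ∈ V`.
-/

set_option autoImplicit false
set_option linter.unusedSectionVars false
set_option linter.unusedVariables false

noncomputable section

namespace Fermat.Agent.T7.helper60

open ModularCurve HahnSeries
open Fermat.Agent.P2.helper22 Fermat.Agent.P2.helper74 Fermat.Agent.T2.helper74
open Fermat.Agent.T7.helper40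

variable {L : Type*} [Field L] {ι : Type*}

/-- the factorisation at the critical depth, with explicit cofactor -/
theorem crit_factor {R : Type*} [CommRing R] {p : ℕ} (hp : p.Prime) {l τ : R}
    (hl : (p : R) = l ^ (p - 1) * τ) (v X : R) :
    ∃ E : R, (v + l * X) ^ p - v ^ p
      = l ^ p * (X * (τ * v ^ (p - 1) + τ * l * X * E + X ^ (p - 1))) := by
  obtain ⟨E, hE⟩ := Fermat.Agent.T7.helper84.ppow_expand hp v (l * X)
  refine ⟨E, ?_⟩
  have hpp : p = (p - 1) + 1 := by have := hp.one_lt; omega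
  have h1 : l ^ p = l ^ (p - 1) * l := by
    conv_lhs => rw [hpp, pow_succ]
  have h2 : X ^ p = X ^ (p - 1) * X := by
    conv_lhs => rw [hpp, pow_succ]
  rw [hE, mul_pow, mul_pow, h2, hl, h1]
  ring

/-- **uniform divisibility at the critical depth** -/
theorem exists_uniform_of_red_zero (A : ValuationSubring L) {k : Type*} [Field k]
    (π : A →+* k) (hπ : ∀ x : A, π x ≠ 0 → IsUnit x) (hArch : Arch A π)
    (V V' : Submodule L (ι → LaurentSeries L))
    (hV'att : ∀ u ∈ V', u ≠ 0 → ContentAttainedFam A π u)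
    (p : ℕ) (hp : p.Prime) (hpow : ∀ u ∈ V, u ^ p ∈ V')
    (l τ : A) (hl : (p : A) = l ^ (p - 1) * τ) (hτ : π τ ≠ 0) (hl0 : l ≠ 0) (hπl : π l = 0)
    (W₀ v₁ E₁ : ι → LaurentSeries A) (hW₀ : famMap A.subtype W₀ ^ p ∈ V')
    (hv₁ : famMap A.subtype v₁ ∈ V) (hv₁red : famMap π v₁ = 1)
    (h : W₀ - v₁ = l • E₁) (hE₁ : famMap π E₁ = 0) :
    ∃ (ϖ₁ : A) (E₂ : ι → LaurentSeries A), ϖ₁ ≠ 0 ∧ π ϖ₁ = 0 ∧ E₁ = ϖ₁ • E₂ := by
  classical
  have hp1 : p - 1 ≠ 0 := by have := hp.two_le; omega
  -- the factorisation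
  have hlfam : (((p : ℕ) : ι → LaurentSeries A)) = famC A ι l ^ (p - 1) * famC A ι τ := by
    rw [← map_pow, ← map_mul, ← hl, map_natCast]
  obtain ⟨E, hE⟩ := crit_factor hp hlfam v₁ E₁
  set S : ι → LaurentSeries A :=
    famC A ι τ * v₁ ^ (p - 1) + famC A ι τ * famC A ι l * E₁ * E + E₁ ^ (p - 1) with hS
  have hW₀eq : W₀ = v₁ + famC A ι l * E₁ := by
    rw [famC_mul_eq_smul, ← h]
    ring
  have hfac : W₀ ^ p - v₁ ^ p = (l ^ p) • (E₁ * S) := by
    rw [hW₀eq, hE, ← map_pow, famC_mul_eq_smul]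
  -- the reduction of the cofactor
  have hSred : famMap π S = famC k ι (π τ) := by
    rw [hS, famMap_add, famMap_add, famMap_mul, famMap_mul, famMap_mul, famMap_mul, famMap_pow,
      famMap_pow, hv₁red, hE₁, one_pow, mul_one, zero_pow hp1, add_zero, mul_zero, zero_mul,
      add_zero]
    funext i
    show coeffMap π (HahnSeries.C τ) = HahnSeries.C (π τ)
    rw [HahnSeries.C_apply, coeffMap_single, HahnSeries.C_apply]
  have hSi : ∀ i, coeffMap π (S i) ≠ 0 := by
    intro i
    have h1 : coeffMap π (S i) = HahnSeries.C (π τ) := congrFun hSred i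
    rw [h1]
    intro h0
    have h2 := congrArg (fun z : LaurentSeries k => z.coeff 0) h0
    simp only [HahnSeries.C_apply, HahnSeries.coeff_single_same, HahnSeries.coeff_zero] at h2
    exact hτ h2
  -- a relation `E₁ * S = e • P` with `e ≠ 0` in the maximal ideal
  have hrel : ∃ (e : A) (P : ι → LaurentSeries A), e ≠ 0 ∧ π e = 0 ∧ E₁ * S = e • P := by
    set G : ι → LaurentSeries L := famMap A.subtype W₀ ^ p - famMap A.subtype v₁ ^ p with hG
    have hGV' : G ∈ V' := V'.sub_mem hW₀ (hpow _ hv₁)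
    have hGeq : G = ((l ^ p : A) : L) • famMap A.subtype (E₁ * S) := by
      rw [hG, ← famMap_pow, ← famMap_pow, ← famMap_sub, hfac, famMap_subtype_smul]
    have hlp0 : ((l ^ p : A) : L) ≠ 0 := by
      intro h0
      have : (l ^ p : A) = 0 := Subtype.ext h0
      exact hl0 (pow_eq_zero_iff hp.ne_zero |>.mp this)
    rcases eq_or_ne G 0 with hG0 | hG0
    · refine ⟨l, 0, hl0, hπl, ?_⟩
      rw [smul_zero]
      apply famMap_subtype_injective A
      have h1 : famMap A.subtype (E₁ * S) = 0 := by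
        have h2 : ((l ^ p : A) : L) • famMap A.subtype (E₁ * S) = 0 := by rw [← hGeq, hG0]
        rcases smul_eq_zero.mp h2 with h3 | h3
        · exact absurd h3 hlp0
        · exact h3
      rw [h1, famMap_zero]
    · obtain ⟨c, hc, Y, hY, hYπ⟩ := hV'att G hGV' hG0
      set d : L := c * ((l ^ p : A) : L) with hd
      have hd0 : d ≠ 0 := mul_ne_zero hc hlp0
      have hYd : famMap A.subtype Y = d • famMap A.subtype (E₁ * S) := by
        rw [hY, hGeq, smul_smul]
      have hdA : d ∉ A := by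
        intro hdA
        apply hYπ
        have h1 : Y = (⟨d, hdA⟩ : A) • (E₁ * S) := by
          apply famMap_subtype_injective A
          rw [hYd, famMap_subtype_smul]
        rw [h1, famMap_smul, famMap_mul, hE₁, zero_mul, smul_zero]
      have hdinv : d⁻¹ ∈ A := (A.mem_or_inv_mem d).resolve_left hdA
      have hne : (⟨d⁻¹, hdinv⟩ : A) ≠ 0 := by
        intro h0
        have := congrArg (fun x : A => (x : L)) h0
        exact inv_ne_zero hd0 this
      refine ⟨⟨d⁻¹, hdinv⟩, Y, hne, ?_, ?_⟩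
      · by_contra hπe
        obtain ⟨u, hu⟩ := (hπ _ hπe).exists_right_inv
        have h1 := congrArg (fun x : A => (x : L)) hu
        have h2 : d⁻¹ * (u : L) = 1 := h1
        have h3 : (u : L) = d := by
          have := congrArg (fun x => d * x) h2
          simp only [mul_one] at this
          rw [← mul_assoc, mul_inv_cancel₀ hd0, one_mul] at this
          exact this
        exact hdA (h3 ▸ u.2)
      · apply famMap_subtype_injective A
        rw [famMap_subtype_smul, hYd, smul_smul]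
        show famMap A.subtype (E₁ * S) = (d⁻¹ * d) • famMap A.subtype (E₁ * S)
        rw [inv_mul_cancel₀ hd0, one_smul]
  obtain ⟨e, P, he0, hπe, hrel⟩ := hrel
  have hcomp : ∀ i, ∃ δ' : LaurentSeries A, E₁ i = e • δ' := by
    intro i
    refine exists_eq_smul_of_mul_eq hπ hArch (E₁ i) (S i) (P i) e he0 (hSi i) ?_
    exact congrFun hrel i
  choose E₂ hE₂ using hcomp
  exact ⟨e, E₂, he0, hπe, funext hE₂⟩

/-- **the pivot at the critical depth with vanishing Artin-Schreier class** -/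
theorem mem_of_pow_mem_fam_crit (A : ValuationSubring L) {k : Type*} [Field k]
    (π : A →+* k) (hπ : ∀ x : A, π x ≠ 0 → IsUnit x) (hπs : Function.Surjective π)
    (hArch : Arch A π)
    (V V' : Submodule L (ι → LaurentSeries L)) [FiniteDimensional L V] (n : ι → ℤ)
    (hn : ∀ i, 0 ≤ n i) (p : ℕ) (hp : p.Prime) (hpL : (p : L) ≠ 0)
    (l τ : A) (hl : (p : A) = l ^ (p - 1) * τ) (hτ : π τ ≠ 0) (hπl : π l = 0)
    (hVatt : ∀ u ∈ V, u ≠ 0 → ContentAttainedFam A π u)
    (hV'att : ∀ u ∈ V', u ≠ 0 → ContentAttainedFam A π u)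
    (hVord : ∀ u ∈ V, ∀ i, ∀ j < -(n i), (u i).coeff j = 0)
    (hpow : ∀ u ∈ V, u ^ p ∈ V')
    (hred : ∀ Z : ι → LaurentSeries A, famMap A.subtype Z ∈ V' →
      (∀ i, ∀ j < -(n i), (famMap π Z i).coeff j = 0) →
      ∃ Z' : ι → LaurentSeries A, famMap A.subtype Z' ∈ V ∧ famMap π Z' = famMap π Z)
    (W₀ : ι → LaurentSeries A) (hW₀ : (famMap A.subtype W₀) ^ p ∈ V')
    (hW₀red : famMap π W₀ = 1) (hW₀ord : ∀ i, ∀ j < -(n i), (W₀ i).coeff j = 0)
    (v₁ E₁ : ι → LaurentSeries A) (hv₁ : famMap A.subtype v₁ ∈ V)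
    (h : W₀ - v₁ = l • E₁) (hE₁ : famMap π E₁ = 0) :
    famMap A.subtype W₀ ∈ V := by
  have hp1 : p - 1 ≠ 0 := by have := hp.two_le; omega
  have hl0 : l ≠ 0 := by
    intro h0
    have h1 : (p : A) = 0 := by rw [hl, h0, zero_pow hp1, zero_mul]
    apply hpL
    have := congrArg (fun x : A => (x : L)) h1
    simpa using this
  have hv₁red : famMap π v₁ = 1 := by
    have h1 : v₁ = W₀ - l • E₁ := by rw [← h]; ring
    rw [h1, famMap_sub, famMap_smul, hπl, zero_smul, sub_zero, hW₀red]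
  obtain ⟨ϖ₁, E₂, hϖ₁0, hπϖ₁, hE₂⟩ := exists_uniform_of_red_zero A π hπ hArch V V' hV'att p hp
    hpow l τ hl hτ hl0 hπl W₀ v₁ E₁ hW₀ hv₁ hv₁red h hE₁
  obtain ⟨τ', hτ'⟩ := (hπ τ hτ).exists_right_inv
  have hϖ : (l * ϖ₁) ^ (p - 1) = (p : A) * (τ' * ϖ₁ ^ (p - 1)) := by
    rw [mul_pow, hl]
    linear_combination (-(l ^ (p - 1) * ϖ₁ ^ (p - 1))) * hτ'
  have ht : π (τ' * ϖ₁ ^ (p - 1)) = 0 := by
    rw [map_mul, map_pow, hπϖ₁, zero_pow hp1, mul_zero]
  refine mem_of_pow_mem_fam_deep_arch A π hπ hπs hArch V V' n hn p hp hpL (l * ϖ₁)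
    (τ' * ϖ₁ ^ (p - 1)) ht hϖ hVatt hV'att hVord hpow hred W₀ hW₀ hW₀red hW₀ord v₁ E₂ hv₁ ?_
  rw [h, hE₂, smul_smul]

end Fermat.Agent.T7.helper60

end
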