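import Mathlib
import Fermat.Agent.T2.helper22_PairIdeal
import Fermat.Agent.T2.helper74_Pivot2

/-!
# T7 [GAL] (helper60): the coefficientwise Galois action on pairs of expansions

`M` a level, `W` an involution of `F_M` commuting with the coefficientwise Galois action
(`hWgal`), `A` a valuation subring of `ℚ̄`.  For families `Z : ι → A((q))` the decomposition group
acts through `famMap (decA σ hσ)`.

* `famMap_subtype_decA`        : `incl (σ Z) = σ (incl Z)` (coefficientwise);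
* `famMap_residue_decA`        : `red (σ Z) = red Z` for `σ` in the inertia group;
* `pairLin_galF`               : the pair of expansions of `galF σ f` is `σ` of the pair of `f`;
* `regOff2_galF`, `isReg2_galF`: regularity off the two cusps is Galois stable;
* `famMap_mem_VN`              : `VN W n` is stable under the coefficientwise action;
* `dvd_ord_galF`, `dvd_ord_twist` : divisibility of the divisor;
* `isA0One_galF`, `isA0One_mul`, `isA0One_pow`, `isA0One_twist` : the class `IsA0One`;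
* `twist_pow`, `twist_red`     : the family `Y = σ Z * Z ^ m` has `Y ^ p = pair of σ K * K ^ m`
                                  and reduction `1`.
-/

set_option autoImplicit false
set_option linter.unusedSectionVars false

noncomputable section

namespace Fermat.Agent.T7.helper60

open HahnSeries IntermediateField AlgebraicCurve ModularCurve
open Fermat.Agent.S18.helper19 Fermat.Agent.P2.helper29 Fermat.Agent.P2.helper22
open Fermat.Agent.P2.helper93
open Fermat.Agent.T2 Fermat.Agent.T2.helper22 Fermat.Agent.T2.helper74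

variable {M : ℕ} [NeZero M] {A : ValuationSubring Kb} {W : FF M ≃ₐ[Kb] FF M} {ι : Type*}

/-! ### Families -/

theorem famMap_apply' {R S : Type*} [CommRing R] [CommRing S] (f : R →+* S)
    (X : ι → LaurentSeries R) (i : ι) : famMap f X i = coeffMap f (X i) := rfl

/-- `incl (σ Z) = σ (incl Z)` -/
theorem famMap_subtype_decA (σ : Kb ≃ₐ[ℚ] Kb) (hσ : σ ∈ A.decompositionSubgroup ℚ)
    (Z : ι → LaurentSeries A) :
    famMap A.subtype (famMap (decA σ hσ) Z)
      = famMap (σ : Kb →+* Kb) (famMap A.subtype Z) := by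
  funext i
  exact coeffMap_subtype_actA σ hσ (Z i)

/-- `red (σ Z) = red Z` for `σ` in the inertia group -/
theorem famMap_residue_decA {σ : Kb ≃ₐ[ℚ] Kb} (hσ : σ ∈ A.inertiaSubgroupIn ℚ)
    (hσ' : σ ∈ A.decompositionSubgroup ℚ) (Z : ι → LaurentSeries A) :
    famMap (IsLocalRing.residue A) (famMap (decA σ hσ') Z)
      = famMap (IsLocalRing.residue A) Z := by
  funext i
  exact Fermat.Agent.T2.helper20.red_actA_of_mem_inertia hσ hσ' (Z i)

/-- the inertia group lies in the decomposition group -/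
theorem mem_decomposition_of_mem_inertia {σ : Kb ≃ₐ[ℚ] Kb} (hσ : σ ∈ A.inertiaSubgroupIn ℚ) :
    σ ∈ A.decompositionSubgroup ℚ :=
  (decK_eq_id_of_mem_inertia hσ).1

/-! ### Pairs of expansions -/

/-- the pair of expansions of `galF σ f` -/
theorem pairLin_galF
    (hWgal : ∀ (σ : Kb ≃ₐ[ℚ] Kb) (x : FF M), W (galF M σ x) = galF M σ (W x))
    (σ : Kb ≃ₐ[ℚ] Kb) (f : FF M) :
    helper74.pairLin W (galF M σ f) = famMap (σ : Kb →+* Kb) (helper74.pairLin W f) := by
  rw [pairLin_eq_iff]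
  refine ⟨rfl, ?_⟩
  rw [hWgal]
  rfl

/-- regularity off the two cusps is stable under the coefficientwise Galois action -/
theorem regOff2_galF
    (hWgal : ∀ (σ : Kb ≃ₐ[ℚ] Kb) (x : FF M), W (galF M σ x) = galF M σ (W x))
    (σ : Kb ≃ₐ[ℚ] Kb) {f : FF M} (h : RegOff2 W f) : RegOff2 W (galF M σ f) := by
  intro P h1 h2
  rw [ord_galF]
  exact h _ (fun h' => h1 (isInfty_of_gal σ h'))
    (fun h' => h2 (isInfty2_of_gal hWgal σ h'))

theorem isReg2_galF
    (hWgal : ∀ (σ : Kb ≃ₐ[ℚ] Kb) (x : FF M), W (galF M σ x) = galF M σ (W x))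
    (σ : Kb ≃ₐ[ℚ] Kb) {f : FF M} (h : IsReg2 W f) : IsReg2 W (galF M σ f) :=
  isReg2_of_regOff2 (regOff2_galF hWgal σ (regOff2_of_isReg2 h))

theorem coeff_galF (σ : Kb ≃ₐ[ℚ] Kb) (f : FF M) (k : ℤ) :
    ((galF M σ f : FF M) : LaurentSeries Kb).coeff k = σ ((f : LaurentSeries Kb).coeff k) := by
  rw [coe_galF, coeffMap_coeff]
  rfl

/-- `VN W n` is stable under the coefficientwise Galois action -/
theorem famMap_mem_VN (hWW : ∀ f, W (W f) = f) (hne : inftyBar M ≠ W • inftyBar M)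
    (hWgal : ∀ (σ : Kb ≃ₐ[ℚ] Kb) (x : FF M), W (galF M σ x) = galF M σ (W x))
    (σ : Kb ≃ₐ[ℚ] Kb) (n : ℤ) {u : Fin 2 → LaurentSeries Kb} (hu : u ∈ VN W n) :
    famMap (σ : Kb →+* Kb) u ∈ VN W n := by
  obtain ⟨f, h1, h2, h3, rfl⟩ := (mem_VN_iff W hWW hne n u).mp hu
  refine (mem_VN_iff W hWW hne n _).mpr
    ⟨galF M σ f, regOff2_galF hWgal σ h1, fun k hk => ?_, fun k hk => ?_,
      pairLin_galF hWgal σ f⟩
  · rw [coeff_galF, h2 k hk, map_zero]
  · rw [hWgal, coeff_galF, h3 k hk, map_zero]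

/-- integral form: `σ` of an integral element of `VN W n` is an integral element of `VN W n` -/
theorem famMap_decA_mem_VN (hWW : ∀ f, W (W f) = f) (hne : inftyBar M ≠ W • inftyBar M)
    (hWgal : ∀ (σ : Kb ≃ₐ[ℚ] Kb) (x : FF M), W (galF M σ x) = galF M σ (W x))
    (σ : Kb ≃ₐ[ℚ] Kb) (hσ : σ ∈ A.decompositionSubgroup ℚ) (n : ℤ)
    {U : Fin 2 → LaurentSeries A} (hU : famMap A.subtype U ∈ VN W n) :
    famMap A.subtype (famMap (decA σ hσ) U) ∈ VN W n := by
  rw [famMap_subtype_decA]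
  exact famMap_mem_VN hWW hne hWgal σ n hU

/-! ### Divisibility of the divisor -/

theorem dvd_ord_galF (σ : Kb ≃ₐ[ℚ] Kb) {n : ℕ} {K : FF M}
    (h : ∀ P : Place Kb (FF M), (n : ℤ) ∣ P.ord K) (P : Place Kb (FF M)) :
    (n : ℤ) ∣ P.ord (galF M σ K) := by
  rw [ord_galF]
  exact h _

theorem dvd_ord_twist (σ : Kb ≃ₐ[ℚ] Kb) {n : ℕ} {K : FF M} (m : ℕ)
    (h : ∀ P : Place Kb (FF M), (n : ℤ) ∣ P.ord K) (P : Place Kb (FF M)) :
    (n : ℤ) ∣ P.ord (galF M σ K * K ^ m) := by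
  rcases eq_or_ne K 0 with rfl | hK
  · rw [map_zero, zero_mul]
    exact h P
  have hg : galF M σ K ≠ 0 := (map_ne_zero_iff _ (galF M σ).injective).mpr hK
  rw [P.ord_mul hg (pow_ne_zero _ hK)]
  refine dvd_add (dvd_ord_galF σ h P) ?_
  clear hg
  induction m with
  | zero =>
    rw [pow_zero]
    have h1 := Fermat.Agent.S24.helper82.ord_algebraMap (K := Kb) (F := FF M) P (1 : Kb)
    rw [map_one] at h1
    rw [h1]
    exact dvd_zero _
  | succ m ih =>
    rw [pow_succ, P.ord_mul (pow_ne_zero _ hK) hK]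
    exact dvd_add ih (h P)

/-! ### The class `IsA0One` -/

theorem isA0One_galF
    (hWgal : ∀ (σ : Kb ≃ₐ[ℚ] Kb) (x : FF M), W (galF M σ x) = galF M σ (W x))
    {σ : Kb ≃ₐ[ℚ] Kb} (hσ : σ ∈ A.inertiaSubgroupIn ℚ) {K : FF M} (h : IsA0One M W A K) :
    IsA0One M W A (galF M σ K) := by
  obtain ⟨hreg, Y₁, Y₂, h1, h2, h3, h4⟩ := h
  have hσ' := mem_decomposition_of_mem_inertia hσ
  have hrep := IsRep.gal hWgal hσ' (X := K) (Y₁ := Y₁) (Y₂ := Y₂) ⟨h1, h2⟩
  refine ⟨regOff2_galF hWgal σ hreg, actA σ hσ' Y₁, actA σ hσ' Y₂, hrep.1, hrep.2, ?_, ?_⟩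
  · rw [Fermat.Agent.T2.helper20.red_actA_of_mem_inertia hσ hσ', h3]
  · rw [Fermat.Agent.T2.helper20.red_actA_of_mem_inertia hσ hσ', h4]

theorem isA0One_one : IsA0One M W A (1 : FF M) := by
  refine ⟨RegOff2.one W, 1, 1, ?_, ?_, map_one _, map_one _⟩
  · rw [map_one]; rfl
  · rw [map_one, map_one]; rfl

theorem isA0One_mul {K K' : FF M} (h : IsA0One M W A K) (h' : IsA0One M W A K') :
    IsA0One M W A (K * K') := by
  obtain ⟨hreg, Y₁, Y₂, h1, h2, h3, h4⟩ := h
  obtain ⟨hreg', Y₁', Y₂', h1', h2', h3', h4'⟩ := h'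
  refine ⟨RegOff2.mul W hreg hreg', Y₁ * Y₁', Y₂ * Y₂', ?_, ?_, ?_, ?_⟩
  · rw [map_mul, h1, h1']; rfl
  · rw [map_mul, h2, h2', map_mul]; rfl
  · rw [map_mul, h3, h3', mul_one]
  · rw [map_mul, h4, h4', mul_one]

theorem isA0One_pow {K : FF M} (h : IsA0One M W A K) (m : ℕ) : IsA0One M W A (K ^ m) := by
  induction m with
  | zero => rw [pow_zero]; exact isA0One_one
  | succ m ih => rw [pow_succ]; exact isA0One_mul ih h

/-- the monoid operation `K ↦ σ K * K ^ m` preserves `IsA0One` -/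
theorem isA0One_twist
    (hWgal : ∀ (σ : Kb ≃ₐ[ℚ] Kb) (x : FF M), W (galF M σ x) = galF M σ (W x))
    {σ : Kb ≃ₐ[ℚ] Kb} (hσ : σ ∈ A.inertiaSubgroupIn ℚ) {K : FF M} (h : IsA0One M W A K)
    (m : ℕ) : IsA0One M W A (galF M σ K * K ^ m) :=
  isA0One_mul (isA0One_galF hWgal hσ h) (isA0One_pow h m)

/-! ### The twisted family `Y = σ Z * Z ^ m` -/

/-- the twisted family -/
def twist (σ : Kb ≃ₐ[ℚ] Kb) (hσ : σ ∈ A.decompositionSubgroup ℚ) (m : ℕ)
    (Z : ι → LaurentSeries A) : ι → LaurentSeries A :=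
  famMap (decA σ hσ) Z * Z ^ m

/-- `Y ^ p` is the pair of expansions of `σ K * K ^ m` -/
theorem twist_pow
    (hWgal : ∀ (σ : Kb ≃ₐ[ℚ] Kb) (x : FF M), W (galF M σ x) = galF M σ (W x))
    (σ : Kb ≃ₐ[ℚ] Kb) (hσ : σ ∈ A.decompositionSubgroup ℚ) (m p : ℕ)
    {Z : Fin 2 → LaurentSeries A} {K : FF M}
    (hZ : famMap A.subtype Z ^ p = helper74.pairLin W K) :
    famMap A.subtype (twist σ hσ m Z) ^ p = helper74.pairLin W (galF M σ K * K ^ m) := by
  have h1 : helper74.pairLin W (galF M σ K * K ^ m)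
      = helper74.pairLin W (galF M σ K) * helper74.pairLin W K ^ m := by
    rw [← helper74.pairLin_pow, helper74.pairLin_eq_iff]
    refine ⟨rfl, ?_⟩
    rw [map_mul]
    rfl
  rw [h1, pairLin_galF hWgal, ← hZ, twist, famMap_mul, famMap_pow, famMap_subtype_decA,
    famMap_pow, mul_pow, ← pow_mul, ← pow_mul, mul_comm m p]

/-- the reduction of the twisted family is `1` for `σ` in the inertia group -/
theorem twist_red {σ : Kb ≃ₐ[ℚ] Kb} (hσ : σ ∈ A.inertiaSubgroupIn ℚ)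
    (hσ' : σ ∈ A.decompositionSubgroup ℚ) (m : ℕ) {Z : ι → LaurentSeries A}
    (hZ : famMap (IsLocalRing.residue A) Z = 1) :
    famMap (IsLocalRing.residue A) (twist σ hσ' m Z) = 1 := by
  rw [twist, famMap_mul, famMap_pow, famMap_residue_decA hσ hσ', hZ, one_pow, one_mul]

theorem coeff_famMap_decA (σ : Kb ≃ₐ[ℚ] Kb) (hσ : σ ∈ A.decompositionSubgroup ℚ)
    (Z : ι → LaurentSeries A) (i : ι) (j : ℤ) :
    (famMap (decA σ hσ) Z i).coeff j = decA σ hσ ((Z i).coeff j) := by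
  rw [famMap_apply', coeffMap_coeff]

end Fermat.Agent.T7.helper60

end
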