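import Mathlib

/-!
# T7 leaves (helper75, at own risk): binomial / Artin-Schreier / roots-of-unity toolkit at `m = p`

Mathlib only, any commutative ring (apply it to `LaurentSeries A`, `A`, ...).

* `add_pow_prime_three_regimes` : `(a + b)^p = a^p + b^p + p a^(p-1) b + p b^2 c`.
* `add_pow_prime_sub` : `(a + b)^p - a^p - b^p = p b c`  (Frobenius regime, depth `< 1/(p-1)`).
* `add_pow_prime_deep` : if `t^(p-1) = p m` then `(v + t X)^p - v^p = p t (v^(p-1) X + t X^2 c + m X^p)`
  (linear regime, depth `> 1/(p-1)`).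
* `exists_prime_mul_eq_neg_pow` : if `1 + z + ... + z^(p-1) = 0`, `l = z - 1`, then
  `p (1 + l w) = - l^(p-1)`  (Wilson; `l^(p-1) = -p` up to a unit `= 1 mod l`).
* `exists_artinSchreier_expansion` : then `(1 + l w) ((v + l X)^p - v^p) = l^p (X^p - v^(p-1) X) + l^(p+1) r`
  (critical depth `= 1/(p-1)`).
* `exists_one_add_pow_sub_one` : `(1 + l)^a - 1 = a l + l^2 c`  (`s z = z^a` gives `s l = a l mod l^2`).
* `eq_one_of_pow_prime_pow_eq_one_of_close` : in a local ring with `p` regular, a `p^k`-th root of unity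
  `x` with `x - 1 = t s`, `t^(p-1) = p m`, `m` in the maximal ideal, is `1`.
-/

set_option autoImplicit false

namespace Fermat.Agent.T7.helper75

open Finset Polynomial

/-- Leaf A: binomial expansion with the two extreme terms and the linear term split off. -/
theorem add_pow_prime_three_regimes {R : Type*} [CommRing R] (p : ℕ) (hp : p.Prime) (hp2 : p ≠ 2)
    (a b : R) :
    ∃ c : R, (a + b) ^ p = a ^ p + b ^ p + (p : R) * a ^ (p - 1) * b + (p : R) * b ^ 2 * c := by
  classical
  have hp3 : 3 ≤ p := by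
    have := hp.two_le
    omega
  refine ⟨∑ j ∈ Finset.Ico 2 p, ((p.choose j / p : ℕ) : R) * a ^ (p - j) * b ^ (j - 2), ?_⟩
  rw [add_comm a b, add_pow]
  have hsplit : Finset.range (p + 1) = insert 0 (insert 1 (insert p (Finset.Ico 2 p))) := by
    ext j
    simp only [Finset.mem_range, Finset.mem_insert, Finset.mem_Ico]
    omega
  rw [hsplit, Finset.sum_insert, Finset.sum_insert, Finset.sum_insert]
  · simp only [pow_zero, Nat.sub_zero, Nat.choose_zero_right, Nat.cast_one, mul_one, one_mul,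
      pow_one, Nat.choose_one_right, Nat.sub_self, Nat.choose_self]
    rw [Finset.mul_sum]
    have key : ∀ j ∈ Finset.Ico 2 p, b ^ j * a ^ (p - j) * ((p.choose j : ℕ) : R) =
        (p : R) * b ^ 2 * (((p.choose j / p : ℕ) : R) * a ^ (p - j) * b ^ (j - 2)) := by
      intro j hj
      rw [Finset.mem_Ico] at hj
      have hdvd : p ∣ p.choose j := hp.dvd_choose_self (by omega) hj.2
      obtain ⟨k, hk⟩ := hdvd
      have hk' : p.choose j / p = k := by
        rw [hk, Nat.mul_div_cancel_left _ hp.pos]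
      rw [hk', hk, Nat.cast_mul]
      have hb : b ^ j = b ^ 2 * b ^ (j - 2) := by
        rw [← pow_add]; congr 1; omega
      rw [hb]; ring
    rw [Finset.sum_congr rfl key]
    ring
  · simp only [Finset.mem_Ico]; omega
  · simp only [Finset.mem_insert, Finset.mem_Ico]
    omega
  · simp only [Finset.mem_insert, Finset.mem_Ico]
    omega

/-- Leaf F (Frobenius regime): `(a + b)^p - a^p - b^p = p b c`. -/
theorem add_pow_prime_sub {R : Type*} [CommRing R] (p : ℕ) (hp : p.Prime) (hp2 : p ≠ 2)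
    (a b : R) : ∃ c : R, (a + b) ^ p - a ^ p - b ^ p = (p : R) * b * c := by
  obtain ⟨c, hc⟩ := add_pow_prime_three_regimes p hp hp2 a b
  exact ⟨a ^ (p - 1) + b * c, by rw [hc]; ring⟩

/-- Leaf G (linear regime): if `t^(p-1) = p m` then
`(v + t X)^p - v^p = p t (v^(p-1) X + t X^2 c + m X^p)`. -/
theorem add_pow_prime_deep {R : Type*} [CommRing R] (p : ℕ) (hp : p.Prime) (hp2 : p ≠ 2)
    (t m : R) (ht : t ^ (p - 1) = (p : R) * m) (v X : R) :
    ∃ c : R, (v + t * X) ^ p - v ^ p =
      (p : R) * t * (v ^ (p - 1) * X + t * X ^ 2 * c + m * X ^ p) := by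
  obtain ⟨c, hc⟩ := add_pow_prime_three_regimes p hp hp2 v (t * X)
  have hp1 : p = (p - 1) + 1 := by have := hp.two_le; omega
  have htp : t ^ p = (p : R) * m * t := by rw [← ht, ← pow_succ, ← hp1]
  refine ⟨c, ?_⟩
  rw [hc, mul_pow, htp]
  ring

/-- Leaf B: cyclotomic Wilson identity. If `1 + ζ + ... + ζ^(p-1) = 0` and `l = ζ - 1` then
`p * (1 + l * w) = - l ^ (p - 1)` for an explicit `w`. -/
theorem exists_prime_mul_eq_neg_pow {R : Type*} [CommRing R] (p : ℕ) (hp : p.Prime) (hp2 : p ≠ 2)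
    (ζ : R) (hζ : ∑ j ∈ Finset.range p, ζ ^ j = 0) :
    ∃ w : R, (p : R) * (1 + (ζ - 1) * w) = - (ζ - 1) ^ (p - 1) := by
  classical
  have hp3 : 3 ≤ p := by
    have := hp.two_le
    omega
  obtain ⟨l, hl⟩ : ∃ l : R, l = ζ - 1 := ⟨_, rfl⟩
  rw [← hl]
  have h1 : ∑ j ∈ Finset.range p, ζ ^ j =
      ∑ i ∈ Finset.range p, ((p.choose (i + 1) : ℕ) : R) * l ^ i := by
    have := congrArg (Polynomial.eval l) (Polynomial.geom_sum_X_comp_X_add_one_eq_sum (R := R) p)
    simp only [Polynomial.eval_comp, Polynomial.eval_finsetSum, Polynomial.eval_pow,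
      Polynomial.eval_X, Polynomial.eval_add, Polynomial.eval_one, Polynomial.eval_mul,
      Polynomial.eval_natCast] at this
    rw [← this]
    refine Finset.sum_congr rfl fun j _ => ?_
    rw [hl]; ring
  rw [hζ] at h1
  refine ⟨∑ i ∈ Finset.Ico 1 (p - 1), ((p.choose (i + 1) / p : ℕ) : R) * l ^ (i - 1), ?_⟩
  have hsplit : Finset.range p = insert 0 (insert (p - 1) (Finset.Ico 1 (p - 1))) := by
    ext j
    simp only [Finset.mem_range, Finset.mem_insert, Finset.mem_Ico]
    omega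
  rw [hsplit, Finset.sum_insert, Finset.sum_insert] at h1
  · have hpp : p - 1 + 1 = p := by omega
    simp only [pow_zero, mul_one, zero_add, Nat.choose_one_right, hpp, Nat.choose_self,
      Nat.cast_one, one_mul] at h1
    have key : ∀ i ∈ Finset.Ico 1 (p - 1), ((p.choose (i + 1) : ℕ) : R) * l ^ i =
        (p : R) * l * (((p.choose (i + 1) / p : ℕ) : R) * l ^ (i - 1)) := by
      intro i hi
      rw [Finset.mem_Ico] at hi
      have hdvd : p ∣ p.choose (i + 1) := hp.dvd_choose_self (by omega) (by omega)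
      obtain ⟨k, hk⟩ := hdvd
      have hk' : p.choose (i + 1) / p = k := by
        rw [hk, Nat.mul_div_cancel_left _ hp.pos]
      rw [hk', hk, Nat.cast_mul]
      have hb : l ^ i = l * l ^ (i - 1) := by
        rw [← pow_succ']; congr 1; omega
      rw [hb]; ring
    rw [Finset.sum_congr rfl key, ← Finset.mul_sum] at h1
    linear_combination (-1 : R) * h1
  · simp only [Finset.mem_Ico]; omega
  · simp only [Finset.mem_insert, Finset.mem_Ico]
    omega

/-- Leaf D: `(1 + l)^a - 1 = a l + l^2 c`. -/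
theorem exists_one_add_pow_sub_one {R : Type*} [CommRing R] (l : R) (a : ℕ) :
    ∃ c : R, (1 + l) ^ a - 1 = (a : R) * l + l ^ 2 * c := by
  induction a with
  | zero => exact ⟨0, by simp⟩
  | succ a ih =>
    obtain ⟨c, hc⟩ := ih
    refine ⟨c + (a : R) + l * c, ?_⟩
    have : (1 + l) ^ a = 1 + ((a : R) * l + l ^ 2 * c) := by rw [← hc]; ring
    rw [pow_succ, this]
    push_cast
    ring

/-- Leaf C (critical depth, Artin-Schreier form): if `p * (1 + l w) = - l ^ (p - 1)` then
`(1 + l w) * ((v + l X)^p - v^p) = l^p (X^p - v^(p-1) X) + l^(p+1) r`. -/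
theorem exists_artinSchreier_expansion {R : Type*} [CommRing R] (p : ℕ) (hp : p.Prime)
    (hp2 : p ≠ 2) (l w : R) (hu : (p : R) * (1 + l * w) = - l ^ (p - 1)) (v X : R) :
    ∃ r : R, (1 + l * w) * ((v + l * X) ^ p - v ^ p) =
      l ^ p * (X ^ p - v ^ (p - 1) * X) + l ^ (p + 1) * r := by
  obtain ⟨c, hc⟩ := add_pow_prime_three_regimes p hp hp2 v (l * X)
  have hp1 : p = (p - 1) + 1 := by have := hp.two_le; omega
  have hlp : l ^ p = l ^ (p - 1) * l := by rw [← pow_succ, ← hp1]
  have hlp1 : l ^ (p + 1) = l ^ (p - 1) * l ^ 2 := by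
    rw [← pow_add]; congr 1; omega
  refine ⟨w * X ^ p - X ^ 2 * c, ?_⟩
  rw [hc, hlp1, mul_pow, hlp]
  linear_combination (v ^ (p - 1) * (l * X) + (l * X) ^ 2 * c) * hu

/-- Leaf C', the same for `v = 1`: `(1 + l w) ((1 + l X)^p - 1) = l^p (X^p - X) + l^(p+1) r`. -/
theorem exists_artinSchreier_expansion_one {R : Type*} [CommRing R] (p : ℕ) (hp : p.Prime)
    (hp2 : p ≠ 2) (l w : R) (hu : (p : R) * (1 + l * w) = - l ^ (p - 1)) (X : R) :
    ∃ r : R, (1 + l * w) * ((1 + l * X) ^ p - 1) =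
      l ^ p * (X ^ p - X) + l ^ (p + 1) * r := by
  obtain ⟨r, hr⟩ := exists_artinSchreier_expansion p hp hp2 l w hu 1 X
  exact ⟨r, by simpa using hr⟩

/-- Leaf E: in a local ring in which `p` is a non-zero-divisor, a `p`-th root of unity `x` with
`x - 1 ∈ (t)`, `t ^ (p - 1) ∈ p 𝔪`, is `1`. -/
theorem eq_one_of_pow_prime_eq_one_of_close {A : Type*} [CommRing A] [IsLocalRing A] (p : ℕ)
    (hp : p.Prime) (hp2 : p ≠ 2) (hreg : ∀ a : A, (p : A) * a = 0 → a = 0)
    (t m : A) (hm : m ∈ IsLocalRing.maximalIdeal A) (ht : t ^ (p - 1) = (p : A) * m)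
    (x s : A) (hx : x ^ p = 1) (hxs : x - 1 = t * s) : x = 1 := by
  have hp1 : p = (p - 1) + 1 := by have := hp.two_le; omega
  have htm : t ∈ IsLocalRing.maximalIdeal A := by
    have : t ^ (p - 1) ∈ IsLocalRing.maximalIdeal A := by
      rw [ht]; exact Ideal.mul_mem_left _ _ hm
    exact (IsLocalRing.maximalIdeal.isMaximal A).isPrime.mem_of_pow_mem _ this
  obtain ⟨c, hc⟩ := add_pow_prime_three_regimes p hp hp2 (1 : A) (t * s)
  have hx' : x = 1 + t * s := by rw [← hxs]; ring
  rw [hx', hc] at hx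
  simp only [one_pow, mul_one] at hx
  -- (t s)^p + p (t s) + p (t s)^2 c = 0
  have hpow : (t * s) ^ p = (p : A) * m * s ^ (p - 1) * (t * s) := by
    rw [← ht]
    conv_lhs => rw [hp1, pow_succ, mul_pow]
  have h2 : (p : A) * ((t * s) * (1 + (m * s ^ (p - 1) + t * s * c))) = 0 := by
    linear_combination hx - hpow
  have h3 := hreg _ h2
  have hunit : IsUnit (1 + (m * s ^ (p - 1) + t * s * c)) := by
    have hmem : m * s ^ (p - 1) + t * s * c ∈ IsLocalRing.maximalIdeal A := by
      refine Ideal.add_mem _ (Ideal.mul_mem_right _ _ hm) ?_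
      exact Ideal.mul_mem_right _ _ (Ideal.mul_mem_right _ _ htm)
    by_contra hnu
    have h1 : (1 : A) + (m * s ^ (p - 1) + t * s * c) ∈ IsLocalRing.maximalIdeal A :=
      (IsLocalRing.mem_maximalIdeal _).2 hnu
    have : (1 : A) ∈ IsLocalRing.maximalIdeal A := by
      have h0 := Ideal.sub_mem _ h1 hmem
      rwa [add_sub_cancel_right] at h0
    exact (IsLocalRing.maximalIdeal.isMaximal A).ne_top ((Ideal.eq_top_iff_one _).2 this)
  have h4 : t * s = 0 := by
    obtain ⟨uu, huu⟩ := hunit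
    have := congrArg (fun z => z * (↑uu⁻¹ : A)) h3
    simp only [zero_mul] at this
    rw [← huu, mul_assoc, Units.mul_inv, mul_one] at this
    exact this
  rw [hx', h4, add_zero]

/-- Leaf E, prime powers. -/
theorem eq_one_of_pow_prime_pow_eq_one_of_close {A : Type*} [CommRing A] [IsLocalRing A] (p : ℕ)
    (hp : p.Prime) (hp2 : p ≠ 2) (hreg : ∀ a : A, (p : A) * a = 0 → a = 0)
    (t m : A) (hm : m ∈ IsLocalRing.maximalIdeal A) (ht : t ^ (p - 1) = (p : A) * m)
    (k : ℕ) (x s : A) (hx : x ^ (p ^ k) = 1) (hxs : x - 1 = t * s) : x = 1 := by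
  induction k generalizing x s with
  | zero => simpa using hx
  | succ k ih =>
    -- x' = x ^ (p ^ k) is a p-th root of unity close to 1
    have hx' : (x ^ (p ^ k)) ^ p = 1 := by rw [← pow_mul, ← pow_succ]; exact hx
    have hdiv : ∃ z : A, x ^ (p ^ k) - 1 = (x - 1) * z := by
      have := sub_dvd_pow_sub_pow x 1 (p ^ k)
      rw [one_pow] at this
      exact this
    obtain ⟨z, hz⟩ := hdiv
    have h1 : x ^ (p ^ k) = 1 :=
      eq_one_of_pow_prime_eq_one_of_close p hp hp2 hreg t m hm ht (x ^ (p ^ k)) (s * z) hx'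
        (by rw [hz, hxs]; ring)
    exact ih x s h1 hxs

end Fermat.Agent.T7.helper75
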