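import Mathlib
import Fermat.Agent.T7.helper75_BinomAS

/-!
# T7 [GAL], constants (helper60): the cyclotomic constant `λ = ζ - 1` at a place over `p`

`A` a valuation subring of `ℚ̄` in which `p` is not a unit, `ζ` a primitive `p`-th root of unity.

* `exists_zeta`            : a primitive `p`-th root of unity of `ℚ̄`.
* `zeta_mem`               : `ζ ∈ A`.
* `exists_aut_pow`         : `σ ζ = ζ ^ a` with `0 < a < p`, for every automorphism `σ`.
* `lam_not_unit`           : `ζ - 1` lies in the maximal ideal of `A`.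
* `aut_lam`                : `σ (ζ - 1) = a (ζ - 1) + (ζ - 1)^2 c` with `c ∈ A`.
* `wilson`                 : `p (1 + (ζ - 1) w) = - (ζ - 1)^(p-1)` with `w ∈ A`.
-/

set_option autoImplicit false

namespace Fermat.Agent.T7.helper60

open Polynomial

local notation "Qb" => AlgebraicClosure ℚ

/-- a primitive `p`-th root of unity in `ℚ̄` -/
theorem exists_zeta (p : ℕ) (hp : p.Prime) : ∃ ζ : Qb, IsPrimitiveRoot ζ p := by
  have : NeZero p := ⟨hp.ne_zero⟩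
  exact HasEnoughRootsOfUnity.exists_primitiveRoot Qb p

/-- a root of unity lies in every valuation subring -/
theorem mem_of_pow_eq_one (A : ValuationSubring Qb) {n : ℕ} (hn : 0 < n) {x : Qb}
    (hx : x ^ n = 1) : x ∈ A := by
  rcases A.mem_or_inv_mem x with h | h
  · exact h
  · obtain ⟨m, rfl⟩ : ∃ m, n = m + 1 := ⟨n - 1, by omega⟩
    have h2 : x ^ m = x⁻¹ := eq_inv_of_mul_eq_one_left (by rw [← pow_succ]; exact hx)
    have h1 : x = x⁻¹ ^ m := by rw [inv_pow, h2, inv_inv]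
    rw [h1]
    exact pow_mem h _

theorem zeta_mem (A : ValuationSubring Qb) {p : ℕ} (hp : p.Prime) {ζ : Qb}
    (hζ : IsPrimitiveRoot ζ p) : ζ ∈ A :=
  mem_of_pow_eq_one A hp.pos hζ.pow_eq_one

/-- every automorphism raises `ζ` to a power `a`, `0 < a < p` -/
theorem exists_aut_pow {p : ℕ} (hp : p.Prime) {ζ : Qb} (hζ : IsPrimitiveRoot ζ p)
    (σ : Qb ≃ₐ[ℚ] Qb) : ∃ a : ℕ, 0 < a ∧ a < p ∧ σ ζ = ζ ^ a := by
  have : NeZero p := ⟨hp.ne_zero⟩
  have h1 : (σ ζ) ^ p = 1 := by rw [← map_pow, hζ.pow_eq_one, map_one]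
  obtain ⟨a, ha, hpow⟩ := hζ.eq_pow_of_pow_eq_one h1
  refine ⟨a, ?_, ha, hpow.symm⟩
  rcases Nat.eq_zero_or_pos a with rfl | h
  · exfalso
    rw [pow_zero] at hpow
    have h2 : σ ζ = σ 1 := by rw [map_one]; exact hpow.symm
    have h3 : ζ = 1 := σ.injective h2
    exact hζ.ne_one hp.one_lt h3
  · exact h

/-- Wilson: `p (1 + (ζ - 1) w) = - (ζ - 1)^(p-1)` with `w ∈ A` -/
theorem wilson (A : ValuationSubring Qb) {p : ℕ} (hp : p.Prime) (hp2 : p ≠ 2) {ζ : Qb}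
    (hζ : IsPrimitiveRoot ζ p) :
    ∃ w ∈ A, (p : Qb) * (1 + (ζ - 1) * w) = - (ζ - 1) ^ (p - 1) := by
  have hmem : ζ ∈ A := zeta_mem A hp hζ
  have hsum : ∑ j ∈ Finset.range p, (⟨ζ, hmem⟩ : A) ^ j = 0 := by
    apply Subtype.ext
    have := hζ.geom_sum_eq_zero hp.one_lt
    push_cast
    simpa using this
  obtain ⟨w, hw⟩ := Fermat.Agent.T7.helper75.exists_prime_mul_eq_neg_pow p hp hp2
    (⟨ζ, hmem⟩ : A) hsum
  refine ⟨(w : Qb), w.2, ?_⟩
  have := congrArg (fun x : A => (x : Qb)) hw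
  simpa using this

/-- `ζ - 1` is not a unit of `A` when `p` is not -/
theorem lam_not_unit (A : ValuationSubring Qb) {p : ℕ} (hp : p.Prime) (hp2 : p ≠ 2) {ζ : Qb}
    (hζ : IsPrimitiveRoot ζ p) (hpA : ∀ u ∈ A, (p : Qb) * u ≠ 1) :
    ∀ u ∈ A, (ζ - 1) * u ≠ 1 := by
  intro u hu h
  obtain ⟨w, hw, hW⟩ := wilson A hp hp2 hζ
  -- `(ζ - 1)^(p-1)` is a unit with inverse `u^(p-1)`, and `1 + (ζ-1) w` is a unit as well
  have hpow : (ζ - 1) ^ (p - 1) * u ^ (p - 1) = 1 := by rw [← mul_pow, h, one_pow]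
  -- `p * (-(1 + (ζ - 1) w) u^(p-1)) = 1`
  have h1 : (p : Qb) * (-(1 + (ζ - 1) * w) * u ^ (p - 1)) = 1 := by
    have : (p : Qb) * (-(1 + (ζ - 1) * w) * u ^ (p - 1))
        = -((p : Qb) * (1 + (ζ - 1) * w)) * u ^ (p - 1) := by ring
    rw [this, hW, neg_neg, hpow]
  refine hpA _ ?_ h1
  have hz : ζ ∈ A := zeta_mem A hp hζ
  exact A.mul_mem _ _ (A.neg_mem _ (A.add_mem _ _ A.one_mem
    (A.mul_mem _ _ (A.sub_mem hz A.one_mem) hw))) (pow_mem hu _)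

/-- the Galois action on `λ = ζ - 1`: `σ λ = a λ + λ² c`, `c ∈ A` -/
theorem aut_lam (A : ValuationSubring Qb) {p : ℕ} (hp : p.Prime) {ζ : Qb}
    (hζ : IsPrimitiveRoot ζ p) (σ : Qb ≃ₐ[ℚ] Qb) {a : ℕ} (ha : σ ζ = ζ ^ a) :
    ∃ c ∈ A, σ (ζ - 1) = (a : Qb) * (ζ - 1) + (ζ - 1) ^ 2 * c := by
  have hmem : ζ ∈ A := zeta_mem A hp hζ
  obtain ⟨c, hc⟩ := Fermat.Agent.T7.helper75.exists_one_add_pow_sub_one
    ((⟨ζ, hmem⟩ : A) - 1) a
  refine ⟨(c : Qb), c.2, ?_⟩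
  have h1 := congrArg (fun x : A => (x : Qb)) hc
  simp only [add_sub_cancel] at h1
  rw [map_sub, map_one, ha]
  simpa using h1

end Fermat.Agent.T7.helper60
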