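import Mathlib
import Fermat.Agent.T7.helper60_Gal
import Fermat.Agent.T7.helper60_GalConst
import Fermat.Agent.T7.helper40_PivotDeepFam

/-!
# T7 [GAL] (helper60): the algebra of the twisted family `Y = σ Z * Z ^ m`

* `lamA`                 : `λ = ζ - 1` as an element of `A`;
* `residue_lamA`         : `λ` lies in the maximal ideal when `A` lies over `p`;
* `decA_lamA`            : `σ λ = λ (a + λ c)` in `A`, when `σ ζ = ζ ^ a`;
* `natCast_eq_lamA_pow`  : `p = λ ^ (p - 1) τ`  (the hypothesis `hl` of the critical form);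
* `lamA_mul_pow`         : `(λ ϖ₁) ^ (p - 1) = p t`, `t` in the maximal ideal when `ϖ₁` is
                           (the hypotheses `hϖ`, `ht` of the deep pivot);
* `twist_sub_ring`       : in any commutative ring, for a ring endomorphism `τ` with
                           `τ Λ = Λ (a + Λ C)`:
                           `τ (U + Λ E) (U + Λ E) ^ m - τ U * U ^ m = Λ E₁`,
                           `ρ E₁ = (a + m) ρ E` for a reduction `ρ` killing `Λ` with
                           `ρ U = ρ (τ U) = 1`, `ρ (τ E) = ρ E`;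
* `twist_sub`            : the same for families: `twist (U + λ • E) - twist U = λ • E₁` and
                           `red E₁ = 0` when `a + m = p`.
-/

set_option autoImplicit false
set_option linter.unusedSectionVars false

noncomputable section

namespace Fermat.Agent.T7.helper60

open HahnSeries ModularCurve
open Fermat.Agent.S18.helper19 Fermat.Agent.P2.helper29 Fermat.Agent.P2.helper93
open Fermat.Agent.P2.helper22 Fermat.Agent.T2.helper74 Fermat.Agent.T7.helper40

variable {A : ValuationSubring Kb} {ι : Type*}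

/-! ### The constant `λ = ζ - 1` -/

/-- `λ = ζ - 1` as an element of `A` -/
def lamA (A : ValuationSubring Kb) {p : ℕ} (hp : p.Prime) {ζ : Kb} (hζ : IsPrimitiveRoot ζ p) :
    A :=
  ⟨ζ - 1, A.sub_mem (zeta_mem A hp hζ) A.one_mem⟩

@[simp] theorem coe_lamA (A : ValuationSubring Kb) {p : ℕ} (hp : p.Prime) {ζ : Kb}
    (hζ : IsPrimitiveRoot ζ p) : ((lamA A hp hζ : A) : Kb) = ζ - 1 := rfl

theorem natCast_mul_ne_one {p : ℕ} (hA : A.LiesOverPrime p) :
    ∀ u ∈ A, (p : Kb) * u ≠ 1 := by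
  intro u hu h
  have h1 : A.valuation (p : Kb) < 1 := (ValuationSubring.mem_nonunits_iff A).mp hA
  have h2 : A.valuation u ≤ 1 := (A.valuation_le_one_iff u).mpr hu
  have h3 : A.valuation ((p : Kb) * u) = 1 := by rw [h, map_one]
  rw [map_mul] at h3
  have h4 : A.valuation (p : Kb) * A.valuation u < 1 := by
    calc A.valuation (p : Kb) * A.valuation u ≤ A.valuation (p : Kb) * 1 :=
          mul_le_mul' le_rfl h2
      _ = A.valuation (p : Kb) := mul_one _
      _ < 1 := h1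
  rw [h3] at h4
  exact lt_irrefl _ h4

/-- `λ` lies in the maximal ideal -/
theorem residue_lamA {p : ℕ} (hp : p.Prime) (hp2 : p ≠ 2) (hA : A.LiesOverPrime p) {ζ : Kb}
    (hζ : IsPrimitiveRoot ζ p) : IsLocalRing.residue A (lamA A hp hζ) = 0 := by
  rw [IsLocalRing.residue_eq_zero_iff]
  intro hu
  obtain ⟨v, hv⟩ := hu.exists_right_inv
  have h1 := congrArg (fun x : A => (x : Kb)) hv
  exact lam_not_unit A hp hp2 hζ (natCast_mul_ne_one hA) (v : Kb) v.2 h1

/-- `σ λ = λ (a + λ c)` -/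
theorem decA_lamA {p : ℕ} (hp : p.Prime) {ζ : Kb} (hζ : IsPrimitiveRoot ζ p)
    (σ : Kb ≃ₐ[ℚ] Kb) (hσ : σ ∈ A.decompositionSubgroup ℚ) {a : ℕ} (ha : σ ζ = ζ ^ a) :
    ∃ c : A, decA σ hσ (lamA A hp hζ) = lamA A hp hζ * ((a : A) + lamA A hp hζ * c) := by
  obtain ⟨c, hc, h⟩ := aut_lam A hp hζ σ ha
  refine ⟨⟨c, hc⟩, Subtype.ext ?_⟩
  rw [coe_decA, coe_lamA, h]
  push_cast
  rw [coe_lamA]
  ring

/-- `p = λ ^ (p - 1) τ` -/
theorem natCast_eq_lamA_pow {p : ℕ} (hp : p.Prime) (hp2 : p ≠ 2) (hA : A.LiesOverPrime p)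
    {ζ : Kb} (hζ : IsPrimitiveRoot ζ p) :
    ∃ τ : A, IsUnit τ ∧ (p : A) = lamA A hp hζ ^ (p - 1) * τ := by
  obtain ⟨w, hw, hW⟩ := wilson A hp hp2 hζ
  have hu : IsUnit (1 + lamA A hp hζ * ⟨w, hw⟩ : A) := by
    by_contra hnu
    have h1 : IsLocalRing.residue A (1 + lamA A hp hζ * ⟨w, hw⟩) = 0 :=
      (IsLocalRing.residue_eq_zero_iff _).mpr hnu
    rw [map_add, map_one, map_mul, residue_lamA hp hp2 hA hζ, zero_mul, add_zero] at h1
    exact one_ne_zero h1
  obtain ⟨v, hv⟩ := hu.exists_right_inv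
  refine ⟨-v, (IsUnit.of_mul_eq_one _ (by rw [mul_comm]; exact hv)).neg, ?_⟩
  have hW' : (p : A) * (1 + lamA A hp hζ * ⟨w, hw⟩) = - lamA A hp hζ ^ (p - 1) := by
    apply Subtype.ext
    push_cast
    rw [coe_lamA]
    exact hW
  calc (p : A) = (p : A) * ((1 + lamA A hp hζ * ⟨w, hw⟩) * v) := by rw [hv, mul_one]
    _ = ((p : A) * (1 + lamA A hp hζ * ⟨w, hw⟩)) * v := by ring
    _ = lamA A hp hζ ^ (p - 1) * -v := by rw [hW']; ring

/-- `(λ ϖ₁) ^ (p - 1) = p t` with `t` in the maximal ideal -/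
theorem lamA_mul_pow {p : ℕ} (hp : p.Prime) (hp2 : p ≠ 2) {ζ : Kb}
    (hζ : IsPrimitiveRoot ζ p) (ϖ₁ : A) (hϖ₁ : IsLocalRing.residue A ϖ₁ = 0) :
    ∃ t : A, IsLocalRing.residue A t = 0 ∧ (lamA A hp hζ * ϖ₁) ^ (p - 1) = (p : A) * t := by
  obtain ⟨w, hw, hW⟩ := wilson A hp hp2 hζ
  have hW' : (p : A) * (1 + lamA A hp hζ * ⟨w, hw⟩) = - lamA A hp hζ ^ (p - 1) := by
    apply Subtype.ext
    push_cast
    rw [coe_lamA]
    exact hW
  refine ⟨-(1 + lamA A hp hζ * ⟨w, hw⟩) * ϖ₁ ^ (p - 1), ?_, ?_⟩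
  · have h1 : p - 1 ≠ 0 := by have := hp.two_le; omega
    rw [map_mul, map_pow, hϖ₁, zero_pow h1, mul_zero]
  · rw [mul_pow]
    linear_combination (ϖ₁ ^ (p - 1)) * hW'

/-! ### The twist identity -/

/-- the twist identity in a commutative ring -/
theorem twist_sub_ring {R S : Type*} [CommRing R] [CommRing S] (ρ : R →+* S) (τ : R →+* R)
    (Λ C U E : R) (a m : ℕ) (hτΛ : τ Λ = Λ * ((a : R) + Λ * C)) :
    ∃ E₁ : R, τ (U + Λ * E) * (U + Λ * E) ^ m - τ U * U ^ m = Λ * E₁ ∧
      (ρ Λ = 0 → ρ U = 1 → ρ (τ U) = 1 → ρ (τ E) = ρ E →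
        ρ E₁ = ((a + m : ℕ) : S) * ρ E) := by
  set F : R := ∑ i ∈ Finset.range m, (U + Λ * E) ^ i * U ^ (m - 1 - i) with hF
  have hgeo : F * (U + Λ * E - U) = (U + Λ * E) ^ m - U ^ m := geom_sum₂_mul _ _ _
  refine ⟨τ U * E * F + ((a : R) + Λ * C) * τ E * (U + Λ * E) ^ m, ?_, ?_⟩
  · rw [map_add, map_mul, hτΛ]
    linear_combination (-(τ U)) * hgeo
  · intro h1 h2 h3 h4
    have hρF : ρ F = (m : S) := by
      rw [hF, map_sum]
      have : ∀ i ∈ Finset.range m, ρ ((U + Λ * E) ^ i * U ^ (m - 1 - i)) = 1 := by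
        intro i _
        rw [map_mul, map_pow, map_pow, map_add, map_mul, h1, zero_mul, add_zero, h2, one_pow,
          one_pow, one_mul]
      rw [Finset.sum_congr rfl this, Finset.sum_const, Finset.card_range, nsmul_eq_mul, mul_one]
    rw [map_add, map_mul, map_mul, map_mul, map_mul, map_add, map_mul, map_pow, map_add,
      map_mul, map_natCast, h1, h2, h3, h4, hρF]
    push_cast
    ring

theorem famMap_famC {R S : Type*} [CommRing R] [CommRing S] (f : R →+* S) (a : R) :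
    famMap f (famC R ι a) = famC S ι (f a) := by
  funext i
  show coeffMap f (HahnSeries.C a) = HahnSeries.C (f a)
  rw [HahnSeries.C_apply, coeffMap_single, HahnSeries.C_apply]

/-- **the twist identity for families**: if `σ λ = λ (a + λ c)`, then
`twist (U + λ • E) - twist U = λ • E₁`, and `red E₁ = (a + m) red E` for `σ` in the inertia
group, `λ` in the maximal ideal and `red U = 1`. -/
theorem twist_sub (σ : Kb ≃ₐ[ℚ] Kb) (hσ' : σ ∈ A.decompositionSubgroup ℚ) (lam c : A)
    (a m : ℕ) (hlam : decA σ hσ' lam = lam * ((a : A) + lam * c))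
    (U E : ι → LaurentSeries A) :
    ∃ E₁ : ι → LaurentSeries A,
      twist σ hσ' m (U + lam • E) - twist σ hσ' m U = lam • E₁ ∧
      (σ ∈ A.inertiaSubgroupIn ℚ → IsLocalRing.residue A lam = 0 →
        famMap (IsLocalRing.residue A) U = 1 →
        famMap (IsLocalRing.residue A) E₁
          = ((a + m : ℕ) : ι → LaurentSeries (kA A)) * famMap (IsLocalRing.residue A) E) := by
  have hτΛ : famHom (decA σ hσ') (famC A ι lam)
      = famC A ι lam * (((a : ℕ) : ι → LaurentSeries A) + famC A ι lam * famC A ι c) := by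
    rw [famHom_apply, famMap_famC, hlam, map_mul, map_add, map_mul, map_natCast]
  obtain ⟨E₁, h1, h2⟩ := twist_sub_ring (famHom (IsLocalRing.residue A))
    (famHom (decA σ hσ')) (famC A ι lam) (famC A ι c) U E a m hτΛ
  refine ⟨E₁, ?_, ?_⟩
  · rw [← famC_mul_eq_smul, ← famC_mul_eq_smul, ← h1]
    rfl
  · intro hσ hl hU
    apply h2
    · rw [famHom_apply, famMap_famC, hl, map_zero]
    · exact hU
    · rw [famHom_apply, famHom_apply, famMap_residue_decA hσ hσ', hU]
    · rw [famHom_apply, famHom_apply, famMap_residue_decA hσ hσ']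
      rfl

/-- the reduction of `E₁` vanishes when `a + m = p` is the residue characteristic -/
theorem twist_sub_red_zero {p : ℕ} (hA : A.LiesOverPrime p)
    (σ : Kb ≃ₐ[ℚ] Kb) (hσ : σ ∈ A.inertiaSubgroupIn ℚ) (hσ' : σ ∈ A.decompositionSubgroup ℚ)
    (lam c : A) (a m : ℕ) (ham : a + m = p)
    (hlam : decA σ hσ' lam = lam * ((a : A) + lam * c))
    (hl : IsLocalRing.residue A lam = 0)
    (U E : ι → LaurentSeries A) (hU : famMap (IsLocalRing.residue A) U = 1) :
    ∃ E₁ : ι → LaurentSeries A,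
      twist σ hσ' m (U + lam • E) - twist σ hσ' m U = lam • E₁ ∧
      famMap (IsLocalRing.residue A) E₁ = 0 := by
  obtain ⟨E₁, h1, h2⟩ := twist_sub σ hσ' lam c a m hlam U E
  refine ⟨E₁, h1, ?_⟩
  rw [h2 hσ hl hU, ham]
  have hp0 : ((p : ℕ) : kA A) = 0 := by
    have h3 : IsLocalRing.residue A ((p : ℕ) : A) = 0 := by
      rw [IsLocalRing.residue_eq_zero_iff]
      intro hu
      obtain ⟨v, hv⟩ := hu.exists_right_inv
      have h4 := congrArg (fun x : A => (x : Kb)) hv
      exact natCast_mul_ne_one hA (v : Kb) v.2 (by simpa using h4)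
    rwa [map_natCast] at h3
  have h5 : ((p : ℕ) : ι → LaurentSeries (kA A)) = 0 := by
    funext i
    show ((p : ℕ) : LaurentSeries (kA A)) = 0
    rw [← map_natCast (HahnSeries.C : kA A →+* LaurentSeries (kA A)), hp0, map_zero]
  rw [h5, zero_mul]

end Fermat.Agent.T7.helper60

end
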