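/-
T7 / S33, [FC-INST] part 2 (helper66), abstract: the ring of pairs is closed under `ℓ`-th roots.

Setting of `T2/helper51_SN`: `B'` a commutative `k`-algebra, `Fr : B' → B'`, `R ⊆ B' × B'` a
`k`-subalgebra containing the two graphs `(f, Fr f)`, `(Fr f, f)`; every `Fr (Fr f)` is an
`ℓ`-th power and `B' ⧸ J` is finite dimensional (`J` the ideal generated by the `Fr (Fr f) - f`).

* `zeroIdeal R h2`          : the ideal `{x | (0, x) ∈ R}` of `B'`.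
* `zero_mem_of_pow`         : `(0, x ^ n) ∈ R` ⟹ `(0, x) ∈ R`.
* `pair_mem_of_pow_mem`     : in characteristic `ℓ`, `Fr` compatible with `ℓ`-th powers:
                              `(x₁ ^ ℓ, x₂ ^ ℓ) ∈ R` ⟹ `(x₁, x₂) ∈ R`.
-/
import Mathlib
import Fermat.Agent.T2.helper51_SN

set_option autoImplicit false
set_option linter.style.haveILetI false

namespace Fermat.Agent.T7.helper66

open Module Fermat.Agent.T2.helper51

noncomputable section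

variable {k B' : Type*} [Field k] [CommRing B'] [Algebra k B']

/-- the ideal `{x | (0, x) ∈ R}` -/
def zeroIdeal (Fr : B' → B') (R : Subalgebra k (B' × B')) (h2 : ∀ f, (Fr f, f) ∈ R) :
    Ideal B' where
  carrier := {x | ((0 : B'), x) ∈ R}
  add_mem' := by
    intro x y hx hy
    have := R.add_mem hx hy
    simpa using this
  zero_mem' := R.zero_mem
  smul_mem' := by
    intro c x hx
    have := R.mul_mem (h2 c) hx
    simpa using this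

theorem mem_zeroIdeal (Fr : B' → B') (R : Subalgebra k (B' × B')) (h2 : ∀ f, (Fr f, f) ∈ R)
    (x : B') : x ∈ zeroIdeal Fr R h2 ↔ ((0 : B'), x) ∈ R := Iff.rfl

theorem frobIdeal_le_zeroIdeal (Fr : B' → B') (R : Subalgebra k (B' × B'))
    (h1 : ∀ f, (f, Fr f) ∈ R) (h2 : ∀ f, (Fr f, f) ∈ R) :
    frobIdeal Fr ≤ zeroIdeal Fr R h2 :=
  fun _ hx => zero_prod_mem Fr R h1 h2 hx

/-- the ideal `{x | (0, x) ∈ R}` is radical -/
theorem isRadical_zeroIdeal (Fr : B' → B') (ℓ : ℕ) (hℓ : 2 ≤ ℓ)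
    (hpow : ∀ f, ∃ h, Fr (Fr f) = h ^ ℓ) [Module.Finite k (B' ⧸ frobIdeal Fr)]
    (R : Subalgebra k (B' × B')) (h1 : ∀ f, (f, Fr f) ∈ R) (h2 : ∀ f, (Fr f, f) ∈ R) :
    (zeroIdeal Fr R h2).IsRadical := by
  have hle := frobIdeal_le_zeroIdeal Fr R h1 h2
  haveI : Module.Finite k (B' ⧸ zeroIdeal Fr R h2) :=
    Module.Finite.of_surjective (Ideal.Quotient.factorₐ k hle).toLinearMap
      (Ideal.Quotient.factor_surjective hle)
  have hArt : IsArtinianRing (B' ⧸ zeroIdeal Fr R h2) := IsArtinianRing.of_finite k _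
  rw [Ideal.isRadical_iff_quotient_reduced]
  refine isReduced_of_forall_exists_pow ℓ hℓ fun a => ?_
  obtain ⟨f, rfl⟩ := Ideal.Quotient.mk_surjective a
  obtain ⟨h, hh⟩ := hpow f
  refine ⟨Ideal.Quotient.mk _ h, ?_⟩
  rw [← map_pow, ← hh, eq_comm, Ideal.Quotient.eq]
  exact hle (sub_mem_frobIdeal Fr f)

/-- `(0, x ^ n) ∈ R` implies `(0, x) ∈ R`. -/
theorem zero_mem_of_pow (Fr : B' → B') (ℓ : ℕ) (hℓ : 2 ≤ ℓ)
    (hpow : ∀ f, ∃ h, Fr (Fr f) = h ^ ℓ) [Module.Finite k (B' ⧸ frobIdeal Fr)]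
    (R : Subalgebra k (B' × B')) (h1 : ∀ f, (f, Fr f) ∈ R) (h2 : ∀ f, (Fr f, f) ∈ R)
    {x : B'} {n : ℕ} (hx : ((0 : B'), x ^ n) ∈ R) : ((0 : B'), x) ∈ R :=
  isRadical_zeroIdeal Fr ℓ hℓ hpow R h1 h2 ⟨n, hx⟩

/-- **the ring of pairs is closed under `ℓ`-th roots** (characteristic `ℓ`). -/
theorem pair_mem_of_pow_mem (ℓ : ℕ) [hℓ : Fact ℓ.Prime] [CharP B' ℓ] (Fr : B' → B')
    (hFr : ∀ x, Fr (x ^ ℓ) = Fr x ^ ℓ)
    (hpow : ∀ f, ∃ h, Fr (Fr f) = h ^ ℓ) (hfin : Module.Finite k (B' ⧸ frobIdeal Fr))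
    (R : Subalgebra k (B' × B')) (h1 : ∀ f, (f, Fr f) ∈ R) (h2 : ∀ f, (Fr f, f) ∈ R)
    {x₁ x₂ : B'} (hx : (x₁ ^ ℓ, x₂ ^ ℓ) ∈ R) : (x₁, x₂) ∈ R := by
  haveI := hfin
  have hd : ((0 : B'), (x₂ - Fr x₁) ^ ℓ) ∈ R := by
    have h3 := R.sub_mem hx (h1 (x₁ ^ ℓ))
    have e : (x₁ ^ ℓ, x₂ ^ ℓ) - (x₁ ^ ℓ, Fr (x₁ ^ ℓ)) = ((0 : B'), (x₂ - Fr x₁) ^ ℓ) := by
      rw [Prod.mk_sub_mk, sub_self, hFr, sub_pow_char]
    rwa [e] at h3
  have h4 := zero_mem_of_pow (k := k) Fr ℓ hℓ.out.two_le hpow R h1 h2 hd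
  have h5 := R.add_mem (h1 x₁) h4
  have e : (x₁, Fr x₁) + ((0 : B'), x₂ - Fr x₁) = (x₁, x₂) := by
    rw [Prod.mk_add_mk, add_zero, add_sub_cancel]
  rwa [e] at h5

end

end Fermat.Agent.T7.helper66
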