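/-
T7 / S33, [FC-INST] part 0 (helper66), Mathlib only.

`exists_sum_pow_mul_pow` : in characteristic `p`, if `k` is perfect and `F / k(y)` is separable
(algebraic), then `F = ∑_{i < p} F^p y^i`: every `z ∈ F` is `∑ a_i ^ p * y ^ i`.
-/
import Mathlib

set_option autoImplicit false
set_option linter.style.haveILetI false

namespace Fermat.Agent.T7.helper66

open IntermediateField Polynomial

noncomputable section

variable {k F : Type*} [Field k] [Field F] [Algebra k F] (p : ℕ) [hp : Fact p.Prime] [CharP F p]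

/-- In characteristic `p`, if `F / k(y)` is separable and `k` is perfect, then
`F = ∑_{i < p} F^p y^i`. -/
theorem exists_sum_pow_mul_pow [PerfectField k] (y : F) [Algebra.IsSeparable k⟮y⟯ F] (z : F) :
    ∃ a : Fin p → F, z = ∑ i, a i ^ p * y ^ (i : ℕ) := by
  classical
  haveI : ExpChar F p := ExpChar.prime hp.out
  haveI : CharP k p := RingHom.charP (algebraMap k F) (algebraMap k F).injective p
  haveI : ExpChar k p := ExpChar.prime hp.out
  haveI : CharP k⟮y⟯ p := RingHom.charP (algebraMap k⟮y⟯ F) (algebraMap k⟮y⟯ F).injective p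
  haveI : ExpChar k⟮y⟯ p := ExpChar.prime hp.out
  set R₀ : Subfield F := (frobenius F p).fieldRange with hR₀
  set L : IntermediateField R₀ F := IntermediateField.adjoin R₀ {y} with hL
  have hpow : ∀ x : F, x ^ p ∈ L := fun x =>
    L.algebraMap_mem (⟨x ^ p, ⟨x, rfl⟩⟩ : R₀)
  have hyL : y ∈ L := mem_adjoin_simple_self R₀ y
  have hkL : ∀ c : k, algebraMap k F c ∈ L := by
    intro c
    obtain ⟨c', hc'⟩ := surjective_frobenius k p c
    have : algebraMap k F c = (algebraMap k F c') ^ p := by
      rw [← hc', frobenius_def, map_pow]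
    rw [this]
    exact hpow _
  have hkyL : ∀ x ∈ k⟮y⟯, x ∈ L := by
    intro x hx
    induction hx using IntermediateField.adjoin_induction with
    | mem x hx =>
      rw [Set.mem_singleton_iff] at hx
      rw [hx]; exact hyL
    | algebraMap c => exact hkL c
    | add x y _ _ hx hy => exact add_mem hx hy
    | inv x _ hx => exact inv_mem hx
    | mul x y _ _ hx hy => exact mul_mem hx hy
  have hz : z ∈ (k⟮y⟯)⟮z ^ p⟯ := by
    rw [← adjoin_simple_eq_adjoin_pow_expChar_of_isSeparable' (k⟮y⟯) F z p]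
    exact mem_adjoin_simple_self _ z
  have hall : ∀ x ∈ (k⟮y⟯)⟮z ^ p⟯, x ∈ L := by
    intro x hx
    induction hx using IntermediateField.adjoin_induction with
    | mem x hx =>
      rw [Set.mem_singleton_iff] at hx
      rw [hx]; exact hpow z
    | algebraMap c => exact hkyL c.1 c.2
    | add x y _ _ hx hy => exact add_mem hx hy
    | inv x _ hx => exact inv_mem hx
    | mul x y _ _ hx hy => exact mul_mem hx hy
  have hzL : z ∈ L := hall z hz
  -- normal form
  have hint : IsIntegral R₀ y := by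
    refine ⟨X ^ p - C (⟨y ^ p, ⟨y, rfl⟩⟩ : R₀), monic_X_pow_sub_C _ hp.out.ne_zero, ?_⟩
    rw [eval₂_sub, eval₂_X_pow, eval₂_C]
    exact sub_self _
  have hdeg : (minpoly R₀ y).natDegree ≤ p := by
    have h1 : minpoly R₀ y ∣ X ^ p - C (⟨y ^ p, ⟨y, rfl⟩⟩ : R₀) := by
      apply minpoly.dvd
      rw [aeval_def, eval₂_sub, eval₂_X_pow, eval₂_C]
      exact sub_self _
    have h2 := natDegree_le_of_dvd h1 (monic_X_pow_sub_C _ hp.out.ne_zero).ne_zero
    rwa [natDegree_X_pow_sub_C] at h2
  obtain ⟨f, hf, hzf⟩ := (IntermediateField.adjoin.powerBasis hint).exists_eq_aeval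
    (⟨z, hzL⟩ : R₀⟮y⟯)
  rw [IntermediateField.adjoin.powerBasis_dim] at hf
  rw [IntermediateField.adjoin.powerBasis_gen] at hzf
  have hzf' : z = aeval y f := by
    have := congrArg (fun w : R₀⟮y⟯ => (w : F)) hzf
    simp only at this
    rw [this]
    rw [← IntermediateField.coe_val, ← aeval_algHom_apply]
    rfl
  have hfp : f.natDegree < p := lt_of_lt_of_le hf hdeg
  have hcoef : ∀ i : ℕ, ∃ a : F, a ^ p = ((f.coeff i : R₀) : F) := by
    intro i
    obtain ⟨a, ha⟩ := (f.coeff i).2
    exact ⟨a, ha⟩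
  choose a ha using hcoef
  refine ⟨fun i => a i, ?_⟩
  rw [hzf', aeval_eq_sum_range' hfp, Fin.sum_univ_eq_sum_range (fun i => a i ^ p * y ^ i) p]
  refine Finset.sum_congr rfl fun i _ => ?_
  rw [ha i, Algebra.smul_def]
  rfl

end

end Fermat.Agent.T7.helper66
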