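/-
T7 / S33, [FC-INST] part 1 (helper66): the special fibre field is `ℓ`-closed in `k((t))`.

`A` over `ℓ`, `ℓ ∤ N`, `E = FFb A N ⊆ k((t))` the special fibre field.

* `mem_FFb_of_pow_mem` : `y ∈ k((t))`, `y ^ ℓ ∈ E` ⟹ `y ∈ E`
  (separability of `E / k(j̄)` gives `E = ∑_{i<ℓ} E^ℓ j̄^i`; Frobenius independence of
  `1, j̄, …, j̄^(ℓ-1)` over `k((t^ℓ))`).
* `inL_of_pow` : `y ^ ℓ ∈ L(n ∞̄)` ⟹ `y ∈ L(max n 0 ∞̄)`.
-/
import Mathlib
import Fermat.Agent.T2.helper96_ValBase
import Fermat.Agent.P2.helper81_ValField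
import Fermat.Agent.P2.helper95_FFlInst
import Fermat.Agent.P2.helper29_Infty
import Fermat.Agent.T7.helper66_PClosedAbs

set_option autoImplicit false
set_option synthInstance.maxHeartbeats 400000
set_option linter.style.haveILetI false
set_option linter.unusedSectionVars false

noncomputable section

open HahnSeries IntermediateField AlgebraicCurve ModularCurve
open Fermat.Agent.S18.helper19 Fermat.Agent.P2.helper29
open Fermat.Agent.T2.helper96

namespace Fermat.Agent.T7.helper66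

variable (N : ℕ) [NeZero N] (A : ValuationSubring Kb) {ℓ : ℕ} [hℓ : Fact ℓ.Prime]
  (hA : A.LiesOverPrime ℓ) (hℓN : ¬ ℓ ∣ N)

include hA hℓN in
/-- **[FC1]** the special fibre field is `ℓ`-closed in `k((t))`. -/
theorem mem_FFb_of_pow_mem {y : LaurentSeries (kA A)} (hy : y ^ ℓ ∈ FFb A N) :
    y ∈ FFb A N := by
  classical
  haveI : NeZero ℓ := ⟨hℓ.out.ne_zero⟩
  haveI : CharP (kA A) ℓ := Fermat.Agent.P2.helper81.charP_residueField A hA
  haveI : IsAlgClosed (kA A) := Fermat.Agent.P2.helper95.isAlgClosed_residueField A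
  haveI : CharP (FFb A N) ℓ :=
    charP_of_injective_algebraMap (algebraMap (kA A) (FFb A N)).injective ℓ
  haveI : Algebra.IsSeparable (kA A)⟮Fermat.Agent.P2.helper81.xBar A N⟯ (FFb A N) :=
    Fermat.Agent.P2.helper81.isSeparable_xBar A hA N hℓN
  obtain ⟨a, ha⟩ := exists_sum_pow_mul_pow (k := kA A) ℓ (Fermat.Agent.P2.helper81.xBar A N)
    (⟨y ^ ℓ, hy⟩ : FFb A N)
  -- cast to Laurent series
  have h1 : y ^ ℓ = ∑ i : Fin ℓ,
      ((a i : FFb A N) : LaurentSeries (kA A)) ^ ℓ * jqModC (kA A) ^ (i : ℕ) := by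
    have h := congrArg (fun w : FFb A N => (w : LaurentSeries (kA A))) ha
    simp only at h
    rw [h]
    rw [← IntermediateField.coe_val, map_sum]
    refine Finset.sum_congr rfl fun i _ => ?_
    rw [map_mul, map_pow, map_pow]
    rfl
  -- the family `b`
  set i₀ : Fin ℓ := ⟨0, hℓ.out.pos⟩ with hi₀
  set b : Fin ℓ → LaurentSeries (kA A) := fun i =>
    frobC (kA A) ℓ ((a i : FFb A N) : LaurentSeries (kA A)) -
      (if i = i₀ then frobC (kA A) ℓ y else 0) with hb
  have hsum : ∑ i : Fin ℓ, qExpand (kA A) ℓ (b i) * jqModC (kA A) ^ (i : ℕ) = 0 := by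
    have e1 : ∀ i : Fin ℓ, qExpand (kA A) ℓ (b i) * jqModC (kA A) ^ (i : ℕ) =
        ((a i : FFb A N) : LaurentSeries (kA A)) ^ ℓ * jqModC (kA A) ^ (i : ℕ) -
          (if i = i₀ then y ^ ℓ else 0) := by
      intro i
      rw [hb]
      simp only
      rw [map_sub, sub_mul, ← pow_char_eq]
      congr 1
      by_cases hi : i = i₀
      · rw [if_pos hi, if_pos hi, ← pow_char_eq, hi, hi₀]
        simp
      · rw [if_neg hi, if_neg hi, map_zero, zero_mul]
    rw [Finset.sum_congr rfl (fun i _ => e1 i), Finset.sum_sub_distrib, ← h1,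
      Finset.sum_ite_eq' Finset.univ i₀ (fun _ => y ^ ℓ), if_pos (Finset.mem_univ _), sub_self]
  have hb0 := frobenius_independence ℓ b hsum i₀
  rw [hb] at hb0
  simp only [if_true] at hb0
  have h2 : ((a i₀ : FFb A N) : LaurentSeries (kA A)) = y :=
    frobC_injective (kA A) ℓ (sub_eq_zero.1 hb0)
  rw [← h2]
  exact (a i₀).2

include hA hℓN in
/-- **[FC2]** an `ℓ`-th root of a function regular off infinity is regular off infinity. -/
theorem inL_of_pow {n : ℤ} {y : LaurentSeries (kA A)} (hy : InL (FFb A N) n (y ^ ℓ)) :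
    InL (FFb A N) (max n 0) y := by
  obtain ⟨hyE', hreg, hco⟩ := hy
  have hyE : y ∈ FFb A N := mem_FFb_of_pow_mem N A hA hℓN hyE'
  refine ⟨hyE, fun P hP => ?_, fun j hj => ?_⟩
  · have h1 := hreg P hP
    have e : (⟨y ^ ℓ, hyE'⟩ : FFb A N) = (⟨y, hyE⟩ : FFb A N) ^ (ℓ : ℤ) := by
      rw [zpow_natCast]
      exact Subtype.ext rfl
    rw [e, Place.ord_zpow] at h1
    have hℓ0 : (0 : ℤ) < ℓ := by exact_mod_cast hℓ.out.pos
    exact nonneg_of_mul_nonneg_right h1 hℓ0
  · rcases eq_or_ne y 0 with rfl | hy0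
    · simp
    apply HahnSeries.coeff_eq_zero_of_lt_order
    have hyℓ : y ^ ℓ ≠ 0 := pow_ne_zero _ hy0
    have h2 := (coeff_eq_zero_iff_le_order hyℓ).1 hco
    rw [HahnSeries.order_pow, nsmul_eq_mul] at h2
    have hℓ1 : (1 : ℤ) ≤ ℓ := by exact_mod_cast hℓ.out.one_le
    have hj' : j < -(max n 0) := hj
    have hmax1 : n ≤ max n 0 := le_max_left _ _
    have hmax2 : (0 : ℤ) ≤ max n 0 := le_max_right _ _
    by_cases ho : 0 ≤ y.order
    · omega
    · push Not at ho
      nlinarith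

end Fermat.Agent.T7.helper66

end
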