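/-
T7 / S33, [FC-INST] (helper66): FROBENIUS CLOSEDNESS at the bad pair.

Setting = T2 at the bad pair with residue characteristic `q`: level `N * q`, `N` good
(`4 ∣ N` or `9 ∣ N`), `q ∤ N`, `A` a valuation subring of `ℚ̄` over `q`,
`W = helper36.atkinLehner N q`.

* `FrobClosedStatement M A W p` : **[FC]** if the `p`-th powers `(y₁ ^ p, y₂ ^ p)` of a pair of
  ARBITRARY series over the residue field are the pair of reductions of a function regular off
  the two cusps with integral pair of expansions, then so is `(y₁, y₂)`.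
* `frobClosed_good` : `FrobClosedStatement (N * q) A (atkinLehner N q hq hqN) q`, unconditional.
* `frobClosed_sat`  : the same with pole order control (with `helper22.Sat2Statement`): for
  `n ≥ N₀`, if moreover the coefficients of `y₁, y₂` vanish below `-n`, the function can be
  taken in `L(n (∞ + ∞₂))` with integral pair.

Proof: `y₁ ^ q, y₂ ^ q ∈ B̃` (RegRed2), hence `y₁, y₂ ∈ B̃` (`helper66_PClosed`); the ring of
pairs `Rt` is closed under `q`-th roots in `B̃ × B̃` (`helper66_FrobSatAbs`, from the two graphs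
of the (SN) instance of T2).
-/
import Mathlib
import Fermat.Agent.T2.helper22_Good
import Fermat.Agent.T2.helper72_SNGood
import Fermat.Agent.T2.helper87_RegRed2U
import Fermat.Agent.T7.helper66_PClosed
import Fermat.Agent.T7.helper66_FrobSatAbs

set_option autoImplicit false
set_option synthInstance.maxHeartbeats 400000
set_option linter.style.haveILetI false
set_option linter.unusedSectionVars false

noncomputable section

open HahnSeries IntermediateField AlgebraicCurve ModularCurve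
open Fermat.Agent.S18.helper19 Fermat.Agent.P2.helper29 Fermat.Agent.P2
open Fermat.Agent.T2.helper36 Fermat.Agent.T2.helper96 Fermat.Agent.T2.helper22
open Fermat.Agent.T2.helper72

namespace Fermat.Agent.T7.helper66

/-- **[FC]** Frobenius closedness of the ring of pairs of reductions: if `(y₁ ^ p, y₂ ^ p)` is the
pair of reductions of a function regular off the two cusps with integral pair of expansions,
then so is `(y₁, y₂)`. -/
def FrobClosedStatement (M : ℕ) [NeZero M] (A : ValuationSubring Kb) (W : FF M ≃ₐ[Kb] FF M)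
    (p : ℕ) : Prop :=
  ∀ y₁ y₂ : LaurentSeries (kA A),
    (∃ (f : FF M) (Y₁ Y₂ : LaurentSeries A), IsReg2 W f ∧ IsRep A W f Y₁ Y₂ ∧
      red A Y₁ = y₁ ^ p ∧ red A Y₂ = y₂ ^ p) →
    ∃ (g : FF M) (Z₁ Z₂ : LaurentSeries A), IsReg2 W g ∧ IsRep A W g Z₁ Z₂ ∧
      red A Z₁ = y₁ ∧ red A Z₂ = y₂

variable (N q : ℕ) [NeZero N] [NeZero q] (hq : q.Prime) (hqN : ¬ q ∣ N)
  (hN : 4 ∣ N ∨ 9 ∣ N) (A : ValuationSubring Kb) (hA : A.LiesOverPrime q)

include hN hA in
/-- **[FC-INST]** Frobenius closedness at the level `N * q`, `N` good, `A` over `q`: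
unconditional. -/
theorem frobClosed_good :
    FrobClosedStatement (N * q) A (atkinLehner N q hq hqN) q := by
  haveI : Fact q.Prime := ⟨hq⟩
  haveI : CharP (kA A) q := helper93.charP_residueField hq hA
  haveI : IsAlgClosed (kA A) := helper95.isAlgClosed_residueField A
  have hWW : ∀ f, atkinLehner N q hq hqN (atkinLehner N q hq hqN f) = f :=
    atkinLehner_atkinLehner N q hq hqN
  have hSurj : SurjRedStatement N A := surjRed_good N A ⟨hN, q, hq, hqN, hA⟩
  have hReg := regAlphaStatement N q hq hqN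
  obtain ⟨g₀, hR⟩ := helper95.riemannBar (N * q) A
  obtain ⟨Pinf, hP⟩ := (inftyStatement (N * q) A).2
  have hfin := finite_quotient_frobIdeal (kA A) q (N * q)
    (helper95.riemannSetting_FFb (N * q) A) hR hP
  haveI : CharP (regAlg (modularFunctionFieldFullC (kA A) (N * q))) q :=
    charP_of_injective_algebraMap
      (algebraMap (kA A) (regAlg (modularFunctionFieldFullC (kA A) (N * q)))).injective q
  have hG1 : ∀ f : Bt A (N * q),
      (f, frReg (kA A) q (N * q) f) ∈ Rt A (atkinLehner N q hq hqN) := by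
    intro f
    obtain ⟨n, hn⟩ := f.2
    obtain ⟨g, Y₁, Y₂, hg, hrep, h1, h2⟩ := exists_rep_graph N q hq hqN A hA hSurj hReg hn
    exact ⟨g, Y₁, Y₂, hg, hrep, h1, h2⟩
  have hG2 : ∀ f : Bt A (N * q),
      (frReg (kA A) q (N * q) f, f) ∈ Rt A (atkinLehner N q hq hqN) := by
    intro f
    obtain ⟨n, hn⟩ := f.2
    obtain ⟨g, Y₁, Y₂, hg, hrep, h1, h2⟩ := exists_rep_graph N q hq hqN A hA hSurj hReg hn
    exact ⟨atkinLehner N q hq hqN g, Y₂, Y₁, hg.map hWW, hrep.swap hWW, h2, h1⟩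
  rintro y₁ y₂ ⟨f, Y₁, Y₂, hf, hrep, e1, e2⟩
  -- `y₁, y₂` are regular off infinity
  obtain ⟨n₁, hn₁⟩ := Fermat.Agent.T2.helper87.regRed2_holds N q hq hqN A hA f Y₁ Y₂ hf hrep
  obtain ⟨n₂, hn₂⟩ := Fermat.Agent.T2.helper87.regRed2_snd N q hq hqN A hA f Y₁ Y₂ hf hrep
  rw [e1, FFb_mul_eq N A hq hA] at hn₁
  rw [e2, FFb_mul_eq N A hq hA] at hn₂
  have hy₁ := inL_of_pow N A hA hqN hn₁
  have hy₂ := inL_of_pow N A hA hqN hn₂
  rw [← FFb_mul_eq N A hq hA] at hy₁ hy₂
  have hmem : (((⟨y₁, ⟨_, hy₁⟩⟩ : Bt A (N * q)) ^ q, (⟨y₂, ⟨_, hy₂⟩⟩ : Bt A (N * q)) ^ q) :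
      Bt A (N * q) × Bt A (N * q)) ∈ Rt A (atkinLehner N q hq hqN) :=
    ⟨f, Y₁, Y₂, hf, hrep, e1, e2⟩
  have hkey := pair_mem_of_pow_mem (k := kA A) q (frReg (kA A) q (N * q))
    (fun x => map_pow (frReg (kA A) q (N * q)) x q)
    (frReg_frReg_eq_pow (kA A) q (N * q)) hfin (Rt A (atkinLehner N q hq hqN)) hG1 hG2 hmem
  obtain ⟨g, Z₁, Z₂, hg, hrepg, h1, h2⟩ := hkey
  exact ⟨g, Z₁, Z₂, hg, hrepg, h1, h2⟩

include hN hA in
/-- **[FC-INST] with pole order control** (Frobenius closedness + `Sat2`): for `n ≥ N₀`, if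
`(y₁ ^ q, y₂ ^ q)` is the pair of reductions of a function regular off the two cusps with integral
pair of expansions and the coefficients of `y₁`, `y₂` vanish below `-n`, then `(y₁, y₂)` is the
pair of reductions of an element of `L(n (∞ + ∞₂))` with integral pair of expansions. -/
theorem frobClosed_sat :
    ∃ N₀ : ℤ, ∀ n : ℤ, N₀ ≤ n → ∀ y₁ y₂ : LaurentSeries (kA A),
      (∀ k : ℤ, k < -n → y₁.coeff k = 0) → (∀ k : ℤ, k < -n → y₂.coeff k = 0) →
      (∃ (f : FF (N * q)) (Y₁ Y₂ : LaurentSeries A), IsReg2 (atkinLehner N q hq hqN) f ∧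
        IsRep A (atkinLehner N q hq hqN) f Y₁ Y₂ ∧ red A Y₁ = y₁ ^ q ∧ red A Y₂ = y₂ ^ q) →
      ∃ (f' : FF (N * q)) (Z₁ Z₂ : LaurentSeries A), IsReg2 (atkinLehner N q hq hqN) f' ∧
        IsRep A (atkinLehner N q hq hqN) f' Z₁ Z₂ ∧
        (∀ k : ℤ, k < -n → Z₁.coeff k = 0) ∧ (∀ k : ℤ, k < -n → Z₂.coeff k = 0) ∧
        red A Z₁ = y₁ ∧ red A Z₂ = y₂ := by
  obtain ⟨N₀, hN₀⟩ := sat2_good N q hq hqN hN A hA
  refine ⟨N₀, fun n hn y₁ y₂ hy₁ hy₂ h => ?_⟩
  obtain ⟨g, Z₁, Z₂, hg, hrep, h1, h2⟩ := frobClosed_good N q hq hqN hN A hA y₁ y₂ h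
  obtain ⟨f', Z₁', Z₂', hf', hrep', hc1, hc2, hr1, hr2⟩ := hN₀ n hn g Z₁ Z₂ hg hrep
    (by rw [h1]; exact hy₁) (by rw [h2]; exact hy₂)
  exact ⟨f', Z₁', Z₂', hf', hrep', hc1, hc2, hr1.trans h1, hr2.trans h2⟩

end Fermat.Agent.T7.helper66

end
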