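import Mathlib
import Fermat.Agent.T7.helper51_NUQ
import Fermat.Agent.T7.helper25_Cnt

/-!
# T7 / S33 (helper72, assembler): the abstract part of the frontier chain

* `nuq_aug_of_subquotient` : if `X` is an equivariant quotient of a stable subgroup `Y` of a finite
  power `J ^ r` and the augmentation subgroup `aug` of `J` (generated by the `σ x - x`) has no
  unramified subquotient (`helper51.NUQ`), then the same holds for the augmentation subgroup of
  `X`;
* `hgeo_of_nuq` : `NUQ` of the augmentation subgroup of `V / 𝔟 V` gives the hypothesis `hgeo` of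
  `helper25.exists_ordinary_line_of_noTrivSubquot` (for the subgroup `V0` = preimage of the
  augmentation subgroup);
* `exists_basis_of_residual` : a basis of `k ⊗ V` lifts to a basis of `V` (local ring), with the
  coordinates compatible with the reduction.
-/

set_option autoImplicit false
set_option linter.unusedSectionVars false
set_option linter.style.longLine false
set_option linter.unusedVariables false

namespace Fermat.Agent.T7.helper72

open Fermat.Agent.T7 Function

section Aug

variable {ι : Type*} {X : Type*} [AddCommGroup X] {act : ι → X →+ X}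

/-- the augmentation subgroup is stable -/
theorem act_mem_aug72 (i : ι) {z : X} (hz : z ∈ helper51.aug act) : act i z ∈ helper51.aug act := by
  have h : act i z = (act i z - z) + z := by abel
  rw [h]
  exact (helper51.aug act).add_mem (helper51.sub_mem_aug i z) hz

/-- **Transfer of NUQ along a subquotient presentation.** -/
theorem nuq_aug_of_subquotient {J : Type*} [AddCommGroup J] (actJ : ι → J →+ J)
    (hJ : helper51.NUQ actJ (helper51.aug actJ))
    (r : ℕ) (Y : AddSubgroup (Fin r → J))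
    (hstab : ∀ i, ∀ y ∈ Y, (fun j => actJ i (y j)) ∈ Y)
    (φ : Y →+ X) (hφ : Surjective φ)
    (hequiv : ∀ (i : ι) (y : Y) (hy : (fun j => actJ i ((y : Fin r → J) j)) ∈ Y),
      φ ⟨_, hy⟩ = act i (φ y)) :
    helper51.NUQ act (helper51.aug act) := by
  classical
  -- the action on `Y`
  let actY : ι → Y →+ Y := fun i =>
    { toFun := fun y => ⟨fun j => actJ i ((y : Fin r → J) j), hstab i _ y.2⟩
      map_zero' := by
        apply Subtype.ext
        funext j
        simp
      map_add' := by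
        intro a b
        apply Subtype.ext
        funext j
        simp }
  have hactY : ∀ i (y : Y) j, ((actY i y : Y) : Fin r → J) j = actJ i ((y : Fin r → J) j) :=
    fun _ _ _ => rfl
  -- NUQ on the power
  have h1 : helper51.NUQ (helper51.piAct actJ (Fin r))
      (AddSubgroup.pi Set.univ fun _ : Fin r => helper51.aug actJ) := hJ.pi
  -- NUQ on `Y`
  have h2 : helper51.NUQ actY
      ((AddSubgroup.pi Set.univ fun _ : Fin r => helper51.aug actJ).comap Y.subtype) :=
    helper51.NUQ.comap_of_injective (act' := helper51.piAct actJ (Fin r)) Y.subtype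
      (fun i y => rfl) Y.subtype_injective h1
  have h3 : helper51.aug actY ≤
      (AddSubgroup.pi Set.univ fun _ : Fin r => helper51.aug actJ).comap Y.subtype := by
    rw [helper51.aug, AddSubgroup.closure_le]
    rintro _ ⟨i, y, rfl⟩
    change Y.subtype (actY i y - y) ∈
      (AddSubgroup.pi Set.univ fun _ : Fin r => helper51.aug actJ)
    rw [AddSubgroup.mem_pi]
    intro j _
    have : Y.subtype (actY i y - y) j = actJ i ((y : Fin r → J) j) - (y : Fin r → J) j := rfl
    rw [this]
    exact helper51.sub_mem_aug i _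
  have h4 : helper51.NUQ actY (helper51.aug actY) := h2.mono h3
  have h5 : helper51.NUQ act ((helper51.aug actY).map φ) :=
    helper51.NUQ.map φ (fun i y => hequiv i y (hstab i _ y.2))
      (fun i z hz => act_mem_aug72 i hz) h4
  refine h5.mono ?_
  rw [helper51.aug, AddSubgroup.closure_le]
  rintro _ ⟨i, x, rfl⟩
  obtain ⟨y, rfl⟩ := hφ x
  refine ⟨actY i y - y, helper51.sub_mem_aug i y, ?_⟩
  rw [map_sub]
  congr 1
  exact hequiv i y (hstab i _ y.2)

end Aug

section Geo

variable {T : Type*} [CommRing T] {V : Type*} [AddCommGroup V] [Module T V]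
  {G : Type*} [Group G]

/-- the action on `V / 𝔟 V` -/
noncomputable def quotAct72 (ρ : G →* Module.End T V) (𝔟 : Ideal T) (σ : G) :
    (V ⧸ (𝔟 • (⊤ : Submodule T V))) →ₗ[T] (V ⧸ (𝔟 • (⊤ : Submodule T V))) :=
  Submodule.mapQ _ _ (ρ σ) (by
    rw [← Submodule.map_le_iff_le_comap, Submodule.map_smul'']
    exact Submodule.smul_mono le_rfl le_top)

theorem quotAct72_mk (ρ : G →* Module.End T V) (𝔟 : Ideal T) (σ : G) (v : V) :
    quotAct72 ρ 𝔟 σ (Submodule.Quotient.mk v) = Submodule.Quotient.mk (ρ σ v) := rfl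

/-- **[G] ⇒ hgeo**: if the augmentation subgroup of `V / 𝔟 V` (for the inertia group) has no
unramified subquotient, its preimage `V0` in `V` satisfies the four conditions of `hgeo`. -/
theorem hgeo_of_nuq (ρ : G →* Module.End T V) (Inert : Subgroup G) (p : ℕ) (𝔟 : Ideal T)
    (h : helper51.NUQ (fun σ : Inert => (quotAct72 ρ 𝔟 (σ : G)).toAddMonoidHom)
      (helper51.aug (fun σ : Inert => (quotAct72 ρ 𝔟 (σ : G)).toAddMonoidHom))) :
    ∃ V0 : AddSubgroup V,
      (𝔟 • (⊤ : Submodule T V)).toAddSubgroup ≤ V0 ∧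
      (∀ σ ∈ Inert, ∀ v ∈ V0, ρ σ v ∈ V0) ∧
      (∀ σ ∈ Inert, ∀ v : V, ρ σ v - v ∈ V0) ∧
      helper25.NoTrivSubquot ρ Inert p 𝔟 V0 := by
  set act : Inert → (V ⧸ (𝔟 • (⊤ : Submodule T V))) →+ (V ⧸ (𝔟 • (⊤ : Submodule T V))) :=
    fun σ => (quotAct72 ρ 𝔟 (σ : G)).toAddMonoidHom with hact
  let mk : V →+ (V ⧸ (𝔟 • (⊤ : Submodule T V))) :=
    (Submodule.mkQ (𝔟 • (⊤ : Submodule T V))).toAddMonoidHom
  have hmk : ∀ (σ : Inert) (v : V), mk (ρ (σ : G) v) = act σ (mk v) := fun _ _ => rfl
  have hker : ∀ v : V, mk v = 0 ↔ v ∈ 𝔟 • (⊤ : Submodule T V) := fun v =>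
    Submodule.Quotient.mk_eq_zero _
  refine ⟨(helper51.aug act).comap mk, ?_, ?_, ?_, ?_⟩
  · intro v hv
    rw [AddSubgroup.mem_comap, (hker v).mpr hv]
    exact (helper51.aug act).zero_mem
  · intro σ hσ v hv
    rw [AddSubgroup.mem_comap] at hv ⊢
    have := act_mem_aug72 (act := act) ⟨σ, hσ⟩ hv
    rwa [← hmk ⟨σ, hσ⟩ v] at this
  · intro σ hσ v
    rw [AddSubgroup.mem_comap, map_sub, hmk ⟨σ, hσ⟩ v]
    exact helper51.sub_mem_aug (act := act) ⟨σ, hσ⟩ (mk v)
  · intro A B hbB hBA hAV hBst hAB _ a ha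
    have h1 : mk a ∈ B.map mk := by
      refine h (B.map mk) ?_ ?_ (mk a) (hAV ha) ?_
      · rintro _ ⟨b, hb, rfl⟩
        exact hAV (hBA hb)
      · rintro σ _ ⟨b, hb, rfl⟩
        exact ⟨ρ (σ : G) b, hBst σ σ.2 b hb, hmk σ b⟩
      · intro σ
        refine ⟨ρ (σ : G) a - a, hAB σ σ.2 a ha, ?_⟩
        rw [map_sub, hmk σ a]
    obtain ⟨b, hb, hba⟩ := h1
    have h2 : a - b ∈ 𝔟 • (⊤ : Submodule T V) := by
      rw [← hker, map_sub, hba, sub_self]
    have h3 : a = (a - b) + b := by abel
    rw [h3]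
    exact B.add_mem (hbB h2) hb

end Geo

section Residual

open scoped TensorProduct

variable {T : Type} [CommRing T] [IsLocalRing T]
  {V : Type} [AddCommGroup V] [Module T V] [Module.Free T V] [Module.Finite T V]

/-- `v ↦ 1 ⊗ v` is onto `k ⊗ V` -/
theorem tmul_one_surjective72 :
    Surjective (fun v : V => (1 : IsLocalRing.ResidueField T) ⊗ₜ[T] v) := by
  intro w
  induction w using TensorProduct.induction_on with
  | zero => exact ⟨0, TensorProduct.tmul_zero _ _⟩
  | tmul c v =>
    obtain ⟨t, rfl⟩ := IsLocalRing.residue_surjective c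
    refine ⟨t • v, ?_⟩
    show (1 : IsLocalRing.ResidueField T) ⊗ₜ[T] (t • v) = (IsLocalRing.residue T t) ⊗ₜ[T] v
    rw [TensorProduct.tmul_smul, TensorProduct.smul_tmul', Algebra.smul_def, mul_one]
    rfl
  | add x y hx hy =>
    obtain ⟨a, ha⟩ := hx
    obtain ⟨b, hb⟩ := hy
    refine ⟨a + b, ?_⟩
    show (1 : IsLocalRing.ResidueField T) ⊗ₜ[T] (a + b) = x + y
    rw [TensorProduct.tmul_add]
    exact congrArg₂ (· + ·) ha hb

/-- a basis of the residual module lifts to a basis -/
theorem exists_basis_of_residual72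
    (bk : Module.Basis (Fin 2) (IsLocalRing.ResidueField T) (IsLocalRing.ResidueField T ⊗[T] V)) :
    ∃ e : Module.Basis (Fin 2) T V, ∀ i, (1 : IsLocalRing.ResidueField T) ⊗ₜ[T] e i = bk i := by
  choose f hf using fun i => tmul_one_surjective72 (T := T) (V := V) (bk i)
  have hcomp : (TensorProduct.mk T (IsLocalRing.ResidueField T) V 1) ∘ f = bk := by
    funext i
    exact hf i
  have hli : LinearIndependent T f := by
    refine Module.IsLocalRing.linearIndependent_of_flat f ?_
    rw [hcomp]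
    exact bk.linearIndependent
  have hsp : Submodule.span T (Set.range f) = ⊤ :=
    IsLocalRing.span_eq_top_of_tmul_eq_basis f bk hf
  refine ⟨Module.Basis.mk hli hsp.ge, fun i => ?_⟩
  rw [Module.Basis.mk_apply]
  exact hf i

/-- coordinates are compatible with the reduction -/
theorem residue_repr72 (e : Module.Basis (Fin 2) T V)
    (bk : Module.Basis (Fin 2) (IsLocalRing.ResidueField T) (IsLocalRing.ResidueField T ⊗[T] V))
    (h : ∀ i, (1 : IsLocalRing.ResidueField T) ⊗ₜ[T] e i = bk i) (x : V) (i : Fin 2) :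
    bk.repr ((1 : IsLocalRing.ResidueField T) ⊗ₜ[T] x) i = IsLocalRing.residue T (e.repr x i) := by
  have hx : (1 : IsLocalRing.ResidueField T) ⊗ₜ[T] x =
      ∑ j, IsLocalRing.residue T (e.repr x j) • bk j := by
    conv_lhs => rw [← e.sum_repr x]
    rw [TensorProduct.tmul_sum]
    refine Finset.sum_congr rfl fun j _ => ?_
    rw [TensorProduct.tmul_smul, TensorProduct.smul_tmul', ← h j, TensorProduct.smul_tmul',
      Algebra.smul_def, mul_one, smul_eq_mul, mul_one]
    rfl
  rw [hx, map_sum, Finsupp.coe_finsetSum, Finset.sum_apply]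
  simp only [map_smul, Module.Basis.repr_self, Finsupp.smul_apply, smul_eq_mul,
    Finsupp.single_apply]
  simp

/-- if the reduction of `x` lies on the line of `bk 0`, the second coordinate of `x` is in the
maximal ideal -/
theorem repr_one_mem_of_tmul_mem72 (e : Module.Basis (Fin 2) T V)
    (bk : Module.Basis (Fin 2) (IsLocalRing.ResidueField T) (IsLocalRing.ResidueField T ⊗[T] V))
    (h : ∀ i, (1 : IsLocalRing.ResidueField T) ⊗ₜ[T] e i = bk i) (x : V)
    (hx : (1 : IsLocalRing.ResidueField T) ⊗ₜ[T] x ∈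
      Submodule.span (IsLocalRing.ResidueField T) {bk 0}) :
    e.repr x 1 ∈ IsLocalRing.maximalIdeal T := by
  obtain ⟨c, hc⟩ := Submodule.mem_span_singleton.mp hx
  have h1 := residue_repr72 e bk h x 1
  rw [← hc, map_smul, Finsupp.smul_apply, Module.Basis.repr_self, Finsupp.single_apply,
    if_neg (by decide), smul_zero] at h1
  exact (IsLocalRing.residue_eq_zero_iff _).mp h1.symm

end Residual

section Fin

/-- `T / p ^ m` is finite for a finite free algebra over a discrete valuation ring with finite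
residue field in which `p ≠ 0` is not a unit. -/
theorem finite_quotient_span_pow72 {𝒪 : Type} [CommRing 𝒪] [IsDomain 𝒪]
    [IsDiscreteValuationRing 𝒪] [Finite (IsLocalRing.ResidueField 𝒪)] [CharZero 𝒪]
    {T : Type} [CommRing T] [Algebra 𝒪 T] [Module.Finite 𝒪 T] [Module.Free 𝒪 T]
    (p : ℕ) (hp0 : p ≠ 0) (m : ℕ) : Finite (T ⧸ Ideal.span {(p : T) ^ m}) := by
  classical
  -- the quotient of `𝒪`
  have hne : ((p : 𝒪) ^ m) ≠ 0 := pow_ne_zero _ (Nat.cast_ne_zero.mpr hp0)
  have hfin𝒪 : Finite (𝒪 ⧸ Ideal.span {(p : 𝒪) ^ m}) := by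
    have hIne : Ideal.span {(p : 𝒪) ^ m} ≠ ⊥ := by
      rw [Ne, Ideal.span_singleton_eq_bot]
      exact hne
    obtain ⟨n, hn⟩ := IsDiscreteValuationRing.ideal_eq_span_pow_irreducible hIne
      (IsDiscreteValuationRing.exists_irreducible 𝒪).choose_spec
    have hmax : IsLocalRing.maximalIdeal 𝒪 =
        Ideal.span {(IsDiscreteValuationRing.exists_irreducible 𝒪).choose} :=
      (IsDiscreteValuationRing.irreducible_iff_uniformizer _).mp
        (IsDiscreteValuationRing.exists_irreducible 𝒪).choose_spec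
    rw [hn, ← Ideal.span_singleton_pow, ← hmax]
    have : Finite (𝒪 ⧸ IsLocalRing.maximalIdeal 𝒪) :=
      (inferInstance : Finite (IsLocalRing.ResidueField 𝒪))
    exact Ideal.finite_quotient_pow (IsNoetherian.noetherian _) n
  let b := Module.Free.chooseBasis 𝒪 T
  let φ : (Module.Free.ChooseBasisIndex 𝒪 T → 𝒪 ⧸ Ideal.span {(p : 𝒪) ^ m}) →
      T ⧸ Ideal.span {(p : T) ^ m} := fun c =>
    Ideal.Quotient.mk _ (∑ i, (Quotient.out (c i) : 𝒪) • b i)
  refine Finite.of_surjective φ ?_
  intro t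
  obtain ⟨t, rfl⟩ := Ideal.Quotient.mk_surjective t
  refine ⟨fun i => Ideal.Quotient.mk _ (b.repr t i), ?_⟩
  show Ideal.Quotient.mk _ _ = Ideal.Quotient.mk _ _
  rw [Ideal.Quotient.eq]
  have ht : (∑ i, (Quotient.out (Ideal.Quotient.mk (Ideal.span {(p : 𝒪) ^ m}) (b.repr t i)) : 𝒪)
        • b i) - t
      = ∑ i, ((Quotient.out (Ideal.Quotient.mk (Ideal.span {(p : 𝒪) ^ m}) (b.repr t i)) : 𝒪)
        - b.repr t i) • b i := by
    have h0 := b.sum_repr t
    calc (∑ i, (Quotient.out (Ideal.Quotient.mk (Ideal.span {(p : 𝒪) ^ m}) (b.repr t i)) : 𝒪)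
          • b i) - t
        = (∑ i, (Quotient.out (Ideal.Quotient.mk (Ideal.span {(p : 𝒪) ^ m}) (b.repr t i)) : 𝒪)
          • b i) - ∑ i, b.repr t i • b i := by rw [h0]
      _ = _ := by
        rw [← Finset.sum_sub_distrib]
        exact Finset.sum_congr rfl fun i _ => (sub_smul _ _ _).symm
  rw [ht]
  refine Ideal.sum_mem _ fun i _ => ?_
  have h1 : (Quotient.out (Ideal.Quotient.mk (Ideal.span {(p : 𝒪) ^ m}) (b.repr t i)) : 𝒪)
      - b.repr t i ∈ Ideal.span {(p : 𝒪) ^ m} := by
    rw [← Ideal.Quotient.eq]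
    exact Quotient.out_eq _
  obtain ⟨a, ha⟩ := Ideal.mem_span_singleton'.mp h1
  rw [← ha, mul_comm, mul_smul]
  have h2 : ((p : 𝒪) ^ m) • (a • b i) = (p : T) ^ m * (a • b i) := by
    rw [Algebra.smul_def, map_pow, map_natCast]
  rw [h2]
  exact Ideal.mul_mem_right _ _ (Ideal.mem_span_singleton_self _)

end Fin

end Fermat.Agent.T7.helper72
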