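import Fermat.Agent.T7.helper72_GAsm
import Fermat.Agent.T7.helper2_T0Sat

/-!
# T7 / S33 (helper72, assembler): the frontier chain, third layer

`S33G1Statement` (**contract (G1), operator form**): for an odd prime `p`, a level `N'` with
`4 ∣ N'`, `p ∤ N'` and a place `A` of `ℚ̄` over `p`: every `s` in the inertia group of `A` acts on
the `p`-new classes of `J₀(N' p)` lying in the kernel of reduction at exponent `p`
(`helper2.IsT0 … p x`) through the cyclotomic character: `s • x = a • x` if `s ζ = ζ ^ a` on the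
`p`-th roots of unity.

* `new_of_g1` : (G1) ⇒ [G-NEW] (`S33NewStatement`), using [T0-SPAN] / [T0-SAT] of helper2 (on
  main, unconditional) and the torsion devissage + scalar lemma of helper51;
* `isOrdinaryAt_of_g1` : (G1) ⇒ the frozen statement S33.
-/

set_option autoImplicit false
set_option linter.unusedSectionVars false
set_option linter.style.longLine false
set_option linter.unusedVariables false
set_option linter.style.haveILetI false

noncomputable section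

namespace Fermat.Agent.T7.helper72

open Fermat.Agent.T7 Fermat.Agent.P3 Function ModularCurve

/-- **Contract (G1)**, operator form: inertia acts through the cyclotomic character on the
`p`-new classes of order `p` in the kernel of reduction. -/
def S33G1Statement : Prop :=
  ∀ (p : ℕ) (hp : p.Prime), p ≠ 2 → ∀ (N' : ℕ) [NeZero N'], 4 ∣ N' → ∀ (hpN : ¬ p ∣ N')
    (A : ValuationSubring (AlgebraicClosure ℚ)), A.LiesOverPrime p →
      haveI : NeZero p := ⟨hp.ne_zero⟩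
      ∀ x : JZero (N' * p), helper2.IsT0 N' p hp hpN A p x → x ∈ helper43.newPart N' p →
        ∀ s ∈ A.inertiaSubgroupIn ℚ, ∀ a : ℕ,
          (∀ z : AlgebraicClosure ℚ, z ^ p = 1 → s z = z ^ a) → s • x = a • x

/-- every automorphism acts on the `p`-th roots of unity by a power -/
theorem exists_pow_on_roots72 (p : ℕ) [NeZero p]
    (s : AlgebraicClosure ℚ ≃ₐ[ℚ] AlgebraicClosure ℚ) :
    ∃ a : ℕ, ∀ z : AlgebraicClosure ℚ, z ^ p = 1 → s z = z ^ a := by
  obtain ⟨ζ, hζ⟩ : ∃ ζ : AlgebraicClosure ℚ, IsPrimitiveRoot ζ p :=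
    HasEnoughRootsOfUnity.exists_primitiveRoot (AlgebraicClosure ℚ) p
  have h1 : (s ζ) ^ p = 1 := by rw [← map_pow, hζ.pow_eq_one, map_one]
  obtain ⟨a, -, ha⟩ := hζ.eq_pow_of_pow_eq_one h1
  refine ⟨a, fun z hz => ?_⟩
  obtain ⟨j, -, rfl⟩ := hζ.eq_pow_of_pow_eq_one hz
  rw [map_pow, ← ha, ← pow_mul, ← pow_mul, mul_comm]

/-- **(G1) ⇒ [G-NEW].** -/
theorem new_of_g1 (hG1 : S33G1Statement) : S33NewStatement := by
  intro p hp hp2 N' _ h4 hpN P hP k
  haveI : NeZero p := ⟨hp.ne_zero⟩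
  set I := P.inertiaSubgroupIn ℚ with hI
  -- the kernel of reduction cut by the new part
  set Z1 : AddSubgroup (JZero (N' * p)) :=
    helper2.t0 N' p hp hpN P (p ^ k) ⊓ helper43.newPart N' p with hZ1
  have hle : helper43.inertSpan (N' * p) I (p ^ k) ⊓ helper43.newPart N' p ≤ Z1 := by
    refine inf_le_inf_right _ ?_
    rw [helper43.inertSpan, AddSubgroup.closure_le]
    rintro y ⟨s, hs, x, hx, rfl⟩
    exact helper2.ram_isT0_bad N' p hp hpN P hP (p ^ k) (pow_ne_zero _ hp.ne_zero) s hs x hx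
  refine helper51.NUQ.mono hle ?_
  -- the scalars
  choose c hc using fun s : I => exists_pow_on_roots72 p (s : AlgebraicClosure ℚ ≃ₐ[ℚ] AlgebraicClosure ℚ)
  -- an element of inertia which squares the roots of unity
  obtain ⟨ζ, hζ⟩ : ∃ ζ : AlgebraicClosure ℚ, IsPrimitiveRoot ζ p :=
    HasEnoughRootsOfUnity.exists_primitiveRoot (AlgebraicClosure ℚ) p
  have h2 : ¬ p ∣ 2 := fun h => hp2 ((Nat.prime_dvd_prime_iff_eq hp Nat.prime_two).mp h)
  obtain ⟨σ₀, hσ₀, hσ₀ζ⟩ := Fermat.Agent.T3.helper84.k0_zeta_trans hp P hP hζ h2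
  have hall : ∀ μ : AlgebraicClosure ℚ, μ ^ p = 1 → σ₀ μ = μ ^ 2 := by
    intro μ hμ
    obtain ⟨i, -, rfl⟩ := hζ.eq_pow_of_pow_eq_one hμ
    rw [map_pow, hσ₀ζ, ← pow_mul, ← pow_mul, mul_comm]
  -- the `p`-torsion of `Z1` lies in `T0` at exponent `p`
  have hT0 : ∀ x ∈ Z1, p • x = 0 → helper2.IsT0 N' p hp hpN P p x := by
    intro x hx hpx
    have hx1 : helper2.IsT0 N' p hp hpN P (p ^ k) x := hx.1
    have hx2 : helper2.IsT0 N' p hp hpN P (p ^ (k + 1)) x :=
      helper2.IsT0.mono (Nat.le_succ k) hx1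
    have h3 := helper2.IsT0.of_torsion hP (j := 1) (k := k + 1) (Nat.le_add_left 1 k) hx2
      (by rw [pow_one]; exact hpx)
    rwa [pow_one] at h3
  -- the action on the `p`-torsion of `Z1` is scalar
  have hscal : ∀ (s : I) (a : ℕ), (∀ z : AlgebraicClosure ℚ, z ^ p = 1 →
      (s : AlgebraicClosure ℚ ≃ₐ[ℚ] AlgebraicClosure ℚ) z = z ^ a) →
      ∀ x ∈ Z1, p • x = 0 → helper43.jAct (N' * p) I s x = (a : ℤ) • x := by
    intro s a ha x hx hpx
    rw [helper43.jAct_apply, natCast_zsmul]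
    exact hG1 p hp hp2 N' h4 hpN P hP x (hT0 x hx hpx) hx.2 s s.2 a ha
  -- the torsion devissage
  have hk : ∀ x ∈ Z1, p ^ k • x = 0 := fun x hx => helper2.IsT0.nsmul_eq_zero hx.1
  -- scalars: `c s` for `s ≠ σ₀`, and `2` for `σ₀`
  classical
  let c' : I → ℤ := fun s => if s = ⟨σ₀, hσ₀⟩ then 2 else (c s : ℤ)
  refine helper51.NUQ.of_tor (helper51.NUQ.of_scalar hp c' ?_ ⟨σ₀, hσ₀⟩ ?_) k hk
  · intro s x hx hpx
    by_cases hs : s = ⟨σ₀, hσ₀⟩
    · have : c' s = ((2 : ℕ) : ℤ) := by simp [c', hs]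
      rw [this]
      refine hscal s 2 ?_ x hx hpx
      rw [hs]
      exact hall
    · have : c' s = (c s : ℤ) := by simp [c', hs]
      rw [this]
      exact hscal s (c s) (hc s) x hx hpx
  · have : c' ⟨σ₀, hσ₀⟩ = 2 := by simp [c']
    rw [this]
    norm_num
    intro h
    have h5 : (p : ℤ) ∣ 1 := h
    have h6 : p ∣ 1 := by exact_mod_cast h5
    exact hp.one_lt.ne' (Nat.dvd_one.mp h6)

variable {p : ℕ} {N : ℕ} [NeZero N] {S : Finset ℕ}
  {𝒪 : Type} [CommRing 𝒪] [IsDomain 𝒪] [IsDiscreteValuationRing 𝒪]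
  [IsAdicComplete (IsLocalRing.maximalIdeal 𝒪) 𝒪]
  {θ : CuspForm.heckeAlgebra N 2 (↑S : Set ℕ) →+* IsLocalRing.ResidueField 𝒪}
  {T : Type} [CommRing T] [IsLocalRing T] [IsNoetherianRing T]
  [IsAdicComplete (IsLocalRing.maximalIdeal T) T] [Algebra 𝒪 T] [IsLocalHom (algebraMap 𝒪 T)]
  [Module.Finite 𝒪 T] [Module.Free 𝒪 T]

/-- **S33 from the contract (G1).** -/
theorem isOrdinaryAt_of_g1 (hG1 : S33G1Statement)
    [Finite (IsLocalRing.ResidueField 𝒪)] [CharZero 𝒪]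
    (hp : p.Prime) (hp2 : p ≠ 2) (hp𝒪 : (p : 𝒪) ∈ IsLocalRing.maximalIdeal 𝒪)
    (hN : p ∣ N ∧ ¬ p ^ 2 ∣ N)
    (hNS : ∀ q : ℕ, q.Prime → q ∣ N → q ∈ S)
    (H : CuspForm.HeckeGaloisRepDatum N (↑S : Set ℕ) 𝒪 θ T)
    (hres : (GaloisRepAdic.ofResidualGaloisRep H.ρ.residual).IsOrdinaryAt p) :
    H.ρ.IsOrdinaryAt p :=
  isOrdinaryAt_of_new (new_of_g1 hG1) hp hp2 hp𝒪 hN hNS H hres

end Fermat.Agent.T7.helper72

end
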