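import Fermat.Agent.T7.helper72_Frontier
import Fermat.Agent.T7.helper43_GExt
import Fermat.Agent.T7.helper78_OldInst

/-!
# T7 / S33 (helper72, assembler): the frontier chain, second layer [G-ASM]

`S33NewStatement` (**contract [G-NEW]**): for an odd prime `p`, a level `N'` with `4 ∣ N'`,
`p ∤ N'`, a place `P` of `ℚ̄` over `p` and every `k`: the intersection of the inertia span of
`J₀(N' p)[p ^ k]` with the `p`-new part `ker α_* ⊓ ker β_*` (`helper43.newPart`) has no
unramified subquotient.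

* `geom_of_new` : [G-NEW] ⇒ [G] (`S33GeomStatement`), by the extension step `helper43` [G-EXT]
  and the old level `helper78` [G-OLD] (S19 + FT-NUQ, on main, unconditional);
* `isOrdinaryAt_of_new` : [G-NEW] ⇒ the frozen statement S33.
-/

set_option autoImplicit false
set_option linter.unusedSectionVars false
set_option linter.style.longLine false
set_option linter.unusedVariables false
set_option linter.style.haveILetI false

noncomputable section

namespace Fermat.Agent.T7.helper72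

open Fermat.Agent.T7 Fermat.Agent.P3 Function ModularCurve

/-- **Contract [G-NEW]**: the `p`-new part of the inertia span of `J₀(N' p)[p ^ k]` has no
unramified subquotient. -/
def S33NewStatement : Prop :=
  ∀ (p : ℕ) (hp : p.Prime), p ≠ 2 → ∀ (N' : ℕ) [NeZero N'], 4 ∣ N' → ¬ p ∣ N' →
    ∀ (P : ValuationSubring (AlgebraicClosure ℚ)), P.LiesOverPrime p → ∀ k : ℕ,
      haveI : NeZero p := ⟨hp.ne_zero⟩
      helper51.NUQ (helper43.jAct (N' * p) (P.inertiaSubgroupIn ℚ))
        (helper43.inertSpan (N' * p) (P.inertiaSubgroupIn ℚ) (p ^ k) ⊓ helper43.newPart N' p)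

/-- dictionary: NUQ of the inertia span inside `J₀(M)` gives the contract shape on the torsion
subgroup -/
theorem nuq_inertiaAct_of_jAct (M : ℕ) [NeZero M] (p k : ℕ)
    (P : ValuationSubring (AlgebraicClosure ℚ))
    (h : helper51.NUQ (helper43.jAct M (P.inertiaSubgroupIn ℚ))
      (helper43.inertSpan M (P.inertiaSubgroupIn ℚ) (p ^ k))) :
    helper51.NUQ (inertiaAct72 M p k P) (helper51.aug (inertiaAct72 M p k P)) := by
  let ι : ↥(Submodule.torsionBy ℤ (JZero M) ((p : ℤ) ^ k)) →+ JZero M :=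
    (Submodule.torsionBy ℤ (JZero M) ((p : ℤ) ^ k)).subtype.toAddMonoidHom
  have hι : Injective ι := Subtype.val_injective
  have h1 : helper51.NUQ (inertiaAct72 M p k P)
      ((helper43.inertSpan M (P.inertiaSubgroupIn ℚ) (p ^ k)).comap ι) :=
    helper51.NUQ.comap_of_injective (act' := helper43.jAct M (P.inertiaSubgroupIn ℚ)) ι
      (fun i x => rfl) hι h
  refine h1.mono ?_
  rw [helper51.aug, AddSubgroup.closure_le]
  rintro _ ⟨s, x, rfl⟩
  show ι (inertiaAct72 M p k P s x - x) ∈ helper43.inertSpan M (P.inertiaSubgroupIn ℚ) (p ^ k)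
  rw [map_sub]
  have hx : (p ^ k) • (x : JZero M) = 0 := by
    have h2 : ((p : ℤ) ^ k) • (x : JZero M) = 0 := (Submodule.mem_torsionBy_iff _ _).mp x.2
    generalize (x : JZero M) = y at h2 ⊢
    have e : ((p : ℤ) ^ k) = ((p ^ k : ℕ) : ℤ) := by push_cast; rfl
    rw [e, natCast_zsmul] at h2
    exact h2
  exact helper43.sub_mem_inertSpan M s.2 hx

/-- **[G-ASM]**: [G-NEW] ⇒ [G]. -/
theorem geom_of_new (hnew : S33NewStatement) : S33GeomStatement := by
  intro p hp hp2 M _ h4 hpM hp2M P hP k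
  obtain ⟨N', rfl⟩ : ∃ N', M = N' * p := ⟨M / p, (Nat.div_mul_cancel hpM).symm⟩
  haveI : Fact p.Prime := ⟨hp⟩
  haveI : NeZero p := ⟨hp.ne_zero⟩
  haveI : NeZero N' := ⟨fun h => by
    have := NeZero.ne (N' * p)
    rw [h, Nat.zero_mul] at this
    exact this rfl⟩
  have hpN' : ¬ p ∣ N' := by
    intro h
    apply hp2M
    rw [pow_two]
    exact Nat.mul_dvd_mul h dvd_rfl
  have h4N' : 4 ∣ N' := by
    have hodd : Nat.Coprime 4 p := by
      have h2 : Nat.Coprime 2 p := (Nat.coprime_primes Nat.prime_two hp).mpr (Ne.symm hp2)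
      have : Nat.Coprime (2 ^ 2) p := Nat.Coprime.pow_left 2 h2
      simpa using this
    exact hodd.dvd_of_dvd_mul_right h4
  have hold : helper51.NUQ (helper43.jAct N' (P.inertiaSubgroupIn ℚ))
      (helper43.inertSpan N' (P.inertiaSubgroupIn ℚ) (p ^ k)) :=
    (helper43.nuq_jAct_iff N' (P.inertiaSubgroupIn ℚ) _).mpr
      (fun A B hAB hB hI => helper78.nuq_span_old N' p hp2 hpN' k P hP A B hAB hB hI)
  have h1 := helper43.nuq_inertSpan_of_old_new N' p (P.inertiaSubgroupIn ℚ) (p ^ k) hold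
    (hnew p hp hp2 N' h4N' hpN' P hP k)
  exact nuq_inertiaAct_of_jAct (N' * p) p k P h1

variable {p : ℕ} {N : ℕ} [NeZero N] {S : Finset ℕ}
  {𝒪 : Type} [CommRing 𝒪] [IsDomain 𝒪] [IsDiscreteValuationRing 𝒪]
  [IsAdicComplete (IsLocalRing.maximalIdeal 𝒪) 𝒪]
  {θ : CuspForm.heckeAlgebra N 2 (↑S : Set ℕ) →+* IsLocalRing.ResidueField 𝒪}
  {T : Type} [CommRing T] [IsLocalRing T] [IsNoetherianRing T]
  [IsAdicComplete (IsLocalRing.maximalIdeal T) T] [Algebra 𝒪 T] [IsLocalHom (algebraMap 𝒪 T)]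
  [Module.Finite 𝒪 T] [Module.Free 𝒪 T]

/-- **S33 from the contract [G-NEW].** -/
theorem isOrdinaryAt_of_new (hnew : S33NewStatement)
    [Finite (IsLocalRing.ResidueField 𝒪)] [CharZero 𝒪]
    (hp : p.Prime) (hp2 : p ≠ 2) (hp𝒪 : (p : 𝒪) ∈ IsLocalRing.maximalIdeal 𝒪)
    (hN : p ∣ N ∧ ¬ p ^ 2 ∣ N)
    (hNS : ∀ q : ℕ, q.Prime → q ∣ N → q ∈ S)
    (H : CuspForm.HeckeGaloisRepDatum N (↑S : Set ℕ) 𝒪 θ T)
    (hres : (GaloisRepAdic.ofResidualGaloisRep H.ρ.residual).IsOrdinaryAt p) :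
    H.ρ.IsOrdinaryAt p :=
  isOrdinaryAt_of_geom (geom_of_new hnew) hp hp2 hp𝒪 hN hNS H hres

end Fermat.Agent.T7.helper72

end
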