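import Mathlib
import Fermat.Agent.T7.helper88_B4InstBad
import Fermat.Agent.T7.helper22_AttNF
import Fermat.Agent.T7.helper96_Twist
import Fermat.Agent.T7.helper27_G1Asm
import Fermat.Agent.T7.helper84_PPow
import Fermat.Agent.T2.helper22_PairIdeal

/-!
# T7 (S33), leaves [GAL] + [B4-ASM], twin (helper73): `B4Statement` at the bad pair

`b4Statement_bad` : `helper27.B4Statement (N * p) (atkinLehner N p) A p`, unconditional
(`4 ∣ N ∨ 9 ∣ N`, `p ∤ N`, `A` a valuation subring of `ℚ̄` over `p`).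

Assembly (componentwise, no family spaces):
* `helper22.contentAttained_sub_of_roots`  : attained content of `(Z₁, Z₂) - (u, W u)`;
* `helper88.exists_close_bad`  (L1)        : `Z_i = U_i + l E_i`, `l = ζ_p - 1`;
* `twist_component`                        : the monoid trick for one series,
  `σ(Z) Z ^ (p - a) - σ(U) U ^ (p - a) = l E'` with `red E' = p red E = 0`
  (`helper96.twist_decomp` / `twist_red`, `σ l = l (a + l e)`, `σ` trivial on the residue field);
* `helper88.pivot_crit_bad`  (L2')         : the pair `σ(Z_i) Z_i ^ (p - a)` is the pair of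
  expansions of a function `v` with `v ^ p = σ(K) K ^ (p - a)`.
-/

set_option autoImplicit false
set_option synthInstance.maxHeartbeats 400000
set_option linter.unusedSectionVars false
set_option linter.unusedVariables false
set_option linter.style.haveILetI false

noncomputable section

open HahnSeries IntermediateField AlgebraicCurve ModularCurve
open Fermat.Agent.S18.helper19 Fermat.Agent.P2.helper29 Fermat.Agent.P2.helper93
open Fermat.Agent.P2.helper22 Fermat.Agent.P2.helper74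
open Fermat.Agent.T2 Fermat.Agent.T2.helper74 Fermat.Agent.T2.helper36

namespace Fermat.Agent.T7.helper73

/-- a root of unity of the ambient field lies in every valuation subring -/
theorem mem_valSub_of_pow_eq_one {L : Type*} [Field L] (A : ValuationSubring L) {n : ℕ}
    (hn : 0 < n) {z : L} (hz : z ^ n = 1) : z ∈ A := by
  rcases A.mem_or_inv_mem z with h | h
  · exact h
  · have hz0 : z ≠ 0 := by
      rintro rfl
      rw [zero_pow hn.ne'] at hz
      exact zero_ne_one hz
    have e : z = (z⁻¹) ^ (n - 1) := by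
      have h1 : z ^ n = z ^ (n - 1) * z := by
        rw [← pow_succ]
        congr 1
        omega
      have h2 : (z⁻¹) ^ (n - 1) * z ^ (n - 1) = 1 := by
        rw [← mul_pow, inv_mul_cancel₀ hz0, one_pow]
      calc z = (z⁻¹) ^ (n - 1) * z ^ (n - 1) * z := by rw [h2, one_mul]
        _ = (z⁻¹) ^ (n - 1) * (z ^ (n - 1) * z) := by ring
        _ = (z⁻¹) ^ (n - 1) := by rw [← h1, hz, mul_one]
    rw [e]
    exact pow_mem h _

section Component

variable {A : ValuationSubring Kb}

theorem actA_smul_eq {σ : Kb ≃ₐ[ℚ] Kb} (hσd : σ ∈ A.decompositionSubgroup ℚ) (l : A)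
    (E : LaurentSeries A) : actA σ hσd (l • E) = decA σ hσd l • actA σ hσd E := by
  refine HahnSeries.ext (funext fun j => ?_)
  show (coeffMap (decA σ hσd) (l • E)).coeff j = (decA σ hσd l • coeffMap (decA σ hσd) E).coeff j
  rw [coeffMap_coeff, HahnSeries.coeff_smul, HahnSeries.coeff_smul, coeffMap_coeff, smul_eq_mul,
    smul_eq_mul, map_mul]

theorem red_C_eq_zero {l : A} (hl : IsLocalRing.residue A l = 0) :
    red A (HahnSeries.C l : LaurentSeries A) = 0 := by
  refine HahnSeries.ext (funext fun j => ?_)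
  show (coeffMap (IsLocalRing.residue A) (HahnSeries.C l : LaurentSeries A)).coeff j = 0
  rw [coeffMap_coeff, HahnSeries.C_apply, HahnSeries.coeff_single]
  split_ifs
  · exact hl
  · exact map_zero _

/-- **the monoid trick for one series** -/
theorem twist_component {σ : Kb ≃ₐ[ℚ] Kb} (hσ : σ ∈ A.inertiaSubgroupIn ℚ)
    (hσd : σ ∈ A.decompositionSubgroup ℚ) {p a : ℕ} (hap : a ≤ p)
    (hpk : ((p : ℕ) : kA A) = 0)
    (l e : A) (hπl : IsLocalRing.residue A l = 0)
    (hsl : decA σ hσd l = l * ((a : A) + l * e))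
    (Z U E : LaurentSeries A) (hZU : Z - U = l • E) (hU : red A U = 1) :
    ∃ E' : LaurentSeries A,
      actA σ hσd Z * Z ^ (p - a) - actA σ hσd U * U ^ (p - a) = l • E' ∧ red A E' = 0 := by
  have hZ' : Z = U + HahnSeries.C l * E := by
    rw [HahnSeries.C_mul_eq_smul, ← hZU]
    abel
  have hZs' : actA σ hσd Z = actA σ hσd U
      + HahnSeries.C l * (((a : ℕ) : LaurentSeries A) + HahnSeries.C l * HahnSeries.C e)
        * actA σ hσd E := by
    have h1 := congrArg (actA σ hσd) hZU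
    rw [map_sub, actA_smul_eq, hsl] at h1
    have h2 : (HahnSeries.C l : LaurentSeries A)
        * (((a : ℕ) : LaurentSeries A) + HahnSeries.C l * HahnSeries.C e)
        = HahnSeries.C (l * ((a : A) + l * e)) := by
      rw [map_mul, map_add, map_mul, map_natCast]
    rw [h2, HahnSeries.C_mul_eq_smul, ← h1]
    abel
  have hdec := Fermat.Agent.T7.helper96.twist_decomp (HahnSeries.C l : LaurentSeries A)
    (HahnSeries.C e) a (p - a) Z U E (actA σ hσd Z) (actA σ hσd U) (actA σ hσd E) hZ' hZs'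
  refine ⟨Fermat.Agent.T7.helper96.twistE (HahnSeries.C l : LaurentSeries A)
    (HahnSeries.C e) a (p - a) Z U E (actA σ hσd U) (actA σ hσd E), ?_, ?_⟩
  · rw [hdec, HahnSeries.C_mul_eq_smul]
  · have h1 := Fermat.Agent.T7.helper96.twist_red (red A) (HahnSeries.C l : LaurentSeries A)
      (HahnSeries.C e) a (p - a) Z U E (actA σ hσd U) (actA σ hσd E) hZ' (red_C_eq_zero hπl) hU
      (by rw [Fermat.Agent.T2.helper20.red_actA_of_mem_inertia hσ hσd, hU])
      (Fermat.Agent.T2.helper20.red_actA_of_mem_inertia hσ hσd E)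
    have hma : p - a + a = p := by omega
    have hpS : ((p : ℕ) : LaurentSeries (kA A)) = 0 := by
      have h2 : (HahnSeries.C ((p : ℕ) : kA A) : LaurentSeries (kA A))
          = ((p : ℕ) : LaurentSeries (kA A)) := map_natCast _ p
      rw [← h2, hpk, map_zero]
    rw [hma, hpS, zero_mul] at h1
    exact h1

end Component

section Reg

variable {M : ℕ} [NeZero M] {W : FF M ≃ₐ[Kb] FF M}

theorem regOff2_galF
    (hWgal : ∀ (σ : Kb ≃ₐ[ℚ] Kb) (x : FF M), W (galF M σ x) = galF M σ (W x))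
    (σ : Kb ≃ₐ[ℚ] Kb) {f : FF M} (hf : RegOff2 W f) : RegOff2 W (galF M σ f) := by
  intro P hP hP2
  rw [Fermat.Agent.T2.helper22.ord_galF]
  exact hf _ (fun h' => hP (Fermat.Agent.T2.helper22.isInfty_of_gal σ h'))
    (fun h' => hP2 (Fermat.Agent.T2.helper22.isInfty2_of_gal hWgal σ h'))

theorem regOff2_pow {f : FF M} (hf : RegOff2 W f) (m : ℕ) : RegOff2 W (f ^ m) :=
  regOff2_of_isReg2 (Fermat.Agent.T2.helper22.IsReg2.pow (isReg2_of_regOff2 hf) m)

end Reg

section Bad

variable (N p : ℕ) [NeZero N] [NeZero p] (hp : p.Prime) (hpN : ¬ p ∣ N)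

/-- **[B4]** at the bad pair, unconditional. -/
theorem b4Statement_bad (hN : 4 ∣ N ∨ 9 ∣ N) (A : ValuationSubring Kb)
    (hA : A.LiesOverPrime p) :
    Fermat.Agent.T7.helper27.B4Statement (N * p) (atkinLehner N p hp hpN) A p := by
  classical
  intro K hK σ hσ a ha0 hap hza
  obtain ⟨hA0, hdiv, Z₁, Z₂, h1, h2, hr1, hr2⟩ := hK
  have hWW : ∀ f, atkinLehner N p hp hpN (atkinLehner N p hp hpN f) = f :=
    atkinLehner_atkinLehner N p hp hpN
  have hWgal : ∀ (σ : Kb ≃ₐ[ℚ] Kb) (x : FF (N * p)),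
      atkinLehner N p hp hpN (galF (N * p) σ x) = galF (N * p) σ (atkinLehner N p hp hpN x) :=
    fun σ x => atkinLehner_arithmeticRingAut N p hp hpN σ x
  haveI : Fact p.Prime := ⟨hp⟩
  haveI hchar : CharP (kA A) p := charP_residueField hp hA
  have hpk : ((p : ℕ) : kA A) = 0 := CharP.cast_eq_zero (kA A) p
  obtain ⟨hσd, -⟩ := decK_eq_id_of_mem_inertia hσ
  -- the root of unity
  obtain ⟨ζ, hζ⟩ := HasEnoughRootsOfUnity.exists_primitiveRoot Kb p
  have hζA : ζ ∈ A := mem_valSub_of_pow_eq_one A hp.pos hζ.pow_eq_one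
  obtain ⟨z, hz⟩ : ∃ z : A, (z : Kb) = ζ := ⟨⟨ζ, hζA⟩, rfl⟩
  have hzp : z ^ p = 1 := by
    apply Subtype.ext
    rw [SubmonoidClass.coe_pow, hz, hζ.pow_eq_one]
    rfl
  have hzsum : ∑ i ∈ Finset.range p, z ^ i = 0 := by
    have h0 : A.subtype (∑ i ∈ Finset.range p, z ^ i) = 0 := by
      rw [map_sum]
      simp only [map_pow]
      have : A.subtype z = ζ := hz
      rw [this]
      exact hζ.geom_sum_eq_zero hp.one_lt
    exact Subtype.ext h0
  have hπz : IsLocalRing.residue A z = 1 := by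
    have h : (IsLocalRing.residue A z - 1) ^ p = 0 := by
      rw [sub_pow_char, one_pow, ← map_pow, hzp, map_one, sub_self]
    exact sub_eq_zero.mp ((pow_eq_zero_iff hp.ne_zero).mp h)
  obtain ⟨l, hl⟩ : ∃ l : A, l = z - 1 := ⟨_, rfl⟩
  have hπl : IsLocalRing.residue A l = 0 := by rw [hl, map_sub, hπz, map_one, sub_self]
  obtain ⟨m, hm⟩ := Fermat.Agent.T7.helper84.ppow_lambda_rel hp hzsum
  rw [← hl] at hm
  have hu : IsUnit (1 + l * m) := Fermat.Agent.P2.helper96.isUnit_of_residue_ne_zero _ (by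
    rw [map_add, map_mul, hπl, zero_mul, add_zero, map_one]
    exact one_ne_zero)
  obtain ⟨u, hu'⟩ := hu
  have huinv : (1 + l * m) * ((u⁻¹ : Aˣ) : A) = 1 := by
    rw [← hu', ← Units.val_mul, mul_inv_cancel, Units.val_one]
  have hl1 : ((p : ℕ) : A) = l ^ (p - 1) * (-((u⁻¹ : Aˣ) : A)) := by
    calc ((p : ℕ) : A) = ((p : ℕ) : A) * ((1 + l * m) * ((u⁻¹ : Aˣ) : A)) := by
          rw [huinv, mul_one]
      _ = (((p : ℕ) : A) * (1 + l * m)) * ((u⁻¹ : Aˣ) : A) := by ring
      _ = l ^ (p - 1) * (-((u⁻¹ : Aˣ) : A)) := by rw [hm]; ring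
  have hl2 : l ^ (p - 1) = ((p : ℕ) : A) * (-(1 + l * m)) := by
    linear_combination hm
  -- the action of `σ` on `l`
  have hsz : decA σ hσd z = z ^ a := by
    apply Subtype.ext
    rw [SubmonoidClass.coe_pow, hz]
    have h3 : ((decA σ hσd z : A) : Kb) = σ (z : Kb) := rfl
    rw [h3, hz]
    exact hza ζ hζ.pow_eq_one
  obtain ⟨e, he⟩ := Fermat.Agent.T7.helper84.ppow_sigma_lambda z a
  rw [← hl] at he
  have hsl : decA σ hσd l = l * ((a : A) + l * e) := by
    rw [hl, map_sub, map_one, hsz, ← hl]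
    linear_combination he
  -- (L1)
  have hKreg : RegOff2 (atkinLehner N p hp hpN) K := hA0.1
  have hπ : ∀ x : A, IsLocalRing.residue A x ≠ 0 → IsUnit x := fun x hx =>
    Fermat.Agent.P2.helper96.isUnit_of_residue_ne_zero x hx
  have hatt : ∀ u : FF (N * p), RegOff2 (atkinLehner N p hp hpN) u →
      famMap A.subtype ![Z₁, Z₂] - pairLin (atkinLehner N p hp hpN) u ≠ 0 →
      ContentAttainedFam A (IsLocalRing.residue A)
        (famMap A.subtype ![Z₁, Z₂] - pairLin (atkinLehner N p hp hpN) u) := by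
    intro u hu hne
    refine Fermat.Agent.T7.helper22.contentAttained_sub_of_roots (N * p) A
      (IsLocalRing.residue A) hπ hp.pos ![Z₁, Z₂] ?_ (pairLin (atkinLehner N p hp hpN) u) ?_ ?_ hne
    · intro i
      fin_cases i
      · show incl A Z₁ ^ p ∈ FF (N * p)
        rw [h1]
        exact K.2
      · show incl A Z₂ ^ p ∈ FF (N * p)
        rw [h2]
        exact (atkinLehner N p hp hpN K).2
    · intro i
      fin_cases i
      · exact u.2
      · exact (atkinLehner N p hp hpN u).2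
    · intro hu0
      have hune : u ≠ 0 := by
        rintro rfl
        exact hu0 (map_zero _)
      exact contentAttained_pair hWW (pairNorm_bad N p hp hpN A hA)
        (Fermat.Agent.T2.helper45.integrality2Statement N p hp hpN A) u hune hu
  obtain ⟨U, U₁, U₂, E₁, E₂, hUreg, hUrep, hU1, hU2, hZU1, hZU2⟩ :=
    Fermat.Agent.T7.helper88.exists_close_bad N p hp hpN hN A hA l _ hl1 K hKreg Z₁ Z₂ h1 h2
      hr1 hr2 hatt
  -- the twist
  obtain ⟨E₁', hE₁', hE₁r⟩ := twist_component hσ hσd hap.le hpk l e hπl hsl Z₁ U₁ E₁ hZU1 hU1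
  obtain ⟨E₂', hE₂', hE₂r⟩ := twist_component hσ hσd hap.le hpk l e hπl hsl Z₂ U₂ E₂ hZU2 hU2
  -- the data of (L2')
  have hHreg : RegOff2 (atkinLehner N p hp hpN) (galF (N * p) σ K * K ^ (p - a)) :=
    RegOff2.mul _ (regOff2_galF hWgal σ hKreg) (regOff2_pow hKreg _)
  have hvreg : RegOff2 (atkinLehner N p hp hpN) (galF (N * p) σ U * U ^ (p - a)) :=
    RegOff2.mul _ (regOff2_galF hWgal σ hUreg) (regOff2_pow hUreg _)
  have hVrep : Fermat.Agent.T2.helper22.IsRep A (atkinLehner N p hp hpN)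
      (galF (N * p) σ U * U ^ (p - a)) (actA σ hσd U₁ * U₁ ^ (p - a))
      (actA σ hσd U₂ * U₂ ^ (p - a)) :=
    (Fermat.Agent.T2.helper22.IsRep.gal hWgal hσd hUrep).mul (hUrep.pow _)
  have key : ∀ (F : FF (N * p)) (Z : LaurentSeries A), incl A Z ^ p = (F : LaurentSeries Kb) →
      incl A (actA σ hσd Z * Z ^ (p - a)) ^ p
        = ((galF (N * p) σ F * F ^ (p - a) : FF (N * p)) : LaurentSeries Kb) := by
    intro F Z hZ
    have e1 : incl A (actA σ hσd Z) = coeffMap (σ : Kb →+* Kb) (incl A Z) :=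
      coeffMap_subtype_actA σ hσd Z
    have e2 : ((galF (N * p) σ F * F ^ (p - a) : FF (N * p)) : LaurentSeries Kb)
        = coeffMap (σ : Kb →+* Kb) (F : LaurentSeries Kb) * (F : LaurentSeries Kb) ^ (p - a) :=
      rfl
    rw [e2, ← hZ, map_mul, map_pow, e1, mul_pow, map_pow, ← pow_mul, ← pow_mul, mul_comm p (p - a)]
  have h1' := key K Z₁ h1
  have h2' : incl A (actA σ hσd Z₂ * Z₂ ^ (p - a)) ^ p
      = ((atkinLehner N p hp hpN (galF (N * p) σ K * K ^ (p - a)) : FF (N * p)) :
          LaurentSeries Kb) := by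
    have e3 : atkinLehner N p hp hpN (galF (N * p) σ K * K ^ (p - a))
        = galF (N * p) σ (atkinLehner N p hp hpN K) * (atkinLehner N p hp hpN K) ^ (p - a) := by
      rw [map_mul, map_pow, hWgal]
    rw [e3]
    exact key (atkinLehner N p hp hpN K) Z₂ h2
  have hr1' : red A (actA σ hσd Z₁ * Z₁ ^ (p - a)) = 1 := by
    rw [map_mul, map_pow, Fermat.Agent.T2.helper20.red_actA_of_mem_inertia hσ hσd, hr1, one_pow,
      one_mul]
  have hr2' : red A (actA σ hσd Z₂ * Z₂ ^ (p - a)) = 1 := by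
    rw [map_mul, map_pow, Fermat.Agent.T2.helper20.red_actA_of_mem_inertia hσ hσd, hr2, one_pow,
      one_mul]
  obtain ⟨v, -, -, -, hv⟩ := Fermat.Agent.T7.helper88.pivot_crit_bad N p hp hpN hN A hA l _ hl2
    (galF (N * p) σ K * K ^ (p - a)) hHreg _ _ h1' h2' hr1' hr2'
    (galF (N * p) σ U * U ^ (p - a)) hvreg _ _ E₁' E₂' hVrep hE₁' hE₂' hE₁r hE₂r
  exact ⟨v, hv.symm⟩

end Bad

end Fermat.Agent.T7.helper73

end
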