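import Mathlib

/-!
# T7 leaf [D-c] / (U2) (helper75, second prover): deep `p`-th roots of power-series 1-units

Mathlib only, ANY commutative ring `R` (no valuation, no completeness, no division, no binomial
series, no Hensel): the equation is solved `q`-adically by a contraction.

* `exists_fixed_point_of_contraction` : a map on `R⟦X⟧` preserving `(X)` and contracting the
  `X`-adic filtration on `(X)` has a fixed point in `(X)`.
* `exists_solution_of_poly` : `s + ∑_{2 ≤ j ≤ d} g_j s^j = z` has a solution `s ∈ (X)` for `z ∈ (X)`.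
* `exists_deep_root_core` : if `e ^ (p - 1) = p t` then for `z ∈ (X)` there is `s ∈ (X)` with
  `(1 + e s) ^ p = 1 + p e z`.
* `exists_deep_root_unit` : if `e ^ (p - 1) = p t`, `U(0)` is a unit and `p e` divides all higher
  coefficients of `U`, then `U = U(0) (1 + e s) ^ p` with `s ∈ (X)`.
-/

set_option autoImplicit false

namespace Fermat.Agent.T7.helper75

open PowerSeries

variable {R : Type*} [CommRing R]

/-- `q`-adic fixed point: a map `Φ` on power series which maps `(X)` to `(X)` and is a contraction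
for the `X`-adic filtration on `(X)` has a fixed point in `(X)`. -/
theorem exists_fixed_point_of_contraction (Φ : PowerSeries R → PowerSeries R)
    (h0 : ∀ a : PowerSeries R, (X : PowerSeries R) ∣ a → (X : PowerSeries R) ∣ Φ a)
    (hc : ∀ (k : ℕ) (a b : PowerSeries R), (X : PowerSeries R) ∣ a → (X : PowerSeries R) ∣ b →
      (X : PowerSeries R) ^ k ∣ a - b → (X : PowerSeries R) ^ (k + 1) ∣ Φ a - Φ b) :
    ∃ s : PowerSeries R, (X : PowerSeries R) ∣ s ∧ Φ s = s := by
  classical
  -- the iteration
  let it : ℕ → PowerSeries R := fun k => Φ^[k] 0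
  have hit0 : it 0 = 0 := rfl
  have hitS : ∀ k, it (k + 1) = Φ (it k) := fun k => Function.iterate_succ_apply' Φ k 0
  have hitX : ∀ k, (X : PowerSeries R) ∣ it k := by
    intro k
    induction k with
    | zero => rw [hit0]; exact dvd_zero _
    | succ k ih => rw [hitS]; exact h0 _ ih
  have hstep : ∀ k, (X : PowerSeries R) ^ (k + 1) ∣ it (k + 1) - it k := by
    intro k
    induction k with
    | zero =>
      rw [hit0, sub_zero, zero_add, pow_one]
      exact hitX 1
    | succ k ih =>
      have e1 : it (k + 1 + 1) - it (k + 1) = Φ (it (k + 1)) - Φ (it k) := by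
        rw [hitS (k + 1)]
        congr 1
        exact hitS k
      rw [e1]
      exact hc (k + 1) _ _ (hitX _) (hitX _) ih
  have htel : ∀ k m, k ≤ m → (X : PowerSeries R) ^ (k + 1) ∣ it (m + 1) - it (k + 1) := by
    intro k m hkm
    induction m, hkm using Nat.le_induction with
    | base => rw [sub_self]; exact dvd_zero _
    | succ m hkm ih =>
      have h1 : it (m + 1 + 1) - it (k + 1) = (it (m + 1 + 1) - it (m + 1)) + (it (m + 1) - it (k + 1)) := by
        ring
      rw [h1]
      refine dvd_add ?_ ih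
      exact (pow_dvd_pow _ (by omega)).trans (hstep (m + 1))
  let s : PowerSeries R := PowerSeries.mk fun n => coeff n (it (n + 1))
  have hs : ∀ k, (X : PowerSeries R) ^ (k + 1) ∣ s - it (k + 1) := by
    intro k
    rw [PowerSeries.X_pow_dvd_iff]
    intro n hn
    rw [map_sub, PowerSeries.coeff_mk, sub_eq_zero]
    have h2 := htel n k (by omega)
    rw [PowerSeries.X_pow_dvd_iff] at h2
    have h3 := h2 n (by omega)
    rw [map_sub, sub_eq_zero] at h3
    exact h3.symm
  have hsX : (X : PowerSeries R) ∣ s := by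
    have h1 := hs 0
    rw [zero_add, pow_one] at h1
    have := dvd_add h1 (hitX 1)
    rwa [sub_add_cancel] at this
  refine ⟨s, hsX, ?_⟩
  -- Φ s - s is divisible by every power of X
  have hall : ∀ k, (X : PowerSeries R) ^ (k + 1) ∣ Φ s - s := by
    intro k
    have h1 : (X : PowerSeries R) ^ (k + 1) ∣ Φ s - Φ (it k) := by
      rcases Nat.eq_zero_or_pos k with rfl | hk
      · rw [zero_add, pow_one]
        exact dvd_sub (h0 _ hsX) (h0 _ (hitX 0))
      · obtain ⟨j, rfl⟩ : ∃ j, k = j + 1 := ⟨k - 1, by omega⟩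
        exact hc (j + 1) _ _ hsX (hitX _) (hs j)
    rw [← hitS] at h1
    have h2 := hs k
    have h3 : Φ s - s = (Φ s - it (k + 1)) - (s - it (k + 1)) := by ring
    rw [h3]
    exact dvd_sub h1 h2
  rw [← sub_eq_zero]
  ext n
  have := hall n
  rw [PowerSeries.X_pow_dvd_iff] at this
  rw [this n (by omega), map_zero]

/-- `q`-adic solution of `s + ∑_{2 ≤ j ≤ d} g_j s^j = z` for `z ∈ (X)`; no division. -/
theorem exists_solution_of_poly (g : ℕ → R) (d : ℕ) (z : PowerSeries R)
    (hz : (X : PowerSeries R) ∣ z) :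
    ∃ s : PowerSeries R, (X : PowerSeries R) ∣ s ∧
      s + ∑ j ∈ Finset.Ico 2 (d + 1), C (g j) * s ^ j = z := by
  classical
  have h0 : ∀ a : PowerSeries R, (X : PowerSeries R) ∣ a →
      (X : PowerSeries R) ∣ z - ∑ j ∈ Finset.Ico 2 (d + 1), C (g j) * a ^ j := by
    intro a ha
    refine dvd_sub hz (Finset.dvd_sum fun j hj => ?_)
    rw [Finset.mem_Ico] at hj
    refine Dvd.dvd.mul_left ?_ _
    exact ha.trans (dvd_pow_self a (by omega))
  have hc : ∀ (k : ℕ) (a b : PowerSeries R), (X : PowerSeries R) ∣ a → (X : PowerSeries R) ∣ b →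
      (X : PowerSeries R) ^ k ∣ a - b → (X : PowerSeries R) ^ (k + 1) ∣
        (z - ∑ j ∈ Finset.Ico 2 (d + 1), C (g j) * a ^ j) -
        (z - ∑ j ∈ Finset.Ico 2 (d + 1), C (g j) * b ^ j) := by
    intro k a b ha hb hab
    have e1 : (z - ∑ j ∈ Finset.Ico 2 (d + 1), C (g j) * a ^ j) -
        (z - ∑ j ∈ Finset.Ico 2 (d + 1), C (g j) * b ^ j) =
        - ∑ j ∈ Finset.Ico 2 (d + 1), C (g j) * (a ^ j - b ^ j) := by
      have e0 : ∑ j ∈ Finset.Ico 2 (d + 1), C (g j) * (a ^ j - b ^ j) =
          ∑ j ∈ Finset.Ico 2 (d + 1), C (g j) * a ^ j -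
            ∑ j ∈ Finset.Ico 2 (d + 1), C (g j) * b ^ j := by
        rw [← Finset.sum_sub_distrib]
        exact Finset.sum_congr rfl fun j _ => mul_sub _ _ _
      rw [e0]
      ring
    rw [e1, dvd_neg]
    refine Finset.dvd_sum fun j hj => ?_
    rw [Finset.mem_Ico] at hj
    refine Dvd.dvd.mul_left ?_ _
    have h1 := Commute.geom_sum₂_mul (Commute.all a b) j
    rw [← h1, pow_succ']
    refine mul_dvd_mul ?_ hab
    refine Finset.dvd_sum fun i hi => ?_
    rw [Finset.mem_range] at hi
    rcases Nat.eq_zero_or_pos i with rfl | hi0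
    · refine Dvd.dvd.mul_left ?_ _
      exact hb.trans (dvd_pow_self b (by omega))
    · refine Dvd.dvd.mul_right ?_ _
      exact ha.trans (dvd_pow_self a (by omega))
  obtain ⟨s, hsX, hs⟩ := exists_fixed_point_of_contraction
    (fun a => z - ∑ j ∈ Finset.Ico 2 (d + 1), C (g j) * a ^ j) h0 hc
  exact ⟨s, hsX, by linear_combination (-1 : PowerSeries R) * hs⟩

/-- **Deep root, division-free core.** If `e ^ (p - 1) = p t` then for every `z ∈ (X)` there is
`s ∈ (X)` with `(1 + e s) ^ p = 1 + p e z`. -/
theorem exists_deep_root_core (p : ℕ) (hp : p.Prime) (e t : R) (ht : e ^ (p - 1) = (p : R) * t)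
    (z : PowerSeries R) (hz : (X : PowerSeries R) ∣ z) :
    ∃ s : PowerSeries R, (X : PowerSeries R) ∣ s ∧
      (1 + C e * s) ^ p = 1 + C ((p : R) * e) * z := by
  classical
  have hp2 : 2 ≤ p := hp.two_le
  obtain ⟨s, hsX, hs⟩ := exists_solution_of_poly
    (fun j => if j = p then t else ((p.choose j / p : ℕ) : R) * e ^ (j - 1)) p z hz
  refine ⟨s, hsX, ?_⟩
  rw [← hs, add_comm (1 : PowerSeries R) (C e * s), add_pow]
  have hsplit : Finset.range (p + 1) = insert 0 (insert 1 (Finset.Ico 2 (p + 1))) := by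
    ext j
    simp only [Finset.mem_range, Finset.mem_insert, Finset.mem_Ico]
    omega
  rw [hsplit, Finset.sum_insert, Finset.sum_insert]
  · simp only [pow_zero, one_pow, mul_one, Nat.choose_zero_right, Nat.cast_one, pow_one,
      Nat.choose_one_right]
    rw [mul_add, Finset.mul_sum]
    have key : ∀ j ∈ Finset.Ico 2 (p + 1), (C e * s) ^ j * ((p.choose j : ℕ) : PowerSeries R) =
        C ((p : R) * e) *
          (C (if j = p then t else ((p.choose j / p : ℕ) : R) * e ^ (j - 1)) * s ^ j) := by
      intro j hj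
      rw [Finset.mem_Ico] at hj
      have hej : e ^ j = e * e ^ (j - 1) := by
        rw [← pow_succ']; congr 1; omega
      by_cases hjp : j = p
      · rw [if_pos hjp, hjp, Nat.choose_self, Nat.cast_one, mul_one, mul_pow, ← map_pow,
          ← mul_assoc, ← map_mul]
        congr 2
        have : e ^ p = e * e ^ (p - 1) := by
          rw [← pow_succ']; congr 1; omega
        rw [this, ht]; ring
      · rw [if_neg hjp]
        have hdvd : p ∣ p.choose j := hp.dvd_choose_self (by omega) (by omega)
        obtain ⟨m, hm⟩ := hdvd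
        have hm' : p.choose j / p = m := by
          rw [hm, Nat.mul_div_cancel_left _ hp.pos]
        rw [hm', hm, mul_pow, ← map_pow, ← mul_assoc (C _), ← map_mul, Nat.cast_mul,
          ← map_natCast (C (R := R)) p, ← map_natCast (C (R := R)) m, hej]
        have : C ((p : R) * e * ((m : R) * e ^ (j - 1))) = C (e * e ^ (j - 1)) * (C (p : R) * C (m : R)) := by
          rw [← map_mul, ← map_mul]; congr 1; ring
        rw [this]; ring
    rw [Finset.sum_congr rfl key]
    have : (C e * s) * ((p : ℕ) : PowerSeries R) = C ((p : R) * e) * s := by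
      rw [← map_natCast (C (R := R)) p, map_mul]; ring
    rw [this]
  · simp only [Finset.mem_Ico]; omega
  · simp only [Finset.mem_insert, Finset.mem_Ico]
    omega

/-- **Deep root of a unit power series.** If `e ^ (p - 1) = p t`, the constant coefficient of `U`
is a unit and `p e` divides all higher coefficients, then `U = U(0) (1 + e s) ^ p`, `s ∈ (X)`. -/
theorem exists_deep_root_unit (p : ℕ) (hp : p.Prime) (e t : R) (ht : e ^ (p - 1) = (p : R) * t)
    (U : PowerSeries R) (hU0 : IsUnit (constantCoeff U))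
    (hU : ∀ n : ℕ, n ≠ 0 → (p : R) * e ∣ coeff n U) :
    ∃ s : PowerSeries R, (X : PowerSeries R) ∣ s ∧
      U = C (constantCoeff U) * (1 + C e * s) ^ p := by
  classical
  obtain ⟨u, hu⟩ := hU0
  choose! f hf using hU
  let z : PowerSeries R := PowerSeries.mk fun n => if n = 0 then 0 else (↑u⁻¹ : R) * f n
  have hzX : (X : PowerSeries R) ∣ z := by
    rw [PowerSeries.X_dvd_iff, ← PowerSeries.coeff_zero_eq_constantCoeff_apply,
      PowerSeries.coeff_mk, if_pos rfl]
  obtain ⟨s, hsX, hs⟩ := exists_deep_root_core p hp e t ht z hzX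
  refine ⟨s, hsX, ?_⟩
  rw [hs]
  ext n
  rw [mul_add, mul_one, map_add, ← mul_assoc, ← map_mul, PowerSeries.coeff_C_mul,
    PowerSeries.coeff_mk, PowerSeries.coeff_C]
  by_cases hn : n = 0
  · rw [if_pos hn, if_pos hn, mul_zero, add_zero, hn,
      PowerSeries.coeff_zero_eq_constantCoeff_apply]
  · rw [if_neg hn, if_neg hn, zero_add, hf n hn, ← hu]
    have h1 : (↑u : R) * (↑u⁻¹ : R) = 1 := Units.mul_inv u
    linear_combination (-(p : R) * e * f n) * h1

end Fermat.Agent.T7.helper75
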