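import Mathlib
import Fermat.Prelude.Def_ModularCurve_LaurentCoeff
import Fermat.Agent.T7.helper75_DeepRoot

/-!
# T7 leaf [D-c] (helper75, second prover): deep roots over a valuation ring, Laurent wrapper

`A` a valuation subring of a field `K`, `p` a prime which is not a unit of `A`.

* `deepRoot_unit_val` : (no algebraic closedness) `e ^ (p - 1) = p t`, `U : A⟦X⟧` with unit
  constant coefficient and higher coefficients divisible by `p e`  ⟹  `U = U(0) R ^ p`,
  `R(0) = 1`, all coefficients of `R - 1` in the maximal ideal.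
* `deepRoot_val` : `K` algebraically closed, all coefficients of `y` divisible by `p e`
  ⟹ `1 + y = R ^ p`, coefficients of `R - 1` in the maximal ideal.
* `deepRoot_val_of_dvd` : the same with `c`, `p ^ p ∣ c ^ (p - 1)` (helper35's contract #3315).
* `deepRoot_laurent` : Laurent-series form in the P2 vocabulary: `Y : LaurentSeries A` without
  negative coefficients, `c ∣ (Y - 1).coeff k` for all `k`  ⟹  `Y = Z ^ p`,
  `coeffMap (residue A) Z = 1` (`= red A Z`), `Z` without negative coefficients.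
* `deepRoot_laurent_unit` : the same without algebraic closedness, constant kept outside.
-/

set_option autoImplicit false
set_option linter.style.haveILetI false

noncomputable section

namespace Fermat.Agent.T7.helper75

open PowerSeries ModularCurve

variable {K : Type*} [Field K]

/-- integrally closed: a power in `A` forces membership -/
theorem mem_valSub_of_pow_mem (A : ValuationSubring K) {x : K} {n : ℕ} (hn : n ≠ 0)
    (h : x ^ n ∈ A) : x ∈ A := by
  rcases A.mem_or_inv_mem x with hx | hx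
  · exact hx
  · -- x = x^n * (x⁻¹)^(n-1)
    rcases eq_or_ne x 0 with rfl | hx0
    · exact A.zero_mem
    have : x = x ^ n * x⁻¹ ^ (n - 1) := by
      obtain ⟨m, rfl⟩ : ∃ m, n = m + 1 := ⟨n - 1, by omega⟩
      rw [Nat.add_sub_cancel, pow_succ, inv_pow]
      field_simp
    rw [this]
    exact A.mul_mem _ _ h (A.pow_mem hx _)

/-- `p` lies in the maximal ideal -/
theorem natCast_mem_maximalIdeal (A : ValuationSubring K) (p : ℕ) (hpA : (p : K) ∈ A.nonunits) :
    (p : A) ∈ IsLocalRing.maximalIdeal A := by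
  rw [IsLocalRing.mem_maximalIdeal, mem_nonunits_iff]
  intro hu
  rw [ValuationSubring.mem_nonunits_iff] at hpA
  have h1 : A.valuation ((p : A) : K) = 1 := (A.valuation_eq_one_iff _).mp hu
  have h2 : ((p : A) : K) = (p : K) := by push_cast; rfl
  rw [h2] at h1
  rw [h1] at hpA
  exact lt_irrefl _ hpA

/-- `e ^ (p - 1) = p t` puts `e` in the maximal ideal -/
theorem mem_maximalIdeal_of_pow_eq (A : ValuationSubring K) (p : ℕ) (_hp : p.Prime)
    (hpA : (p : K) ∈ A.nonunits) (e t : A) (ht : e ^ (p - 1) = (p : A) * t) :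
    e ∈ IsLocalRing.maximalIdeal A := by
  have h1 : e ^ (p - 1) ∈ IsLocalRing.maximalIdeal A := by
    rw [ht]
    exact Ideal.mul_mem_right _ _ (natCast_mem_maximalIdeal A p hpA)
  exact (IsLocalRing.maximalIdeal.isMaximal A).isPrime.mem_of_pow_mem _ h1

/-- **Deep root, constant kept outside** (no algebraic closedness). -/
theorem deepRoot_unit_val (A : ValuationSubring K) (p : ℕ) (hp : p.Prime)
    (hpA : (p : K) ∈ A.nonunits) (e t : A) (ht : e ^ (p - 1) = (p : A) * t)
    (U : PowerSeries A) (hU0 : IsUnit (constantCoeff U))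
    (hU : ∀ n : ℕ, n ≠ 0 → (p : A) * e ∣ coeff n U) :
    ∃ R : PowerSeries A, U = C (constantCoeff U) * R ^ p ∧ constantCoeff R = 1 ∧
      ∀ n, coeff n (R - 1) ∈ IsLocalRing.maximalIdeal A := by
  obtain ⟨s, hsX, hs⟩ := exists_deep_root_unit p hp e t ht U hU0 hU
  have he := mem_maximalIdeal_of_pow_eq A p hp hpA e t ht
  refine ⟨1 + C e * s, hs, ?_, ?_⟩
  · rw [map_add, map_one, map_mul, PowerSeries.X_dvd_iff.mp hsX, mul_zero, add_zero]
  · intro n
    rw [add_sub_cancel_left, PowerSeries.coeff_C_mul]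
    exact Ideal.mul_mem_right _ _ he

/-- a `p`-th root of an element `≡ 1` is integral and `≡ 1` -/
theorem exists_root_one_add [IsAlgClosed K] (A : ValuationSubring K) (p : ℕ) (hp : p.Prime)
    (hpA : (p : K) ∈ A.nonunits) (u : A) (hu : u - 1 ∈ IsLocalRing.maximalIdeal A) :
    ∃ r : A, r ^ p = u ∧ r - 1 ∈ IsLocalRing.maximalIdeal A := by
  obtain ⟨r, hr⟩ := IsAlgClosed.exists_pow_nat_eq (u : K) hp.pos
  have hrA : r ∈ A := mem_valSub_of_pow_mem A hp.ne_zero (by rw [hr]; exact u.2)
  refine ⟨⟨r, hrA⟩, Subtype.ext (by simpa using hr), ?_⟩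
  have hru : (⟨r, hrA⟩ : A) ^ p = u := Subtype.ext (by simpa using hr)
  -- in the residue field
  have hpk : ((p : ℕ) : IsLocalRing.ResidueField A) = 0 := by
    have := (IsLocalRing.residue_eq_zero_iff (p : A)).mpr (natCast_mem_maximalIdeal A p hpA)
    simpa using this
  haveI : CharP (IsLocalRing.ResidueField A) p := (CharP.charP_iff_prime_eq_zero hp).mpr hpk
  haveI : Fact p.Prime := ⟨hp⟩
  have h1 : IsLocalRing.residue A u = 1 := by
    have := (IsLocalRing.residue_eq_zero_iff (u - 1)).mpr hu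
    rw [map_sub, map_one, sub_eq_zero] at this
    exact this
  have h2 : (IsLocalRing.residue A (⟨r, hrA⟩ : A) - 1) ^ p = 0 := by
    rw [sub_pow_char, one_pow, ← map_pow, hru, h1, sub_self]
  have h3 : IsLocalRing.residue A (⟨r, hrA⟩ : A) - 1 = 0 := pow_eq_zero_iff hp.ne_zero |>.mp h2
  rw [← IsLocalRing.residue_eq_zero_iff, map_sub, map_one]
  exact h3

/-- **Deep root** over a valuation subring of an algebraically closed field. -/
theorem deepRoot_val [IsAlgClosed K] (A : ValuationSubring K) (p : ℕ) (hp : p.Prime)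
    (hpA : (p : K) ∈ A.nonunits) (e t : A) (ht : e ^ (p - 1) = (p : A) * t)
    (y : PowerSeries A) (hy : ∀ n : ℕ, (p : A) * e ∣ coeff n y) :
    ∃ R : PowerSeries A, R ^ p = 1 + y ∧ ∀ n, coeff n (R - 1) ∈ IsLocalRing.maximalIdeal A := by
  have he := mem_maximalIdeal_of_pow_eq A p hp hpA e t ht
  have hpe : ∀ a : A, (p : A) * e ∣ a → a ∈ IsLocalRing.maximalIdeal A := by
    rintro a ⟨b, rfl⟩
    exact Ideal.mul_mem_right _ _ (Ideal.mul_mem_left _ _ he)
  have hu1 : constantCoeff (1 + y) - 1 ∈ IsLocalRing.maximalIdeal A := by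
    rw [map_add, map_one, add_sub_cancel_left, ← PowerSeries.coeff_zero_eq_constantCoeff_apply]
    exact hpe _ (hy 0)
  have hU0 : IsUnit (constantCoeff (1 + y)) := by
    by_contra hnu
    have h1 : constantCoeff (1 + y) ∈ IsLocalRing.maximalIdeal A :=
      (IsLocalRing.mem_maximalIdeal _).2 hnu
    have h2 := Ideal.sub_mem _ h1 hu1
    rw [sub_sub_cancel] at h2
    exact (IsLocalRing.maximalIdeal.isMaximal A).ne_top ((Ideal.eq_top_iff_one _).2 h2)
  have hU : ∀ n : ℕ, n ≠ 0 → (p : A) * e ∣ coeff n (1 + y) := by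
    intro n hn
    rw [map_add, PowerSeries.coeff_one, if_neg hn, zero_add]
    exact hy n
  obtain ⟨R, hR, hR0, hRm⟩ := deepRoot_unit_val A p hp hpA e t ht (1 + y) hU0 hU
  obtain ⟨r, hr, hr1⟩ := exists_root_one_add A p hp hpA (constantCoeff (1 + y)) hu1
  refine ⟨C r * R, ?_, ?_⟩
  · rw [mul_pow, ← map_pow, hr, ← hR]
  · intro n
    have h1 : C r * R - 1 = C r * (R - 1) + C (r - 1) := by
      rw [map_sub, map_one]; ring
    rw [h1, map_add, PowerSeries.coeff_C_mul, PowerSeries.coeff_C]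
    refine Ideal.add_mem _ (Ideal.mul_mem_left _ _ (hRm n)) ?_
    split_ifs
    · exact hr1
    · exact Ideal.zero_mem _

/-- from `p ^ p ∣ c ^ (p - 1)` to `c = p e`, `e ^ (p - 1) = p t` -/
theorem exists_e_of_dvd (A : ValuationSubring K) (p : ℕ) (hp : p.Prime) (c : A)
    (hc : (p : A) ^ p ∣ c ^ (p - 1)) :
    ∃ e t : A, c = (p : A) * e ∧ e ^ (p - 1) = (p : A) * t := by
  obtain ⟨t, ht⟩ := hc
  have hp1 : p - 1 ≠ 0 := by have := hp.two_le; omega
  have hpp : p = (p - 1) + 1 := by omega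
  rcases eq_or_ne ((p : A)) 0 with hp0 | hp0
  · refine ⟨0, 0, ?_, ?_⟩
    · rw [hp0, zero_pow hp.ne_zero, zero_mul] at ht
      rw [mul_zero]
      exact pow_eq_zero_iff hp1 |>.mp ht
    · rw [zero_pow hp1, mul_zero]
  · have hp0K : (p : K) ≠ 0 := by
      intro h
      apply hp0
      apply Subtype.ext
      push_cast
      exact h
    -- e = c / p
    have hpow : ((c : K) / (p : K)) ^ (p - 1) = (p : K) * (t : K) := by
      have h1 : (c : K) ^ (p - 1) = (p : K) ^ p * (t : K) := by
        have := congrArg (fun a : A => (a : K)) ht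
        simpa using this
      have hpK : (p : K) ^ p = (p : K) ^ (p - 1) * (p : K) := by
        rw [← pow_succ, ← hpp]
      have hne : (p : K) ^ (p - 1) ≠ 0 := pow_ne_zero _ hp0K
      rw [div_pow, h1, hpK, mul_assoc, mul_div_assoc, mul_div_cancel₀ _ hne]
    have heA : (c : K) / (p : K) ∈ A := by
      refine mem_valSub_of_pow_mem A hp1 ?_
      rw [hpow]
      exact A.mul_mem _ _ (by exact_mod_cast (p : A).2) t.2
    refine ⟨⟨_, heA⟩, t, ?_, ?_⟩
    · apply Subtype.ext
      push_cast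
      field_simp
    · apply Subtype.ext
      push_cast
      exact hpow

/-- **Deep root**, helper35's contract (#3315). -/
theorem deepRoot_val_of_dvd [IsAlgClosed K] (A : ValuationSubring K) (p : ℕ) (hp : p.Prime)
    (hpA : (p : K) ∈ A.nonunits) (c : A) (hc : (p : A) ^ p ∣ c ^ (p - 1))
    (y : PowerSeries A) (hy : ∀ n : ℕ, c ∣ coeff n y) :
    ∃ R : PowerSeries A, R ^ p = 1 + y ∧ ∀ n, coeff n (R - 1) ∈ IsLocalRing.maximalIdeal A := by
  obtain ⟨e, t, hce, ht⟩ := exists_e_of_dvd A p hp c hc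
  exact deepRoot_val A p hp hpA e t ht y (fun n => hce ▸ hy n)

/-! ### Laurent-series wrappers (P2 vocabulary: `incl A = coeffMap A.subtype`,
`red A = coeffMap (IsLocalRing.residue A)`) -/

/-- a Laurent series without negative coefficients comes from a power series -/
theorem exists_powerSeries_of_coeff_neg {R : Type*} [CommRing R] (Y : LaurentSeries R)
    (h : ∀ k : ℤ, k < 0 → Y.coeff k = 0) :
    ∃ y : PowerSeries R, HahnSeries.ofPowerSeries ℤ R y = Y ∧
      ∀ n : ℕ, coeff n y = Y.coeff n := by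
  refine ⟨PowerSeries.mk fun n => Y.coeff n, ?_, fun n => PowerSeries.coeff_mk _ _⟩
  ext k
  rcases lt_or_ge k 0 with hk | hk
  · rw [h k hk]
    have := PowerSeries.coeff_coe (f := PowerSeries.mk fun n : ℕ => Y.coeff n) k
    rw [if_pos hk] at this
    exact this
  · obtain ⟨n, rfl⟩ := Int.eq_ofNat_of_zero_le hk
    rw [HahnSeries.ofPowerSeries_apply_coeff, PowerSeries.coeff_mk]

/-- coefficients of `ofPowerSeries` at negative indices vanish -/
theorem ofPowerSeries_coeff_neg {R : Type*} [CommRing R] (y : PowerSeries R) {k : ℤ}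
    (hk : k < 0) : (HahnSeries.ofPowerSeries ℤ R y).coeff k = 0 := by
  have := PowerSeries.coeff_coe (f := y) k
  rw [if_pos hk] at this
  exact this

/-- reduction `1` of `ofPowerSeries R` when `R - 1` has coefficients in the maximal ideal -/
theorem coeffMap_residue_ofPowerSeries_eq_one (A : ValuationSubring K) (R : PowerSeries A)
    (hR : ∀ n, coeff n (R - 1) ∈ IsLocalRing.maximalIdeal A) :
    coeffMap (IsLocalRing.residue A) (HahnSeries.ofPowerSeries ℤ A R) = 1 := by
  ext k
  rw [coeffMap_coeff]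
  rcases lt_or_ge k 0 with hk | hk
  · rw [ofPowerSeries_coeff_neg R hk, map_zero, HahnSeries.coeff_one, if_neg (by omega)]
  · obtain ⟨n, rfl⟩ := Int.eq_ofNat_of_zero_le hk
    rw [HahnSeries.ofPowerSeries_apply_coeff, HahnSeries.coeff_one]
    have h1 := (IsLocalRing.residue_eq_zero_iff _).mpr (hR n)
    rw [map_sub, PowerSeries.coeff_one, map_sub, sub_eq_zero] at h1
    rw [h1]
    by_cases hn : n = 0
    · rw [if_pos hn, if_pos (by exact_mod_cast hn), map_one]
    · rw [if_neg hn, if_neg (by exact_mod_cast hn), map_zero]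

/-- **[D-c], Laurent form.** `Y` integral without negative coefficients, `Y ≡ 1` modulo `c` with
`p ^ p ∣ c ^ (p - 1)`: then `Y = Z ^ p` with `Z` integral, without negative coefficients,
of reduction `1`. -/
theorem deepRoot_laurent [IsAlgClosed K] (A : ValuationSubring K) (p : ℕ) (hp : p.Prime)
    (hpA : (p : K) ∈ A.nonunits) (c : A) (hc : (p : A) ^ p ∣ c ^ (p - 1))
    (Y : LaurentSeries A) (hneg : ∀ k : ℤ, k < 0 → Y.coeff k = 0)
    (hY : ∀ k : ℤ, c ∣ (Y - 1).coeff k) :
    ∃ Z : LaurentSeries A, Z ^ p = Y ∧ coeffMap (IsLocalRing.residue A) Z = 1 ∧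
      ∀ k : ℤ, k < 0 → Z.coeff k = 0 := by
  obtain ⟨y', hy', hy'c⟩ := exists_powerSeries_of_coeff_neg Y hneg
  have hy : ∀ n : ℕ, c ∣ coeff n (y' - 1) := by
    intro n
    have h1 := hY n
    rw [HahnSeries.coeff_sub, HahnSeries.coeff_one] at h1
    rw [map_sub, hy'c, PowerSeries.coeff_one]
    by_cases hn : n = 0
    · rw [if_pos hn]; rw [if_pos (by exact_mod_cast hn)] at h1; exact h1
    · rw [if_neg hn]; rw [if_neg (by exact_mod_cast hn)] at h1; exact h1
  obtain ⟨R, hR, hRm⟩ := deepRoot_val_of_dvd A p hp hpA c hc (y' - 1) hy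
  refine ⟨HahnSeries.ofPowerSeries ℤ A R, ?_, coeffMap_residue_ofPowerSeries_eq_one A R hRm,
    fun k hk => ofPowerSeries_coeff_neg R hk⟩
  rw [← map_pow, hR, add_sub_cancel, hy']

/-- **[D-c] / (U2), Laurent form with the constant kept outside** (no algebraic closedness). -/
theorem deepRoot_laurent_unit (A : ValuationSubring K) (p : ℕ) (hp : p.Prime)
    (hpA : (p : K) ∈ A.nonunits) (e t : A) (ht : e ^ (p - 1) = (p : A) * t)
    (Y : LaurentSeries A) (hneg : ∀ k : ℤ, k < 0 → Y.coeff k = 0) (hY0 : IsUnit (Y.coeff 0))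
    (hY : ∀ k : ℤ, 0 < k → (p : A) * e ∣ Y.coeff k) :
    ∃ Z : LaurentSeries A, Y = HahnSeries.single 0 (Y.coeff 0) * Z ^ p ∧
      coeffMap (IsLocalRing.residue A) Z = 1 ∧ ∀ k : ℤ, k < 0 → Z.coeff k = 0 := by
  obtain ⟨y', hy', hy'c⟩ := exists_powerSeries_of_coeff_neg Y hneg
  have h0 : constantCoeff y' = Y.coeff 0 := by
    rw [← PowerSeries.coeff_zero_eq_constantCoeff_apply, hy'c]; rfl
  have hU0 : IsUnit (constantCoeff y') := by rw [h0]; exact hY0
  have hU : ∀ n : ℕ, n ≠ 0 → (p : A) * e ∣ coeff n y' := by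
    intro n hn
    rw [hy'c]
    exact hY n (by exact_mod_cast Nat.pos_of_ne_zero hn)
  obtain ⟨R, hR, -, hRm⟩ := deepRoot_unit_val A p hp hpA e t ht y' hU0 hU
  refine ⟨HahnSeries.ofPowerSeries ℤ A R, ?_, coeffMap_residue_ofPowerSeries_eq_one A R hRm,
    fun k hk => ofPowerSeries_coeff_neg R hk⟩
  have h1 : HahnSeries.single 0 (Y.coeff 0) * HahnSeries.ofPowerSeries ℤ A R ^ p =
      HahnSeries.ofPowerSeries ℤ A (C (constantCoeff y') * R ^ p) := by
    rw [map_mul, map_pow, HahnSeries.ofPowerSeries_C, h0]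
    rfl
  rw [h1, ← hR, hy']

end Fermat.Agent.T7.helper75
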