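/-
T7 (S33), leaf [ATT-NF] (helper76, twin of helper82 #3320): attained content from number-field
discreteness.

`A` a valuation subring of a field `Ω` of characteristic `0` over a prime `ℓ`, `K0 ⊆ Ω` a number
field.  By `T4.helper76.exists_pid_subring` the ring `A ∩ K0` lies in a principal ideal domain
`R ⊆ A`.  Consequences:

* `exists_uniformizer_nf` : there is `ϖ ∈ 𝔪_A`, `ϖ ≠ 0`, dividing (in `A`) every nonunit of `A`
  which lies in `K0`;
* `exists_smul_of_red_zero` : an integral family of Laurent series with coefficients in `K0` and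
  reduction `0` is `ϖ₁ • E₂` with `ϖ₁ ∈ 𝔪_A`, `ϖ₁ ≠ 0`, `E₂` integral;
* `exists_primitive_of_coeffsNF` : a nonzero integral family with coefficients in `K0` is
  `g • Y₁` with `g ≠ 0` and `red Y₁ ≠ 0`;
* `contentAttained_of_coeffsNF` : a nonzero family `X` over `Ω` with coefficients in `K0` which
  has an integral nonzero multiple has ATTAINED content (`T2.helper74.ContentAttainedFam`).
-/
import Mathlib
import Fermat.Agent.T4.helper76_PidSub
import Fermat.Agent.S28.helper93_Reduce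
import Fermat.Agent.T2.helper74_PivotFam

set_option autoImplicit false
set_option linter.style.haveILetI false
set_option linter.unusedSectionVars false

noncomputable section

namespace Fermat.Agent.T7.helper76

open ModularCurve HahnSeries
open Fermat.Agent.P2.helper22 (famMap)
open Fermat.Agent.T2.helper74 (ContentAttainedFam)

variable {Ω : Type*} [Field Ω] [CharZero Ω] (A : ValuationSubring Ω) {ι : Type*}

/-- the residue map kills exactly the nonunits -/
theorem residue_eq_zero_iff_not_isUnit (x : A) :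
    IsLocalRing.residue A x = 0 ↔ ¬ IsUnit x := by
  rw [IsLocalRing.residue_eq_zero_iff, IsLocalRing.mem_maximalIdeal, mem_nonunits_iff]

/-- **PID package**: a principal ideal domain `R ⊆ A` containing `A ∩ K0`, in the form of a ring
homomorphism `f : R →+* A`. -/
theorem exists_pid_hom {ℓ : ℕ} (hℓ0 : ℓ ≠ 0) (hA : (ℓ : Ω) ∈ A.nonunits)
    (K0 : IntermediateField ℚ Ω) [FiniteDimensional ℚ K0] :
    ∃ (R : Subring Ω) (_ : IsPrincipalIdealRing R) (f : R →+* A),
      (∀ r : R, ((f r : A) : Ω) = (r : Ω)) ∧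
      ∀ x : A, (x : Ω) ∈ K0 → ∃ r : R, f r = x := by
  obtain ⟨R, hRA, hRpid, hR⟩ := Fermat.Agent.T4.helper76.exists_pid_subring A hℓ0 hA K0
  refine ⟨R, hRpid, (R.subtype).codRestrict A (fun x => hRA x.2), fun r => rfl, ?_⟩
  intro x hx
  exact ⟨⟨(x : Ω), hR _ hx x.2⟩, Subtype.ext rfl⟩

/-- **a uniformizer for the number field part**: `ϖ ∈ 𝔪_A`, `ϖ ≠ 0`, divides in `A` every
nonunit of `A` lying in `K0`. -/
theorem exists_uniformizer_nf {ℓ : ℕ} (hℓ0 : ℓ ≠ 0) (hA : (ℓ : Ω) ∈ A.nonunits)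
    (K0 : IntermediateField ℚ Ω) [FiniteDimensional ℚ K0] :
    ∃ ϖ : A, ϖ ≠ 0 ∧ ¬ IsUnit ϖ ∧
      ∀ x : A, (x : Ω) ∈ K0 → ¬ IsUnit x → ∃ y : A, x = ϖ * y := by
  classical
  obtain ⟨R, hRpid, f, hf, hfK⟩ := exists_pid_hom A hℓ0 hA K0
  haveI := hRpid
  have hfinj : Function.Injective f := by
    intro a b hab
    apply Subtype.ext
    rw [← hf a, ← hf b, hab]
  set I : Ideal R := Ideal.comap f (IsLocalRing.maximalIdeal A) with hI
  obtain ⟨g, hg⟩ := (IsPrincipalIdealRing.principal I).principal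
  have hgI : g ∈ I := by
    rw [hg]
    exact Submodule.mem_span_singleton_self g
  -- `ℓ` lies in `I`
  have hℓA : (ℓ : Ω) ∈ A := A.nonunits_le hA
  have hℓK : (((⟨(ℓ : Ω), hℓA⟩ : A) : Ω)) ∈ K0 := by
    show (ℓ : Ω) ∈ K0
    exact natCast_mem K0 ℓ
  obtain ⟨rℓ, hrℓ⟩ := hfK ⟨(ℓ : Ω), hℓA⟩ hℓK
  have hrℓI : rℓ ∈ I := by
    rw [hI, Ideal.mem_comap, hrℓ, IsLocalRing.mem_maximalIdeal, mem_nonunits_iff]
    intro hu
    have : (ℓ : Ω) ∉ A.nonunits := by
      rw [ValuationSubring.mem_nonunits_iff_exists_mem_maximalIdeal]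
      rintro ⟨ha, hm⟩
      rw [IsLocalRing.mem_maximalIdeal, mem_nonunits_iff] at hm
      exact hm hu
    exact this hA
  have hrℓ0 : rℓ ≠ 0 := by
    intro h0
    have h1 : ((f rℓ : A) : Ω) = 0 := by rw [h0, map_zero]; rfl
    rw [hrℓ] at h1
    have h2 : (ℓ : Ω) = 0 := h1
    exact hℓ0 (Nat.cast_eq_zero.mp h2)
  have hg0 : g ≠ 0 := by
    rintro rfl
    rw [hg] at hrℓI
    have : rℓ = 0 := by
      rw [Submodule.mem_span_singleton] at hrℓI
      obtain ⟨a, ha⟩ := hrℓI
      rw [← ha, smul_zero]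
    exact hrℓ0 this
  refine ⟨f g, fun h0 => hg0 (hfinj (by rw [h0, map_zero])), ?_, ?_⟩
  · have := hgI
    rw [hI, Ideal.mem_comap, IsLocalRing.mem_maximalIdeal, mem_nonunits_iff] at this
    exact this
  · intro x hxK hxu
    obtain ⟨r, hr⟩ := hfK x hxK
    have hrI : r ∈ I := by
      rw [hI, Ideal.mem_comap, hr, IsLocalRing.mem_maximalIdeal, mem_nonunits_iff]
      exact hxu
    rw [hg, Ideal.mem_span_singleton'] at hrI
    obtain ⟨a, ha⟩ := hrI
    refine ⟨f a, ?_⟩
    rw [← hr, ← ha, map_mul, mul_comm]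

/-- division of a Laurent series over `A` by a nonzero element dividing all coefficients -/
theorem exists_eq_smul_of_forall_dvd (ϖ : A) (E : LaurentSeries A)
    (h : ∀ j, ∃ y : A, E.coeff j = ϖ * y) :
    ∃ E₂ : LaurentSeries A, E = ϖ • E₂ := by
  classical
  by_cases hϖ : ϖ = 0
  · refine ⟨0, ?_⟩
    ext j
    obtain ⟨y, hy⟩ := h j
    rw [hy, hϖ, zero_mul, smul_zero, HahnSeries.coeff_zero]
  choose c hc using h
  let c' : ℤ → A := fun j => if E.coeff j = 0 then 0 else c j
  have hc' : ∀ j, E.coeff j = ϖ * c' j := by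
    intro j
    by_cases h0 : E.coeff j = 0
    · simp [c', h0]
    · simp only [c', h0, if_false]
      exact hc j
  have hsupp : Function.support c' ⊆ E.support := by
    intro j hj
    rw [Function.mem_support] at hj
    rw [HahnSeries.mem_support]
    intro h0
    apply hj
    simp [c', h0]
  refine ⟨⟨c', E.isPWO_support.mono hsupp⟩, ?_⟩
  apply HahnSeries.ext
  funext j
  rw [HahnSeries.coeff_smul, smul_eq_mul]
  exact hc' j

/-- **[ATT-NF], reduction zero**: an integral family with coefficients in the number field `K0`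
and reduction `0` is divisible by a nonzero element of the maximal ideal. -/
theorem exists_smul_of_red_zero {ℓ : ℕ} (hℓ0 : ℓ ≠ 0) (hA : (ℓ : Ω) ∈ A.nonunits)
    (K0 : IntermediateField ℚ Ω) [FiniteDimensional ℚ K0]
    (E : ι → LaurentSeries A) (hE : ∀ i j, (((E i).coeff j : A) : Ω) ∈ K0)
    (hred : famMap (IsLocalRing.residue A) E = 0) :
    ∃ (ϖ₁ : A) (E₂ : ι → LaurentSeries A), ϖ₁ ≠ 0 ∧ IsLocalRing.residue A ϖ₁ = 0 ∧
      E = ϖ₁ • E₂ := by
  classical
  obtain ⟨ϖ, hϖ0, hϖu, hϖ⟩ := exists_uniformizer_nf A hℓ0 hA K0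
  have hdiv : ∀ i j, ∃ y : A, (E i).coeff j = ϖ * y := by
    intro i j
    apply hϖ _ (hE i j)
    rw [← residue_eq_zero_iff_not_isUnit]
    have h1 := congrFun hred i
    have h2 := congrArg (fun z : LaurentSeries (IsLocalRing.ResidueField A) => z.coeff j) h1
    simpa [famMap, coeffMap_coeff] using h2
  choose E₂ hE₂ using fun i => exists_eq_smul_of_forall_dvd A ϖ (E i) (hdiv i)
  refine ⟨ϖ, E₂, hϖ0, (residue_eq_zero_iff_not_isUnit A ϖ).mpr hϖu, ?_⟩
  funext i
  rw [Pi.smul_apply]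
  exact hE₂ i

/-- **[ATT-NF], primitive part**: a nonzero integral family with coefficients in the number
field `K0` is `g • Y₁` with `g ≠ 0` and `Y₁` integral with NONZERO reduction. -/
theorem exists_primitive_of_coeffsNF {ℓ : ℕ} (hℓ0 : ℓ ≠ 0) (hA : (ℓ : Ω) ∈ A.nonunits)
    (K0 : IntermediateField ℚ Ω) [FiniteDimensional ℚ K0]
    (Y : ι → LaurentSeries A) (hY : ∀ i j, (((Y i).coeff j : A) : Ω) ∈ K0) (hY0 : Y ≠ 0) :
    ∃ (g : A) (Y₁ : ι → LaurentSeries A), g ≠ 0 ∧ Y = g • Y₁ ∧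
      famMap (IsLocalRing.residue A) Y₁ ≠ 0 := by
  classical
  obtain ⟨R, hRpid, f, hf, hfK⟩ := exists_pid_hom A hℓ0 hA K0
  haveI := hRpid
  have hfinj : Function.Injective f := by
    intro a b hab
    apply Subtype.ext
    rw [← hf a, ← hf b, hab]
  choose r hr using fun (p : ι × ℤ) => hfK ((Y p.1).coeff p.2) (hY p.1 p.2)
  set J : Ideal R := Ideal.span (Set.range r) with hJ
  obtain ⟨g, hg⟩ := (IsPrincipalIdealRing.principal J).principal
  have hgJ : g ∈ J := by
    rw [hg]
    exact Submodule.mem_span_singleton_self g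
  -- a nonzero coefficient
  obtain ⟨i₀, j₀, hij⟩ : ∃ i j, (Y i).coeff j ≠ 0 := by
    by_contra hcon
    push Not at hcon
    apply hY0
    funext i
    ext j
    rw [hcon i j]
    rfl
  have hr0 : r (i₀, j₀) ≠ 0 := by
    intro h0
    apply hij
    rw [← hr (i₀, j₀), h0, map_zero]
  have hg0 : g ≠ 0 := by
    rintro rfl
    have hmem : r (i₀, j₀) ∈ J := Ideal.subset_span ⟨(i₀, j₀), rfl⟩
    rw [hg, Submodule.mem_span_singleton] at hmem
    obtain ⟨a, ha⟩ := hmem
    apply hr0
    rw [← ha, smul_zero]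
  -- the cofactors
  have hcof : ∀ p : ι × ℤ, ∃ a : R, r p = g * a := by
    intro p
    have hmem : r p ∈ J := Ideal.subset_span ⟨p, rfl⟩
    rw [hg, Ideal.mem_span_singleton'] at hmem
    obtain ⟨a, ha⟩ := hmem
    exact ⟨a, by rw [← ha, mul_comm]⟩
  choose a ha using hcof
  have hdiv : ∀ i j, ∃ y : A, (Y i).coeff j = f g * y := by
    intro i j
    refine ⟨f (a (i, j)), ?_⟩
    rw [← map_mul, ← ha (i, j), hr (i, j)]
  choose Y₁ hY₁ using fun i => exists_eq_smul_of_forall_dvd A (f g) (Y i) (hdiv i)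
  have hfg0 : f g ≠ 0 := fun h0 => hg0 (hfinj (by rw [h0, map_zero]))
  have hY₁coeff : ∀ i j, (Y₁ i).coeff j = f (a (i, j)) := by
    intro i j
    have h1 : (Y i).coeff j = f g * (Y₁ i).coeff j := by
      conv_lhs => rw [hY₁ i]
      rw [HahnSeries.coeff_smul, smul_eq_mul]
    have h2 : (Y i).coeff j = f g * f (a (i, j)) := by
      rw [← map_mul, ← ha (i, j), hr (i, j)]
    exact mul_left_cancel₀ hfg0 (h1.symm.trans h2)
  refine ⟨f g, Y₁, hfg0, ?_, ?_⟩
  · funext i
    rw [Pi.smul_apply]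
    exact hY₁ i
  · -- some cofactor is a unit of `A`
    intro hred
    have hall : ∀ p : ι × ℤ, a p ∈ Ideal.comap f (IsLocalRing.maximalIdeal A) := by
      intro p
      rw [Ideal.mem_comap, ← IsLocalRing.residue_eq_zero_iff, ← hY₁coeff p.1 p.2]
      have h1 := congrFun hred p.1
      have h2 := congrArg
        (fun z : LaurentSeries (IsLocalRing.ResidueField A) => z.coeff p.2) h1
      simpa [famMap, coeffMap_coeff] using h2
    set P : Ideal R := Ideal.comap f (IsLocalRing.maximalIdeal A) with hP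
    have hJle : J ≤ Ideal.span {g} * P := by
      rw [hJ, Ideal.span_le]
      rintro x ⟨p, rfl⟩
      rw [ha p]
      exact Ideal.mul_mem_mul (Ideal.mem_span_singleton_self g) (hall p)
    have hgmem : g ∈ Ideal.span {g} * P := hJle hgJ
    rw [Ideal.mem_span_singleton_mul] at hgmem
    obtain ⟨t, ht, hgt⟩ := hgmem
    have ht1 : t = 1 := by
      have h3 : g * t = g * 1 := by rw [hgt, mul_one]
      exact mul_left_cancel₀ hg0 h3
    rw [ht1, hP, Ideal.mem_comap, map_one] at ht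
    exact (IsLocalRing.maximalIdeal.isMaximal A).ne_top
      ((Ideal.eq_top_iff_one _).mpr ht)

/-- **[ATT-NF], attained content**: a nonzero family over `Ω` with coefficients in the number
field `K0`, some nonzero multiple `c • X` (`c ∈ K0`) of which is integral, has attained
content. -/
theorem contentAttained_of_coeffsNF {ℓ : ℕ} (hℓ0 : ℓ ≠ 0) (hA : (ℓ : Ω) ∈ A.nonunits)
    (K0 : IntermediateField ℚ Ω) [FiniteDimensional ℚ K0]
    (X : ι → LaurentSeries Ω) (hX0 : X ≠ 0) (hX : ∀ i j, (X i).coeff j ∈ K0)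
    (c : Ω) (hc : c ≠ 0) (hcK : c ∈ K0) (Y : ι → LaurentSeries A)
    (hY : famMap A.subtype Y = c • X) :
    ContentAttainedFam A (IsLocalRing.residue A) X := by
  classical
  have hYcoeff : ∀ i j, (((Y i).coeff j : A) : Ω) = c * (X i).coeff j := by
    intro i j
    have h1 := congrFun hY i
    have h2 := congrArg (fun z : LaurentSeries Ω => z.coeff j) h1
    simpa [famMap, coeffMap_coeff] using h2
  have hYK : ∀ i j, (((Y i).coeff j : A) : Ω) ∈ K0 := by
    intro i j
    rw [hYcoeff]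
    exact mul_mem hcK (hX i j)
  have hY0 : Y ≠ 0 := by
    intro h0
    apply hX0
    funext i
    ext j
    have := hYcoeff i j
    rw [h0] at this
    have h3 : c * (X i).coeff j = 0 := by
      rw [← this]
      rfl
    rcases mul_eq_zero.mp h3 with h4 | h4
    · exact absurd h4 hc
    · rw [h4]
      rfl
  obtain ⟨g, Y₁, hg0, hgY, hred⟩ := exists_primitive_of_coeffsNF A hℓ0 hA K0 Y hYK hY0
  have hgΩ : (g : Ω) ≠ 0 := fun h0 => hg0 (Subtype.ext h0)
  refine ⟨(g : Ω)⁻¹ * c, mul_ne_zero (inv_ne_zero hgΩ) hc, Y₁, ?_, hred⟩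
  funext i
  ext j
  have h1 : (Y i).coeff j = g * (Y₁ i).coeff j := by
    rw [hgY, Pi.smul_apply, HahnSeries.coeff_smul, smul_eq_mul]
  have h2 := hYcoeff i j
  rw [h1] at h2
  have h3 : (((Y₁ i).coeff j : A) : Ω) = (g : Ω)⁻¹ * c * (X i).coeff j := by
    have h4 : (g : Ω) * (((Y₁ i).coeff j : A) : Ω) = c * (X i).coeff j := by
      rw [← h2]
      rfl
    rw [mul_assoc, ← h4, ← mul_assoc, inv_mul_cancel₀ hgΩ, one_mul]
  simp only [famMap, coeffMap_coeff, Pi.smul_apply, HahnSeries.coeff_smul, smul_eq_mul]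
  exact h3

end Fermat.Agent.T7.helper76

end
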