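import Fermat.Agent.P1.helper78_DictHR1
import Fermat.Agent.P1.helper92_DictPlaces
import Fermat.Agent.S55.helper74_DecGroup
import Fermat.Agent.T6.helper73_T6Iface

/-!
# T7 (S33), GLUE group, leaf [FT-NUQ] (helper78)

`M` a finite abelian group killed by `p ^ k` with an action of `G_ℚ`, which is the group of
`ℚ̄`-points of a finite cocommutative Hopf algebra over `ℤ_(p)` (`T6.helper73.FlatBody p M act`),
`p` odd, `P` ANY place of `ℚ̄` over `p`.  Then there is a subgroup `X0 ≤ M` (the points reducing to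
the identity at `P`) such that

* `(s - 1) M ⊆ X0` for every `s` in the inertia group of `P`   (FT-A, any exponent);
* `X0` has NO nonzero inertia-trivial subquotient: if `A ≤ B ≤ X0` and `(s - 1) B ⊆ A` for all
  `s` in the inertia group of `P`, then `B ≤ A`                     (FT-C + induction on the exponent).

* `ftNuq_local`         : the statement for `G_p = Gal(Ω/ℚ_p)`, `Ω = PadicAlgCl p`;
* `nuq_of_flatBody`     : the statement for a place `P` of `ℚ̄` over `p`;
* `nuq_span_of_flatBody`: the corollary for the span of the `s x - x`.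
-/

set_option autoImplicit false
set_option linter.unusedSectionVars false
set_option linter.style.haveILetI false

namespace Fermat.Agent.T7.helper78

open Fermat.Agent.S55.helper8 Fermat.Agent.S55.helper7 Fermat.Agent.P1.helper14
open Fermat.Agent.P1.helper92 Fermat.Agent.P1.helper70 Fermat.Agent.P1.helper78 WithConv

section Local

variable (p : ℕ) [Fact p.Prime]
variable {H : Type} [CommRing H] [Bialgebra (GaloisRep.ratLocalizedAt p) H]
  [Module.Finite (GaloisRep.ratLocalizedAt p) H]
  [Coalgebra.IsCocomm (GaloisRep.ratLocalizedAt p) H]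
variable {M : Type} [AddCommGroup M] [Finite M]

/-- **[FT-NUQ]**, local form. -/
theorem ftNuq_local (hp2 : p ≠ 2) (k : ℕ) (hk : ∀ x : M, p ^ k • x = 0)
    (lact : (PadicAlgCl p ≃ₐ[ℚ_[p]] PadicAlgCl p) → M → M)
    (e : WithConv (H →ₐ[GaloisRep.ratLocalizedAt p] PadicAlgCl p) ≃ M)
    (hadd : ∀ f g : WithConv (H →ₐ[GaloisRep.ratLocalizedAt p] PadicAlgCl p),
      e (f * g) = e f + e g)
    (heq : ∀ (τ : PadicAlgCl p ≃ₐ[ℚ_[p]] PadicAlgCl p)
      (f g : WithConv (H →ₐ[GaloisRep.ratLocalizedAt p] PadicAlgCl p)),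
      (∀ h : H, g.ofConv h = τ (f.ofConv h)) → e g = lact τ (e f)) :
    ∃ X0 : AddSubgroup M,
      (∀ τ ∈ locInertiaNat p, ∀ x, lact τ x - x ∈ X0) ∧
      ∀ A B : AddSubgroup M, A ≤ B → B ≤ X0 →
        (∀ τ ∈ locInertiaNat p, ∀ b ∈ B, lact τ b - b ∈ A) → B ≤ A := by
  classical
  have hpp : p.Prime := Fact.out
  have hfP : Finite (WithConv (H →ₐ[GaloisRep.ratLocalizedAt p] PadicAlgCl p)) :=
    Finite.of_injective e e.injective
  obtain ⟨F, hfd, hn, hval⟩ := dictP_exists_field p (H := H)
  have hgal : IsGalois ℚ_[p] F := IsGalois.mk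
  have hint : PointsIntegral p F (GaloisRep.ratLocalizedAt p) H := dictP_pointsIntegral p F
  -- the bijection `φ` between the `F`-valued points and `M`
  have hφinj : ∀ a b : WithConv (H →ₐ[GaloisRep.ratLocalizedAt p] F),
      e (dictP_incl p F a) = e (dictP_incl p F b) → a = b :=
    fun a b h => dictP_incl_injective p F (e.injective h)
  have hφsurj : ∀ x : M,
      ∃ a : WithConv (H →ₐ[GaloisRep.ratLocalizedAt p] F), e (dictP_incl p F a) = x := by
    intro x
    refine ⟨toConv (dictP_restr p F (e.symm x).ofConv (hval _)), ?_⟩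
    rw [dictP_incl_restr, Equiv.apply_symm_apply]
  have hφmul : ∀ a b : WithConv (H →ₐ[GaloisRep.ratLocalizedAt p] F),
      e (dictP_incl p F (a * b)) = e (dictP_incl p F a) + e (dictP_incl p F b) := by
    intro a b
    rw [map_mul, hadd]
  have hφone : e (dictP_incl p F (1 : WithConv (H →ₐ[GaloisRep.ratLocalizedAt p] F))) = 0 := by
    have h := hφmul 1 1
    rw [one_mul] at h
    exact left_eq_add.mp h
  have hφpow : ∀ (a : WithConv (H →ₐ[GaloisRep.ratLocalizedAt p] F)) (n : ℕ),
      e (dictP_incl p F (a ^ n)) = n • e (dictP_incl p F a) := by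
    intro a n
    induction n with
    | zero => rw [pow_zero, zero_smul, hφone]
    | succ k ih => rw [pow_succ, hφmul, ih, succ_nsmul]
  have hn1 : 1 ≤ p ^ k := Nat.one_le_pow _ _ hpp.pos
  have hpow_n : ∀ a : WithConv (H →ₐ[GaloisRep.ratLocalizedAt p] F), a ^ (p ^ k) = 1 := by
    intro a
    apply hφinj
    rw [hφpow, hk, hφone]
  have hneg : ∀ x : M, (p ^ k - 1) • x = - x := by
    intro x
    have h := hk x
    rw [← Nat.sub_add_cancel hn1, add_smul, one_smul] at h
    exact eq_neg_of_add_eq_zero_left h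
  -- equivariance
  have hequiv : ∀ (τ : PadicAlgCl p ≃ₐ[ℚ_[p]] PadicAlgCl p)
      (a : WithConv (H →ₐ[GaloisRep.ratLocalizedAt p] F)),
      e (dictP_incl p F (dictP_act p F (AlgEquiv.restrictNormalHom F τ) a)) =
        lact τ (e (dictP_incl p F a)) := by
    intro τ a
    apply heq τ
    intro h
    exact AlgEquiv.restrictNormal_commutes τ F (a.ofConv h)
  -- `lact τ` is additive
  have hladd : ∀ (τ : PadicAlgCl p ≃ₐ[ℚ_[p]] PadicAlgCl p) (x y : M),
      lact τ (x + y) = lact τ x + lact τ y := by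
    intro τ x y
    obtain ⟨a, rfl⟩ := hφsurj x
    obtain ⟨b, rfl⟩ := hφsurj y
    rw [← hφmul, ← hequiv, ← hequiv, ← hequiv, map_mul, hφmul]
  have hlzero : ∀ τ : PadicAlgCl p ≃ₐ[ℚ_[p]] PadicAlgCl p, lact τ 0 = 0 := by
    intro τ
    have h := hladd τ 0 0
    rw [add_zero] at h
    exact left_eq_add.mp h
  have hlsmul : ∀ (τ : PadicAlgCl p ≃ₐ[ℚ_[p]] PadicAlgCl p) (n : ℕ) (x : M),
      lact τ (n • x) = n • lact τ x := by
    intro τ n x
    induction n with
    | zero => rw [zero_smul, zero_smul, hlzero]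
    | succ k ih => rw [succ_nsmul, succ_nsmul, hladd, ih]
  have hlneg : ∀ (τ : PadicAlgCl p ≃ₐ[ℚ_[p]] PadicAlgCl p) (x : M),
      lact τ (- x) = - lact τ x := by
    intro τ x
    rw [← hneg, hlsmul, hneg]
  have hlsub : ∀ (τ : PadicAlgCl p ≃ₐ[ℚ_[p]] PadicAlgCl p) (x y : M),
      lact τ (x - y) = lact τ x - lact τ y := by
    intro τ x y
    rw [sub_eq_add_neg, hladd, hlneg, ← sub_eq_add_neg]
  -- `(σ a) a⁻¹`
  have hdiff : ∀ (τ : PadicAlgCl p ≃ₐ[ℚ_[p]] PadicAlgCl p)
      (a : WithConv (H →ₐ[GaloisRep.ratLocalizedAt p] F)),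
      e (dictP_incl p F
        (dictP_act p F (AlgEquiv.restrictNormalHom F τ) a * a ^ (p ^ k - 1))) =
        lact τ (e (dictP_incl p F a)) - e (dictP_incl p F a) := by
    intro τ a
    rw [hφmul, hequiv, hφpow, hneg, sub_eq_add_neg]
  -- FT-A for an arbitrary exponent
  have hA : ∀ σ ∈ inertia p F, ∀ a : WithConv (H →ₐ[GaloisRep.ratLocalizedAt p] F),
      PointRedOne p (dictP_act p F σ a * a ^ (p ^ k - 1)) := by
    intro σ hσ a h
    have hxx : a * a ^ (p ^ k - 1) = 1 := by
      rw [← pow_succ', Nat.sub_add_cancel hn1, hpow_n]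
    have h1 : algebraMap (GaloisRep.ratLocalizedAt p) F (Coalgebra.counit h) =
        (a * a ^ (p ^ k - 1)).ofConv h := by
      rw [hxx]
      rfl
    rw [h1]
    have e1 := AlgHom.convMul_apply (dictP_act p F σ a) (a ^ (p ^ k - 1)) h
    have e2 := AlgHom.convMul_apply a (a ^ (p ^ k - 1)) h
    have key := Fermat.Agent.P1.helper89.ordT_lift_sub_pos p a.ofConv
      (dictP_act p F σ a).ofConv (a ^ (p ^ k - 1)).ofConv
      (fun c => (mem_inertia p F).1 hσ _ (hint a c)) (fun b => hint (a ^ (p ^ k - 1)) b)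
      (Coalgebra.comul h)
    exact (congrArg₂ (fun u v => ordT p F (u - v)) e1 e2) ▸ key
  -- the subgroup of the points reducing to the identity
  let X0 : AddSubgroup M :=
    { carrier := {x | ∃ a : WithConv (H →ₐ[GaloisRep.ratLocalizedAt p] F),
        e (dictP_incl p F a) = x ∧ PointRedOne p a}
      zero_mem' := ⟨1, hφone, dictP_redOne_one p⟩
      add_mem' := by
        rintro x y ⟨a, rfl, ha⟩ ⟨b, rfl, hb⟩
        exact ⟨a * b, hφmul a b, dictP_redOne_mul p hint ha hb⟩
      neg_mem' := by
        rintro x ⟨a, rfl, ha⟩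
        refine ⟨a ^ (p ^ k - 1), ?_, dictP_redOne_pow p hint ha _⟩
        rw [hφpow, hneg] }
  have hX0 : ∀ a : WithConv (H →ₐ[GaloisRep.ratLocalizedAt p] F),
      e (dictP_incl p F a) ∈ X0 → PointRedOne p a := by
    rintro a ⟨b, hb, hb1⟩
    rw [← hφinj _ _ hb]
    exact hb1
  refine ⟨X0, ?_, ?_⟩
  · intro τ hτ x
    obtain ⟨a, rfl⟩ := hφsurj x
    exact ⟨_, hdiff τ a, hA _ (dictI_restrict_mem_inertia p F hτ) a⟩
  · intro A B hAB hBX hI
    -- `A` is stable under inertia
    have hAst : ∀ τ ∈ locInertiaNat p, ∀ a ∈ A, lact τ a ∈ A := by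
      intro τ hτ a ha
      have h1 := hI τ hτ a (hAB ha)
      have h2 : lact τ a = (lact τ a - a) + a := by abel
      rw [h2]
      exact A.add_mem h1 ha
    -- induction on the exponent
    have hind : ∀ j : ℕ, ∀ b ∈ B, p ^ j • b = 0 → b ∈ A := by
      intro j
      induction j with
      | zero =>
        intro b _ hb0
        rw [pow_zero, one_smul] at hb0
        rw [hb0]
        exact A.zero_mem
      | succ j ih =>
        intro b hb hb0
        obtain ⟨x', hx'⟩ := hφsurj (p ^ j • b)
        -- the finite inertia-stable submonoid `Y`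
        let Y' : Submonoid (WithConv (H →ₐ[GaloisRep.ratLocalizedAt p] F)) :=
          { carrier := {a | p • e (dictP_incl p F a) = 0 ∧
              ∃ a' ∈ A, e (dictP_incl p F a) = p ^ j • a'}
            one_mem' := by
              refine ⟨?_, 0, A.zero_mem, ?_⟩
              · rw [hφone, smul_zero]
              · rw [hφone, smul_zero]
            mul_mem' := by
              rintro a b ⟨ha0, a', ha', ha⟩ ⟨hb0, b', hb', hb⟩
              refine ⟨?_, a' + b', A.add_mem ha' hb', ?_⟩
              · rw [hφmul, smul_add, ha0, hb0, add_zero]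
              · rw [hφmul, ha, hb, smul_add] }
        have hfPF : Finite (WithConv (H →ₐ[GaloisRep.ratLocalizedAt p] F)) :=
          Finite.of_injective _ (dictP_incl_injective p F)
        have hxp : x' ^ p = 1 := by
          apply hφinj
          rw [hφpow, hx', smul_smul, ← pow_succ', hb0, hφone]
        have hmain : x' ∈ Y' := by
          apply Fermat.Agent.P1.helper71.ftC p F (GaloisRep.ratLocalizedAt p) H hp2 hint Y' x'
            (Set.toFinite _)
          · intro y hy
            apply hφinj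
            rw [hφpow, hy.1, hφone]
          · intro σ hσ y hy
            obtain ⟨τ, hτ, rfl⟩ := dictI_exists_lift p F hσ
            obtain ⟨hy0, a', ha', hya⟩ := hy
            refine ⟨dictP_act p F (AlgEquiv.restrictNormalHom F τ) y, ⟨?_, lact τ a',
              hAst τ hτ a' ha', ?_⟩, fun h => rfl⟩
            · rw [hequiv, ← hlsmul, hy0, hlzero]
            · rw [hequiv, hya, hlsmul]
          · exact hxp
          · apply hX0
            rw [hx']
            exact X0.nsmul_mem (hBX hb) _
          · intro σ hσ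
            obtain ⟨τ, hτ, rfl⟩ := dictI_exists_lift p F hσ
            refine ⟨dictP_act p F (AlgEquiv.restrictNormalHom F τ) x' * x' ^ (p ^ k - 1),
              ⟨?_, lact τ b - b, hI τ hτ b hb, ?_⟩, ?_⟩
            · rw [hdiff, hx', hlsmul, ← smul_sub, smul_smul, ← pow_succ', smul_sub,
                ← hlsmul, hb0, hlzero, sub_zero]
            · rw [hdiff, hx', hlsmul, smul_sub]
            · intro h
              have h1 : x' * (dictP_act p F (AlgEquiv.restrictNormalHom F τ) x' *
                  x' ^ (p ^ k - 1)) = dictP_act p F (AlgEquiv.restrictNormalHom F τ) x' := by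
                apply hφinj
                rw [hφmul, hdiff, hequiv]
                abel
              rw [h1]
              rfl
        obtain ⟨-, a', ha', hxa⟩ := hmain
        rw [hx'] at hxa
        have h3 : b - a' ∈ A := by
          apply ih (b - a') (B.sub_mem hb (hAB ha'))
          rw [smul_sub, hxa, sub_self]
        have h4 : b = (b - a') + a' := by abel
        rw [h4]
        exact A.add_mem h3 ha'
    intro b hb
    exact hind k b hb (hk b)

end Local

section Global

open Fermat.Agent.T6.helper73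
open scoped Pointwise

variable (p : ℕ) [Fact p.Prime]
variable {M : Type} [AddCommGroup M] [Finite M]

/-- **[FT-NUQ]** at the place `padicPlace p`. -/
theorem nuq_of_flatBody_padicPlace (hp2 : p ≠ 2) (act : Gq → M → M) (k : ℕ)
    (hk : ∀ x : M, p ^ k • x = 0) (hflat : FlatBody p M act) :
    ∃ X0 : AddSubgroup M,
      (∀ s ∈ (padicPlace p).inertiaSubgroupIn ℚ, ∀ x, act s x - x ∈ X0) ∧
      ∀ A B : AddSubgroup M, A ≤ B → B ≤ X0 →
        (∀ s ∈ (padicPlace p).inertiaSubgroupIn ℚ, ∀ b ∈ B, act s b - b ∈ A) → B ≤ A := by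
  obtain ⟨H, instR, instH, hfin, hflatH, hco, e, hadd, heq⟩ := hflat
  obtain ⟨X0, h1, h2⟩ := ftNuq_local p (H := H) hp2 k hk
    (fun τ => act (localGaloisToGlobal p τ))
    ((Fermat.Agent.P1.helper26.ptEquiv p).symm.trans e)
    (by
      intro f g
      simp only [Equiv.trans_apply]
      rw [Fermat.Agent.P1.helper26.ptEquiv_symm_mul, hadd])
    (by
      intro τ f g hfg
      simp only [Equiv.trans_apply]
      apply heq
      intro h
      have hinj : Function.Injective (padicEmbedding p) := (padicEmbedding p).injective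
      apply hinj
      rw [padicEmbedding_localGaloisToGlobal]
      exact (Fermat.Agent.P1.helper26.ptEquiv_symm_apply p g h).trans ((hfg h).trans
        (congrArg τ (Fermat.Agent.P1.helper26.ptEquiv_symm_apply p f h).symm)))
  refine ⟨X0, ?_, ?_⟩
  · intro s hs x
    have hdec : s ∈ (padicPlace p).decompositionSubgroup ℚ := by
      obtain ⟨y, -, rfl⟩ := hs
      exact y.2
    obtain ⟨τ, rfl⟩ := Fermat.Agent.S55.helper74.exists_localGaloisToGlobal_eq p hdec
    exact h1 τ hs x
  · intro A B hAB hBX hI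
    exact h2 A B hAB hBX (fun τ hτ b hb => hI _ hτ b hb)

/-- **[FT-NUQ]**: for a finite Galois module `M` killed by `p ^ k` which is the group of points
of a finite cocommutative Hopf algebra over `ℤ_(p)`, `p` odd, and ANY place `P` over `p`, there
is a subgroup `X0` containing all `s x - x` (`s` in the inertia group of `P`) without nonzero
inertia-trivial subquotient. -/
theorem nuq_of_flatBody (hp2 : p ≠ 2) (act : Gq → M → M) (hact : IsGalAct act) (k : ℕ)
    (hk : ∀ x : M, p ^ k • x = 0) (hflat : FlatBody p M act)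
    (P : ValuationSubring Kq) (hP : P.LiesOverPrime p) :
    ∃ X0 : AddSubgroup M,
      (∀ s ∈ P.inertiaSubgroupIn ℚ, ∀ x, act s x - x ∈ X0) ∧
      ∀ A B : AddSubgroup M, A ≤ B → B ≤ X0 →
        (∀ s ∈ P.inertiaSubgroupIn ℚ, ∀ b ∈ B, act s b - b ∈ A) → B ≤ A := by
  obtain ⟨X0, h1, h2⟩ := nuq_of_flatBody_padicPlace p hp2 act k hk hflat
  obtain ⟨hpl, -, hin, -⟩ := Fermat.Agent.P1.helper92.placesStatement
  obtain ⟨g, hg⟩ := hpl ⟨p, Fact.out⟩ P hP
  have hg' : P = g • padicPlace p := hg
  have hin1 : ∀ s : Gq, s ∈ P.inertiaSubgroupIn ℚ →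
      g⁻¹ * s * g ∈ (padicPlace p).inertiaSubgroupIn ℚ := by
    intro s hs
    have h := hin (padicPlace p) g (g⁻¹ * s * g)
    have e1 : g * (g⁻¹ * s * g) * g⁻¹ = s := by group
    rw [e1, ← hg'] at h
    exact h.mp hs
  have hin2 : ∀ s : Gq, s ∈ (padicPlace p).inertiaSubgroupIn ℚ →
      g * s * g⁻¹ ∈ P.inertiaSubgroupIn ℚ := by
    intro s hs
    have h := hin (padicPlace p) g s
    rw [← hg'] at h
    exact h.mpr hs
  -- the action by additive maps
  let ah : Gq → (M →+ M) := fun σ => AddMonoidHom.mk' (act σ) (hact.add σ)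
  have hah : ∀ σ x, ah σ x = act σ x := fun _ _ => rfl
  have hinv1 : ∀ x, act g⁻¹ (act g x) = x := by
    intro x
    rw [← hact.mul, inv_mul_cancel, hact.one]
  have hinv2 : ∀ x, act g (act g⁻¹ x) = x := by
    intro x
    rw [← hact.mul, mul_inv_cancel, hact.one]
  refine ⟨X0.comap (ah g⁻¹), ?_, ?_⟩
  · intro s hs x
    rw [AddSubgroup.mem_comap, map_sub, hah, hah]
    have h3 := h1 _ (hin1 s hs) (act g⁻¹ x)
    rw [hact.mul, hact.mul, hinv2] at h3
    exact h3
  · intro A B hAB hBX hI
    have h3 := h2 (A.comap (ah g)) (B.comap (ah g)) (AddSubgroup.comap_mono hAB)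
      (by
        intro y hy
        have h4 := hBX (AddSubgroup.mem_comap.mp hy)
        rw [AddSubgroup.mem_comap, hah, hah, hinv1] at h4
        exact h4)
      (by
        intro s hs y hy
        rw [AddSubgroup.mem_comap, map_sub, hah, hah]
        have h4 := hI _ (hin2 s hs) (act g y) (AddSubgroup.mem_comap.mp hy)
        rw [hact.mul, hact.mul, hinv1] at h4
        exact h4)
    intro b hb
    have h5 : act g⁻¹ b ∈ B.comap (ah g) := by
      rw [AddSubgroup.mem_comap, hah, hinv2]
      exact hb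
    have h6 := h3 h5
    rw [AddSubgroup.mem_comap, hah, hinv2] at h6
    exact h6

/-- **[FT-NUQ]**, corollary for the span of the `s x - x`. -/
theorem nuq_span_of_flatBody (hp2 : p ≠ 2) (act : Gq → M → M) (hact : IsGalAct act) (k : ℕ)
    (hk : ∀ x : M, p ^ k • x = 0) (hflat : FlatBody p M act)
    (P : ValuationSubring Kq) (hP : P.LiesOverPrime p) (A B : AddSubgroup M) (hAB : A ≤ B)
    (hB : B ≤ AddSubgroup.closure {y | ∃ s ∈ P.inertiaSubgroupIn ℚ, ∃ x, y = act s x - x})
    (hI : ∀ s ∈ P.inertiaSubgroupIn ℚ, ∀ b ∈ B, act s b - b ∈ A) : B ≤ A := by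
  obtain ⟨X0, h1, h2⟩ := nuq_of_flatBody p hp2 act hact k hk hflat P hP
  refine h2 A B hAB (hB.trans ?_) hI
  rw [AddSubgroup.closure_le]
  rintro y ⟨s, hs, x, rfl⟩
  exact h1 s hs x

end Global

end Fermat.Agent.T7.helper78
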