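import Fermat.Agent.T7.helper78_GOld72
import Fermat.Agent.T7.helper43_DegMaps

/-!
# T7 (S33), [G-ASM] twin (helper78): the contract [G] from [G-NEW] ALONE

`[G-OLD]` is closed (`gOld72`), the two push-forwards `α_*, β_* : J₀(N' p) → J₀(N')` are on main
(`helper43.alphaPush / betaPush`, Galois-equivariant).  Hence, by the extension lemma
`helper51.NUQ.aug_of_old_new₂`, the geometric contract `helper72.S33GeomStatement` follows from

`GNewStatement` : for `p` odd, `p ∤ N'`, `P` over `p`, `k` : there is a subgroup `Z₁` of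
`J₀(N' p)[p ^ k]` WITHOUT nonzero inertia-trivial subquotient which contains every element of
the inertia span killed by `α_*` and by `β_*`
(in the blueprint: `Z₁ = T0_k ∩ NEW`, [T0-SPAN] + [G-NEW]).

* `torsMap`           : restriction of an additive map to the torsion;
* `alphaTors`, `betaTors` : the push-forwards on `Tors`, equivariant for `inertiaAct72`;
* `s33Geom_of_gNew`   : `GNewStatement → helper72.S33GeomStatement`;
* `isOrdinaryAt_of_gNew` : the frozen S33 from `GNewStatement`.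
-/

set_option autoImplicit false
set_option linter.unusedSectionVars false
set_option linter.style.haveILetI false

open ModularCurve

namespace Fermat.Agent.T7.helper78

open Fermat.Agent.T6.helper73 Fermat.Agent.T7.helper72

/-- restriction of an additive map to the `n`-torsion -/
def torsMap {J J' : Type} [AddCommGroup J] [AddCommGroup J'] (f : J →+ J') (n : ℤ) :
    ↥(Submodule.torsionBy ℤ J n) →+ ↥(Submodule.torsionBy ℤ J' n) where
  toFun x := ⟨f (x : J), by
    have hx := x.2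
    rw [Submodule.mem_torsionBy_iff] at hx ⊢
    rw [← map_zsmul, hx, map_zero]⟩
  map_zero' := Subtype.ext (map_zero f)
  map_add' a b := Subtype.ext (map_add f (a : J) (b : J))

@[simp] theorem coe_torsMap {J J' : Type} [AddCommGroup J] [AddCommGroup J'] (f : J →+ J')
    (n : ℤ) (x : ↥(Submodule.torsionBy ℤ J n)) : ((torsMap f n x : _) : J') = f (x : J) := rfl

theorem torsMap_eq_zero_iff {J J' : Type} [AddCommGroup J] [AddCommGroup J'] (f : J →+ J')
    (n : ℤ) (x : ↥(Submodule.torsionBy ℤ J n)) : torsMap f n x = 0 ↔ f (x : J) = 0 := by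
  constructor
  · intro h
    exact congrArg Subtype.val h
  · intro h
    exact Subtype.ext h

section Push

variable (N' p : ℕ) [NeZero N'] [NeZero p] (k : ℕ)

/-- `α_*` on the `p ^ k`-torsion -/
noncomputable def alphaTors : Tors (N' * p) p k →+ Tors N' p k :=
  torsMap (Fermat.Agent.T7.helper43.alphaPush N' p) ((p : ℤ) ^ k)

/-- `β_*` on the `p ^ k`-torsion -/
noncomputable def betaTors : Tors (N' * p) p k →+ Tors N' p k :=
  torsMap (Fermat.Agent.T7.helper43.betaPush N' p) ((p : ℤ) ^ k)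

theorem alphaTors_equivariant (P : ValuationSubring Kq) (σ : ↥(P.inertiaSubgroupIn ℚ))
    (x : Tors (N' * p) p k) :
    alphaTors N' p k (inertiaAct72 (N' * p) p k P σ x) =
      inertiaAct72 N' p k P σ (alphaTors N' p k x) :=
  Subtype.ext (Fermat.Agent.T7.helper43.alphaPush_galois_smul N' p (σ : Gq) (x : JZero (N' * p)))

theorem betaTors_equivariant (P : ValuationSubring Kq) (σ : ↥(P.inertiaSubgroupIn ℚ))
    (x : Tors (N' * p) p k) :
    betaTors N' p k (inertiaAct72 (N' * p) p k P σ x) =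
      inertiaAct72 N' p k P σ (betaTors N' p k x) :=
  Subtype.ext (Fermat.Agent.T7.helper43.betaPush_galois_smul N' p (σ : Gq) (x : JZero (N' * p)))

end Push

/-- **Contract [G-NEW]** (with [T0-SPAN] built in): a subgroup of `J₀(N' p)[p ^ k]` without
nonzero inertia-trivial subquotient containing the part of the inertia span killed by the two
push-forwards to level `N'`. -/
def GNewStatement : Prop :=
  ∀ (p : ℕ), p.Prime → p ≠ 2 → ∀ (N' : ℕ) [NeZero N'] [NeZero p], 4 ∣ N' * p → ¬ p ∣ N' →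
    ∀ (P : ValuationSubring Kq), P.LiesOverPrime p → ∀ k : ℕ,
      ∃ Z₁ : AddSubgroup (Tors (N' * p) p k),
        Fermat.Agent.T7.helper51.NUQ (inertiaAct72 (N' * p) p k P) Z₁ ∧
        ∀ x ∈ Fermat.Agent.T7.helper51.aug (inertiaAct72 (N' * p) p k P),
          Fermat.Agent.T7.helper43.alphaPush N' p (x : JZero (N' * p)) = 0 →
          Fermat.Agent.T7.helper43.betaPush N' p (x : JZero (N' * p)) = 0 → x ∈ Z₁

/-- **[G-ASM]**: the geometric contract [G] of the assembler from [G-NEW] alone. -/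
theorem s33Geom_of_gNew (h : GNewStatement) : S33GeomStatement := by
  intro p hp hp2 M _ h4 hpM hp2M P hP k
  obtain ⟨N', rfl⟩ : ∃ N', M = N' * p := ⟨M / p, (Nat.div_mul_cancel hpM).symm⟩
  haveI : Fact p.Prime := ⟨hp⟩
  haveI : NeZero p := ⟨hp.ne_zero⟩
  haveI : NeZero N' := ⟨fun h0 => NeZero.ne (N' * p) (by rw [h0, zero_mul])⟩
  have hpN : ¬ p ∣ N' := by
    intro hd
    apply hp2M
    rw [pow_two]
    exact Nat.mul_dvd_mul_right hd p
  obtain ⟨Z₁, hZ₁, hker⟩ := h p hp hp2 N' h4 hpN P hP k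
  refine Fermat.Agent.T7.helper51.NUQ.aug_of_old_new₂ (alphaTors N' p k) (betaTors N' p k)
    (fun σ x => alphaTors_equivariant N' p k P σ x)
    (fun σ x => betaTors_equivariant N' p k P σ x)
    (gOld72 N' p hp2 hpN k P hP) hZ₁ ?_
  intro x hx h1 h2
  exact hker x hx ((torsMap_eq_zero_iff _ _ x).mp h1) ((torsMap_eq_zero_iff _ _ x).mp h2)

variable {p : ℕ} {N : ℕ} [NeZero N] {S : Finset ℕ}
  {𝒪 : Type} [CommRing 𝒪] [IsDomain 𝒪] [IsDiscreteValuationRing 𝒪]
  [IsAdicComplete (IsLocalRing.maximalIdeal 𝒪) 𝒪]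
  {θ : CuspForm.heckeAlgebra N 2 (↑S : Set ℕ) →+* IsLocalRing.ResidueField 𝒪}
  {T : Type} [CommRing T] [IsLocalRing T] [IsNoetherianRing T]
  [IsAdicComplete (IsLocalRing.maximalIdeal T) T] [Algebra 𝒪 T] [IsLocalHom (algebraMap 𝒪 T)]
  [Module.Finite 𝒪 T] [Module.Free 𝒪 T]

/-- **S33 from [G-NEW] alone.** -/
theorem isOrdinaryAt_of_gNew (h : GNewStatement)
    [Finite (IsLocalRing.ResidueField 𝒪)] [CharZero 𝒪]
    (hp : p.Prime) (hp2 : p ≠ 2) (hp𝒪 : (p : 𝒪) ∈ IsLocalRing.maximalIdeal 𝒪)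
    (hN : p ∣ N ∧ ¬ p ^ 2 ∣ N)
    (hNS : ∀ q : ℕ, q.Prime → q ∣ N → q ∈ S)
    (H : CuspForm.HeckeGaloisRepDatum N (↑S : Set ℕ) 𝒪 θ T)
    (hres : (GaloisRepAdic.ofResidualGaloisRep H.ρ.residual).IsOrdinaryAt p) :
    H.ρ.IsOrdinaryAt p :=
  isOrdinaryAt_of_geom (s33Geom_of_gNew h) hp hp2 hp𝒪 hN hNS H hres

end Fermat.Agent.T7.helper78
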