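import Fermat.Agent.T7.helper78_OldInst
import Fermat.Agent.T7.helper51_NUQAsm

/-!
# T7 (S33), leaf [G-OLD] in the vocabulary of the assembly (helper78)

`hold` of `helper51.NUQ.aug_of_leaves` / `NUQ.aug_of_old_new₂` at the level `M'` prime to `p`:
for ANY place `P` over the odd prime `p` and any family `actI` of additive maps realising the
action of the inertia group of `P` on `Tors M' p k = J₀(M')[p ^ k]`,

* `gOld_nuqOn` : `helper25.NuqOn (actTors M' p k) I_P (span of the s x - x)`;
* `gOld`       : `helper51.NUQ actI (helper51.aug actI)`;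
* `gOld_X0`    : the finer form with the subgroup `X0` of the points reducing to the identity:
                 `aug actI ≤ X0` and `helper51.NUQ actI X0`.
-/

set_option autoImplicit false
set_option linter.unusedSectionVars false
set_option linter.style.haveILetI false

open ModularCurve

namespace Fermat.Agent.T7.helper78

open Fermat.Agent.T6.helper73

/-- **[G-OLD]**, unfolded shape. -/
theorem gOld_nuqOn (M' : ℕ) [NeZero M'] (p : ℕ) [Fact p.Prime] (hp2 : p ≠ 2) (hpM : ¬ p ∣ M')
    (k : ℕ) (P : ValuationSubring Kq) (hP : P.LiesOverPrime p) :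
    Fermat.Agent.T7.helper25.NuqOn (actTors M' p k) (P.inertiaSubgroupIn ℚ)
      (AddSubgroup.closure {y : Tors M' p k | ∃ s ∈ P.inertiaSubgroupIn ℚ, ∃ x : Tors M' p k,
        y = actTors M' p k s x - x}) := by
  haveI : Finite (Tors M' p k) := Fermat.Agent.T6.helper36.finite_tors M' p k
  intro A B hAB hB hI
  exact nuq_span_of_flatBody p hp2 (actTors M' p k) (isGalAct_actTors M' p k) k
    (tors_nsmul_eq_zero M' p k) (flatBody_tors M' p hpM k) P hP A B hAB hB hI

/-- **[G-OLD]** = `hold` of `helper51.NUQ.aug_of_leaves`. -/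
theorem gOld (M' : ℕ) [NeZero M'] (p : ℕ) [Fact p.Prime] (hp2 : p ≠ 2) (hpM : ¬ p ∣ M')
    (k : ℕ) (P : ValuationSubring Kq) (hP : P.LiesOverPrime p)
    (actI : ↥(P.inertiaSubgroupIn ℚ) → Tors M' p k →+ Tors M' p k)
    (hact : ∀ (σ : ↥(P.inertiaSubgroupIn ℚ)) (x : Tors M' p k),
      actI σ x = actTors M' p k (σ : Gq) x) :
    Fermat.Agent.T7.helper51.NUQ actI (Fermat.Agent.T7.helper51.aug actI) := by
  rw [Fermat.Agent.T7.helper51.aug_eq_closure (actTors M' p k) (P.inertiaSubgroupIn ℚ) actI hact]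
  exact Fermat.Agent.T7.helper51.nuq_of_nuqOn (actTors M' p k) (P.inertiaSubgroupIn ℚ) actI hact
    (gOld_nuqOn M' p hp2 hpM k P hP)

/-- **[G-OLD]**, finer form: the subgroup `X0` of the points reducing to the identity contains
the inertia span and has no nonzero inertia-trivial subquotient. -/
theorem gOld_X0 (M' : ℕ) [NeZero M'] (p : ℕ) [Fact p.Prime] (hp2 : p ≠ 2) (hpM : ¬ p ∣ M')
    (k : ℕ) (P : ValuationSubring Kq) (hP : P.LiesOverPrime p)
    (actI : ↥(P.inertiaSubgroupIn ℚ) → Tors M' p k →+ Tors M' p k)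
    (hact : ∀ (σ : ↥(P.inertiaSubgroupIn ℚ)) (x : Tors M' p k),
      actI σ x = actTors M' p k (σ : Gq) x) :
    ∃ X0 : AddSubgroup (Tors M' p k),
      Fermat.Agent.T7.helper51.aug actI ≤ X0 ∧ Fermat.Agent.T7.helper51.NUQ actI X0 := by
  obtain ⟨X0, h1, h2⟩ := nuq_tors M' p hp2 hpM k P hP
  refine ⟨X0, ?_, Fermat.Agent.T7.helper51.nuq_of_nuqOn (actTors M' p k)
    (P.inertiaSubgroupIn ℚ) actI hact h2⟩
  refine Fermat.Agent.T7.helper51.aug_le_of_forall ?_
  intro σ x
  rw [hact]
  exact h1 σ σ.2 x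

end Fermat.Agent.T7.helper78
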