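import Fermat.Agent.T7.helper78_GOld
import Fermat.Agent.T7.helper72_Frontier

/-!
# T7 (S33), leaf [G-OLD] for the assembler's action `inertiaAct72` (helper78)

`gOld72` : at every level `M'` prime to the odd prime `p`, for every place `P` over `p` and
every `k`, `helper51.NUQ (inertiaAct72 M' p k P) (helper51.aug (inertiaAct72 M' p k P))`:
the statement of the contract [G] (`helper72.S33GeomStatement`) at the levels PRIME to `p`,
i.e. `hold` of `helper51.NUQ.aug_of_leaves` with `act₁ := inertiaAct72 M' p k P`.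
-/

set_option autoImplicit false
set_option linter.unusedSectionVars false

open ModularCurve

namespace Fermat.Agent.T7.helper78

open Fermat.Agent.T6.helper73

/-- **[G-OLD]** for `helper72.inertiaAct72`. -/
theorem gOld72 (M' : ℕ) [NeZero M'] (p : ℕ) [Fact p.Prime] (hp2 : p ≠ 2) (hpM : ¬ p ∣ M')
    (k : ℕ) (P : ValuationSubring Kq) (hP : P.LiesOverPrime p) :
    Fermat.Agent.T7.helper51.NUQ (Fermat.Agent.T7.helper72.inertiaAct72 M' p k P)
      (Fermat.Agent.T7.helper51.aug (Fermat.Agent.T7.helper72.inertiaAct72 M' p k P)) :=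
  gOld M' p hp2 hpM k P hP (Fermat.Agent.T7.helper72.inertiaAct72 M' p k P)
    (fun _ _ => Subtype.ext rfl)

/-- **[G-OLD]**, finer form for `helper72.inertiaAct72`. -/
theorem gOld72_X0 (M' : ℕ) [NeZero M'] (p : ℕ) [Fact p.Prime] (hp2 : p ≠ 2) (hpM : ¬ p ∣ M')
    (k : ℕ) (P : ValuationSubring Kq) (hP : P.LiesOverPrime p) :
    ∃ X0 : AddSubgroup (Tors M' p k),
      Fermat.Agent.T7.helper51.aug (Fermat.Agent.T7.helper72.inertiaAct72 M' p k P) ≤ X0 ∧
      Fermat.Agent.T7.helper51.NUQ (Fermat.Agent.T7.helper72.inertiaAct72 M' p k P) X0 :=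
  gOld_X0 M' p hp2 hpM k P hP (Fermat.Agent.T7.helper72.inertiaAct72 M' p k P)
    (fun _ _ => Subtype.ext rfl)

end Fermat.Agent.T7.helper78
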