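/-
T7 (S33), helper84: **[HNT], last clause** - the mod `p` cyclotomic character is ONTO on the
inertia group of every place of `ℚ̄` over `p`.

* `exists_mem_inertia_zeta_pow` : for `A` over `p`, `ζ` a primitive `p`-th root of unity and `a`
  prime to `p`, there is `σ` in the inertia group of `A` with `σ ζ = ζ ^ a`;
* `exists_mem_inertia_zeta_ne`  : for `p ≠ 2` some `σ` in the inertia group of `A` moves `ζ`;
* `exists_mem_inertia_zeta_sq`  : for `p ≠ 2` some `σ` in the inertia group has `σ ζ = ζ ^ 2 ≠ ζ`.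

Inputs (both on main, S14 closure): `S14.helper54.inertia_eq_top_of_cyclotomic` (total ramification
of `ℚ(ζ_p)` at `p`) and `S14.helper91.exists_mem_inertia_restrict_eq` (inertia groups surject).
-/
import Mathlib
import Fermat.Agent.S14.helper54_FieldBridge

set_option autoImplicit false
set_option linter.style.haveILetI false
set_option linter.unusedSectionVars false

open scoped NumberField

namespace Fermat.Agent.T7.helper84

open Fermat.Agent.S14.helper54 Fermat.Agent.S14.helper91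

/-- **The mod `p` cyclotomic character is onto on inertia at `p`.** -/
theorem exists_mem_inertia_zeta_pow {p : ℕ} [Fact p.Prime]
    (A : ValuationSubring (AlgebraicClosure ℚ)) (hA : A.LiesOverPrime p)
    {ζ : AlgebraicClosure ℚ} (hζ : IsPrimitiveRoot ζ p) {a : ℕ} (ha : a.Coprime p) :
    ∃ σ ∈ A.inertiaSubgroupIn ℚ, σ ζ = ζ ^ a := by
  have hp : p.Prime := Fact.out
  haveI : NeZero p := ⟨hp.ne_zero⟩
  -- the cyclotomic field inside `ℚ̄`
  haveI hfd : FiniteDimensional ℚ (cycField ζ) := finiteDimensional_cycField ζ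
  haveI hnf : NumberField (cycField ζ) := ⟨⟩
  haveI hgal : IsGalois ℚ (cycField ζ) := isGalois_cycField hζ
  haveI hcyc : IsCyclotomicExtension {p} ℚ (cycField ζ) := isCyclotomicExtension_cycField hζ
  haveI hlo : (primeOf (cycField ζ) A).LiesOver (Ideal.span {(p : ℤ)}) :=
    primeOf_liesOver A hA
  have htop := inertia_eq_top_of_cyclotomic (p := p) (cycField ζ) (primeOf (cycField ζ) A)
  -- `ζ` as an element of the cyclotomic field
  let ζL : cycField ζ := ⟨ζ, IntermediateField.mem_adjoin_simple_self ℚ ζ⟩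
  have hζL : IsPrimitiveRoot ζL p := by
    have h1 : IsPrimitiveRoot ((algebraMap (cycField ζ) (AlgebraicClosure ℚ)) ζL) p := hζ
    exact IsPrimitiveRoot.of_map_of_injective h1 (FaithfulSMul.algebraMap_injective _ _)
  -- the automorphism `ζ ↦ ζ ^ a`
  have hirr : Irreducible (Polynomial.cyclotomic p ℚ) :=
    Polynomial.cyclotomic.irreducible_rat hp.pos
  have hz := IsCyclotomicExtension.zeta_spec p ℚ (cycField ζ)
  have hμ : IsPrimitiveRoot (IsCyclotomicExtension.zeta p ℚ (cycField ζ) ^ a) p :=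
    hz.pow_of_coprime a ha
  let τ : cycField ζ ≃ₐ[ℚ] cycField ζ := IsCyclotomicExtension.fromZetaAut hμ hirr
  have hτz : τ (IsCyclotomicExtension.zeta p ℚ (cycField ζ)) =
      IsCyclotomicExtension.zeta p ℚ (cycField ζ) ^ a :=
    IsCyclotomicExtension.fromZetaAut_spec hμ hirr
  obtain ⟨j, -, hj⟩ := hz.eq_pow_of_pow_eq_one hζL.pow_eq_one
  have hτζ : τ ζL = ζL ^ a := by
    rw [← hj, map_pow, hτz, ← pow_mul, ← pow_mul, mul_comm]
  -- lift to the inertia group of `A`
  have hτI : τ ∈ Ideal.inertia (cycField ζ ≃ₐ[ℚ] cycField ζ) (primeOf (cycField ζ) A) := by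
    rw [htop]
    exact Subgroup.mem_top τ
  obtain ⟨σ, hσI, hσ⟩ := exists_mem_inertia_restrict_eq (cycField ζ) A hp hA τ hτI
  refine ⟨σ, hσI, ?_⟩
  have h1 := AlgEquiv.restrictNormal_commutes σ (cycField ζ) ζL
  have h2 : σ.restrictNormal (cycField ζ) = τ := hσ
  rw [h2, hτζ] at h1
  have h3 : algebraMap (cycField ζ) (AlgebraicClosure ℚ) ζL = ζ := rfl
  rw [h3, map_pow, h3] at h1
  exact h1.symm

/-- for `p` odd, some element of the inertia group at `p` has `σ ζ = ζ ^ 2 ≠ ζ`. -/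
theorem exists_mem_inertia_zeta_sq {p : ℕ} [Fact p.Prime] (hp2 : p ≠ 2)
    (A : ValuationSubring (AlgebraicClosure ℚ)) (hA : A.LiesOverPrime p)
    {ζ : AlgebraicClosure ℚ} (hζ : IsPrimitiveRoot ζ p) :
    ∃ σ ∈ A.inertiaSubgroupIn ℚ, σ ζ = ζ ^ 2 ∧ σ ζ ≠ ζ := by
  have hp : p.Prime := Fact.out
  have hcop : Nat.Coprime 2 p := by
    rw [Nat.coprime_comm]
    exact (Nat.Prime.coprime_iff_not_dvd hp).mpr (fun h => hp2 ((Nat.prime_dvd_prime_iff_eq hp
      Nat.prime_two).mp h))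
  obtain ⟨σ, hσI, hσ⟩ := exists_mem_inertia_zeta_pow A hA hζ hcop
  refine ⟨σ, hσI, hσ, ?_⟩
  rw [hσ]
  intro h
  -- `ζ ^ 2 = ζ` forces `ζ = 1`
  have hζ0 : ζ ≠ 0 := hζ.ne_zero hp.ne_zero
  have h1 : ζ = 1 := by
    have : ζ * ζ = ζ * 1 := by rw [mul_one, ← pow_two]; exact h
    exact mul_left_cancel₀ hζ0 this
  exact hζ.ne_one hp.one_lt h1

/-- for `p` odd, some element of the inertia group at `p` moves `ζ`. -/
theorem exists_mem_inertia_zeta_ne {p : ℕ} [Fact p.Prime] (hp2 : p ≠ 2)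
    (A : ValuationSubring (AlgebraicClosure ℚ)) (hA : A.LiesOverPrime p)
    {ζ : AlgebraicClosure ℚ} (hζ : IsPrimitiveRoot ζ p) :
    ∃ σ ∈ A.inertiaSubgroupIn ℚ, σ ζ ≠ ζ := by
  obtain ⟨σ, hσI, -, hne⟩ := exists_mem_inertia_zeta_sq hp2 A hA hζ
  exact ⟨σ, hσI, hne⟩

end Fermat.Agent.T7.helper84
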