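/-
T7 (S33), helper84: **[DET] + [HNT]** for every Hecke-Galois datum.

* `det_eq_cycloChar`     : for a Hecke-Galois datum `H` (any level, `p ∈ m_T`) there is the
                           `p`-adic cyclotomic character `d : G_ℚ → Tˣ` (`P3.IsCycloChar p d`) with
                           `det (H.ρ σ) = d σ` for ALL `σ`;
* `detIsCyclotomic`      : `H.ρ.DetIsCyclotomic p` (Prelude shape);
* `exists_inertia_not_mem_smul_top_of_det` : abstract [HNT] - a `GaloisRepAdic T` with cyclotomic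
                           determinant, `p` odd, has `σ` in the inertia group of any `A | p` and `v`
                           with `ρ σ v - v ∉ m_T V`;
* `hnt`                  : [HNT] for `H.ρ` = hypothesis `hnt` of `helper25.exists_ordinary_line`.

Inputs on main: `T2.helper72.det_eq_cyclo`, `P3.helper26.cycloStatement`, `P3.helper91.cheb`,
`helper84.exists_mem_inertia_zeta_sq`.
-/
import Mathlib
import Fermat.Agent.T2.helper72_Wire34
import Fermat.Agent.P3.helper26_Cyclo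
import Fermat.Agent.P3.helper91_Cheb
import Fermat.Agent.T7.helper84_InertiaZeta
import Fermat.Prelude.Def_CuspForm_HeckeGaloisRepDatum
import Fermat.Prelude.Def_GaloisRep_LocalConditions

set_option autoImplicit false
set_option linter.style.haveILetI false
set_option linter.unusedSectionVars false
set_option linter.unusedVariables false

open Polynomial

noncomputable section

namespace Fermat.Agent.T7.helper84

open Fermat.Agent.P3

section Abstract

variable {T : Type} [CommRing T] [IsLocalRing T]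

/-- **abstract [HNT]**: a representation whose determinant is congruent to `a` modulo `m_T`
whenever `σ` raises the `p`-th roots of unity to the power `a` is NOT trivial modulo `m_T` on the
inertia group of any place over `p` (`p` odd). -/
theorem exists_inertia_not_mem_smul_top_of_det {p : ℕ} [Fact p.Prime] (hp2 : p ≠ 2)
    (A : ValuationSubring (AlgebraicClosure ℚ)) (hA : A.LiesOverPrime p)
    (ρ : GaloisRepAdic T)
    (hdet : ∀ (σ : AlgebraicClosure ℚ ≃ₐ[ℚ] AlgebraicClosure ℚ) (a : ℕ),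
      (∀ μ : AlgebraicClosure ℚ, μ ^ p = 1 → σ μ = μ ^ a) →
        LinearMap.det (ρ.ρ σ) - (a : T) ∈ IsLocalRing.maximalIdeal T) :
    ∃ σ ∈ A.inertiaSubgroupIn ℚ, ∃ v : ρ.V,
      ρ.ρ σ v - v ∉ IsLocalRing.maximalIdeal T • (⊤ : Submodule T ρ.V) := by
  have hp : p.Prime := Fact.out
  haveI : NeZero p := ⟨hp.ne_zero⟩
  -- a primitive `p`-th root of unity
  obtain ⟨ζ, hζ⟩ : ∃ ζ : AlgebraicClosure ℚ, IsPrimitiveRoot ζ p :=
    HasEnoughRootsOfUnity.exists_primitiveRoot (AlgebraicClosure ℚ) p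
  obtain ⟨σ, hσI, hσ, -⟩ := exists_mem_inertia_zeta_sq hp2 A hA hζ
  refine ⟨σ, hσI, ?_⟩
  by_contra hcon0
  have hcon : ∀ v : ρ.V, ρ.ρ σ v - v ∈ IsLocalRing.maximalIdeal T • (⊤ : Submodule T ρ.V) :=
    fun v => by_contra fun h => hcon0 ⟨v, h⟩
  -- `σ` raises every `p`-th root of unity to the square
  have hall : ∀ μ : AlgebraicClosure ℚ, μ ^ p = 1 → σ μ = μ ^ 2 := by
    intro μ hμ
    obtain ⟨j, -, rfl⟩ := hζ.eq_pow_of_pow_eq_one hμ
    rw [map_pow, hσ, ← pow_mul, ← pow_mul, mul_comm]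
  have h1 := hdet σ 2 hall
  have h2 : LinearMap.det (ρ.ρ σ) - 1 ∈ IsLocalRing.maximalIdeal T :=
    Fermat.Agent.T2.helper72.det_sub_one_mem _ _ hcon
  -- so `1 = 2 - 1 ∈ m_T`
  have h3 : (1 : T) ∈ IsLocalRing.maximalIdeal T := by
    have := Ideal.sub_mem _ h2 h1
    have e : LinearMap.det (ρ.ρ σ) - 1 - (LinearMap.det (ρ.ρ σ) - ((2 : ℕ) : T)) = 1 := by
      push_cast
      ring
    rw [e] at this
    exact this
  exact (Ideal.ne_top_iff_one _).mp (IsLocalRing.maximalIdeal.isMaximal T).ne_top h3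

/-- abstract [HNT] from the Prelude's `DetIsCyclotomic`. -/
theorem exists_inertia_not_mem_smul_top {p : ℕ} [Fact p.Prime] (hp2 : p ≠ 2)
    (A : ValuationSubring (AlgebraicClosure ℚ)) (hA : A.LiesOverPrime p)
    (ρ : GaloisRepAdic T) (hρ : ρ.DetIsCyclotomic p) :
    ∃ σ ∈ A.inertiaSubgroupIn ℚ, ∃ v : ρ.V,
      ρ.ρ σ v - v ∉ IsLocalRing.maximalIdeal T • (⊤ : Submodule T ρ.V) := by
  refine exists_inertia_not_mem_smul_top_of_det hp2 A hA ρ ?_
  intro σ a h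
  have h1 := hρ.2 1 σ a (by simpa using h)
  rw [pow_one] at h1
  rw [Ideal.mem_span_singleton'] at h1
  obtain ⟨c, hc⟩ := h1
  rw [← hc]
  exact Ideal.mul_mem_left _ _ hρ.1

end Abstract

section Datum

variable {p : ℕ} {N : ℕ} [NeZero N] {S : Finset ℕ}
  {𝒪 : Type} [CommRing 𝒪] [IsDomain 𝒪] [IsDiscreteValuationRing 𝒪]
  [IsAdicComplete (IsLocalRing.maximalIdeal 𝒪) 𝒪]
  {θ : CuspForm.heckeAlgebra N 2 (↑S : Set ℕ) →+* IsLocalRing.ResidueField 𝒪}
  {T : Type} [CommRing T] [IsLocalRing T] [IsNoetherianRing T]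
  [IsAdicComplete (IsLocalRing.maximalIdeal T) T] [Algebra 𝒪 T] [IsLocalHom (algebraMap 𝒪 T)]
  [Module.Finite 𝒪 T] [Module.Free 𝒪 T]

/-- **[DET]** the determinant of a Hecke-Galois datum is the `p`-adic cyclotomic character. -/
theorem det_eq_cycloChar [Fact p.Prime] (hpT : (p : T) ∈ IsLocalRing.maximalIdeal T)
    (H : CuspForm.HeckeGaloisRepDatum N (↑S : Set ℕ) 𝒪 θ T) :
    ∃ d : GQ →* Tˣ, IsCycloChar p d ∧ IsAdicContinuousChar d ∧
      ∀ σ : GQ, LinearMap.det (H.ρ.ρ σ) = (d σ : T) := by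
  classical
  have hp : p.Prime := Fact.out
  obtain ⟨d, hd, hdc, hdφ, -⟩ := Fermat.Agent.P3.helper26.cycloStatement p T hpT
  refine ⟨d, hd, hdc, ?_⟩
  -- the bad set
  let Bad : Finset ℕ := insert p (S ∪ N.primeFactors)
  have hBad : ∀ ℓ : ℕ, ℓ.Prime → ℓ ∉ Bad → ℓ ≠ p ∧ ℓ ∉ S ∧ ¬ ℓ ∣ N := by
    intro ℓ hℓ hℓB
    simp only [Bad, Finset.mem_insert, Finset.mem_union, not_or] at hℓB
    refine ⟨hℓB.1, hℓB.2.1, fun hdvd => hℓB.2.2 ?_⟩
    exact Nat.mem_primeFactors.mpr ⟨hℓ, hdvd, NeZero.ne N⟩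
  intro σ
  refine Fermat.Agent.T2.helper72.det_eq_cyclo (p := p) Fermat.Agent.P3.helper91.cheb d hdc Bad ?_ H.ρ ?_ σ
  · intro ℓ hℓ hℓB A hA φ hφ
    exact ((hdφ ℓ hℓ (hBad ℓ hℓ hℓB).1 A hA).2 φ hφ)
  · intro ℓ hℓ hℓB A hA φ hφ
    obtain ⟨-, hℓS, hℓN⟩ := hBad ℓ hℓ hℓB
    have h1 := H.charpoly_frob ℓ hℓ hℓN (fun h => hℓS (Finset.mem_coe.mp h)) A hA φ hφ
    exact Fermat.Agent.T2.helper72.det_of_charpoly_eq H.ρ.finrank_eq _ _ _ h1

/-- **[DET]**, Prelude shape. -/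
theorem detIsCyclotomic [Fact p.Prime] (hpT : (p : T) ∈ IsLocalRing.maximalIdeal T)
    (H : CuspForm.HeckeGaloisRepDatum N (↑S : Set ℕ) 𝒪 θ T) :
    H.ρ.DetIsCyclotomic p := by
  obtain ⟨d, hd, -, hdet⟩ := det_eq_cycloChar hpT H
  refine ⟨hpT, fun n σ a h => ?_⟩
  rw [hdet σ]
  have h1 := hd n σ a h
  push_cast
  exact h1

/-- `p ∈ m_T` from `p ∈ m_𝒪`. -/
theorem natCast_mem_maximalIdeal_of_base (hp𝒪 : (p : 𝒪) ∈ IsLocalRing.maximalIdeal 𝒪) :
    (p : T) ∈ IsLocalRing.maximalIdeal T := by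
  have h1 : (p : T) = algebraMap 𝒪 T (p : 𝒪) := (map_natCast (algebraMap 𝒪 T) p).symm
  rw [h1]
  exact map_nonunit (algebraMap 𝒪 T) _ hp𝒪

/-- **[HNT]** for a Hecke-Galois datum: inertia at `p` is not trivial on `V / m_T V`
(`p` odd).  This is the hypothesis `hnt` of `helper25.exists_ordinary_line`. -/
theorem hnt (hp : p.Prime) (hp2 : p ≠ 2) (hp𝒪 : (p : 𝒪) ∈ IsLocalRing.maximalIdeal 𝒪)
    (H : CuspForm.HeckeGaloisRepDatum N (↑S : Set ℕ) 𝒪 θ T)
    (A : ValuationSubring (AlgebraicClosure ℚ)) (hA : A.LiesOverPrime p) :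
    ∃ σ ∈ A.inertiaSubgroupIn ℚ, ∃ v : H.ρ.V,
      H.ρ.ρ σ v - v ∉ IsLocalRing.maximalIdeal T • (⊤ : Submodule T H.ρ.V) := by
  haveI : Fact p.Prime := ⟨hp⟩
  exact exists_inertia_not_mem_smul_top hp2 A hA H.ρ
    (detIsCyclotomic (natCast_mem_maximalIdeal_of_base hp𝒪) H)

end Datum

end Fermat.Agent.T7.helper84

end
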