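/-
T7 (S33) [B3-input] (helper87): **q-expansions of the norms along the two degeneracy maps**.

`q` a prime not dividing `N`, `W` the Atkin-Lehner involution of `F_{N q}`, `ζ` a primitive
`q`-th root of unity.  In the variable `t` (`q`-expansion variable of level `N q`):

* `norm_eq_prod_of_embeddings` : `σ (N_{E/F} x) = ∏ i, τ i x` for a full family of embeddings;
* `norm_alpha_qExpand` : `(N_α h)(t^q) = h(t^q) · ∏_{k < q} (W h)(ζ^k t)`;
* `norm_beta_qExpand`  : `(N_β h)(t^q) = (W h)(t^q) · ∏_{k < q} h(ζ^k t)`;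
* `exists_incl_norm_alpha`, `exists_incl_norm_beta` : the norms of a function with an
  `A`-integral pair of expansions have `A`-integral expansions.
-/
import Mathlib
import Fermat.Agent.T2.helper87_RegRed2
import Fermat.Agent.T2.helper48_UOpDeg

set_option autoImplicit false
set_option synthInstance.maxHeartbeats 400000
set_option linter.style.haveILetI false
set_option linter.unusedSectionVars false
set_option linter.unusedVariables false
set_option linter.style.longLine false

noncomputable section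

open HahnSeries IntermediateField AlgebraicCurve ModularCurve
open Fermat.Agent.S18.helper19 Fermat.Agent.P2.helper29 Fermat.Agent.T2.helper36
open Fermat.Agent.T2.helper22

namespace Fermat.Agent.T7.helper87

open Fermat.Agent.P2.helper93 (twistL twistL_coeff)
open Fermat.Agent.T2.helper87 (embW embW_none embW_some embW_alpha embW_injective coeHom
  coeHom_apply twistHom twistHom_apply)

/-! ### Norms and full families of embeddings -/

section Generic

open Module

/-- **the norm is the product over a full family of embeddings** -/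
theorem norm_eq_prod_of_embeddings {F E Ω : Type*} [Field F] [Field E] [Field Ω]
    [Algebra F E] [FiniteDimensional F E] [Algebra.IsSeparable F E] (σ : F →+* Ω) {ι : Type*}
    [Fintype ι] (τ : ι → (E →+* Ω)) (hτ : Function.Injective τ)
    (hcomp : ∀ i, (τ i).comp (algebraMap F E) = σ)
    (hcard : Fintype.card ι = finrank F E) (x : E) :
    σ (Algebra.norm F x) = ∏ i, τ i x := by
  classical
  let Ωb := AlgebraicClosure Ω
  let _ : Algebra F Ωb := ((algebraMap Ω Ωb).comp σ).toAlgebra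
  have halg : ∀ a : F, algebraMap F Ωb a = algebraMap Ω Ωb (σ a) := fun a => rfl
  let τ' : ι → (E →ₐ[F] Ωb) := fun i =>
    { (algebraMap Ω Ωb).comp (τ i) with
      commutes' := fun a => by
        show algebraMap Ω Ωb (τ i (algebraMap F E a)) = algebraMap F Ωb a
        rw [halg, ← hcomp i]
        rfl }
  have hτ'app : ∀ i y, τ' i y = algebraMap Ω Ωb (τ i y) := fun i y => rfl
  have hinj : Function.Injective τ' := by
    intro i j hij
    apply hτ
    ext y
    have := congrArg (fun f : E →ₐ[F] Ωb => f y) hij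
    simp only [hτ'app] at this
    exact (algebraMap Ω Ωb).injective this
  have hcard' : Fintype.card ι = Fintype.card (E →ₐ[F] Ωb) := by
    rw [hcard, AlgHom.card F E Ωb]
  have hbij : Function.Bijective τ' :=
    (Fintype.bijective_iff_injective_and_card τ').mpr ⟨hinj, hcard'⟩
  have h := Algebra.norm_eq_prod_embeddings F Ωb x
  rw [← Equiv.prod_comp (Equiv.ofBijective τ' hbij)] at h
  apply (algebraMap Ω Ωb).injective
  rw [map_prod, ← halg, h]
  rfl

end Generic

/-! ### The norms along `α` and `β` in `q`-expansions -/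

section Modular

open Fermat.Agent.P2.helper93 (rootUnit coe_rootUnit coeffMap_subtype_rot
  coeffMap_subtype_injective)

variable {N q : ℕ} [NeZero N] [NeZero q] (hq : q.Prime) (hqN : ¬ q ∣ N)

include hq hqN in
/-- **`(N_α h)(t^q) = h(t^q) · ∏_{k < q} (W h)(ζ^k t)`** -/
theorem norm_alpha_qExpand {ζ : Kb} (hζ : IsPrimitiveRoot ζ q) (f : FF (N * q)) :
    letI := algebraAlong (heckeAlphaBar Kb N q)
    qExpand Kb q ((Algebra.norm (FF N) f : FF N) : LaurentSeries Kb)
      = qExpand Kb q (f : LaurentSeries Kb) *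
        ∏ k : Fin q, twistL (ζ ^ (k : ℕ))
          ((atkinLehner N q hq hqN f : FF (N * q)) : LaurentSeries Kb) := by
  letI := algebraAlong (heckeAlphaBar Kb N q)
  have hfr := Fermat.Agent.P2.helper93.finrank_alpha N q hq hqN
  haveI fd : FiniteDimensional (FF N) (FF (N * q)) :=
    Module.finite_of_finrank_pos (by rw [hfr]; omega)
  haveI : Algebra.IsSeparable (FF N) (FF (N * q)) := inferInstance
  have hζ1 : ζ ^ q = 1 := hζ.pow_eq_one
  have hζ0 : ζ ≠ 0 := hζ.ne_zero hq.ne_zero
  have key := norm_eq_prod_of_embeddings (F := FF N) (E := FF (N * q))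
    ((qExpand Kb q).comp (coeHom N)) (embW N q hq hqN ζ hζ0) (embW_injective hζ0 hζ)
    (fun i => RingHom.ext fun c => embW_alpha hζ0 hζ1 i c)
    (by rw [Fintype.card_option, Fintype.card_fin, hfr]) f
  rw [Fintype.prod_option] at key
  exact key

/-- the embeddings over `β F_N` : compose with `W` -/
def embWb (ζ : Kb) (hζ : ζ ≠ 0) (i : Option (Fin q)) : FF (N * q) →+* LaurentSeries Kb :=
  (embW N q hq hqN ζ hζ i).comp
    ((atkinLehner N q hq hqN : FF (N * q) ≃ₐ[Kb] FF (N * q)) : FF (N * q) →+* FF (N * q))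

theorem embWb_apply (ζ : Kb) (hζ : ζ ≠ 0) (i : Option (Fin q)) (f : FF (N * q)) :
    embWb hq hqN ζ hζ i f = embW N q hq hqN ζ hζ i (atkinLehner N q hq hqN f) := rfl

theorem embWb_injective {ζ : Kb} (hζ : ζ ≠ 0) (hprim : IsPrimitiveRoot ζ q) :
    Function.Injective (embWb hq hqN ζ hζ) := by
  intro a b hab
  apply embW_injective (N := N) (hq := hq) (hqN := hqN) hζ hprim
  refine RingHom.ext fun f => ?_
  have := congrArg (fun φ : FF (N * q) →+* LaurentSeries Kb =>
    φ (atkinLehner N q hq hqN f)) hab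
  simp only [embWb_apply, atkinLehner_atkinLehner] at this
  exact this

include hq hqN in
/-- **`(N_β h)(t^q) = (W h)(t^q) · ∏_{k < q} h(ζ^k t)`** -/
theorem norm_beta_qExpand {ζ : Kb} (hζ : IsPrimitiveRoot ζ q) (f : FF (N * q)) :
    letI := algebraAlong (heckeBetaBar Kb N q)
    qExpand Kb q ((Algebra.norm (FF N) f : FF N) : LaurentSeries Kb)
      = qExpand Kb q ((atkinLehner N q hq hqN f : FF (N * q)) : LaurentSeries Kb) *
        ∏ k : Fin q, twistL (ζ ^ (k : ℕ)) (f : LaurentSeries Kb) := by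
  letI := algebraAlong (heckeBetaBar Kb N q)
  have hfr : Module.finrank (FF N) (FF (N * q)) = q + 1 :=
    (Fermat.Agent.T2.helper48.finrank_beta_eq_finrank_alpha N q).trans
      (Fermat.Agent.P2.helper93.finrank_alpha N q hq hqN)
  haveI fd : FiniteDimensional (FF N) (FF (N * q)) :=
    Module.finite_of_finrank_pos (by rw [hfr]; omega)
  haveI : Algebra.IsSeparable (FF N) (FF (N * q)) := inferInstance
  have hζ1 : ζ ^ q = 1 := hζ.pow_eq_one
  have hζ0 : ζ ≠ 0 := hζ.ne_zero hq.ne_zero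
  have key := norm_eq_prod_of_embeddings (F := FF N) (E := FF (N * q))
    ((qExpand Kb q).comp (coeHom N)) (embWb hq hqN ζ hζ0) (embWb_injective hq hqN hζ0 hζ)
    (fun i => RingHom.ext fun c => by
      show embWb hq hqN ζ hζ0 i (heckeBetaBar Kb N q c) = _
      rw [embWb_apply, atkinLehner_heckeBetaBar]
      exact embW_alpha hζ0 hζ1 i c)
    (by rw [Fintype.card_option, Fintype.card_fin, hfr]) f
  rw [Fintype.prod_option] at key
  refine key.trans ?_
  rw [embWb_apply, embW_none]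
  congr 1
  refine Finset.prod_congr rfl fun k _ => ?_
  rw [embWb_apply, embW_some, atkinLehner_atkinLehner]

/-! ### Integral form -/

variable (A : ValuationSubring Kb)

/-- the unit `ζ^k` of `A` -/
def zetaUnit {ζ : Kb} (hζ1 : ζ ^ q = 1) (k : ℕ) : (↥A)ˣ :=
  rootUnit A hq.ne_zero (ζ := ζ ^ k)
    (by rw [← pow_mul, mul_comm, pow_mul, hζ1, one_pow])

theorem coe_zetaUnit {ζ : Kb} (hζ1 : ζ ^ q = 1) (k : ℕ) :
    (((zetaUnit hq A hζ1 k : (↥A)ˣ) : ↥A) : Kb) = ζ ^ k := rfl

/-- **the product `NU`**: `NU(Y)(t) = ∏_{k < q} Y(ζ^k t)` on integral series -/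
def nuProd {ζ : Kb} (hζ1 : ζ ^ q = 1) (Y : LaurentSeries A) : LaurentSeries A :=
  ∏ k : Fin q, Fermat.Agent.P2.helper94.rot (zetaUnit hq A hζ1 (k : ℕ)) Y

theorem incl_nuProd {ζ : Kb} (hζ1 : ζ ^ q = 1) (Y : LaurentSeries A) :
    incl A (nuProd hq A hζ1 Y) = ∏ k : Fin q, twistL (ζ ^ (k : ℕ)) (incl A Y) := by
  rw [nuProd, map_prod]
  refine Finset.prod_congr rfl fun k _ => ?_
  rw [coeffMap_subtype_rot, coe_zetaUnit]

theorem nuProd_mul {ζ : Kb} (hζ1 : ζ ^ q = 1) (Y Y' : LaurentSeries A) :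
    nuProd hq A hζ1 (Y * Y') = nuProd hq A hζ1 Y * nuProd hq A hζ1 Y' := by
  rw [nuProd, nuProd, nuProd, ← Finset.prod_mul_distrib]
  exact Finset.prod_congr rfl fun k _ => map_mul _ _ _

theorem nuProd_one {ζ : Kb} (hζ1 : ζ ^ q = 1) : nuProd hq A hζ1 (1 : LaurentSeries A) = 1 := by
  rw [nuProd]
  exact Finset.prod_eq_one fun k _ => map_one _

include hqN in
/-- **integral form of the norm along `α`**: for an `A`-integral pair `(Y₁, Y₂)` of `h` the
norm `N_α h` has an `A`-integral expansion `Z`, and `Z(t^q) = Y₁(t^q) · NU(Y₂)`. -/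
theorem exists_incl_norm_alpha {ζ : Kb} (hζ : IsPrimitiveRoot ζ q) {f : FF (N * q)}
    {Y₁ Y₂ : LaurentSeries A} (hrep : IsRep A (atkinLehner N q hq hqN) f Y₁ Y₂) :
    letI := algebraAlong (heckeAlphaBar Kb N q)
    ∃ Z : LaurentSeries A,
      incl A Z = ((Algebra.norm (FF N) f : FF N) : LaurentSeries Kb) ∧
      qExpand A q Z = qExpand A q Y₁ * nuProd hq A hζ.pow_eq_one Y₂ := by
  letI := algebraAlong (heckeAlphaBar Kb N q)
  have key := norm_alpha_qExpand hq hqN hζ f
  rw [← hrep.1, ← hrep.2, ← Fermat.Agent.T2.helper96.incl_qExpand,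
    ← incl_nuProd hq A hζ.pow_eq_one, ← map_mul] at key
  obtain ⟨Z, hZ⟩ := Fermat.Agent.T2.helper87.exists_incl_of_qExpand_mem q A ⟨_, key.symm⟩
  refine ⟨Z, hZ, ?_⟩
  apply coeffMap_subtype_injective (A := A)
  show incl A (qExpand A q Z) = incl A _
  rw [Fermat.Agent.T2.helper96.incl_qExpand, hZ, key]

include hqN in
/-- **integral form of the norm along `β`**: `Z(t^q) = Y₂(t^q) · NU(Y₁)`. -/
theorem exists_incl_norm_beta {ζ : Kb} (hζ : IsPrimitiveRoot ζ q) {f : FF (N * q)}
    {Y₁ Y₂ : LaurentSeries A} (hrep : IsRep A (atkinLehner N q hq hqN) f Y₁ Y₂) :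
    letI := algebraAlong (heckeBetaBar Kb N q)
    ∃ Z : LaurentSeries A,
      incl A Z = ((Algebra.norm (FF N) f : FF N) : LaurentSeries Kb) ∧
      qExpand A q Z = qExpand A q Y₂ * nuProd hq A hζ.pow_eq_one Y₁ := by
  letI := algebraAlong (heckeBetaBar Kb N q)
  have key := norm_beta_qExpand hq hqN hζ f
  rw [← hrep.1, ← hrep.2, ← Fermat.Agent.T2.helper96.incl_qExpand,
    ← incl_nuProd hq A hζ.pow_eq_one, ← map_mul] at key
  obtain ⟨Z, hZ⟩ := Fermat.Agent.T2.helper87.exists_incl_of_qExpand_mem q A ⟨_, key.symm⟩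
  refine ⟨Z, hZ, ?_⟩
  apply coeffMap_subtype_injective (A := A)
  show incl A (qExpand A q Z) = incl A _
  rw [Fermat.Agent.T2.helper96.incl_qExpand, hZ, key]

end Modular

/-! ### Depth raising: `NU(1 + π X) = 1 + π q · (…) + π² · (…)` -/

section Depth

/-- `∏ (1 + π x_k) = 1 + π ∑ x_k + π² z` -/
theorem prod_one_add_mul {S : Type*} [CommRing S] {ι : Type*} (s : Finset ι) (π : S)
    (x : ι → S) :
    ∃ z : S, ∏ k ∈ s, (1 + π * x k) = 1 + π * ∑ k ∈ s, x k + π * π * z := by
  classical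
  induction s using Finset.induction_on with
  | empty => exact ⟨0, by simp⟩
  | insert a s ha ih =>
    obtain ⟨z, hz⟩ := ih
    refine ⟨z + x a * ∑ k ∈ s, x k + π * x a * z, ?_⟩
    rw [Finset.prod_insert ha, Finset.sum_insert ha, hz]
    ring

/-- the sum of the `n`-th powers of the `q`-th roots of unity -/
theorem sum_zpow_primitiveRoot {K : Type*} [Field K] {q : ℕ} (hq : q ≠ 0) {ζ : K}
    (hζ : IsPrimitiveRoot ζ q) (n : ℤ) :
    ∑ k : Fin q, (ζ ^ (k : ℕ)) ^ n = if (q : ℤ) ∣ n then (q : K) else 0 := by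
  have hζ0 : ζ ≠ 0 := hζ.ne_zero hq
  have e : ∀ k : Fin q, (ζ ^ (k : ℕ)) ^ n = (ζ ^ n) ^ (k : ℕ) := fun k => by
    rw [← zpow_natCast ζ, ← zpow_mul, mul_comm, zpow_mul, zpow_natCast]
  simp only [e]
  rw [Fin.sum_univ_eq_sum_range (fun k => (ζ ^ n) ^ k) q]
  split_ifs with h
  · have h1 : ζ ^ n = 1 := (hζ.zpow_eq_one_iff_dvd n).mpr h
    simp [h1]
  · have h1 : ζ ^ n ≠ 1 := fun h1 => h ((hζ.zpow_eq_one_iff_dvd n).mp h1)
    have h2 : (ζ ^ n) ^ q = 1 := by
      rw [← zpow_natCast, ← zpow_mul, mul_comm, zpow_mul, zpow_natCast, hζ.pow_eq_one, one_zpow]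
    have h3 := mul_geom_sum (ζ ^ n) q
    rw [h2, sub_self] at h3
    exact (mul_eq_zero.mp h3).resolve_left (sub_ne_zero.mpr h1)

variable {q : ℕ} [NeZero q] (hq : q.Prime) (A : ValuationSubring Kb)

/-- the part of a series with exponents divisible by `q` -/
def qPart (q : ℕ) {R : Type*} [Zero R] (X : LaurentSeries R) : LaurentSeries R where
  coeff n := if (q : ℤ) ∣ n then X.coeff n else 0
  isPWO_support' := X.isPWO_support.mono fun n hn => by
    simp only [Function.mem_support, ne_eq] at hn ⊢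
    intro h
    exact hn (by rw [h, ite_self])

theorem qPart_coeff (q : ℕ) {R : Type*} [Zero R] (X : LaurentSeries R) (n : ℤ) :
    (qPart q X).coeff n = if (q : ℤ) ∣ n then X.coeff n else 0 := rfl

/-- **the trace**: `∑_{k < q} X(ζ^k t) = q · X^{(q)}` -/
theorem sum_rot_zetaUnit {ζ : Kb} (hζ : IsPrimitiveRoot ζ q) (X : LaurentSeries A) :
    ∑ k : Fin q, Fermat.Agent.P2.helper94.rot (zetaUnit hq A hζ.pow_eq_one (k : ℕ)) X
      = HahnSeries.C ((q : ℕ) : A) * qPart q X := by
  ext n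
  rw [HahnSeries.coeff_sum, HahnSeries.C_mul_eq_smul, HahnSeries.coeff_smul, qPart_coeff]
  simp only [Fermat.Agent.P2.helper94.rot_coeff]
  rw [← Finset.sum_mul]
  have hsum : (∑ k : Fin q, (((zetaUnit hq A hζ.pow_eq_one (k : ℕ)) ^ n : (↥A)ˣ) : ↥A))
      = if (q : ℤ) ∣ n then ((q : ℕ) : ↥A) else 0 := by
    apply Subtype.ext
    have h1 := sum_zpow_primitiveRoot hq.ne_zero hζ n
    rw [AddSubmonoidClass.coe_finsetSum]
    have h2 : ∀ k : Fin q, ((((zetaUnit hq A hζ.pow_eq_one (k : ℕ)) ^ n : (↥A)ˣ) : ↥A) : Kb)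
        = (ζ ^ (k : ℕ)) ^ n := fun k => by
      have h := map_zpow (Units.map (A.subtype : ↥A →* Kb))
        (zetaUnit hq A hζ.pow_eq_one (k : ℕ)) n
      have h2 := congrArg (fun v : Kbˣ => (v : Kb)) h
      simp only [Units.coe_map, Units.val_zpow_eq_zpow_val] at h2
      exact h2
    simp only [h2]
    rw [h1]
    split_ifs <;> simp
  rw [hsum]
  split_ifs with h
  · rfl
  · rw [zero_mul, smul_zero]

/-- **depth raising**: `NU(1 + π X) = 1 + π q · X^{(q)} + π² · Z`. -/
theorem nuProd_one_add {ζ : Kb} (hζ : IsPrimitiveRoot ζ q) (π : A) (X : LaurentSeries A) :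
    ∃ Z : LaurentSeries A,
      nuProd hq A hζ.pow_eq_one (1 + HahnSeries.C π * X)
        = 1 + HahnSeries.C (π * ((q : ℕ) : A)) * qPart q X + HahnSeries.C (π * π) * Z := by
  obtain ⟨z, hz⟩ := prod_one_add_mul (Finset.univ : Finset (Fin q)) (HahnSeries.C π)
    (fun k => Fermat.Agent.P2.helper94.rot (zetaUnit hq A hζ.pow_eq_one (k : ℕ)) X)
  refine ⟨z, ?_⟩
  have e : nuProd hq A hζ.pow_eq_one (1 + HahnSeries.C π * X)
      = ∏ k : Fin q, (1 + HahnSeries.C π *
          Fermat.Agent.P2.helper94.rot (zetaUnit hq A hζ.pow_eq_one (k : ℕ)) X) := by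
    rw [nuProd]
    refine Finset.prod_congr rfl fun k _ => ?_
    rw [map_add, map_one, map_mul]
    congr 2
    apply HahnSeries.ext
    funext n
    rw [Fermat.Agent.P2.helper94.rot_coeff]
    rcases eq_or_ne n 0 with rfl | h
    · simp
    · have hC : (HahnSeries.C π : LaurentSeries A).coeff n = 0 :=
        HahnSeries.coeff_single_of_ne (r := π) h
      rw [hC, mul_zero]
  rw [e, hz, sum_rot_zetaUnit hq A hζ, map_mul, map_mul]
  ring

end Depth

end Fermat.Agent.T7.helper87

end
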