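/-
T7 (S33), box [B4] (helper88): the contract `helper72.S33B4Statement` of the frontier chain
(`helper72_B34Asm`), proved.  One-line wrapper around `helper88.s33B4`.
-/
import Fermat.Agent.T7.helper88_B4Asm
import Fermat.Agent.T7.helper72_B34Asm

set_option autoImplicit false

namespace Fermat.Agent.T7.helper88

/-- **Contract [B4]** of the frontier chain of S33. -/
theorem s33B4Statement : Fermat.Agent.T7.helper72.S33B4Statement :=
  s33B4

end Fermat.Agent.T7.helper88
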