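import Mathlib
import Fermat.Agent.P2.helper94_ESFormal

/-!
# T7 (S33), leaf [NU-DEPTH] (helper92): the norm of the ramified cusp raises the depth

Setting: `A` a domain, `u` a unit with `u ^ p = 1` (`p` prime), `rot u` the rotation
`t ↦ u t` of Laurent series (P2, helper94).  For an ideal `I` of `A` let `coeffIn I` be the ideal of
the Laurent series all of whose coefficients lie in `I`.

* `mem_coeffIn`, `coeffIn_mono`, `mul_mem_coeffIn_mul`, `pow_mem_coeffIn_pow`,
  `prod_mem_coeffIn_pow`, `rot_mem_coeffIn` : calculus of `coeffIn`.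
* `sum_rot_mem` : the trace `∑_{i<p} rot (u^i) x` of `x ∈ coeffIn I` lies in `coeffIn (p I)`.
* `esymm_rot_mem` : the elementary symmetric functions `e_k`, `0 < k < p`, of the conjugates
  `rot (u^i) y`, `y ∈ coeffIn I`, lie in `coeffIn (p I)` (Newton identities).
* `prod_rot_one_add_sub_one_mem` : **depth raising**: for `y ∈ coeffIn I`,
  `∏_{i<p} rot (u^i) (1 + y) - 1 ∈ coeffIn (p I + I^p)`.
* `prod_rot_sub_one_mem` : the same for `Y` with `Y - 1 ∈ coeffIn I`.
-/

set_option autoImplicit false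

noncomputable section

open ModularCurve Finset

namespace Fermat.Agent.T7.helper92

open Fermat.Agent.P2.helper94

section CoeffIn

variable {A : Type*} [CommRing A]

/-- The ideal of the Laurent series all of whose coefficients lie in `I`. -/
def coeffIn (I : Ideal A) : Ideal (LaurentSeries A) :=
  RingHom.ker (coeffMap (Ideal.Quotient.mk I))

theorem mem_coeffIn {I : Ideal A} {x : LaurentSeries A} :
    x ∈ coeffIn I ↔ ∀ k : ℤ, x.coeff k ∈ I := by
  unfold coeffIn
  rw [RingHom.mem_ker]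
  constructor
  · intro h k
    have h1 := congrArg (fun z : LaurentSeries (A ⧸ I) => z.coeff k) h
    simp only [coeffMap_coeff, HahnSeries.coeff_zero] at h1
    exact Ideal.Quotient.eq_zero_iff_mem.mp h1
  · intro h
    ext k
    simp only [coeffMap_coeff, HahnSeries.coeff_zero]
    exact Ideal.Quotient.eq_zero_iff_mem.mpr (h k)

theorem coeffIn_mono {I J : Ideal A} (h : I ≤ J) : coeffIn I ≤ coeffIn J := by
  intro x hx
  rw [mem_coeffIn] at hx ⊢
  exact fun k => h (hx k)

theorem mul_mem_coeffIn_mul {I J : Ideal A} {x y : LaurentSeries A} (hx : x ∈ coeffIn I)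
    (hy : y ∈ coeffIn J) : x * y ∈ coeffIn (I * J) := by
  rw [mem_coeffIn] at hx hy ⊢
  intro k
  rw [HahnSeries.coeff_mul]
  exact Ideal.sum_mem _ fun ij _ => Ideal.mul_mem_mul (hx _) (hy _)

theorem one_mem_coeffIn_top : (1 : LaurentSeries A) ∈ coeffIn (⊤ : Ideal A) := by
  rw [mem_coeffIn]
  exact fun _ => trivial

theorem pow_mem_coeffIn_pow {I : Ideal A} {x : LaurentSeries A} (hx : x ∈ coeffIn I) (n : ℕ) :
    x ^ n ∈ coeffIn (I ^ n) := by
  induction n with
  | zero =>
    rw [pow_zero, pow_zero, Ideal.one_eq_top]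
    exact one_mem_coeffIn_top
  | succ n ih =>
    rw [pow_succ, pow_succ]
    exact mul_mem_coeffIn_mul ih hx

theorem prod_mem_coeffIn_pow {ι : Type*} {I : Ideal A} (s : Finset ι) (f : ι → LaurentSeries A)
    (hf : ∀ i ∈ s, f i ∈ coeffIn I) : ∏ i ∈ s, f i ∈ coeffIn (I ^ s.card) := by
  classical
  induction s using Finset.induction_on with
  | empty =>
    rw [Finset.prod_empty, Finset.card_empty, pow_zero, Ideal.one_eq_top]
    exact one_mem_coeffIn_top
  | insert a s ha ih =>
    rw [Finset.prod_insert ha, Finset.card_insert_of_notMem ha, pow_succ, mul_comm (I ^ s.card)]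
    exact mul_mem_coeffIn_mul (hf a (Finset.mem_insert_self a s))
      (ih fun i hi => hf i (Finset.mem_insert_of_mem hi))

theorem rot_mem_coeffIn {I : Ideal A} (u : Aˣ) {x : LaurentSeries A} (hx : x ∈ coeffIn I) :
    rot u x ∈ coeffIn I := by
  rw [mem_coeffIn] at hx ⊢
  intro k
  rw [rot_coeff]
  exact Ideal.mul_mem_left _ _ (hx k)

theorem natCast_mul_mem_coeffIn {I : Ideal A} (p : ℕ) {x : LaurentSeries A} (hx : x ∈ coeffIn I) :
    (p : LaurentSeries A) * x ∈ coeffIn (Ideal.span {(p : A)} * I) := by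
  rw [mem_coeffIn] at hx ⊢
  intro k
  have h1 : ((p : LaurentSeries A) * x).coeff k = (p : A) * x.coeff k := by
    rw [← nsmul_eq_mul, ← nsmul_eq_mul]
    rfl
  rw [h1]
  exact Ideal.mul_mem_mul (Ideal.subset_span rfl) (hx k)

end CoeffIn

section Trace

variable {A : Type*} [CommRing A] [IsDomain A]

/-- the sum of the powers of a `p`-th root of unity is `p` or `0` -/
theorem sum_pow_eq_of_pow_eq_one (p : ℕ) (w : A) (hw : w ^ p = 1) :
    ∑ i ∈ Finset.range p, w ^ i = (p : A) ∨ ∑ i ∈ Finset.range p, w ^ i = 0 := by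
  by_cases h1 : w = 1
  · left
    rw [h1]
    simp
  · right
    have h2 : (∑ i ∈ Finset.range p, w ^ i) * (w - 1) = 0 := by
      rw [geom_sum_mul, hw, sub_self]
    rcases mul_eq_zero.mp h2 with h | h
    · exact h
    · exact absurd (sub_eq_zero.mp h) h1

/-- **Trace**: the sum of the conjugates of `x ∈ coeffIn I` lies in `coeffIn (p I)`. -/
theorem sum_rot_mem (p : ℕ) (u : Aˣ) (hu : u ^ p = 1) {I : Ideal A} {x : LaurentSeries A}
    (hx : x ∈ coeffIn I) :
    ∑ i ∈ Finset.range p, rot (u ^ i) x ∈ coeffIn (Ideal.span {(p : A)} * I) := by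
  rw [mem_coeffIn] at hx ⊢
  intro k
  have h1 : (∑ i ∈ Finset.range p, rot (u ^ i) x).coeff k
      = (∑ i ∈ Finset.range p, (((u ^ k : Aˣ) : A)) ^ i) * x.coeff k := by
    rw [Finset.sum_mul]
    have h2 : (∑ i ∈ Finset.range p, rot (u ^ i) x).coeff k
        = ∑ i ∈ Finset.range p, (rot (u ^ i) x).coeff k := by
      induction (Finset.range p) using Finset.induction_on with
      | empty => simp
      | insert a s ha ih => rw [Finset.sum_insert ha, Finset.sum_insert ha, HahnSeries.coeff_add, ih]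
    rw [h2]
    refine Finset.sum_congr rfl fun i _ => ?_
    rw [rot_coeff]
    congr 1
    rw [← Units.val_pow_eq_pow_val]
    congr 1
    rw [← zpow_natCast (u ^ k) i, ← zpow_mul, ← zpow_natCast u i, ← zpow_mul, mul_comm]
  rw [h1]
  have hw : (((u ^ k : Aˣ) : A)) ^ p = 1 := by
    rw [← Units.val_pow_eq_pow_val, ← zpow_natCast (u ^ k) p, ← zpow_mul, mul_comm, zpow_mul,
      zpow_natCast, hu, one_zpow, Units.val_one]
  rcases sum_pow_eq_of_pow_eq_one p _ hw with h | h
  · rw [h]
    exact Ideal.mul_mem_mul (Ideal.subset_span rfl) (hx k)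
  · rw [h, zero_mul]
    exact Ideal.zero_mem _

end Trace

section Newton

variable {A : Type*} [CommRing A] [IsDomain A]

/-- the power sums of the conjugates of `y ∈ coeffIn I` lie in `coeffIn (p I)` -/
theorem psum_rot_mem (p : ℕ) (u : Aˣ) (hu : u ^ p = 1) {I : Ideal A} {y : LaurentSeries A}
    (hy : y ∈ coeffIn I) (k : ℕ) (hk : 0 < k) :
    ∑ i ∈ Finset.range p, (rot (u ^ i) y) ^ k ∈ coeffIn (Ideal.span {(p : A)} * I) := by
  have h1 : y ^ k ∈ coeffIn I := by
    obtain ⟨j, rfl⟩ : ∃ j, k = j + 1 := ⟨k - 1, by omega⟩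
    rw [pow_succ]
    exact Ideal.mul_mem_left _ _ hy
  have h2 := sum_rot_mem p u hu h1
  simp_rw [map_pow] at h2
  exact h2

/-- The family of the conjugates, indexed by `Fin p`. -/
def conj (p : ℕ) (u : Aˣ) (y : LaurentSeries A) : Fin p → LaurentSeries A :=
  fun i => rot (u ^ (i : ℕ)) y

omit [IsDomain A] in
theorem aeval_psum_conj (p : ℕ) (u : Aˣ) (y : LaurentSeries A) (k : ℕ) :
    MvPolynomial.aeval (conj p u y) (MvPolynomial.psum (Fin p) ℤ k)
      = ∑ i ∈ Finset.range p, (rot (u ^ i) y) ^ k := by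
  rw [MvPolynomial.psum, map_sum]
  simp_rw [map_pow, MvPolynomial.aeval_X]
  rw [← Fin.sum_univ_eq_sum_range (fun i => (rot (u ^ i) y) ^ k) p]
  rfl

omit [IsDomain A] in
theorem aeval_esymm_conj_mem (p : ℕ) (u : Aˣ) {I : Ideal A} {y : LaurentSeries A}
    (hy : y ∈ coeffIn I) (k : ℕ) (hk : 0 < k) :
    MvPolynomial.aeval (conj p u y) (MvPolynomial.esymm (Fin p) ℤ k) ∈ coeffIn I := by
  rw [MvPolynomial.esymm, map_sum]
  refine Ideal.sum_mem _ fun t ht => ?_
  rw [map_prod]
  simp_rw [MvPolynomial.aeval_X]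
  have hc : t.card = k := (Finset.mem_powersetCard.mp ht).2
  obtain ⟨a, ha⟩ : t.Nonempty := by
    rw [← Finset.card_pos, hc]
    exact hk
  rw [← Finset.mul_prod_erase t _ ha]
  exact Ideal.mul_mem_right _ _ (rot_mem_coeffIn _ hy)

/-- **Newton**: the elementary symmetric functions `e_k`, `0 < k < p`, of the conjugates of
`y ∈ coeffIn I` lie in `coeffIn (p I)`. -/
theorem esymm_rot_mem (p : ℕ) (hp : p.Prime) (u : Aˣ) (hu : u ^ p = 1) {I : Ideal A}
    {y : LaurentSeries A} (hy : y ∈ coeffIn I) (k : ℕ) (hk : 0 < k) (hkp : k < p) :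
    MvPolynomial.aeval (conj p u y) (MvPolynomial.esymm (Fin p) ℤ k)
      ∈ coeffIn (Ideal.span {(p : A)} * I) := by
  set e := MvPolynomial.aeval (conj p u y) (MvPolynomial.esymm (Fin p) ℤ k) with he
  -- `k * e_k` lies in `coeffIn (p I)`
  have h1 : (k : LaurentSeries A) * e ∈ coeffIn (Ideal.span {(p : A)} * I) := by
    have hN := congrArg (MvPolynomial.aeval (conj p u y))
      (MvPolynomial.mul_esymm_eq_sum (Fin p) ℤ k)
    rw [map_mul, map_natCast] at hN
    rw [he, hN, map_mul, map_sum]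
    refine Ideal.mul_mem_left _ _ (Ideal.sum_mem _ fun a ha => ?_)
    rw [map_mul]
    refine Ideal.mul_mem_left _ _ ?_
    rw [aeval_psum_conj]
    have ha' := Finset.mem_filter.mp ha
    have ha1 : a.1 + a.2 = k := Finset.HasAntidiagonal.mem_antidiagonal.mp ha'.1
    exact psum_rot_mem p u hu hy a.2 (by have := ha'.2; omega)
  -- `p * e_k` lies in `coeffIn (p I)`
  have h2 : (p : LaurentSeries A) * e ∈ coeffIn (Ideal.span {(p : A)} * I) :=
    natCast_mul_mem_coeffIn p (aeval_esymm_conj_mem p u hy k hk)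
  -- Bezout
  have hcop : Nat.Coprime k p := (Nat.coprime_of_lt_prime hk.ne' hkp hp).symm
  have hb : ((k : ℤ).gcd (p : ℤ) : ℤ) = (k : ℤ) * Int.gcdA k p + (p : ℤ) * Int.gcdB k p :=
    Int.gcd_eq_gcd_ab k p
  have hg : (k : ℤ).gcd (p : ℤ) = 1 := by
    rw [Int.gcd_natCast_natCast]
    exact hcop
  rw [hg] at hb
  have h3 : e = ((Int.gcdA k p : ℤ) : LaurentSeries A) * ((k : LaurentSeries A) * e)
      + ((Int.gcdB k p : ℤ) : LaurentSeries A) * ((p : LaurentSeries A) * e) := by
    have h4 : (1 : LaurentSeries A)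
        = (k : LaurentSeries A) * ((Int.gcdA k p : ℤ) : LaurentSeries A)
          + (p : LaurentSeries A) * ((Int.gcdB k p : ℤ) : LaurentSeries A) := by
      have := congrArg (fun z : ℤ => (z : LaurentSeries A)) hb
      simpa using this
    calc e = 1 * e := (one_mul e).symm
      _ = _ := by rw [h4]; ring
  rw [h3]
  exact Ideal.add_mem _ (Ideal.mul_mem_left _ _ h1) (Ideal.mul_mem_left _ _ h2)

end Newton

section Main

variable {A : Type*} [CommRing A] [IsDomain A]

omit [IsDomain A] in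
/-- the product of the conjugates of `1 + y` is the sum of the elementary symmetric functions -/
theorem prod_rot_one_add_eq (p : ℕ) (u : Aˣ) (y : LaurentSeries A) :
    ∏ i ∈ Finset.range p, rot (u ^ i) (1 + y)
      = ∑ k ∈ Finset.range (p + 1),
          MvPolynomial.aeval (conj p u y) (MvPolynomial.esymm (Fin p) ℤ k) := by
  have h1 : ∏ i ∈ Finset.range p, rot (u ^ i) (1 + y) = ∏ i : Fin p, (1 + conj p u y i) := by
    rw [← Fin.prod_univ_eq_prod_range (fun i => rot (u ^ i) (1 + y)) p]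
    refine Finset.prod_congr rfl fun i _ => ?_
    rw [map_add, map_one]
    rfl
  rw [h1, Finset.prod_one_add, Finset.sum_powerset, Finset.card_univ, Fintype.card_fin]
  refine Finset.sum_congr rfl fun k _ => ?_
  rw [MvPolynomial.esymm, map_sum]
  refine Finset.sum_congr rfl fun t _ => ?_
  rw [map_prod]
  simp_rw [MvPolynomial.aeval_X]

/-- **[NU-DEPTH]**, depth raising: for `y` with coefficients in `I`, the norm
`∏_{i<p} rot (u^i) (1 + y)` is `1` modulo `p I + I^p`. -/
theorem prod_rot_one_add_sub_one_mem (p : ℕ) (hp : p.Prime) (u : Aˣ) (hu : u ^ p = 1)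
    {I : Ideal A} {y : LaurentSeries A} (hy : y ∈ coeffIn I) :
    ∏ i ∈ Finset.range p, rot (u ^ i) (1 + y) - 1
      ∈ coeffIn (Ideal.span {(p : A)} * I ⊔ I ^ p) := by
  rw [prod_rot_one_add_eq, Finset.sum_range_succ]
  obtain ⟨m, hm⟩ : ∃ m, p = m + 1 := ⟨p - 1, by have := hp.pos; omega⟩
  have hsplit : ∑ k ∈ Finset.range p,
      MvPolynomial.aeval (conj p u y) (MvPolynomial.esymm (Fin p) ℤ k)
      = ∑ k ∈ Finset.range m,
          MvPolynomial.aeval (conj p u y) (MvPolynomial.esymm (Fin p) ℤ (k + 1)) + 1 := by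
    have h0 : MvPolynomial.aeval (conj p u y) (MvPolynomial.esymm (Fin p) ℤ 0) = 1 := by
      rw [MvPolynomial.esymm_zero, map_one]
    have hr : Finset.range p = Finset.range (m + 1) := by rw [hm]
    rw [hr, Finset.sum_range_succ', h0]
  rw [hsplit]
  have e : ∀ a b : LaurentSeries A, a + 1 + b - 1 = a + b := fun a b => by ring
  rw [e]
  refine Ideal.add_mem _ (Ideal.sum_mem _ fun k hk => ?_) ?_
  · have hk' := Finset.mem_range.mp hk
    exact coeffIn_mono le_sup_left (esymm_rot_mem p hp u hu hy (k + 1) (Nat.succ_pos k) (by omega))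
  · refine coeffIn_mono le_sup_right ?_
    have h1 : MvPolynomial.aeval (conj p u y) (MvPolynomial.esymm (Fin p) ℤ p)
        = ∏ i : Fin p, conj p u y i := by
      rw [MvPolynomial.esymm, map_sum]
      have h2 : Finset.powersetCard p (Finset.univ : Finset (Fin p)) = {Finset.univ} := by
        have := Finset.powersetCard_self (Finset.univ : Finset (Fin p))
        rwa [Finset.card_univ, Fintype.card_fin] at this
      rw [h2, Finset.sum_singleton, map_prod]
      simp_rw [MvPolynomial.aeval_X]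
    rw [h1]
    have h3 := prod_mem_coeffIn_pow (I := I) (Finset.univ : Finset (Fin p)) (conj p u y)
      (fun i _ => rot_mem_coeffIn _ hy)
    rwa [Finset.card_univ, Fintype.card_fin] at h3

/-- **[NU-DEPTH]** for `Y` with `Y - 1 ∈ coeffIn I`. -/
theorem prod_rot_sub_one_mem (p : ℕ) (hp : p.Prime) (u : Aˣ) (hu : u ^ p = 1)
    {I : Ideal A} {Y : LaurentSeries A} (hY : Y - 1 ∈ coeffIn I) :
    ∏ i ∈ Finset.range p, rot (u ^ i) Y - 1
      ∈ coeffIn (Ideal.span {(p : A)} * I ⊔ I ^ p) := by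
  have h := prod_rot_one_add_sub_one_mem p hp u hu hY
  rwa [add_sub_cancel] at h

omit [IsDomain A] in
/-- the norm is a series in `t^p` : it is fixed by the rotation -/
theorem rot_prod_rot (p : ℕ) (u : Aˣ) (hu : u ^ p = 1) (Y : LaurentSeries A) :
    rot u (∏ i ∈ Finset.range p, rot (u ^ i) Y) = ∏ i ∈ Finset.range p, rot (u ^ i) Y := by
  rcases Nat.eq_zero_or_pos p with rfl | hp0
  · simp
  obtain ⟨m, rfl⟩ : ∃ m, p = m + 1 := ⟨p - 1, by omega⟩
  rw [map_prod]
  simp_rw [rot_rot, ← pow_succ']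
  rw [Finset.prod_range_succ (fun i => rot (u ^ (i + 1)) Y) m,
    Finset.prod_range_succ' (fun i => rot (u ^ i) Y) m, hu, pow_zero]

end Main

end Fermat.Agent.T7.helper92

end
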