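import Mathlib
import Fermat.Agent.T7.helper92_NormDepth
import Fermat.Agent.T3.helper90_Unsub
import Fermat.Agent.P2.helper93_ESRed

/-!
# T7 (S33), leaf [NU-DEPTH], instance at a valuation subring of `ℚ̄` (helper92)

`A` a valuation subring of `ℚ̄`, `ζ` a primitive `p`-th root of unity, `Y ∈ A((q))` with
`Y - 1 ∈ coeffIn I` (all coefficients of `Y - 1` in the ideal `I` of `A`).  Then the series
`NU(Y)`, `NU(Y)(q^p) = ∏_{k<p} Y(ζ^k q)` (the factor of the norms `N_α`, `N_β` at the ramified cusp,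
`T7.helper43.normAlpha_pair` / `normBeta_pair`), is `A`-integral and
`NU(Y) - 1 ∈ coeffIn (p I + I^p)`.

* `exists_prod_twist`  : the integral product `P = ∏ rot (u^k) Y` with
  `incl P = ∏_k twistL (ζ^k) (incl Y)` and `P - 1 ∈ coeffIn (p I + I^p)`, `rot u P = P`;
* `exists_normU_depth` : the integral series `Q = NU(Y)` with
  `qExpand p (incl Q) = ∏_k twistL (ζ^k) (incl Y)` and `Q - 1 ∈ coeffIn (p I + I^p)`.
(`incl A = coeffMap A.subtype`, P2 vocabulary.)
-/

set_option autoImplicit false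
set_option linter.unusedSectionVars false

noncomputable section

open ModularCurve AlgebraicCurve Finset

namespace Fermat.Agent.T7.helper92

open Fermat.Agent.S24 Fermat.Agent.P2.helper93 Fermat.Agent.P2.helper94
open Fermat.Agent.T3.helper90

variable {A : ValuationSubring Kbar}

/-- contraction preserves `coeffIn` -/
theorem qContract_mem_coeffIn {R : Type*} [CommRing R] (d : ℕ) [NeZero d] {I : Ideal R}
    {X : LaurentSeries R} (hX : X ∈ coeffIn I) : qContract d X ∈ coeffIn I := by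
  rw [mem_coeffIn] at hX ⊢
  intro k
  rw [qContract_coeff]
  exact hX _

theorem qContract_one' {R : Type*} [CommRing R] (d : ℕ) [NeZero d] :
    qContract d (1 : LaurentSeries R) = 1 := by
  have h := qContract_qExpand (R := R) d 1
  rwa [map_one] at h

/-- the integral product of the rotations -/
theorem exists_prod_twist (p : ℕ) (hp : p.Prime) {ζ : Kbar} (hζ : ζ ^ p = 1) {I : Ideal ↥A}
    (Y : LaurentSeries ↥A) (hY : Y - 1 ∈ coeffIn I) :
    ∃ P : LaurentSeries ↥A,
      coeffMap (A.subtype : ↥A →+* Kbar) P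
        = ∏ k ∈ Finset.range p, twistL (ζ ^ k) (coeffMap (A.subtype : ↥A →+* Kbar) Y) ∧
      P - 1 ∈ coeffIn (Ideal.span {((p : ℕ) : ↥A)} * I ⊔ I ^ p) ∧
      rot (rootUnit A hp.ne_zero hζ) P = P := by
  set u : (↥A)ˣ := rootUnit A hp.ne_zero hζ with hu
  have hup : u ^ p = 1 := by
    apply Units.ext
    apply Subtype.ext
    show ζ ^ p = 1
    exact hζ
  refine ⟨∏ i ∈ Finset.range p, rot (u ^ i) Y, ?_, prod_rot_sub_one_mem p hp u hup hY,
    rot_prod_rot p u hup Y⟩
  rw [map_prod]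
  refine Finset.prod_congr rfl fun i _ => ?_
  rw [coeffMap_subtype_rot]
  rfl

/-- **[NU-DEPTH]** at a valuation subring of `ℚ̄`: the series `NU(Y)` is integral and
`NU(Y) - 1 ∈ coeffIn (p I + I^p)`. -/
theorem exists_normU_depth (p : ℕ) [NeZero p] (hp : p.Prime) {ζ : Kbar}
    (hζ : IsPrimitiveRoot ζ p) {I : Ideal ↥A} (Y : LaurentSeries ↥A) (hY : Y - 1 ∈ coeffIn I) :
    ∃ Q : LaurentSeries ↥A,
      qExpand Kbar p (coeffMap (A.subtype : ↥A →+* Kbar) Q)
        = ∏ k ∈ Finset.range p, twistL (ζ ^ k) (coeffMap (A.subtype : ↥A →+* Kbar) Y) ∧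
      Q - 1 ∈ coeffIn (Ideal.span {((p : ℕ) : ↥A)} * I ⊔ I ^ p) := by
  obtain ⟨P, hP1, hP2, hP3⟩ := exists_prod_twist (A := A) p hp hζ.pow_eq_one Y hY
  -- the exponents of `P` are divisible by `p`
  have hdiv : ∀ n : ℤ, ¬ (p : ℤ) ∣ n → P.coeff n = 0 := by
    intro n hn
    have h1 := congrArg (fun Z : LaurentSeries ↥A => Z.coeff n) hP3
    simp only [rot_coeff] at h1
    by_contra h0
    have h2 : (((rootUnit A hp.ne_zero hζ.pow_eq_one) ^ n : (↥A)ˣ) : ↥A) = 1 := by
      have h3 : (((rootUnit A hp.ne_zero hζ.pow_eq_one) ^ n : (↥A)ˣ) : ↥A) * P.coeff n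
          = 1 * P.coeff n := by rw [h1, one_mul]
      exact mul_right_cancel₀ h0 h3
    have h4 : ζ ^ n = 1 := by
      have h5 := congrArg (fun a : ↥A => (a : Kbar)) h2
      have h6 := map_zpow (Units.map (A.subtype : ↥A →* Kbar))
        (rootUnit A hp.ne_zero hζ.pow_eq_one) n
      have h7 := congrArg (fun v : Kbarˣ => (v : Kbar)) h6
      simp only [Units.coe_map, Units.val_zpow_eq_zpow_val] at h7
      have h8 : (((rootUnit A hp.ne_zero hζ.pow_eq_one) ^ n : (↥A)ˣ) : ↥A) = (1 : ↥A) := h2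
      have h9 : ((((rootUnit A hp.ne_zero hζ.pow_eq_one) ^ n : (↥A)ˣ) : ↥A) : Kbar) = 1 := by
        rw [h8]; rfl
      have h10 : ζ ^ n = ((((rootUnit A hp.ne_zero hζ.pow_eq_one) ^ n : (↥A)ˣ) : ↥A) : Kbar) := by
        rw [show ((((rootUnit A hp.ne_zero hζ.pow_eq_one) ^ n : (↥A)ˣ) : ↥A) : Kbar)
          = (A.subtype : ↥A →* Kbar) ↑((rootUnit A hp.ne_zero hζ.pow_eq_one) ^ n) from rfl, h7]
        rfl
      rw [h10, h9]
    exact hn ((hζ.zpow_eq_one_iff_dvd n).mp h4)
  refine ⟨qContract p P, ?_, ?_⟩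
  · rw [← hP1, coeffMap_qContract]
    refine qExpand_qContract p fun n hn => ?_
    rw [coeffMap_coeff, hdiv n hn, map_zero]
  · have h1 : qContract p P - 1 = qContract p (P - 1) := by
      ext n
      have := congrArg (fun Z : LaurentSeries ↥A => Z.coeff n) (qContract_one' (R := ↥A) p)
      simp only [qContract_coeff] at this
      simp only [HahnSeries.coeff_sub, qContract_coeff]
      rw [this]
    rw [h1]
    exact qContract_mem_coeffIn p hP2

end Fermat.Agent.T7.helper92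

end
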