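import Mathlib
import Fermat.Agent.T3.helper90_Unsub

/-!
# T7 (S33), [B3] abstract core (helper93): norms for the rotation `t ↦ u t` raise the depth

`A` a domain, `u` a primitive `p`-th root of unity in `A`, `p` prime, all `0 < j < p` units of
`A`.  On `S = A((t))` put `N x = ∏_{k<p} x(u^k t)`, `Tr x = ∑_{k<p} x(u^k t)`.

* `prod_add_mul_of_trace` : (any commutative ring with a `ℤ/p`-action whose traces are
                    divisible by `p`) `N (a + c e) = N a + c^p N e + (p c) h`
                    (derivative trick: the derivative of `∏ (a_k + T e_k)` is a trace);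
* `trc_eq`        : `Tr x = p * (t^p-part of x)`;
* `nrm_add_mul`   : `N (a + c e) = N a + c^p N e + (p c) h` on `A((t))`;
* `nrm_pow_add`   : `N (κ U^p + c E) = κ^p (N U)^p + c' h` whenever `c' ∣ c^p` and `c' ∣ p c`;
* `nrm_mem_range` : `N x` is a series in `t^p`;
* `depth_step`    : if `Yn(t^p) = Y₁(t^p) N(Y₂)` and `Y₂ V^p = κ U^p + c E` then
                    `Yn Q^p = Y₁ P^p + c' X` with `P(t^p) = κ N U`, `Q(t^p) = N V`.
No completion, no inverse of a series is used.
-/

set_option autoImplicit false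
set_option linter.unusedSectionVars false
set_option linter.unusedVariables false

noncomputable section

namespace Fermat.Agent.T7.helper93

open ModularCurve Finset
open Fermat.Agent.P2.helper94 (rot rot_coeff rot_one rot_rot rot_qExpand qExpand_injective)
open Fermat.Agent.T3.helper90 (qContract qContract_coeff qExpand_qContract qContract_qExpand
  mem_range_qExpand_iff)

/-! ## The derivative trick in an abstract ring -/

section Abstract

open Polynomial

variable {S : Type*} [CommRing S] {p : ℕ} [NeZero p]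

/-- **Derivative trick.**  For an action `ρ` of `ℤ/p` on a commutative ring `S` all of whose
traces are divisible by `p`, with `0 < j < p` invertible, and `c` fixed by `ρ`:
`N (a + c e) = N a + c^p N e + p c h`. -/
theorem prod_add_mul_of_trace (ρ : Fin p → S →+* S)
    (hadd : ∀ (j k : Fin p) (x : S), ρ (j + k) x = ρ k (ρ j x))
    (htr : ∀ x : S, ∃ y : S, ∑ k, ρ k x = (p : S) * y)
    (hunit : ∀ j : ℕ, 0 < j → j < p → IsUnit (j : S))
    (c : S) (hc : ∀ k, ρ k c = c) (a e : S) :
    ∃ h : S, ∏ k, ρ k (a + c * e) = ∏ k, ρ k a + c ^ p * ∏ k, ρ k e + (p : S) * c * h := by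
  classical
  have hzero : ∀ x : S, ρ 0 (ρ 0 x) = ρ 0 x := fun x => by rw [← hadd, add_zero]
  set F : Fin p → S[X] := fun k => C (ρ k a) + X * C (ρ k e) with hF
  set P : S[X] := ∏ k, F k with hP
  have hdegF : ∀ k, (F k).natDegree ≤ 1 := by
    intro k
    refine (natDegree_add_le _ _).trans (max_le ?_ ?_)
    · rw [natDegree_C]; exact Nat.zero_le _
    · refine (natDegree_mul_le).trans ?_
      rw [natDegree_C, add_zero]
      exact natDegree_X_le
  have hdeg : P.natDegree ≤ p := by
    calc P.natDegree ≤ ∑ k : Fin p, (F k).natDegree := natDegree_prod_le _ _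
      _ ≤ ∑ _k : Fin p, 1 := Finset.sum_le_sum (fun k _ => hdegF k)
      _ = p := by simp
  have heval : P.eval c = ∏ k, ρ k (a + c * e) := by
    rw [hP, eval_prod]
    refine Finset.prod_congr rfl fun k _ => ?_
    rw [hF]
    simp only [eval_add, eval_C, eval_mul, eval_X, map_add, map_mul, hc]
  have h0 : P.coeff 0 = ∏ k, ρ k a := by
    rw [coeff_zero_eq_eval_zero, hP, eval_prod]
    refine Finset.prod_congr rfl fun k _ => ?_
    rw [hF]
    simp only [eval_add, eval_C, eval_mul, eval_X, zero_mul, add_zero]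
  have hp : P.coeff p = ∏ k, ρ k e := by
    have h1 := coeff_prod_of_natDegree_le (s := (Finset.univ : Finset (Fin p))) F 1
      (fun k _ => hdegF k)
    rw [Finset.card_univ, Fintype.card_fin, mul_one] at h1
    rw [hP, h1]
    refine Finset.prod_congr rfl fun k _ => ?_
    rw [hF]
    simp only [coeff_add, coeff_C_succ, zero_add, coeff_X_mul, coeff_C_zero]
  -- the derivative is a trace
  set G : S[X] := C (ρ 0 e) * ∏ i ∈ (Finset.univ : Finset (Fin p)).erase 0, F i with hG
  have hmapF : ∀ i k : Fin p, Polynomial.map (ρ k) (F i) = F (i + k) := by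
    intro i k
    rw [hF]
    simp only [Polynomial.map_add, Polynomial.map_C, Polynomial.map_mul, Polynomial.map_X, hadd]
  have hder : derivative P = ∑ k, Polynomial.map (ρ k) G := by
    rw [hP, derivative_prod_finset]
    refine Finset.sum_congr rfl fun k _ => ?_
    have hFk : derivative (F k) = C (ρ k e) := by
      rw [hF]
      simp only [derivative_add, derivative_C, zero_add, derivative_mul, derivative_X, one_mul,
        mul_zero, add_zero]
    rw [hFk, hG, Polynomial.map_mul, Polynomial.map_C, Polynomial.map_prod, ← hadd, zero_add,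
      mul_comm]
    congr 1
    symm
    refine Finset.prod_bij (fun i _ => i + k) ?_ ?_ ?_ ?_
    · intro i hi
      rw [Finset.mem_erase] at hi ⊢
      refine ⟨fun h => hi.1 ?_, Finset.mem_univ _⟩
      exact add_eq_right.mp h
    · intro i _ j _ hij
      exact add_right_cancel hij
    · intro j hj
      rw [Finset.mem_erase] at hj
      refine ⟨j - k, ?_, sub_add_cancel j k⟩
      rw [Finset.mem_erase]
      exact ⟨fun h => hj.1 (sub_eq_zero.mp h), Finset.mem_univ _⟩
    · intro i _
      exact hmapF i k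
  have hmid : ∀ j : ℕ, 0 < j → j < p → ∃ y : S, P.coeff j = (p : S) * y := by
    intro j hj0 hjp
    obtain ⟨m, rfl⟩ : ∃ m, j = m + 1 := ⟨j - 1, by omega⟩
    have h1 : (derivative P).coeff m = P.coeff (m + 1) * ((m : S) + 1) := coeff_derivative P m
    have h2 : (derivative P).coeff m = ∑ k, ρ k (G.coeff m) := by
      rw [hder, finset_sum_coeff]
      refine Finset.sum_congr rfl fun k _ => ?_
      rw [coeff_map]
    obtain ⟨y, hy⟩ := htr (G.coeff m)
    obtain ⟨w, hw⟩ := (hunit (m + 1) hj0 hjp).exists_right_inv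
    refine ⟨y * w, ?_⟩
    have h3 : P.coeff (m + 1) * ((m : S) + 1) = (p : S) * y := by rw [← h1, h2, hy]
    have h4 : (((m + 1 : ℕ) : S)) = (m : S) + 1 := by push_cast; ring
    calc P.coeff (m + 1) = P.coeff (m + 1) * (((m + 1 : ℕ) : S) * w) := by rw [hw, mul_one]
      _ = (P.coeff (m + 1) * ((m : S) + 1)) * w := by rw [h4]; ring
      _ = (p : S) * (y * w) := by rw [h3]; ring
  choose! y hy using hmid
  refine ⟨∑ j ∈ Finset.Ico 1 p, y j * c ^ (j - 1), ?_⟩
  rw [← heval, eval_eq_sum_range' (Nat.lt_succ_of_le hdeg), Finset.sum_range_succ,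
    Finset.range_eq_Ico, Finset.sum_eq_sum_Ico_succ_bot (NeZero.pos p), h0, hp, pow_zero, mul_one,
    Finset.mul_sum]
  have h5 : ∑ k ∈ Finset.Ico (0 + 1) p, P.coeff k * c ^ k
      = ∑ i ∈ Finset.Ico 1 p, (p : S) * c * (y i * c ^ (i - 1)) := by
    refine Finset.sum_congr rfl fun j hj => ?_
    rw [Finset.mem_Ico] at hj
    rw [hy j (by omega) hj.2]
    obtain ⟨m, rfl⟩ : ∃ m, j = m + 1 := ⟨j - 1, by omega⟩
    rw [Nat.add_sub_cancel, pow_succ]
    ring
  rw [h5]
  ring

end Abstract

/-! ## Rotations of Laurent series -/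

section Core

variable {A : Type*} [CommRing A] (p : ℕ) [NeZero p] (u : Aˣ)

/-- the rotation by `u ^ k`, `k : Fin p` -/
def rotF (k : Fin p) : LaurentSeries A →+* LaurentSeries A := rot (u ^ (k : ℕ))

/-- the norm `N x = ∏_{k<p} x(u^k t)` -/
def nrm (x : LaurentSeries A) : LaurentSeries A := ∏ k : Fin p, rotF p u k x

/-- the trace `Tr x = ∑_{k<p} x(u^k t)` -/
def trc (x : LaurentSeries A) : LaurentSeries A := ∑ k : Fin p, rotF p u k x

theorem nrm_eq_prod_range (x : LaurentSeries A) :
    nrm p u x = ∏ k ∈ Finset.range p, rot (u ^ k) x :=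
  (Finset.prod_range fun k => rot (u ^ k) x).symm

theorem nrm_mul (x y : LaurentSeries A) : nrm p u (x * y) = nrm p u x * nrm p u y := by
  unfold nrm
  rw [← Finset.prod_mul_distrib]
  exact Finset.prod_congr rfl fun k _ => map_mul _ _ _

theorem nrm_one : nrm p u (1 : LaurentSeries A) = 1 := by
  unfold nrm
  exact Finset.prod_eq_one fun k _ => map_one _

theorem nrm_pow (x : LaurentSeries A) (n : ℕ) : nrm p u (x ^ n) = nrm p u x ^ n := by
  unfold nrm
  rw [← Finset.prod_pow]
  exact Finset.prod_congr rfl fun k _ => map_pow _ _ _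

variable {p u}

theorem rotF_add (hu : u ^ p = 1) (j k : Fin p) (x : LaurentSeries A) :
    rotF p u (j + k) x = rotF p u k (rotF p u j x) := by
  unfold rotF
  rw [rot_rot, Fin.val_add, ← pow_add, add_comm (k : ℕ) (j : ℕ), ← pow_eq_pow_mod _ hu]

theorem rotF_zero (x : LaurentSeries A) : rotF p u 0 x = x := by
  unfold rotF
  rw [Fin.val_zero, pow_zero, rot_one]

theorem rot_C (v : Aˣ) (c : A) : rot v (HahnSeries.C c) = HahnSeries.C c := by
  ext n
  rw [rot_coeff, HahnSeries.C_apply]
  by_cases h : n = 0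
  · subst h; simp
  · rw [HahnSeries.coeff_single_of_ne h, mul_zero]

theorem rotF_C (k : Fin p) (c : A) : rotF p u k (HahnSeries.C c) = HahnSeries.C c := rot_C _ c

theorem nrm_C (c : A) : nrm p u (HahnSeries.C c) = HahnSeries.C (c ^ p) := by
  unfold nrm
  rw [Finset.prod_congr rfl fun k _ => rotF_C (p := p) (u := u) k c, Finset.prod_const,
    Finset.card_univ, Fintype.card_fin, map_pow]

/-- `N x` is fixed by the rotations -/
theorem rot_nrm (hu : u ^ p = 1) (x : LaurentSeries A) : rot u (nrm p u x) = nrm p u x := by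
  classical
  by_cases hp1 : p = 1
  · subst hp1
    have : u = 1 := by simpa using hu
    rw [this, rot_one]
  have h1 : (1 : Fin p).val = 1 := by
    have : 1 < p := by
      have := NeZero.pos p
      omega
    exact Fin.val_one' p ▸ Nat.mod_eq_of_lt this
  have h2 : rot u = rotF p u (1 : Fin p) := by
    unfold rotF
    rw [h1, pow_one]
  rw [h2]
  unfold nrm
  rw [map_prod]
  simp_rw [← rotF_add hu]
  exact Fintype.prod_equiv (Equiv.addRight (1 : Fin p)) _ _ fun k => rfl

end Core

/-! ## Domains: the trace formula and the depth step -/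

section Domain

variable {A : Type*} [CommRing A] [IsDomain A] {p : ℕ} [NeZero p] {u : Aˣ}

/-- the sum of the `k`-th powers of `u ^ n` -/
theorem sum_zpow_primitive (hu : IsPrimitiveRoot u p) (n : ℤ) :
    ∑ k : Fin p, (((u ^ (k : ℕ)) ^ n : Aˣ) : A) = if (p : ℤ) ∣ n then (p : A) else 0 := by
  have h1 : ∀ k : Fin p, (((u ^ (k : ℕ)) ^ n : Aˣ) : A) = (((u ^ n : Aˣ) : A)) ^ (k : ℕ) := by
    intro k
    rw [← Units.val_pow_eq_pow_val, ← zpow_natCast (u ^ n), ← zpow_mul, mul_comm, zpow_mul,
      zpow_natCast]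
  simp_rw [h1]
  have hsr := Finset.sum_range (n := p) (fun k => (((u ^ n : Aˣ) : A)) ^ k)
  rw [← hsr]
  split_ifs with h
  · have h2 : u ^ n = 1 := (hu.zpow_eq_one_iff_dvd n).mpr h
    rw [h2, Units.val_one]
    simp
  · have h2 : u ^ n ≠ 1 := fun h3 => h ((hu.zpow_eq_one_iff_dvd n).mp h3)
    have h3 : (((u ^ n : Aˣ) : A)) - 1 ≠ 0 := by
      intro h4
      apply h2
      ext
      rw [Units.val_one]
      exact sub_eq_zero.mp h4
    have h4 : ((((u ^ n : Aˣ) : A)) - 1) * ∑ k ∈ Finset.range p, (((u ^ n : Aˣ) : A)) ^ k = 0 := by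
      rw [mul_geom_sum, ← Units.val_pow_eq_pow_val, ← zpow_natCast (u ^ n), ← zpow_mul, mul_comm,
        zpow_mul, zpow_natCast, hu.pow_eq_one, one_zpow, Units.val_one, sub_self]
    exact (mul_eq_zero.mp h4).resolve_left h3

/-- **the trace formula**: `Tr x = p * (the t^p-part of x)` -/
theorem trc_eq (hu : IsPrimitiveRoot u p) (x : LaurentSeries A) :
    trc p u x = (p : LaurentSeries A) * qExpand A p (qContract p x) := by
  ext n
  have h1 : ((p : LaurentSeries A)) = HahnSeries.C (p : A) := (map_natCast _ p).symm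
  rw [h1, HahnSeries.C_mul_eq_smul, HahnSeries.coeff_smul, smul_eq_mul]
  unfold trc rotF
  rw [HahnSeries.coeff_sum]
  simp_rw [rot_coeff]
  rw [← Finset.sum_mul, sum_zpow_primitive hu n]
  split_ifs with h
  · obtain ⟨k, rfl⟩ := h
    rw [qExpand_coeff_mul, qContract_coeff]
  · rw [qExpand_coeff_of_not_dvd _ _ h, zero_mul, mul_zero]

/-- a series fixed by the rotation by a primitive `p`-th root of unity is a series in `t ^ p` -/
theorem mem_range_of_rot_eq (hu : IsPrimitiveRoot u p) (X : LaurentSeries A)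
    (hX : rot u X = X) : X ∈ (qExpand A p).range := by
  rw [mem_range_qExpand_iff]
  intro n hn
  have h1 := congrArg (fun Z : LaurentSeries A => Z.coeff n) hX
  simp only [rot_coeff] at h1
  by_contra h0
  have h2 : ((u ^ n : Aˣ) : A) = 1 := by
    have h3 : ((u ^ n : Aˣ) : A) * X.coeff n = 1 * X.coeff n := by rw [h1, one_mul]
    exact mul_right_cancel₀ h0 h3
  exact hn ((hu.zpow_eq_one_iff_dvd n).mp (Units.ext h2))

/-- `N x` is a series in `t ^ p` -/
theorem nrm_mem_range (hu : IsPrimitiveRoot u p) (x : LaurentSeries A) :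
    nrm p u x ∈ (qExpand A p).range :=
  mem_range_of_rot_eq hu _ (rot_nrm hu.pow_eq_one x)

/-- **norm of a sum**: `N (a + c e) = N a + c^p N e + (p c) h` -/
theorem nrm_add_mul (hu : IsPrimitiveRoot u p)
    (hunit : ∀ j : ℕ, 0 < j → j < p → IsUnit (j : A)) (c : A) (a e : LaurentSeries A) :
    ∃ h : LaurentSeries A, nrm p u (a + HahnSeries.C c * e)
      = nrm p u a + HahnSeries.C (c ^ p) * nrm p u e + HahnSeries.C ((p : A) * c) * h := by
  obtain ⟨h, hh⟩ := prod_add_mul_of_trace (S := LaurentSeries A) (p := p) (rotF p u)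
    (rotF_add hu.pow_eq_one) (fun x => ⟨_, trc_eq hu x⟩)
    (fun j hj0 hjp => by
      have := (hunit j hj0 hjp).map (HahnSeries.C : A →+* LaurentSeries A)
      rwa [map_natCast] at this)
    (HahnSeries.C c) (fun k => rotF_C k c) a e
  refine ⟨h, ?_⟩
  unfold nrm
  rw [hh, map_pow, map_mul, map_natCast]

/-- **norm of a `p`-th power up to depth `c`**: the depth goes up to `c' ∣ (c^p, p c)` -/
theorem nrm_pow_add (hu : IsPrimitiveRoot u p)
    (hunit : ∀ j : ℕ, 0 < j → j < p → IsUnit (j : A)) {c c' : A} (h1 : c' ∣ c ^ p)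
    (h2 : c' ∣ (p : A) * c) (κ : A) (U E : LaurentSeries A) :
    ∃ h : LaurentSeries A, nrm p u (HahnSeries.C κ * U ^ p + HahnSeries.C c * E)
      = (HahnSeries.C κ * nrm p u U) ^ p + HahnSeries.C c' * h := by
  obtain ⟨h, hh⟩ := nrm_add_mul hu hunit c (HahnSeries.C κ * U ^ p) E
  obtain ⟨d1, hd1⟩ := h1
  obtain ⟨d2, hd2⟩ := h2
  refine ⟨HahnSeries.C d1 * nrm p u E + HahnSeries.C d2 * h, ?_⟩
  rw [hh, nrm_mul, nrm_pow, nrm_C, hd1, hd2, map_mul, map_mul, mul_pow, map_pow]
  ring

/-- **norm of a `1`-unit**: `N (1 + c e) = 1 + c' h` whenever `c' ∣ c^p` and `c' ∣ p c`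
(depth `d ↦ min (p d, d + v p)`). -/
theorem nrm_one_add (hu : IsPrimitiveRoot u p)
    (hunit : ∀ j : ℕ, 0 < j → j < p → IsUnit (j : A)) {c c' : A} (h1 : c' ∣ c ^ p)
    (h2 : c' ∣ (p : A) * c) (E : LaurentSeries A) :
    ∃ h : LaurentSeries A, nrm p u (1 + HahnSeries.C c * E) = 1 + HahnSeries.C c' * h := by
  obtain ⟨h, hh⟩ := nrm_pow_add hu hunit h1 h2 1 1 E
  refine ⟨h, ?_⟩
  rw [map_one, one_pow, one_mul, nrm_one, one_mul, one_pow] at hh
  exact hh

/-- the rotations preserve power series -/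
theorem rot_coeff_neg (v : Aˣ) {x : LaurentSeries A} (hx : ∀ n : ℤ, n < 0 → x.coeff n = 0)
    (n : ℤ) (hn : n < 0) : (rot v x).coeff n = 0 := by
  rw [rot_coeff, hx n hn, mul_zero]

/-- **the depth step.**  If `Yn(t^p) = Y₁(t^p) · N(Y₂)` (norm formula at two cusps) and `Y₂` is a
constant times a `p`-th power up to depth `c` (in the multiplicative form
`Y₂ V^p = κ U^p + c E`), then `Yn` is `Y₁` times a `p`-th power up to the depth `c'`,
`c' ∣ (c^p, p c)`:  `Yn Q^p = Y₁ P^p + c' X`, where `P(t^p) = κ N(U)`, `Q(t^p) = N(V)`. -/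
theorem depth_step (hu : IsPrimitiveRoot u p)
    (hunit : ∀ j : ℕ, 0 < j → j < p → IsUnit (j : A)) {c c' : A} (h1 : c' ∣ c ^ p)
    (h2 : c' ∣ (p : A) * c) (κ : A) {Yn Y₁ Y₂ U V E : LaurentSeries A}
    (hN : qExpand A p Yn = qExpand A p Y₁ * nrm p u Y₂)
    (hY : Y₂ * V ^ p = HahnSeries.C κ * U ^ p + HahnSeries.C c * E) :
    ∃ P Q X : LaurentSeries A,
      qExpand A p P = HahnSeries.C κ * nrm p u U ∧ qExpand A p Q = nrm p u V ∧
      Yn * Q ^ p = Y₁ * P ^ p + HahnSeries.C c' * X := by
  obtain ⟨h, hh⟩ := nrm_pow_add hu hunit h1 h2 κ U E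
  obtain ⟨P0, hP0⟩ := nrm_mem_range hu U
  obtain ⟨Q, hQ⟩ := nrm_mem_range hu V
  have hκ : qExpand A p (HahnSeries.C κ) = HahnSeries.C κ := by
    ext n
    by_cases hd : (p : ℤ) ∣ n
    · obtain ⟨k, rfl⟩ := hd
      rw [qExpand_coeff_mul, HahnSeries.C_apply]
      by_cases hk : k = 0
      · subst hk; simp
      · rw [HahnSeries.coeff_single_of_ne hk, HahnSeries.coeff_single_of_ne]
        exact mul_ne_zero (by exact_mod_cast NeZero.ne p) hk
    · rw [qExpand_coeff_of_not_dvd _ _ hd, HahnSeries.C_apply, HahnSeries.coeff_single_of_ne]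
      rintro rfl
      exact hd (dvd_zero _)
  have hP : qExpand A p (HahnSeries.C κ * P0) = HahnSeries.C κ * nrm p u U := by
    rw [map_mul, hκ, hP0]
  refine ⟨HahnSeries.C κ * P0, Q, qContract p (qExpand A p Y₁ * h), hP, hQ, ?_⟩
  -- the identity after `qExpand`
  have e1 : nrm p u Y₂ * nrm p u V ^ p
      = (HahnSeries.C κ * nrm p u U) ^ p + HahnSeries.C c' * h := by
    rw [← nrm_pow, ← nrm_mul, hY, hh]
  have key : qExpand A p (Yn * Q ^ p) = qExpand A p (Y₁ * (HahnSeries.C κ * P0) ^ p)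
      + HahnSeries.C c' * (qExpand A p Y₁ * h) := by
    calc qExpand A p (Yn * Q ^ p) = qExpand A p Y₁ * (nrm p u Y₂ * nrm p u V ^ p) := by
          rw [map_mul, map_pow, hQ, hN, mul_assoc]
      _ = qExpand A p Y₁ * ((HahnSeries.C κ * nrm p u U) ^ p + HahnSeries.C c' * h) := by
          rw [e1]
      _ = qExpand A p (Y₁ * (HahnSeries.C κ * P0) ^ p)
            + HahnSeries.C c' * (qExpand A p Y₁ * h) := by
          rw [map_mul (qExpand A p) Y₁, map_pow, hP]
          ring
  ext n
  have h3 : (qExpand A p (Yn * Q ^ p)).coeff ((p : ℤ) * n)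
      = (qExpand A p (Y₁ * (HahnSeries.C κ * P0) ^ p)
          + HahnSeries.C c' * (qExpand A p Y₁ * h)).coeff ((p : ℤ) * n) := by rw [key]
  rw [qExpand_coeff_mul, HahnSeries.coeff_add, qExpand_coeff_mul] at h3
  have h4 : (HahnSeries.C c' * qContract p (qExpand A p Y₁ * h)).coeff n
      = (HahnSeries.C c' * (qExpand A p Y₁ * h)).coeff ((p : ℤ) * n) := by
    rw [HahnSeries.C_mul_eq_smul, HahnSeries.coeff_smul, qContract_coeff,
      HahnSeries.C_mul_eq_smul, HahnSeries.coeff_smul]
  rw [HahnSeries.coeff_add, h4, h3]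

end Domain

end Fermat.Agent.T7.helper93

end
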