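import Mathlib
import Fermat.Agent.T7.helper93_NormDepth
import Fermat.Agent.T7.helper43_NormPair
import Fermat.Agent.P2.helper93_ESRed
import Fermat.Agent.P2.helper81_ValBase

/-!
# T7 (S33), [B3] bridge (helper93): the integral norm formulas at the two cusps and the depth
step for functions of level `N p`

`A` a valuation ring of `ℚ̄` over `p`, `p ∤ N`, `ζ` a primitive `p`-th root of unity,
`u = rootUnit A ζ`.  For `y ∈ F_{Np}` with `A`-integral expansions `Y₁ = y(q)`, `Y₂ = (W y)(q)`: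

* `normAlpha_int`  : `N_α y` is `A`-integral with expansion `Yn`,
                     `Yn(t^p) = Y₁(t^p) · nrm (Y₂)`;
* `normBeta_int`   : `N_β y` is `A`-integral with expansion `Yn'`,
                     `Yn'(t^p) = Y₂(t^p) · nrm (Y₁)`;
* `depth_step_alpha / depth_step_beta` : `T7.helper93.depth_step` for these.
-/

set_option autoImplicit false
set_option linter.unusedSectionVars false
set_option linter.unusedVariables false
set_option linter.style.haveILetI false
set_option linter.style.longLine false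

noncomputable section

open ModularCurve AlgebraicCurve

namespace Fermat.Agent.T7.helper93

open Fermat.Agent.S24 Fermat.Agent.P2.helper93 Fermat.Agent.T2.helper36
open Fermat.Agent.P2.helper94 (rot)
open Fermat.Agent.P3.helper94 (normAlong)

section Bridge

variable (A : ValuationSubring Kbar) {p : ℕ} [NeZero p]

/-- the unit of `A` attached to a primitive root of unity is primitive -/
theorem isPrimitiveRoot_rootUnit {ζ : Kbar} (hζ : IsPrimitiveRoot ζ p) :
    IsPrimitiveRoot (rootUnit A (NeZero.ne p) hζ.pow_eq_one) p := by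
  have hinj : Function.Injective
      (fun v : (↥A)ˣ => (((v : (↥A)ˣ) : ↥A) : Kbar)) := by
    intro v w h
    exact Units.ext (Subtype.ext h)
  refine ⟨?_, fun l hl => ?_⟩
  · apply hinj
    show ((((rootUnit A (NeZero.ne p) hζ.pow_eq_one) ^ p : (↥A)ˣ) : ↥A) : Kbar) = 1
    rw [Units.val_pow_eq_pow_val]
    show ζ ^ p = 1
    exact hζ.pow_eq_one
  · apply hζ.dvd_of_pow_eq_one
    have h1 := congrArg (fun v : (↥A)ˣ => (((v : (↥A)ˣ) : ↥A) : Kbar)) hl
    simp only [Units.val_pow_eq_pow_val, Units.val_one] at h1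
    exact h1

/-- the norm `nrm` over `A` is the product of the twists over `ℚ̄` -/
theorem coeffMap_nrm {ζ : Kbar} (hζ : ζ ^ p = 1) (Y : LaurentSeries ↥A) :
    coeffMap (A.subtype : ↥A →+* Kbar) (nrm p (rootUnit A (NeZero.ne p) hζ) Y)
      = ∏ k ∈ Finset.range p, twistL (ζ ^ k) (coeffMap (A.subtype : ↥A →+* Kbar) Y) := by
  rw [nrm_eq_prod_range, map_prod]
  refine Finset.prod_congr rfl fun i _ => ?_
  rw [coeffMap_subtype_rot]
  rfl

end Bridge

section Modular

variable {N p : ℕ} [NeZero N] [NeZero p] (A : ValuationSubring Kbar)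

/-- **[NORM-α], integral form.** -/
theorem normAlpha_int (hp : p.Prime) (hN : ¬ p ∣ N) {ζ : Kbar} (hζ : IsPrimitiveRoot ζ p)
    (y : modularFunctionFieldBar (N * p)) (Y₁ Y₂ : LaurentSeries ↥A)
    (h1 : coeffMap (A.subtype : ↥A →+* Kbar) Y₁ = (y : LaurentSeries Kbar))
    (h2 : coeffMap (A.subtype : ↥A →+* Kbar) Y₂
      = ((atkinLehner N p hp hN y : modularFunctionFieldBar (N * p)) : LaurentSeries Kbar)) :
    ∃ Yn : LaurentSeries ↥A,
      coeffMap (A.subtype : ↥A →+* Kbar) Yn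
        = ((normAlong (heckeAlphaBar Kbar N p) y : modularFunctionFieldBar N) :
            LaurentSeries Kbar) ∧
      qExpand ↥A p Yn
        = qExpand ↥A p Y₁ * nrm p (rootUnit A (NeZero.ne p) hζ.pow_eq_one) Y₂ := by
  set NK : LaurentSeries Kbar :=
    ((normAlong (heckeAlphaBar Kbar N p) y : modularFunctionFieldBar N) : LaurentSeries Kbar)
    with hNK
  have key := Fermat.Agent.T7.helper43.normAlpha_pair N p hp hN ζ hζ y
  set P : LaurentSeries ↥A :=
    qExpand ↥A p Y₁ * nrm p (rootUnit A (NeZero.ne p) hζ.pow_eq_one) Y₂ with hP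
  have hPK : coeffMap (A.subtype : ↥A →+* Kbar) P = qExpand Kbar p NK := by
    rw [hNK, key, hP, map_mul, Fermat.Agent.P2.helper94.coeffMap_qExpand, coeffMap_nrm, h1, h2]
  have hmem : ∀ k, NK.coeff k ∈ A := by
    intro k
    have h3 : NK.coeff k = (qExpand Kbar p NK).coeff ((p : ℤ) * k) :=
      (qExpand_coeff_mul p NK k).symm
    rw [h3, ← hPK, coeffMap_coeff]
    exact (P.coeff _).2
  refine ⟨liftA NK hmem, coeffMap_subtype_liftA NK hmem, ?_⟩
  apply coeffMap_subtype_injective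
  rw [Fermat.Agent.P2.helper94.coeffMap_qExpand, coeffMap_subtype_liftA, ← hPK]

/-- **[NORM-β], integral form.** -/
theorem normBeta_int (hp : p.Prime) (hN : ¬ p ∣ N) {ζ : Kbar} (hζ : IsPrimitiveRoot ζ p)
    (y : modularFunctionFieldBar (N * p)) (Y₁ Y₂ : LaurentSeries ↥A)
    (h1 : coeffMap (A.subtype : ↥A →+* Kbar) Y₁ = (y : LaurentSeries Kbar))
    (h2 : coeffMap (A.subtype : ↥A →+* Kbar) Y₂
      = ((atkinLehner N p hp hN y : modularFunctionFieldBar (N * p)) : LaurentSeries Kbar)) :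
    ∃ Yn : LaurentSeries ↥A,
      coeffMap (A.subtype : ↥A →+* Kbar) Yn
        = ((normAlong (heckeBetaBar Kbar N p) y : modularFunctionFieldBar N) :
            LaurentSeries Kbar) ∧
      qExpand ↥A p Yn
        = qExpand ↥A p Y₂ * nrm p (rootUnit A (NeZero.ne p) hζ.pow_eq_one) Y₁ := by
  rw [Fermat.Agent.T7.helper43.normAlong_beta_eq N p hp hN y]
  refine normAlpha_int A hp hN hζ (atkinLehner N p hp hN y) Y₂ Y₁ h2 ?_
  rw [h1, atkinLehner_atkinLehner]

/-- the integers `0 < j < p` are units of a valuation ring over `p` -/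
theorem isUnit_natCast_of_lt (hp : p.Prime) (hA : A.LiesOverPrime p) (j : ℕ) (h0 : 0 < j)
    (hj : j < p) : IsUnit ((j : ℕ) : ↥A) := by
  haveI : Fact p.Prime := ⟨hp⟩
  exact Fermat.Agent.P2.helper81.isUnit_natCast_of_not_dvd A hA j
    (fun h => absurd (Nat.le_of_dvd h0 h) (not_le.mpr hj))

/-- **depth step along `α`**: if the expansion `Y₂` of `W y` is a constant times a `p`-th power
up to depth `c`, then the expansion `Yn` of `N_α y` and the expansion `Y₁` of `y` satisfy
`Yn Q^p = Y₁ P^p + c' X`, `c' ∣ (c^p, p c)`. -/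
theorem depth_step_alpha (hp : p.Prime) (hN : ¬ p ∣ N) (hA : A.LiesOverPrime p) {ζ : Kbar}
    (hζ : IsPrimitiveRoot ζ p)
    (y : modularFunctionFieldBar (N * p)) (Y₁ Y₂ : LaurentSeries ↥A)
    (h1 : coeffMap (A.subtype : ↥A →+* Kbar) Y₁ = (y : LaurentSeries Kbar))
    (h2 : coeffMap (A.subtype : ↥A →+* Kbar) Y₂
      = ((atkinLehner N p hp hN y : modularFunctionFieldBar (N * p)) : LaurentSeries Kbar))
    {c c' : ↥A} (hc1 : c' ∣ c ^ p) (hc2 : c' ∣ (p : ↥A) * c) (κ : ↥A)
    {U V E : LaurentSeries ↥A}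
    (hY : Y₂ * V ^ p = HahnSeries.C κ * U ^ p + HahnSeries.C c * E) :
    ∃ Yn P Q X : LaurentSeries ↥A,
      coeffMap (A.subtype : ↥A →+* Kbar) Yn
        = ((normAlong (heckeAlphaBar Kbar N p) y : modularFunctionFieldBar N) :
            LaurentSeries Kbar) ∧
      qExpand ↥A p P
        = HahnSeries.C κ * nrm p (rootUnit A (NeZero.ne p) hζ.pow_eq_one) U ∧
      qExpand ↥A p Q = nrm p (rootUnit A (NeZero.ne p) hζ.pow_eq_one) V ∧
      Yn * Q ^ p = Y₁ * P ^ p + HahnSeries.C c' * X := by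
  obtain ⟨Yn, hYn, hNn⟩ := normAlpha_int A hp hN hζ y Y₁ Y₂ h1 h2
  obtain ⟨P, Q, X, hP, hQ, hX⟩ := depth_step (isPrimitiveRoot_rootUnit A hζ)
    (isUnit_natCast_of_lt A hp hA) hc1 hc2 κ hNn hY
  exact ⟨Yn, P, Q, X, hYn, hP, hQ, hX⟩

/-- **depth step along `β`**: if the expansion `Y₁` of `y` is a constant times a `p`-th power
up to depth `c`, then the expansion `Yn` of `N_β y` and the expansion `Y₂` of `W y` satisfy
`Yn Q^p = Y₂ P^p + c' X`, `c' ∣ (c^p, p c)`. -/
theorem depth_step_beta (hp : p.Prime) (hN : ¬ p ∣ N) (hA : A.LiesOverPrime p) {ζ : Kbar}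
    (hζ : IsPrimitiveRoot ζ p)
    (y : modularFunctionFieldBar (N * p)) (Y₁ Y₂ : LaurentSeries ↥A)
    (h1 : coeffMap (A.subtype : ↥A →+* Kbar) Y₁ = (y : LaurentSeries Kbar))
    (h2 : coeffMap (A.subtype : ↥A →+* Kbar) Y₂
      = ((atkinLehner N p hp hN y : modularFunctionFieldBar (N * p)) : LaurentSeries Kbar))
    {c c' : ↥A} (hc1 : c' ∣ c ^ p) (hc2 : c' ∣ (p : ↥A) * c) (κ : ↥A)
    {U V E : LaurentSeries ↥A}
    (hY : Y₁ * V ^ p = HahnSeries.C κ * U ^ p + HahnSeries.C c * E) :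
    ∃ Yn P Q X : LaurentSeries ↥A,
      coeffMap (A.subtype : ↥A →+* Kbar) Yn
        = ((normAlong (heckeBetaBar Kbar N p) y : modularFunctionFieldBar N) :
            LaurentSeries Kbar) ∧
      qExpand ↥A p P
        = HahnSeries.C κ * nrm p (rootUnit A (NeZero.ne p) hζ.pow_eq_one) U ∧
      qExpand ↥A p Q = nrm p (rootUnit A (NeZero.ne p) hζ.pow_eq_one) V ∧
      Yn * Q ^ p = Y₂ * P ^ p + HahnSeries.C c' * X := by
  obtain ⟨Yn, hYn, hNn⟩ := normBeta_int A hp hN hζ y Y₁ Y₂ h1 h2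
  obtain ⟨P, Q, X, hP, hQ, hX⟩ := depth_step (isPrimitiveRoot_rootUnit A hζ)
    (isUnit_natCast_of_lt A hp hA) hc1 hc2 κ hNn hY
  exact ⟨Yn, P, Q, X, hYn, hP, hQ, hX⟩

end Modular

end Fermat.Agent.T7.helper93

end
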