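/-
T7 (S33, at risk), helper98: **[B3] (R) - the norm relations on the unit parts** (abstract form
over one ring `R₀ ⊆ ℚ̄`, P2 DISC vocabulary `phi`, `IsRatio`).

Input: the unit parts of `K₁ = K` and `K₂ = W K` (`T7.helper38.disc_unit_pair`)
  `K_i * φ(X ^ n_i) ^ p = φ(u_i) * φ(Z_i) ^ p`,
and ONE norm relation in `q`-series form (`T7.helper43.newNorm_alpha / newNorm_beta`)
  `K₁(q^p) * ∏_{k<p} K₂(ζ^k q) = c * v(q^p) ^ p`
with `v` a ratio of power series over `R₀` and `c = d ^ p`, `d` a ratio.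
Output (`unit_rel_of_norm_rel`): `E u₁ * tprod ζ p u₂ = w ^ p` with `w ∈ R₀⟦X⟧`
(`R₀⟦X⟧` is a UFD, hence `x ^ p ∣ y ^ p → x ∣ y`: this is where the INTEGRALITY of `w` comes
from).
-/
import Mathlib
import Fermat.Agent.T7.helper98_B3Norm
import Fermat.Agent.P2.helper73_DiscRatio
import Fermat.Agent.P2.helper93_ESNorm
import Fermat.Agent.T2.helper87_RegRed2

set_option autoImplicit false
set_option linter.unusedSectionVars false
set_option linter.unusedVariables false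

noncomputable section

open HahnSeries ModularCurve

namespace Fermat.Agent.T7.helper98

open Fermat.Agent.P2.helper23 Fermat.Agent.P2.helper93

/-- `φ (G(X^m)) = (φ G)(q^m)` -/
theorem phi_expand (R₀ : Subring Kb) (m : ℕ) [NeZero m] (G : PowerSeries R₀) :
    phi R₀ (PowerSeries.expand m (NeZero.ne m) G) = qExpand Kb m (phi R₀ G) := by
  have hm0 : (0 : ℤ) < m := by exact_mod_cast Nat.pos_of_ne_zero (NeZero.ne m)
  ext k
  rcases lt_or_ge k 0 with hk | hk
  · rw [phi_apply, ofPowerSeries_coeff_of_neg _ hk]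
    by_cases hd : (m : ℤ) ∣ k
    · obtain ⟨j, rfl⟩ := hd
      rw [qExpand_coeff_mul]
      have hj : j < 0 := by
        by_contra hj
        rw [not_lt] at hj
        exact absurd (mul_nonneg hm0.le hj) (not_le.mpr hk)
      rw [phi_apply, ofPowerSeries_coeff_of_neg _ hj]
    · rw [qExpand_coeff_of_not_dvd _ _ hd]
  · obtain ⟨n, rfl⟩ := Int.eq_ofNat_of_zero_le hk
    rw [phi_coeff_natCast, PowerSeries.coeff_expand]
    by_cases hd : m ∣ n
    · rw [if_pos hd]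
      obtain ⟨j, rfl⟩ := hd
      rw [Nat.mul_div_cancel_left _ (Nat.pos_of_ne_zero (NeZero.ne m))]
      push_cast
      rw [qExpand_coeff_mul, phi_coeff_natCast]
    · rw [if_neg hd]
      have hd' : ¬ (m : ℤ) ∣ (n : ℤ) := by
        intro h
        exact hd (by exact_mod_cast h)
      rw [qExpand_coeff_of_not_dvd _ _ hd']
      rfl

/-- `φ (G(c X)) = (φ G)(c q)` -/
theorem phi_rescale (R₀ : Subring Kb) (c : R₀) (G : PowerSeries R₀) :
    phi R₀ (PowerSeries.rescale c G) = twistL (c : Kb) (phi R₀ G) := by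
  ext k
  rcases lt_or_ge k 0 with hk | hk
  · rw [twistL_coeff, phi_apply, ofPowerSeries_coeff_of_neg _ hk, phi_apply,
      ofPowerSeries_coeff_of_neg _ hk, mul_zero]
  · obtain ⟨n, rfl⟩ := Int.eq_ofNat_of_zero_le hk
    rw [twistL_coeff, phi_coeff_natCast, phi_coeff_natCast, PowerSeries.coeff_rescale]
    push_cast
    rw [zpow_natCast]

/-- `φ (tprod ζ p G) = ∏_{k<p} (φ G)(ζ^k q)` -/
theorem phi_tprod (R₀ : Subring Kb) (ζ : R₀) (p : ℕ) (G : PowerSeries R₀) :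
    phi R₀ (tprod ζ p G) = ∏ k ∈ Finset.range p, twistL ((ζ : Kb) ^ k) (phi R₀ G) := by
  unfold tprod
  rw [map_prod]
  refine Finset.prod_congr rfl fun k _ => ?_
  rw [phi_rescale]
  push_cast
  rfl

theorem isRatio_phi (R₀ : Subring Kb) (G : PowerSeries R₀) : IsRatio R₀ (phi R₀ G) :=
  ⟨G, 1, one_ne_zero, by rw [map_one, mul_one]⟩

theorem isRatio_qExpand' (R₀ : Subring Kb) (m : ℕ) [NeZero m] {f : LaurentSeries Kb}
    (hf : IsRatio R₀ f) : IsRatio R₀ (qExpand Kb m f) := by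
  obtain ⟨G₁, G₂, hG₂, hG⟩ := hf
  refine ⟨PowerSeries.expand m (NeZero.ne m) G₁, PowerSeries.expand m (NeZero.ne m) G₂, ?_, ?_⟩
  · intro h
    have h1 := congrArg (phi R₀) h
    rw [phi_expand, map_zero] at h1
    have h2 : phi R₀ G₂ = 0 := by
      apply qExpand_injective (R := Kb) m
      rw [h1, map_zero]
    exact phi_ne_zero R₀ hG₂ h2
  · rw [phi_expand, phi_expand, ← hG, map_mul]

/-- **integrality by unique factorisation**: a ratio of power series over `R₀` whose `p`-th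
power is a power series over `R₀` is a power series over `R₀`. -/
theorem exists_phi_eq_of_isRatio_pow (R₀ : Subring Kb) [IsPrincipalIdealRing R₀] (p : ℕ)
    (hp : p ≠ 0) (U : PowerSeries R₀) (T : LaurentSeries Kb) (hT : IsRatio R₀ T)
    (hTp : T ^ p = phi R₀ U) : ∃ w : PowerSeries R₀, w ^ p = U ∧ phi R₀ w = T := by
  obtain ⟨a, b, hb, hab⟩ := hT
  have hφb : phi R₀ b ≠ 0 := phi_ne_zero R₀ hb
  have h1 : a ^ p = U * b ^ p := by
    apply phi_injective R₀
    rw [map_pow, map_mul, map_pow, ← hab, mul_pow, hTp]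
  have h2 : b ^ p ∣ a ^ p := ⟨U, by rw [h1, mul_comm]⟩
  obtain ⟨w, hw⟩ := (UniqueFactorizationMonoid.pow_dvd_pow_iff_dvd hp).mp h2
  refine ⟨w, ?_, ?_⟩
  · have h3 : w ^ p * b ^ p = U * b ^ p := by
      rw [← h1, hw, mul_pow, mul_comm]
    exact mul_right_cancel₀ (pow_ne_zero p hb) h3
  · apply mul_right_cancel₀ hφb
    rw [hab, hw, map_mul, mul_comm]

section Rel

variable (R₀ : Subring Kb) [IsPrincipalIdealRing R₀] {p : ℕ} (hp : p.Prime)

/-- **(R), abstract form**: one norm relation gives one relation on the unit parts. -/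
theorem unit_rel_of_norm_rel (ζ : R₀) (hζ0 : (ζ : Kb) ≠ 0)
    (K₁ K₂ : LaurentSeries Kb) (n₁ n₂ : ℕ) (u₁ u₂ Z₁ Z₂ : PowerSeries R₀)
    (hZ₁ : Z₁ ≠ 0) (hZ₂ : Z₂ ≠ 0)
    (hK₁ : K₁ * (phi R₀ (PowerSeries.X ^ n₁)) ^ p = phi R₀ u₁ * (phi R₀ Z₁) ^ p)
    (hK₂ : K₂ * (phi R₀ (PowerSeries.X ^ n₂)) ^ p = phi R₀ u₂ * (phi R₀ Z₂) ^ p)
    (c d : Kb) (hd : d ^ p = c) (hdR : IsRatio R₀ (HahnSeries.C d))
    (v : LaurentSeries Kb) (hv : IsRatio R₀ v)
    (hrel : haveI : NeZero p := ⟨hp.ne_zero⟩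
      qExpand Kb p K₁ * ∏ k ∈ Finset.range p, twistL ((ζ : Kb) ^ k) K₂
        = HahnSeries.C c * (qExpand Kb p v) ^ p) :
    ∃ w : PowerSeries R₀,
      PowerSeries.expand p hp.ne_zero u₁ * tprod ζ p u₂ = w ^ p := by
  have : NeZero p := ⟨hp.ne_zero⟩
  have hp0 : p ≠ 0 := hp.ne_zero
  have hζk : ∀ k : ℕ, (ζ : Kb) ^ k ≠ 0 := fun k => pow_ne_zero k hζ0
  -- the expanded side
  set x₁ : LaurentSeries Kb := phi R₀ (PowerSeries.expand p hp0 (PowerSeries.X ^ n₁)) with hx₁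
  set z₁ : LaurentSeries Kb := phi R₀ (PowerSeries.expand p hp0 Z₁) with hz₁
  have hE : qExpand Kb p K₁ * x₁ ^ p = phi R₀ (PowerSeries.expand p hp0 u₁) * z₁ ^ p := by
    have h := congrArg (qExpand Kb p) hK₁
    rw [(qExpand Kb p).map_mul, (qExpand Kb p).map_pow, (qExpand Kb p).map_mul,
      (qExpand Kb p).map_pow, ← phi_expand, ← phi_expand, ← phi_expand] at h
    exact h
  -- the twisted side
  set Y : LaurentSeries Kb := phi R₀ (tprod ζ p (PowerSeries.X ^ n₂)) with hY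
  set Tt : LaurentSeries Kb := phi R₀ (tprod ζ p Z₂) with hTt
  have hP : (∏ k ∈ Finset.range p, twistL ((ζ : Kb) ^ k) K₂) * Y ^ p
      = phi R₀ (tprod ζ p u₂) * Tt ^ p := by
    rw [hY, hTt, phi_tprod, phi_tprod, phi_tprod, ← Finset.prod_pow, ← Finset.prod_pow,
      ← Finset.prod_mul_distrib, ← Finset.prod_mul_distrib]
    refine Finset.prod_congr rfl fun k _ => ?_
    have h := congrArg (Fermat.Agent.T2.helper87.twistHom ((ζ : Kb) ^ k) (hζk k)) hK₂
    rw [(Fermat.Agent.T2.helper87.twistHom ((ζ : Kb) ^ k) (hζk k)).map_mul,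
      (Fermat.Agent.T2.helper87.twistHom ((ζ : Kb) ^ k) (hζk k)).map_pow,
      (Fermat.Agent.T2.helper87.twistHom ((ζ : Kb) ^ k) (hζk k)).map_mul,
      (Fermat.Agent.T2.helper87.twistHom ((ζ : Kb) ^ k) (hζk k)).map_pow] at h
    simp only [Fermat.Agent.T2.helper87.twistHom_apply] at h
    exact h
  have hz₁0 : z₁ ≠ 0 := by
    rw [hz₁, phi_expand]
    exact (map_ne_zero_iff _ (qExpand_injective (R := Kb) p)).mpr (phi_ne_zero R₀ hZ₁)
  have hTt0 : Tt ≠ 0 := by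
    rw [hTt, phi_tprod]
    refine Finset.prod_ne_zero_iff.mpr fun k _ => ?_
    exact (map_ne_zero_iff (Fermat.Agent.T2.helper87.twistHom ((ζ : Kb) ^ k) (hζk k))
      (RingHom.injective _)).mpr (phi_ne_zero R₀ hZ₂)
  -- the root as a ratio
  set T : LaurentSeries Kb := HahnSeries.C d * qExpand Kb p v * (x₁ * Y) * (z₁ * Tt)⁻¹ with hT
  have hTR : IsRatio R₀ T := by
    refine Fermat.Agent.P2.helper73.IsRatio.mul (Fermat.Agent.P2.helper73.IsRatio.mul
      (Fermat.Agent.P2.helper73.IsRatio.mul hdR (isRatio_qExpand' R₀ p hv)) ?_) ?_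
    · rw [hx₁, hY, ← map_mul]
      exact isRatio_phi R₀ _
    · apply Fermat.Agent.P2.helper73.IsRatio.inv
      rw [hz₁, hTt, ← map_mul]
      exact isRatio_phi R₀ _
  have hTp : T ^ p = phi R₀ (PowerSeries.expand p hp0 u₁ * tprod ζ p u₂) := by
    have hzT : (z₁ * Tt) ^ p ≠ 0 := pow_ne_zero p (mul_ne_zero hz₁0 hTt0)
    have hCd : (HahnSeries.C d : LaurentSeries Kb) ^ p = HahnSeries.C c := by
      rw [← map_pow, hd]
    rw [hT, mul_pow, mul_pow, mul_pow, inv_pow, hCd, ← hrel, map_mul]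
    rw [eq_comm, ← div_eq_mul_inv, eq_div_iff hzT]
    calc phi R₀ (PowerSeries.expand p hp0 u₁) * phi R₀ (tprod ζ p u₂) * (z₁ * Tt) ^ p
        = (phi R₀ (PowerSeries.expand p hp0 u₁) * z₁ ^ p)
            * (phi R₀ (tprod ζ p u₂) * Tt ^ p) := by ring
      _ = (qExpand Kb p K₁ * x₁ ^ p)
            * ((∏ k ∈ Finset.range p, twistL ((ζ : Kb) ^ k) K₂) * Y ^ p) := by rw [hE, hP]
      _ = _ := by ring
  obtain ⟨w, hw, -⟩ := exists_phi_eq_of_isRatio_pow R₀ p hp0 _ T hTR hTp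
  exact ⟨w, hw.symm⟩

end Rel

end Fermat.Agent.T7.helper98

end
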