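/-
T7 (S33, at risk), helper98: **[B3] (R) - the norm relations on the unit parts, instance form**
(`K₀`-quantified, composes with `T7.helper38.disc_unit_pair`).

Level `N p`.  `K₁, K₂` the expansions of `K`, `W K`; the two norm relations of
`T7.helper43.newNorm_alpha / newNorm_beta` (`n = p`) as hypotheses.  Then there is a finite set
`S ⊆ ℚ̄` such that over every number field `K₀ ⊇ S`, with `R₀ = A ∩ K₀`:
`ζ ∈ R₀`, and for ALL unit-part factorisations `K_i * φ(X^{n_i})^p = φ(u_i) * φ(Z_i)^p` over `R₀`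
  `E u₁ * tprod ζ p u₂ = w ^ p`,  `tprod ζ p u₁ * E u₂ = w' ^ p`   with `w, w' ∈ R₀⟦X⟧`
(the hypotheses (h1), (h2) of `helper98.exists_roots_of_norm_rel`).
-/
import Mathlib
import Fermat.Agent.T7.helper98_B3Rel
import Fermat.Agent.P2.helper89_DiscPID

set_option autoImplicit false
set_option linter.unusedSectionVars false
set_option linter.unusedVariables false

noncomputable section

open HahnSeries ModularCurve

namespace Fermat.Agent.T7.helper98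

open Fermat.Agent.P2.helper23 Fermat.Agent.P2.helper93

/-- a root of unity lies in every valuation subring -/
theorem mem_of_pow_eq_one {L : Type*} [Field L] (A : ValuationSubring L) {ζ : L} {n : ℕ}
    (hn : n ≠ 0) (h : ζ ^ n = 1) : ζ ∈ A := by
  rcases A.mem_or_inv_mem ζ with h1 | h1
  · exact h1
  · have h2 : ζ = (ζ⁻¹) ^ (n - 1) := by
      have hζ0 : ζ ≠ 0 := by
        rintro rfl
        rw [zero_pow hn] at h
        exact zero_ne_one h
      have h3 : ζ * ζ ^ (n - 1) = 1 := by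
        rw [← pow_succ', Nat.sub_add_cancel (Nat.one_le_iff_ne_zero.2 hn), h]
      rw [inv_pow]
      exact eq_inv_of_mul_eq_one_left h3
    rw [h2]
    exact pow_mem h1 _

/-- **(R), instance form.** -/
theorem unit_rel_inst (N p : ℕ) [NeZero N] [NeZero p] (hp : p.Prime) (A : ValuationSubring Kb)
    (ζ : Kb) (hζ : IsPrimitiveRoot ζ p) (K₁ K₂ : LaurentSeries Kb) (c c' : Kb) (v v' : FF N)
    (hα : qExpand Kb p K₁ * ∏ k ∈ Finset.range p, twistL (ζ ^ k) K₂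
      = algebraMap Kb (LaurentSeries Kb) c * (qExpand Kb p (v : LaurentSeries Kb)) ^ p)
    (hβ : qExpand Kb p K₂ * ∏ k ∈ Finset.range p, twistL (ζ ^ k) K₁
      = algebraMap Kb (LaurentSeries Kb) c' * (qExpand Kb p (v' : LaurentSeries Kb)) ^ p) :
    ∃ S : Finset Kb, ∀ K₀ : IntermediateField ℚ Kb, FiniteDimensional ℚ K₀ →
      (S : Set Kb) ⊆ K₀ →
      ∃ ζ₀ : capSubring A K₀, (ζ₀ : Kb) = ζ ∧ IsPrimitiveRoot ζ₀ p ∧
        ∀ (n₁ n₂ : ℕ) (u₁ u₂ Z₁ Z₂ : PowerSeries (capSubring A K₀)), Z₁ ≠ 0 → Z₂ ≠ 0 →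
          K₁ * (phi (capSubring A K₀) (PowerSeries.X ^ n₁)) ^ p
            = phi (capSubring A K₀) u₁ * (phi (capSubring A K₀) Z₁) ^ p →
          K₂ * (phi (capSubring A K₀) (PowerSeries.X ^ n₂)) ^ p
            = phi (capSubring A K₀) u₂ * (phi (capSubring A K₀) Z₂) ^ p →
          ∃ w w' : PowerSeries (capSubring A K₀),
            PowerSeries.expand p hp.ne_zero u₁ * tprod ζ₀ p u₂ = w ^ p ∧
              tprod ζ₀ p u₁ * PowerSeries.expand p hp.ne_zero u₂ = w' ^ p := by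
  classical
  obtain ⟨d, hd⟩ := IsAlgClosed.exists_pow_nat_eq c hp.pos
  obtain ⟨d', hd'⟩ := IsAlgClosed.exists_pow_nat_eq c' hp.pos
  obtain ⟨Sv, hSv⟩ := Fermat.Agent.P2.helper73.exists_finset_isRatio N A
    (v : LaurentSeries Kb) v.2
  obtain ⟨Sv', hSv'⟩ := Fermat.Agent.P2.helper73.exists_finset_isRatio N A
    (v' : LaurentSeries Kb) v'.2
  obtain ⟨Sd, hSd⟩ := Fermat.Agent.P2.helper73.isRatioEv_const A d
  obtain ⟨Sd', hSd'⟩ := Fermat.Agent.P2.helper73.isRatioEv_const A d'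
  refine ⟨{ζ} ∪ Sv ∪ Sv' ∪ Sd ∪ Sd', fun K₀ hfd hS => ?_⟩
  have hsub : ∀ T : Finset Kb, T ⊆ {ζ} ∪ Sv ∪ Sv' ∪ Sd ∪ Sd' → (T : Set Kb) ⊆ K₀ :=
    fun T hT x hx => hS (Finset.mem_coe.mpr (hT (Finset.mem_coe.mp hx)))
  have hζK : ζ ∈ K₀ := hsub {ζ} (by
    intro x hx
    simp only [Finset.mem_union]
    exact Or.inl (Or.inl (Or.inl (Or.inl hx)))) (by simp)
  have hvR := hSv K₀ (hsub Sv (by
    intro x hx
    simp only [Finset.mem_union]
    exact Or.inl (Or.inl (Or.inl (Or.inr hx)))))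
  have hv'R := hSv' K₀ (hsub Sv' (by
    intro x hx
    simp only [Finset.mem_union]
    exact Or.inl (Or.inl (Or.inr hx))))
  have hdR := hSd K₀ (hsub Sd (by
    intro x hx
    simp only [Finset.mem_union]
    exact Or.inl (Or.inr hx)))
  have hd'R := hSd' K₀ (hsub Sd' (by
    intro x hx
    simp only [Finset.mem_union]
    exact Or.inr hx))
  have : IsPrincipalIdealRing (capSubring A K₀) :=
    Fermat.Agent.P2.helper89.isPrincipalIdealRing_capSubring A K₀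
  have hζA : ζ ∈ A := mem_of_pow_eq_one A hp.ne_zero hζ.pow_eq_one
  set ζ₀ : capSubring A K₀ := ⟨ζ, ⟨hζA, hζK⟩⟩ with hζ₀
  have hζ₀p : IsPrimitiveRoot ζ₀ p := by
    have h1 : IsPrimitiveRoot ((capSubring A K₀).subtype ζ₀) p := hζ
    exact IsPrimitiveRoot.of_map_of_injective h1 (capSubring A K₀).subtype_injective
  have hζ0 : ((ζ₀ : capSubring A K₀) : Kb) ≠ 0 := hζ.ne_zero hp.ne_zero
  refine ⟨ζ₀, rfl, hζ₀p, fun n₁ n₂ u₁ u₂ Z₁ Z₂ hZ₁ hZ₂ hK₁ hK₂ => ?_⟩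
  have hC : ∀ x : Kb, algebraMap Kb (LaurentSeries Kb) x = HahnSeries.C x := by
    intro x
    rw [algebraMap_laurentSeries_eq_single]
    rfl
  obtain ⟨w, hw⟩ := unit_rel_of_norm_rel (capSubring A K₀) hp ζ₀ hζ0 K₁ K₂ n₁ n₂ u₁ u₂ Z₁ Z₂
    hZ₁ hZ₂ hK₁ hK₂ c d hd hdR (v : LaurentSeries Kb) hvR (by rw [← hC]; exact hα)
  obtain ⟨w', hw'⟩ := unit_rel_of_norm_rel (capSubring A K₀) hp ζ₀ hζ0 K₂ K₁ n₂ n₁ u₂ u₁ Z₂ Z₁
    hZ₂ hZ₁ hK₂ hK₁ c' d' hd' hd'R (v' : LaurentSeries Kb) hv'R (by rw [← hC]; exact hβ)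
  exact ⟨w, w', hw, by rw [mul_comm]; exact hw'⟩

end Fermat.Agent.T7.helper98

end
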