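/-
T7 (S33, at risk), helper98: **[B3-ALG] in the shape wanted by the owner of [B3]** (helper38,
finding #3291 (e)).

`A` a valuation subring of an algebraically closed field of characteristic `0`, `p` prime,
`ζ ∈ A` a primitive `p`-th root of unity, `u₁ u₂` units of `A⟦X⟧` with `u_i ≡ 1 mod ϖ`, where
`p ^ 2 ∣ ϖ ^ N` in `A` for some `N` (archimedean property; automatic for `ϖ ≠ 0` in a valuation
subring of `ℚ̄`), and
  `u₁(X^p) * ∏_{k<p} u₂(ζ^k X) = w ^ p`,   `∏_{k<p} u₁(ζ^k X) * u₂(X^p) = w' ^ p`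
(`w`, `w'` ARBITRARY series, e.g. `expand p v`).  Then `u₁` and `u₂` are `p`-th powers in `A⟦X⟧`.

No hypothesis `p` odd, `p ∈ 𝔪_A`, `ϖ ∈ 𝔪_A`, `w` unit is needed.
-/
import Mathlib
import Fermat.Agent.T7.helper98_B3Alg
import Fermat.Agent.P2.helper74_Content

set_option autoImplicit false
set_option linter.unusedSectionVars false
set_option linter.unusedVariables false

noncomputable section

namespace Fermat.Agent.T7.helper98

open PowerSeries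

/-- **[B3-ALG], wanted shape.** -/
theorem exists_roots_of_norm_rel_val {L : Type*} [Field L] [CharZero L] [IsAlgClosed L]
    (A : ValuationSubring L) {p : ℕ} (hp : p.Prime) (ζ : A) (hζ : IsPrimitiveRoot ζ p)
    (ϖ : A) (N : ℕ) (hN : ((p : ℕ) : A) ^ 2 ∣ ϖ ^ N)
    (u₁ u₂ w w' : PowerSeries A) (hu₁ : IsUnit u₁) (hu₂ : IsUnit u₂)
    (hϖ₁ : ∃ F : PowerSeries A, u₁ = 1 + C ϖ * F) (hϖ₂ : ∃ F : PowerSeries A, u₂ = 1 + C ϖ * F)
    (h1 : expand p hp.ne_zero u₁ * ∏ k ∈ Finset.range p, rescale (ζ ^ k) u₂ = w ^ p)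
    (h2 : (∏ k ∈ Finset.range p, rescale (ζ ^ k) u₁) * expand p hp.ne_zero u₂ = w' ^ p) :
    ∃ Y₁ Y₂ : PowerSeries A, Y₁ ^ p = u₁ ∧ Y₂ ^ p = u₂ := by
  obtain ⟨F₁, hF₁⟩ := hϖ₁
  obtain ⟨F₂, hF₂⟩ := hϖ₂
  -- a depth `π` dividing `p`, with `p ^ 2 ∣ π ^ M`, `M ≥ 1`
  obtain ⟨π, p', M, hπ, hM, hM2, hb₁, hb₂⟩ : ∃ (π p' : A) (M : ℕ), ((p : ℕ) : A) = π * p' ∧
      1 ≤ M ∧ ((p : ℕ) : A) ^ 2 ∣ π ^ M ∧ IsPowMod p π u₁ ∧ IsPowMod p π u₂ := by
    rcases ValuationRing.dvd_total ϖ ((p : ℕ) : A) with h | h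
    · obtain ⟨p', hp'⟩ := h
      refine ⟨ϖ, p', N + 1, hp', by omega, ?_, isPowMod_of_eq_one_add hF₁,
        isPowMod_of_eq_one_add hF₂⟩
      rw [pow_succ ϖ N]
      exact Dvd.dvd.mul_right hN ϖ
    · refine ⟨((p : ℕ) : A), 1, 2, (mul_one _).symm, by omega, dvd_rfl, ?_, ?_⟩
      · exact isPowMod_of_dvd h (isPowMod_of_eq_one_add hF₁)
      · exact isPowMod_of_dvd h (isPowMod_of_eq_one_add hF₂)
  obtain ⟨a, ha⟩ := hM2
  obtain ⟨hN₁, hN₂⟩ := isPowMod_of_norm_rel hp hζ π p' hπ u₁ u₂ w w' hu₁ hu₂ h1 h2 hb₁ hb₂ M hM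
  rw [ha] at hN₁ hN₂
  obtain ⟨Y₁, hY₁⟩ := exists_pow_eq_of_isPowMod A p hp.ne_zero a u₁ hu₁ hN₁
  obtain ⟨Y₂, hY₂⟩ := exists_pow_eq_of_isPowMod A p hp.ne_zero a u₂ hu₂ hN₂
  exact ⟨Y₁, Y₂, hY₁, hY₂⟩

/-- **[B3-ALG], wanted shape, with (ARCH)** (`P2.helper74.Arch`, e.g.
`P2.helper74.arch_algebraicClosure` for a valuation subring of `ℚ̄` over a prime): here `ϖ` is
any element with reduction `0`. -/
theorem exists_roots_of_norm_rel_arch {L : Type*} [Field L] [CharZero L] [IsAlgClosed L]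
    (A : ValuationSubring L) {k : Type*} [Field k] (π : A →+* k)
    (hArch : Fermat.Agent.P2.helper74.Arch A π) {p : ℕ} (hp : p.Prime) (ζ : A)
    (hζ : IsPrimitiveRoot ζ p) (ϖ : A) (hϖ : π ϖ = 0)
    (u₁ u₂ w w' : PowerSeries A) (hu₁ : IsUnit u₁) (hu₂ : IsUnit u₂)
    (hϖ₁ : ∃ F : PowerSeries A, u₁ = 1 + C ϖ * F) (hϖ₂ : ∃ F : PowerSeries A, u₂ = 1 + C ϖ * F)
    (h1 : expand p hp.ne_zero u₁ * ∏ k ∈ Finset.range p, rescale (ζ ^ k) u₂ = w ^ p)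
    (h2 : (∏ k ∈ Finset.range p, rescale (ζ ^ k) u₁) * expand p hp.ne_zero u₂ = w' ^ p) :
    ∃ Y₁ Y₂ : PowerSeries A, Y₁ ^ p = u₁ ∧ Y₂ ^ p = u₂ := by
  have hp2 : ((p : ℕ) : A) ^ 2 ≠ 0 := by
    apply pow_ne_zero
    intro h0
    have h1 := congrArg A.subtype h0
    rw [map_natCast, map_zero] at h1
    exact hp.ne_zero (by exact_mod_cast h1)
  obtain ⟨N, hN⟩ := hArch ϖ hϖ _ hp2
  exact exists_roots_of_norm_rel_val A hp ζ hζ ϖ N hN u₁ u₂ w w' hu₁ hu₂ hϖ₁ hϖ₂ h1 h2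

/-- the reduction of a `p`-th root of a series of reduction `1` is `1` (residue characteristic
`p`): no normalisation by a root of unity is needed. -/
theorem map_eq_one_of_pow {k : Type*} [Field k] {S : Type*} [CommRing S] (f : S →+* k)
    (p : ℕ) [hp : Fact p.Prime] [CharP k p] (Y : PowerSeries S)
    (h : PowerSeries.map f (Y ^ p) = 1) : PowerSeries.map f Y = 1 := by
  have : CharP (PowerSeries k) p := by
    refine (CharP.charP_iff_prime_eq_zero hp.out).mpr ?_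
    have h0 : ((p : ℕ) : k) = 0 := CharP.cast_eq_zero k p
    have : ((p : ℕ) : PowerSeries k) = C ((p : ℕ) : k) :=
      (map_natCast (C : k →+* PowerSeries k) p).symm
    rw [this, h0, map_zero]
  rw [map_pow] at h
  have h2 : (PowerSeries.map f Y - 1) ^ p = 0 := by
    rw [sub_pow_char, one_pow, h, sub_self]
  exact sub_eq_zero.mp (pow_eq_zero_iff (hp.out.ne_zero) |>.mp h2)

end Fermat.Agent.T7.helper98

end
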